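import Mathlib
import Fermat.Prelude.Def_FLTPrelim_ModularRep
import Fermat.Prelude.Def_FreyPackage_LevelRaising
import Fermat.Prelude.Def_ModularCurve_PeriodMap

/-!
# Project S41 (level raising): common definitions and top-level contracts

Owner: helper6 (blueprint).  Everything here is sorry-free.  Layer owners prove the contracts
(`def … : Prop`) in their own files under `Fermat/Agent/Lib/S41/`.

Notation: `A = Γ₀(N)`, `C = Γ₀(N q)`, `h = diag(q, 1)`.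
-/

set_option autoImplicit false

open CongruenceSubgroup ModularCurve.Period
open scoped MatrixGroups

namespace Fermat.Agent.Lib.S41

/-! ### The two maps `Γ₀(N q) → Γ₀(N)` -/

theorem h6_gamma0_mul_le (N q : ℕ) : Gamma0 (N * q) ≤ Gamma0 N := by
  intro g hg
  rw [Gamma0_mem] at hg ⊢
  have h1 : ((N * q : ℕ) : ℤ) ∣ (g : Matrix (Fin 2) (Fin 2) ℤ) 1 0 :=
    (ZMod.intCast_zmod_eq_zero_iff_dvd _ _).mp hg
  exact (ZMod.intCast_zmod_eq_zero_iff_dvd _ _).mpr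
    (dvd_trans (by exact_mod_cast Dvd.intro q rfl) h1)

/-- The inclusion `Γ₀(N q) → Γ₀(N)`. -/
def h6_incl (N q : ℕ) : Gamma0 (N * q) →* Gamma0 N :=
  Subgroup.inclusion (h6_gamma0_mul_le N q)

/-- The integer matrix `[[a, q b], [c / q, d]]`. -/
def h6_conjMat (q : ℕ) (g : Matrix (Fin 2) (Fin 2) ℤ) : Matrix (Fin 2) (Fin 2) ℤ :=
  !![g 0 0, (q : ℤ) * g 0 1; g 1 0 / (q : ℤ), g 1 1]

theorem h6_conjMat_det (q : ℕ) (g : Matrix (Fin 2) (Fin 2) ℤ) (hq : (q : ℤ) ∣ g 1 0) :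
    (h6_conjMat q g).det = g.det := by
  obtain ⟨c, hc⟩ := hq
  rw [h6_conjMat, Matrix.det_fin_two_of, Matrix.det_fin_two, hc]
  rcases Nat.eq_zero_or_pos q with h0 | hpos
  · subst h0; simp
  · have hq0 : (q : ℤ) ≠ 0 := by exact_mod_cast hpos.ne'
    rw [Int.mul_ediv_cancel_left _ hq0]; ring

theorem h6_dvd_of_mem (N q : ℕ) (g : SL(2, ℤ)) (hg : g ∈ Gamma0 (N * q)) :
    ((N : ℤ) * (q : ℤ)) ∣ (g : Matrix (Fin 2) (Fin 2) ℤ) 1 0 := by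
  rw [Gamma0_mem] at hg
  have := (ZMod.intCast_zmod_eq_zero_iff_dvd _ _).mp hg
  exact_mod_cast this

/-- Conjugation by `h = diag(q, 1)` as a map of `SL(2, ℤ)`-elements on `Γ₀(N q)`. -/
def h6_conjSL (N q : ℕ) (g : Gamma0 (N * q)) : SL(2, ℤ) :=
  ⟨h6_conjMat q ((g : SL(2, ℤ)) : Matrix (Fin 2) (Fin 2) ℤ), by
    rw [h6_conjMat_det q _ (dvd_trans (Dvd.intro_left _ rfl) (h6_dvd_of_mem N q g g.2))]
    exact (g : SL(2, ℤ)).2⟩

theorem h6_conjSL_mem (N q : ℕ) (hq : 0 < q) (g : Gamma0 (N * q)) :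
    h6_conjSL N q g ∈ Gamma0 N := by
  rw [Gamma0_mem]
  obtain ⟨c, hc⟩ := h6_dvd_of_mem N q g g.2
  have hq0 : (q : ℤ) ≠ 0 := by exact_mod_cast hq.ne'
  show (((h6_conjMat q ((g : SL(2, ℤ)) : Matrix (Fin 2) (Fin 2) ℤ)) 1 0 : ℤ) : ZMod N) = 0
  have : (h6_conjMat q ((g : SL(2, ℤ)) : Matrix (Fin 2) (Fin 2) ℤ)) 1 0 = (N : ℤ) * c := by
    simp only [h6_conjMat, Matrix.of_apply, Matrix.cons_val', Matrix.cons_val_zero,
      Matrix.cons_val_one]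
    rw [hc, show (N : ℤ) * (q : ℤ) * c = (q : ℤ) * ((N : ℤ) * c) by ring,
      Int.mul_ediv_cancel_left _ hq0]
  rw [this]; push_cast; simp

theorem h6_conjMat_mul (q : ℕ) (hq : 0 < q) (g g' : Matrix (Fin 2) (Fin 2) ℤ)
    (hg : (q : ℤ) ∣ g 1 0) (hg' : (q : ℤ) ∣ g' 1 0) :
    h6_conjMat q (g * g') = h6_conjMat q g * h6_conjMat q g' := by
  obtain ⟨c, hc⟩ := hg
  obtain ⟨c', hc'⟩ := hg'
  have hq0 : (q : ℤ) ≠ 0 := by exact_mod_cast hq.ne'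
  ext i j
  fin_cases i <;> fin_cases j <;>
    simp [h6_conjMat, Matrix.mul_apply, Fin.sum_univ_two, hc, hc', Int.mul_ediv_cancel_left _ hq0]
  · ring
  · ring
  · rw [show (q : ℤ) * c * g' 0 0 + g 1 1 * ((q : ℤ) * c') = (q : ℤ) * (c * g' 0 0 + g 1 1 * c')
      by ring, Int.mul_ediv_cancel_left _ hq0]
  · ring

/-- Conjugation by `h = diag(q, 1)`: `Γ₀(N q) → Γ₀(N)`, `[[a,b],[c,d]] ↦ [[a, q b],[c/q, d]]`. -/
def h6_conjH (N q : ℕ) (hq : 0 < q) : Gamma0 (N * q) →* Gamma0 N where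
  toFun g := ⟨h6_conjSL N q g, h6_conjSL_mem N q hq g⟩
  map_one' := by
    apply Subtype.ext; apply Subtype.ext
    show h6_conjMat q ((((1 : Gamma0 (N * q)) : SL(2, ℤ)) : Matrix (Fin 2) (Fin 2) ℤ)) = 1
    rw [OneMemClass.coe_one, Matrix.SpecialLinearGroup.coe_one]
    ext i j; fin_cases i <;> fin_cases j <;> simp [h6_conjMat]
  map_mul' g g' := by
    apply Subtype.ext; apply Subtype.ext
    show h6_conjMat q ((((g * g' : Gamma0 (N * q)) : SL(2, ℤ)) : Matrix (Fin 2) (Fin 2) ℤ))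
      = h6_conjMat q _ * h6_conjMat q _
    rw [MulMemClass.coe_mul, Matrix.SpecialLinearGroup.coe_mul]
    exact h6_conjMat_mul q hq _ _
      (dvd_trans (Dvd.intro_left _ rfl) (h6_dvd_of_mem N q g g.2))
      (dvd_trans (Dvd.intro_left _ rfl) (h6_dvd_of_mem N q g' g'.2))


/-! ### Pull-back and transfer of homomorphisms to an abelian group -/

section PullPush

variable {Γ Γ' : Type*} [Group Γ] [Group Γ'] (A : Type*) [AddCommGroup A]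

/-- Pull-back of additive characters along a group homomorphism. -/
def h6_pull (φ : Γ' →* Γ) : (Additive Γ →+ A) →+ (Additive Γ' →+ A) where
  toFun x := x.comp (MonoidHom.toAdditive φ)
  map_zero' := rfl
  map_add' _ _ := rfl

@[simp] theorem h6_pull_apply (φ : Γ' →* Γ) (x : Additive Γ →+ A) (g : Γ') :
    h6_pull A φ x (Additive.ofMul g) = x (Additive.ofMul (φ g)) := rfl

/-- An additive character of `Γ'`, transported to the subgroup `φ.range` of `Γ`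
(`φ` injective). -/
noncomputable def h6_onRange (φ : Γ' →* Γ) (hφ : Function.Injective φ) (x : Additive Γ' →+ A) :
    φ.range →* Multiplicative A :=
  (AddMonoidHom.toMultiplicativeRight x).comp (MonoidHom.ofInjective hφ).symm.toMonoidHom

/-- Transfer (corestriction) of additive characters along an injective homomorphism with
finite-index image, via `MonoidHom.transfer`. -/
noncomputable def h6_push (φ : Γ' →* Γ) (hφ : Function.Injective φ) [φ.range.FiniteIndex] :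
    (Additive Γ' →+ A) → (Additive Γ →+ A) := fun x =>
  MonoidHom.toAdditiveLeft (MonoidHom.transfer (h6_onRange A φ hφ x))

end PullPush

/-! ### Top-level contracts -/

open WeierstrassCurve WeierstrassCurve.Affine WeierstrassCurve.Affine.Point in
/-- **(T1) Non-Eisenstein from irreducibility** (Galois side; layers C1–C3). -/
def h6_NonEisStatement : Prop :=
  ∀ (E : WeierstrassCurve ℚ) [E.IsElliptic] {W : WeierstrassCurve ℤ}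
    (_ : W.IsIntegralModelOf E) {p : ℕ} (_ : p.Prime) (_ : p ≠ 2)
    (_ : GaloisRepIsIrreducible (K := AlgebraicClosure ℚ) ℚ E p) (S : Finset ℕ),
    ∃ ℓ : ℕ, ℓ.Prime ∧ ℓ ∉ S ∧ W.IsGoodPrimeFor ℓ ∧
      ¬ ((p : ℤ) ∣ W.apOfModel ℓ - (1 + (ℓ : ℤ)))

/-- **(T2) Level raising for a non-Eisenstein mod `p` system** (modular side, no elliptic
curve). `a ℓ` plays the role of `a_ℓ(W)`, `G` of the set of good primes. -/
def h6_ModLevelRaiseStatement : Prop :=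
  ∀ {p N q' : ℕ} (_ : p.Prime) (_ : p ≠ 2) (_ : 0 < N) (_ : q'.Prime) (_ : ¬ q' ∣ N)
    (_ : q' ≠ p) (f : CuspForm (Gamma0 N) 2) (𝔪 : Ideal (integralClosure ℤ ℂ))
    (_ : f.IsNormalizedEigenform) (_ : 𝔪.IsMaximal) (_ : (p : integralClosure ℤ ℂ) ∈ 𝔪)
    (a : ℕ → ℤ) (G : Set ℕ) (_ : ∀ ℓ ∈ G, ℓ.Prime ∧ ¬ ℓ ∣ N * q' ∧ ℓ ≠ p)
    (_ : ∀ ℓ ∈ G, ∃ c : integralClosure ℤ ℂ, (c : ℂ) = ModularFormClass.qCoeff f ℓ ∧
        c - ((a ℓ : ℤ) : integralClosure ℤ ℂ) ∈ 𝔪)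
    (_ : ∃ ℓ ∈ G, ¬ ((p : ℤ) ∣ a ℓ - (1 + (ℓ : ℤ))))
    (_ : ∃ c : integralClosure ℤ ℂ, (c : ℂ) = ModularFormClass.qCoeff f q' ∧
        c ^ 2 - ((q' : integralClosure ℤ ℂ) + 1) ^ 2 ∈ 𝔪),
    ∃ (g : CuspForm (Gamma0 (N * q')) 2) (𝔪' : Ideal (integralClosure ℤ ℂ)),
      g.IsNormalizedEigenform ∧ 𝔪'.IsMaximal ∧ (p : integralClosure ℤ ℂ) ∈ 𝔪' ∧
      (∀ ℓ ∈ G, ∃ c : integralClosure ℤ ℂ, (c : ℂ) = ModularFormClass.qCoeff g ℓ ∧
          c - ((a ℓ : ℤ) : integralClosure ℤ ℂ) ∈ 𝔪') ∧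
      g.IsNewAt q'

/-- **(A) Ihara's lemma**, strong explicit form: a pair of parabolic characters of `Γ₀(N)` with
values in `𝔽_p` whose two pull-backs to `Γ₀(N q)` cancel is trivial on `Γ₁(N)`. -/
def h6_IharaStatement : Prop :=
  ∀ {p N q : ℕ} (_ : p.Prime) (_ : 0 < N) (hq : q.Prime) (_ : ¬ q ∣ N)
    (x y : Additive (Gamma0 N) →+ ZMod p)
    (_ : IsParabolicHom (Gamma0 N) x) (_ : IsParabolicHom (Gamma0 N) y)
    (_ : ∀ g : Gamma0 (N * q), x (Additive.ofMul (h6_incl N q g))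
        + y (Additive.ofMul (h6_conjH N q hq.pos g)) = 0),
    ∀ g : Gamma0 N, Gamma0Map N g = 1 →
      x (Additive.ofMul g) = 0 ∧ y (Additive.ofMul g) = 0

/-- **(F1) The abstract congruence-module lemma** (pure linear algebra over `ℤ`; steps (ii)+(iii)
of the blueprint).  `LA = L_N`, `LC = L_{Nq}`, `α = res`, `β = resH`, `α' = cores`, `β' = coresH`,
`T = T_q`, `TA i`, `TC i` the Hecke operators `T_ℓ` (`ℓ ∈ G`), `e i = 1 + ℓ`, `θ i = a ℓ`.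
`ihara` is Ihara's lemma, `dual` is the dual Ihara lemma (from Poincaré duality + Ihara).
Conclusion: a `q`-new class, nonzero mod `p`, which is a mod `p` eigenvector with the same
eigenvalues. -/
def h6_F1Statement : Prop :=
  ∀ (LA LC : Type) [AddCommGroup LA] [AddCommGroup LC] [Module.Finite ℤ LA] [Module.Free ℤ LA]
    [Module.Finite ℤ LC] [Module.Free ℤ LC] (p : ℕ) (_ : p.Prime) (q : ℤ)
    (ι : Type) (TA : ι → LA →+ LA) (TC : ι → LC →+ LC) (T : LA →+ LA)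
    (α β : LA →+ LC) (α' β' : LC →+ LA)
    (_ : ∀ x, α' (α x) = (q + 1) • x) (_ : ∀ x, β' (β x) = (q + 1) • x)
    (_ : ∀ x, α' (β x) = T x) (_ : ∀ x, β' (α x) = T x)
    (_ : ∀ i x, TC i (α x) = α (TA i x)) (_ : ∀ i x, TC i (β x) = β (TA i x))
    (_ : ∀ i y, TA i (α' y) = α' (TC i y)) (_ : ∀ i y, TA i (β' y) = β' (TC i y))
    (e θ : ι → ℤ)
    (_ : ∀ x y : LA, (∃ z, α x + β y = (p : ℤ) • z) →
      ∀ i, (∃ x', TA i x - e i • x = (p : ℤ) • x') ∧ (∃ y', TA i y - e i • y = (p : ℤ) • y'))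
    (_ : ∀ (i : ι) (x y : LA), ∃ (z : LC) (x' y' : LA),
      α' z = TA i x - e i • x + (p : ℤ) • x' ∧ β' z = TA i y - e i • y + (p : ℤ) • y')
    (i0 : ι) (_ : ¬ (p : ℤ) ∣ θ i0 - e i0)
    (x : LA) (_ : ¬ ∃ x', x = (p : ℤ) • x') (_ : ∀ i, ∃ x', TA i x - θ i • x = (p : ℤ) • x')
    (ε : ℤ) (_ : ε = 1 ∨ ε = -1) (_ : ∃ x', T x - (ε * (q + 1)) • x = (p : ℤ) • x'),
    ∃ y : LC, α' y = 0 ∧ β' y = 0 ∧ (¬ ∃ y', y = (p : ℤ) • y') ∧
      ∀ i, ∃ y', TC i y - θ i • y = (p : ℤ) • y'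

open WeierstrassCurve WeierstrassCurve.Affine WeierstrassCurve.Affine.Point in
/-- **Assembly**: S41 from (T1) and (T2). -/
theorem h6_s41_of_contracts (h1 : h6_NonEisStatement) (h2 : h6_ModLevelRaiseStatement)
    (E : WeierstrassCurve ℚ) [E.IsElliptic] {W : WeierstrassCurve ℤ} (hW : W.IsIntegralModelOf E)
    {p N q' : ℕ} (hp : p.Prime) (hp2 : p ≠ 2) (hN : 0 < N) (hq' : q'.Prime) (hq'N : ¬ q' ∣ N)
    (hq'p : q' ≠ p)
    (hirr : GaloisRepIsIrreducible (K := AlgebraicClosure ℚ) ℚ E p)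
    (f : CuspForm (CongruenceSubgroup.Gamma0 N) 2) (𝔪 : Ideal (integralClosure ℤ ℂ))
    (hf : f.IsNormalizedEigenform) (hmax : 𝔪.IsMaximal) (hpm : (p : integralClosure ℤ ℂ) ∈ 𝔪)
    (hcong : ∀ ℓ : ℕ, ℓ.Prime → W.IsGoodPrimeFor ℓ → ¬ ℓ ∣ N → ℓ ≠ p →
      ∃ a : integralClosure ℤ ℂ, (a : ℂ) = ModularFormClass.qCoeff f ℓ ∧
        a - ((W.apOfModel ℓ : ℤ) : integralClosure ℤ ℂ) ∈ 𝔪)
    (hLR : ∃ a : integralClosure ℤ ℂ, (a : ℂ) = ModularFormClass.qCoeff f q' ∧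
      a ^ 2 - ((q' : integralClosure ℤ ℂ) + 1) ^ 2 ∈ 𝔪) :
    ∃ (g : CuspForm (CongruenceSubgroup.Gamma0 (N * q')) 2) (𝔪' : Ideal (integralClosure ℤ ℂ)),
      g.IsNormalizedEigenform ∧ 𝔪'.IsMaximal ∧ (p : integralClosure ℤ ℂ) ∈ 𝔪' ∧
      (∀ ℓ : ℕ, ℓ.Prime → W.IsGoodPrimeFor ℓ → ¬ ℓ ∣ N * q' → ℓ ≠ p →
        ∃ a : integralClosure ℤ ℂ, (a : ℂ) = ModularFormClass.qCoeff g ℓ ∧
          a - ((W.apOfModel ℓ : ℤ) : integralClosure ℤ ℂ) ∈ 𝔪') ∧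
      g.IsNewAt q' := by
  classical
  set G : Set ℕ := {ℓ | ℓ.Prime ∧ W.IsGoodPrimeFor ℓ ∧ ¬ ℓ ∣ N * q' ∧ ℓ ≠ p} with hG
  obtain ⟨ℓ0, hℓ0, hℓ0S, hℓ0g, hℓ0ne⟩ :=
    h1 E hW hp hp2 hirr ((N * q' * p).primeFactors)
  have hNqp : N * q' * p ≠ 0 := by
    have := hq'.pos; have := hp.pos; positivity
  have hℓ0nd : ¬ ℓ0 ∣ N * q' * p := fun hd =>
    hℓ0S (Nat.mem_primeFactors.mpr ⟨hℓ0, hd, hNqp⟩)
  have hℓ0G : ℓ0 ∈ G :=
    ⟨hℓ0, hℓ0g, fun hd => hℓ0nd (Dvd.dvd.mul_right hd p),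
      fun he => hℓ0nd (he ▸ Dvd.intro_left _ rfl)⟩
  obtain ⟨g, 𝔪', hg, hmax', hp', hcong', hnew⟩ :=
    h2 hp hp2 hN hq' hq'N hq'p f 𝔪 hf hmax hpm (fun ℓ => W.apOfModel ℓ) G
      (fun ℓ hℓ => ⟨hℓ.1, hℓ.2.2.1, hℓ.2.2.2⟩)
      (fun ℓ hℓ => hcong ℓ hℓ.1 hℓ.2.1
        (fun hd => hℓ.2.2.1 (Dvd.dvd.mul_right hd q')) hℓ.2.2.2)
      ⟨ℓ0, hℓ0G, hℓ0ne⟩ hLR
  exact ⟨g, 𝔪', hg, hmax', hp', fun ℓ hℓ hgood hnd hne => hcong' ℓ ⟨hℓ, hgood, hnd, hne⟩, hnew⟩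

end Fermat.Agent.Lib.S41
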