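import Mathlib

/-!
# S41, layer A1 (part 1): the abstract amalgam extension lemma

Pure group theory.  A group `𝒢` acts on a set `X`; `A B` are subgroups and `E0 E1` are
disjoint "ping-pong" subsets of `X`.  Then every pair of homomorphisms `A → M`, `B → M`
(`M` commutative) agreeing on `A ⊓ B` extends to `A ⊔ B`.

Proof: word normalisation `w = c · (reduced word)` plus the ping-pong lemma.  No trees.
-/

set_option autoImplicit false

namespace Fermat.Agent.Lib.S41

section Amalgam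

variable {𝒢 : Type*} [Group 𝒢] (A B : Subgroup 𝒢) {M : Type*} [CommGroup M]
  (x : A →* M) (y : B →* M)

/-- evaluation of a word in the ambient group -/
def h8a_ev (w : List (A ⊕ B)) : 𝒢 :=
  (w.map (Sum.elim (fun a : A => (a : 𝒢)) (fun b : B => (b : 𝒢)))).prod

/-- weight of a word -/
def h8a_wt (w : List (A ⊕ B)) : M :=
  (w.map (Sum.elim (fun a : A => x a) (fun b : B => y b))).prod

@[simp] theorem h8a_ev_nil : h8a_ev A B [] = 1 := rfl
@[simp] theorem h8a_wt_nil : h8a_wt A B x y [] = 1 := rfl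
@[simp] theorem h8a_ev_cons_inl (a : A) (w : List (A ⊕ B)) :
    h8a_ev A B (Sum.inl a :: w) = (a : 𝒢) * h8a_ev A B w := by
  simp [h8a_ev]
@[simp] theorem h8a_ev_cons_inr (b : B) (w : List (A ⊕ B)) :
    h8a_ev A B (Sum.inr b :: w) = (b : 𝒢) * h8a_ev A B w := by
  simp [h8a_ev]
@[simp] theorem h8a_wt_cons_inl (a : A) (w : List (A ⊕ B)) :
    h8a_wt A B x y (Sum.inl a :: w) = x a * h8a_wt A B x y w := by
  simp [h8a_wt]
@[simp] theorem h8a_wt_cons_inr (b : B) (w : List (A ⊕ B)) :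
    h8a_wt A B x y (Sum.inr b :: w) = y b * h8a_wt A B x y w := by
  simp [h8a_wt]

/-- the letter lies in the amalgamated subgroup -/
def h8a_inC : A ⊕ B → Prop :=
  Sum.elim (fun a : A => (a : 𝒢) ∈ B) (fun b : B => (b : 𝒢) ∈ A)

/-- reduced words: alternating, no letter in `A ⊓ B` -/
def h8a_Red : List (A ⊕ B) → Prop
  | [] => True
  | s :: w => ¬ h8a_inC A B s ∧ (∀ t ∈ w.head?, t.isLeft = !s.isLeft) ∧ h8a_Red w

theorem h8a_Red_nil : h8a_Red A B [] := trivial

theorem h8a_Red_cons {s : A ⊕ B} {w : List (A ⊕ B)} :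
    h8a_Red A B (s :: w) ↔
      ¬ h8a_inC A B s ∧ (∀ t ∈ w.head?, t.isLeft = !s.isLeft) ∧ h8a_Red A B w := Iff.rfl

theorem h8a_Red_tail {s : A ⊕ B} {w : List (A ⊕ B)} (h : h8a_Red A B (s :: w)) :
    h8a_Red A B w := h.2.2

/-- **Normalisation**: every word equals `c · r` with `c ∈ A ⊓ B` and `r` reduced, with the
same weight. -/
theorem h8a_normalise
    (hxy : ∀ (c : 𝒢) (hA : c ∈ A) (hB : c ∈ B), x ⟨c, hA⟩ = y ⟨c, hB⟩)
    (w : List (A ⊕ B)) :
    ∃ (c : 𝒢) (hA : c ∈ A) (_ : c ∈ B) (r : List (A ⊕ B)), h8a_Red A B r ∧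
      h8a_ev A B w = c * h8a_ev A B r ∧ h8a_wt A B x y w = x ⟨c, hA⟩ * h8a_wt A B x y r := by
  classical
  induction w with
  | nil =>
    refine ⟨1, A.one_mem, B.one_mem, [], trivial, by simp, ?_⟩
    have : (⟨1, A.one_mem⟩ : A) = 1 := rfl
    simp [this]
  | cons s w ih =>
    obtain ⟨c, hcA, hcB, r, hr, hev, hwt⟩ := ih
    rcases s with a | b
    · -- letter from A
      have ha'A : (a : 𝒢) * c ∈ A := A.mul_mem a.2 hcA
      have hxa' : x a * x ⟨c, hcA⟩ = x ⟨(a : 𝒢) * c, ha'A⟩ := by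
        rw [← map_mul]; rfl
      rcases r with _ | ⟨t, r'⟩
      · -- r = []
        by_cases hB : (a : 𝒢) * c ∈ B
        · refine ⟨(a : 𝒢) * c, ha'A, hB, [], trivial, ?_, ?_⟩
          · simp [hev]
          · simp only [h8a_wt_cons_inl, hwt, h8a_wt_nil, mul_one]
            exact hxa'
        · refine ⟨1, A.one_mem, B.one_mem, [Sum.inl ⟨(a : 𝒢) * c, ha'A⟩], ?_, ?_, ?_⟩
          · exact ⟨hB, by simp, trivial⟩
          · simp [hev]
          · have h1 : (⟨1, A.one_mem⟩ : A) = 1 := rfl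
            simp only [h8a_wt_cons_inl, hwt, h8a_wt_nil, mul_one, h1, map_one, one_mul]
            exact hxa'
      · rcases t with a2 | b2
        · -- r = inl a2 :: r'
          have ha''A : (a : 𝒢) * c * (a2 : 𝒢) ∈ A := A.mul_mem ha'A a2.2
          have hxa'' : x a * x ⟨c, hcA⟩ * x a2 = x ⟨(a : 𝒢) * c * (a2 : 𝒢), ha''A⟩ := by
            rw [← map_mul, ← map_mul]; rfl
          by_cases hB : (a : 𝒢) * c * (a2 : 𝒢) ∈ B
          · refine ⟨(a : 𝒢) * c * a2, ha''A, hB, r', hr.2.2, ?_, ?_⟩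
            · simp [hev, mul_assoc]
            · simp only [h8a_wt_cons_inl, hwt]
              rw [← hxa'']; simp [mul_assoc]
          · refine ⟨1, A.one_mem, B.one_mem,
              Sum.inl ⟨(a : 𝒢) * c * (a2 : 𝒢), ha''A⟩ :: r', ?_, ?_, ?_⟩
            · refine ⟨hB, ?_, hr.2.2⟩
              intro t ht
              have := hr.2.1 t ht
              simpa using this
            · simp [hev, mul_assoc]
            · have h1 : (⟨1, A.one_mem⟩ : A) = 1 := rfl
              simp only [h8a_wt_cons_inl, hwt, h1, map_one, one_mul]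
              rw [← hxa'']; simp [mul_assoc]
        · -- r = inr b2 :: r'
          by_cases hB : (a : 𝒢) * c ∈ B
          · refine ⟨(a : 𝒢) * c, ha'A, hB, Sum.inr b2 :: r', hr, ?_, ?_⟩
            · simp [hev, mul_assoc]
            · simp only [h8a_wt_cons_inl, hwt]
              rw [← hxa']; simp [mul_assoc]
          · refine ⟨1, A.one_mem, B.one_mem,
              Sum.inl ⟨(a : 𝒢) * c, ha'A⟩ :: Sum.inr b2 :: r', ?_, ?_, ?_⟩
            · refine ⟨hB, ?_, hr⟩
              intro t ht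
              simp only [List.head?_cons, Option.mem_def, Option.some.injEq] at ht
              subst ht; rfl
            · simp [hev, mul_assoc]
            · have h1 : (⟨1, A.one_mem⟩ : A) = 1 := rfl
              simp only [h8a_wt_cons_inl, hwt, h1, map_one, one_mul]
              rw [← hxa']; simp [mul_assoc]
    · -- letter from B
      have hb'B : (b : 𝒢) * c ∈ B := B.mul_mem b.2 hcB
      have hyb' : y b * x ⟨c, hcA⟩ = y ⟨(b : 𝒢) * c, hb'B⟩ := by
        rw [hxy c hcA hcB, ← map_mul]; rfl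
      rcases r with _ | ⟨t, r'⟩
      · by_cases hA : (b : 𝒢) * c ∈ A
        · refine ⟨(b : 𝒢) * c, hA, hb'B, [], trivial, ?_, ?_⟩
          · simp [hev]
          · simp only [h8a_wt_cons_inr, hwt, h8a_wt_nil, mul_one]
            rw [hyb', hxy _ hA hb'B]
        · refine ⟨1, A.one_mem, B.one_mem, [Sum.inr ⟨(b : 𝒢) * c, hb'B⟩], ?_, ?_, ?_⟩
          · exact ⟨hA, by simp, trivial⟩
          · simp [hev]
          · have h1 : (⟨1, A.one_mem⟩ : A) = 1 := rfl
            simp only [h8a_wt_cons_inr, hwt, h8a_wt_nil, mul_one, h1, map_one, one_mul]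
            exact hyb'
      · rcases t with a2 | b2
        · -- r = inl a2 :: r'
          by_cases hA : (b : 𝒢) * c ∈ A
          · refine ⟨(b : 𝒢) * c, hA, hb'B, Sum.inl a2 :: r', hr, ?_, ?_⟩
            · simp [hev, mul_assoc]
            · simp only [h8a_wt_cons_inr, hwt]
              rw [← mul_assoc, hyb', hxy _ hA hb'B]
          · refine ⟨1, A.one_mem, B.one_mem,
              Sum.inr ⟨(b : 𝒢) * c, hb'B⟩ :: Sum.inl a2 :: r', ?_, ?_, ?_⟩
            · refine ⟨hA, ?_, hr⟩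
              intro t ht
              simp only [List.head?_cons, Option.mem_def, Option.some.injEq] at ht
              subst ht; rfl
            · simp [hev, mul_assoc]
            · have h1 : (⟨1, A.one_mem⟩ : A) = 1 := rfl
              simp only [h8a_wt_cons_inr, hwt, h1, map_one, one_mul]
              rw [← mul_assoc, hyb']
        · -- r = inr b2 :: r'
          have hb''B : (b : 𝒢) * c * (b2 : 𝒢) ∈ B := B.mul_mem hb'B b2.2
          have hyb'' : y b * x ⟨c, hcA⟩ * y b2 = y ⟨(b : 𝒢) * c * (b2 : 𝒢), hb''B⟩ := by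
            rw [hyb', ← map_mul]; rfl
          by_cases hA : (b : 𝒢) * c * (b2 : 𝒢) ∈ A
          · refine ⟨(b : 𝒢) * c * b2, hA, hb''B, r', hr.2.2, ?_, ?_⟩
            · simp [hev, mul_assoc]
            · simp only [h8a_wt_cons_inr, hwt]
              rw [hxy _ hA hb''B, ← hyb'']; simp [mul_assoc]
          · refine ⟨1, A.one_mem, B.one_mem,
              Sum.inr ⟨(b : 𝒢) * c * (b2 : 𝒢), hb''B⟩ :: r', ?_, ?_, ?_⟩
            · refine ⟨hA, ?_, hr.2.2⟩
              intro t ht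
              have := hr.2.1 t ht
              simpa using this
            · simp [hev, mul_assoc]
            · have h1 : (⟨1, A.one_mem⟩ : A) = 1 := rfl
              simp only [h8a_wt_cons_inr, hwt, h1, map_one, one_mul]
              rw [← hyb'']; simp [mul_assoc]

section PingPong

variable {X : Type*} [MulAction 𝒢 X] (E0 E1 : Set X)

/-- target set for a head letter of the given type (`true` = a letter from `A`) -/
def h8a_tgt (b : Bool) : Set X := if b then E0 else E1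

/-- source set for a last letter of the given type -/
def h8a_src (b : Bool) : Set X := if b then E1 else E0

/-- type of the last letter of a word -/
def h8a_lastL : List (A ⊕ B) → Bool
  | [] => true
  | [s] => s.isLeft
  | _ :: t :: w => h8a_lastL (t :: w)

theorem h8a_pingpong
    (hA : ∀ a : A, (a : 𝒢) ∉ B → ∀ P ∈ E1, (a : 𝒢) • P ∈ E0)
    (hB : ∀ b : B, (b : 𝒢) ∉ A → ∀ P ∈ E0, (b : 𝒢) • P ∈ E1)
    (w : List (A ⊕ B)) : ∀ (s : A ⊕ B), h8a_Red A B (s :: w) →
      ∀ P ∈ h8a_src E0 E1 (h8a_lastL A B (s :: w)),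
        h8a_ev A B (s :: w) • P ∈ h8a_tgt E0 E1 s.isLeft := by
  induction w with
  | nil =>
    intro s hs P hP
    rcases s with a | b
    · simp only [h8a_lastL, Sum.isLeft_inl, h8a_src, if_true] at hP
      simp only [h8a_ev_cons_inl, h8a_ev_nil, mul_one, Sum.isLeft_inl, h8a_tgt, if_true]
      exact hA a hs.1 P hP
    · simp only [h8a_lastL, Sum.isLeft_inr, h8a_src, Bool.false_eq_true, if_false] at hP
      simp only [h8a_ev_cons_inr, h8a_ev_nil, mul_one, Sum.isLeft_inr, h8a_tgt,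
        Bool.false_eq_true, if_false]
      exact hB b hs.1 P hP
  | cons t w ih =>
    intro s hs P hP
    have hlast : h8a_lastL A B (s :: t :: w) = h8a_lastL A B (t :: w) := rfl
    rw [hlast] at hP
    have h1 := ih t hs.2.2 P hP
    have ht : t.isLeft = !s.isLeft := hs.2.1 t (by simp)
    rcases s with a | b
    · simp only [Sum.isLeft_inl, Bool.not_true] at ht
      rw [ht] at h1
      simp only [h8a_tgt, Bool.false_eq_true, if_false] at h1
      simp only [h8a_ev_cons_inl, Sum.isLeft_inl, h8a_tgt, if_true, mul_smul]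
      exact hA a hs.1 _ h1
    · simp only [Sum.isLeft_inr, Bool.not_false] at ht
      rw [ht] at h1
      simp only [h8a_tgt, if_true] at h1
      simp only [h8a_ev_cons_inr, Sum.isLeft_inr, h8a_tgt, Bool.false_eq_true, if_false, mul_smul]
      exact hB b hs.1 _ h1

theorem h8a_red_not_mem
    (hdisj : Disjoint E0 E1) (hne0 : E0.Nonempty) (hne1 : E1.Nonempty)
    (hA : ∀ a : A, (a : 𝒢) ∉ B → ∀ P ∈ E1, (a : 𝒢) • P ∈ E0)
    (hB : ∀ b : B, (b : 𝒢) ∉ A → ∀ P ∈ E0, (b : 𝒢) • P ∈ E1)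
    (hC0 : ∀ c : 𝒢, c ∈ A → c ∈ B → ∀ P ∈ E0, c • P ∈ E0)
    (hC1 : ∀ c : 𝒢, c ∈ A → c ∈ B → ∀ P ∈ E1, c • P ∈ E1)
    (hpA : ∀ a : A, (a : 𝒢) ∉ B → ∃ P ∈ E0, (a : 𝒢) • P ∈ E0)
    (hpB : ∀ b : B, (b : 𝒢) ∉ A → ∃ P ∈ E1, (b : 𝒢) • P ∈ E1)
    (s : A ⊕ B) (w : List (A ⊕ B)) (hw : h8a_Red A B (s :: w))
    (hgA : h8a_ev A B (s :: w) ∈ A) (hgB : h8a_ev A B (s :: w) ∈ B) : False := by
  have hd : ∀ P, P ∈ E0 → P ∈ E1 → False := fun P h0 h1 =>
    Set.disjoint_left.mp hdisj h0 h1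
  by_cases hl : h8a_lastL A B (s :: w) = s.isLeft
  · -- head and last letters of the same type
    rcases s with a | b
    · obtain ⟨P, hP⟩ := hne1
      have h1 := h8a_pingpong A B E0 E1 hA hB w (Sum.inl a) hw P
        (by rw [hl]; simpa [h8a_src] using hP)
      simp only [Sum.isLeft_inl, h8a_tgt, if_true] at h1
      exact hd _ h1 (hC1 _ hgA hgB P hP)
    · obtain ⟨P, hP⟩ := hne0
      have h1 := h8a_pingpong A B E0 E1 hA hB w (Sum.inr b) hw P
        (by rw [hl]; simpa [h8a_src] using hP)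
      simp only [Sum.isLeft_inr, h8a_tgt, Bool.false_eq_true, if_false] at h1
      exact hd _ (hC0 _ hgA hgB P hP) h1
  · -- head and last letters of different types
    rcases w with _ | ⟨t, w'⟩
    · exact hl rfl
    · have hlast : h8a_lastL A B (s :: t :: w') = h8a_lastL A B (t :: w') := rfl
      rw [hlast] at hl
      have ht : t.isLeft = !s.isLeft := hw.2.1 t (by simp)
      have hl' : h8a_lastL A B (t :: w') = t.isLeft := by
        rw [ht]
        cases h : h8a_lastL A B (t :: w') <;> cases h' : s.isLeft <;> simp_all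
      rcases s with a | b
      · -- head from A, so t from B
        simp only [Sum.isLeft_inl, Bool.not_true] at ht
        simp only [h8a_ev_cons_inl] at hgA hgB
        set g' := h8a_ev A B (t :: w') with hg'
        have hg'A : g' ∈ A := by
          have := A.mul_mem (A.inv_mem a.2) hgA
          simpa using this
        have hg'B : g' ∉ B := by
          intro h
          apply hw.1
          have := B.mul_mem hgB (B.inv_mem h)
          simpa [h8a_inC] using this
        obtain ⟨P, hP0, hP0'⟩ := hpA ⟨g', hg'A⟩ hg'B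
        have h1 := h8a_pingpong A B E0 E1 hA hB w' t hw.2.2 P
          (by rw [hl', ht]; simpa [h8a_src] using hP0)
        rw [ht] at h1
        simp only [h8a_tgt, Bool.false_eq_true, if_false] at h1
        exact hd _ hP0' h1
      · simp only [Sum.isLeft_inr, Bool.not_false] at ht
        simp only [h8a_ev_cons_inr] at hgA hgB
        set g' := h8a_ev A B (t :: w') with hg'
        have hg'B : g' ∈ B := by
          have := B.mul_mem (B.inv_mem b.2) hgB
          simpa using this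
        have hg'A : g' ∉ A := by
          intro h
          apply hw.1
          have := A.mul_mem hgA (A.inv_mem h)
          simpa [h8a_inC] using this
        obtain ⟨P, hP1, hP1'⟩ := hpB ⟨g', hg'B⟩ hg'A
        have h1 := h8a_pingpong A B E0 E1 hA hB w' t hw.2.2 P
          (by rw [hl', ht]; simpa [h8a_src] using hP1)
        rw [ht] at h1
        simp only [h8a_tgt, if_true] at h1
        exact hd _ h1 hP1'

/-- words evaluating to `1` have trivial weight -/
theorem h8a_wt_eq_one_of_ev_eq_one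
    (hdisj : Disjoint E0 E1) (hne0 : E0.Nonempty) (hne1 : E1.Nonempty)
    (hA : ∀ a : A, (a : 𝒢) ∉ B → ∀ P ∈ E1, (a : 𝒢) • P ∈ E0)
    (hB : ∀ b : B, (b : 𝒢) ∉ A → ∀ P ∈ E0, (b : 𝒢) • P ∈ E1)
    (hC0 : ∀ c : 𝒢, c ∈ A → c ∈ B → ∀ P ∈ E0, c • P ∈ E0)
    (hC1 : ∀ c : 𝒢, c ∈ A → c ∈ B → ∀ P ∈ E1, c • P ∈ E1)
    (hpA : ∀ a : A, (a : 𝒢) ∉ B → ∃ P ∈ E0, (a : 𝒢) • P ∈ E0)
    (hpB : ∀ b : B, (b : 𝒢) ∉ A → ∃ P ∈ E1, (b : 𝒢) • P ∈ E1)
    (hxy : ∀ (c : 𝒢) (hA : c ∈ A) (hB : c ∈ B), x ⟨c, hA⟩ = y ⟨c, hB⟩)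
    (w : List (A ⊕ B)) (hw : h8a_ev A B w = 1) : h8a_wt A B x y w = 1 := by
  obtain ⟨c, hcA, hcB, r, hr, hev, hwt⟩ := h8a_normalise A B x y hxy w
  rcases r with _ | ⟨s, r'⟩
  · rw [hw, h8a_ev_nil, mul_one] at hev
    subst hev
    rw [hwt, h8a_wt_nil, mul_one]
    exact map_one x
  · exfalso
    have hr' : h8a_ev A B (s :: r') = c⁻¹ := by
      rw [hw] at hev
      exact eq_inv_of_mul_eq_one_right hev.symm
    exact h8a_red_not_mem A B E0 E1 hdisj hne0 hne1 hA hB hC0 hC1 hpA hpB s r' hr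
      (hr' ▸ A.inv_mem hcA) (hr' ▸ B.inv_mem hcB)

/-- **Abstract amalgam extension lemma.** -/
theorem h8a_amalgam_extend
    (hdisj : Disjoint E0 E1) (hne0 : E0.Nonempty) (hne1 : E1.Nonempty)
    (hA : ∀ a : A, (a : 𝒢) ∉ B → ∀ P ∈ E1, (a : 𝒢) • P ∈ E0)
    (hB : ∀ b : B, (b : 𝒢) ∉ A → ∀ P ∈ E0, (b : 𝒢) • P ∈ E1)
    (hC0 : ∀ c : 𝒢, c ∈ A → c ∈ B → ∀ P ∈ E0, c • P ∈ E0)
    (hC1 : ∀ c : 𝒢, c ∈ A → c ∈ B → ∀ P ∈ E1, c • P ∈ E1)
    (hpA : ∀ a : A, (a : 𝒢) ∉ B → ∃ P ∈ E0, (a : 𝒢) • P ∈ E0)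
    (hpB : ∀ b : B, (b : 𝒢) ∉ A → ∃ P ∈ E1, (b : 𝒢) • P ∈ E1)
    (hxy : ∀ (c : 𝒢) (hA : c ∈ A) (hB : c ∈ B), x ⟨c, hA⟩ = y ⟨c, hB⟩) :
    ∃ Φ : (A ⊔ B : Subgroup 𝒢) →* M,
      (∀ a : A, Φ (Subgroup.inclusion (le_sup_left : A ≤ A ⊔ B) a) = x a) ∧
      (∀ b : B, Φ (Subgroup.inclusion (le_sup_right : B ≤ A ⊔ B) b) = y b) := by
  classical
  set iA : A →* (A ⊔ B : Subgroup 𝒢) := Subgroup.inclusion le_sup_left with hiA
  set iB : B →* (A ⊔ B : Subgroup 𝒢) := Subgroup.inclusion le_sup_right with hiB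
  set Ψ : Monoid.Coprod A B →* (A ⊔ B : Subgroup 𝒢) := Monoid.Coprod.lift iA iB with hΨ
  set φ : Monoid.Coprod A B →* M := Monoid.Coprod.lift x y with hφ
  -- surjectivity
  have hsurj : Function.Surjective Ψ := by
    have key : ∀ g : 𝒢, g ∈ A ⊔ B → ∃ z : Monoid.Coprod A B, ((Ψ z : (A ⊔ B : Subgroup 𝒢)) : 𝒢) = g := by
      intro g hg
      rw [Subgroup.sup_eq_closure] at hg
      induction hg using Subgroup.closure_induction with
      | mem g hg =>
        rcases hg with hg | hg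
        · exact ⟨Monoid.Coprod.inl ⟨g, hg⟩, rfl⟩
        · exact ⟨Monoid.Coprod.inr ⟨g, hg⟩, rfl⟩
      | one => exact ⟨1, by simp⟩
      | mul g1 g2 _ _ h1 h2 =>
        obtain ⟨z1, hz1⟩ := h1
        obtain ⟨z2, hz2⟩ := h2
        exact ⟨z1 * z2, by simp [hz1, hz2]⟩
      | inv g _ h =>
        obtain ⟨z, hz⟩ := h
        exact ⟨z⁻¹, by simp [hz]⟩
    intro g
    obtain ⟨z, hz⟩ := key g g.2
    exact ⟨z, Subtype.ext hz⟩
  -- kernel inclusion
  have hker : Ψ.ker ≤ φ.ker := by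
    intro z hz
    rw [MonoidHom.mem_ker] at hz ⊢
    obtain ⟨w, rfl⟩ := Monoid.Coprod.mk_surjective z
    have h1 : ((Ψ (Monoid.Coprod.mk w) : (A ⊔ B : Subgroup 𝒢)) : 𝒢) =
        h8a_ev A B (FreeMonoid.toList w) := by
      rw [hΨ, Monoid.Coprod.lift_apply_mk, FreeMonoid.lift_apply, h8a_ev]
      rw [← Subgroup.coe_subtype, map_list_prod, List.map_map]
      congr 1
      apply List.map_congr_left
      intro s _
      rcases s with a | b <;> rfl
    have h2 : φ (Monoid.Coprod.mk w) = h8a_wt A B x y (FreeMonoid.toList w) := by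
      rw [hφ, Monoid.Coprod.lift_apply_mk, FreeMonoid.lift_apply, h8a_wt]
    rw [h2]
    apply h8a_wt_eq_one_of_ev_eq_one A B x y E0 E1 hdisj hne0 hne1 hA hB hC0 hC1 hpA hpB hxy
    rw [← h1, hz]; rfl
  refine ⟨MonoidHom.liftOfSurjective Ψ hsurj ⟨φ, hker⟩, ?_, ?_⟩
  · intro a
    have : iA a = Ψ (Monoid.Coprod.inl a) := rfl
    rw [this, MonoidHom.liftOfRightInverse_comp_apply]
    rfl
  · intro b
    have : iB b = Ψ (Monoid.Coprod.inr b) := rfl
    rw [this, MonoidHom.liftOfRightInverse_comp_apply]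
    rfl

end PingPong

end Amalgam

end Fermat.Agent.Lib.S41
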