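import Mathlib
import Fermat.Agent.Lib.S41.Defs
import Fermat.Agent.Lib.S41.H8Amalgam

/-!
# S41, layer A1 (part 2): gluing `x` and `y` to a character of `Γ₀(N)[1/q]`

Ambient group `SL(2, ℚ)`.  `h8a_iota : SL(2,ℤ) →* SL(2,ℚ)`, `h8a_kappa r` = conjugation by
`diag(r, 1)`, `h8a_SA N = ι(Γ₀(N))`, `h8a_SB N q = κ_q⁻¹(SA) = h⁻¹ Γ₀(N) h`,
`h8a_H N q = SA ⊔ SB`.
-/

set_option autoImplicit false

open CongruenceSubgroup ModularCurve.Period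
open scoped MatrixGroups

namespace Fermat.Agent.Lib.S41

/-- entrywise cast `SL(2, ℤ) →* SL(2, ℚ)` -/
def h8a_iota : SL(2, ℤ) →* SL(2, ℚ) := Matrix.SpecialLinearGroup.map (Int.castRingHom ℚ)

theorem h8a_iota_apply (g : SL(2, ℤ)) (i j : Fin 2) :
    (h8a_iota g : Matrix (Fin 2) (Fin 2) ℚ) i j = ((g : Matrix (Fin 2) (Fin 2) ℤ) i j : ℚ) := rfl

theorem h8a_iota_injective : Function.Injective h8a_iota := by
  intro g g' h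
  apply Subtype.ext
  ext i j
  have := congrArg (fun m : SL(2, ℚ) => (m : Matrix (Fin 2) (Fin 2) ℚ) i j) h
  simp only [h8a_iota_apply] at this
  exact_mod_cast this

/-- the matrix `[[a, r b], [c / r, d]]` -/
def h8a_kappaMat (r : ℚ) (g : Matrix (Fin 2) (Fin 2) ℚ) : Matrix (Fin 2) (Fin 2) ℚ :=
  !![g 0 0, r * g 0 1; g 1 0 / r, g 1 1]

theorem h8a_kappaMat_det (r : ℚ) (hr : r ≠ 0) (g : Matrix (Fin 2) (Fin 2) ℚ) :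
    (h8a_kappaMat r g).det = g.det := by
  rw [h8a_kappaMat, Matrix.det_fin_two_of, Matrix.det_fin_two]
  field_simp

theorem h8a_kappaMat_mul (r : ℚ) (hr : r ≠ 0) (g g' : Matrix (Fin 2) (Fin 2) ℚ) :
    h8a_kappaMat r (g * g') = h8a_kappaMat r g * h8a_kappaMat r g' := by
  ext i j
  fin_cases i <;> fin_cases j <;>
    simp [h8a_kappaMat, Matrix.mul_apply, Fin.sum_univ_two] <;> field_simp

theorem h8a_kappaMat_one (r : ℚ) : h8a_kappaMat r 1 = 1 := by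
  ext i j
  fin_cases i <;> fin_cases j <;> simp [h8a_kappaMat]

theorem h8a_kappaMat_inv (r : ℚ) (hr : r ≠ 0) (g : Matrix (Fin 2) (Fin 2) ℚ) :
    h8a_kappaMat r⁻¹ (h8a_kappaMat r g) = g := by
  ext i j
  fin_cases i <;> fin_cases j <;> simp [h8a_kappaMat] <;> field_simp

/-- conjugation by `diag(r, 1)` on `SL(2, ℚ)` -/
def h8a_kappaHom (r : ℚ) (hr : r ≠ 0) : SL(2, ℚ) →* SL(2, ℚ) where
  toFun g := ⟨h8a_kappaMat r g, by rw [h8a_kappaMat_det r hr]; exact g.2⟩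
  map_one' := by
    apply Subtype.ext
    show h8a_kappaMat r ((1 : SL(2, ℚ)) : Matrix (Fin 2) (Fin 2) ℚ) = 1
    rw [Matrix.SpecialLinearGroup.coe_one, h8a_kappaMat_one]
  map_mul' g g' := by
    apply Subtype.ext
    show h8a_kappaMat r ((g * g' : SL(2, ℚ)) : Matrix (Fin 2) (Fin 2) ℚ) = _
    rw [Matrix.SpecialLinearGroup.coe_mul, h8a_kappaMat_mul r hr]
    rfl

/-- conjugation by `diag(r, 1)` as an automorphism of `SL(2, ℚ)` -/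
def h8a_kappa (r : ℚ) (hr : r ≠ 0) : SL(2, ℚ) ≃* SL(2, ℚ) where
  toFun := h8a_kappaHom r hr
  invFun := h8a_kappaHom r⁻¹ (inv_ne_zero hr)
  left_inv g := by
    apply Subtype.ext
    exact h8a_kappaMat_inv r hr g
  right_inv g := by
    apply Subtype.ext
    have := h8a_kappaMat_inv r⁻¹ (inv_ne_zero hr) g
    rw [inv_inv] at this
    exact this
  map_mul' := (h8a_kappaHom r hr).map_mul

theorem h8a_kappa_apply (r : ℚ) (hr : r ≠ 0) (g : SL(2, ℚ)) :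
    ((h8a_kappa r hr g : SL(2, ℚ)) : Matrix (Fin 2) (Fin 2) ℚ) = h8a_kappaMat r g := rfl

theorem h8a_kappa_symm_apply (r : ℚ) (hr : r ≠ 0) (g : SL(2, ℚ)) :
    (((h8a_kappa r hr).symm g : SL(2, ℚ)) : Matrix (Fin 2) (Fin 2) ℚ) = h8a_kappaMat r⁻¹ g := rfl

/-! ### The subgroups -/

/-- `ι(Γ₀(N))` -/
def h8a_SA (N : ℕ) : Subgroup SL(2, ℚ) := (Gamma0 N).map h8a_iota

/-- `κ_q⁻¹(ι(Γ₀(N))) = h⁻¹ Γ₀(N) h` -/
def h8a_SB (N : ℕ) (r : ℚ) (hr : r ≠ 0) : Subgroup SL(2, ℚ) :=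
  (h8a_SA N).comap (h8a_kappa r hr).toMonoidHom

/-- the group generated: `Γ₀(N)[1/q]` -/
def h8a_H (N : ℕ) (r : ℚ) (hr : r ≠ 0) : Subgroup SL(2, ℚ) := h8a_SA N ⊔ h8a_SB N r hr

theorem h8a_mem_SA {N : ℕ} {g : SL(2, ℚ)} :
    g ∈ h8a_SA N ↔ ∃ a : SL(2, ℤ), a ∈ Gamma0 N ∧ h8a_iota a = g := by
  rw [h8a_SA, Subgroup.mem_map]

theorem h8a_mem_SB {N : ℕ} {r : ℚ} {hr : r ≠ 0} {g : SL(2, ℚ)} :
    g ∈ h8a_SB N r hr ↔ h8a_kappa r hr g ∈ h8a_SA N := Iff.rfl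

theorem h8a_gamma0_dvd {N : ℕ} {a : SL(2, ℤ)} :
    a ∈ Gamma0 N ↔ (N : ℤ) ∣ (a : Matrix (Fin 2) (Fin 2) ℤ) 1 0 := by
  rw [Gamma0_mem, ZMod.intCast_zmod_eq_zero_iff_dvd]

/-- for `a ∈ SL(2,ℤ)`: `κ_q(ι a)` is integral iff `q ∣ c`, and then it is `ι` of the obvious
matrix -/
theorem h8a_kappa_iota_of_dvd (q : ℕ) (hq : 0 < q) (a : SL(2, ℤ))
    (hc : (q : ℤ) ∣ (a : Matrix (Fin 2) (Fin 2) ℤ) 1 0) :
    ∃ a' : SL(2, ℤ), h8a_iota a' = h8a_kappa (q : ℚ) (by exact_mod_cast hq.ne') (h8a_iota a) ∧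
      (a' : Matrix (Fin 2) (Fin 2) ℤ) 0 0 = (a : Matrix (Fin 2) (Fin 2) ℤ) 0 0 ∧
      (a' : Matrix (Fin 2) (Fin 2) ℤ) 0 1 = q * (a : Matrix (Fin 2) (Fin 2) ℤ) 0 1 ∧
      (a' : Matrix (Fin 2) (Fin 2) ℤ) 1 0 * q = (a : Matrix (Fin 2) (Fin 2) ℤ) 1 0 ∧
      (a' : Matrix (Fin 2) (Fin 2) ℤ) 1 1 = (a : Matrix (Fin 2) (Fin 2) ℤ) 1 1 := by
  obtain ⟨c', hc'⟩ := hc
  have hq0 : (q : ℚ) ≠ 0 := by exact_mod_cast hq.ne'
  have hdet : (!![(a : Matrix (Fin 2) (Fin 2) ℤ) 0 0, q * (a : Matrix (Fin 2) (Fin 2) ℤ) 0 1;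
      c', (a : Matrix (Fin 2) (Fin 2) ℤ) 1 1] : Matrix (Fin 2) (Fin 2) ℤ).det = 1 := by
    have h1 := a.2
    rw [Matrix.det_fin_two] at h1
    rw [Matrix.det_fin_two_of]
    rw [hc'] at h1
    linarith
  refine ⟨⟨_, hdet⟩, ?_, rfl, rfl, ?_, rfl⟩
  · apply Subtype.ext
    ext i j
    rw [h8a_kappa_apply]
    fin_cases i <;> fin_cases j
    · show (((a : Matrix (Fin 2) (Fin 2) ℤ) 0 0 : ℤ) : ℚ) = h8a_kappaMat (q : ℚ) (h8a_iota a) 0 0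
      simp [h8a_kappaMat, h8a_iota_apply]
    · show ((q * (a : Matrix (Fin 2) (Fin 2) ℤ) 0 1 : ℤ) : ℚ) = h8a_kappaMat (q : ℚ) (h8a_iota a) 0 1
      simp [h8a_kappaMat, h8a_iota_apply]
    · show ((c' : ℤ) : ℚ) = h8a_kappaMat (q : ℚ) (h8a_iota a) 1 0
      simp [h8a_kappaMat, h8a_iota_apply, hc']
      field_simp
    · show (((a : Matrix (Fin 2) (Fin 2) ℤ) 1 1 : ℤ) : ℚ) = h8a_kappaMat (q : ℚ) (h8a_iota a) 1 1
      simp [h8a_kappaMat, h8a_iota_apply]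
  · show c' * (q : ℤ) = _
    rw [hc']; ring

theorem h8a_kappa_symm_iota_of_dvd (q : ℕ) (hq : 0 < q) (a : SL(2, ℤ))
    (hb : (q : ℤ) ∣ (a : Matrix (Fin 2) (Fin 2) ℤ) 0 1) :
    ∃ a' : SL(2, ℤ),
      h8a_iota a' = (h8a_kappa (q : ℚ) (by exact_mod_cast hq.ne')).symm (h8a_iota a) ∧
      (a' : Matrix (Fin 2) (Fin 2) ℤ) 1 0 = q * (a : Matrix (Fin 2) (Fin 2) ℤ) 1 0 := by
  obtain ⟨b', hb'⟩ := hb
  have hq0 : (q : ℚ) ≠ 0 := by exact_mod_cast hq.ne'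
  have hdet : (!![(a : Matrix (Fin 2) (Fin 2) ℤ) 0 0, b';
      q * (a : Matrix (Fin 2) (Fin 2) ℤ) 1 0, (a : Matrix (Fin 2) (Fin 2) ℤ) 1 1] :
        Matrix (Fin 2) (Fin 2) ℤ).det = 1 := by
    have h1 := a.2
    rw [Matrix.det_fin_two] at h1
    rw [Matrix.det_fin_two_of]
    rw [hb'] at h1
    linarith
  refine ⟨⟨_, hdet⟩, ?_, rfl⟩
  apply Subtype.ext
  ext i j
  rw [h8a_kappa_symm_apply]
  fin_cases i <;> fin_cases j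
  · show (((a : Matrix (Fin 2) (Fin 2) ℤ) 0 0 : ℤ) : ℚ) = h8a_kappaMat (q : ℚ)⁻¹ (h8a_iota a) 0 0
    simp [h8a_kappaMat, h8a_iota_apply]
  · show ((b' : ℤ) : ℚ) = h8a_kappaMat (q : ℚ)⁻¹ (h8a_iota a) 0 1
    simp [h8a_kappaMat, h8a_iota_apply, hb']
    field_simp
  · show ((q * (a : Matrix (Fin 2) (Fin 2) ℤ) 1 0 : ℤ) : ℚ) =
      h8a_kappaMat (q : ℚ)⁻¹ (h8a_iota a) 1 0
    simp [h8a_kappaMat, h8a_iota_apply]
    ring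
  · show (((a : Matrix (Fin 2) (Fin 2) ℤ) 1 1 : ℤ) : ℚ) = h8a_kappaMat (q : ℚ)⁻¹ (h8a_iota a) 1 1
    simp [h8a_kappaMat, h8a_iota_apply]

/-! ### The action on vectors and the ping-pong sets -/

theorem h8a_smul_vec (g : SL(2, ℚ)) (u v : ℚ) :
    g • (![u, v] : Fin 2 → ℚ) =
      ![(g : Matrix (Fin 2) (Fin 2) ℚ) 0 0 * u + (g : Matrix (Fin 2) (Fin 2) ℚ) 0 1 * v,
        (g : Matrix (Fin 2) (Fin 2) ℚ) 1 0 * u + (g : Matrix (Fin 2) (Fin 2) ℚ) 1 1 * v] := by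
  rw [Matrix.SpecialLinearGroup.smul_def]
  ext i
  fin_cases i <;> simp [Matrix.smul_eq_mulVec, Matrix.mulVec, dotProduct, Fin.sum_univ_two]

/-- vectors `λ (u, v)` with `q ∤ v` -/
def h8a_E0 (q : ℕ) : Set (Fin 2 → ℚ) :=
  {w | ∃ (lam : ℚ) (u v : ℤ), lam ≠ 0 ∧ ¬ (q : ℤ) ∣ v ∧ w = ![lam * u, lam * v]}

/-- vectors `λ (u, q v)` with `q ∤ u` -/
def h8a_E1 (q : ℕ) : Set (Fin 2 → ℚ) :=
  {w | ∃ (lam : ℚ) (u v : ℤ), lam ≠ 0 ∧ ¬ (q : ℤ) ∣ u ∧ w = ![lam * u, lam * ((q : ℚ) * v)]}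

theorem h8a_E_disjoint (q : ℕ) (hq : q.Prime) : Disjoint (h8a_E0 q) (h8a_E1 q) := by
  rw [Set.disjoint_left]
  rintro w ⟨lam, u, v, hlam, hv, rfl⟩ ⟨lam', u', v', hlam', hu', h⟩
  have h0 := congrFun h 0
  have h1 := congrFun h 1
  simp only [Matrix.cons_val_zero, Matrix.cons_val_one] at h0 h1
  have hq' : Prime (q : ℤ) := Nat.prime_iff_prime_int.mp hq
  have key : (u : ℚ) * ((q : ℚ) * v') = (u' : ℚ) * v := by
    have : (lam * lam') * ((u : ℚ) * ((q : ℚ) * v')) = (lam * lam') * ((u' : ℚ) * v) := by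
      calc (lam * lam') * ((u : ℚ) * ((q : ℚ) * v'))
          = (lam * u) * (lam' * ((q : ℚ) * v')) := by ring
        _ = (lam' * u') * (lam * v) := by rw [h0, h1]
        _ = (lam * lam') * ((u' : ℚ) * v) := by ring
    exact mul_left_cancel₀ (mul_ne_zero hlam hlam') this
  have key' : u * ((q : ℤ) * v') = u' * v := by exact_mod_cast key
  have hdvd : (q : ℤ) ∣ u' * v := ⟨u * v', by rw [← key']; ring⟩
  rcases hq'.dvd_or_dvd hdvd with h | h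
  · exact hu' h
  · exact hv h

theorem h8a_E0_nonempty (q : ℕ) (hq : q.Prime) : (h8a_E0 q).Nonempty := by
  refine ⟨![0, 1], 1, 0, 1, one_ne_zero, ?_, by simp⟩
  intro h
  have := Int.eq_one_of_dvd_one (by positivity) h
  have := hq.one_lt
  omega

theorem h8a_E1_nonempty (q : ℕ) (hq : q.Prime) : (h8a_E1 q).Nonempty := by
  refine ⟨![1, 0], 1, 1, 0, one_ne_zero, ?_, by simp⟩
  intro h
  have := Int.eq_one_of_dvd_one (by positivity) h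
  have := hq.one_lt
  omega

/-! ### Membership criteria between `SA` and `SB` -/

section Criteria

variable {N q : ℕ}

theorem h8a_isCoprime (hq : q.Prime) (hqN : ¬ q ∣ N) : IsCoprime (N : ℤ) (q : ℤ) := by
  have : Nat.Coprime q N := (Nat.Prime.coprime_iff_not_dvd hq).mpr hqN
  exact (Nat.isCoprime_iff_coprime.mpr this).symm

/-- an element `ι a` of `SA` with `q ∣ c` lies in `SB` -/
theorem h8a_iota_mem_SB_of_dvd (hq : q.Prime) (hqN : ¬ q ∣ N) (a : SL(2, ℤ)) (ha : a ∈ Gamma0 N)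
    (hc : (q : ℤ) ∣ (a : Matrix (Fin 2) (Fin 2) ℤ) 1 0) :
    h8a_iota a ∈ h8a_SB N (q : ℚ) (by exact_mod_cast hq.pos.ne') := by
  obtain ⟨a', ha', -, -, h10, -⟩ := h8a_kappa_iota_of_dvd q hq.pos a hc
  rw [h8a_mem_SB, h8a_mem_SA]
  refine ⟨a', ?_, ha'⟩
  rw [h8a_gamma0_dvd] at ha ⊢
  rw [← h10] at ha
  exact (h8a_isCoprime hq hqN).dvd_of_dvd_mul_right ha

/-- an element `ι a` of `SA ⊓ SB` has `q ∣ c` -/
theorem h8a_dvd_of_iota_mem_SB (hq : q.Prime) (a : SL(2, ℤ))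
    (h : h8a_iota a ∈ h8a_SB N (q : ℚ) (by exact_mod_cast hq.pos.ne')) :
    (q : ℤ) ∣ (a : Matrix (Fin 2) (Fin 2) ℤ) 1 0 := by
  rw [h8a_mem_SB, h8a_mem_SA] at h
  obtain ⟨a', -, ha'⟩ := h
  have h10 := congrArg (fun m : SL(2, ℚ) => (m : Matrix (Fin 2) (Fin 2) ℚ) 1 0) ha'
  simp only [h8a_kappa_apply, h8a_iota_apply, h8a_kappaMat, Matrix.of_apply, Matrix.cons_val',
    Matrix.cons_val_zero, Matrix.cons_val_one] at h10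
  have hq0 : (q : ℚ) ≠ 0 := by exact_mod_cast hq.pos.ne'
  have h2 : (((a : Matrix (Fin 2) (Fin 2) ℤ) 1 0 : ℤ) : ℚ) =
      (q : ℚ) * (((a' : Matrix (Fin 2) (Fin 2) ℤ) 1 0 : ℤ) : ℚ) := by
    rw [h10]; field_simp
  refine ⟨(a' : Matrix (Fin 2) (Fin 2) ℤ) 1 0, ?_⟩
  exact_mod_cast h2

/-- an element `κ⁻¹(ι a)` of `SB` with `q ∣ b` lies in `SA` -/
theorem h8a_kappa_symm_iota_mem_SA_of_dvd (hq : q.Prime) (a : SL(2, ℤ)) (ha : a ∈ Gamma0 N)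
    (hb : (q : ℤ) ∣ (a : Matrix (Fin 2) (Fin 2) ℤ) 0 1) :
    (h8a_kappa (q : ℚ) (by exact_mod_cast hq.pos.ne')).symm (h8a_iota a) ∈ h8a_SA N := by
  obtain ⟨a', ha', h10⟩ := h8a_kappa_symm_iota_of_dvd q hq.pos a hb
  rw [h8a_mem_SA]
  refine ⟨a', ?_, ha'⟩
  rw [h8a_gamma0_dvd] at ha ⊢
  rw [h10]
  exact Dvd.dvd.mul_left ha _

end Criteria

/-! ### The ping-pong hypotheses -/

section PingPongSL

variable {N q : ℕ}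

theorem h8a_iota_smul (a : SL(2, ℤ)) (lam u v : ℚ) :
    h8a_iota a • (![lam * u, lam * v] : Fin 2 → ℚ) =
      ![lam * (((a : Matrix (Fin 2) (Fin 2) ℤ) 0 0 : ℚ) * u +
          ((a : Matrix (Fin 2) (Fin 2) ℤ) 0 1 : ℚ) * v),
        lam * (((a : Matrix (Fin 2) (Fin 2) ℤ) 1 0 : ℚ) * u +
          ((a : Matrix (Fin 2) (Fin 2) ℤ) 1 1 : ℚ) * v)] := by
  rw [h8a_smul_vec]
  simp only [h8a_iota_apply]
  ext i
  fin_cases i <;> simp <;> ring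

theorem h8a_kappa_symm_iota_smul (hq : 0 < q) (a : SL(2, ℤ)) (lam u v : ℚ) :
    (h8a_kappa (q : ℚ) (by exact_mod_cast hq.ne')).symm (h8a_iota a) •
        (![lam * u, lam * v] : Fin 2 → ℚ) =
      ![lam / q * ((q : ℚ) * ((a : Matrix (Fin 2) (Fin 2) ℤ) 0 0 : ℚ) * u +
          ((a : Matrix (Fin 2) (Fin 2) ℤ) 0 1 : ℚ) * v),
        lam / q * ((q : ℚ) * ((q : ℚ) * ((a : Matrix (Fin 2) (Fin 2) ℤ) 1 0 : ℚ) * u +
          ((a : Matrix (Fin 2) (Fin 2) ℤ) 1 1 : ℚ) * v))] := by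
  have hq0 : (q : ℚ) ≠ 0 := by exact_mod_cast hq.ne'
  rw [h8a_smul_vec]
  simp only [h8a_kappa_symm_apply, h8a_kappaMat, h8a_iota_apply, Matrix.of_apply,
    Matrix.cons_val', Matrix.cons_val_zero, Matrix.cons_val_one]
  ext i
  fin_cases i <;> simp <;> field_simp

theorem h8a_vec_ext {a b c d : ℚ} (h0 : a = c) (h1 : b = d) :
    (![a, b] : Fin 2 → ℚ) = ![c, d] := by rw [h0, h1]

theorem h8a_det_int (a : SL(2, ℤ)) :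
    (a : Matrix (Fin 2) (Fin 2) ℤ) 0 0 * (a : Matrix (Fin 2) (Fin 2) ℤ) 1 1 -
      (a : Matrix (Fin 2) (Fin 2) ℤ) 0 1 * (a : Matrix (Fin 2) (Fin 2) ℤ) 1 0 = 1 := by
  have := a.2
  rw [Matrix.det_fin_two] at this
  exact this

theorem h8a_hA (hq : q.Prime) (hqN : ¬ q ∣ N)
    (a : h8a_SA N) (ha : (a : SL(2, ℚ)) ∉ h8a_SB N (q : ℚ) (by exact_mod_cast hq.pos.ne'))
    (P : Fin 2 → ℚ) (hP : P ∈ h8a_E1 q) : (a : SL(2, ℚ)) • P ∈ h8a_E0 q := by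
  obtain ⟨a0, ha0, h⟩ := h8a_mem_SA.mp a.2
  have hq' : Prime (q : ℤ) := Nat.prime_iff_prime_int.mp hq
  have hc : ¬ (q : ℤ) ∣ (a0 : Matrix (Fin 2) (Fin 2) ℤ) 1 0 := by
    intro hc
    apply ha
    rw [← h]
    exact h8a_iota_mem_SB_of_dvd hq hqN a0 ha0 hc
  obtain ⟨lam, u, v, hlam, hu, rfl⟩ := hP
  rw [← h, h8a_iota_smul]
  refine ⟨lam, (a0 : Matrix (Fin 2) (Fin 2) ℤ) 0 0 * u + (a0 : Matrix (Fin 2) (Fin 2) ℤ) 0 1 * (q * v),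
    (a0 : Matrix (Fin 2) (Fin 2) ℤ) 1 0 * u + (a0 : Matrix (Fin 2) (Fin 2) ℤ) 1 1 * (q * v),
    hlam, ?_, ?_⟩
  · intro hd
    have h1 : (q : ℤ) ∣ (a0 : Matrix (Fin 2) (Fin 2) ℤ) 1 0 * u := by
      have h2 : (q : ℤ) ∣ (a0 : Matrix (Fin 2) (Fin 2) ℤ) 1 1 * (q * v) :=
        ⟨(a0 : Matrix (Fin 2) (Fin 2) ℤ) 1 1 * v, by ring⟩
      exact (Int.dvd_add_left h2).mp hd
    rcases hq'.dvd_or_dvd h1 with h3 | h3
    · exact hc h3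
    · exact hu h3
  · push_cast; rfl

/-- description of elements of `SB`: `b = κ⁻¹(ι a0)` with `a0 ∈ Γ₀(N)` -/
theorem h8a_SB_eq (hq : 0 < q) (b : SL(2, ℚ))
    (hb : b ∈ h8a_SB N (q : ℚ) (by exact_mod_cast hq.ne')) :
    ∃ a0 : SL(2, ℤ), a0 ∈ Gamma0 N ∧
      b = (h8a_kappa (q : ℚ) (by exact_mod_cast hq.ne')).symm (h8a_iota a0) := by
  obtain ⟨a0, ha0, h⟩ := h8a_mem_SA.mp (h8a_mem_SB.mp hb)
  refine ⟨a0, ha0, ?_⟩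
  rw [h, MulEquiv.symm_apply_apply]

theorem h8a_hB (hq : q.Prime)
    (b : h8a_SB N (q : ℚ) (by exact_mod_cast hq.pos.ne')) (hb : (b : SL(2, ℚ)) ∉ h8a_SA N)
    (P : Fin 2 → ℚ) (hP : P ∈ h8a_E0 q) : (b : SL(2, ℚ)) • P ∈ h8a_E1 q := by
  obtain ⟨a0, ha0, h⟩ := h8a_SB_eq hq.pos b b.2
  have hq' : Prime (q : ℤ) := Nat.prime_iff_prime_int.mp hq
  have hq0 : (q : ℚ) ≠ 0 := by exact_mod_cast hq.pos.ne'
  have hb0 : ¬ (q : ℤ) ∣ (a0 : Matrix (Fin 2) (Fin 2) ℤ) 0 1 := by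
    intro hd
    apply hb
    rw [h]
    exact h8a_kappa_symm_iota_mem_SA_of_dvd hq a0 ha0 hd
  obtain ⟨lam, u, v, hlam, hv, rfl⟩ := hP
  rw [h, h8a_kappa_symm_iota_smul hq.pos]
  refine ⟨lam / q, q * (a0 : Matrix (Fin 2) (Fin 2) ℤ) 0 0 * u + (a0 : Matrix (Fin 2) (Fin 2) ℤ) 0 1 * v,
    q * (a0 : Matrix (Fin 2) (Fin 2) ℤ) 1 0 * u + (a0 : Matrix (Fin 2) (Fin 2) ℤ) 1 1 * v,
    div_ne_zero hlam hq0, ?_, ?_⟩
  · intro hd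
    have h1 : (q : ℤ) ∣ (a0 : Matrix (Fin 2) (Fin 2) ℤ) 0 1 * v := by
      have h2 : (q : ℤ) ∣ q * (a0 : Matrix (Fin 2) (Fin 2) ℤ) 0 0 * u :=
        ⟨(a0 : Matrix (Fin 2) (Fin 2) ℤ) 0 0 * u, by ring⟩
      exact (Int.dvd_add_right h2).mp hd
    rcases hq'.dvd_or_dvd h1 with h3 | h3
    · exact hb0 h3
    · exact hv h3
  · push_cast; rfl

theorem h8a_hC0 (hq : q.Prime) (c : SL(2, ℚ)) (hcA : c ∈ h8a_SA N)
    (hcB : c ∈ h8a_SB N (q : ℚ) (by exact_mod_cast hq.pos.ne'))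
    (P : Fin 2 → ℚ) (hP : P ∈ h8a_E0 q) : c • P ∈ h8a_E0 q := by
  obtain ⟨a0, ha0, rfl⟩ := h8a_mem_SA.mp hcA
  have hq' : Prime (q : ℤ) := Nat.prime_iff_prime_int.mp hq
  have hc : (q : ℤ) ∣ (a0 : Matrix (Fin 2) (Fin 2) ℤ) 1 0 := h8a_dvd_of_iota_mem_SB hq a0 hcB
  have hd : ¬ (q : ℤ) ∣ (a0 : Matrix (Fin 2) (Fin 2) ℤ) 1 1 := by
    intro hd
    have hdet := h8a_det_int a0
    have : (q : ℤ) ∣ 1 := by
      rw [← hdet]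
      exact dvd_sub (Dvd.dvd.mul_left hd _) (Dvd.dvd.mul_left hc _)
    exact hq'.not_dvd_one this
  obtain ⟨lam, u, v, hlam, hv, rfl⟩ := hP
  rw [h8a_iota_smul]
  refine ⟨lam, (a0 : Matrix (Fin 2) (Fin 2) ℤ) 0 0 * u + (a0 : Matrix (Fin 2) (Fin 2) ℤ) 0 1 * v,
    (a0 : Matrix (Fin 2) (Fin 2) ℤ) 1 0 * u + (a0 : Matrix (Fin 2) (Fin 2) ℤ) 1 1 * v,
    hlam, ?_, ?_⟩
  · intro hdd
    have h1 : (q : ℤ) ∣ (a0 : Matrix (Fin 2) (Fin 2) ℤ) 1 1 * v :=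
      (Int.dvd_add_right (Dvd.dvd.mul_right hc _)).mp hdd
    rcases hq'.dvd_or_dvd h1 with h3 | h3
    · exact hd h3
    · exact hv h3
  · push_cast; rfl

theorem h8a_hC1 (hq : q.Prime) (c : SL(2, ℚ)) (hcA : c ∈ h8a_SA N)
    (hcB : c ∈ h8a_SB N (q : ℚ) (by exact_mod_cast hq.pos.ne'))
    (P : Fin 2 → ℚ) (hP : P ∈ h8a_E1 q) : c • P ∈ h8a_E1 q := by
  obtain ⟨a0, ha0, rfl⟩ := h8a_mem_SA.mp hcA
  have hq' : Prime (q : ℤ) := Nat.prime_iff_prime_int.mp hq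
  obtain ⟨c', hc'⟩ : (q : ℤ) ∣ (a0 : Matrix (Fin 2) (Fin 2) ℤ) 1 0 :=
    h8a_dvd_of_iota_mem_SB hq a0 hcB
  have ha : ¬ (q : ℤ) ∣ (a0 : Matrix (Fin 2) (Fin 2) ℤ) 0 0 := by
    intro hd
    have hdet := h8a_det_int a0
    have : (q : ℤ) ∣ 1 := by
      rw [← hdet]
      exact dvd_sub (Dvd.dvd.mul_right hd _) (Dvd.dvd.mul_left ⟨c', hc'⟩ _)
    exact hq'.not_dvd_one this
  obtain ⟨lam, u, v, hlam, hu, rfl⟩ := hP
  rw [h8a_iota_smul]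
  refine ⟨lam, (a0 : Matrix (Fin 2) (Fin 2) ℤ) 0 0 * u + (a0 : Matrix (Fin 2) (Fin 2) ℤ) 0 1 * (q * v),
    c' * u + (a0 : Matrix (Fin 2) (Fin 2) ℤ) 1 1 * v,
    hlam, ?_, ?_⟩
  · intro hdd
    have h2 : (q : ℤ) ∣ (a0 : Matrix (Fin 2) (Fin 2) ℤ) 0 1 * (q * v) :=
      ⟨(a0 : Matrix (Fin 2) (Fin 2) ℤ) 0 1 * v, by ring⟩
    have h1 : (q : ℤ) ∣ (a0 : Matrix (Fin 2) (Fin 2) ℤ) 0 0 * u := (Int.dvd_add_left h2).mp hdd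
    rcases hq'.dvd_or_dvd h1 with h3 | h3
    · exact ha h3
    · exact hu h3
  · rw [hc']
    apply h8a_vec_ext <;> (push_cast; ring)

theorem h8a_hpA (hq : q.Prime) (hqN : ¬ q ∣ N)
    (a : h8a_SA N) (ha : (a : SL(2, ℚ)) ∉ h8a_SB N (q : ℚ) (by exact_mod_cast hq.pos.ne')) :
    ∃ P ∈ h8a_E0 q, (a : SL(2, ℚ)) • P ∈ h8a_E0 q := by
  obtain ⟨a0, ha0, h⟩ := h8a_mem_SA.mp a.2
  have hq' : Prime (q : ℤ) := Nat.prime_iff_prime_int.mp hq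
  have hc : ¬ (q : ℤ) ∣ (a0 : Matrix (Fin 2) (Fin 2) ℤ) 1 0 := by
    intro hc
    apply ha
    rw [← h]
    exact h8a_iota_mem_SB_of_dvd hq hqN a0 ha0 hc
  have h1 : ¬ (q : ℤ) ∣ 1 := hq'.not_dvd_one
  by_cases hd : (q : ℤ) ∣ (a0 : Matrix (Fin 2) (Fin 2) ℤ) 1 1
  · -- take P = (1, 1)
    refine ⟨![(1 : ℚ) * ((1 : ℤ) : ℚ), (1 : ℚ) * ((1 : ℤ) : ℚ)], ⟨1, 1, 1, one_ne_zero, h1, rfl⟩, ?_⟩
    rw [← h, h8a_iota_smul]
    refine ⟨1, (a0 : Matrix (Fin 2) (Fin 2) ℤ) 0 0 * 1 + (a0 : Matrix (Fin 2) (Fin 2) ℤ) 0 1 * 1,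
      (a0 : Matrix (Fin 2) (Fin 2) ℤ) 1 0 * 1 + (a0 : Matrix (Fin 2) (Fin 2) ℤ) 1 1 * 1,
      one_ne_zero, ?_, ?_⟩
    · intro hdd
      apply hc
      have := (Int.dvd_add_left (Dvd.dvd.mul_right hd 1)).mp hdd
      simpa using this
    · push_cast; rfl
  · -- take P = (0, 1)
    refine ⟨![(1 : ℚ) * ((0 : ℤ) : ℚ), (1 : ℚ) * ((1 : ℤ) : ℚ)], ⟨1, 0, 1, one_ne_zero, h1, rfl⟩, ?_⟩
    rw [← h, h8a_iota_smul]
    refine ⟨1, (a0 : Matrix (Fin 2) (Fin 2) ℤ) 0 0 * 0 + (a0 : Matrix (Fin 2) (Fin 2) ℤ) 0 1 * 1,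
      (a0 : Matrix (Fin 2) (Fin 2) ℤ) 1 0 * 0 + (a0 : Matrix (Fin 2) (Fin 2) ℤ) 1 1 * 1,
      one_ne_zero, ?_, ?_⟩
    · intro hdd
      apply hd
      simpa using hdd
    · push_cast; rfl

theorem h8a_hpB (hq : q.Prime)
    (b : h8a_SB N (q : ℚ) (by exact_mod_cast hq.pos.ne')) (hb : (b : SL(2, ℚ)) ∉ h8a_SA N) :
    ∃ P ∈ h8a_E1 q, (b : SL(2, ℚ)) • P ∈ h8a_E1 q := by
  obtain ⟨a0, ha0, h⟩ := h8a_SB_eq hq.pos b b.2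
  have hq' : Prime (q : ℤ) := Nat.prime_iff_prime_int.mp hq
  have hq0 : (q : ℚ) ≠ 0 := by exact_mod_cast hq.pos.ne'
  have hb0 : ¬ (q : ℤ) ∣ (a0 : Matrix (Fin 2) (Fin 2) ℤ) 0 1 := by
    intro hd
    apply hb
    rw [h]
    exact h8a_kappa_symm_iota_mem_SA_of_dvd hq a0 ha0 hd
  have h1 : ¬ (q : ℤ) ∣ 1 := hq'.not_dvd_one
  by_cases hd : (q : ℤ) ∣ (a0 : Matrix (Fin 2) (Fin 2) ℤ) 0 0
  · -- take P = (1, q)
    refine ⟨![(1 : ℚ) * ((1 : ℤ) : ℚ), (1 : ℚ) * ((q : ℚ) * ((1 : ℤ) : ℚ))],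
      ⟨1, 1, 1, one_ne_zero, h1, rfl⟩, ?_⟩
    rw [h, h8a_kappa_symm_iota_smul hq.pos]
    refine ⟨1, (a0 : Matrix (Fin 2) (Fin 2) ℤ) 0 0 + (a0 : Matrix (Fin 2) (Fin 2) ℤ) 0 1,
      (a0 : Matrix (Fin 2) (Fin 2) ℤ) 1 0 + (a0 : Matrix (Fin 2) (Fin 2) ℤ) 1 1,
      one_ne_zero, ?_, ?_⟩
    · intro hdd
      exact hb0 ((Int.dvd_add_right hd).mp hdd)
    · apply h8a_vec_ext <;> (push_cast; field_simp)
  · -- take P = (1, 0)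
    refine ⟨![(1 : ℚ) * ((1 : ℤ) : ℚ), (1 : ℚ) * ((q : ℚ) * ((0 : ℤ) : ℚ))],
      ⟨1, 1, 0, one_ne_zero, h1, rfl⟩, ?_⟩
    rw [h, h8a_kappa_symm_iota_smul hq.pos]
    refine ⟨1, (a0 : Matrix (Fin 2) (Fin 2) ℤ) 0 0, (a0 : Matrix (Fin 2) (Fin 2) ℤ) 1 0,
      one_ne_zero, hd, ?_⟩
    apply h8a_vec_ext <;> (push_cast; field_simp; try ring)

end PingPongSL

/-! ### The gluing theorem (homomorphism part) -/

section Glue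

variable {N q : ℕ}

/-- `Γ₀(N) ≃* ι(Γ₀(N))` -/
noncomputable def h8a_eSA (N : ℕ) : Gamma0 N ≃* h8a_SA N :=
  (Gamma0 N).equivMapOfInjective h8a_iota h8a_iota_injective

theorem h8a_eSA_apply (a : Gamma0 N) : ((h8a_eSA N a : h8a_SA N) : SL(2, ℚ)) = h8a_iota a := rfl

theorem h8a_eSA_symm_apply (a : SL(2, ℤ)) (ha : a ∈ Gamma0 N) (h : h8a_iota a ∈ h8a_SA N) :
    (h8a_eSA N).symm ⟨h8a_iota a, h⟩ = ⟨a, ha⟩ := by
  rw [MulEquiv.symm_apply_eq]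
  exact Subtype.ext rfl

theorem h8a_iota_conjH (hq : 0 < q) (g : Gamma0 (N * q)) :
    h8a_iota ((h6_conjH N q hq g : Gamma0 N) : SL(2, ℤ)) =
      h8a_kappa (q : ℚ) (by exact_mod_cast hq.ne') (h8a_iota (g : SL(2, ℤ))) := by
  have hq0 : (q : ℚ) ≠ 0 := by exact_mod_cast hq.ne'
  have hdvd : (q : ℤ) ∣ ((g : SL(2, ℤ)) : Matrix (Fin 2) (Fin 2) ℤ) 1 0 :=
    dvd_trans (Dvd.intro_left _ rfl) (h6_dvd_of_mem N q g g.2)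
  apply Subtype.ext
  ext i j
  rw [h8a_kappa_apply]
  fin_cases i <;> fin_cases j
  · show (((h6_conjMat q ((g : SL(2, ℤ)) : Matrix (Fin 2) (Fin 2) ℤ)) 0 0 : ℤ) : ℚ) =
      h8a_kappaMat (q : ℚ) (h8a_iota (g : SL(2, ℤ))) 0 0
    simp [h6_conjMat, h8a_kappaMat, h8a_iota_apply]
  · show (((h6_conjMat q ((g : SL(2, ℤ)) : Matrix (Fin 2) (Fin 2) ℤ)) 0 1 : ℤ) : ℚ) =
      h8a_kappaMat (q : ℚ) (h8a_iota (g : SL(2, ℤ))) 0 1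
    simp [h6_conjMat, h8a_kappaMat, h8a_iota_apply]
  · show (((h6_conjMat q ((g : SL(2, ℤ)) : Matrix (Fin 2) (Fin 2) ℤ)) 1 0 : ℤ) : ℚ) =
      h8a_kappaMat (q : ℚ) (h8a_iota (g : SL(2, ℤ))) 1 0
    simp only [h6_conjMat, h8a_kappaMat, h8a_iota_apply, Matrix.of_apply, Matrix.cons_val',
      Matrix.cons_val_zero, Matrix.cons_val_one]
    rw [Int.cast_div hdvd (by exact_mod_cast hq0)]
    simp
  · show (((h6_conjMat q ((g : SL(2, ℤ)) : Matrix (Fin 2) (Fin 2) ℤ)) 1 1 : ℤ) : ℚ) =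
      h8a_kappaMat (q : ℚ) (h8a_iota (g : SL(2, ℤ))) 1 1
    simp [h6_conjMat, h8a_kappaMat, h8a_iota_apply]

/-- **Gluing (homomorphism part).**  Multiplicative version. -/
theorem h8a_glue_mul {p : ℕ} (hq : q.Prime) (hqN : ¬ q ∣ N)
    (x y : Additive (Gamma0 N) →+ ZMod p)
    (hxy : ∀ g : Gamma0 (N * q), x (Additive.ofMul (h6_incl N q g))
        + y (Additive.ofMul (h6_conjH N q hq.pos g)) = 0) :
    ∃ Φ : h8a_H N (q : ℚ) (by exact_mod_cast hq.pos.ne') →* Multiplicative (ZMod p),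
      (∀ (a : Gamma0 N) (h : h8a_iota a ∈ h8a_H N (q : ℚ) (by exact_mod_cast hq.pos.ne')),
        Φ ⟨h8a_iota a, h⟩ = Multiplicative.ofAdd (x (Additive.ofMul a))) ∧
      (∀ (a : Gamma0 N)
        (h : (h8a_kappa (q : ℚ) (by exact_mod_cast hq.pos.ne')).symm (h8a_iota a) ∈
          h8a_H N (q : ℚ) (by exact_mod_cast hq.pos.ne')),
        Φ ⟨(h8a_kappa (q : ℚ) (by exact_mod_cast hq.pos.ne')).symm (h8a_iota a), h⟩ =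
          Multiplicative.ofAdd (- y (Additive.ofMul a))) := by
  have hq0 : (q : ℚ) ≠ 0 := by exact_mod_cast hq.pos.ne'
  set κ := h8a_kappa (q : ℚ) hq0 with hκ
  set X : h8a_SA N →* Multiplicative (ZMod p) :=
    (AddMonoidHom.toMultiplicativeRight x).comp (h8a_eSA N).symm.toMonoidHom with hX
  set Y : h8a_SB N (q : ℚ) hq0 →* Multiplicative (ZMod p) :=
    ((AddMonoidHom.toMultiplicativeRight (-y)).comp (h8a_eSA N).symm.toMonoidHom).comp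
      (κ.toMonoidHom.subgroupComap (h8a_SA N)) with hY
  have hagree : ∀ (c : SL(2, ℚ)) (hA : c ∈ h8a_SA N) (hB : c ∈ h8a_SB N (q : ℚ) hq0),
      X ⟨c, hA⟩ = Y ⟨c, hB⟩ := by
    intro c hA hB
    obtain ⟨a0, ha0, rfl⟩ := h8a_mem_SA.mp hA
    have hc : (q : ℤ) ∣ (a0 : Matrix (Fin 2) (Fin 2) ℤ) 1 0 := h8a_dvd_of_iota_mem_SB hq a0 hB
    have hNq : a0 ∈ Gamma0 (N * q) := by
      rw [h8a_gamma0_dvd] at ha0 ⊢
      push_cast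
      exact (h8a_isCoprime hq hqN).mul_dvd ha0 hc
    set g : Gamma0 (N * q) := ⟨a0, hNq⟩ with hg
    have h1 : X ⟨h8a_iota a0, hA⟩ = Multiplicative.ofAdd (x (Additive.ofMul (h6_incl N q g))) := by
      show Multiplicative.ofAdd (x (Additive.ofMul ((h8a_eSA N).symm ⟨h8a_iota a0, hA⟩))) = _
      rw [h8a_eSA_symm_apply a0 ha0 hA]
      rfl
    have h2 : Y ⟨h8a_iota a0, hB⟩ =
        Multiplicative.ofAdd (- y (Additive.ofMul (h6_conjH N q hq.pos g))) := by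
      show Multiplicative.ofAdd ((-y) (Additive.ofMul ((h8a_eSA N).symm
        ⟨κ (h8a_iota a0), hB⟩))) = _
      have h3 : (⟨κ (h8a_iota a0), hB⟩ : h8a_SA N) =
          ⟨h8a_iota ((h6_conjH N q hq.pos g : Gamma0 N) : SL(2, ℤ)),
            h8a_mem_SA.mpr ⟨_, (h6_conjH N q hq.pos g).2, rfl⟩⟩ := by
        apply Subtype.ext
        exact (h8a_iota_conjH hq.pos g).symm
      rw [h3, h8a_eSA_symm_apply _ (h6_conjH N q hq.pos g).2]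
      rfl
    rw [h1, h2]
    congr 1
    exact eq_neg_of_add_eq_zero_left (hxy g)
  have hext : ∃ Φ : h8a_H N (q : ℚ) hq0 →* Multiplicative (ZMod p),
      (∀ (c : SL(2, ℚ)) (hA : c ∈ h8a_SA N) (h : c ∈ h8a_H N (q : ℚ) hq0),
        Φ ⟨c, h⟩ = X ⟨c, hA⟩) ∧
      (∀ (c : SL(2, ℚ)) (hB : c ∈ h8a_SB N (q : ℚ) hq0) (h : c ∈ h8a_H N (q : ℚ) hq0),
        Φ ⟨c, h⟩ = Y ⟨c, hB⟩) := by
    obtain ⟨Φ, hΦA, hΦB⟩ := h8a_amalgam_extend (h8a_SA N) (h8a_SB N (q : ℚ) hq0) X Y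
      (h8a_E0 q) (h8a_E1 q) (h8a_E_disjoint q hq) (h8a_E0_nonempty q hq) (h8a_E1_nonempty q hq)
      (h8a_hA hq hqN) (h8a_hB hq) (h8a_hC0 hq) (h8a_hC1 hq) (h8a_hpA hq hqN) (h8a_hpB hq) hagree
    exact ⟨Φ, fun c hA _ => hΦA ⟨c, hA⟩, fun c hB _ => hΦB ⟨c, hB⟩⟩
  obtain ⟨Φ, hΦA, hΦB⟩ := hext
  refine ⟨Φ, ?_, ?_⟩
  · intro a h
    have hA : h8a_iota a ∈ h8a_SA N := h8a_mem_SA.mpr ⟨a, a.2, rfl⟩
    rw [hΦA _ hA h]
    show Multiplicative.ofAdd (x (Additive.ofMul ((h8a_eSA N).symm ⟨h8a_iota a, hA⟩))) = _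
    rw [h8a_eSA_symm_apply a a.2 hA]
  · intro a h
    have hB : κ.symm (h8a_iota a) ∈ h8a_SB N (q : ℚ) hq0 := by
      rw [h8a_mem_SB, MulEquiv.apply_symm_apply]
      exact h8a_mem_SA.mpr ⟨a, a.2, rfl⟩
    rw [hΦB _ hB h]
    have hA : h8a_iota a ∈ h8a_SA N := h8a_mem_SA.mpr ⟨a, a.2, rfl⟩
    show Multiplicative.ofAdd ((-y) (Additive.ofMul ((h8a_eSA N).symm
      ⟨κ (κ.symm (h8a_iota a)), hB⟩))) = _
    have h3 : (⟨κ (κ.symm (h8a_iota a)), hB⟩ : h8a_SA N) = ⟨h8a_iota a, hA⟩ := by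
      apply Subtype.ext
      exact MulEquiv.apply_symm_apply κ _
    rw [h3, h8a_eSA_symm_apply a a.2 hA]
    rfl

end Glue

end Fermat.Agent.Lib.S41
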