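import Mathlib
import Fermat.Agent.Lib.S41.Defs
import Fermat.Agent.Lib.S41.H8Amalgam
import Fermat.Agent.Lib.S41.H8Glue

/-!
# S41, layer A1 (part 3): the full group `Γ₀(N)[1/q]` and the unipotent clause

`h8a_G N q` = matrices in `SL(2, ℚ)` with entries in `ℤ[1/q]` and lower-left entry in `N ℤ[1/q]`.
`h8a_H ≤ h8a_G`.  The glued character kills every element of trace `±2` (when `q ≠ p`).
-/

set_option autoImplicit false

open CongruenceSubgroup ModularCurve.Period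
open scoped MatrixGroups

namespace Fermat.Agent.Lib.S41

/-- `r ∈ ℤ[1/q]` -/
def h8a_IsZq (q : ℕ) (r : ℚ) : Prop := ∃ (k : ℕ) (m : ℤ), r * (q : ℚ) ^ k = m

/-- `r ∈ N ℤ[1/q]` -/
def h8a_IsNZq (N q : ℕ) (r : ℚ) : Prop := ∃ (k : ℕ) (m : ℤ), r * (q : ℚ) ^ k = (N : ℚ) * m

section Zq

variable {N q : ℕ}

theorem h8a_IsZq_int (m : ℤ) : h8a_IsZq q (m : ℚ) := ⟨0, m, by simp⟩

theorem h8a_IsZq_zero : h8a_IsZq q 0 := ⟨0, 0, by simp⟩

theorem h8a_IsZq_one : h8a_IsZq q 1 := ⟨0, 1, by simp⟩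

theorem h8a_IsZq_add {r s : ℚ} (hr : h8a_IsZq q r) (hs : h8a_IsZq q s) : h8a_IsZq q (r + s) := by
  obtain ⟨k, m, hm⟩ := hr
  obtain ⟨k', m', hm'⟩ := hs
  refine ⟨k + k', m * (q : ℤ) ^ k' + m' * (q : ℤ) ^ k, ?_⟩
  push_cast
  rw [← hm, ← hm', pow_add]; ring

theorem h8a_IsZq_mul {r s : ℚ} (hr : h8a_IsZq q r) (hs : h8a_IsZq q s) : h8a_IsZq q (r * s) := by
  obtain ⟨k, m, hm⟩ := hr
  obtain ⟨k', m', hm'⟩ := hs
  refine ⟨k + k', m * m', ?_⟩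
  push_cast
  rw [← hm, ← hm', pow_add]; ring

theorem h8a_IsZq_neg {r : ℚ} (hr : h8a_IsZq q r) : h8a_IsZq q (-r) := by
  obtain ⟨k, m, hm⟩ := hr
  exact ⟨k, -m, by push_cast; rw [← hm]; ring⟩

theorem h8a_IsZq_div_q (hq : 0 < q) {r : ℚ} (hr : h8a_IsZq q r) : h8a_IsZq q (r / q) := by
  obtain ⟨k, m, hm⟩ := hr
  have hq0 : (q : ℚ) ≠ 0 := by exact_mod_cast hq.ne'
  refine ⟨k + 1, m, ?_⟩
  rw [← hm, pow_succ]; field_simp

theorem h8a_IsNZq_of_int {m : ℤ} (h : (N : ℤ) ∣ m) : h8a_IsNZq N q (m : ℚ) := by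
  obtain ⟨m', rfl⟩ := h
  exact ⟨0, m', by push_cast; ring⟩

theorem h8a_IsNZq_zero : h8a_IsNZq N q 0 := ⟨0, 0, by simp⟩

theorem h8a_IsNZq_add {r s : ℚ} (hr : h8a_IsNZq N q r) (hs : h8a_IsNZq N q s) :
    h8a_IsNZq N q (r + s) := by
  obtain ⟨k, m, hm⟩ := hr
  obtain ⟨k', m', hm'⟩ := hs
  refine ⟨k + k', m * (q : ℤ) ^ k' + m' * (q : ℤ) ^ k, ?_⟩
  push_cast
  have e : (r + s) * (q : ℚ) ^ (k + k') =
      (r * (q : ℚ) ^ k) * (q : ℚ) ^ k' + (s * (q : ℚ) ^ k') * (q : ℚ) ^ k := by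
    rw [pow_add]; ring
  rw [e, hm, hm']; ring

theorem h8a_IsNZq_mul_right {r s : ℚ} (hr : h8a_IsNZq N q r) (hs : h8a_IsZq q s) :
    h8a_IsNZq N q (r * s) := by
  obtain ⟨k, m, hm⟩ := hr
  obtain ⟨k', m', hm'⟩ := hs
  refine ⟨k + k', m * m', ?_⟩
  push_cast
  have e : (r * s) * (q : ℚ) ^ (k + k') = (r * (q : ℚ) ^ k) * (s * (q : ℚ) ^ k') := by
    rw [pow_add]; ring
  rw [e, hm, hm']; ring

theorem h8a_IsNZq_mul_left {r s : ℚ} (hr : h8a_IsZq q r) (hs : h8a_IsNZq N q s) :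
    h8a_IsNZq N q (r * s) := by
  rw [mul_comm]; exact h8a_IsNZq_mul_right hs hr

theorem h8a_IsNZq_neg {r : ℚ} (hr : h8a_IsNZq N q r) : h8a_IsNZq N q (-r) := by
  obtain ⟨k, m, hm⟩ := hr
  exact ⟨k, -m, by push_cast; rw [neg_mul, hm]; ring⟩

theorem h8a_IsNZq_mul_q {r : ℚ} (hr : h8a_IsNZq N q r) : h8a_IsNZq N q ((q : ℚ) * r) :=
  h8a_IsNZq_mul_left ⟨0, q, by simp⟩ hr

end Zq

/-- the full group `Γ₀(N)[1/q]` inside `SL(2, ℚ)` -/
def h8a_G (N q : ℕ) : Subgroup SL(2, ℚ) where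
  carrier := {g | (∀ i j, h8a_IsZq q ((g : Matrix (Fin 2) (Fin 2) ℚ) i j)) ∧
    h8a_IsNZq N q ((g : Matrix (Fin 2) (Fin 2) ℚ) 1 0)}
  one_mem' := by
    refine ⟨fun i j => ?_, ?_⟩
    · rw [Matrix.SpecialLinearGroup.coe_one]
      by_cases h : i = j
      · rw [h, Matrix.one_apply_eq]; exact h8a_IsZq_one
      · rw [Matrix.one_apply_ne h]; exact h8a_IsZq_zero
    · rw [Matrix.SpecialLinearGroup.coe_one, Matrix.one_apply_ne (by decide)]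
      exact h8a_IsNZq_zero
  mul_mem' := by
    rintro g g' ⟨hg, hgN⟩ ⟨hg', hgN'⟩
    refine ⟨fun i j => ?_, ?_⟩
    · rw [Matrix.SpecialLinearGroup.coe_mul, Matrix.mul_apply, Fin.sum_univ_two]
      exact h8a_IsZq_add (h8a_IsZq_mul (hg i 0) (hg' 0 j)) (h8a_IsZq_mul (hg i 1) (hg' 1 j))
    · rw [Matrix.SpecialLinearGroup.coe_mul, Matrix.mul_apply, Fin.sum_univ_two]
      exact h8a_IsNZq_add (h8a_IsNZq_mul_right hgN (hg' 0 0)) (h8a_IsNZq_mul_left (hg 1 1) hgN')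
  inv_mem' := by
    rintro g ⟨hg, hgN⟩
    have hinv : ((g⁻¹ : SL(2, ℚ)) : Matrix (Fin 2) (Fin 2) ℚ) =
        !![(g : Matrix (Fin 2) (Fin 2) ℚ) 1 1, -(g : Matrix (Fin 2) (Fin 2) ℚ) 0 1;
          -(g : Matrix (Fin 2) (Fin 2) ℚ) 1 0, (g : Matrix (Fin 2) (Fin 2) ℚ) 0 0] := by
      rw [Matrix.SpecialLinearGroup.coe_inv, Matrix.adjugate_fin_two]
    refine ⟨fun i j => ?_, ?_⟩
    · rw [hinv]
      fin_cases i <;> fin_cases j
      · exact hg 1 1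
      · exact h8a_IsZq_neg (hg 0 1)
      · exact h8a_IsZq_neg (hg 1 0)
      · exact hg 0 0
    · rw [hinv]
      exact h8a_IsNZq_neg hgN

theorem h8a_mem_G {N q : ℕ} {g : SL(2, ℚ)} : g ∈ h8a_G N q ↔
    (∀ i j, h8a_IsZq q ((g : Matrix (Fin 2) (Fin 2) ℚ) i j)) ∧
      h8a_IsNZq N q ((g : Matrix (Fin 2) (Fin 2) ℚ) 1 0) := Iff.rfl

theorem h8a_SA_le_G (N q : ℕ) : h8a_SA N ≤ h8a_G N q := by
  intro g hg
  obtain ⟨a, ha, rfl⟩ := h8a_mem_SA.mp hg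
  refine ⟨fun i j => ?_, ?_⟩
  · rw [h8a_iota_apply]; exact h8a_IsZq_int _
  · rw [h8a_iota_apply]; exact h8a_IsNZq_of_int (h8a_gamma0_dvd.mp ha)

theorem h8a_SB_le_G (N q : ℕ) (hq : 0 < q) :
    h8a_SB N (q : ℚ) (by exact_mod_cast hq.ne') ≤ h8a_G N q := by
  intro g hg
  obtain ⟨a, ha, rfl⟩ := h8a_SB_eq hq g hg
  have hq0 : (q : ℚ) ≠ 0 := by exact_mod_cast hq.ne'
  have hmat : (((h8a_kappa (q : ℚ) hq0).symm (h8a_iota a) : SL(2, ℚ)) :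
      Matrix (Fin 2) (Fin 2) ℚ) =
      !![((a : Matrix (Fin 2) (Fin 2) ℤ) 0 0 : ℚ), ((a : Matrix (Fin 2) (Fin 2) ℤ) 0 1 : ℚ) / q;
        (q : ℚ) * ((a : Matrix (Fin 2) (Fin 2) ℤ) 1 0 : ℚ), ((a : Matrix (Fin 2) (Fin 2) ℤ) 1 1 : ℚ)] := by
    rw [h8a_kappa_symm_apply, h8a_kappaMat]
    ext i j
    fin_cases i <;> fin_cases j <;> simp [h8a_iota_apply]
    · field_simp
    · ring
  refine ⟨fun i j => ?_, ?_⟩
  · rw [hmat]
    fin_cases i <;> fin_cases j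
    · exact h8a_IsZq_int _
    · exact h8a_IsZq_div_q hq (h8a_IsZq_int _)
    · exact h8a_IsZq_mul ⟨0, q, by simp⟩ (h8a_IsZq_int _)
    · exact h8a_IsZq_int _
  · rw [hmat]
    exact h8a_IsNZq_mul_q (h8a_IsNZq_of_int (h8a_gamma0_dvd.mp ha))

theorem h8a_H_le_G (N q : ℕ) (hq : 0 < q) :
    h8a_H N (q : ℚ) (by exact_mod_cast hq.ne') ≤ h8a_G N q :=
  sup_le (h8a_SA_le_G N q) (h8a_SB_le_G N q hq)

/-! ### Integral elements -/

/-- an element of `SL(2, ℚ)` with integral entries comes from `SL(2, ℤ)` -/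
theorem h8a_exists_iota_of_int (g : SL(2, ℚ))
    (h : ∀ i j, ∃ m : ℤ, (g : Matrix (Fin 2) (Fin 2) ℚ) i j = m) :
    ∃ a : SL(2, ℤ), h8a_iota a = g := by
  choose m hm using h
  set M : Matrix (Fin 2) (Fin 2) ℤ := Matrix.of m with hM
  have hmap : (Int.castRingHom ℚ).mapMatrix M = (g : Matrix (Fin 2) (Fin 2) ℚ) := by
    ext i j
    simp [hM, hm i j]
  have hdet : M.det = 1 := by
    have h1 : ((Int.castRingHom ℚ) M.det) = 1 := by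
      rw [RingHom.map_det, hmap]; exact g.2
    have h2 : ((M.det : ℤ) : ℚ) = 1 := h1
    exact_mod_cast h2
  refine ⟨(⟨M, hdet⟩ : SL(2, ℤ)), ?_⟩
  apply Subtype.ext
  ext i j
  show ((M i j : ℤ) : ℚ) = _
  rw [hM, Matrix.of_apply, hm i j]

/-- if `r ∈ N ℤ[1/q]` is an integer then `N ∣ r` (`q` prime not dividing `N`) -/
theorem h8a_dvd_of_IsNZq {N q : ℕ} (hq : q.Prime) (hqN : ¬ q ∣ N) {m : ℤ}
    (h : h8a_IsNZq N q (m : ℚ)) : (N : ℤ) ∣ m := by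
  obtain ⟨k, m', hm'⟩ := h
  have h1 : m * (q : ℤ) ^ k = (N : ℤ) * m' := by exact_mod_cast hm'
  have hcop : IsCoprime (N : ℤ) ((q : ℤ) ^ k) := (h8a_isCoprime hq hqN).pow_right
  exact hcop.dvd_of_dvd_mul_right ⟨m', h1⟩

/-- `G ∩ SL(2, ℤ) = Γ₀(N)` -/
theorem h8a_mem_SA_of_mem_G_of_int {N q : ℕ} (hq : q.Prime) (hqN : ¬ q ∣ N) (g : SL(2, ℚ))
    (hg : g ∈ h8a_G N q) (h : ∀ i j, ∃ m : ℤ, (g : Matrix (Fin 2) (Fin 2) ℚ) i j = m) :
    g ∈ h8a_SA N := by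
  obtain ⟨a, rfl⟩ := h8a_exists_iota_of_int g h
  rw [h8a_mem_SA]
  refine ⟨a, ?_, rfl⟩
  rw [h8a_gamma0_dvd]
  have := hg.2
  rw [h8a_iota_apply] at this
  exact h8a_dvd_of_IsNZq hq hqN this

/-! ### Unipotent elements -/

theorem h8a_unip_sq (g : SL(2, ℚ))
    (htr : (g : Matrix (Fin 2) (Fin 2) ℚ) 0 0 + (g : Matrix (Fin 2) (Fin 2) ℚ) 1 1 = 2) :
    ((g : Matrix (Fin 2) (Fin 2) ℚ) - 1) * ((g : Matrix (Fin 2) (Fin 2) ℚ) - 1) = 0 := by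
  have hdet : (g : Matrix (Fin 2) (Fin 2) ℚ) 0 0 * (g : Matrix (Fin 2) (Fin 2) ℚ) 1 1 -
      (g : Matrix (Fin 2) (Fin 2) ℚ) 0 1 * (g : Matrix (Fin 2) (Fin 2) ℚ) 1 0 = 1 := by
    have := g.2
    rw [Matrix.det_fin_two] at this
    exact this
  ext i j
  fin_cases i <;> fin_cases j <;>
    simp [Matrix.mul_apply, Fin.sum_univ_two, Matrix.sub_apply]
  · linear_combination (g : Matrix (Fin 2) (Fin 2) ℚ) 0 0 * htr - hdet
  · linear_combination (g : Matrix (Fin 2) (Fin 2) ℚ) 0 1 * htr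
  · linear_combination (g : Matrix (Fin 2) (Fin 2) ℚ) 1 0 * htr
  · linear_combination (g : Matrix (Fin 2) (Fin 2) ℚ) 1 1 * htr - hdet

theorem h8a_unip_pow (g : SL(2, ℚ))
    (htr : (g : Matrix (Fin 2) (Fin 2) ℚ) 0 0 + (g : Matrix (Fin 2) (Fin 2) ℚ) 1 1 = 2) (n : ℕ) :
    ((g ^ n : SL(2, ℚ)) : Matrix (Fin 2) (Fin 2) ℚ) =
      1 + (n : ℚ) • ((g : Matrix (Fin 2) (Fin 2) ℚ) - 1) := by
  have h0 := h8a_unip_sq g htr
  induction n with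
  | zero => simp
  | succ n ih =>
    rw [pow_succ, Matrix.SpecialLinearGroup.coe_mul, ih]
    have e : (g : Matrix (Fin 2) (Fin 2) ℚ) = 1 + ((g : Matrix (Fin 2) (Fin 2) ℚ) - 1) := by abel
    set Nm := (g : Matrix (Fin 2) (Fin 2) ℚ) - 1 with hNm
    rw [e, add_mul, mul_add, mul_add, one_mul, one_mul, mul_one, Matrix.smul_mul, h0, smul_zero,
      add_zero]
    push_cast
    rw [add_smul, one_smul]
    abel

theorem h8a_common_exp {q : ℕ} (r : Fin 2 → Fin 2 → ℚ) (h : ∀ i j, h8a_IsZq q (r i j)) :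
    ∃ K : ℕ, ∀ i j, ∃ m : ℤ, r i j * (q : ℚ) ^ K = m := by
  choose k m hm using h
  refine ⟨∑ i, ∑ j, k i j, fun i j => ?_⟩
  have hle : k i j ≤ ∑ i, ∑ j, k i j := by
    calc k i j ≤ ∑ j', k i j' := Finset.single_le_sum (f := fun j' => k i j')
          (fun _ _ => Nat.zero_le _) (Finset.mem_univ j)
      _ ≤ ∑ i', ∑ j', k i' j' := Finset.single_le_sum (f := fun i' => ∑ j', k i' j')
          (fun _ _ => Nat.zero_le _) (Finset.mem_univ i)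
  obtain ⟨e, he⟩ := Nat.exists_eq_add_of_le hle
  refine ⟨m i j * (q : ℤ) ^ e, ?_⟩
  rw [he, pow_add, ← mul_assoc, hm i j]
  push_cast; ring

/-- a unipotent element of `Γ₀(N)[1/q]` has a `q`-power power lying in `Γ₀(N)` -/
theorem h8a_unip_pow_mem {N q : ℕ} (hq : q.Prime) (hqN : ¬ q ∣ N) (u : SL(2, ℚ))
    (hu : u ∈ h8a_G N q)
    (htr : (u : Matrix (Fin 2) (Fin 2) ℚ) 0 0 + (u : Matrix (Fin 2) (Fin 2) ℚ) 1 1 = 2) :
    ∃ (K : ℕ) (a : SL(2, ℤ)), a ∈ Gamma0 N ∧ h8a_iota a = u ^ (q ^ K) ∧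
      (a : Matrix (Fin 2) (Fin 2) ℤ).trace = 2 := by
  obtain ⟨K, hK⟩ := h8a_common_exp (fun i j => (u : Matrix (Fin 2) (Fin 2) ℚ) i j) hu.1
  have hpow := h8a_unip_pow u htr (q ^ K)
  have hint : ∀ i j, ∃ m : ℤ, ((u ^ (q ^ K) : SL(2, ℚ)) : Matrix (Fin 2) (Fin 2) ℚ) i j = m := by
    intro i j
    obtain ⟨m, hm⟩ := hK i j
    rw [hpow]
    by_cases hij : i = j
    · refine ⟨1 + (m - (q : ℤ) ^ K), ?_⟩
      subst hij
      simp only [Matrix.add_apply, Matrix.smul_apply, Matrix.sub_apply, Matrix.one_apply_eq,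
        smul_eq_mul]
      push_cast
      rw [← hm]; ring
    · refine ⟨m, ?_⟩
      simp only [Matrix.add_apply, Matrix.smul_apply, Matrix.sub_apply, Matrix.one_apply_ne hij,
        smul_eq_mul]
      push_cast
      rw [← hm]; ring
  have hmem : u ^ (q ^ K) ∈ h8a_G N q := Subgroup.pow_mem _ hu _
  have hSA := h8a_mem_SA_of_mem_G_of_int hq hqN _ hmem hint
  obtain ⟨a, ha, hia⟩ := h8a_mem_SA.mp hSA
  refine ⟨K, a, ha, hia, ?_⟩
  have h00 := congrArg (fun m : SL(2, ℚ) => (m : Matrix (Fin 2) (Fin 2) ℚ) 0 0) hia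
  have h11 := congrArg (fun m : SL(2, ℚ) => (m : Matrix (Fin 2) (Fin 2) ℚ) 1 1) hia
  simp only [h8a_iota_apply, hpow, Matrix.add_apply, Matrix.smul_apply, Matrix.sub_apply,
    Matrix.one_apply_eq, smul_eq_mul] at h00 h11
  have hsum : (((a : Matrix (Fin 2) (Fin 2) ℤ) 0 0 + (a : Matrix (Fin 2) (Fin 2) ℤ) 1 1 : ℤ) : ℚ)
      = 2 := by
    push_cast
    rw [h00, h11]
    push_cast
    linear_combination ((q : ℚ) ^ K) * htr
  rw [Matrix.trace_fin_two]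
  exact_mod_cast hsum

/-! ### The gluing theorem (final additive form) -/

theorem h8a_iota_neg_one : h8a_iota (-1) = (-1 : SL(2, ℚ)) := by
  apply Subtype.ext
  ext i j
  rw [h8a_iota_apply]
  by_cases h : i = j
  · subst h; simp
  · simp [Matrix.one_apply_ne h]

/-- **A1: the gluing theorem.**  A pair of parabolic characters `x, y` of `Γ₀(N)` whose
pull-backs to `Γ₀(N q)` cancel glues to a character `Φ` of `H = ⟨Γ₀(N), h⁻¹Γ₀(N)h⟩ = Γ₀(N)[1/q]`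
with `Φ = x` on `Γ₀(N)`, `Φ(h⁻¹ a h) = -y(a)`, and `Φ` kills every element of trace `±2`. -/
theorem h8a_glue {p N q : ℕ} (hp : p.Prime) (hq : q.Prime) (hqN : ¬ q ∣ N) (hqp : q ≠ p)
    (x y : Additive (Gamma0 N) →+ ZMod p)
    (hx : IsParabolicHom (Gamma0 N) x)
    (hxy : ∀ g : Gamma0 (N * q), x (Additive.ofMul (h6_incl N q g))
        + y (Additive.ofMul (h6_conjH N q hq.pos g)) = 0) :
    ∃ Φ : Additive (h8a_H N (q : ℚ) (by exact_mod_cast hq.pos.ne')) →+ ZMod p,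
      (∀ (a : Gamma0 N) (h : h8a_iota a ∈ h8a_H N (q : ℚ) (by exact_mod_cast hq.pos.ne')),
        Φ (Additive.ofMul ⟨h8a_iota a, h⟩) = x (Additive.ofMul a)) ∧
      (∀ (a : Gamma0 N)
        (h : (h8a_kappa (q : ℚ) (by exact_mod_cast hq.pos.ne')).symm (h8a_iota a) ∈
          h8a_H N (q : ℚ) (by exact_mod_cast hq.pos.ne')),
        Φ (Additive.ofMul
          ⟨(h8a_kappa (q : ℚ) (by exact_mod_cast hq.pos.ne')).symm (h8a_iota a), h⟩) =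
          - y (Additive.ofMul a)) ∧
      (∀ u : h8a_H N (q : ℚ) (by exact_mod_cast hq.pos.ne'),
        ((u : SL(2, ℚ)) : Matrix (Fin 2) (Fin 2) ℚ).trace ^ 2 = 4 →
          Φ (Additive.ofMul u) = 0) := by
  have : Fact p.Prime := ⟨hp⟩
  have hq0 : (q : ℚ) ≠ 0 := by exact_mod_cast hq.pos.ne'
  obtain ⟨Φm, hΦA, hΦB⟩ := h8a_glue_mul (p := p) hq hqN x y hxy
  set Φ : Additive (h8a_H N (q : ℚ) hq0) →+ ZMod p := MonoidHom.toAdditiveLeft Φm with hΦ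
  have hΦapp : ∀ g : h8a_H N (q : ℚ) hq0, Φ (Additive.ofMul g) = Multiplicative.toAdd (Φm g) :=
    fun g => rfl
  have hqK : ∀ K : ℕ, ((q ^ K : ℕ) : ZMod p) ≠ 0 := by
    intro K
    rw [Nat.cast_pow]
    apply pow_ne_zero
    intro h0
    rw [ZMod.natCast_eq_zero_iff] at h0
    exact hqp ((Nat.prime_dvd_prime_iff_eq hp hq).mp h0).symm
  -- trace 2
  have hunip : ∀ u : h8a_H N (q : ℚ) hq0,
      ((u : SL(2, ℚ)) : Matrix (Fin 2) (Fin 2) ℚ) 0 0 +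
        ((u : SL(2, ℚ)) : Matrix (Fin 2) (Fin 2) ℚ) 1 1 = 2 → Φ (Additive.ofMul u) = 0 := by
    intro u htr
    obtain ⟨K, a, ha, hia, hatr⟩ := h8a_unip_pow_mem hq hqN (u : SL(2, ℚ))
      (h8a_H_le_G N q hq.pos u.2) htr
    have hmemH : h8a_iota a ∈ h8a_H N (q : ℚ) hq0 := by
      rw [hia]; exact Subgroup.pow_mem _ u.2 _
    have h1 : Φ (Additive.ofMul (⟨h8a_iota a, hmemH⟩ : h8a_H N (q : ℚ) hq0)) = 0 := by
      rw [hΦapp, hΦA ⟨a, ha⟩ hmemH, toAdd_ofAdd]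
      apply hx
      show ((a : Matrix (Fin 2) (Fin 2) ℤ)).trace ^ 2 = 4
      rw [hatr]; norm_num
    have h2 : (⟨h8a_iota a, hmemH⟩ : h8a_H N (q : ℚ) hq0) = u ^ (q ^ K) := by
      apply Subtype.ext
      rw [Subgroup.coe_pow]
      exact hia
    rw [h2, ofMul_pow, map_nsmul, nsmul_eq_mul] at h1
    rcases mul_eq_zero.mp h1 with h3 | h3
    · exact absurd h3 (hqK K)
    · exact h3
  refine ⟨Φ, ?_, ?_, ?_⟩
  · intro a h
    rw [hΦapp, hΦA a h, toAdd_ofAdd]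
  · intro a h
    rw [hΦapp, hΦB a h, toAdd_ofAdd]
  · intro u htr
    rw [Matrix.trace_fin_two] at htr
    have hcases : ((u : SL(2, ℚ)) : Matrix (Fin 2) (Fin 2) ℚ) 0 0 +
        ((u : SL(2, ℚ)) : Matrix (Fin 2) (Fin 2) ℚ) 1 1 = 2 ∨
        ((u : SL(2, ℚ)) : Matrix (Fin 2) (Fin 2) ℚ) 0 0 +
        ((u : SL(2, ℚ)) : Matrix (Fin 2) (Fin 2) ℚ) 1 1 = -2 := by
      have : (((u : SL(2, ℚ)) : Matrix (Fin 2) (Fin 2) ℚ) 0 0 +
        ((u : SL(2, ℚ)) : Matrix (Fin 2) (Fin 2) ℚ) 1 1 - 2) *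
        (((u : SL(2, ℚ)) : Matrix (Fin 2) (Fin 2) ℚ) 0 0 +
        ((u : SL(2, ℚ)) : Matrix (Fin 2) (Fin 2) ℚ) 1 1 + 2) = 0 := by
        linear_combination htr
      rcases mul_eq_zero.mp this with h | h
      · left; linarith
      · right; linarith
    rcases hcases with h2 | h2
    · exact hunip u h2
    · -- multiply by -1
      have hm1 : h8a_iota (-1) ∈ h8a_H N (q : ℚ) hq0 := by
        apply (le_sup_left : h8a_SA N ≤ h8a_H N (q : ℚ) hq0)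
        refine h8a_mem_SA.mpr ⟨-1, ?_, rfl⟩
        rw [Gamma0_mem]; simp
      set m1 : h8a_H N (q : ℚ) hq0 := ⟨h8a_iota (-1), hm1⟩ with hm1def
      have hΦm1 : Φ (Additive.ofMul m1) = 0 := by
        have hmem : (-1 : SL(2, ℤ)) ∈ Gamma0 N := by rw [Gamma0_mem]; simp
        rw [hΦapp, hΦA ⟨-1, hmem⟩ hm1, toAdd_ofAdd]
        apply hx
        show (((-1 : SL(2, ℤ)) : Matrix (Fin 2) (Fin 2) ℤ)).trace ^ 2 = 4
        simp
      have htr' : (((m1 * u : h8a_H N (q : ℚ) hq0) : SL(2, ℚ)) : Matrix (Fin 2) (Fin 2) ℚ) 0 0 +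
          (((m1 * u : h8a_H N (q : ℚ) hq0) : SL(2, ℚ)) : Matrix (Fin 2) (Fin 2) ℚ) 1 1 = 2 := by
        have e : ((m1 * u : h8a_H N (q : ℚ) hq0) : SL(2, ℚ)) = -(u : SL(2, ℚ)) := by
          rw [Subgroup.coe_mul, hm1def]
          show h8a_iota (-1) * (u : SL(2, ℚ)) = _
          rw [h8a_iota_neg_one]; simp
        rw [e]
        simp only [Matrix.SpecialLinearGroup.coe_neg, Matrix.neg_apply]
        linarith
      have h3 := hunip (m1 * u) htr'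
      rw [ofMul_mul, map_add, hΦm1, zero_add] at h3
      exact h3

end Fermat.Agent.Lib.S41
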