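import Mathlib
import Fermat.Agent.Lib.S41.Defs
import Fermat.Agent.Lib.S41.H8Amalgam
import Fermat.Agent.Lib.S41.H8Glue
import Fermat.Agent.Lib.S41.H8GlueUnip

/-!
# S41, layer A1 (part 4): generation, `Γ₀(N)[1/q] = ⟨Γ₀(N), h⁻¹Γ₀(N)h⟩`

`h8a_G N q ≤ h8a_H N q`: every matrix with entries in `ℤ[1/q]` and `c ∈ N ℤ[1/q]` is a product
of elements of `ι(Γ₀(N))` and `κ⁻¹(ι(Γ₀(N)))`.  Proof: reduction of the denominator exponent by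
integer column operations and `t₀ = diag(q, 1/q) ∈ H`.
-/

set_option autoImplicit false

open CongruenceSubgroup ModularCurve.Period
open scoped MatrixGroups

namespace Fermat.Agent.Lib.S41

/-- column elimination mod `q²` -/
theorem h8a_col_elim (q : ℕ) (hq : q.Prime) (N : ℤ) (hN : IsCoprime N (q : ℤ)) (A B C D : ℤ)
    (hdet : (q : ℤ) ^ 2 ∣ A * D - B * C) (h : ¬ (q : ℤ) ∣ B ∨ ¬ (q : ℤ) ∣ D) :
    ∃ s : ℤ, (q : ℤ) ^ 2 ∣ A + N * s * B ∧ (q : ℤ) ^ 2 ∣ C + N * s * D := by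
  have hq' : Prime (q : ℤ) := Nat.prime_iff_prime_int.mp hq
  obtain ⟨u', v', hN'⟩ := hN.pow_right (n := 2)
  obtain ⟨e, he⟩ := hdet
  rcases h with hB | hD
  · have hcop : IsCoprime ((q : ℤ) ^ 2) B := (hq'.coprime_iff_not_dvd.mpr hB).pow_left
    obtain ⟨v, u, huv⟩ := id hcop
    refine ⟨-A * u * u', ?_, ?_⟩
    · refine ⟨A * (v + v' - v * v' * (q : ℤ) ^ 2), ?_⟩
      linear_combination (-A * u' * N) * huv + (-A * (1 - v * (q : ℤ) ^ 2)) * hN'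
    · apply hcop.dvd_of_dvd_mul_left
      refine ⟨-e + A * D * (v + v' - v * v' * (q : ℤ) ^ 2), ?_⟩
      linear_combination (-1 : ℤ) * he + (-A * D * u' * N) * huv
        + (-A * D * (1 - v * (q : ℤ) ^ 2)) * hN'
  · have hcop : IsCoprime ((q : ℤ) ^ 2) D := (hq'.coprime_iff_not_dvd.mpr hD).pow_left
    obtain ⟨v, u, huv⟩ := id hcop
    refine ⟨-C * u * u', ?_, ?_⟩
    · apply hcop.dvd_of_dvd_mul_left
      refine ⟨e + B * C * (v + v' - v * v' * (q : ℤ) ^ 2), ?_⟩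
      linear_combination he + (-B * C * u' * N) * huv
        + (-B * C * (1 - v * (q : ℤ) ^ 2)) * hN'
    · refine ⟨C * (v + v' - v * v' * (q : ℤ) ^ 2), ?_⟩
      linear_combination (-C * u' * N) * huv + (-C * (1 - v * (q : ℤ) ^ 2)) * hN'

/-! ### Special elements -/

/-- `[[a, b], [c, d]]` as an element of `SL(2, ℤ)` -/
def h8a_mk (a b c d : ℤ) (h : a * d - b * c = 1) : SL(2, ℤ) :=
  ⟨!![a, b; c, d], by rw [Matrix.det_fin_two_of]; exact h⟩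

theorem h8a_mk_10 (a b c d : ℤ) (h : a * d - b * c = 1) :
    (h8a_mk a b c d h : Matrix (Fin 2) (Fin 2) ℤ) 1 0 = c := rfl

theorem h8a_iota_mk (a b c d : ℤ) (h : a * d - b * c = 1) :
    (h8a_iota (h8a_mk a b c d h) : Matrix (Fin 2) (Fin 2) ℚ) = !![(a : ℚ), b; c, d] := by
  ext i j
  fin_cases i <;> fin_cases j <;> rfl

theorem h8a_mk_mem (N : ℕ) (a b c d : ℤ) (h : a * d - b * c = 1) (hc : (N : ℤ) ∣ c) :
    h8a_mk a b c d h ∈ Gamma0 N := by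
  rw [h8a_gamma0_dvd, h8a_mk_10]; exact hc

/-- `t₀ = diag(r, 1/r)` -/
def h8a_t0 (r : ℚ) (hr : r ≠ 0) : SL(2, ℚ) :=
  ⟨!![r, 0; 0, r⁻¹], by rw [Matrix.det_fin_two_of]; simp [hr]⟩

theorem h8a_t0_coe (r : ℚ) (hr : r ≠ 0) :
    (h8a_t0 r hr : Matrix (Fin 2) (Fin 2) ℚ) = !![r, 0; 0, r⁻¹] := rfl

theorem h8a_t0_inv_coe (r : ℚ) (hr : r ≠ 0) :
    (((h8a_t0 r hr)⁻¹ : SL(2, ℚ)) : Matrix (Fin 2) (Fin 2) ℚ) = !![r⁻¹, 0; 0, r] := by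
  rw [Matrix.SpecialLinearGroup.coe_inv, Matrix.adjugate_fin_two, h8a_t0_coe]
  ext i j
  fin_cases i <;> fin_cases j <;> simp

theorem h8a_t0_mem_H {N q : ℕ} (hq : q.Prime) (hqN : ¬ q ∣ N) :
    h8a_t0 (q : ℚ) (by exact_mod_cast hq.pos.ne') ∈
      h8a_H N (q : ℚ) (by exact_mod_cast hq.pos.ne') := by
  have hq0 : (q : ℚ) ≠ 0 := by exact_mod_cast hq.pos.ne'
  obtain ⟨β, α, hαβ⟩ := h8a_isCoprime hq hqN
  -- hαβ : β * N + α * q = 1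
  have h1 : ((q : ℤ) * α) * 1 - (-β) * (N : ℤ) = 1 := by linear_combination hαβ
  have h2 : (q : ℤ) * α - β * (-(N : ℤ)) = 1 := by linear_combination hαβ
  set a : SL(2, ℤ) := h8a_mk ((q : ℤ) * α) (-β) (N : ℤ) 1 h1 with ha
  set a2 : SL(2, ℤ) := h8a_mk (q : ℤ) β (-(N : ℤ)) α h2 with ha2
  have haN : a ∈ Gamma0 N := h8a_mk_mem N _ _ _ _ h1 (dvd_refl _)
  have ha2N : a2 ∈ Gamma0 N := h8a_mk_mem N _ _ _ _ h2 (Dvd.dvd.neg_right (dvd_refl _))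
  have hA : h8a_iota a ∈ h8a_H N (q : ℚ) hq0 :=
    (le_sup_left : h8a_SA N ≤ h8a_H N (q : ℚ) hq0) (h8a_mem_SA.mpr ⟨a, haN, rfl⟩)
  have hB : (h8a_kappa (q : ℚ) hq0).symm (h8a_iota a2) ∈ h8a_H N (q : ℚ) hq0 := by
    apply (le_sup_right : h8a_SB N (q : ℚ) hq0 ≤ h8a_H N (q : ℚ) hq0)
    rw [h8a_mem_SB, MulEquiv.apply_symm_apply]
    exact h8a_mem_SA.mpr ⟨a2, ha2N, rfl⟩
  have hprod : h8a_t0 (q : ℚ) hq0 = h8a_iota a * (h8a_kappa (q : ℚ) hq0).symm (h8a_iota a2) := by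
    apply Subtype.ext
    rw [Matrix.SpecialLinearGroup.coe_mul, h8a_kappa_symm_apply, ha, ha2, h8a_iota_mk, h8a_iota_mk,
      h8a_t0_coe, h8a_kappaMat]
    have hαβ' : (β : ℚ) * N + α * q = 1 := by exact_mod_cast hαβ
    ext i j
    fin_cases i <;> fin_cases j <;>
      simp [Matrix.mul_apply, Fin.sum_univ_two]
    · linear_combination (-(q : ℚ)) * hαβ'
    · field_simp; ring
    · field_simp; linear_combination (-1 : ℚ) * hαβ'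
  rw [hprod]
  exact Subgroup.mul_mem _ hA hB

/-! ### The reduction steps -/

theorem h8a_lit_entries (a b c d : ℚ) :
    (!![a, b; c, d] : Matrix (Fin 2) (Fin 2) ℚ) 0 0 = a ∧
    (!![a, b; c, d] : Matrix (Fin 2) (Fin 2) ℚ) 0 1 = b ∧
    (!![a, b; c, d] : Matrix (Fin 2) (Fin 2) ℚ) 1 0 = c ∧
    (!![a, b; c, d] : Matrix (Fin 2) (Fin 2) ℚ) 1 1 = d := ⟨rfl, rfl, rfl, rfl⟩

/-- entries of `A * [[a,b],[c,d]]` -/
theorem h8a_mul_lit (A : Matrix (Fin 2) (Fin 2) ℚ) (a b c d : ℚ) :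
    (A * !![a, b; c, d]) 0 0 = A 0 0 * a + A 0 1 * c ∧
    (A * !![a, b; c, d]) 0 1 = A 0 0 * b + A 0 1 * d ∧
    (A * !![a, b; c, d]) 1 0 = A 1 0 * a + A 1 1 * c ∧
    (A * !![a, b; c, d]) 1 1 = A 1 0 * b + A 1 1 * d := by
  obtain ⟨h1, h2, h3, h4⟩ := Matrix.two_mul_expl A !![a, b; c, d]
  obtain ⟨l1, l2, l3, l4⟩ := h8a_lit_entries a b c d
  rw [l1, l3] at h1 h3
  rw [l2, l4] at h2 h4
  exact ⟨h1, h2, h3, h4⟩

/-- step with `E21(c)` and `t₀⁻¹` -/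
theorem h8a_stepL (q : ℕ) (hq : 0 < q) (g : SL(2, ℚ)) (K : ℕ) (M : Fin 2 → Fin 2 → ℤ)
    (hM : ∀ i j, (g : Matrix (Fin 2) (Fin 2) ℚ) i j * (q : ℚ) ^ (K + 1) = M i j) (c : ℤ)
    (h0 : (q : ℤ) ^ 2 ∣ M 0 0 + c * M 0 1) (h1 : (q : ℤ) ^ 2 ∣ M 1 0 + c * M 1 1) :
    ∀ i j, ∃ m : ℤ,
      ((g * h8a_iota (h8a_mk 1 0 c 1 (by ring)) *
        (h8a_t0 (q : ℚ) (by exact_mod_cast hq.ne'))⁻¹ : SL(2, ℚ)) :
          Matrix (Fin 2) (Fin 2) ℚ) i j * (q : ℚ) ^ K = m := by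
  have hq0 : (q : ℚ) ≠ 0 := by exact_mod_cast hq.ne'
  obtain ⟨e0, he0⟩ := h0
  obtain ⟨e1, he1⟩ := h1
  have he0' : (M 0 0 : ℚ) + c * M 0 1 = (q : ℚ) ^ 2 * e0 := by exact_mod_cast he0
  have he1' : (M 1 0 : ℚ) + c * M 1 1 = (q : ℚ) ^ 2 * e1 := by exact_mod_cast he1
  have hprod : ((g * h8a_iota (h8a_mk 1 0 c 1 (by ring)) * (h8a_t0 (q : ℚ) hq0)⁻¹ : SL(2, ℚ)) :
      Matrix (Fin 2) (Fin 2) ℚ) =
      (g : Matrix (Fin 2) (Fin 2) ℚ) * !![((1 : ℤ) : ℚ), ((0 : ℤ) : ℚ); (c : ℚ), ((1 : ℤ) : ℚ)] *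
        !![(q : ℚ)⁻¹, 0; 0, (q : ℚ)] := by
    rw [Matrix.SpecialLinearGroup.coe_mul, Matrix.SpecialLinearGroup.coe_mul, h8a_iota_mk,
      h8a_t0_inv_coe]
  obtain ⟨p00, p01, p10, p11⟩ := h8a_mul_lit (g : Matrix (Fin 2) (Fin 2) ℚ)
    ((1 : ℤ) : ℚ) ((0 : ℤ) : ℚ) (c : ℚ) ((1 : ℤ) : ℚ)
  obtain ⟨r00, r01, r10, r11⟩ := h8a_mul_lit ((g : Matrix (Fin 2) (Fin 2) ℚ) *
    !![((1 : ℤ) : ℚ), ((0 : ℤ) : ℚ); (c : ℚ), ((1 : ℤ) : ℚ)]) (q : ℚ)⁻¹ 0 0 (q : ℚ)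
  rw [p00, p01] at r00 r01
  rw [p10, p11] at r10 r11
  have h00 := hM 0 0
  have h01 := hM 0 1
  have h10 := hM 1 0
  have h11 := hM 1 1
  rw [pow_succ] at h00 h01 h10 h11
  intro i j
  rw [hprod]
  fin_cases i <;> fin_cases j
  · refine ⟨e0, ?_⟩
    show (_ : Matrix (Fin 2) (Fin 2) ℚ) 0 0 * _ = _
    rw [r00]
    have : ((g : Matrix (Fin 2) (Fin 2) ℚ) 0 0 + c * (g : Matrix (Fin 2) (Fin 2) ℚ) 0 1) *
        ((q : ℚ) ^ K * q) = (q : ℚ) ^ 2 * e0 := by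
      rw [← he0', ← h00, ← h01]; ring
    have h2 : ((g : Matrix (Fin 2) (Fin 2) ℚ) 0 0 + c * (g : Matrix (Fin 2) (Fin 2) ℚ) 0 1) * (q : ℚ) ^ K = (q : ℚ) * e0 := by
      apply mul_right_cancel₀ hq0
      linear_combination this
    push_cast
    rw [show ∀ X Y : ℚ, (X * (q : ℚ)⁻¹ + Y * 0) * (q : ℚ) ^ K = (X * (q : ℚ) ^ K) * (q : ℚ)⁻¹ from
      fun X Y => by ring]
    rw [show ∀ a b : ℚ, a * 1 + b * (c : ℚ) = a + (c : ℚ) * b from fun a b => by ring, h2]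
    field_simp
  · refine ⟨M 0 1, ?_⟩
    show (_ : Matrix (Fin 2) (Fin 2) ℚ) 0 1 * _ = _
    rw [r01, ← h01]
    push_cast; ring
  · refine ⟨e1, ?_⟩
    show (_ : Matrix (Fin 2) (Fin 2) ℚ) 1 0 * _ = _
    rw [r10]
    have : ((g : Matrix (Fin 2) (Fin 2) ℚ) 1 0 + c * (g : Matrix (Fin 2) (Fin 2) ℚ) 1 1) *
        ((q : ℚ) ^ K * q) = (q : ℚ) ^ 2 * e1 := by
      rw [← he1', ← h10, ← h11]; ring
    have h2 : ((g : Matrix (Fin 2) (Fin 2) ℚ) 1 0 + c * (g : Matrix (Fin 2) (Fin 2) ℚ) 1 1) * (q : ℚ) ^ K = (q : ℚ) * e1 := by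
      apply mul_right_cancel₀ hq0
      linear_combination this
    push_cast
    rw [show ∀ X Y : ℚ, (X * (q : ℚ)⁻¹ + Y * 0) * (q : ℚ) ^ K = (X * (q : ℚ) ^ K) * (q : ℚ)⁻¹ from
      fun X Y => by ring]
    rw [show ∀ a b : ℚ, a * 1 + b * (c : ℚ) = a + (c : ℚ) * b from fun a b => by ring, h2]
    field_simp
  · refine ⟨M 1 1, ?_⟩
    show (_ : Matrix (Fin 2) (Fin 2) ℚ) 1 1 * _ = _
    rw [r11, ← h11]
    push_cast; ring

/-- step with `E12(w)` and `t₀` -/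
theorem h8a_stepR (q : ℕ) (hq : 0 < q) (g : SL(2, ℚ)) (K : ℕ) (M : Fin 2 → Fin 2 → ℤ)
    (hM : ∀ i j, (g : Matrix (Fin 2) (Fin 2) ℚ) i j * (q : ℚ) ^ (K + 1) = M i j) (w : ℤ)
    (h0 : (q : ℤ) ^ 2 ∣ M 0 1 + w * M 0 0) (h1 : (q : ℤ) ^ 2 ∣ M 1 1 + w * M 1 0) :
    ∀ i j, ∃ m : ℤ,
      ((g * h8a_iota (h8a_mk 1 w 0 1 (by ring)) *
        (h8a_t0 (q : ℚ) (by exact_mod_cast hq.ne')) : SL(2, ℚ)) :
          Matrix (Fin 2) (Fin 2) ℚ) i j * (q : ℚ) ^ K = m := by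
  have hq0 : (q : ℚ) ≠ 0 := by exact_mod_cast hq.ne'
  obtain ⟨e0, he0⟩ := h0
  obtain ⟨e1, he1⟩ := h1
  have he0' : (M 0 1 : ℚ) + w * M 0 0 = (q : ℚ) ^ 2 * e0 := by exact_mod_cast he0
  have he1' : (M 1 1 : ℚ) + w * M 1 0 = (q : ℚ) ^ 2 * e1 := by exact_mod_cast he1
  have hprod : ((g * h8a_iota (h8a_mk 1 w 0 1 (by ring)) * (h8a_t0 (q : ℚ) hq0) : SL(2, ℚ)) :
      Matrix (Fin 2) (Fin 2) ℚ) =
      (g : Matrix (Fin 2) (Fin 2) ℚ) * !![((1 : ℤ) : ℚ), (w : ℚ); ((0 : ℤ) : ℚ), ((1 : ℤ) : ℚ)] *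
        !![(q : ℚ), 0; 0, (q : ℚ)⁻¹] := by
    rw [Matrix.SpecialLinearGroup.coe_mul, Matrix.SpecialLinearGroup.coe_mul, h8a_iota_mk,
      h8a_t0_coe]
  obtain ⟨p00, p01, p10, p11⟩ := h8a_mul_lit (g : Matrix (Fin 2) (Fin 2) ℚ)
    ((1 : ℤ) : ℚ) (w : ℚ) ((0 : ℤ) : ℚ) ((1 : ℤ) : ℚ)
  obtain ⟨r00, r01, r10, r11⟩ := h8a_mul_lit ((g : Matrix (Fin 2) (Fin 2) ℚ) *
    !![((1 : ℤ) : ℚ), (w : ℚ); ((0 : ℤ) : ℚ), ((1 : ℤ) : ℚ)]) (q : ℚ) 0 0 (q : ℚ)⁻¹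
  rw [p00, p01] at r00 r01
  rw [p10, p11] at r10 r11
  have h00 := hM 0 0
  have h01 := hM 0 1
  have h10 := hM 1 0
  have h11 := hM 1 1
  rw [pow_succ] at h00 h01 h10 h11
  intro i j
  rw [hprod]
  fin_cases i <;> fin_cases j
  · refine ⟨M 0 0, ?_⟩
    show (_ : Matrix (Fin 2) (Fin 2) ℚ) 0 0 * _ = _
    rw [r00, ← h00]
    push_cast; ring
  · refine ⟨e0, ?_⟩
    show (_ : Matrix (Fin 2) (Fin 2) ℚ) 0 1 * _ = _
    rw [r01]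
    have : ((g : Matrix (Fin 2) (Fin 2) ℚ) 0 1 + w * (g : Matrix (Fin 2) (Fin 2) ℚ) 0 0) *
        ((q : ℚ) ^ K * q) = (q : ℚ) ^ 2 * e0 := by
      rw [← he0', ← h00, ← h01]; ring
    have h2 : ((g : Matrix (Fin 2) (Fin 2) ℚ) 0 1 + w * (g : Matrix (Fin 2) (Fin 2) ℚ) 0 0) * (q : ℚ) ^ K = (q : ℚ) * e0 := by
      apply mul_right_cancel₀ hq0
      linear_combination this
    push_cast
    rw [show ∀ X Y : ℚ, (X * 0 + Y * (q : ℚ)⁻¹) * (q : ℚ) ^ K = (Y * (q : ℚ) ^ K) * (q : ℚ)⁻¹ from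
      fun X Y => by ring]
    rw [show ∀ a b : ℚ, a * (w : ℚ) + b * 1 = b + (w : ℚ) * a from fun a b => by ring, h2]
    field_simp
  · refine ⟨M 1 0, ?_⟩
    show (_ : Matrix (Fin 2) (Fin 2) ℚ) 1 0 * _ = _
    rw [r10, ← h10]
    push_cast; ring
  · refine ⟨e1, ?_⟩
    show (_ : Matrix (Fin 2) (Fin 2) ℚ) 1 1 * _ = _
    rw [r11]
    have : ((g : Matrix (Fin 2) (Fin 2) ℚ) 1 1 + w * (g : Matrix (Fin 2) (Fin 2) ℚ) 1 0) *
        ((q : ℚ) ^ K * q) = (q : ℚ) ^ 2 * e1 := by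
      rw [← he1', ← h10, ← h11]; ring
    have h2 : ((g : Matrix (Fin 2) (Fin 2) ℚ) 1 1 + w * (g : Matrix (Fin 2) (Fin 2) ℚ) 1 0) * (q : ℚ) ^ K = (q : ℚ) * e1 := by
      apply mul_right_cancel₀ hq0
      linear_combination this
    push_cast
    rw [show ∀ X Y : ℚ, (X * 0 + Y * (q : ℚ)⁻¹) * (q : ℚ) ^ K = (Y * (q : ℚ) ^ K) * (q : ℚ)⁻¹ from
      fun X Y => by ring]
    rw [show ∀ a b : ℚ, a * (w : ℚ) + b * 1 = b + (w : ℚ) * a from fun a b => by ring, h2]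
    field_simp

/-! ### Generation -/

theorem h8a_G_le_H_aux {N q : ℕ} (hq : q.Prime) (hqN : ¬ q ∣ N) :
    ∀ (K : ℕ) (g : SL(2, ℚ)), g ∈ h8a_G N q →
      (∀ i j, ∃ m : ℤ, (g : Matrix (Fin 2) (Fin 2) ℚ) i j * (q : ℚ) ^ K = m) →
      g ∈ h8a_H N (q : ℚ) (by exact_mod_cast hq.pos.ne') := by
  have hq0 : (q : ℚ) ≠ 0 := by exact_mod_cast hq.pos.ne'
  have hq' : Prime (q : ℤ) := Nat.prime_iff_prime_int.mp hq
  intro K
  induction K with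
  | zero =>
    intro g hg hint
    apply (le_sup_left : h8a_SA N ≤ h8a_H N (q : ℚ) hq0)
    apply h8a_mem_SA_of_mem_G_of_int hq hqN g hg
    intro i j
    obtain ⟨m, hm⟩ := hint i j
    exact ⟨m, by simpa using hm⟩
  | succ K ih =>
    intro g hg hint
    choose M hM using hint
    have hHG := h8a_H_le_G N q hq.pos
    have ht0 := h8a_t0_mem_H (N := N) hq hqN
    -- determinant
    have hdet : M 0 0 * M 1 1 - M 0 1 * M 1 0 = (q : ℤ) ^ 2 * (q : ℤ) ^ (2 * K) := by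
      have h1 := g.2
      rw [Matrix.det_fin_two] at h1
      have h2 : ((M 0 0 * M 1 1 - M 0 1 * M 1 0 : ℤ) : ℚ) =
          (((q : ℤ) ^ 2 * (q : ℤ) ^ (2 * K) : ℤ) : ℚ) := by
        push_cast
        rw [← hM 0 0, ← hM 1 1, ← hM 0 1, ← hM 1 0]
        have : ((q : ℚ) ^ (K + 1)) * ((q : ℚ) ^ (K + 1)) = (q : ℚ) ^ 2 * (q : ℚ) ^ (2 * K) := by
          rw [← pow_add, ← pow_add]; congr 1; ring
        linear_combination ((q : ℚ) ^ (K + 1) * (q : ℚ) ^ (K + 1)) * h1 + this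
      exact_mod_cast h2
    by_cases hall : ∀ i j, (q : ℤ) ∣ M i j
    · -- all entries divisible: exponent K suffices
      apply ih g hg
      intro i j
      obtain ⟨m, hm⟩ := hall i j
      refine ⟨m, ?_⟩
      have h1 := hM i j
      rw [hm, pow_succ] at h1
      push_cast at h1
      apply mul_right_cancel₀ hq0
      linear_combination h1
    · by_cases hcol2 : ¬ (q : ℤ) ∣ M 0 1 ∨ ¬ (q : ℤ) ∣ M 1 1
      · -- eliminate the first column with E21(N s), then t₀⁻¹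
        obtain ⟨s, hs0, hs1⟩ := h8a_col_elim q hq (N : ℤ) (h8a_isCoprime hq hqN)
          (M 0 0) (M 0 1) (M 1 0) (M 1 1) ⟨(q : ℤ) ^ (2 * K), hdet⟩ hcol2
        have hstep := h8a_stepL q hq.pos g K M hM ((N : ℤ) * s) hs0 hs1
        have hE : h8a_iota (h8a_mk 1 0 ((N : ℤ) * s) 1 (by ring)) ∈ h8a_H N (q : ℚ) hq0 :=
          (le_sup_left : h8a_SA N ≤ h8a_H N (q : ℚ) hq0)
            (h8a_mem_SA.mpr ⟨_, h8a_mk_mem N _ _ _ _ _ (Dvd.intro _ rfl), rfl⟩)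
        set g' := g * h8a_iota (h8a_mk 1 0 ((N : ℤ) * s) 1 (by ring)) * (h8a_t0 (q : ℚ) hq0)⁻¹
          with hg'
        have hg'G : g' ∈ h8a_G N q :=
          Subgroup.mul_mem _ (Subgroup.mul_mem _ hg (hHG hE)) (Subgroup.inv_mem _ (hHG ht0))
        have hg'H := ih g' hg'G hstep
        have : g = g' * h8a_t0 (q : ℚ) hq0 *
            (h8a_iota (h8a_mk 1 0 ((N : ℤ) * s) 1 (by ring)))⁻¹ := by
          rw [hg']; group
        rw [this]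
        exact Subgroup.mul_mem _ (Subgroup.mul_mem _ hg'H ht0) (Subgroup.inv_mem _ hE)
      · -- second column divisible by q, so the first column is not
        push Not at hcol2
        have hcol1 : ¬ (q : ℤ) ∣ M 0 0 ∨ ¬ (q : ℤ) ∣ M 1 0 := by
          by_contra hcon
          push Not at hcon
          apply hall
          intro i j
          fin_cases i <;> fin_cases j
          · exact hcon.1
          · exact hcol2.1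
          · exact hcon.2
          · exact hcol2.2
        obtain ⟨w, hw0, hw1⟩ := h8a_col_elim q hq 1 isCoprime_one_left
          (M 0 1) (M 0 0) (M 1 1) (M 1 0)
          ⟨-(q : ℤ) ^ (2 * K), by linear_combination (-1 : ℤ) * hdet⟩ hcol1
        rw [one_mul] at hw0 hw1
        have hstep := h8a_stepR q hq.pos g K M hM w hw0 hw1
        have hE : h8a_iota (h8a_mk 1 w 0 1 (by ring)) ∈ h8a_H N (q : ℚ) hq0 :=
          (le_sup_left : h8a_SA N ≤ h8a_H N (q : ℚ) hq0)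
            (h8a_mem_SA.mpr ⟨_, h8a_mk_mem N _ _ _ _ _ (dvd_zero _), rfl⟩)
        set g' := g * h8a_iota (h8a_mk 1 w 0 1 (by ring)) * (h8a_t0 (q : ℚ) hq0) with hg'
        have hg'G : g' ∈ h8a_G N q :=
          Subgroup.mul_mem _ (Subgroup.mul_mem _ hg (hHG hE)) (hHG ht0)
        have hg'H := ih g' hg'G hstep
        have : g = g' * (h8a_t0 (q : ℚ) hq0)⁻¹ * (h8a_iota (h8a_mk 1 w 0 1 (by ring)))⁻¹ := by
          rw [hg']; group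
        rw [this]
        exact Subgroup.mul_mem _ (Subgroup.mul_mem _ hg'H (Subgroup.inv_mem _ ht0))
          (Subgroup.inv_mem _ hE)

/-- **Generation**: `Γ₀(N)[1/q] = ⟨Γ₀(N), h⁻¹Γ₀(N)h⟩`. -/
theorem h8a_G_le_H {N q : ℕ} (hq : q.Prime) (hqN : ¬ q ∣ N) :
    h8a_G N q ≤ h8a_H N (q : ℚ) (by exact_mod_cast hq.pos.ne') := by
  intro g hg
  obtain ⟨K, hK⟩ := h8a_common_exp (fun i j => (g : Matrix (Fin 2) (Fin 2) ℚ) i j) hg.1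
  exact h8a_G_le_H_aux hq hqN K g hg hK

theorem h8a_H_eq_G {N q : ℕ} (hq : q.Prime) (hqN : ¬ q ∣ N) :
    h8a_H N (q : ℚ) (by exact_mod_cast hq.pos.ne') = h8a_G N q :=
  le_antisymm (h8a_H_le_G N q hq.pos) (h8a_G_le_H hq hqN)

end Fermat.Agent.Lib.S41
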