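import Mathlib
import Fermat.Agent.Lib.S41.Defs
import Fermat.Agent.Lib.S41.H8Glue
import Fermat.Agent.Lib.S41.H8GlueUnip
import Fermat.Agent.Lib.S41.H8Gen

/-!
# S41, layer [A′] (part 1): the drift relation

Owner: helper2.  If `x, y` are parabolic characters of `Γ₀(N)` with values in `𝔽_p` whose two
pull-backs to `Γ₀(N q)` cancel, and `Φ` is the glued character of `H = Γ₀(N)[1/q]`
(`h8a_glue`), then with `η = Φ(diag(q, 1/q))`: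
for `γ, γ₂ ∈ Γ₀(N)` with the same lower-left entry `C ≠ 0` and
`D₂ = q^(2m) D + t C` one has `x γ₂ = x γ - 2 m η` and `y γ₂ = y γ + 2 m η`.
This is the only consequence of the gluing used by the averaging argument (`H2Avg`).
-/

set_option autoImplicit false

open CongruenceSubgroup ModularCurve.Period
open scoped MatrixGroups

namespace Fermat.Agent.Lib.S41

/-- The drift relation for a character `z` of `Γ₀(N)`: multiplying the lower-right entry by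
`q^(2m)` modulo the lower-left entry shifts the value by `m • κ₀`. -/
def h2v_Drift (N q p : ℕ) (z : Additive (Gamma0 N) →+ ZMod p) (κ₀ : ZMod p) : Prop :=
  ∀ (m : ℕ) (γ γ₂ : Gamma0 N) (t : ℤ), (γ : SL(2, ℤ)) 1 0 ≠ 0 →
    (γ₂ : SL(2, ℤ)) 1 0 = (γ : SL(2, ℤ)) 1 0 →
    (γ₂ : SL(2, ℤ)) 1 1 = (q : ℤ) ^ (2 * m) * (γ : SL(2, ℤ)) 1 1 + t * (γ : SL(2, ℤ)) 1 0 →
    z (Additive.ofMul γ₂) = z (Additive.ofMul γ) + m • κ₀

/-- powers of `t₀ = diag(r, 1/r)` -/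
theorem h2v_t0_pow (r : ℚ) (hr : r ≠ 0) (m : ℕ) :
    ((h8a_t0 r hr ^ m : SL(2, ℚ)) : Matrix (Fin 2) (Fin 2) ℚ) = !![r ^ m, 0; 0, (r ^ m)⁻¹] := by
  induction m with
  | zero =>
    rw [pow_zero, Matrix.SpecialLinearGroup.coe_one]
    ext i j
    fin_cases i <;> fin_cases j <;> simp
  | succ m ih =>
    rw [pow_succ, Matrix.SpecialLinearGroup.coe_mul, ih, h8a_t0_coe]
    ext i j
    fin_cases i <;> fin_cases j <;> simp [Matrix.mul_apply, Fin.sum_univ_two, pow_succ, mul_comm]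

/-- `κ⁻¹` fixes diagonal matrices -/
theorem h2v_kappa_symm_diag (r : ℚ) (hr : r ≠ 0) (g : SL(2, ℚ))
    (h01 : (g : Matrix (Fin 2) (Fin 2) ℚ) 0 1 = 0) (h10 : (g : Matrix (Fin 2) (Fin 2) ℚ) 1 0 = 0) :
    (h8a_kappa r hr).symm g = g := by
  apply Subtype.ext
  rw [h8a_kappa_symm_apply, h8a_kappaMat]
  ext i j
  fin_cases i <;> fin_cases j <;> simp [h01, h10]

/-- the upper unipotent `[[1, n], [0, 1]]` -/
def h2v_U (N : ℕ) (n : ℤ) : Gamma0 N :=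
  ⟨h8a_mk 1 n 0 1 (by ring), h8a_mk_mem N _ _ _ _ _ (dvd_zero _)⟩

theorem h2v_U_coe (N : ℕ) (n : ℤ) :
    (((h2v_U N n : Gamma0 N) : SL(2, ℤ)) : Matrix (Fin 2) (Fin 2) ℤ) = !![1, n; 0, 1] := rfl

theorem h2v_U_trace (N : ℕ) (n : ℤ) :
    (((h2v_U N n : Gamma0 N) : SL(2, ℤ)) : Matrix (Fin 2) (Fin 2) ℤ).trace ^ 2 = 4 := by
  rw [h2v_U_coe, Matrix.trace_fin_two_of]; norm_num

/-- **The key matrix identity**: `T · ι γ₂ · ι U(-t) · T = ι (U(n) γ)` with `T = diag(q^m, q^-m)`. -/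
theorem h2v_drift_identity (N q : ℕ) (hq0 : (q : ℚ) ≠ 0) (m : ℕ) (γ γ₂ : Gamma0 N) (t n : ℤ)
    (hC : (γ : SL(2, ℤ)) 1 0 ≠ 0)
    (hC2 : (γ₂ : SL(2, ℤ)) 1 0 = (γ : SL(2, ℤ)) 1 0)
    (hD : (γ₂ : SL(2, ℤ)) 1 1 = (q : ℤ) ^ (2 * m) * (γ : SL(2, ℤ)) 1 1 + t * (γ : SL(2, ℤ)) 1 0)
    (hn : (q : ℤ) ^ (2 * m) * (γ₂ : SL(2, ℤ)) 0 0 = (γ : SL(2, ℤ)) 0 0 + n * (γ : SL(2, ℤ)) 1 0) :
    h8a_t0 (q : ℚ) hq0 ^ m * h8a_iota (γ₂ : SL(2, ℤ)) * h8a_iota ((h2v_U N (-t) : Gamma0 N) : SL(2, ℤ))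
      * h8a_t0 (q : ℚ) hq0 ^ m = h8a_iota ((h2v_U N n * γ : Gamma0 N) : SL(2, ℤ)) := by
  have hdet := (γ : SL(2, ℤ)).det_coe
  have hdet2 := (γ₂ : SL(2, ℤ)).det_coe
  rw [Matrix.det_fin_two] at hdet hdet2
  set a := (γ : SL(2, ℤ)) 0 0 with ha
  set b := (γ : SL(2, ℤ)) 0 1 with hb
  set C := (γ : SL(2, ℤ)) 1 0 with hCdef
  set D := (γ : SL(2, ℤ)) 1 1 with hDdef
  set a₂ := (γ₂ : SL(2, ℤ)) 0 0 with ha₂
  set b₂ := (γ₂ : SL(2, ℤ)) 0 1 with hb₂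
  set D₂ := (γ₂ : SL(2, ℤ)) 1 1 with hD₂
  -- the (0,1) entry
  have h01 : b₂ - t * a₂ = b + n * D := by
    have h1 : (b₂ - t * a₂) * C = (b + n * D) * C := by
      have e2 : a₂ * D₂ - b₂ * C = 1 := by rw [← hC2]; exact hdet2
      linear_combination (-1 : ℤ) * e2 + hdet + a₂ * hD + D * hn
    exact mul_right_cancel₀ hC h1
  have hqm : ((q : ℚ) ^ m) ≠ 0 := pow_ne_zero _ hq0
  apply Subtype.ext
  rw [Matrix.SpecialLinearGroup.coe_mul, Matrix.SpecialLinearGroup.coe_mul,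
    Matrix.SpecialLinearGroup.coe_mul, h2v_t0_pow]
  have hγ₂ : (h8a_iota (γ₂ : SL(2, ℤ)) : Matrix (Fin 2) (Fin 2) ℚ) = !![(a₂ : ℚ), b₂; C, D₂] := by
    ext i j
    fin_cases i <;> fin_cases j <;> simp [h8a_iota_apply, ha₂, hb₂, hD₂, hC2]
  have hU : (h8a_iota ((h2v_U N (-t) : Gamma0 N) : SL(2, ℤ)) : Matrix (Fin 2) (Fin 2) ℚ)
      = !![(1 : ℚ), ((-t : ℤ) : ℚ); 0, 1] := by
    ext i j
    fin_cases i <;> fin_cases j <;> simp [h8a_iota_apply, h2v_U_coe]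
  have hγ' : (h8a_iota ((h2v_U N n * γ : Gamma0 N) : SL(2, ℤ)) : Matrix (Fin 2) (Fin 2) ℚ)
      = !![((a + n * C : ℤ) : ℚ), ((b + n * D : ℤ) : ℚ); C, D] := by
    ext i j
    rw [h8a_iota_apply, Subgroup.coe_mul, Matrix.SpecialLinearGroup.coe_mul, h2v_U_coe]
    fin_cases i <;> fin_cases j <;>
      simp [Matrix.mul_apply, Fin.sum_univ_two, ha, hb, hCdef, hDdef]
  rw [hγ₂, hU, hγ']
  have hDq : (D₂ : ℚ) = (q : ℚ) ^ (2 * m) * D + t * C := by exact_mod_cast hD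
  have hnq : (q : ℚ) ^ (2 * m) * a₂ = a + n * C := by exact_mod_cast hn
  have h01q : (b₂ : ℚ) - t * a₂ = b + n * D := by exact_mod_cast h01
  have hpow : (q : ℚ) ^ (2 * m) = (q : ℚ) ^ m * (q : ℚ) ^ m := by rw [two_mul, pow_add]
  ext i j
  fin_cases i <;> fin_cases j <;>
    simp [Matrix.mul_apply, Fin.sum_univ_two]
  · rw [← hnq, hpow]; ring
  · rw [← h01q]; field_simp; ring
  · field_simp
  · rw [hDq, hpow]; field_simp; ring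


/-- integrality of `n` in the drift identity -/
theorem h2v_drift_exists_n (q : ℕ) (m : ℕ) (a b C D a₂ b₂ D₂ t : ℤ)
    (hdet : a * D - b * C = 1) (hdet2 : a₂ * D₂ - b₂ * C = 1)
    (hD : D₂ = (q : ℤ) ^ (2 * m) * D + t * C) :
    ∃ n : ℤ, (q : ℤ) ^ (2 * m) * a₂ = a + n * C := by
  have hcop : IsCoprime C D₂ := ⟨-b₂, a₂, by linear_combination hdet2⟩
  have hdvd : C ∣ ((q : ℤ) ^ (2 * m) * a₂ - a) * D₂ := by
    refine ⟨(q : ℤ) ^ (2 * m) * b₂ - a * t - (q : ℤ) ^ (2 * m) * b, ?_⟩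
    linear_combination ((q : ℤ) ^ (2 * m)) * hdet2 - a * hD - ((q : ℤ) ^ (2 * m)) * hdet
  obtain ⟨n, hn⟩ := hcop.dvd_of_dvd_mul_right hdvd
  exact ⟨n, by linear_combination hn⟩

/-- **Drift from the gluing.** -/
theorem h2v_drift_of_cancel {p N q : ℕ} (hp : p.Prime) (hq : q.Prime) (hqN : ¬ q ∣ N) (hqp : q ≠ p)
    (x y : Additive (Gamma0 N) →+ ZMod p)
    (hx : IsParabolicHom (Gamma0 N) x) (hy : IsParabolicHom (Gamma0 N) y)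
    (hxy : ∀ g : Gamma0 (N * q), x (Additive.ofMul (h6_incl N q g))
        + y (Additive.ofMul (h6_conjH N q hq.pos g)) = 0) :
    ∃ η : ZMod p, h2v_Drift N q p x (-(2 • η)) ∧ h2v_Drift N q p y (2 • η) := by
  have hq0 : (q : ℚ) ≠ 0 := by exact_mod_cast hq.pos.ne'
  obtain ⟨Φ, hΦA, hΦB, -⟩ : ∃ Φ : Additive (h8a_H N (q : ℚ) hq0) →+ ZMod p,
      (∀ (a : Gamma0 N) (h : h8a_iota a ∈ h8a_H N (q : ℚ) hq0),
        Φ (Additive.ofMul ⟨h8a_iota a, h⟩) = x (Additive.ofMul a)) ∧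
      (∀ (a : Gamma0 N)
        (h : (h8a_kappa (q : ℚ) hq0).symm (h8a_iota a) ∈ h8a_H N (q : ℚ) hq0),
        Φ (Additive.ofMul ⟨(h8a_kappa (q : ℚ) hq0).symm (h8a_iota a), h⟩) =
          - y (Additive.ofMul a)) ∧
      (∀ u : h8a_H N (q : ℚ) hq0,
        ((u : SL(2, ℚ)) : Matrix (Fin 2) (Fin 2) ℚ).trace ^ 2 = 4 →
          Φ (Additive.ofMul u) = 0) := h8a_glue hp hq hqN hqp x y hx hxy
  generalize hHs : h8a_H N (q : ℚ) hq0 = Hs at Φ hΦA hΦB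
  set κ := h8a_kappa (q : ℚ) hq0 with hκ
  have ht0 : h8a_t0 (q : ℚ) hq0 ∈ Hs := hHs ▸ h8a_t0_mem_H hq hqN
  have hιmem : ∀ a : Gamma0 N, h8a_iota (a : SL(2, ℤ)) ∈ Hs := fun a =>
    hHs ▸ (le_sup_left : h8a_SA N ≤ h8a_H N (q : ℚ) hq0) (h8a_mem_SA.mpr ⟨a, a.2, rfl⟩)
  have hκmem : ∀ a : Gamma0 N, κ.symm (h8a_iota (a : SL(2, ℤ))) ∈ Hs := fun a => by
    rw [← hHs]
    apply (le_sup_right : h8a_SB N (q : ℚ) hq0 ≤ h8a_H N (q : ℚ) hq0)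
    rw [h8a_mem_SB, MulEquiv.apply_symm_apply]
    exact h8a_mem_SA.mpr ⟨a, a.2, rfl⟩
  set η : ZMod p := Φ (Additive.ofMul ⟨h8a_t0 (q : ℚ) hq0, ht0⟩) with hη
  have hpowmem : ∀ m : ℕ, h8a_t0 (q : ℚ) hq0 ^ m ∈ Hs := fun m => Subgroup.pow_mem _ ht0 m
  have hΦpow : ∀ m : ℕ, Φ (Additive.ofMul ⟨h8a_t0 (q : ℚ) hq0 ^ m, hpowmem m⟩) = m • η := by
    intro m
    have : (⟨h8a_t0 (q : ℚ) hq0 ^ m, hpowmem m⟩ : Hs) = (⟨h8a_t0 (q : ℚ) hq0, ht0⟩ : Hs) ^ m := by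
      apply Subtype.ext
      rw [Subgroup.coe_pow]
    rw [this, ofMul_pow, map_nsmul]
  -- the four-term product rule
  have hΦ4 : ∀ (u₁ u₂ u₃ u₄ u₅ : SL(2, ℚ)) (h₁ : u₁ ∈ Hs) (h₂ : u₂ ∈ Hs) (h₃ : u₃ ∈ Hs)
      (h₄ : u₄ ∈ Hs) (h₅ : u₅ ∈ Hs), u₁ * u₂ * u₃ * u₄ = u₅ →
      Φ (Additive.ofMul ⟨u₁, h₁⟩) + Φ (Additive.ofMul ⟨u₂, h₂⟩) + Φ (Additive.ofMul ⟨u₃, h₃⟩)
        + Φ (Additive.ofMul ⟨u₄, h₄⟩) = Φ (Additive.ofMul ⟨u₅, h₅⟩) := by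
    intro u₁ u₂ u₃ u₄ u₅ h₁ h₂ h₃ h₄ h₅ he
    have : (⟨u₅, h₅⟩ : Hs) = ⟨u₁, h₁⟩ * ⟨u₂, h₂⟩ * ⟨u₃, h₃⟩ * ⟨u₄, h₄⟩ := by
      apply Subtype.ext
      simp only [Subgroup.coe_mul]
      exact he.symm
    rw [this, ofMul_mul, ofMul_mul, ofMul_mul, map_add, map_add, map_add]
  refine ⟨η, ?_, ?_⟩
  · intro m γ γ₂ t hC hC2 hD
    have hdet := (γ : SL(2, ℤ)).det_coe
    have hdet2 := (γ₂ : SL(2, ℤ)).det_coe
    rw [Matrix.det_fin_two] at hdet hdet2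
    obtain ⟨n, hn⟩ := h2v_drift_exists_n q m _ _ _ _ _ _ _ t hdet (by rw [← hC2]; exact hdet2) hD
    have hid := h2v_drift_identity N q hq0 m γ γ₂ t n hC hC2 hD hn
    have h4 := hΦ4 _ _ _ _ _ (hpowmem m) (hιmem γ₂) (hιmem (h2v_U N (-t))) (hpowmem m)
      (hιmem (h2v_U N n * γ)) hid
    rw [hΦpow, hΦA γ₂, hΦA (h2v_U N (-t)), hΦA (h2v_U N n * γ), ofMul_mul, map_add,
      hx _ (h2v_U_trace N (-t)), hx _ (h2v_U_trace N n)] at h4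
    rw [smul_neg, ← sub_eq_add_neg, eq_sub_iff_add_eq]
    rw [smul_comm, two_nsmul]
    linear_combination h4
  · intro m γ γ₂ t hC hC2 hD
    have hdet := (γ : SL(2, ℤ)).det_coe
    have hdet2 := (γ₂ : SL(2, ℤ)).det_coe
    rw [Matrix.det_fin_two] at hdet hdet2
    obtain ⟨n, hn⟩ := h2v_drift_exists_n q m _ _ _ _ _ _ _ t hdet (by rw [← hC2]; exact hdet2) hD
    have hid := h2v_drift_identity N q hq0 m γ γ₂ t n hC hC2 hD hn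
    have hid' := congrArg κ.symm hid
    rw [map_mul, map_mul, map_mul] at hid'
    have hfix : κ.symm (h8a_t0 (q : ℚ) hq0 ^ m) = h8a_t0 (q : ℚ) hq0 ^ m := by
      apply h2v_kappa_symm_diag
      · rw [h2v_t0_pow]; simp
      · rw [h2v_t0_pow]; simp
    rw [hfix] at hid'
    have h4 := hΦ4 _ _ _ _ _ (hpowmem m) (hκmem γ₂) (hκmem (h2v_U N (-t))) (hpowmem m)
      (hκmem (h2v_U N n * γ)) hid'
    rw [hΦpow, hΦB γ₂, hΦB (h2v_U N (-t)), hΦB (h2v_U N n * γ), ofMul_mul, map_add,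
      hy _ (h2v_U_trace N (-t)), hy _ (h2v_U_trace N n)] at h4
    rw [smul_comm, two_nsmul]
    linear_combination (-1 : ZMod p) * h4

end Fermat.Agent.Lib.S41
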