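import Mathlib

/-!
# Project S41, layer [H]: abstract "coset family" operators on additive characters

Owner: helper5.

A *family* from `Γ₂` to `Γ₁` inside an ambient group `𝔾` is a finite family `β : I → 𝔾` together
with a right action `σ` of `Γ₂` on `I` and elements `δ g x : Γ₁` such that
`β x * ι₂ g = ι₁ (δ g x) * β (σ g x)`.  It induces an operator
`(Additive Γ₁ →+ A) →+ (Additive Γ₂ →+ A)`, `φ ↦ (g ↦ ∑ x, φ (δ g x))`
(restriction, corestriction, conjugation and Hecke operators are all of this form).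

Main results: `h5f_master` (telescoping lemma: two matched families give the same sums),
`h5f_Fam.op` (the operator), `h5f_Fam.op_eq_of_match`.
-/

set_option autoImplicit false

namespace Fermat.Agent.Lib.S41

section Master

variable {𝔾 Γ : Type*} [Group 𝔾] [Group Γ] {A : Type*} [AddCommGroup A]

/-- **Telescoping lemma.** -/
theorem h5f_master (ι : Γ →* 𝔾) (hι : Function.Injective ι) (φ : Additive Γ →+ A)
    {I J : Type*} [Fintype I] [Fintype J] (β : I → 𝔾) (β' : J → 𝔾) (g : 𝔾)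
    (σ : Equiv.Perm I) (σ' : Equiv.Perm J) (e : I ≃ J) (δ : I → Γ) (δ' : J → Γ) (ε : I → Γ)
    (hδ : ∀ x, β x * g = ι (δ x) * β (σ x))
    (hδ' : ∀ y, β' y * g = ι (δ' y) * β' (σ' y))
    (hε : ∀ x, β' (e x) = ι (ε x) * β x)
    (hcomm : ∀ x, e (σ x) = σ' (e x)) :
    ∑ x, φ (Additive.ofMul (δ x)) = ∑ y, φ (Additive.ofMul (δ' y)) := by
  have key : ∀ x, δ' (e x) = ε x * δ x * (ε (σ x))⁻¹ := by
    intro x
    apply hι
    have h1 : β' (e x) * g = ι (δ' (e x)) * (ι (ε (σ x)) * β (σ x)) := by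
      rw [hδ' (e x), ← hcomm x, hε (σ x)]
    have h2 : β' (e x) * g = ι (ε x) * (ι (δ x) * β (σ x)) := by
      rw [hε x, mul_assoc, hδ x]
    have h3 : ι (δ' (e x)) * ι (ε (σ x)) = ι (ε x) * ι (δ x) := by
      have := h1.symm.trans h2
      rw [← mul_assoc, ← mul_assoc] at this
      exact mul_right_cancel this
    rw [map_mul, map_mul, map_inv, ← h3, mul_assoc, mul_inv_cancel, mul_one]
  rw [← Equiv.sum_comp e (fun y => φ (Additive.ofMul (δ' y)))]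
  have h4 : ∀ x, φ (Additive.ofMul (δ' (e x)))
      = φ (Additive.ofMul (ε x)) + φ (Additive.ofMul (δ x)) - φ (Additive.ofMul (ε (σ x))) := by
    intro x
    rw [key x, ofMul_mul, ofMul_mul, ofMul_inv, map_add, map_add, map_neg, sub_eq_add_neg]
  simp_rw [h4]
  rw [Finset.sum_sub_distrib, Finset.sum_add_distrib,
    Equiv.sum_comp σ (fun x => φ (Additive.ofMul (ε x)))]
  abel

end Master

/-- A coset family from `Γ₂` to `Γ₁` inside `𝔾`. -/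
structure h5f_Fam (𝔾 : Type*) [Group 𝔾] (Γ₁ Γ₂ : Type*) [Group Γ₁] [Group Γ₂] (I : Type*) where
  ι₁ : Γ₁ →* 𝔾
  ι₂ : Γ₂ →* 𝔾
  inj : Function.Injective ι₁
  β : I → 𝔾
  σ : Γ₂ → Equiv.Perm I
  δ : Γ₂ → I → Γ₁
  rel : ∀ g x, β x * ι₂ g = ι₁ (δ g x) * β (σ g x)
  σ_mul : ∀ g g' x, σ (g * g') x = σ g' (σ g x)

namespace h5f_Fam

variable {𝔾 : Type*} [Group 𝔾] {Γ₁ Γ₂ : Type*} [Group Γ₁] [Group Γ₂] {I : Type*}
  {A : Type*} [AddCommGroup A]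

theorem δ_mul (F : h5f_Fam 𝔾 Γ₁ Γ₂ I) (g g' : Γ₂) (x : I) :
    F.δ (g * g') x = F.δ g x * F.δ g' (F.σ g x) := by
  apply F.inj
  have h1 := F.rel (g * g') x
  rw [map_mul, ← mul_assoc, F.rel g x, mul_assoc, F.rel g' (F.σ g x), ← mul_assoc,
    F.σ_mul g g' x] at h1
  rw [map_mul]
  exact (mul_right_cancel h1).symm

variable [Fintype I]

/-- The operator attached to a family. -/
def op (F : h5f_Fam 𝔾 Γ₁ Γ₂ I) (A : Type*) [AddCommGroup A] :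
    (Additive Γ₁ →+ A) →+ (Additive Γ₂ →+ A) where
  toFun φ := AddMonoidHom.mk' (fun g => ∑ x, φ (Additive.ofMul (F.δ (Additive.toMul g) x)))
    (by
      intro g g'
      show ∑ x, φ (Additive.ofMul (F.δ (Additive.toMul g * Additive.toMul g') x)) = _
      simp_rw [F.δ_mul, ofMul_mul, map_add]
      rw [Finset.sum_add_distrib]
      congr 1
      exact Equiv.sum_comp (F.σ (Additive.toMul g))
        (fun x => φ (Additive.ofMul (F.δ (Additive.toMul g') x))))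
  map_zero' := by
    refine AddMonoidHom.ext fun g => ?_
    simp
  map_add' φ ψ := by
    refine AddMonoidHom.ext fun g => ?_
    simp [Finset.sum_add_distrib]

@[simp] theorem op_apply (F : h5f_Fam 𝔾 Γ₁ Γ₂ I) (φ : Additive Γ₁ →+ A) (g : Γ₂) :
    F.op A φ (Additive.ofMul g) = ∑ x, φ (Additive.ofMul (F.δ g x)) := rfl

/-- Two matched families induce the same operator. -/
theorem op_eq_of_match {J : Type*} [Fintype J] (F : h5f_Fam 𝔾 Γ₁ Γ₂ I) (F' : h5f_Fam 𝔾 Γ₁ Γ₂ J)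
    (h1 : F.ι₁ = F'.ι₁) (h2 : F.ι₂ = F'.ι₂) (e : I ≃ J) (ε : I → Γ₁)
    (hε : ∀ x, F'.β (e x) = F.ι₁ (ε x) * F.β x)
    (hcomm : ∀ g x, e (F.σ g x) = F'.σ g (e x)) :
    F.op A = F'.op A := by
  refine AddMonoidHom.ext fun φ => AddMonoidHom.ext fun g' => ?_
  set g : Γ₂ := Additive.toMul g'
  change ∑ x, φ (Additive.ofMul (F.δ g x)) = ∑ y, φ (Additive.ofMul (F'.δ g y))
  exact h5f_master F.ι₁ F.inj φ F.β F'.β (F.ι₂ g) (F.σ g) (F'.σ g) e (F.δ g) (F'.δ g) ε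
    (F.rel g) (fun y => by rw [h2, h1]; exact F'.rel g y) hε (hcomm g)

/-- Variant of `op_eq_of_match`: the compatibility of the actions is automatic when the cosets
of the second family are pairwise distinct. -/
theorem op_eq_of_match' {J : Type*} [Fintype J] (F : h5f_Fam 𝔾 Γ₁ Γ₂ I) (F' : h5f_Fam 𝔾 Γ₁ Γ₂ J)
    (h1 : F.ι₁ = F'.ι₁) (h2 : F.ι₂ = F'.ι₂) (e : I ≃ J) (ε : I → Γ₁)
    (hε : ∀ x, F'.β (e x) = F.ι₁ (ε x) * F.β x)
    (hdist : ∀ (y y' : J) (γ : Γ₁), F'.β y = F'.ι₁ γ * F'.β y' → y = y') :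
    F.op A = F'.op A := by
  refine op_eq_of_match F F' h1 h2 e ε hε fun g x => ?_
  -- both `β' (e (σ x))` and `β' (σ' (e x))` lie in the coset of `β' (e x) * g`
  have ha : F'.β (e x) * F'.ι₂ g = F'.ι₁ (F'.δ g (e x)) * F'.β (F'.σ g (e x)) := F'.rel g (e x)
  have hb : F'.β (e x) * F'.ι₂ g
      = F'.ι₁ (ε x * F.δ g x * (ε (F.σ g x))⁻¹) * F'.β (e (F.σ g x)) := by
    rw [hε x, hε (F.σ g x), ← h2, ← h1, mul_assoc, F.rel g x, map_mul, map_mul, map_inv]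
    group
  apply hdist _ _ ((ε x * F.δ g x * (ε (F.σ g x))⁻¹)⁻¹ * F'.δ g (e x))
  have := hb.symm.trans ha
  rw [map_mul, map_inv, mul_assoc, ← this, ← mul_assoc, inv_mul_cancel, one_mul]

/-- Composition of families: first `F` (from `Γ₂` to `Γ₁`), then `F'` (from `Γ₃` to `Γ₂`). -/
def comp {Γ₃ : Type*} [Group Γ₃] {J : Type*} (F : h5f_Fam 𝔾 Γ₁ Γ₂ I) (F' : h5f_Fam 𝔾 Γ₂ Γ₃ J)
    (h : F.ι₂ = F'.ι₁) : h5f_Fam 𝔾 Γ₁ Γ₃ (J × I) where
  ι₁ := F.ι₁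
  ι₂ := F'.ι₂
  inj := F.inj
  β := fun yx => F.β yx.2 * F'.β yx.1
  σ := fun g =>
    { toFun := fun yx => (F'.σ g yx.1, F.σ (F'.δ g yx.1) yx.2)
      invFun := fun yx => ((F'.σ g).symm yx.1, (F.σ (F'.δ g ((F'.σ g).symm yx.1))).symm yx.2)
      left_inv := by
        rintro ⟨y, x⟩
        simp
      right_inv := by
        rintro ⟨y, x⟩
        simp }
  δ := fun g yx => F.δ (F'.δ g yx.1) yx.2
  rel := by
    rintro g ⟨y, x⟩
    show F.β x * F'.β y * F'.ι₂ g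
      = F.ι₁ (F.δ (F'.δ g y) x) * (F.β (F.σ (F'.δ g y) x) * F'.β (F'.σ g y))
    rw [mul_assoc, F'.rel g y, ← h, ← mul_assoc, F.rel, mul_assoc]
  σ_mul := by
    rintro g g' ⟨y, x⟩
    show (F'.σ (g * g') y, F.σ (F'.δ (g * g') y) x)
      = (F'.σ g' (F'.σ g y), F.σ (F'.δ g' (F'.σ g y)) (F.σ (F'.δ g y) x))
    rw [F'.σ_mul, F'.δ_mul, F.σ_mul]

theorem op_comp {Γ₃ : Type*} [Group Γ₃] {J : Type*} [Fintype J] (F : h5f_Fam 𝔾 Γ₁ Γ₂ I)
    (F' : h5f_Fam 𝔾 Γ₂ Γ₃ J) (h : F.ι₂ = F'.ι₁) (φ : Additive Γ₁ →+ A) :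
    (F.comp F' h).op A φ = F'.op A (F.op A φ) := by
  refine AddMonoidHom.ext fun g' => ?_
  set g : Γ₃ := Additive.toMul g'
  change ∑ yx : J × I, φ (Additive.ofMul (F.δ (F'.δ g yx.1) yx.2))
    = ∑ y, ∑ x, φ (Additive.ofMul (F.δ (F'.δ g y) x))
  rw [Fintype.sum_prod_type]

end h5f_Fam

/-- The family of a homomorphism `ψ : Γ₂ →* Γ₁` realised as conjugation by `h` in `𝔾`:
its operator is the pull-back along `ψ`. -/
def h5f_ofHom {𝔾 : Type*} [Group 𝔾] {Γ₁ Γ₂ : Type*} [Group Γ₁] [Group Γ₂]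
    (ι₁ : Γ₁ →* 𝔾) (ι₂ : Γ₂ →* 𝔾) (inj : Function.Injective ι₁) (ψ : Γ₂ →* Γ₁) (h : 𝔾)
    (hrel : ∀ g, h * ι₂ g = ι₁ (ψ g) * h) : h5f_Fam 𝔾 Γ₁ Γ₂ Unit where
  ι₁ := ι₁
  ι₂ := ι₂
  inj := inj
  β := fun _ => h
  σ := fun _ => Equiv.refl _
  δ := fun g _ => ψ g
  rel := fun g _ => hrel g
  σ_mul := fun _ _ _ => rfl

theorem h5f_ofHom_op {𝔾 : Type*} [Group 𝔾] {Γ₁ Γ₂ : Type*} [Group Γ₁] [Group Γ₂]
    {A : Type*} [AddCommGroup A]
    (ι₁ : Γ₁ →* 𝔾) (ι₂ : Γ₂ →* 𝔾) (inj : Function.Injective ι₁) (ψ : Γ₂ →* Γ₁) (h : 𝔾)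
    (hrel : ∀ g, h * ι₂ g = ι₁ (ψ g) * h) (φ : Additive Γ₁ →+ A) (g : Γ₂) :
    (h5f_ofHom ι₁ ι₂ inj ψ h hrel).op A φ (Additive.ofMul g) = φ (Additive.ofMul (ψ g)) := by
  rw [h5f_Fam.op_apply]
  simp [h5f_ofHom]

end Fermat.Agent.Lib.S41
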