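import Mathlib
import Fermat.Prelude.Sol.S_ModularForm_heckeT_slash_eq_self_of_mem_Gamma0
import Fermat.Agent.Lib.S41.Defs
import Fermat.Agent.Lib.S41.H5Fam

/-!
# Project S41, layer [H]: the concrete coset families (Hecke operators `T_ℓ`, corestriction,
restriction, conjugation by `diag(q,1)`) on `Additive (Gamma0 M) →+ A`

Owner: helper5.
-/

set_option autoImplicit false

open P2MW.S_ModularForm_heckeT_slash_eq_self_of_mem_Gamma0.ModularForm.HeckeSlashInvariance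
open P2MW.S_ModularForm_heckeT_slash_eq_self_of_mem_Gamma0.ModularForm
open CongruenceSubgroup Matrix.SpecialLinearGroup
open scoped MatrixGroups OnePoint

noncomputable section

namespace Fermat.Agent.Lib.S41

/-- The embedding of `Γ₀(M)` into `GL₂(ℝ)`. -/
def h5h_ι (M : ℕ) : Gamma0 M →* GL (Fin 2) ℝ := (mapGL ℝ).comp (Gamma0 M).subtype

theorem h5h_ι_apply (M : ℕ) (g : Gamma0 M) : h5h_ι M g = mapGL ℝ (g : SL(2, ℤ)) := rfl

theorem h5h_ι_inj (M : ℕ) : Function.Injective (h5h_ι M) :=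
  mapGL_injective.comp Subtype.val_injective

theorem h5h_dvd (M : ℕ) (g : Gamma0 M) : (M : ℤ) ∣ (g : SL(2, ℤ)) 1 0 :=
  (ZMod.intCast_zmod_eq_zero_iff_dvd _ _).mp (Gamma0_mem.mp g.2)

theorem h5h_mem_of_dvd (M : ℕ) (g : SL(2, ℤ)) (h : (M : ℤ) ∣ g 1 0) : g ∈ Gamma0 M :=
  Gamma0_mem.mpr ((ZMod.intCast_zmod_eq_zero_iff_dvd _ _).mpr h)

section RedMatrix

variable (p : ℕ) [Fact p.Prime]

/-- `redMatrix` is an anti-homomorphism. -/
theorem h5h_redMatrix_mul (g g' : SL(2, ℤ)) :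
    redMatrix p (g * g') = redMatrix p g' * redMatrix p g := by
  apply Matrix.GeneralLinearGroup.ext
  intro i j
  rw [Matrix.GeneralLinearGroup.coe_mul, Matrix.mul_apply, Fin.sum_univ_two]
  fin_cases i <;> fin_cases j <;>
    simp only [Fin.zero_eta, Fin.mk_one, Fin.isValue, redMatrix_apply_zero_zero,
      redMatrix_apply_zero_one, redMatrix_apply_one_zero, redMatrix_apply_one_one,
      Matrix.SpecialLinearGroup.coe_mul, Matrix.mul_apply, Fin.sum_univ_two] <;>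
    push_cast <;> ring

theorem h5h_redMatrix_one : redMatrix p (1 : SL(2, ℤ)) = 1 := by
  apply Matrix.GeneralLinearGroup.ext
  intro i j
  fin_cases i <;> fin_cases j <;>
    simp [redMatrix_apply_zero_zero, redMatrix_apply_zero_one, redMatrix_apply_one_zero,
      redMatrix_apply_one_one]

end RedMatrix

/-- The right action of `SL(2,ℤ)` on `P¹(𝔽_p)` used by the Prelude's `heckeRep_mul`. -/
def h5h_act (p : ℕ) [Fact p.Prime] (g : SL(2, ℤ)) : Equiv.Perm (OnePoint (ZMod p)) :=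
  MulAction.toPerm (redMatrix p g)

theorem h5h_act_apply (p : ℕ) [Fact p.Prime] (g : SL(2, ℤ)) (x : OnePoint (ZMod p)) :
    h5h_act p g x = redMatrix p g • x := rfl

theorem h5h_act_mul (p : ℕ) [Fact p.Prime] (g g' : SL(2, ℤ)) (x : OnePoint (ZMod p)) :
    h5h_act p (g * g') x = h5h_act p g' (h5h_act p g x) := by
  rw [h5h_act_apply, h5h_act_apply, h5h_act_apply, h5h_redMatrix_mul, mul_smul]

theorem h5h_act_one (p : ℕ) [Fact p.Prime] (x : OnePoint (ZMod p)) :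
    h5h_act p 1 x = x := by
  rw [h5h_act_apply, h5h_redMatrix_one, one_smul]

section HeckeFam

variable (M ℓ : ℕ) [Fact ℓ.Prime] (hℓ : ¬ ℓ ∣ M)

include hℓ in
theorem h5h_hecke_exists (g : Gamma0 M) (x : OnePoint (ZMod ℓ)) :
    ∃ g' : Gamma0 M, heckeRep ℓ x * h5h_ι M g
      = h5h_ι M g' * heckeRep ℓ (h5h_act ℓ (g : SL(2, ℤ)) x) := by
  obtain ⟨g', hg', h⟩ := heckeRep_mul hℓ (g : SL(2, ℤ)) (h5h_dvd M g) x
  exact ⟨⟨g', h5h_mem_of_dvd M g' hg'⟩, h⟩

/-- The Hecke family `T_ℓ` at level `M` (`ℓ ∤ M`). -/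
def h5h_heckeFam : h5f_Fam (GL (Fin 2) ℝ) (Gamma0 M) (Gamma0 M) (OnePoint (ZMod ℓ)) where
  ι₁ := h5h_ι M
  ι₂ := h5h_ι M
  inj := h5h_ι_inj M
  β := heckeRep ℓ
  σ := fun g => h5h_act ℓ (g : SL(2, ℤ))
  δ := fun g x => Classical.choose (h5h_hecke_exists M ℓ hℓ g x)
  rel := fun g x => Classical.choose_spec (h5h_hecke_exists M ℓ hℓ g x)
  σ_mul := fun _ _ x => h5h_act_mul ℓ _ _ x

/-- The cohomological Hecke operator `T_ℓ` on `Hom(Γ₀(M), A)`. -/
def h5h_T (A : Type*) [AddCommGroup A] :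
    (Additive (Gamma0 M) →+ A) →+ (Additive (Gamma0 M) →+ A) :=
  (h5h_heckeFam M ℓ hℓ).op A

end HeckeFam

end Fermat.Agent.Lib.S41
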