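import Mathlib
import Fermat.Agent.Lib.S41.H5Fam

/-!
# Project S41, layer [H]: the "orbit family" (corestriction along a stabiliser)

Owner: helper5.

`Γ₂` acts on the right on a finite set `I` (`σ`), transitively with section `r` through the base
point `x₀`; elements `k` of the stabiliser of `x₀` are transported to `Γ₁` by `κ`, realised as
conjugation by `h ∈ 𝔾`.  The resulting family `β x = h * ι₂ (r x)` induces the
corestriction (transfer) from `Γ₁ ≅ Stab x₀` to `Γ₂`.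
-/

set_option autoImplicit false

namespace Fermat.Agent.Lib.S41

section

variable {Γ₂ : Type*} [Group Γ₂] {I : Type*} (σ : Γ₂ → Equiv.Perm I)
  (σ_mul : ∀ g g' x, σ (g * g') x = σ g' (σ g x))

include σ_mul

theorem h5o_σ_one (x : I) : σ 1 x = x := by
  have h := σ_mul 1 1 x
  rw [mul_one] at h
  exact ((σ 1).injective h).symm

theorem h5o_σ_inv (g : Γ₂) (x : I) : σ g⁻¹ (σ g x) = x := by
  rw [← σ_mul, mul_inv_cancel, h5o_σ_one σ σ_mul]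

theorem h5o_σ_inv' (g : Γ₂) (x : I) : σ g (σ g⁻¹ x) = x := by
  rw [← σ_mul, inv_mul_cancel, h5o_σ_one σ σ_mul]

theorem h5o_stab (x₀ : I) (r : I → Γ₂) (hr : ∀ x, σ (r x) x₀ = x) (g : Γ₂) (x : I) :
    σ (r x * g * (r (σ g x))⁻¹) x₀ = x₀ := by
  rw [σ_mul, σ_mul, hr]
  have := h5o_σ_inv σ σ_mul (r (σ g x)) x₀
  rw [hr] at this
  exact this

end

/-- The orbit family. -/
def h5o_orbitFam {𝔾 : Type*} [Group 𝔾] {Γ₁ Γ₂ : Type*} [Group Γ₁] [Group Γ₂] {I : Type*}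
    (ι₁ : Γ₁ →* 𝔾) (ι₂ : Γ₂ →* 𝔾) (inj : Function.Injective ι₁)
    (σ : Γ₂ → Equiv.Perm I) (σ_mul : ∀ g g' x, σ (g * g') x = σ g' (σ g x))
    (x₀ : I) (r : I → Γ₂) (hr : ∀ x, σ (r x) x₀ = x) (h : 𝔾)
    (κ : (k : Γ₂) → σ k x₀ = x₀ → Γ₁)
    (hκ : ∀ k hk, h * ι₂ k = ι₁ (κ k hk) * h) : h5f_Fam 𝔾 Γ₁ Γ₂ I where
  ι₁ := ι₁
  ι₂ := ι₂
  inj := inj
  β := fun x => h * ι₂ (r x)
  σ := σ
  δ := fun g x => κ (r x * g * (r (σ g x))⁻¹) (h5o_stab σ σ_mul x₀ r hr g x)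
  rel := by
    intro g x
    rw [← mul_assoc, ← hκ _ (h5o_stab σ σ_mul x₀ r hr g x), mul_assoc, mul_assoc, ← map_mul,
      ← map_mul, inv_mul_cancel_right]
  σ_mul := σ_mul

end Fermat.Agent.Lib.S41
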