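import Mathlib
import Fermat.Agent.Lib.S41.H5Hecke
import Fermat.Agent.Lib.S41.H5Orbit

/-!
# Project S41, layer [H]: corestriction families for `Γ₀(M q) ⇉ Γ₀(M)` (`incl` and `conjH`)

Owner: helper5.
-/

set_option autoImplicit false

open P2MW.S_ModularForm_heckeT_slash_eq_self_of_mem_Gamma0.ModularForm.HeckeSlashInvariance
open P2MW.S_ModularForm_heckeT_slash_eq_self_of_mem_Gamma0.ModularForm
open CongruenceSubgroup Matrix.SpecialLinearGroup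
open scoped MatrixGroups OnePoint

noncomputable section

namespace Fermat.Agent.Lib.S41

variable (M q : ℕ) [Fact q.Prime]

/-- `∞ · g = ∞` iff `q ∣ c`. -/
theorem h5c_act_infty_iff (g : SL(2, ℤ)) :
    h5h_act q g ∞ = ∞ ↔ (q : ℤ) ∣ g 1 0 := by
  rw [h5h_act_apply, OnePoint.smul_infty_eq_self_iff, redMatrix_apply_one_zero,
    ZMod.intCast_zmod_eq_zero_iff_dvd]

/-- `∞ · g = d / c` if `q ∤ c`. -/
theorem h5c_act_infty_of_ne (g : SL(2, ℤ)) (h : ((g 1 0 : ℤ) : ZMod q) ≠ 0) :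
    h5h_act q g ∞ = ((((g 1 1 : ℤ) : ZMod q) / ((g 1 0 : ℤ) : ZMod q) : ZMod q) : OnePoint (ZMod q)) := by
  rw [h5h_act_apply, OnePoint.smul_infty_eq_ite, redMatrix_apply_one_zero,
    redMatrix_apply_zero_zero, if_neg h]

/-- `0 · g`. -/
theorem h5c_act_zero (g : SL(2, ℤ)) :
    h5h_act q g ((0 : ZMod q) : OnePoint (ZMod q))
      = if ((g 0 0 : ℤ) : ZMod q) = 0 then ∞
        else ((((g 0 1 : ℤ) : ZMod q) / ((g 0 0 : ℤ) : ZMod q) : ZMod q) : OnePoint (ZMod q)) := by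
  rw [h5h_act_apply, OnePoint.smul_some_eq_ite]
  simp only [redMatrix_apply_one_zero, redMatrix_apply_one_one, redMatrix_apply_zero_zero,
    redMatrix_apply_zero_one, mul_zero, zero_add]

variable {M q} (hqM : ¬ q ∣ M)

include hqM in
theorem h5c_M_ne_zero : ((M : ℕ) : ZMod q) ≠ 0 := by
  rw [Ne, ZMod.natCast_eq_zero_iff]
  exact hqM

include hqM in
/-- Transitivity through `∞`. -/
theorem h5c_trans_infty (x : OnePoint (ZMod q)) :
    ∃ r : Gamma0 M, h5h_act q (r : SL(2, ℤ)) ∞ = x := by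
  induction x using OnePoint.rec with
  | infty => exact ⟨1, h5h_act_one q _⟩
  | coe j =>
    set t : ℤ := ((j - ((M : ℕ) : ZMod q)⁻¹).val : ℤ) with ht
    let r0 : SL(2, ℤ) := ⟨!![1, t; (M : ℤ), (M : ℤ) * t + 1], by
      rw [Matrix.det_fin_two_of]; ring⟩
    have hr0 : r0 ∈ Gamma0 M := by
      rw [Gamma0_mem]
      show (((M : ℤ) : ℤ) : ZMod M) = 0
      simp
    refine ⟨⟨r0, hr0⟩, ?_⟩
    have h10 : (r0 1 0 : ℤ) = (M : ℤ) := rfl
    have h11 : (r0 1 1 : ℤ) = (M : ℤ) * t + 1 := rfl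
    have hne : (((r0 1 0 : ℤ) : ℤ) : ZMod q) ≠ 0 := by
      rw [h10]; push_cast; exact h5c_M_ne_zero hqM
    show h5h_act q r0 ∞ = _
    rw [h5c_act_infty_of_ne q r0 hne, h10, h11]
    congr 1
    have hM := h5c_M_ne_zero hqM
    push_cast
    rw [ht]
    push_cast
    rw [ZMod.natCast_zmod_val]
    field_simp
    ring

/-- Transitivity through `0`. -/
theorem h5c_trans_zero (hqM : ¬ q ∣ M) (y : OnePoint (ZMod q)) :
    ∃ s : Gamma0 M, h5h_act q (s : SL(2, ℤ)) ((0 : ZMod q) : OnePoint (ZMod q)) = y := by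
  have hq : q.Prime := Fact.out
  induction y using OnePoint.rec with
  | infty =>
    -- `s = [[q u, -v], [M, 1]]` with `q u + M v = 1`
    have hcop : IsCoprime (q : ℤ) (M : ℤ) :=
      Nat.isCoprime_iff_coprime.mpr ((Nat.Prime.coprime_iff_not_dvd hq).mpr hqM)
    obtain ⟨u, v, huv⟩ := hcop
    let s0 : SL(2, ℤ) := ⟨!![(q : ℤ) * u, -v; (M : ℤ), 1], by
      rw [Matrix.det_fin_two_of]; linear_combination huv⟩
    have hs0 : s0 ∈ Gamma0 M := by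
      rw [Gamma0_mem]
      show (((M : ℤ) : ℤ) : ZMod M) = 0
      simp
    refine ⟨⟨s0, hs0⟩, ?_⟩
    show h5h_act q s0 _ = _
    rw [h5c_act_zero]
    have h00 : (s0 0 0 : ℤ) = (q : ℤ) * u := rfl
    rw [if_pos]
    rw [h00]; push_cast; simp
  | coe j =>
    let s0 : SL(2, ℤ) := ⟨!![1, (j.val : ℤ); 0, 1], by
      rw [Matrix.det_fin_two_of]; ring⟩
    have hs0 : s0 ∈ Gamma0 M := by
      rw [Gamma0_mem]
      show (((0 : ℤ) : ℤ) : ZMod M) = 0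
      simp
    refine ⟨⟨s0, hs0⟩, ?_⟩
    show h5h_act q s0 _ = _
    rw [h5c_act_zero]
    have h00 : (s0 0 0 : ℤ) = 1 := rfl
    have h01 : (s0 0 1 : ℤ) = (j.val : ℤ) := rfl
    rw [h00, h01, if_neg (by push_cast; exact one_ne_zero)]
    congr 1
    push_cast
    rw [ZMod.natCast_zmod_val, div_one]

/-! ### The transports `κ` of the two stabilisers to `Γ₀(M q)` -/

include hqM in
theorem h5c_mem_mul (k : Gamma0 M) (hk : (q : ℤ) ∣ (k : SL(2, ℤ)) 1 0) :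
    (k : SL(2, ℤ)) ∈ Gamma0 (M * q) := by
  have hq : q.Prime := Fact.out
  have hcop : IsCoprime (M : ℤ) (q : ℤ) :=
    Nat.isCoprime_iff_coprime.mpr ((Nat.Prime.coprime_iff_not_dvd hq).mpr hqM).symm
  apply h5h_mem_of_dvd
  push_cast
  exact hcop.mul_dvd (h5h_dvd M k) hk

/-- `κ` for the base point `∞`: the stabiliser of `∞` in `Γ₀(M)` is `Γ₀(M q)`. -/
def h5c_κinf (hqM : ¬ q ∣ M) (k : Gamma0 M) (hk : h5h_act q (k : SL(2, ℤ)) ∞ = ∞) :
    Gamma0 (M * q) :=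
  ⟨(k : SL(2, ℤ)), h5c_mem_mul hqM k ((h5c_act_infty_iff q _).mp hk)⟩

theorem h5c_κinf_coe (hqM : ¬ q ∣ M) (k : Gamma0 M) (hk : h5h_act q (k : SL(2, ℤ)) ∞ = ∞) :
    ((h5c_κinf hqM k hk : Gamma0 (M * q)) : SL(2, ℤ)) = (k : SL(2, ℤ)) := rfl

theorem h5c_incl_κinf (hqM : ¬ q ∣ M) (k : Gamma0 M) (hk : h5h_act q (k : SL(2, ℤ)) ∞ = ∞) :
    h6_incl M q (h5c_κinf hqM k hk) = k := rfl

theorem h5c_lower_entry (k g' : SL(2, ℤ))
    (h : heckeRep q ((0 : ZMod q) : OnePoint (ZMod q)) * mapGL ℝ k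
      = mapGL ℝ g' * heckeRep q ((0 : ZMod q) : OnePoint (ZMod q))) :
    g' 1 0 = (q : ℤ) * k 1 0 := by
  have hq0 : q ≠ 0 := (Fact.out : q.Prime).ne_zero
  have h1 := congrArg (fun m : GL (Fin 2) ℝ => (m : Matrix (Fin 2) (Fin 2) ℝ) 1 0) h
  simp only [heckeRep_coe, Matrix.GeneralLinearGroup.coe_mul, Matrix.mul_apply, Fin.sum_univ_two,
    ModularForm.val_heckeMatrix hq0, ZMod.val_zero] at h1
  simp at h1
  exact_mod_cast h1.symm

include hqM in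
theorem h5c_κzero_exists (k : Gamma0 M)
    (hk : h5h_act q (k : SL(2, ℤ)) ((0 : ZMod q) : OnePoint (ZMod q)) = ((0 : ZMod q) : OnePoint (ZMod q))) :
    ∃ k' : Gamma0 (M * q), heckeRep q ((0 : ZMod q) : OnePoint (ZMod q)) * h5h_ι M k
      = h5h_ι (M * q) k' * heckeRep q ((0 : ZMod q) : OnePoint (ZMod q)) := by
  obtain ⟨g', hg'⟩ := h5h_hecke_exists M q hqM k ((0 : ZMod q) : OnePoint (ZMod q))
  rw [hk] at hg'
  have hlow := h5c_lower_entry (k : SL(2, ℤ)) (g' : SL(2, ℤ)) hg'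
  exact ⟨⟨(g' : SL(2, ℤ)), h5c_mem_mul hqM g' ⟨_, hlow⟩⟩, hg'⟩

/-- `κ` for the base point `0`: the stabiliser of `0` in `Γ₀(M)` is `conjH (Γ₀(M q))`. -/
def h5c_κzero (hqM : ¬ q ∣ M) (k : Gamma0 M)
    (hk : h5h_act q (k : SL(2, ℤ)) ((0 : ZMod q) : OnePoint (ZMod q)) = ((0 : ZMod q) : OnePoint (ZMod q))) :
    Gamma0 (M * q) :=
  Classical.choose (h5c_κzero_exists hqM k hk)

theorem h5c_κzero_spec (hqM : ¬ q ∣ M) (k : Gamma0 M)
    (hk : h5h_act q (k : SL(2, ℤ)) ((0 : ZMod q) : OnePoint (ZMod q)) = ((0 : ZMod q) : OnePoint (ZMod q))) :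
    heckeRep q ((0 : ZMod q) : OnePoint (ZMod q)) * h5h_ι M k
      = h5h_ι (M * q) (h5c_κzero hqM k hk) * heckeRep q ((0 : ZMod q) : OnePoint (ZMod q)) :=
  Classical.choose_spec (h5c_κzero_exists hqM k hk)

/-! ### The two corestriction families -/

/-- A section of the orbit map through `∞`. -/
def h5c_secInf (hqM : ¬ q ∣ M) (x : OnePoint (ZMod q)) : Gamma0 M :=
  Classical.choose (h5c_trans_infty hqM x)

theorem h5c_secInf_spec (hqM : ¬ q ∣ M) (x : OnePoint (ZMod q)) :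
    h5h_act q (h5c_secInf hqM x : SL(2, ℤ)) ∞ = x :=
  Classical.choose_spec (h5c_trans_infty hqM x)

/-- A section of the orbit map through `0`. -/
def h5c_secZero (hqM : ¬ q ∣ M) (y : OnePoint (ZMod q)) : Gamma0 M :=
  Classical.choose (h5c_trans_zero hqM y)

theorem h5c_secZero_spec (hqM : ¬ q ∣ M) (y : OnePoint (ZMod q)) :
    h5h_act q (h5c_secZero hqM y : SL(2, ℤ)) ((0 : ZMod q) : OnePoint (ZMod q)) = y :=
  Classical.choose_spec (h5c_trans_zero hqM y)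

/-- Corestriction along `incl : Γ₀(M q) → Γ₀(M)`. -/
def h5c_cores (hqM : ¬ q ∣ M) :
    h5f_Fam (GL (Fin 2) ℝ) (Gamma0 (M * q)) (Gamma0 M) (OnePoint (ZMod q)) :=
  h5o_orbitFam (h5h_ι (M * q)) (h5h_ι M) (h5h_ι_inj (M * q))
    (fun g => h5h_act q (g : SL(2, ℤ))) (fun _ _ x => h5h_act_mul q _ _ x)
    ∞ (h5c_secInf hqM) (h5c_secInf_spec hqM) 1
    (h5c_κinf hqM) (fun k hk => by rw [one_mul, mul_one]; rfl)

/-- Corestriction along `conjH : Γ₀(M q) → Γ₀(M)`. -/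
def h5c_coresH (hqM : ¬ q ∣ M) :
    h5f_Fam (GL (Fin 2) ℝ) (Gamma0 (M * q)) (Gamma0 M) (OnePoint (ZMod q)) :=
  h5o_orbitFam (h5h_ι (M * q)) (h5h_ι M) (h5h_ι_inj (M * q))
    (fun g => h5h_act q (g : SL(2, ℤ))) (fun _ _ x => h5h_act_mul q _ _ x)
    ((0 : ZMod q) : OnePoint (ZMod q)) (h5c_secZero hqM) (h5c_secZero_spec hqM)
    (heckeRep q ((0 : ZMod q) : OnePoint (ZMod q)))
    (h5c_κzero hqM) (h5c_κzero_spec hqM)

end Fermat.Agent.Lib.S41
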