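import Mathlib
import Fermat.Agent.Lib.S41.H5Cores

/-!
# Project S41, layer [H]: the identities `α'α = q+1 = β'β`, `α'β = T_q = β'α`

Owner: helper5.
-/

set_option autoImplicit false

open P2MW.S_ModularForm_heckeT_slash_eq_self_of_mem_Gamma0.ModularForm.HeckeSlashInvariance
open P2MW.S_ModularForm_heckeT_slash_eq_self_of_mem_Gamma0.ModularForm
open CongruenceSubgroup Matrix.SpecialLinearGroup
open scoped MatrixGroups OnePoint

noncomputable section

namespace Fermat.Agent.Lib.S41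

variable {M q : ℕ} [Fact q.Prime] {A : Type*} [AddCommGroup A]

theorem h5i_qpos : 0 < q := (Fact.out : q.Prime).pos

/-- `diag(q,1) · g = conjH(g) · diag(q,1)`. -/
theorem h5i_conjH_rel (g : Gamma0 (M * q)) :
    heckeRep q ∞ * h5h_ι (M * q) g = h5h_ι M (h6_conjH M q h5i_qpos g) * heckeRep q ∞ := by
  have hq0 : q ≠ 0 := (Fact.out : q.Prime).ne_zero
  obtain ⟨c, hc⟩ : (q : ℤ) ∣ (g : SL(2, ℤ)) 1 0 :=
    dvd_trans (Dvd.intro_left _ rfl) (h6_dvd_of_mem M q g g.2)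
  have hqz : (q : ℤ) ≠ 0 := by exact_mod_cast hq0
  have e10 : ((h6_conjH M q h5i_qpos g : Gamma0 M) : SL(2, ℤ)) 1 0 = c := by
    show h6_conjMat q _ 1 0 = c
    simp only [h6_conjMat, Matrix.of_apply, Matrix.cons_val', Matrix.cons_val_zero,
      Matrix.cons_val_one]
    rw [hc, Int.mul_ediv_cancel_left _ hqz]
  have e00 : ((h6_conjH M q h5i_qpos g : Gamma0 M) : SL(2, ℤ)) 0 0 = (g : SL(2, ℤ)) 0 0 := rfl
  have e01 : ((h6_conjH M q h5i_qpos g : Gamma0 M) : SL(2, ℤ)) 0 1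
      = (q : ℤ) * (g : SL(2, ℤ)) 0 1 := rfl
  have e11 : ((h6_conjH M q h5i_qpos g : Gamma0 M) : SL(2, ℤ)) 1 1 = (g : SL(2, ℤ)) 1 1 := rfl
  apply Matrix.GeneralLinearGroup.ext
  intro i j
  rw [Matrix.GeneralLinearGroup.coe_mul, Matrix.GeneralLinearGroup.coe_mul, Matrix.mul_apply,
    Matrix.mul_apply, Fin.sum_univ_two, Fin.sum_univ_two, heckeRep_infty,
    ModularForm.val_heckeDiagMatrix hq0, h5h_ι_apply, h5h_ι_apply]
  fin_cases i <;> fin_cases j <;>
    simp only [Fin.zero_eta, Fin.mk_one, Fin.isValue, mapGL_apply, e00, e01, e10, e11,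
      Matrix.of_apply, Matrix.cons_val', Matrix.cons_val_zero, Matrix.cons_val_one,
      Matrix.cons_val_fin_one] <;>
    push_cast <;> try ring
  rw [hc]; push_cast; ring

/-- Pull-back along `incl` as a family. -/
def h5i_inclFam (M q : ℕ) : h5f_Fam (GL (Fin 2) ℝ) (Gamma0 M) (Gamma0 (M * q)) Unit :=
  h5f_ofHom (h5h_ι M) (h5h_ι (M * q)) (h5h_ι_inj M) (h6_incl M q) 1
    (fun g => by rw [one_mul, mul_one]; rfl)

/-- Pull-back along `conjH` as a family. -/
def h5i_conjHFam (M q : ℕ) [Fact q.Prime] :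
    h5f_Fam (GL (Fin 2) ℝ) (Gamma0 M) (Gamma0 (M * q)) Unit :=
  h5f_ofHom (h5h_ι M) (h5h_ι (M * q)) (h5h_ι_inj M) (h6_conjH M q h5i_qpos) (heckeRep q ∞)
    h5i_conjH_rel

omit [Fact q.Prime] in
theorem h5i_inclFam_op (φ : Additive (Gamma0 M) →+ A) :
    (h5i_inclFam M q).op A φ = h6_pull A (h6_incl M q) φ := by
  refine AddMonoidHom.ext fun g => ?_
  exact h5f_ofHom_op _ _ _ _ _ _ φ (Additive.toMul g)

theorem h5i_conjHFam_op (φ : Additive (Gamma0 M) →+ A) :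
    (h5i_conjHFam M q).op A φ = h6_pull A (h6_conjH M q h5i_qpos) φ := by
  refine AddMonoidHom.ext fun g => ?_
  exact h5f_ofHom_op _ _ _ _ _ _ φ (Additive.toMul g)

theorem h5i_card : Fintype.card (OnePoint (ZMod q)) = q + 1 := by
  have : NeZero q := ⟨(Fact.out : q.Prime).ne_zero⟩
  rw [show Fintype.card (OnePoint (ZMod q)) = Fintype.card (Option (ZMod q)) from rfl,
    Fintype.card_option, ZMod.card]

/-- the basic telescoping sum for an orbit family -/
theorem h5i_telescope {Γ : Type*} [Group Γ] {I : Type*} [Fintype I] (φ : Additive Γ →+ A)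
    (r : I → Γ) (σ : Equiv.Perm I) (g : Γ) :
    ∑ x, φ (Additive.ofMul (r x * g * (r (σ x))⁻¹)) = Fintype.card I • φ (Additive.ofMul g) := by
  simp_rw [ofMul_mul, ofMul_inv, map_add, map_neg]
  rw [Finset.sum_add_distrib, Finset.sum_add_distrib, Finset.sum_neg_distrib,
    Equiv.sum_comp σ (fun x => φ (Additive.ofMul (r x))), Finset.sum_const, Finset.card_univ]
  abel

variable (hqM : ¬ q ∣ M)

/-- **`α' ∘ α = q + 1`.** -/
theorem h5i_cores_incl (φ : Additive (Gamma0 M) →+ A) :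
    (h5c_cores hqM).op A (h6_pull A (h6_incl M q) φ) = (q + 1) • φ := by
  refine AddMonoidHom.ext fun g' => ?_
  set g : Gamma0 M := Additive.toMul g'
  rw [← h5i_card (q := q)]
  exact h5i_telescope φ _ ((h5c_cores hqM).σ g) g

theorem h5i_central (X : GL (Fin 2) ℝ) :
    (heckeRep q ∞ * heckeRep q ((0 : ZMod q) : OnePoint (ZMod q))) * X
      = X * (heckeRep q ∞ * heckeRep q ((0 : ZMod q) : OnePoint (ZMod q))) := by
  have hq0 : q ≠ 0 := (Fact.out : q.Prime).ne_zero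
  apply Matrix.GeneralLinearGroup.ext
  intro i j
  simp only [Matrix.GeneralLinearGroup.coe_mul, Matrix.mul_apply, Fin.sum_univ_two,
    heckeRep_infty, heckeRep_coe, ModularForm.val_heckeDiagMatrix hq0,
    ModularForm.val_heckeMatrix hq0, ZMod.val_zero]
  fin_cases i <;> fin_cases j <;> simp <;> ring

/-- `conjH ∘ κ₀ = id` on the stabiliser of `0`. -/
theorem h5i_conjH_κzero (k : Gamma0 M)
    (hk : h5h_act q (k : SL(2, ℤ)) ((0 : ZMod q) : OnePoint (ZMod q))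
      = ((0 : ZMod q) : OnePoint (ZMod q))) :
    h6_conjH M q h5i_qpos (h5c_κzero hqM k hk) = k := by
  apply h5h_ι_inj M
  have h1 := h5c_κzero_spec hqM k hk
  have h2 := h5i_conjH_rel (M := M) (h5c_κzero hqM k hk)
  have h3 : h5h_ι M (h6_conjH M q h5i_qpos (h5c_κzero hqM k hk))
      * (heckeRep q ∞ * heckeRep q ((0 : ZMod q) : OnePoint (ZMod q)))
      = h5h_ι M k * (heckeRep q ∞ * heckeRep q ((0 : ZMod q) : OnePoint (ZMod q))) := by
    rw [← mul_assoc, ← h2, mul_assoc, ← h1, ← mul_assoc, h5i_central]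
  exact mul_right_cancel h3

/-- **`β' ∘ β = q + 1`.** -/
theorem h5i_coresH_conjH (φ : Additive (Gamma0 M) →+ A) :
    (h5c_coresH hqM).op A (h6_pull A (h6_conjH M q h5i_qpos) φ) = (q + 1) • φ := by
  refine AddMonoidHom.ext fun g' => ?_
  set g : Gamma0 M := Additive.toMul g'
  have h := h5i_telescope φ (h5c_secZero hqM) ((h5c_coresH hqM).σ g) g
  rw [h5i_card] at h
  change ∑ x, φ (Additive.ofMul (h6_conjH M q h5i_qpos ((h5c_coresH hqM).δ g x)))
    = (q + 1) • φ (Additive.ofMul g)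
  rw [← h]
  refine Finset.sum_congr rfl fun x _ => ?_
  congr 2
  exact h5i_conjH_κzero hqM _ (h5o_stab (fun g : Gamma0 M => h5h_act q (g : SL(2, ℤ)))
    (fun _ _ x => h5h_act_mul q _ _ x) ((0 : ZMod q) : OnePoint (ZMod q)) (h5c_secZero hqM)
    (h5c_secZero_spec hqM) g x)

include hqM in
theorem h5i_match_inf (x : OnePoint (ZMod q)) :
    ∃ ε : Gamma0 M, heckeRep q x
      = h5h_ι M ε * (heckeRep q ∞ * (1 * h5h_ι M (h5c_secInf hqM x))) := by
  obtain ⟨g', hg'⟩ := h5h_hecke_exists M q hqM (h5c_secInf hqM x) ∞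
  rw [h5c_secInf_spec hqM x] at hg'
  exact ⟨g'⁻¹, by rw [one_mul, hg', ← mul_assoc, ← map_mul, inv_mul_cancel, map_one, one_mul]⟩

include hqM in
theorem h5i_match_zero (x : OnePoint (ZMod q)) :
    ∃ ε : Gamma0 M, heckeRep q x
      = h5h_ι M ε * (1 * (heckeRep q ((0 : ZMod q) : OnePoint (ZMod q))
          * h5h_ι M (h5c_secZero hqM x))) := by
  obtain ⟨g', hg'⟩ := h5h_hecke_exists M q hqM (h5c_secZero hqM x)
    ((0 : ZMod q) : OnePoint (ZMod q))
  rw [h5c_secZero_spec hqM x] at hg'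
  exact ⟨g'⁻¹, by rw [one_mul, hg', ← mul_assoc, ← map_mul, inv_mul_cancel, map_one, one_mul]⟩

/-- **`α' ∘ β = T_q`.** -/
theorem h5i_cores_conjH (φ : Additive (Gamma0 M) →+ A) :
    (h5c_cores hqM).op A (h6_pull A (h6_conjH M q h5i_qpos) φ) = h5h_T M q hqM A φ := by
  rw [← h5i_conjHFam_op, ← h5f_Fam.op_comp (h5i_conjHFam M q) (h5c_cores hqM) rfl, h5h_T]
  congr 1
  choose ε hε using h5i_match_inf (M := M) (q := q) hqM
  refine h5f_Fam.op_eq_of_match _ _ rfl rfl (Equiv.prodPUnit _) (fun yx => ε yx.1) ?_ ?_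
  · rintro ⟨x, u⟩
    exact hε x
  · rintro g ⟨x, u⟩
    rfl

/-- **`β' ∘ α = T_q`.** -/
theorem h5i_coresH_incl (φ : Additive (Gamma0 M) →+ A) :
    (h5c_coresH hqM).op A (h6_pull A (h6_incl M q) φ) = h5h_T M q hqM A φ := by
  rw [← h5i_inclFam_op, ← h5f_Fam.op_comp (h5i_inclFam M q) (h5c_coresH hqM) rfl, h5h_T]
  congr 1
  choose ε hε using h5i_match_zero (M := M) (q := q) hqM
  refine h5f_Fam.op_eq_of_match _ _ rfl rfl (Equiv.prodPUnit _) (fun yx => ε yx.1) ?_ ?_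
  · rintro ⟨x, u⟩
    exact hε x
  · rintro g ⟨x, u⟩
    rfl

end Fermat.Agent.Lib.S41
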