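import Mathlib
import Fermat.Agent.Lib.S41.H5Ident

/-!
# Project S41, layer [H]: `T_ℓ` commutes with `α = res` and `β = resH`

Owner: helper5.
-/

set_option autoImplicit false

open P2MW.S_ModularForm_heckeT_slash_eq_self_of_mem_Gamma0.ModularForm.HeckeSlashInvariance
open P2MW.S_ModularForm_heckeT_slash_eq_self_of_mem_Gamma0.ModularForm
open CongruenceSubgroup Matrix.SpecialLinearGroup
open scoped MatrixGroups OnePoint

noncomputable section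

namespace Fermat.Agent.Lib.S41

variable {M q ℓ : ℕ} [Fact q.Prime] [Fact ℓ.Prime] {A : Type*} [AddCommGroup A]

omit [Fact q.Prime] in
/-- **`T_ℓ ∘ α = α ∘ T_ℓ`.** -/
theorem h5m_T_incl (hℓ : ¬ ℓ ∣ M) (hℓ' : ¬ ℓ ∣ M * q) (φ : Additive (Gamma0 M) →+ A) :
    h5h_T (M * q) ℓ hℓ' A (h6_pull A (h6_incl M q) φ)
      = h6_pull A (h6_incl M q) (h5h_T M ℓ hℓ A φ) := by
  rw [← h5i_inclFam_op, ← h5i_inclFam_op, h5h_T, h5h_T,
    ← h5f_Fam.op_comp (h5i_inclFam M q) (h5h_heckeFam (M * q) ℓ hℓ') rfl,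
    ← h5f_Fam.op_comp (h5h_heckeFam M ℓ hℓ) (h5i_inclFam M q) rfl]
  congr 1
  refine h5f_Fam.op_eq_of_match _ _ rfl rfl (Equiv.prodComm _ _) (fun _ => 1) ?_ ?_
  · rintro ⟨y, u⟩
    show heckeRep ℓ y * 1 = h5h_ι M 1 * (1 * heckeRep ℓ y)
    rw [map_one, one_mul, one_mul, mul_one]
  · rintro g ⟨y, u⟩
    rfl

omit [Fact ℓ.Prime] in
theorem h5m_entries_U (hℓ0 : ℓ ≠ 0) (γ : SL(2, ℤ)) (n : ℕ) (i : Fin 2) :
    ((mapGL ℝ γ * ModularForm.heckeMatrix ℓ n : GL (Fin 2) ℝ) : Matrix (Fin 2) (Fin 2) ℝ) i 0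
      = ((γ i 0 : ℤ) : ℝ) ∧
    ((mapGL ℝ γ * ModularForm.heckeMatrix ℓ n : GL (Fin 2) ℝ) : Matrix (Fin 2) (Fin 2) ℝ) i 1
      = ((γ i 0 * (n : ℤ) + γ i 1 * (ℓ : ℤ) : ℤ) : ℝ) := by
  simp only [Matrix.GeneralLinearGroup.coe_mul, Matrix.mul_apply, Fin.sum_univ_two,
    ModularForm.val_heckeMatrix hℓ0, mapGL_apply]
  constructor
  · simp
  · simp

omit [Fact ℓ.Prime] in
theorem h5m_entries_D (hℓ0 : ℓ ≠ 0) (γ : SL(2, ℤ)) (i : Fin 2) :
    ((mapGL ℝ γ * ModularForm.heckeDiagMatrix ℓ : GL (Fin 2) ℝ) : Matrix (Fin 2) (Fin 2) ℝ) i 0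
      = ((γ i 0 * (ℓ : ℤ) : ℤ) : ℝ) ∧
    ((mapGL ℝ γ * ModularForm.heckeDiagMatrix ℓ : GL (Fin 2) ℝ) : Matrix (Fin 2) (Fin 2) ℝ) i 1
      = ((γ i 1 : ℤ) : ℝ) := by
  simp only [Matrix.GeneralLinearGroup.coe_mul, Matrix.mul_apply, Fin.sum_univ_two,
    ModularForm.val_heckeDiagMatrix hℓ0, mapGL_apply]
  constructor
  · simp
  · simp

/-- The cosets `Γ · heckeRep ℓ x` are pairwise distinct. -/
theorem h5m_heckeRep_distinct (x x' : OnePoint (ZMod ℓ)) (γ : SL(2, ℤ))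
    (h : heckeRep ℓ x = mapGL ℝ γ * heckeRep ℓ x') : x = x' := by
  have hℓ : ℓ.Prime := Fact.out
  have hℓ0 : ℓ ≠ 0 := hℓ.ne_zero
  have hnd : ∀ k : ℤ, k * (ℓ : ℤ) ≠ 1 := by
    intro k hk
    have h1 : (ℓ : ℤ) ∣ 1 := Dvd.intro_left k hk
    have h2 : ((ℓ : ℕ) : ℤ) ∣ ((1 : ℕ) : ℤ) := by simpa using h1
    exact hℓ.one_lt.ne' (Nat.dvd_one.mp (Int.natCast_dvd_natCast.mp h2))
  induction x using OnePoint.rec with
  | infty =>
    induction x' using OnePoint.rec with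
    | infty => rfl
    | coe j' =>
      exfalso
      rw [heckeRep_infty, heckeRep_coe] at h
      have e0 := (h5m_entries_U hℓ0 γ j'.val 1).1
      have e1 := (h5m_entries_U hℓ0 γ j'.val 1).2
      rw [← h, ModularForm.val_heckeDiagMatrix hℓ0] at e0 e1
      simp only [Matrix.of_apply, Matrix.cons_val', Matrix.cons_val_zero, Matrix.cons_val_one,
        Matrix.cons_val_fin_one] at e0 e1
      have h10 : γ 1 0 = 0 := by exact_mod_cast e0.symm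
      have h11 : γ 1 0 * (j'.val : ℤ) + γ 1 1 * (ℓ : ℤ) = 1 := by exact_mod_cast e1.symm
      rw [h10, zero_mul, zero_add] at h11
      exact hnd _ h11
  | coe j =>
    induction x' using OnePoint.rec with
    | infty =>
      exfalso
      rw [heckeRep_infty, heckeRep_coe] at h
      have e0 := (h5m_entries_D hℓ0 γ 0).1
      rw [← h, ModularForm.val_heckeMatrix hℓ0] at e0
      simp only [Matrix.of_apply, Matrix.cons_val', Matrix.cons_val_zero,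
        Matrix.cons_val_fin_one] at e0
      have h00 : γ 0 0 * (ℓ : ℤ) = 1 := by exact_mod_cast e0.symm
      exact hnd _ h00
    | coe j' =>
      rw [heckeRep_coe, heckeRep_coe] at h
      have e0 := (h5m_entries_U hℓ0 γ j'.val 0).1
      have e1 := (h5m_entries_U hℓ0 γ j'.val 0).2
      rw [← h, ModularForm.val_heckeMatrix hℓ0] at e0 e1
      simp only [Matrix.of_apply, Matrix.cons_val', Matrix.cons_val_zero, Matrix.cons_val_one,
        Matrix.cons_val_fin_one] at e0 e1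
      have h00 : γ 0 0 = 1 := by exact_mod_cast e0.symm
      have h01 : (j.val : ℤ) = γ 0 0 * (j'.val : ℤ) + γ 0 1 * (ℓ : ℤ) := by exact_mod_cast e1
      rw [h00, one_mul] at h01
      have h2 := congrArg (Int.cast : ℤ → ZMod ℓ) h01
      push_cast at h2
      rw [ZMod.natCast_zmod_val, ZMod.natCast_zmod_val, ZMod.natCast_self, mul_zero, add_zero] at h2
      rw [h2]

/-- Multiplication by `q` on `P¹(𝔽_ℓ)`. -/
def h5m_mulq (hqℓ : ((q : ℕ) : ZMod ℓ) ≠ 0) : OnePoint (ZMod ℓ) ≃ OnePoint (ZMod ℓ) :=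
  Equiv.optionCongr (Equiv.mulLeft₀ ((q : ℕ) : ZMod ℓ) hqℓ)

omit [Fact q.Prime] in
theorem h5m_mulq_infty (hqℓ : ((q : ℕ) : ZMod ℓ) ≠ 0) :
    h5m_mulq hqℓ (∞ : OnePoint (ZMod ℓ)) = ∞ := rfl

omit [Fact q.Prime] in
theorem h5m_mulq_coe (hqℓ : ((q : ℕ) : ZMod ℓ) ≠ 0) (j : ZMod ℓ) :
    h5m_mulq hqℓ (j : OnePoint (ZMod ℓ)) = (((q : ℕ) : ZMod ℓ) * j : ZMod ℓ) := rfl

/-- `T^t` as an element of `Γ₀(M)`. -/
def h5m_Tpow (M : ℕ) (t : ℤ) : Gamma0 M :=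
  ⟨ModularGroup.T ^ t, by
    rw [Gamma0_mem, ModularGroup.coe_T_zpow]
    simp⟩

theorem h5m_match (hqℓ : ((q : ℕ) : ZMod ℓ) ≠ 0) (y : OnePoint (ZMod ℓ)) :
    ∃ ε : Gamma0 M, heckeRep ℓ (h5m_mulq hqℓ y) * heckeRep q ∞
      = h5h_ι M ε * (heckeRep q ∞ * heckeRep ℓ y) := by
  have hℓ0 : ℓ ≠ 0 := (Fact.out : ℓ.Prime).ne_zero
  have hq0 : q ≠ 0 := (Fact.out : q.Prime).ne_zero
  induction y using OnePoint.rec with
  | infty =>
    refine ⟨1, ?_⟩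
    rw [h5m_mulq_infty, map_one, one_mul, heckeRep_infty, heckeRep_infty]
    apply Matrix.GeneralLinearGroup.ext
    intro i j
    simp only [Matrix.GeneralLinearGroup.coe_mul, Matrix.mul_apply, Fin.sum_univ_two,
      ModularForm.val_heckeDiagMatrix hℓ0, ModularForm.val_heckeDiagMatrix hq0]
    fin_cases i <;> fin_cases j <;> simp <;> ring
  | coe j =>
    set a : ℕ := (((q : ℕ) : ZMod ℓ) * j).val with ha
    set b : ℕ := j.val with hb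
    obtain ⟨t, ht⟩ : (ℓ : ℤ) ∣ (a : ℤ) - (q : ℤ) * (b : ℤ) := by
      rw [← ZMod.intCast_zmod_eq_zero_iff_dvd]
      push_cast
      rw [ha, hb, ZMod.natCast_zmod_val, ZMod.natCast_zmod_val, sub_self]
    refine ⟨h5m_Tpow M t, ?_⟩
    rw [h5m_mulq_coe, heckeRep_coe, heckeRep_coe, heckeRep_infty, h5h_ι_apply]
    show ModularForm.heckeMatrix ℓ a * _ = mapGL ℝ (ModularGroup.T ^ t) * (_ * ModularForm.heckeMatrix ℓ b)
    apply Matrix.GeneralLinearGroup.ext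
    intro i k
    have htr : (a : ℝ) = (q : ℝ) * (b : ℝ) + (ℓ : ℝ) * (t : ℝ) := by
      have := congrArg (Int.cast : ℤ → ℝ) ht
      push_cast at this
      linarith
    simp only [Matrix.GeneralLinearGroup.coe_mul, Matrix.mul_apply, Fin.sum_univ_two,
      ModularForm.val_heckeDiagMatrix hq0, ModularForm.val_heckeMatrix hℓ0, mapGL_apply,
      ModularGroup.coe_T_zpow]
    fin_cases i <;> fin_cases k <;> simp
    linarith

/-- **`T_ℓ ∘ β = β ∘ T_ℓ`.** -/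
theorem h5m_T_conjH (hℓ : ¬ ℓ ∣ M) (hℓ' : ¬ ℓ ∣ M * q) (hqℓ : ((q : ℕ) : ZMod ℓ) ≠ 0)
    (φ : Additive (Gamma0 M) →+ A) :
    h5h_T (M * q) ℓ hℓ' A (h6_pull A (h6_conjH M q h5i_qpos) φ)
      = h6_pull A (h6_conjH M q h5i_qpos) (h5h_T M ℓ hℓ A φ) := by
  rw [← h5i_conjHFam_op, ← h5i_conjHFam_op, h5h_T, h5h_T,
    ← h5f_Fam.op_comp (h5i_conjHFam M q) (h5h_heckeFam (M * q) ℓ hℓ') rfl,
    ← h5f_Fam.op_comp (h5h_heckeFam M ℓ hℓ) (h5i_conjHFam M q) rfl]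
  congr 1
  choose ε hε using h5m_match (M := M) (q := q) (ℓ := ℓ) hqℓ
  refine h5f_Fam.op_eq_of_match' _ _ rfl rfl
    ((Equiv.prodComm _ _).trans (Equiv.prodCongr (Equiv.refl Unit) (h5m_mulq hqℓ)))
    (fun yu => ε yu.1) ?_ ?_
  · rintro ⟨y, u⟩
    exact hε y
  · rintro ⟨u, x⟩ ⟨u', x'⟩ γ h
    have h1 : heckeRep ℓ x * heckeRep q ∞ = h5h_ι M γ * (heckeRep ℓ x' * heckeRep q ∞) := h
    rw [← mul_assoc] at h1
    have h2 := h5m_heckeRep_distinct x x' (γ : SL(2, ℤ)) (mul_right_cancel h1)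
    rw [h2]

end Fermat.Agent.Lib.S41
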