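import Mathlib
import Fermat.Agent.Lib.S41.H5Hecke
import Fermat.Agent.Lib.S41.H5Comm
import Fermat.Agent.Lib.S41.H2Drift

/-!
# S41, layer [A′] (part 2): the averaging argument

Owner: helper2.  For a character `z : Γ₀(N) → 𝔽_p` satisfying the drift relation `h2v_Drift`
(part 1) and an element `g ∈ Γ₀(N)` with lower-left entry `c ≠ 0`, a prime `ℓ ≡ 1 mod c` and
`m` with `q^(2m) ≡ 1 mod c` such that `p` divides the order of `q^(2m)` in `(ℤ/ℓ)ˣ`: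
`(T_ℓ z)(g) = 2 z(g)`  (`h2v_T_apply_eq`).
The `ℓ - 1` Hecke terms of level `ℓ c` are permuted freely by multiplication by `q^(2m)`,
each orbit contributing `0` mod `p` (`h2v_sum_eq_zero_of_shift`).
-/

set_option autoImplicit false

open P2MW.S_ModularForm_heckeT_slash_eq_self_of_mem_Gamma0.ModularForm.HeckeSlashInvariance
open P2MW.S_ModularForm_heckeT_slash_eq_self_of_mem_Gamma0.ModularForm
open CongruenceSubgroup Matrix.SpecialLinearGroup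
open scoped MatrixGroups OnePoint

noncomputable section

namespace Fermat.Agent.Lib.S41

section rows

variable {ℓ : ℕ}

theorem h2v_entries_UL (hℓ0 : ℓ ≠ 0) (n : ℕ) (g : SL(2, ℤ)) (j : Fin 2) :
    ((ModularForm.heckeMatrix ℓ n * mapGL ℝ g : GL (Fin 2) ℝ) : Matrix (Fin 2) (Fin 2) ℝ) 1 j
      = (ℓ : ℝ) * ((g 1 j : ℤ) : ℝ) := by
  simp only [Matrix.GeneralLinearGroup.coe_mul, Matrix.mul_apply, Fin.sum_univ_two,
    ModularForm.val_heckeMatrix hℓ0, mapGL_apply]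
  simp

theorem h2v_entries_DL (hℓ0 : ℓ ≠ 0) (g : SL(2, ℤ)) (j : Fin 2) :
    ((ModularForm.heckeDiagMatrix ℓ * mapGL ℝ g : GL (Fin 2) ℝ) : Matrix (Fin 2) (Fin 2) ℝ) 1 j
      = ((g 1 j : ℤ) : ℝ) := by
  simp only [Matrix.GeneralLinearGroup.coe_mul, Matrix.mul_apply, Fin.sum_univ_two,
    ModularForm.val_heckeDiagMatrix hℓ0, mapGL_apply]
  simp

theorem h2v_row_UU (hℓ0 : ℓ ≠ 0) (g g' : SL(2, ℤ)) (n n' : ℕ)
    (h : ModularForm.heckeMatrix ℓ n * mapGL ℝ g = mapGL ℝ g' * ModularForm.heckeMatrix ℓ n') :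
    g' 1 0 = (ℓ : ℤ) * g 1 0 ∧ g' 1 1 = g 1 1 - g 1 0 * (n' : ℤ) := by
  have e0 := (h5m_entries_U hℓ0 g' n' 1).1
  have e1 := (h5m_entries_U hℓ0 g' n' 1).2
  rw [← h, h2v_entries_UL hℓ0] at e0 e1
  have h0 : (ℓ : ℤ) * g 1 0 = g' 1 0 := by exact_mod_cast e0
  have h1 : (ℓ : ℤ) * g 1 1 = g' 1 0 * (n' : ℤ) + g' 1 1 * (ℓ : ℤ) := by exact_mod_cast e1
  refine ⟨h0.symm, ?_⟩
  have hℓz : (ℓ : ℤ) ≠ 0 := by exact_mod_cast hℓ0
  apply mul_left_cancel₀ hℓz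
  rw [← h0] at h1
  linear_combination -h1

theorem h2v_row_UD (hℓ0 : ℓ ≠ 0) (g g' : SL(2, ℤ)) (n : ℕ)
    (h : ModularForm.heckeMatrix ℓ n * mapGL ℝ g = mapGL ℝ g' * ModularForm.heckeDiagMatrix ℓ) :
    g' 1 0 = g 1 0 ∧ g' 1 1 = (ℓ : ℤ) * g 1 1 := by
  have e0 := (h5m_entries_D hℓ0 g' 1).1
  have e1 := (h5m_entries_D hℓ0 g' 1).2
  rw [← h, h2v_entries_UL hℓ0] at e0 e1
  have h0 : (ℓ : ℤ) * g 1 0 = g' 1 0 * (ℓ : ℤ) := by exact_mod_cast e0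
  have h1 : (ℓ : ℤ) * g 1 1 = g' 1 1 := by exact_mod_cast e1
  refine ⟨?_, h1.symm⟩
  have hℓz : (ℓ : ℤ) ≠ 0 := by exact_mod_cast hℓ0
  apply mul_left_cancel₀ hℓz
  linear_combination -h0

theorem h2v_row_DU (hℓ0 : ℓ ≠ 0) (g g' : SL(2, ℤ)) (n' : ℕ)
    (h : ModularForm.heckeDiagMatrix ℓ * mapGL ℝ g = mapGL ℝ g' * ModularForm.heckeMatrix ℓ n') :
    g' 1 0 = g 1 0 ∧ (ℓ : ℤ) * g' 1 1 = g 1 1 - g 1 0 * (n' : ℤ) := by
  have e0 := (h5m_entries_U hℓ0 g' n' 1).1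
  have e1 := (h5m_entries_U hℓ0 g' n' 1).2
  rw [← h, h2v_entries_DL hℓ0] at e0 e1
  have h0 : g 1 0 = g' 1 0 := by exact_mod_cast e0
  have h1 : g 1 1 = g' 1 0 * (n' : ℤ) + g' 1 1 * (ℓ : ℤ) := by exact_mod_cast e1
  refine ⟨h0.symm, ?_⟩
  rw [← h0] at h1
  linear_combination -h1

end rows

section avg
open Finset

/-- iterated shift -/
theorem h2v_shift_pow {G : Type*} [CommGroup G] {p : ℕ} (g₀ : G) (f : G → ZMod p) (κ : ZMod p)
    (hf : ∀ u, f (g₀ * u) = f u + κ) (n : ℕ) (u : G) : f (g₀ ^ n * u) = f u + n • κ := by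
  induction n with
  | zero => simp
  | succ n ih =>
    rw [pow_succ', mul_assoc, hf, ih, succ_nsmul, add_assoc]

/-- **Averaging lemma.**  A function on a finite commutative group with values in `𝔽_p`
(`p` odd) which is shifted by a constant under translation by an element of order divisible by
`p` has total sum `0`. -/
theorem h2v_sum_eq_zero_of_shift {G : Type*} [CommGroup G] [Fintype G] {p : ℕ} [Fact p.Prime]
    (hp2 : p ≠ 2) (g₀ : G) (hg₀ : p ∣ orderOf g₀) (f : G → ZMod p) (κ : ZMod p)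
    (hf : ∀ u, f (g₀ * u) = f u + κ) : ∑ u, f u = 0 := by
  classical
  have hp : p.Prime := Fact.out
  have hord0 : orderOf g₀ ≠ 0 := (orderOf_pos g₀).ne'
  set g₁ : G := g₀ ^ (orderOf g₀ / p) with hg₁
  have hg₁ord : orderOf g₁ = p := orderOf_pow_orderOf_div hord0 hg₀
  set κ₁ : ZMod p := (orderOf g₀ / p) • κ with hκ₁
  have hf₁ : ∀ u, f (g₁ * u) = f u + κ₁ := fun u => h2v_shift_pow g₀ f κ hf _ u
  have hf₁' : ∀ (i : ℕ) (u : G), f (g₁ ^ i * u) = f u + i • κ₁ :=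
    fun i u => h2v_shift_pow g₁ f κ₁ hf₁ i u
  set H : Subgroup G := Subgroup.zpowers g₁ with hH
  rw [← Finset.sum_fiberwise univ (QuotientGroup.mk : G → G ⧸ H) f]
  refine Finset.sum_eq_zero fun c _ => ?_
  obtain ⟨r, rfl⟩ := QuotientGroup.mk_surjective c
  have hfib : (univ.filter fun u : G => (u : G ⧸ H) = (r : G ⧸ H))
      = (range p).image (fun i => g₁ ^ i * r) := by
    ext u
    simp only [mem_filter, mem_univ, true_and, mem_image, mem_range]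
    rw [eq_comm, QuotientGroup.eq, hH, mem_zpowers_iff_mem_range_orderOf, hg₁ord]
    simp only [mem_image, mem_range]
    constructor
    · rintro ⟨i, hi, h⟩
      exact ⟨i, hi, by rw [h, mul_comm, mul_inv_cancel_left]⟩
    · rintro ⟨i, hi, h⟩
      exact ⟨i, hi, by rw [← h, mul_comm (g₁ ^ i), inv_mul_cancel_left]⟩
  rw [hfib, Finset.sum_image]
  · simp_rw [hf₁']
    rw [Finset.sum_add_distrib, Finset.sum_const, card_range, ← Finset.sum_smul]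
    have h1 : (p : ℕ) • f r = 0 := by
      rw [nsmul_eq_mul, ZMod.natCast_self, zero_mul]
    have h2 : ((∑ i ∈ range p, i : ℕ) : ZMod p) = 0 := by
      have h3 := congrArg (Nat.cast : ℕ → ZMod p) (Finset.sum_range_id_mul_two p)
      push_cast at h3
      rw [ZMod.natCast_self, zero_mul] at h3
      have h4 : (2 : ZMod p) ≠ 0 := by
        intro h
        have : ((2 : ℕ) : ZMod p) = 0 := by exact_mod_cast h
        rw [ZMod.natCast_eq_zero_iff] at this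
        exact hp2 ((Nat.prime_dvd_prime_iff_eq hp Nat.prime_two).mp this)
      rcases mul_eq_zero.mp h3 with h | h
      · rw [Nat.cast_sum]; exact h
      · exact absurd h h4
    rw [h1, zero_add, nsmul_eq_mul, h2, zero_mul]
  · intro i hi j hj hij
    have hij' : g₁ ^ i = g₁ ^ j := mul_right_cancel hij
    apply pow_injOn_Iio_orderOf (x := g₁)
    · rw [hg₁ord]; exact mem_range.mp (by simpa using hi)
    · rw [hg₁ord]; exact mem_range.mp (by simpa using hj)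
    · exact hij'

end avg

section main

theorem h2v_sum_erase_zero {K : Type*} [Field K] [Fintype K] [DecidableEq K] {M : Type*}
    [AddCommMonoid M] (H : K → M) : ∑ v ∈ Finset.univ.erase (0 : K), H v = ∑ u : Kˣ, H u := by
  refine (Finset.sum_bij (fun (u : Kˣ) _ => (u : K)) ?_ ?_ ?_ ?_).symm
  · intro u _
    simp
  · intro u _ u' _ h
    exact Units.ext h
  · intro v hv
    have : v ≠ 0 := by simpa using hv
    exact ⟨Units.mk0 v this, Finset.mem_univ _, rfl⟩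
  · intros
    rfl

variable {N ℓ p q : ℕ} [Fact ℓ.Prime] [Fact p.Prime]

/-- **Averaging theorem (one element).** -/
theorem h2v_T_apply_eq (hℓN : ¬ ℓ ∣ N) (hp2 : p ≠ 2) (z : Additive (Gamma0 N) →+ ZMod p)
    (κ₀ : ZMod p) (hdr : h2v_Drift N q p z κ₀) (g : Gamma0 N)
    (hc0 : (g : SL(2, ℤ)) 1 0 ≠ 0) (hℓc : (g : SL(2, ℤ)) 1 0 ∣ (ℓ : ℤ) - 1) (m : ℕ)
    (hm : (g : SL(2, ℤ)) 1 0 ∣ (q : ℤ) ^ (2 * m) - 1) (g₀ : (ZMod ℓ)ˣ)
    (hg₀ : (g₀ : ZMod ℓ) = ((q : ℤ) : ZMod ℓ) ^ (2 * m)) (hord : p ∣ orderOf g₀) :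
    h5h_T N ℓ hℓN (ZMod p) z (Additive.ofMul g) = 2 • z (Additive.ofMul g) := by
  classical
  have hℓ : ℓ.Prime := Fact.out
  have hℓ0 : ℓ ≠ 0 := hℓ.ne_zero
  set F := h5h_heckeFam N ℓ hℓN with hF
  have hdet := (g : SL(2, ℤ)).det_coe
  rw [Matrix.det_fin_two] at hdet
  set a := (g : SL(2, ℤ)) 0 0 with ha
  set b := (g : SL(2, ℤ)) 0 1 with hb
  set c := (g : SL(2, ℤ)) 1 0 with hc
  set d := (g : SL(2, ℤ)) 1 1 with hd
  -- `c` is invertible mod `ℓ`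
  have hℓ1 : ¬ (ℓ : ℤ) ∣ 1 := by
    intro h
    have h2 : ((ℓ : ℕ) : ℤ) ∣ ((1 : ℕ) : ℤ) := by simpa using h
    exact hℓ.one_lt.ne' (Nat.dvd_one.mp (Int.natCast_dvd_natCast.mp h2))
  have hcℓ' : ¬ (ℓ : ℤ) ∣ c := by
    intro h0
    have h1 : (ℓ : ℤ) ∣ (ℓ : ℤ) - 1 := h0.trans hℓc
    exact hℓ1 (by simpa using dvd_sub (dvd_refl (ℓ : ℤ)) h1)
  have hcℓ : ((c : ℤ) : ZMod ℓ) ≠ 0 := by
    intro h0
    exact hcℓ' ((ZMod.intCast_zmod_eq_zero_iff_dvd _ _).mp h0)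
  have hcop : IsCoprime (ℓ : ℤ) c :=
    (Nat.prime_iff_prime_int.mp hℓ).coprime_iff_not_dvd.mpr hcℓ'
  obtain ⟨w, hw⟩ := hℓc
  obtain ⟨w', hw'⟩ := hm
  have hdetℓ : ((a : ℤ) : ZMod ℓ) * ((d : ℤ) : ZMod ℓ) - ((b : ℤ) : ZMod ℓ) * ((c : ℤ) : ZMod ℓ) = 1 := by
    have := congrArg (Int.cast : ℤ → ZMod ℓ) hdet
    push_cast at this
    exact this
  -- the defining relation of `δ`
  have hrel : ∀ x : OnePoint (ZMod ℓ), heckeRep ℓ x * mapGL ℝ (g : SL(2, ℤ))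
      = mapGL ℝ ((F.δ g x : Gamma0 N) : SL(2, ℤ)) * heckeRep ℓ (redMatrix ℓ (g : SL(2, ℤ)) • x) :=
    fun x => F.rel g x
  -- same bottom row mod `c` ⇒ same value
  have hsame : ∀ (γ₂ : Gamma0 N) (t : ℤ), (γ₂ : SL(2, ℤ)) 1 0 = c →
      (γ₂ : SL(2, ℤ)) 1 1 = d + t * c → z (Additive.ofMul γ₂) = z (Additive.ofMul g) := by
    intro γ₂ t h1 h2
    have := hdr 0 g γ₂ t hc0 h1 (by
      rw [h2]; simp only [Nat.mul_zero, pow_zero, one_mul]; rfl)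
    simpa using this
  -- the term `x = ∞`
  have hinf : z (Additive.ofMul (F.δ g ∞)) = z (Additive.ofMul g) := by
    have h := hrel ∞
    rw [OnePoint.smul_infty_eq_ite, if_neg (by rw [redMatrix_apply_one_zero]; exact hcℓ),
      heckeRep_infty, heckeRep_coe] at h
    obtain ⟨h10, h11⟩ := h2v_row_DU hℓ0 _ _ _ h
    set j₀ : ZMod ℓ := redMatrix ℓ (g : SL(2, ℤ)) 0 0 / redMatrix ℓ (g : SL(2, ℤ)) 1 0 with hj₀
    refine hsame _ (-(w * ((F.δ g ∞ : Gamma0 N) : SL(2, ℤ)) 1 1) - (j₀.val : ℤ)) h10 ?_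
    linear_combination h11 - (((F.δ g ∞ : Gamma0 N) : SL(2, ℤ)) 1 1) * hw
  -- the finite terms, parametrised by `v = c j + a`
  set cb : ZMod ℓ := ((c : ℤ) : ZMod ℓ) with hcb
  set ab : ZMod ℓ := ((a : ℤ) : ZMod ℓ) with hab
  set bb : ZMod ℓ := ((b : ℤ) : ZMod ℓ) with hbb
  set db : ZMod ℓ := ((d : ℤ) : ZMod ℓ) with hdb
  set J : ZMod ℓ → ZMod ℓ := fun v => cb⁻¹ * (v - ab) with hJ
  have hJv : ∀ v, cb * J v + ab = v := by
    intro v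
    rw [hJ]
    field_simp
    ring
  clear_value J
  -- `v = 0`
  have hzero : z (Additive.ofMul (F.δ g ((J 0 : ZMod ℓ) : OnePoint (ZMod ℓ)))) = z (Additive.ofMul g) := by
    have h := hrel ((J 0 : ZMod ℓ) : OnePoint (ZMod ℓ))
    rw [OnePoint.smul_some_eq_ite, if_pos (by
      rw [redMatrix_apply_one_zero, redMatrix_apply_one_one]; exact hJv 0),
      heckeRep_infty, heckeRep_coe] at h
    obtain ⟨h10, h11⟩ := h2v_row_UD hℓ0 _ _ _ h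
    refine hsame _ (w * d) h10 ?_
    rw [h11]
    linear_combination d * hw
  -- `v` a unit
  have hunit : ∀ u : (ZMod ℓ)ˣ,
      ((F.δ g ((J (u : ZMod ℓ) : ZMod ℓ) : OnePoint (ZMod ℓ)) : Gamma0 N) : SL(2, ℤ)) 1 0 = (ℓ : ℤ) * c ∧
      (c ∣ ((F.δ g ((J (u : ZMod ℓ) : ZMod ℓ) : OnePoint (ZMod ℓ)) : Gamma0 N) : SL(2, ℤ)) 1 1 - d) ∧
      ((((F.δ g ((J (u : ZMod ℓ) : ZMod ℓ) : OnePoint (ZMod ℓ)) : Gamma0 N) : SL(2, ℤ)) 1 1 : ℤ) : ZMod ℓ)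
        = ((u⁻¹ : (ZMod ℓ)ˣ) : ZMod ℓ) := by
    intro u
    have hune : cb * J (u : ZMod ℓ) + ab ≠ 0 := by rw [hJv]; exact u.ne_zero
    have h := hrel ((J (u : ZMod ℓ) : ZMod ℓ) : OnePoint (ZMod ℓ))
    rw [OnePoint.smul_some_eq_ite, if_neg (by
      rw [redMatrix_apply_one_zero, redMatrix_apply_one_one]; exact hune),
      heckeRep_coe, heckeRep_coe] at h
    set y : ZMod ℓ := (redMatrix ℓ (g : SL(2, ℤ)) 0 0 * J (u : ZMod ℓ) + redMatrix ℓ (g : SL(2, ℤ)) 0 1) /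
      (redMatrix ℓ (g : SL(2, ℤ)) 1 0 * J (u : ZMod ℓ) + redMatrix ℓ (g : SL(2, ℤ)) 1 1) with hy
    obtain ⟨h10, h11⟩ := h2v_row_UU hℓ0 _ _ _ _ h
    refine ⟨h10, ?_, ?_⟩
    · rw [h11]
      exact Dvd.intro (-(y.val : ℤ)) (by ring)
    · rw [h11]
      push_cast
      rw [ZMod.natCast_zmod_val, hy, redMatrix_apply_zero_zero, redMatrix_apply_zero_one,
        redMatrix_apply_one_zero, redMatrix_apply_one_one]
      have hu0 : (u : ZMod ℓ) ≠ 0 := u.ne_zero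
      have hJu := hJv (u : ZMod ℓ)
      show db - cb * ((db * J (u : ZMod ℓ) + bb) / (cb * J (u : ZMod ℓ) + ab)) = (u : ZMod ℓ)⁻¹
      rw [hJu]
      field_simp
      linear_combination hdetℓ - (db) * hJu
  -- the function on units
  set f : (ZMod ℓ)ˣ → ZMod p := fun u =>
    z (Additive.ofMul (F.δ g ((J (u : ZMod ℓ) : ZMod ℓ) : OnePoint (ZMod ℓ)))) with hf
  have hshift : ∀ u, f (g₀⁻¹ * u) = f u + m • κ₀ := by
    intro u
    obtain ⟨h10, ⟨k, hk⟩, hD⟩ := hunit u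
    obtain ⟨h10', ⟨k', hk'⟩, hD'⟩ := hunit (g₀⁻¹ * u)
    have hℓdvd : (ℓ : ℤ) ∣
        ((F.δ g ((J ((g₀⁻¹ * u : (ZMod ℓ)ˣ) : ZMod ℓ) : ZMod ℓ) : OnePoint (ZMod ℓ)) : Gamma0 N) :
          SL(2, ℤ)) 1 1 - (q : ℤ) ^ (2 * m) *
        ((F.δ g ((J (u : ZMod ℓ) : ZMod ℓ) : OnePoint (ZMod ℓ)) : Gamma0 N) : SL(2, ℤ)) 1 1 := by
      rw [← ZMod.intCast_zmod_eq_zero_iff_dvd, Int.cast_sub, Int.cast_mul, hD, hD']
      have hg₀' : ((((q : ℤ) ^ (2 * m) : ℤ)) : ZMod ℓ) = (g₀ : ZMod ℓ) := by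
        rw [hg₀]; push_cast; rfl
      rw [hg₀', mul_inv_rev, inv_inv, Units.val_mul, mul_comm, sub_self]
    have hcdvd : c ∣
        ((F.δ g ((J ((g₀⁻¹ * u : (ZMod ℓ)ˣ) : ZMod ℓ) : ZMod ℓ) : OnePoint (ZMod ℓ)) : Gamma0 N) :
          SL(2, ℤ)) 1 1 - (q : ℤ) ^ (2 * m) *
        ((F.δ g ((J (u : ZMod ℓ) : ZMod ℓ) : OnePoint (ZMod ℓ)) : Gamma0 N) : SL(2, ℤ)) 1 1 :=
      ⟨k' - (q : ℤ) ^ (2 * m) * k - d * w',
        by linear_combination hk' - (q : ℤ) ^ (2 * m) * hk - d * hw'⟩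
    obtain ⟨t, ht⟩ := hcop.mul_dvd hℓdvd hcdvd
    refine hdr m _ _ t ?_ ?_ ?_
    · rw [h10]; exact mul_ne_zero (by exact_mod_cast hℓ0) hc0
    · rw [h10', h10]
    · rw [h10]; linear_combination ht
  have hsum : ∑ u, f u = 0 :=
    h2v_sum_eq_zero_of_shift hp2 g₀⁻¹ (by rwa [orderOf_inv]) f (m • κ₀) hshift
  -- assembling the sum
  have hJinv : ∀ j, J (cb * j + ab) = j := by
    intro j
    rw [hJ]
    field_simp
    ring
  set e : ZMod ℓ ≃ ZMod ℓ :=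
    { toFun := J, invFun := fun j => cb * j + ab, left_inv := hJv, right_inv := hJinv } with he
  rw [h5h_T, h5f_Fam.op_apply]
  change ∑ x : OnePoint (ZMod ℓ), z (Additive.ofMul (F.δ g x)) = _
  refine (Fintype.sum_option (fun x : OnePoint (ZMod ℓ) => z (Additive.ofMul (F.δ g x)))).trans ?_
  have h1 : ∑ j : ZMod ℓ, z (Additive.ofMul (F.δ g (some j)))
      = ∑ v : ZMod ℓ, z (Additive.ofMul (F.δ g ((J v : ZMod ℓ) : OnePoint (ZMod ℓ)))) :=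
    (Equiv.sum_comp e (fun j => z (Additive.ofMul (F.δ g (some j))))).symm
  rw [h1, ← Finset.add_sum_erase Finset.univ _ (Finset.mem_univ (0 : ZMod ℓ)),
    h2v_sum_erase_zero (fun v => z (Additive.ofMul (F.δ g ((J v : ZMod ℓ) : OnePoint (ZMod ℓ)))))]
  have h2 : ∑ u : (ZMod ℓ)ˣ, z (Additive.ofMul (F.δ g ((J (u : ZMod ℓ) : ZMod ℓ) : OnePoint (ZMod ℓ))))
      = 0 := hsum
  rw [h2, add_zero, hzero]
  have h3 : z (Additive.ofMul (F.δ g none)) = z (Additive.ofMul g) := hinf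
  rw [h3, two_nsmul]

end main
end Fermat.Agent.Lib.S41
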