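import Mathlib
import Fermat.Agent.Lib.S41.H5Comm

/-!
# Project S41, layer [H]: coset-family operators preserve parabolic homomorphisms

Owner: helper5.
-/

set_option autoImplicit false

open P2MW.S_ModularForm_heckeT_slash_eq_self_of_mem_Gamma0.ModularForm.HeckeSlashInvariance
open CongruenceSubgroup Matrix.SpecialLinearGroup ModularCurve.Period
open scoped MatrixGroups OnePoint

noncomputable section

namespace Fermat.Agent.Lib.S41

/-! ### Powers of parabolic elements -/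

theorem h5p_cayley (m : Matrix (Fin 2) (Fin 2) ℤ) (hdet : m.det = 1) :
    m * m = m.trace • m - 1 := by
  rw [Matrix.det_fin_two] at hdet
  ext i j
  rw [Matrix.mul_apply, Fin.sum_univ_two, Matrix.sub_apply, Matrix.smul_apply, Matrix.one_apply,
    Matrix.trace_fin_two, smul_eq_mul]
  fin_cases i <;> fin_cases j <;>
    simp only [Fin.zero_eta, Fin.mk_one, Fin.isValue, if_true, one_ne_zero, zero_ne_one, if_false] <;>
    first | linear_combination (-1 : ℤ) * hdet | linear_combination (0 : ℤ) * hdet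

theorem h5p_trace_rec (m : Matrix (Fin 2) (Fin 2) ℤ) (hdet : m.det = 1) (n : ℕ) :
    (m ^ (n + 2)).trace = m.trace * (m ^ (n + 1)).trace - (m ^ n).trace := by
  have h : m ^ (n + 2) = m.trace • m ^ (n + 1) - m ^ n := by
    rw [pow_add, pow_two, h5p_cayley m hdet, mul_sub, mul_one, Matrix.mul_smul, ← pow_succ]
  rw [h, Matrix.trace_sub, Matrix.trace_smul, smul_eq_mul]

theorem h5p_trace_pow (m : Matrix (Fin 2) (Fin 2) ℤ) (hdet : m.det = 1)
    (ht : m.trace ^ 2 = 4) (n : ℕ) :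
    (m ^ n).trace ^ 2 = 4 ∧ 2 * (m ^ (n + 1)).trace = m.trace * (m ^ n).trace := by
  induction n with
  | zero =>
    simp [Matrix.trace_fin_two]
    ring
  | succ n ih =>
    obtain ⟨h1, h2⟩ := ih
    have h3 := h5p_trace_rec m hdet n
    set t := m.trace
    set a := (m ^ n).trace
    set b := (m ^ (n + 1)).trace
    set c := (m ^ (n + 2)).trace
    have hb : b ^ 2 = 4 := by
      have : (2 * b) ^ 2 = 16 := by rw [h2, mul_pow, ht, h1]; norm_num
      nlinarith
    have htb : t * b = 2 * a := by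
      have : 2 * (t * b) = 2 * (2 * a) := by
        calc 2 * (t * b) = t * (2 * b) := by ring
          _ = t * (t * a) := by rw [h2]
          _ = t ^ 2 * a := by ring
          _ = 2 * (2 * a) := by rw [ht]; ring
      linarith
    refine ⟨hb, ?_⟩
    show 2 * c = t * b
    rw [h3, htb]
    ring

/-- Powers of a parabolic element of `SL(2,ℤ)` are parabolic. -/
theorem h5p_parabolic_pow (γ : SL(2, ℤ))
    (h : (γ : Matrix (Fin 2) (Fin 2) ℤ).trace ^ 2 = 4) (n : ℕ) :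
    ((γ ^ n : SL(2, ℤ)) : Matrix (Fin 2) (Fin 2) ℤ).trace ^ 2 = 4 := by
  rw [Matrix.SpecialLinearGroup.coe_pow]
  exact (h5p_trace_pow _ γ.2 h n).1

/-! ### Traces and conjugation in `GL₂(ℝ)` -/

theorem h5p_trace_mapGL (γ : SL(2, ℤ)) :
    ((mapGL ℝ γ : GL (Fin 2) ℝ) : Matrix (Fin 2) (Fin 2) ℝ).trace
      = (((γ : Matrix (Fin 2) (Fin 2) ℤ).trace : ℤ) : ℝ) := by
  rw [Matrix.trace_fin_two, Matrix.trace_fin_two, mapGL_apply, mapGL_apply]
  push_cast
  rfl

theorem h5p_trace_conj (b : GL (Fin 2) ℝ) (γ γ' : SL(2, ℤ))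
    (h : b * mapGL ℝ γ = mapGL ℝ γ' * b) :
    (γ' : Matrix (Fin 2) (Fin 2) ℤ).trace = (γ : Matrix (Fin 2) (Fin 2) ℤ).trace := by
  have h1 : mapGL ℝ γ' = b * mapGL ℝ γ * b⁻¹ := by rw [h, mul_inv_cancel_right]
  have h2 : ((mapGL ℝ γ' : GL (Fin 2) ℝ) : Matrix (Fin 2) (Fin 2) ℝ).trace
      = ((mapGL ℝ γ : GL (Fin 2) ℝ) : Matrix (Fin 2) (Fin 2) ℝ).trace := by
    rw [h1, Matrix.GeneralLinearGroup.coe_mul, Matrix.GeneralLinearGroup.coe_mul,
      Matrix.trace_mul_comm, ← Matrix.mul_assoc, ← Matrix.GeneralLinearGroup.coe_mul,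
      inv_mul_cancel, Matrix.GeneralLinearGroup.coe_one, Matrix.one_mul]
  rw [h5p_trace_mapGL, h5p_trace_mapGL] at h2
  exact_mod_cast h2

/-! ### Parabolic preservation -/

section

variable {M₁ M₂ : ℕ} {I : Type*} [Fintype I] {A : Type*} [AddCommGroup A]

omit [Fintype I] in
theorem h5p_σ_pow (F : h5f_Fam (GL (Fin 2) ℝ) (Gamma0 M₁) (Gamma0 M₂) I) (g : Gamma0 M₂) (n : ℕ)
    (x : I) : F.σ (g ^ n) x = ((F.σ g) ^ n) x := by
  induction n generalizing x with
  | zero =>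
    rw [pow_zero, pow_zero]
    exact h5o_σ_one F.σ F.σ_mul x
  | succ n ih =>
    rw [pow_succ, F.σ_mul, ih, pow_succ']
    rfl

/-- A coset family (inside `GL₂(ℝ)`, between `Γ₀`-groups) preserves parabolic homomorphisms with
values in a torsion-free group. -/
theorem h5p_op_parabolic (F : h5f_Fam (GL (Fin 2) ℝ) (Gamma0 M₁) (Gamma0 M₂) I)
    (h1 : F.ι₁ = h5h_ι M₁) (h2 : F.ι₂ = h5h_ι M₂)
    (hA : ∀ (n : ℕ) (a : A), n ≠ 0 → n • a = 0 → a = 0)
    (φ : Additive (Gamma0 M₁) →+ A) (hφ : IsParabolicHom (Gamma0 M₁) φ) :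
    IsParabolicHom (Gamma0 M₂) (F.op A φ) := by
  classical
  intro g hg
  set n := orderOf (F.σ g) with hn
  have hn0 : n ≠ 0 := (orderOf_pos (F.σ g)).ne'
  apply hA n _ hn0
  rw [← map_nsmul, ← ofMul_pow, h5f_Fam.op_apply]
  refine Finset.sum_eq_zero fun x _ => ?_
  apply hφ
  have hσ : F.σ (g ^ n) x = x := by
    rw [h5p_σ_pow, hn, pow_orderOf_eq_one]
    rfl
  have hrel := F.rel (g ^ n) x
  rw [hσ, h1, h2, h5h_ι_apply, h5h_ι_apply] at hrel
  rw [h5p_trace_conj _ _ _ hrel]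
  have := h5p_parabolic_pow (g : SL(2, ℤ)) hg n
  rwa [← SubgroupClass.coe_pow] at this

end

end Fermat.Agent.Lib.S41
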