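import Mathlib
import Fermat.Agent.Lib.S41.H5Par

/-!
# Project S41, layer [H]: the lattices `L_M = parabolicHoms ℤ (Gamma0 M) ℤ` (finite free) and the
restricted operators `α, β, α', β', T_ℓ` on them

Owner: helper5.
-/

set_option autoImplicit false

open P2MW.S_ModularForm_heckeT_slash_eq_self_of_mem_Gamma0.ModularForm.HeckeSlashInvariance
open CongruenceSubgroup Matrix.SpecialLinearGroup ModularCurve.Period
open scoped MatrixGroups OnePoint

noncomputable section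

namespace Fermat.Agent.Lib.S41

/-! ### H4: `L_M` is a finite free `ℤ`-module -/

theorem h5l_fg_SL2Z : Group.FG SL(2, ℤ) := by
  rw [Group.fg_iff]
  exact ⟨{ModularGroup.S, ModularGroup.T}, SpecialLinearGroup.SL2Z_generators, Set.toFinite _⟩

theorem h5l_fg (M : ℕ) [NeZero M] : Group.FG (Gamma0 M) := by
  haveI := h5l_fg_SL2Z
  exact Subgroup.fg_of_index_ne_zero (Gamma0 M)

/-- Evaluation on a finite generating set is injective. -/
theorem h5l_eval_injective {Γ : Type*} [Group Γ] (S : Set Γ) (hS : Subgroup.closure S = ⊤)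
    (φ : Additive Γ →+ ℤ) (h : ∀ s ∈ S, φ (Additive.ofMul s) = 0) : φ = 0 := by
  let K : Subgroup Γ :=
    { carrier := {g | φ (Additive.ofMul g) = 0}
      mul_mem' := by
        intro a b ha hb
        show φ (Additive.ofMul (a * b)) = 0
        rw [ofMul_mul, map_add, ha, hb, add_zero]
      one_mem' := by
        show φ (Additive.ofMul 1) = 0
        rw [ofMul_one, map_zero]
      inv_mem' := by
        intro a ha
        show φ (Additive.ofMul a⁻¹) = 0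
        rw [ofMul_inv, map_neg, ha, neg_zero] }
  have hK : K = ⊤ := by
    apply top_le_iff.mp
    rw [← hS]
    exact (Subgroup.closure_le K).mpr h
  refine AddMonoidHom.ext fun g => ?_
  have : Additive.toMul g ∈ K := by rw [hK]; trivial
  exact this

instance h5l_finite_hom (M : ℕ) [NeZero M] : Module.Finite ℤ (Additive (Gamma0 M) →+ ℤ) := by
  obtain ⟨S, hS, hfin⟩ := Group.fg_iff.mp (h5l_fg M)
  haveI : Fintype S := hfin.fintype
  let ev : (Additive (Gamma0 M) →+ ℤ) →ₗ[ℤ] (S → ℤ) :=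
    { toFun := fun φ s => φ (Additive.ofMul (s : Gamma0 M))
      map_add' := fun _ _ => rfl
      map_smul' := fun _ _ => rfl }
  refine Module.Finite.of_injective ev ?_
  intro φ ψ h
  have h0 : φ - ψ = 0 := by
    apply h5l_eval_injective S hS
    intro s hs
    have := congrFun h ⟨s, hs⟩
    show φ (Additive.ofMul s) - ψ (Additive.ofMul s) = 0
    exact sub_eq_zero.mpr this
  exact sub_eq_zero.mp h0

instance h5l_finite (M : ℕ) [NeZero M] : Module.Finite ℤ (parabolicHoms ℤ (Gamma0 M) ℤ) :=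
  Module.Finite.of_injective (parabolicHoms ℤ (Gamma0 M) ℤ).subtype Subtype.val_injective

instance h5l_torsionFree (M : ℕ) : NoZeroSMulDivisors ℤ (parabolicHoms ℤ (Gamma0 M) ℤ) := by
  refine ⟨fun {c x} h => ?_⟩
  by_cases hc : c = 0
  · exact Or.inl hc
  · right
    apply Subtype.ext
    refine AddMonoidHom.ext fun g => ?_
    have h1 : c • ((x : Additive (Gamma0 M) →+ ℤ) g) = 0 := by
      have := congrArg (fun y : parabolicHoms ℤ (Gamma0 M) ℤ => (y : Additive (Gamma0 M) →+ ℤ) g) h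
      exact this
    rcases smul_eq_zero.mp h1 with h2 | h2
    · exact absurd h2 hc
    · exact h2

instance h5l_free (M : ℕ) [NeZero M] : Module.Free ℤ (parabolicHoms ℤ (Gamma0 M) ℤ) :=
  Module.free_of_finite_type_torsion_free'

/-! ### Restricted operators -/

/-- Restriction of an operator preserving parabolic homomorphisms to the lattices. -/
def h5l_restrict {M₁ M₂ : ℕ}
    (op : (Additive (Gamma0 M₁) →+ ℤ) →+ (Additive (Gamma0 M₂) →+ ℤ))
    (h : ∀ φ, IsParabolicHom (Gamma0 M₁) φ → IsParabolicHom (Gamma0 M₂) (op φ)) :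
    parabolicHoms ℤ (Gamma0 M₁) ℤ →+ parabolicHoms ℤ (Gamma0 M₂) ℤ where
  toFun x := ⟨op x.1, h x.1 x.2⟩
  map_zero' := by
    apply Subtype.ext
    show op 0 = 0
    exact map_zero op
  map_add' x y := by
    apply Subtype.ext
    show op (x.1 + y.1) = op x.1 + op y.1
    exact map_add op _ _

@[simp] theorem h5l_restrict_coe {M₁ M₂ : ℕ}
    (op : (Additive (Gamma0 M₁) →+ ℤ) →+ (Additive (Gamma0 M₂) →+ ℤ))
    (h : ∀ φ, IsParabolicHom (Gamma0 M₁) φ → IsParabolicHom (Gamma0 M₂) (op φ))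
    (x : parabolicHoms ℤ (Gamma0 M₁) ℤ) :
    ((h5l_restrict op h x : parabolicHoms ℤ (Gamma0 M₂) ℤ) : Additive (Gamma0 M₂) →+ ℤ)
      = op x.1 := rfl

theorem h5l_int_torsionFree : ∀ (n : ℕ) (a : ℤ), n ≠ 0 → n • a = 0 → a = 0 := by
  intro n a hn h
  rw [nsmul_eq_mul] at h
  rcases mul_eq_zero.mp h with h1 | h1
  · exact absurd (by exact_mod_cast h1) hn
  · exact h1

theorem h5l_pull_incl_par {A : Type*} [AddCommGroup A] (M q : ℕ) (φ : Additive (Gamma0 M) →+ A)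
    (hφ : IsParabolicHom (Gamma0 M) φ) :
    IsParabolicHom (Gamma0 (M * q)) (h6_pull A (h6_incl M q) φ) := by
  intro g hg
  rw [h6_pull_apply]
  exact hφ _ hg

theorem h5l_pull_conjH_par {A : Type*} [AddCommGroup A] (M q : ℕ) (hq : 0 < q)
    (φ : Additive (Gamma0 M) →+ A) (hφ : IsParabolicHom (Gamma0 M) φ) :
    IsParabolicHom (Gamma0 (M * q)) (h6_pull A (h6_conjH M q hq) φ) := by
  intro g hg
  rw [h6_pull_apply]
  apply hφ
  have : (((h6_conjH M q hq g : Gamma0 M) : SL(2, ℤ)) : Matrix (Fin 2) (Fin 2) ℤ).trace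
      = (((g : Gamma0 (M * q)) : SL(2, ℤ)) : Matrix (Fin 2) (Fin 2) ℤ).trace := by
    rw [Matrix.trace_fin_two, Matrix.trace_fin_two]
    rfl
  rw [this]
  exact hg

section

variable (M q : ℕ) [Fact q.Prime] (hqM : ¬ q ∣ M)

/-- `α = res : L_M → L_{Mq}`. -/
def h5l_α : parabolicHoms ℤ (Gamma0 M) ℤ →+ parabolicHoms ℤ (Gamma0 (M * q)) ℤ :=
  h5l_restrict (h6_pull ℤ (h6_incl M q)) (h5l_pull_incl_par M q)

/-- `β = resH : L_M → L_{Mq}`. -/
def h5l_β : parabolicHoms ℤ (Gamma0 M) ℤ →+ parabolicHoms ℤ (Gamma0 (M * q)) ℤ :=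
  h5l_restrict (h6_pull ℤ (h6_conjH M q h5i_qpos)) (h5l_pull_conjH_par M q h5i_qpos)

/-- `α' = cores : L_{Mq} → L_M`. -/
def h5l_α' : parabolicHoms ℤ (Gamma0 (M * q)) ℤ →+ parabolicHoms ℤ (Gamma0 M) ℤ :=
  h5l_restrict ((h5c_cores hqM).op ℤ)
    (h5p_op_parabolic (h5c_cores hqM) rfl rfl h5l_int_torsionFree)

/-- `β' = coresH : L_{Mq} → L_M`. -/
def h5l_β' : parabolicHoms ℤ (Gamma0 (M * q)) ℤ →+ parabolicHoms ℤ (Gamma0 M) ℤ :=
  h5l_restrict ((h5c_coresH hqM).op ℤ)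
    (h5p_op_parabolic (h5c_coresH hqM) rfl rfl h5l_int_torsionFree)

/-- `T_q` on `L_M` (`q ∤ M`). -/
def h5l_T : parabolicHoms ℤ (Gamma0 M) ℤ →+ parabolicHoms ℤ (Gamma0 M) ℤ :=
  h5l_restrict (h5h_T M q hqM ℤ)
    (h5p_op_parabolic (h5h_heckeFam M q hqM) rfl rfl h5l_int_torsionFree)

theorem h5l_α'_α (x : parabolicHoms ℤ (Gamma0 M) ℤ) :
    h5l_α' M q hqM (h5l_α M q x) = ((q : ℤ) + 1) • x := by
  apply Subtype.ext
  show (h5c_cores hqM).op ℤ (h6_pull ℤ (h6_incl M q) x.1) = ((q : ℤ) + 1) • x.1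
  rw [h5i_cores_incl hqM x.1]
  refine AddMonoidHom.ext fun g => ?_
  show (q + 1) • x.1 g = ((q : ℤ) + 1) • x.1 g
  rw [nsmul_eq_mul, smul_eq_mul]
  push_cast
  ring

theorem h5l_β'_β (x : parabolicHoms ℤ (Gamma0 M) ℤ) :
    h5l_β' M q hqM (h5l_β M q x) = ((q : ℤ) + 1) • x := by
  apply Subtype.ext
  show (h5c_coresH hqM).op ℤ (h6_pull ℤ (h6_conjH M q h5i_qpos) x.1) = ((q : ℤ) + 1) • x.1
  rw [h5i_coresH_conjH hqM x.1]
  refine AddMonoidHom.ext fun g => ?_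
  show (q + 1) • x.1 g = ((q : ℤ) + 1) • x.1 g
  rw [nsmul_eq_mul, smul_eq_mul]
  push_cast
  ring

theorem h5l_α'_β (x : parabolicHoms ℤ (Gamma0 M) ℤ) :
    h5l_α' M q hqM (h5l_β M q x) = h5l_T M q hqM x := by
  apply Subtype.ext
  exact h5i_cores_conjH hqM x.1

theorem h5l_β'_α (x : parabolicHoms ℤ (Gamma0 M) ℤ) :
    h5l_β' M q hqM (h5l_α M q x) = h5l_T M q hqM x := by
  apply Subtype.ext
  exact h5i_coresH_incl hqM x.1

variable (ℓ : ℕ) [Fact ℓ.Prime] (hℓ : ¬ ℓ ∣ M) (hℓ' : ¬ ℓ ∣ M * q)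

omit [Fact q.Prime] in
theorem h5l_T_α (x : parabolicHoms ℤ (Gamma0 M) ℤ) :
    h5l_T (M * q) ℓ hℓ' (h5l_α M q x) = h5l_α M q (h5l_T M ℓ hℓ x) := by
  apply Subtype.ext
  exact h5m_T_incl hℓ hℓ' x.1

theorem h5l_T_β (hqℓ : ((q : ℕ) : ZMod ℓ) ≠ 0) (x : parabolicHoms ℤ (Gamma0 M) ℤ) :
    h5l_T (M * q) ℓ hℓ' (h5l_β M q x) = h5l_β M q (h5l_T M ℓ hℓ x) := by
  apply Subtype.ext
  exact h5m_T_conjH hℓ hℓ' hqℓ x.1

end

end Fermat.Agent.Lib.S41
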