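import Mathlib
import Fermat.Agent.Lib.S41.H5Lattice
import Fermat.Agent.Lib.S41.H2Avg

/-!
# S41, layer [A′] (part 3): Ihara's lemma replaced by averaging

Owner: helper2.  `h2v_ihara_avg`: there is `M₀ > 0` (depending only on `N, q, p`) such that for
every prime `ℓ ∤ N`, `ℓ ≠ q`, `ℓ ≡ 1 mod M₀`, with `q^((ℓ-1)/p) ≢ 1 mod ℓ`, every pair `x, y` of
parabolic characters of `Γ₀(N)` with values in `𝔽_p` whose pull-backs to `Γ₀(N q)` cancel
satisfies `T_ℓ x = 2 x` and `T_ℓ y = 2 y`.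
-/

set_option autoImplicit false

open P2MW.S_ModularForm_heckeT_slash_eq_self_of_mem_Gamma0.ModularForm.HeckeSlashInvariance
open P2MW.S_ModularForm_heckeT_slash_eq_self_of_mem_Gamma0.ModularForm
open CongruenceSubgroup Matrix.SpecialLinearGroup ModularCurve.Period
open scoped MatrixGroups OnePoint

noncomputable section

namespace Fermat.Agent.Lib.S41

/-- Two additive characters agreeing on a generating set are equal. -/
theorem h2v_hom_ext_of_closure {Γ : Type*} [Group Γ] {A : Type*} [AddCommGroup A] (S : Set Γ)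
    (hS : Subgroup.closure S = ⊤) (φ ψ : Additive Γ →+ A)
    (h : ∀ s ∈ S, φ (Additive.ofMul s) = ψ (Additive.ofMul s)) : φ = ψ := by
  let K : Subgroup Γ :=
    { carrier := {g | φ (Additive.ofMul g) = ψ (Additive.ofMul g)}
      mul_mem' := by
        intro a b ha hb
        show φ (Additive.ofMul (a * b)) = ψ (Additive.ofMul (a * b))
        rw [ofMul_mul, map_add, map_add, ha, hb]
      one_mem' := by
        show φ (Additive.ofMul 1) = ψ (Additive.ofMul 1)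
        rw [ofMul_one, map_zero, map_zero]
      inv_mem' := by
        intro a ha
        show φ (Additive.ofMul a⁻¹) = ψ (Additive.ofMul a⁻¹)
        rw [ofMul_inv, map_neg, map_neg, ha] }
  have hK : K = ⊤ := by
    apply top_le_iff.mp
    rw [← hS]
    exact (Subgroup.closure_le K).mpr h
  refine AddMonoidHom.ext fun g => ?_
  have : Additive.toMul g ∈ K := by rw [hK]; trivial
  exact this

/-- the lower unipotent `[[1, 0], [N, 1]]` -/
def h2v_L (N : ℕ) : Gamma0 N :=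
  ⟨h8a_mk 1 0 N 1 (by ring), h8a_mk_mem N _ _ _ _ _ (dvd_refl _)⟩

theorem h2v_L_coe (N : ℕ) :
    (((h2v_L N : Gamma0 N) : SL(2, ℤ)) : Matrix (Fin 2) (Fin 2) ℤ) = !![1, 0; (N : ℤ), 1] := rfl

/-- **Good generators**: `Γ₀(N)` is generated by finitely many elements whose lower-left entry is
not divisible by `q`. -/
theorem h2v_good_generators (N q : ℕ) [NeZero N] (hq : q.Prime) (hqN : ¬ q ∣ N) :
    ∃ S : Finset (Gamma0 N), Subgroup.closure (S : Set (Gamma0 N)) = ⊤ ∧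
      ∀ s ∈ S, ¬ (q : ℤ) ∣ ((s : Gamma0 N) : SL(2, ℤ)) 1 0 := by
  classical
  obtain ⟨S₀, hS₀, hfin⟩ := Group.fg_iff.mp (h5l_fg N)
  have hqN' : ¬ (q : ℤ) ∣ (N : ℤ) := by
    intro h
    exact hqN (Int.natCast_dvd_natCast.mp h)
  have hq' : Prime (q : ℤ) := Nat.prime_iff_prime_int.mp hq
  set fix : Gamma0 N → Gamma0 N := fun s =>
    if (q : ℤ) ∣ ((s : Gamma0 N) : SL(2, ℤ)) 1 0 then s * h2v_L N else s with hfix
  refine ⟨insert (h2v_L N) (hfin.toFinset.image fix), ?_, ?_⟩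
  · apply top_le_iff.mp
    rw [← hS₀, Subgroup.closure_le]
    intro s hs
    have hL : h2v_L N ∈ Subgroup.closure
        ((insert (h2v_L N) (hfin.toFinset.image fix) : Finset (Gamma0 N)) : Set (Gamma0 N)) :=
      Subgroup.subset_closure (by simp)
    have hfs : fix s ∈ Subgroup.closure
        ((insert (h2v_L N) (hfin.toFinset.image fix) : Finset (Gamma0 N)) : Set (Gamma0 N)) := by
      apply Subgroup.subset_closure
      rw [Finset.coe_insert, Finset.coe_image]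
      right
      exact ⟨s, by simpa using hs, rfl⟩
    by_cases hdiv : (q : ℤ) ∣ ((s : Gamma0 N) : SL(2, ℤ)) 1 0
    · have : fix s = s * h2v_L N := by rw [hfix]; simp only [if_pos hdiv]
      rw [this] at hfs
      have h2 := Subgroup.mul_mem _ hfs (Subgroup.inv_mem _ hL)
      rwa [mul_inv_cancel_right] at h2
    · have : fix s = s := by rw [hfix]; simp only [if_neg hdiv]
      rwa [this] at hfs
  · intro s hs
    rw [Finset.mem_insert, Finset.mem_image] at hs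
    rcases hs with rfl | ⟨s₀, -, rfl⟩
    · show ¬ (q : ℤ) ∣ (((h2v_L N : Gamma0 N) : SL(2, ℤ)) : Matrix (Fin 2) (Fin 2) ℤ) 1 0
      rw [h2v_L_coe]
      simpa using hqN'
    · by_cases hdiv : (q : ℤ) ∣ ((s₀ : Gamma0 N) : SL(2, ℤ)) 1 0
      · have : fix s₀ = s₀ * h2v_L N := by rw [hfix]; simp only [if_pos hdiv]
        rw [this]
        have hdet := (s₀ : SL(2, ℤ)).det_coe
        rw [Matrix.det_fin_two] at hdet
        have hentry : (((s₀ * h2v_L N : Gamma0 N) : SL(2, ℤ)) : Matrix (Fin 2) (Fin 2) ℤ) 1 0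
            = ((s₀ : Gamma0 N) : SL(2, ℤ)) 1 0 + ((s₀ : Gamma0 N) : SL(2, ℤ)) 1 1 * (N : ℤ) := by
          rw [Subgroup.coe_mul, Matrix.SpecialLinearGroup.coe_mul, h2v_L_coe]
          simp [Matrix.mul_apply, Fin.sum_univ_two]
        show ¬ (q : ℤ) ∣ (((s₀ * h2v_L N : Gamma0 N) : SL(2, ℤ)) : Matrix (Fin 2) (Fin 2) ℤ) 1 0
        rw [hentry]
        intro h
        have h1 : (q : ℤ) ∣ ((s₀ : Gamma0 N) : SL(2, ℤ)) 1 1 * (N : ℤ) := (dvd_add_right hdiv).mp h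
        rcases hq'.dvd_or_dvd h1 with h2 | h2
        · -- q ∣ c and q ∣ d contradicts det = 1
          have : (q : ℤ) ∣ 1 := by
            rw [← hdet]
            exact dvd_sub (Dvd.dvd.mul_left h2 _) (Dvd.dvd.mul_left hdiv _)
          exact hq'.not_dvd_one this
        · exact hqN' h2
      · have : fix s₀ = s₀ := by rw [hfix]; simp only [if_neg hdiv]
        rw [this]
        exact hdiv

/-- the order of `Q^n` is divisible by `p` when `Q` has full `p`-part and `v_p(n) < v_p(ℓ-1)`. -/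
theorem h2v_dvd_orderOf {ℓ p : ℕ} [Fact ℓ.Prime] [Fact p.Prime] (Q : (ZMod ℓ)ˣ) (J w₁ m' n : ℕ)
    (hℓ : ℓ - 1 = p ^ (J + 1) * w₁) (hQ : Q ^ (p ^ J * w₁) ≠ 1) (hn : n = p ^ J * m')
    (hm' : ¬ p ∣ m') : p ∣ orderOf (Q ^ n) := by
  have hp : p.Prime := Fact.out
  set r : (ZMod ℓ)ˣ := Q ^ w₁ with hr
  have hr1 : r ^ p ^ (J + 1) = 1 := by
    rw [hr, ← pow_mul, mul_comm, ← hℓ]
    exact ZMod.units_pow_card_sub_one_eq_one ℓ Q
  have hr2 : ¬ r ^ p ^ J = 1 := by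
    rw [hr, ← pow_mul, mul_comm]
    exact hQ
  have hord : orderOf r = p ^ (J + 1) := orderOf_eq_prime_pow hr2 hr1
  by_contra hnd
  have h1 : (Q ^ n) ^ orderOf (Q ^ n) = 1 := pow_orderOf_eq_one _
  have h2 : r ^ (n * orderOf (Q ^ n)) = 1 := by
    rw [hr, ← pow_mul, mul_comm w₁, pow_mul, pow_mul, h1, one_pow]
  have h3 : p ^ (J + 1) ∣ n * orderOf (Q ^ n) := by
    rw [← hord]
    exact orderOf_dvd_iff_pow_eq_one.mpr h2
  rw [hn, pow_succ, mul_assoc] at h3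
  have h4 : p ∣ m' * orderOf (Q ^ (p ^ J * m')) :=
    (Nat.mul_dvd_mul_iff_left (pow_pos hp.pos J)).mp h3
  rcases hp.dvd_mul.mp h4 with h5 | h5
  · exact hm' h5
  · rw [hn] at hnd
    exact hnd h5

/-- **[A′] Ihara's lemma replaced by averaging.** -/
theorem h2v_ihara_avg {p N q : ℕ} (hp : p.Prime) (hp2 : p ≠ 2) (hN : 0 < N) (hq : q.Prime)
    (hqN : ¬ q ∣ N) (hqp : q ≠ p) :
    ∃ M₀ : ℕ, 0 < M₀ ∧ p ∣ M₀ ∧ ∀ (ℓ : ℕ) [Fact ℓ.Prime] (hℓN : ¬ ℓ ∣ N), ℓ ≠ q →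
      ℓ ≡ 1 [MOD M₀] → ((q : ZMod ℓ) ^ ((ℓ - 1) / p) ≠ 1) →
      ∀ (x y : Additive (Gamma0 N) →+ ZMod p), IsParabolicHom (Gamma0 N) x →
        IsParabolicHom (Gamma0 N) y →
        (∀ g : Gamma0 (N * q), x (Additive.ofMul (h6_incl N q g))
          + y (Additive.ofMul (h6_conjH N q hq.pos g)) = 0) →
        h5h_T N ℓ hℓN (ZMod p) x = 2 • x ∧ h5h_T N ℓ hℓN (ZMod p) y = 2 • y := by
  classical
  have : NeZero N := ⟨hN.ne'⟩
  have : Fact p.Prime := ⟨hp⟩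
  obtain ⟨S, hS, hgood⟩ := h2v_good_generators N q hq hqN
  set cabs : Gamma0 N → ℕ := fun s => (((s : Gamma0 N) : SL(2, ℤ)) 1 0).natAbs with hcabs
  have hc0 : ∀ s ∈ S, ((s : Gamma0 N) : SL(2, ℤ)) 1 0 ≠ 0 := by
    intro s hs h0
    exact hgood s hs (by rw [h0]; exact dvd_zero _)
  have hcpos : ∀ s ∈ S, 0 < cabs s := fun s hs => Int.natAbs_pos.mpr (hc0 s hs)
  set m : ℕ := ∏ s ∈ S, (cabs s).totient with hm
  have hm0 : m ≠ 0 :=
    Finset.prod_ne_zero_iff.mpr fun s hs => (Nat.totient_pos.mpr (hcpos s hs)).ne'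
  obtain ⟨J, m', hm', hJ⟩ :=
    Nat.exists_eq_pow_mul_and_not_dvd (n := 2 * m) (by omega) p hp.ne_one
  set P : ℕ := ∏ s ∈ S, cabs s with hP
  have hP0 : 0 < P := Finset.prod_pos hcpos
  refine ⟨P * p ^ (J + 1), Nat.mul_pos hP0 (pow_pos hp.pos _),
    Dvd.dvd.mul_left (dvd_pow_self p (Nat.succ_ne_zero J)) _, ?_⟩
  intro ℓ _ hℓN hℓq hℓM hqw x y hx hy hxy
  obtain ⟨η, hdx, hdy⟩ := h2v_drift_of_cancel hp hq hqN hqp x y hx hy hxy
  have hℓ : ℓ.Prime := Fact.out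
  have hM₀dvd : P * p ^ (J + 1) ∣ ℓ - 1 := (Nat.modEq_iff_dvd' hℓ.one_le).mp hℓM.symm
  have hqℓ : (q : ZMod ℓ) ≠ 0 := by
    intro h
    rw [ZMod.natCast_eq_zero_iff] at h
    exact hℓq ((Nat.prime_dvd_prime_iff_eq hℓ hq).mp h)
  set Q : (ZMod ℓ)ˣ := Units.mk0 (q : ZMod ℓ) hqℓ with hQdef
  obtain ⟨w₁, hw₁⟩ : p ^ (J + 1) ∣ ℓ - 1 := (Dvd.intro_left _ rfl).trans hM₀dvd
  have hdiv : (ℓ - 1) / p = p ^ J * w₁ := by
    rw [hw₁, pow_succ, mul_comm (p ^ J) p, mul_assoc, Nat.mul_div_cancel_left _ hp.pos]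
  have hQ : Q ^ (p ^ J * w₁) ≠ 1 := by
    intro h
    apply hqw
    rw [hdiv]
    have := congrArg Units.val h
    simpa [hQdef] using this
  have hord : p ∣ orderOf (Q ^ (2 * m)) := h2v_dvd_orderOf Q J w₁ m' (2 * m) hw₁ hQ hJ hm'
  have hg₀ : ((Q ^ (2 * m) : (ZMod ℓ)ˣ) : ZMod ℓ) = ((q : ℤ) : ZMod ℓ) ^ (2 * m) := by
    simp [hQdef]
  have key : ∀ (z : Additive (Gamma0 N) →+ ZMod p) (κ₀ : ZMod p), h2v_Drift N q p z κ₀ →
      h5h_T N ℓ hℓN (ZMod p) z = 2 • z := by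
    intro z κ₀ hdr
    apply h2v_hom_ext_of_closure (S : Set (Gamma0 N)) hS
    intro s hs
    have hsS : s ∈ S := by simpa using hs
    rw [AddMonoidHom.smul_apply]
    have hcP : cabs s ∣ P := Finset.dvd_prod_of_mem cabs hsS
    -- `c ∣ ℓ - 1`
    have h1 : ((s : Gamma0 N) : SL(2, ℤ)) 1 0 ∣ (ℓ : ℤ) - 1 := by
      rw [← Int.natAbs_dvd]
      have : cabs s ∣ ℓ - 1 := (hcP.trans (Dvd.intro _ rfl)).trans hM₀dvd
      have h2 : ((cabs s : ℕ) : ℤ) ∣ ((ℓ - 1 : ℕ) : ℤ) := Int.natCast_dvd_natCast.mpr this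
      rwa [Nat.cast_sub hℓ.one_le, Nat.cast_one] at h2
    -- `c ∣ q^(2m) - 1`
    have h2 : ((s : Gamma0 N) : SL(2, ℤ)) 1 0 ∣ (q : ℤ) ^ (2 * m) - 1 := by
      rw [← Int.natAbs_dvd]
      have hcop : q.Coprime (cabs s) := by
        rw [Nat.Prime.coprime_iff_not_dvd hq]
        intro h
        exact hgood s hsS (Int.natCast_dvd.mpr h)
      have htot : (cabs s).totient ∣ 2 * m :=
        (Finset.dvd_prod_of_mem (fun s => (cabs s).totient) hsS).trans (Dvd.intro_left _ rfl)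
      obtain ⟨k, hk⟩ := htot
      have h3 : q ^ (2 * m) ≡ 1 [MOD cabs s] := by
        rw [hk, pow_mul]
        have := (Nat.ModEq.pow_totient hcop).pow k
        rwa [one_pow] at this
      have h4 : cabs s ∣ q ^ (2 * m) - 1 :=
        (Nat.modEq_iff_dvd' (Nat.one_le_pow _ _ hq.pos)).mp h3.symm
      have h5 : ((cabs s : ℕ) : ℤ) ∣ ((q ^ (2 * m) - 1 : ℕ) : ℤ) := Int.natCast_dvd_natCast.mpr h4
      rwa [Nat.cast_sub (Nat.one_le_pow _ _ hq.pos), Nat.cast_pow, Nat.cast_one] at h5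
    exact h2v_T_apply_eq hℓN hp2 z κ₀ hdr s (hc0 s hsS) h1 m h2 (Q ^ (2 * m)) hg₀ hord
  exact ⟨key x _ hdx, key y _ hdy⟩

end Fermat.Agent.Lib.S41
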