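import Mathlib
import Fermat.Agent.Lib.S41.Defs
import Fermat.Agent.Lib.S41.H2Ihara

/-!
# Project S41 (level raising): contracts, version 2 (after the averaging bypass of Ihara's lemma)

Owner: helper2.  Everything here is fully proven.

* `h6b_IharaAvgStatement` ([A′]) and its proof `h6b_iharaAvg` (= `h2v_ihara_avg`);
* `h6b_NonEisStatement` ([T1′], Galois side; owner helper7);
* `h6b_ModLevelRaiseStatement` ([T2′], modular side);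
* `h6b_s41_of_contracts`: S41 from [T1′] and [T2′].
-/

set_option autoImplicit false

open CongruenceSubgroup ModularCurve.Period
open scoped MatrixGroups

namespace Fermat.Agent.Lib.S41

/-- **[A′]** Ihara's lemma replaced by averaging: on the kernel of `(x, y) ↦ x∘incl + y∘conjH`
(mod `p`), the Hecke operator `T_ℓ` acts as `2 = 1 + ℓ` for all primes `ℓ ≡ 1 mod M₀` modulo
which `q` is not a `p`-th power. -/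
def h6b_IharaAvgStatement : Prop :=
  ∀ {p N q : ℕ} (_ : p.Prime) (_ : p ≠ 2) (_ : 0 < N) (hq : q.Prime) (_ : ¬ q ∣ N) (_ : q ≠ p),
    ∃ M₀ : ℕ, 0 < M₀ ∧ p ∣ M₀ ∧ ∀ (ℓ : ℕ) [Fact ℓ.Prime] (hℓN : ¬ ℓ ∣ N), ℓ ≠ q →
      ℓ ≡ 1 [MOD M₀] → ((q : ZMod ℓ) ^ ((ℓ - 1) / p) ≠ 1) →
      ∀ (x y : Additive (Gamma0 N) →+ ZMod p), IsParabolicHom (Gamma0 N) x →
        IsParabolicHom (Gamma0 N) y →
        (∀ g : Gamma0 (N * q), x (Additive.ofMul (h6_incl N q g))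
          + y (Additive.ofMul (h6_conjH N q hq.pos g)) = 0) →
        h5h_T N ℓ hℓN (ZMod p) x = 2 • x ∧ h5h_T N ℓ hℓN (ZMod p) y = 2 • y

theorem h6b_iharaAvg : h6b_IharaAvgStatement :=
  fun hp hp2 hN hq hqN hqp => h2v_ihara_avg hp hp2 hN hq hqN hqp

open WeierstrassCurve WeierstrassCurve.Affine WeierstrassCurve.Affine.Point in
/-- **[T1′] Non-Eisenstein at special primes** (Galois side): for every modulus `M₀` there is a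
good prime `ℓ ≡ 1 mod M₀`, outside any finite set, modulo which `q` is not a `p`-th power and
with `a_ℓ ≢ 1 + ℓ mod p`. -/
def h6b_NonEisStatement : Prop :=
  ∀ (E : WeierstrassCurve ℚ) [E.IsElliptic] {W : WeierstrassCurve ℤ}
    (_ : W.IsIntegralModelOf E) {p : ℕ} (_ : p.Prime) (_ : p ≠ 2)
    (_ : GaloisRepIsIrreducible (K := AlgebraicClosure ℚ) ℚ E p) {q : ℕ} (_ : q.Prime)
    (_ : q ≠ p) (M₀ : ℕ) (_ : 0 < M₀) (S : Finset ℕ),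
    ∃ ℓ : ℕ, ℓ.Prime ∧ ℓ ∉ S ∧ W.IsGoodPrimeFor ℓ ∧ ℓ ≡ 1 [MOD M₀] ∧
      (q : ZMod ℓ) ^ ((ℓ - 1) / p) ≠ 1 ∧
      ¬ ((p : ℤ) ∣ W.apOfModel ℓ - (1 + (ℓ : ℤ)))

/-- **[T2′] Level raising for a mod `p` system which is non-Eisenstein at special primes**
(modular side, no elliptic curve). -/
def h6b_ModLevelRaiseStatement : Prop :=
  ∀ {p N q' : ℕ} (_ : p.Prime) (_ : p ≠ 2) (_ : 0 < N) (_ : q'.Prime) (_ : ¬ q' ∣ N)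
    (_ : q' ≠ p) (f : CuspForm (Gamma0 N) 2) (𝔪 : Ideal (integralClosure ℤ ℂ))
    (_ : f.IsNormalizedEigenform) (_ : 𝔪.IsMaximal) (_ : (p : integralClosure ℤ ℂ) ∈ 𝔪)
    (a : ℕ → ℤ) (G : Set ℕ) (_ : ∀ ℓ ∈ G, ℓ.Prime ∧ ¬ ℓ ∣ N * q' ∧ ℓ ≠ p)
    (_ : ∀ ℓ ∈ G, ∃ c : integralClosure ℤ ℂ, (c : ℂ) = ModularFormClass.qCoeff f ℓ ∧
        c - ((a ℓ : ℤ) : integralClosure ℤ ℂ) ∈ 𝔪)
    (_ : ∀ M₀ : ℕ, 0 < M₀ → ∃ ℓ ∈ G, ℓ ≡ 1 [MOD M₀] ∧ (q' : ZMod ℓ) ^ ((ℓ - 1) / p) ≠ 1 ∧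
        ¬ ((p : ℤ) ∣ a ℓ - (1 + (ℓ : ℤ))))
    (_ : ∃ c : integralClosure ℤ ℂ, (c : ℂ) = ModularFormClass.qCoeff f q' ∧
        c ^ 2 - ((q' : integralClosure ℤ ℂ) + 1) ^ 2 ∈ 𝔪),
    ∃ (g : CuspForm (Gamma0 (N * q')) 2) (𝔪' : Ideal (integralClosure ℤ ℂ)),
      g.IsNormalizedEigenform ∧ 𝔪'.IsMaximal ∧ (p : integralClosure ℤ ℂ) ∈ 𝔪' ∧
      (∀ ℓ ∈ G, ∃ c : integralClosure ℤ ℂ, (c : ℂ) = ModularFormClass.qCoeff g ℓ ∧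
          c - ((a ℓ : ℤ) : integralClosure ℤ ℂ) ∈ 𝔪') ∧
      g.IsNewAt q'

open WeierstrassCurve WeierstrassCurve.Affine WeierstrassCurve.Affine.Point in
/-- **Assembly**: S41 from [T1′] and [T2′]. -/
theorem h6b_s41_of_contracts (h1 : h6b_NonEisStatement) (h2 : h6b_ModLevelRaiseStatement)
    (E : WeierstrassCurve ℚ) [E.IsElliptic] {W : WeierstrassCurve ℤ} (hW : W.IsIntegralModelOf E)
    {p N q' : ℕ} (hp : p.Prime) (hp2 : p ≠ 2) (hN : 0 < N) (hq' : q'.Prime) (hq'N : ¬ q' ∣ N)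
    (hq'p : q' ≠ p)
    (hirr : GaloisRepIsIrreducible (K := AlgebraicClosure ℚ) ℚ E p)
    (f : CuspForm (CongruenceSubgroup.Gamma0 N) 2) (𝔪 : Ideal (integralClosure ℤ ℂ))
    (hf : f.IsNormalizedEigenform) (hmax : 𝔪.IsMaximal) (hpm : (p : integralClosure ℤ ℂ) ∈ 𝔪)
    (hcong : ∀ ℓ : ℕ, ℓ.Prime → W.IsGoodPrimeFor ℓ → ¬ ℓ ∣ N → ℓ ≠ p →
      ∃ a : integralClosure ℤ ℂ, (a : ℂ) = ModularFormClass.qCoeff f ℓ ∧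
        a - ((W.apOfModel ℓ : ℤ) : integralClosure ℤ ℂ) ∈ 𝔪)
    (hLR : ∃ a : integralClosure ℤ ℂ, (a : ℂ) = ModularFormClass.qCoeff f q' ∧
      a ^ 2 - ((q' : integralClosure ℤ ℂ) + 1) ^ 2 ∈ 𝔪) :
    ∃ (g : CuspForm (CongruenceSubgroup.Gamma0 (N * q')) 2) (𝔪' : Ideal (integralClosure ℤ ℂ)),
      g.IsNormalizedEigenform ∧ 𝔪'.IsMaximal ∧ (p : integralClosure ℤ ℂ) ∈ 𝔪' ∧
      (∀ ℓ : ℕ, ℓ.Prime → W.IsGoodPrimeFor ℓ → ¬ ℓ ∣ N * q' → ℓ ≠ p →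
        ∃ a : integralClosure ℤ ℂ, (a : ℂ) = ModularFormClass.qCoeff g ℓ ∧
          a - ((W.apOfModel ℓ : ℤ) : integralClosure ℤ ℂ) ∈ 𝔪') ∧
      g.IsNewAt q' := by
  classical
  set G : Set ℕ := {ℓ | ℓ.Prime ∧ W.IsGoodPrimeFor ℓ ∧ ¬ ℓ ∣ N * q' ∧ ℓ ≠ p} with hG
  have hNqp : N * q' * p ≠ 0 := by
    have := hq'.pos; have := hp.pos; positivity
  have hne : ∀ M₀ : ℕ, 0 < M₀ → ∃ ℓ ∈ G, ℓ ≡ 1 [MOD M₀] ∧ (q' : ZMod ℓ) ^ ((ℓ - 1) / p) ≠ 1 ∧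
      ¬ ((p : ℤ) ∣ W.apOfModel ℓ - (1 + (ℓ : ℤ))) := by
    intro M₀ hM₀
    obtain ⟨ℓ0, hℓ0, hℓ0S, hℓ0g, hℓ0M, hℓ0q, hℓ0ne⟩ :=
      h1 E hW hp hp2 hirr hq' hq'p M₀ hM₀ ((N * q' * p).primeFactors)
    have hℓ0nd : ¬ ℓ0 ∣ N * q' * p := fun hd =>
      hℓ0S (Nat.mem_primeFactors.mpr ⟨hℓ0, hd, hNqp⟩)
    exact ⟨ℓ0, ⟨hℓ0, hℓ0g, fun hd => hℓ0nd (Dvd.dvd.mul_right hd p),
      fun he => hℓ0nd (he ▸ Dvd.intro_left _ rfl)⟩, hℓ0M, hℓ0q, hℓ0ne⟩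
  obtain ⟨g, 𝔪', hg, hmax', hp', hcong', hnew⟩ :=
    h2 hp hp2 hN hq' hq'N hq'p f 𝔪 hf hmax hpm (fun ℓ => W.apOfModel ℓ) G
      (fun ℓ hℓ => ⟨hℓ.1, hℓ.2.2.1, hℓ.2.2.2⟩)
      (fun ℓ hℓ => hcong ℓ hℓ.1 hℓ.2.1
        (fun hd => hℓ.2.2.1 (Dvd.dvd.mul_right hd q')) hℓ.2.2.2)
      hne hLR
  exact ⟨g, 𝔪', hg, hmax', hp', fun ℓ hℓ hgood hnd hne => hcong' ℓ ⟨hℓ, hgood, hnd, hne⟩, hnew⟩

end Fermat.Agent.Lib.S41
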