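import Mathlib

/-!
# Project S41, layer [F0] (abstract part): duality lemmas for finite free `ℤ`-lattices with a
pairing that is perfect at a prime `p`

Owner: lead.  Pure linear algebra, no modular objects.

* `l0_repr`   : every additive `φ : L → ZMod p` is `u ↦ P w u mod p` for some `w`;
* `l0_nondeg` : a pairing that is (left) perfect at `p` is (left) nondegenerate over `ℤ`;
* `l0_dualStar` : the abstract dual Ihara lemma.
-/

set_option autoImplicit false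

namespace Fermat.Agent.Lib.S41

open Module

section Repr

variable {L : Type*} [AddCommGroup L] [Module.Finite ℤ L] [Module.Free ℤ L]

/-- Reduction of coordinates mod `p`. -/
noncomputable def l0_red (p : ℕ) (L : Type*) [AddCommGroup L] [Module.Finite ℤ L] [Module.Free ℤ L] :
    L →+ (Free.ChooseBasisIndex ℤ L → ZMod p) where
  toFun u := fun i => (((Free.chooseBasis ℤ L).repr u i : ℤ) : ZMod p)
  map_zero' := by
    funext i
    simp
  map_add' u v := by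
    funext i
    simp

theorem l0_red_apply (p : ℕ) (u : L) (i : Free.ChooseBasisIndex ℤ L) :
    l0_red p L u i = (((Free.chooseBasis ℤ L).repr u i : ℤ) : ZMod p) := rfl

theorem l0_red_zsmul (p : ℕ) (c : ℤ) (u : L) :
    l0_red p L (c • u) = (c : ZMod p) • l0_red p L u := by
  funext i
  simp [l0_red_apply]

/-- The lattice vector with prescribed coordinates. -/
noncomputable def l0_vec (v : Free.ChooseBasisIndex ℤ L → ℤ) : L :=
  ∑ i, v i • (Free.chooseBasis ℤ L) i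

theorem l0_repr_vec (v : Free.ChooseBasisIndex ℤ L → ℤ) (i : Free.ChooseBasisIndex ℤ L) :
    (Free.chooseBasis ℤ L).repr (l0_vec v) i = v i := by
  classical
  unfold l0_vec
  rw [map_sum]
  simp [Finsupp.single_apply]

theorem l0_vec_repr (u : L) : l0_vec (fun i => (Free.chooseBasis ℤ L).repr u i) = u := by
  unfold l0_vec
  exact (Free.chooseBasis ℤ L).sum_repr u

theorem l0_red_surjective (p : ℕ) [NeZero p] (f : Free.ChooseBasisIndex ℤ L → ZMod p) :
    ∃ u : L, l0_red p L u = f := by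
  refine ⟨l0_vec (fun i => ((f i).val : ℤ)), ?_⟩
  funext i
  rw [l0_red_apply, l0_repr_vec]
  simp

theorem l0_red_eq_zero_iff (p : ℕ) (u : L) :
    l0_red p L u = 0 ↔ ∃ u', u = (p : ℤ) • u' := by
  constructor
  · intro h
    have h1 : ∀ i, (p : ℤ) ∣ (Free.chooseBasis ℤ L).repr u i := by
      intro i
      have := congrFun h i
      rw [l0_red_apply] at this
      exact (ZMod.intCast_zmod_eq_zero_iff_dvd _ _).mp this
    choose c hc using h1
    refine ⟨l0_vec c, ?_⟩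
    apply (Free.chooseBasis ℤ L).repr.injective
    ext i
    rw [map_zsmul, Finsupp.smul_apply, l0_repr_vec, hc i, smul_eq_mul]
  · rintro ⟨u', rfl⟩
    rw [l0_red_zsmul]
    simp

/-- The Gram matrix mod `p`. -/
noncomputable def l0_G (p : ℕ) (P : L →+ L →+ ℤ) :
    Matrix (Free.ChooseBasisIndex ℤ L) (Free.ChooseBasisIndex ℤ L) (ZMod p) :=
  fun i j => ((P ((Free.chooseBasis ℤ L) i) ((Free.chooseBasis ℤ L) j) : ℤ) : ZMod p)

theorem l0_pair_expand (P : L →+ L →+ ℤ) (x y : L) :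
    P x y = ∑ i, ∑ j, (Free.chooseBasis ℤ L).repr x i *
      ((Free.chooseBasis ℤ L).repr y j * P ((Free.chooseBasis ℤ L) i) ((Free.chooseBasis ℤ L) j)) := by
  have h : P x y = P (∑ i, (Free.chooseBasis ℤ L).repr x i • (Free.chooseBasis ℤ L) i)
      (∑ j, (Free.chooseBasis ℤ L).repr y j • (Free.chooseBasis ℤ L) j) := by
    rw [(Free.chooseBasis ℤ L).sum_repr x, (Free.chooseBasis ℤ L).sum_repr y]
  have e1 : P (∑ i, (Free.chooseBasis ℤ L).repr x i • (Free.chooseBasis ℤ L) i)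
      = ∑ i, (Free.chooseBasis ℤ L).repr x i • P ((Free.chooseBasis ℤ L) i) := by
    rw [map_sum]
    refine Finset.sum_congr rfl fun i _ => ?_
    rw [map_zsmul]
  rw [h, e1, AddMonoidHom.finsetSum_apply]
  refine Finset.sum_congr rfl fun i _ => ?_
  rw [AddMonoidHom.smul_apply, map_sum, smul_eq_mul, Finset.mul_sum]
  refine Finset.sum_congr rfl fun j _ => ?_
  rw [map_zsmul, smul_eq_mul]

theorem l0_pair_red (p : ℕ) (P : L →+ L →+ ℤ) (x y : L) :
    ((P x y : ℤ) : ZMod p)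
      = ∑ j, l0_red p L y j * (Matrix.vecMul (l0_red p L x) (l0_G p P)) j := by
  rw [l0_pair_expand P x y]
  push_cast
  rw [Finset.sum_comm]
  refine Finset.sum_congr rfl fun j _ => ?_
  rw [Matrix.vecMul, dotProduct, Finset.mul_sum]
  refine Finset.sum_congr rfl fun i _ => ?_
  rw [l0_red_apply, l0_red_apply, l0_G]
  ring

/-- **Representability**: if `P` is left perfect at `p`, every additive `φ : L → ZMod p` is of the
form `u ↦ P w u mod p`. -/
theorem l0_repr (p : ℕ) [Fact p.Prime] (P : L →+ L →+ ℤ)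
    (hP : ∀ x, (∀ y, (p : ℤ) ∣ P x y) → ∃ x', x = (p : ℤ) • x') (φ : L →+ ZMod p) :
    ∃ w : L, ∀ u, φ u = ((P w u : ℤ) : ZMod p) := by
  classical
  have hinj : Function.Injective (l0_G p P).vecMul := by
    intro v1 v2 h
    obtain ⟨x, hx⟩ := l0_red_surjective p (v1 - v2)
    have h1 : ∀ y, (p : ℤ) ∣ P x y := by
      intro y
      rw [← ZMod.intCast_zmod_eq_zero_iff_dvd, l0_pair_red, hx, Matrix.sub_vecMul]
      have : Matrix.vecMul v1 (l0_G p P) - Matrix.vecMul v2 (l0_G p P) = 0 := sub_eq_zero.mpr h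
      rw [this]
      simp
    obtain ⟨x', hx'⟩ := hP x h1
    have h2 : l0_red p L x = 0 := (l0_red_eq_zero_iff p x).mpr ⟨x', hx'⟩
    rw [hx] at h2
    exact sub_eq_zero.mp h2
  have hunit := Matrix.vecMul_injective_iff_isUnit.mp hinj
  have hsurj := Matrix.vecMul_surjective_iff_isUnit.mpr hunit
  obtain ⟨v, hv⟩ := hsurj (fun j => φ ((Free.chooseBasis ℤ L) j))
  obtain ⟨w, hw⟩ := l0_red_surjective p v
  refine ⟨w, fun u => ?_⟩
  rw [l0_pair_red, hw]
  have hv' : Matrix.vecMul v (l0_G p P) = fun j => φ ((Free.chooseBasis ℤ L) j) := hv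
  rw [hv']
  have h3 : φ u = φ (∑ j, (Free.chooseBasis ℤ L).repr u j • (Free.chooseBasis ℤ L) j) := by
    rw [(Free.chooseBasis ℤ L).sum_repr u]
  rw [h3, map_sum]
  refine Finset.sum_congr rfl fun j _ => ?_
  rw [map_zsmul, zsmul_eq_mul, l0_red_apply]

omit [Module.Finite ℤ L] in
/-- A pairing which is left perfect at `p` is left nondegenerate over `ℤ`. -/
theorem l0_nondeg (p : ℕ) (hp : p.Prime) (P : L →+ L →+ ℤ)
    (hP : ∀ x, (∀ y, (p : ℤ) ∣ P x y) → ∃ x', x = (p : ℤ) • x') (x : L)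
    (hx : ∀ y, P x y = 0) : x = 0 := by
  have hp0 : (p : ℤ) ≠ 0 := by exact_mod_cast hp.ne_zero
  have key : ∀ k : ℕ, ∃ xk : L, x = ((p : ℤ) ^ k) • xk ∧ ∀ y, P xk y = 0 := by
    intro k
    induction k with
    | zero => exact ⟨x, by simp, hx⟩
    | succ k ih =>
      obtain ⟨xk, hxk, hk0⟩ := ih
      obtain ⟨x', hx'⟩ := hP xk (fun y => by rw [hk0 y]; exact dvd_zero _)
      refine ⟨x', ?_, fun y => ?_⟩
      · rw [hxk, hx', smul_smul, pow_succ]
      · have := hk0 y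
        rw [hx', map_zsmul, AddMonoidHom.smul_apply, smul_eq_mul] at this
        exact (mul_eq_zero.mp this).resolve_left hp0
  apply (Free.chooseBasis ℤ L).repr.injective
  ext i
  rw [map_zero, Finsupp.zero_apply]
  obtain ⟨n, hn⟩ : ∃ n : ℤ, n = (Free.chooseBasis ℤ L).repr x i := ⟨_, rfl⟩
  rw [← hn]
  obtain ⟨xk, hxk, -⟩ := key n.natAbs
  have hdvd : ((p : ℤ) ^ n.natAbs) ∣ n := by
    have h2 : (Free.chooseBasis ℤ L).repr x i
        = (p : ℤ) ^ n.natAbs * (Free.chooseBasis ℤ L).repr xk i := by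
      conv_lhs => rw [hxk]
      rw [map_zsmul, Finsupp.smul_apply, smul_eq_mul]
    exact Dvd.intro _ (hn.trans h2).symm
  apply Int.eq_zero_of_abs_lt_dvd hdvd
  have h1 : n.natAbs < p ^ n.natAbs := Nat.lt_pow_self hp.one_lt
  rw [Int.abs_eq_natAbs]
  exact_mod_cast h1

/-- **Separation**: a subgroup `I ⊇ p L` and `t ∉ I` are separated by an additive map to
`ZMod p`. -/
theorem l0_sep (p : ℕ) [Fact p.Prime] (I : AddSubgroup L) (hI : ∀ u : L, (p : ℤ) • u ∈ I)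
    (t : L) (ht : t ∉ I) :
    ∃ φ : L →+ ZMod p, (∀ a ∈ I, φ a = 0) ∧ φ t ≠ 0 := by
  let S : Submodule (ZMod p) (Free.ChooseBasisIndex ℤ L → ZMod p) :=
    { carrier := (l0_red p L) '' (I : Set L)
      zero_mem' := ⟨0, I.zero_mem, map_zero _⟩
      add_mem' := by
        rintro _ _ ⟨a, ha, rfl⟩ ⟨b, hb, rfl⟩
        exact ⟨a + b, I.add_mem ha hb, map_add _ _ _⟩
      smul_mem' := by
        rintro c _ ⟨a, ha, rfl⟩
        obtain ⟨c', rfl⟩ := ZMod.intCast_surjective c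
        exact ⟨c' • a, I.zsmul_mem ha c', l0_red_zsmul p c' a⟩ }
  have htS : l0_red p L t ∉ S := by
    rintro ⟨a, ha, hat⟩
    apply ht
    have h0 : l0_red p L (t - a) = 0 := by rw [map_sub, hat, sub_self]
    obtain ⟨u', hu'⟩ := (l0_red_eq_zero_iff p (t - a)).mp h0
    have : t = a + (p : ℤ) • u' := by rw [← hu']; abel
    rw [this]
    exact I.add_mem ha (hI u')
  obtain ⟨f, hft, hfS⟩ := Submodule.exists_dual_map_eq_bot_of_notMem htS inferInstance
  refine ⟨f.toAddMonoidHom.comp (l0_red p L), fun a ha => ?_, hft⟩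
  have : f (l0_red p L a) ∈ S.map f := Submodule.mem_map_of_mem ⟨a, ha, rfl⟩
  rw [hfS] at this
  exact (Submodule.mem_bot _).mp this

end Repr

/-- **Abstract dual Ihara lemma.** -/
theorem l0_dualStar (p : ℕ) [Fact p.Prime] {U W : Type*} [AddCommGroup U] [Module.Finite ℤ U]
    [Module.Free ℤ U] [AddCommGroup W] (BU : U →+ U →+ ℤ) (BW : W →+ W →+ ℤ)
    (hBU : ∀ x, (∀ y, (p : ℤ) ∣ BU x y) → ∃ x', x = (p : ℤ) • x')
    (hBW : ∀ x, (∀ y, (p : ℤ) ∣ BW x y) → ∃ x', x = (p : ℤ) • x')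
    (A : U →+ W) (A' : W →+ U) (hadj : ∀ u w, BW (A u) w = BU u (A' w))
    (s : U →+ U) (hs : ∀ u v, BU (s u) v = BU u (s v))
    (hker : ∀ u, (∃ w, A u = (p : ℤ) • w) → ∃ u', s u = (p : ℤ) • u') (v : U) :
    ∃ (w : W) (u' : U), s v = A' w + (p : ℤ) • u' := by
  by_contra hcon
  let I : AddSubgroup U := A'.range ⊔ (zsmulAddGroupHom (p : ℤ) : U →+ U).range
  have hpI : ∀ u : U, (p : ℤ) • u ∈ I := fun u =>
    AddSubgroup.mem_sup_right ⟨u, rfl⟩
  have hAI : ∀ w : W, A' w ∈ I := fun w => AddSubgroup.mem_sup_left ⟨w, rfl⟩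
  have hsv : s v ∉ I := by
    intro h
    obtain ⟨a, ⟨w, rfl⟩, b, ⟨u', rfl⟩, hab⟩ := AddSubgroup.mem_sup.mp h
    exact hcon ⟨w, u', hab.symm⟩
  obtain ⟨φ, hφI, hφ⟩ := l0_sep p I hpI (s v) hsv
  obtain ⟨u0, hu0⟩ := l0_repr p BU hBU φ
  have h1 : ∀ w, (p : ℤ) ∣ BW (A u0) w := by
    intro w
    rw [hadj, ← ZMod.intCast_zmod_eq_zero_iff_dvd, ← hu0]
    exact hφI _ (hAI w)
  obtain ⟨w0, hw0⟩ := hBW _ h1
  obtain ⟨u1, hu1⟩ := hker u0 ⟨w0, hw0⟩
  apply hφ
  rw [hu0, ← hs, hu1, map_zsmul, AddMonoidHom.smul_apply, smul_eq_mul]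
  push_cast
  simp

/-- The orthogonal sum of a pairing with itself on `L × L`. -/
def l0_prodPair {L : Type*} [AddCommGroup L] (P : L →+ L →+ ℤ) : (L × L) →+ (L × L) →+ ℤ :=
  AddMonoidHom.mk' (fun u => (P u.1).comp (AddMonoidHom.fst L L) + (P u.2).comp (AddMonoidHom.snd L L))
    (by
      intro u v
      refine AddMonoidHom.ext fun w => ?_
      simp only [Prod.fst_add, Prod.snd_add, map_add, AddMonoidHom.add_apply,
        AddMonoidHom.comp_apply, AddMonoidHom.coe_fst, AddMonoidHom.coe_snd]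
      ring)

@[simp] theorem l0_prodPair_apply {L : Type*} [AddCommGroup L] (P : L →+ L →+ ℤ) (u v : L × L) :
    l0_prodPair P u v = P u.1 v.1 + P u.2 v.2 := rfl

/-- (a) `T = α'β = β'α` is self-adjoint as soon as `α ⊣ α'`, `β ⊣ β'` and the pairings are skew. -/
theorem l0_selfadj {LA LC : Type*} [AddCommGroup LA] [AddCommGroup LC]
    (PA : LA →+ LA →+ ℤ) (PC : LC →+ LC →+ ℤ)
    (hskA : ∀ x y, PA y x = -PA x y) (hskC : ∀ x y, PC y x = -PC x y)
    (α β : LA →+ LC) (α' β' : LC →+ LA) (T : LA →+ LA)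
    (hα : ∀ x z, PC (α x) z = PA x (α' z)) (hβ : ∀ x z, PC (β x) z = PA x (β' z))
    (h1 : ∀ x, α' (β x) = T x) (h2 : ∀ x, β' (α x) = T x) (x y : LA) :
    PA (T x) y = PA x (T y) := by
  rw [← h1 y, ← hα, hskC, hβ, h2, ← hskA]

/-- (b) `T α' = α' T` from adjointness, self-adjointness and nondegeneracy. -/
theorem l0_comm {LA LC : Type*} [AddCommGroup LA] [Module.Free ℤ LA] [AddCommGroup LC]
    (p : ℕ) (hp : p.Prime)
    (PA : LA →+ LA →+ ℤ) (PC : LC →+ LC →+ ℤ)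
    (hPA : ∀ x, (∀ y, (p : ℤ) ∣ PA x y) → ∃ x', x = (p : ℤ) • x')
    (hskA : ∀ x y, PA y x = -PA x y)
    (α : LA →+ LC) (α' : LC →+ LA) (hα : ∀ x z, PC (α x) z = PA x (α' z))
    (TA : LA →+ LA) (TC : LC →+ LC)
    (hTA : ∀ x y, PA (TA x) y = PA x (TA y)) (hTC : ∀ x y, PC (TC x) y = PC x (TC y))
    (hcomm : ∀ x, TC (α x) = α (TA x)) (z : LC) :
    TA (α' z) = α' (TC z) := by
  have h : ∀ x, PA x (TA (α' z) - α' (TC z)) = 0 := by
    intro x
    rw [map_sub, ← hTA, ← hα, ← hcomm, hTC, hα, sub_self]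
  have h' : ∀ x, PA (TA (α' z) - α' (TC z)) x = 0 := by
    intro x
    rw [hskA, h, neg_zero]
  exact sub_eq_zero.mp (l0_nondeg p hp PA hPA _ h')

/-- (c) **Dual Ihara at one index** in the shape required by the congruence-module lemma. -/
theorem l0_dual {LA LC : Type*} [AddCommGroup LA] [Module.Finite ℤ LA] [Module.Free ℤ LA]
    [AddCommGroup LC] (p : ℕ) [Fact p.Prime]
    (PA : LA →+ LA →+ ℤ) (PC : LC →+ LC →+ ℤ)
    (hPA : ∀ x, (∀ y, (p : ℤ) ∣ PA x y) → ∃ x', x = (p : ℤ) • x')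
    (hPC : ∀ x, (∀ y, (p : ℤ) ∣ PC x y) → ∃ x', x = (p : ℤ) • x')
    (α β : LA →+ LC) (α' β' : LC →+ LA)
    (hα : ∀ x z, PC (α x) z = PA x (α' z)) (hβ : ∀ x z, PC (β x) z = PA x (β' z))
    (T0 : LA →+ LA) (e0 : ℤ) (hT0 : ∀ x y, PA (T0 x) y = PA x (T0 y))
    (ihara : ∀ x y : LA, (∃ z, α x + β y = (p : ℤ) • z) →
      (∃ x', T0 x - e0 • x = (p : ℤ) • x') ∧ (∃ y', T0 y - e0 • y = (p : ℤ) • y'))
    (x y : LA) :
    ∃ (z : LC) (x' y' : LA),
      α' z = T0 x - e0 • x + (p : ℤ) • x' ∧ β' z = T0 y - e0 • y + (p : ℤ) • y' := by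
  let s0 : LA →+ LA := T0 - zsmulAddGroupHom e0
  have hs0 : ∀ u, s0 u = T0 u - e0 • u := fun u => rfl
  let A : (LA × LA) →+ LC := (α.comp (AddMonoidHom.fst LA LA)) + (β.comp (AddMonoidHom.snd LA LA))
  let A' : LC →+ (LA × LA) := α'.prod β'
  let s : (LA × LA) →+ (LA × LA) := s0.prodMap s0
  have hBU : ∀ u : LA × LA, (∀ v, (p : ℤ) ∣ l0_prodPair PA u v) → ∃ u', u = (p : ℤ) • u' := by
    intro u hu
    obtain ⟨x1, hx1⟩ := hPA u.1 (fun y => by simpa using hu (y, 0))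
    obtain ⟨x2, hx2⟩ := hPA u.2 (fun y => by simpa using hu (0, y))
    exact ⟨(x1, x2), Prod.ext hx1 hx2⟩
  have hadj : ∀ (u : LA × LA) (w : LC), PC (A u) w = l0_prodPair PA u (A' w) := by
    intro u w
    show PC (α u.1 + β u.2) w = PA u.1 (α' w) + PA u.2 (β' w)
    rw [map_add, AddMonoidHom.add_apply, hα, hβ]
  have hs0adj : ∀ a b, PA (s0 a) b = PA a (s0 b) := by
    intro a b
    rw [hs0, hs0, map_sub, map_sub, AddMonoidHom.sub_apply, hT0, map_zsmul, map_zsmul,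
      AddMonoidHom.smul_apply]
  have hs : ∀ u v : LA × LA, l0_prodPair PA (s u) v = l0_prodPair PA u (s v) := by
    intro u v
    show PA (s0 u.1) v.1 + PA (s0 u.2) v.2 = PA u.1 (s0 v.1) + PA u.2 (s0 v.2)
    rw [hs0adj, hs0adj]
  have hker : ∀ u : LA × LA, (∃ w, A u = (p : ℤ) • w) → ∃ u', s u = (p : ℤ) • u' := by
    intro u hu
    obtain ⟨⟨x1, hx1⟩, ⟨y1, hy1⟩⟩ := ihara u.1 u.2 hu
    exact ⟨(x1, y1), Prod.ext hx1 hy1⟩
  obtain ⟨w, u', hw⟩ := l0_dualStar p (l0_prodPair PA) PC hBU hPC A A' hadj s hs hker (x, y)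
  have hw1 : s0 x = α' w + (p : ℤ) • u'.1 := congrArg Prod.fst hw
  have hw2 : s0 y = β' w + (p : ℤ) • u'.2 := congrArg Prod.snd hw
  refine ⟨w, -u'.1, -u'.2, ?_, ?_⟩
  · rw [← hs0, hw1, smul_neg]; abel
  · rw [← hs0, hw2, smul_neg]; abel

end Fermat.Agent.Lib.S41
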