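import Fermat.Agent.Lib.S41.Defs

/-!
# S41, layer F1: the abstract congruence-module lemma (`h6_F1Statement`)

Pure linear algebra over `ℤ`.  Owner: lead.
-/

set_option autoImplicit false

namespace Fermat.Agent.Lib.S41

/-- Noetherian stabilisation: for a submodule `I` of a finitely generated abelian group there is
`k` with `p^(k+1) m ∈ I → p^k m ∈ I`. -/
theorem l1_stab {M : Type*} [AddCommGroup M] [Module.Finite ℤ M] (I : Submodule ℤ M) (p : ℤ) :
    ∃ k : ℕ, ∀ m : M, p ^ (k + 1) • m ∈ I → p ^ k • m ∈ I := by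
  have hN : IsNoetherian ℤ M := inferInstance
  let K : ℕ →o Submodule ℤ M :=
    ⟨fun n => I.comap (LinearMap.lsmul ℤ M (p ^ n)), by
      intro a b hab m hm
      simp only [Submodule.mem_comap, LinearMap.lsmul_apply] at hm ⊢
      obtain ⟨c, rfl⟩ := Nat.exists_eq_add_of_le hab
      rw [pow_add, mul_comm, mul_smul]
      exact I.smul_mem _ hm⟩
  obtain ⟨n, hn⟩ := monotone_stabilizes_iff_noetherian.mpr hN K
  refine ⟨n, fun m hm => ?_⟩
  have h1 : m ∈ K (n + 1) := by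
    show m ∈ I.comap (LinearMap.lsmul ℤ M (p ^ (n + 1)))
    simpa using hm
  rw [← hn (n + 1) (Nat.le_succ n)] at h1
  have h2 : m ∈ I.comap (LinearMap.lsmul ℤ M (p ^ n)) := h1
  simpa using h2

/-- If `s` preserves `I` and maps everything into `I + p M`, then `s^k` maps into `I + p^k M`. -/
theorem l1_pow {M : Type*} [AddCommGroup M] (I : Submodule ℤ M) (p : ℤ) (s : M →+ M)
    (hsI : ∀ a ∈ I, s a ∈ I) (hs : ∀ m : M, ∃ a ∈ I, ∃ m', s m = a + p • m') (k : ℕ) :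
    ∀ m : M, ∃ a ∈ I, ∃ m', (⇑s)^[k] m = a + p ^ k • m' := by
  induction k with
  | zero => intro m; exact ⟨0, I.zero_mem, m, by simp⟩
  | succ k ih =>
    intro m
    obtain ⟨a, ha, m', hm'⟩ := ih m
    obtain ⟨b, hb, m'', hm''⟩ := hs m'
    refine ⟨s a + p ^ k • b, I.add_mem (hsI a ha) (I.smul_mem _ hb), m'', ?_⟩
    rw [Function.iterate_succ_apply', hm', map_add, map_zsmul, hm'', smul_add, smul_smul,
      add_assoc, ← pow_succ]

/-- Core of step (iii): if `p w ∈ I`, `s I ⊆ I`, `s M ⊆ I + p M`, then `s^k w ∈ I` for some `k`. -/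
theorem l1_core {M : Type*} [AddCommGroup M] [Module.Finite ℤ M] (I : Submodule ℤ M) (p : ℤ)
    (s : M →+ M) (hsI : ∀ a ∈ I, s a ∈ I) (hs : ∀ m : M, ∃ a ∈ I, ∃ m', s m = a + p • m') :
    ∃ k : ℕ, ∀ w : M, p • w ∈ I → (⇑s)^[k] w ∈ I := by
  obtain ⟨k, hk⟩ := l1_stab I p
  refine ⟨k, fun w hw => ?_⟩
  obtain ⟨a, ha, m', hm'⟩ := l1_pow I p s hsI hs k w
  have hpow : ∀ (j : ℕ) (a : M), a ∈ I → (⇑s)^[j] a ∈ I := by
    intro j
    induction j with
    | zero => intro a ha; simpa using ha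
    | succ j ih => intro a ha; rw [Function.iterate_succ_apply']; exact hsI _ (ih a ha)
  have hsm : ∀ (j : ℕ) (a : M), (⇑s)^[j] (p • a) = p • (⇑s)^[j] a := by
    intro j
    induction j with
    | zero => intro a; rfl
    | succ j ih => intro a; rw [Function.iterate_succ_apply', Function.iterate_succ_apply', ih,
        map_zsmul]
  have h1 : (⇑s)^[k] (p • w) ∈ I := hpow k _ hw
  rw [hsm, hm', smul_add, smul_smul, ← pow_succ'] at h1
  have h2 : p ^ (k + 1) • m' ∈ I := by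
    have := I.sub_mem h1 (I.smul_mem p ha)
    simpa using this
  rw [hm']
  exact I.add_mem ha (hk m' h2)


/-- The subgroup `p L`. -/
def l1_D (p : ℤ) (L : Type*) [AddCommGroup L] : AddSubgroup L := (zsmulAddGroupHom p).range

theorem l1_mem_D {p : ℤ} {L : Type*} [AddCommGroup L] {x : L} :
    x ∈ l1_D p L ↔ ∃ x', x = p • x' := by
  constructor
  · rintro ⟨x', rfl⟩; exact ⟨x', rfl⟩
  · rintro ⟨x', rfl⟩; exact ⟨x', rfl⟩

theorem l1_map_D {p : ℤ} {L L' : Type*} [AddCommGroup L] [AddCommGroup L'] (f : L →+ L') {x : L}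
    (hx : x ∈ l1_D p L) : f x ∈ l1_D p L' := by
  obtain ⟨x', rfl⟩ := l1_mem_D.mp hx
  exact l1_mem_D.mpr ⟨f x', map_zsmul f p x'⟩

theorem l1_smul_D {p : ℤ} {L : Type*} [AddCommGroup L] (x : L) : p • x ∈ l1_D p L :=
  l1_mem_D.mpr ⟨x, rfl⟩

/-- Coprime cancellation modulo `p L`. -/
theorem l1_cancel {p c : ℤ} (hc : IsCoprime c p) {L : Type*} [AddCommGroup L] {x : L}
    (h : c • x ∈ l1_D p L) : x ∈ l1_D p L := by
  obtain ⟨a, b, hab⟩ := hc
  have : x = a • (c • x) + p • (b • x) := by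
    rw [smul_smul, smul_smul, ← add_smul, mul_comm p b, hab, one_smul]
  rw [this]
  exact (l1_D p L).add_mem ((l1_D p L).zsmul_mem h a) (l1_smul_D _)

/-- **(F1)** the abstract congruence-module lemma. -/
theorem l1_F1 : h6_F1Statement := by
  intro LA LC _ _ _ _ _ _ p hp q ι TA TC T α β α' β' hαα hββ hαβ hβα hCα hCβ hAα' hAβ' e θ
    ihara dual i0 hi0 x hx hxeig ε hε hT
  have hcop : IsCoprime (θ i0 - e i0) (p : ℤ) :=
    ((Nat.prime_iff_prime_int.mp hp).irreducible.coprime_iff_not_dvd.mpr hi0).symm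
  have hε2 : ε * ε = 1 := by rcases hε with h | h <;> subst h <;> norm_num
  -- the operators `s = T_{i0} - e_{i0}`
  let sA : LA →+ LA := ⟨⟨fun a => TA i0 a - e i0 • a, by simp⟩, by
    intro a b; simp only [map_add, smul_add]; abel⟩
  let sC : LC →+ LC := ⟨⟨fun a => TC i0 a - e i0 • a, by simp⟩, by
    intro a b; simp only [map_add, smul_add]; abel⟩
  have hsA : ∀ a, sA a = TA i0 a - e i0 • a := fun _ => rfl
  have hsC : ∀ a, sC a = TC i0 a - e i0 • a := fun _ => rfl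
  let iD : LC →+ LA × LA := AddMonoidHom.prod α' β'
  have hiD : ∀ z, iD z = (α' z, β' z) := fun _ => rfl
  let s : LA × LA →+ LA × LA := AddMonoidHom.prodMap sA sA
  have hs_apply : ∀ m : LA × LA, s m = (sA m.1, sA m.2) := fun _ => rfl
  let I : Submodule ℤ (LA × LA) := LinearMap.range iD.toIntLinearMap
  have hI : ∀ m : LA × LA, m ∈ I ↔ ∃ z, iD z = m := by
    intro m; exact LinearMap.mem_range
  -- `iD ∘ sC = s ∘ iD`
  have hcomm : ∀ z, iD (sC z) = s (iD z) := by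
    intro z
    rw [hiD, hs_apply, hiD, hsC, hsA, hsA, map_sub, map_sub, map_zsmul, map_zsmul, hAα', hAβ']
  have hcommk : ∀ (j : ℕ) (z : LC), iD ((⇑sC)^[j] z) = (⇑s)^[j] (iD z) := by
    intro j
    induction j with
    | zero => intro z; rfl
    | succ j ih =>
      intro z
      rw [Function.iterate_succ_apply', Function.iterate_succ_apply', hcomm, ih]
  have hsI : ∀ a ∈ I, s a ∈ I := by
    intro a ha
    obtain ⟨z, rfl⟩ := (hI a).mp ha
    exact (hI _).mpr ⟨sC z, hcomm z⟩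
  have hs : ∀ m : LA × LA, ∃ a ∈ I, ∃ m', s m = a + (p : ℤ) • m' := by
    intro m
    obtain ⟨z, x', y', h1, h2⟩ := dual i0 m.1 m.2
    refine ⟨iD z, (hI _).mpr ⟨z, rfl⟩, (-x', -y'), ?_⟩
    rw [hs_apply, hiD, hsA, hsA, h1, h2]
    ext <;> simp
  obtain ⟨k, hk⟩ := l1_core I (p : ℤ) s hsI hs
  -- the class `y0 = α x - ε β x`
  obtain ⟨x'', hx''⟩ := hT
  obtain ⟨y0, hy0⟩ : ∃ y0 : LC, y0 = α x - ε • β x := ⟨_, rfl⟩
  have hα'y0 : α' y0 = (p : ℤ) • (-(ε • x'')) := by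
    have hTx : T x = (ε * (q + 1)) • x + (p : ℤ) • x'' := by rw [← hx'']; abel
    rw [hy0, map_sub, map_zsmul, hαα, hαβ, hTx, smul_add, smul_smul, ← mul_assoc, hε2, one_mul,
      smul_neg, smul_comm ε (p : ℤ) x'']
    abel
  have hβ'y0 : β' y0 = (p : ℤ) • x'' := by
    rw [hy0, map_sub, map_zsmul, hββ, hβα, ← hx'', smul_smul]
  -- `y0` is an eigenvector mod `p`
  have hy0eig : ∀ i, TC i y0 - θ i • y0 ∈ l1_D (p : ℤ) LC := by
    intro i
    obtain ⟨x', hx'⟩ := hxeig i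
    have hTAx : TA i x = θ i • x + (p : ℤ) • x' := by rw [← hx']; abel
    have : TC i y0 - θ i • y0 = (p : ℤ) • (α x' - ε • β x') := by
      rw [hy0]
      simp only [map_sub, map_add, map_zsmul, hCα, hCβ, hTAx]
      module
    rw [this]; exact l1_smul_D _
  -- `y0` is not divisible by `p` (Ihara)
  have hy0nd : y0 ∉ l1_D (p : ℤ) LC := by
    intro hdiv
    obtain ⟨z, hz⟩ := l1_mem_D.mp hdiv
    have h1 := (ihara x (-(ε • x)) ⟨z, by rw [← hz, hy0, map_neg, map_zsmul]; abel⟩ i0).1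
    obtain ⟨x1, hx1⟩ := h1
    obtain ⟨x2, hx2⟩ := hxeig i0
    apply hx
    have : (θ i0 - e i0) • x ∈ l1_D (p : ℤ) LA := by
      have : (θ i0 - e i0) • x = (p : ℤ) • (x1 - x2) := by
        rw [smul_sub, ← hx1, ← hx2, sub_smul]; abel
      rw [this]; exact l1_smul_D _
    exact l1_mem_D.mp (l1_cancel hcop this)
  -- `sC^j y0 ≡ (θ - e)^j y0`
  have hpowy0 : ∀ j : ℕ, (⇑sC)^[j] y0 - (θ i0 - e i0) ^ j • y0 ∈ l1_D (p : ℤ) LC := by
    intro j
    induction j with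
    | zero => simp
    | succ j ih =>
      rw [Function.iterate_succ_apply']
      have h1 : sC ((⇑sC)^[j] y0 - (θ i0 - e i0) ^ j • y0) ∈ l1_D (p : ℤ) LC := l1_map_D sC ih
      have h2 : (θ i0 - e i0) ^ j • (TC i0 y0 - θ i0 • y0) ∈ l1_D (p : ℤ) LC :=
        (l1_D (p : ℤ) LC).zsmul_mem (hy0eig i0) _
      have : sC ((⇑sC)^[j] y0) - (θ i0 - e i0) ^ (j + 1) • y0
          = sC ((⇑sC)^[j] y0 - (θ i0 - e i0) ^ j • y0)
            + (θ i0 - e i0) ^ j • (TC i0 y0 - θ i0 • y0) := by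
        rw [map_sub, map_zsmul, hsC y0, pow_succ]
        module
      rw [this]
      exact (l1_D (p : ℤ) LC).add_mem h1 h2
  -- lift
  have hw : (p : ℤ) • ((-(ε • x''), x'') : LA × LA) ∈ I := by
    refine (hI _).mpr ⟨y0, ?_⟩
    rw [hiD, hα'y0, hβ'y0]; rfl
  obtain ⟨z, hz⟩ := (hI _).mp (hk _ hw)
  have hsm : ∀ (j : ℕ) (a : LA × LA), (⇑s)^[j] ((p : ℤ) • a) = (p : ℤ) • (⇑s)^[j] a := by
    intro j
    induction j with
    | zero => intro a; rfl
    | succ j ih =>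
      intro a
      rw [Function.iterate_succ_apply', Function.iterate_succ_apply', ih, map_zsmul]
  have hiDy : iD ((⇑sC)^[k] y0 - (p : ℤ) • z) = 0 := by
    rw [map_sub, map_zsmul, hcommk, hz, hiD, hα'y0, hβ'y0]
    have : (((p : ℤ) • -(ε • x''), (p : ℤ) • x'') : LA × LA) = (p : ℤ) • (-(ε • x''), x'') := rfl
    rw [this, hsm, sub_self]
  -- the difference `d = y - c y0` is divisible by `p`
  have hd : ((⇑sC)^[k] y0 - (p : ℤ) • z) - (θ i0 - e i0) ^ k • y0 ∈ l1_D (p : ℤ) LC := by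
    have : ((⇑sC)^[k] y0 - (p : ℤ) • z) - (θ i0 - e i0) ^ k • y0
        = ((⇑sC)^[k] y0 - (θ i0 - e i0) ^ k • y0) - (p : ℤ) • z := by abel
    rw [this]
    exact (l1_D (p : ℤ) LC).sub_mem (hpowy0 k) (l1_smul_D _)
  obtain ⟨y, hy⟩ : ∃ y : LC, y = (⇑sC)^[k] y0 - (p : ℤ) • z := ⟨_, rfl⟩
  rw [← hy] at hiDy hd
  refine ⟨y, ?_, ?_, ?_, ?_⟩
  · have := congrArg Prod.fst hiDy
    rw [hiD] at this
    exact this
  · have := congrArg Prod.snd hiDy
    rw [hiD] at this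
    exact this
  · intro hdiv
    apply hy0nd
    have h1 : (θ i0 - e i0) ^ k • y0 ∈ l1_D (p : ℤ) LC := by
      have : (θ i0 - e i0) ^ k • y0 = y - (y - (θ i0 - e i0) ^ k • y0) := by abel
      rw [this]
      exact (l1_D (p : ℤ) LC).sub_mem (l1_mem_D.mpr hdiv) hd
    exact l1_cancel (hcop.pow_left) h1
  · intro i
    apply l1_mem_D.mp
    have h1 : TC i (y - (θ i0 - e i0) ^ k • y0) ∈ l1_D (p : ℤ) LC := l1_map_D (TC i) hd
    have h2 : θ i • (y - (θ i0 - e i0) ^ k • y0) ∈ l1_D (p : ℤ) LC :=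
      (l1_D (p : ℤ) LC).zsmul_mem hd _
    have h3 : (θ i0 - e i0) ^ k • (TC i y0 - θ i • y0) ∈ l1_D (p : ℤ) LC :=
      (l1_D (p : ℤ) LC).zsmul_mem (hy0eig i) _
    have : TC i y - θ i • y = TC i (y - (θ i0 - e i0) ^ k • y0)
        - θ i • (y - (θ i0 - e i0) ^ k • y0) + (θ i0 - e i0) ^ k • (TC i y0 - θ i • y0) := by
      rw [map_sub, map_zsmul]
      module
    rw [this]
    exact (l1_D (p : ℤ) LC).add_mem ((l1_D (p : ℤ) LC).sub_mem h1 h2) h3

end Fermat.Agent.Lib.S41
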