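import Fermat.Agent.Lib.S41.Defs
import Fermat.Agent.Lib.S41.F1Lemma

/-!
# S41, layer F1, version 2: the abstract congruence-module lemma with `ihara` / `dual` required
only at the distinguished index `i0`

Owner: helper2 (statement) / lead (proof: verbatim `l1_F1`, which uses the two hypotheses only
at `i0`).
-/

set_option autoImplicit false

namespace Fermat.Agent.Lib.S41

/-- **(F1b)** as `h6_F1Statement`, but `ihara` and `dual` are only required for the index `i0`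
(with `¬ p ∣ θ i0 - e i0`). -/
def h6b_F1Statement : Prop :=
  ∀ (LA LC : Type) [AddCommGroup LA] [AddCommGroup LC] [Module.Finite ℤ LA] [Module.Free ℤ LA]
    [Module.Finite ℤ LC] [Module.Free ℤ LC] (p : ℕ) (_ : p.Prime) (q : ℤ)
    (ι : Type) (TA : ι → LA →+ LA) (TC : ι → LC →+ LC) (T : LA →+ LA)
    (α β : LA →+ LC) (α' β' : LC →+ LA)
    (_ : ∀ x, α' (α x) = (q + 1) • x) (_ : ∀ x, β' (β x) = (q + 1) • x)
    (_ : ∀ x, α' (β x) = T x) (_ : ∀ x, β' (α x) = T x)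
    (_ : ∀ i x, TC i (α x) = α (TA i x)) (_ : ∀ i x, TC i (β x) = β (TA i x))
    (_ : ∀ i y, TA i (α' y) = α' (TC i y)) (_ : ∀ i y, TA i (β' y) = β' (TC i y))
    (e θ : ι → ℤ) (i0 : ι) (_ : ¬ (p : ℤ) ∣ θ i0 - e i0)
    (_ : ∀ x y : LA, (∃ z, α x + β y = (p : ℤ) • z) →
      (∃ x', TA i0 x - e i0 • x = (p : ℤ) • x') ∧ (∃ y', TA i0 y - e i0 • y = (p : ℤ) • y'))
    (_ : ∀ (x y : LA), ∃ (z : LC) (x' y' : LA),
      α' z = TA i0 x - e i0 • x + (p : ℤ) • x' ∧ β' z = TA i0 y - e i0 • y + (p : ℤ) • y')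
    (x : LA) (_ : ¬ ∃ x', x = (p : ℤ) • x') (_ : ∀ i, ∃ x', TA i x - θ i • x = (p : ℤ) • x')
    (ε : ℤ) (_ : ε = 1 ∨ ε = -1) (_ : ∃ x', T x - (ε * (q + 1)) • x = (p : ℤ) • x'),
    ∃ y : LC, α' y = 0 ∧ β' y = 0 ∧ (¬ ∃ y', y = (p : ℤ) • y') ∧
      ∀ i, ∃ y', TC i y - θ i • y = (p : ℤ) • y'

/-- **(F1b)** the abstract congruence-module lemma, `ihara`/`dual` at `i0` only. -/
theorem l1b_F1 : h6b_F1Statement := by
  intro LA LC _ _ _ _ _ _ p hp q ι TA TC T α β α' β' hαα hββ hαβ hβα hCα hCβ hAα' hAβ' e θ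
    i0 hi0 ihara dual x hx hxeig ε hε hT
  have hcop : IsCoprime (θ i0 - e i0) (p : ℤ) :=
    ((Nat.prime_iff_prime_int.mp hp).irreducible.coprime_iff_not_dvd.mpr hi0).symm
  have hε2 : ε * ε = 1 := by rcases hε with h | h <;> subst h <;> norm_num
  -- the operators `s = T_{i0} - e_{i0}`
  let sA : LA →+ LA := ⟨⟨fun a => TA i0 a - e i0 • a, by simp⟩, by
    intro a b; simp only [map_add, smul_add]; abel⟩
  let sC : LC →+ LC := ⟨⟨fun a => TC i0 a - e i0 • a, by simp⟩, by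
    intro a b; simp only [map_add, smul_add]; abel⟩
  have hsA : ∀ a, sA a = TA i0 a - e i0 • a := fun _ => rfl
  have hsC : ∀ a, sC a = TC i0 a - e i0 • a := fun _ => rfl
  let iD : LC →+ LA × LA := AddMonoidHom.prod α' β'
  have hiD : ∀ z, iD z = (α' z, β' z) := fun _ => rfl
  let s : LA × LA →+ LA × LA := AddMonoidHom.prodMap sA sA
  have hs_apply : ∀ m : LA × LA, s m = (sA m.1, sA m.2) := fun _ => rfl
  let I : Submodule ℤ (LA × LA) := LinearMap.range iD.toIntLinearMap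
  have hI : ∀ m : LA × LA, m ∈ I ↔ ∃ z, iD z = m := by
    intro m; exact LinearMap.mem_range
  -- `iD ∘ sC = s ∘ iD`
  have hcomm : ∀ z, iD (sC z) = s (iD z) := by
    intro z
    rw [hiD, hs_apply, hiD, hsC, hsA, hsA, map_sub, map_sub, map_zsmul, map_zsmul, hAα', hAβ']
  have hcommk : ∀ (j : ℕ) (z : LC), iD ((⇑sC)^[j] z) = (⇑s)^[j] (iD z) := by
    intro j
    induction j with
    | zero => intro z; rfl
    | succ j ih =>
      intro z
      rw [Function.iterate_succ_apply', Function.iterate_succ_apply', hcomm, ih]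
  have hsI : ∀ a ∈ I, s a ∈ I := by
    intro a ha
    obtain ⟨z, rfl⟩ := (hI a).mp ha
    exact (hI _).mpr ⟨sC z, hcomm z⟩
  have hs : ∀ m : LA × LA, ∃ a ∈ I, ∃ m', s m = a + (p : ℤ) • m' := by
    intro m
    obtain ⟨z, x', y', h1, h2⟩ := dual m.1 m.2
    refine ⟨iD z, (hI _).mpr ⟨z, rfl⟩, (-x', -y'), ?_⟩
    rw [hs_apply, hiD, hsA, hsA, h1, h2]
    ext <;> simp
  obtain ⟨k, hk⟩ := l1_core I (p : ℤ) s hsI hs
  -- the class `y0 = α x - ε β x`
  obtain ⟨x'', hx''⟩ := hT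
  obtain ⟨y0, hy0⟩ : ∃ y0 : LC, y0 = α x - ε • β x := ⟨_, rfl⟩
  have hα'y0 : α' y0 = (p : ℤ) • (-(ε • x'')) := by
    have hTx : T x = (ε * (q + 1)) • x + (p : ℤ) • x'' := by rw [← hx'']; abel
    rw [hy0, map_sub, map_zsmul, hαα, hαβ, hTx, smul_add, smul_smul, ← mul_assoc, hε2, one_mul,
      smul_neg, smul_comm ε (p : ℤ) x'']
    abel
  have hβ'y0 : β' y0 = (p : ℤ) • x'' := by
    rw [hy0, map_sub, map_zsmul, hββ, hβα, ← hx'', smul_smul]
  -- `y0` is an eigenvector mod `p`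
  have hy0eig : ∀ i, TC i y0 - θ i • y0 ∈ l1_D (p : ℤ) LC := by
    intro i
    obtain ⟨x', hx'⟩ := hxeig i
    have hTAx : TA i x = θ i • x + (p : ℤ) • x' := by rw [← hx']; abel
    have : TC i y0 - θ i • y0 = (p : ℤ) • (α x' - ε • β x') := by
      rw [hy0]
      simp only [map_sub, map_add, map_zsmul, hCα, hCβ, hTAx]
      module
    rw [this]; exact l1_smul_D _
  -- `y0` is not divisible by `p` (Ihara)
  have hy0nd : y0 ∉ l1_D (p : ℤ) LC := by
    intro hdiv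
    obtain ⟨z, hz⟩ := l1_mem_D.mp hdiv
    have h1 := (ihara x (-(ε • x)) ⟨z, by rw [← hz, hy0, map_neg, map_zsmul]; abel⟩).1
    obtain ⟨x1, hx1⟩ := h1
    obtain ⟨x2, hx2⟩ := hxeig i0
    apply hx
    have : (θ i0 - e i0) • x ∈ l1_D (p : ℤ) LA := by
      have : (θ i0 - e i0) • x = (p : ℤ) • (x1 - x2) := by
        rw [smul_sub, ← hx1, ← hx2, sub_smul]; abel
      rw [this]; exact l1_smul_D _
    exact l1_mem_D.mp (l1_cancel hcop this)
  -- `sC^j y0 ≡ (θ - e)^j y0`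
  have hpowy0 : ∀ j : ℕ, (⇑sC)^[j] y0 - (θ i0 - e i0) ^ j • y0 ∈ l1_D (p : ℤ) LC := by
    intro j
    induction j with
    | zero => simp
    | succ j ih =>
      rw [Function.iterate_succ_apply']
      have h1 : sC ((⇑sC)^[j] y0 - (θ i0 - e i0) ^ j • y0) ∈ l1_D (p : ℤ) LC := l1_map_D sC ih
      have h2 : (θ i0 - e i0) ^ j • (TC i0 y0 - θ i0 • y0) ∈ l1_D (p : ℤ) LC :=
        (l1_D (p : ℤ) LC).zsmul_mem (hy0eig i0) _
      have : sC ((⇑sC)^[j] y0) - (θ i0 - e i0) ^ (j + 1) • y0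
          = sC ((⇑sC)^[j] y0 - (θ i0 - e i0) ^ j • y0)
            + (θ i0 - e i0) ^ j • (TC i0 y0 - θ i0 • y0) := by
        rw [map_sub, map_zsmul, hsC y0, pow_succ]
        module
      rw [this]
      exact (l1_D (p : ℤ) LC).add_mem h1 h2
  -- lift
  have hw : (p : ℤ) • ((-(ε • x''), x'') : LA × LA) ∈ I := by
    refine (hI _).mpr ⟨y0, ?_⟩
    rw [hiD, hα'y0, hβ'y0]; rfl
  obtain ⟨z, hz⟩ := (hI _).mp (hk _ hw)
  have hsm : ∀ (j : ℕ) (a : LA × LA), (⇑s)^[j] ((p : ℤ) • a) = (p : ℤ) • (⇑s)^[j] a := by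
    intro j
    induction j with
    | zero => intro a; rfl
    | succ j ih =>
      intro a
      rw [Function.iterate_succ_apply', Function.iterate_succ_apply', ih, map_zsmul]
  have hiDy : iD ((⇑sC)^[k] y0 - (p : ℤ) • z) = 0 := by
    rw [map_sub, map_zsmul, hcommk, hz, hiD, hα'y0, hβ'y0]
    have : (((p : ℤ) • -(ε • x''), (p : ℤ) • x'') : LA × LA) = (p : ℤ) • (-(ε • x''), x'') := rfl
    rw [this, hsm, sub_self]
  -- the difference `d = y - c y0` is divisible by `p`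
  have hd : ((⇑sC)^[k] y0 - (p : ℤ) • z) - (θ i0 - e i0) ^ k • y0 ∈ l1_D (p : ℤ) LC := by
    have : ((⇑sC)^[k] y0 - (p : ℤ) • z) - (θ i0 - e i0) ^ k • y0
        = ((⇑sC)^[k] y0 - (θ i0 - e i0) ^ k • y0) - (p : ℤ) • z := by abel
    rw [this]
    exact (l1_D (p : ℤ) LC).sub_mem (hpowy0 k) (l1_smul_D _)
  obtain ⟨y, hy⟩ : ∃ y : LC, y = (⇑sC)^[k] y0 - (p : ℤ) • z := ⟨_, rfl⟩
  rw [← hy] at hiDy hd
  refine ⟨y, ?_, ?_, ?_, ?_⟩
  · have := congrArg Prod.fst hiDy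
    rw [hiD] at this
    exact this
  · have := congrArg Prod.snd hiDy
    rw [hiD] at this
    exact this
  · intro hdiv
    apply hy0nd
    have h1 : (θ i0 - e i0) ^ k • y0 ∈ l1_D (p : ℤ) LC := by
      have : (θ i0 - e i0) ^ k • y0 = y - (y - (θ i0 - e i0) ^ k • y0) := by abel
      rw [this]
      exact (l1_D (p : ℤ) LC).sub_mem (l1_mem_D.mpr hdiv) hd
    exact l1_cancel (hcop.pow_left) h1
  · intro i
    apply l1_mem_D.mp
    have h1 : TC i (y - (θ i0 - e i0) ^ k • y0) ∈ l1_D (p : ℤ) LC := l1_map_D (TC i) hd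
    have h2 : θ i • (y - (θ i0 - e i0) ^ k • y0) ∈ l1_D (p : ℤ) LC :=
      (l1_D (p : ℤ) LC).zsmul_mem hd _
    have h3 : (θ i0 - e i0) ^ k • (TC i y0 - θ i • y0) ∈ l1_D (p : ℤ) LC :=
      (l1_D (p : ℤ) LC).zsmul_mem (hy0eig i) _
    have : TC i y - θ i • y = TC i (y - (θ i0 - e i0) ^ k • y0)
        - θ i • (y - (θ i0 - e i0) ^ k • y0) + (θ i0 - e i0) ^ k • (TC i y0 - θ i • y0) := by
      rw [map_sub, map_zsmul]
      module
    rw [this]
    exact (l1_D (p : ℤ) LC).add_mem ((l1_D (p : ℤ) LC).sub_mem h1 h2) h3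

end Fermat.Agent.Lib.S41
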