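/-
S41 project (level raising), layer [C1] (helper1), number-field core:
in a cyclic Galois extension `K/F` of number fields of prime-power order there are primes of `F`
of prime norm (outside any finite set), unramified in `K`, whose Frobenius element GENERATES
`Gal(K/F)`.  Inputs: the split-density theorem `h1z_Z3_strong` (Lib/S14/ZetaZ3) applied to the
subextension fixed by the `r`-th powers, and helper2's Frobenius functoriality (Lib/S14/Artin*).
-/
import Mathlib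
import Fermat.Agent.Lib.S14.ZetaZ3
import Fermat.Agent.Lib.S14.ArtinTower
import Fermat.Agent.Lib.S14.ArtinNorm

set_option autoImplicit false
set_option linter.unusedSectionVars false
set_option linter.unusedVariables false

open NumberField

namespace Fermat.Agent.Lib.S41

open Fermat.Agent.Lib.S14 IsDedekindDomain
open scoped Pointwise

section group

variable {G : Type*} [Group G]

/-- In a group, if `φ = g ^ i` with `i` prime to the order `r ^ b` of `g`, then `g` is a power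
of `φ`. -/
theorem h1f_mem_zpowers_of_not_dvd (g : G) (r a : ℕ) (hr : r.Prime) (hga : g ^ (r ^ a) = 1)
    (i : ℤ) (hi : ¬ (r : ℤ) ∣ i) : g ∈ Subgroup.zpowers (g ^ i) := by
  have hcop : IsCoprime i ((r : ℤ) ^ a) := by
    apply IsCoprime.pow_right
    rw [isCoprime_comm]
    exact ((Nat.prime_iff_prime_int.mp hr).irreducible.coprime_iff_not_dvd).mpr hi
  obtain ⟨u, v, huv⟩ := hcop
  refine ⟨u, ?_⟩
  have h1 : g ^ ((r : ℤ) ^ a) = 1 := by
    have : ((r : ℤ) ^ a) = ((r ^ a : ℕ) : ℤ) := by push_cast; rfl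
    rw [this, zpow_natCast, hga]
  calc (g ^ i) ^ u = g ^ (u * i) := by rw [← zpow_mul, mul_comm]
    _ = g ^ (u * i) * (g ^ ((r : ℤ) ^ a)) ^ v := by rw [h1, one_zpow, mul_one]
    _ = g ^ (u * i + v * (r : ℤ) ^ a) := by rw [← zpow_mul, ← zpow_add, mul_comm v]
    _ = g := by rw [huv, zpow_one]

/-- `g ∉ ⟨g ^ r⟩` if `g ≠ 1` has `r`-power order. -/
theorem h1f_not_mem_zpowers_pow (g : G) (r a : ℕ) (hr : r.Prime) (hga : g ^ (r ^ a) = 1)
    (hg1 : g ≠ 1) : g ∉ Subgroup.zpowers (g ^ r) := by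
  rintro ⟨j, hj⟩
  have hj' : g ^ ((r : ℤ) * j) = g ^ (1 : ℤ) := by
    rw [zpow_one, zpow_mul, zpow_natCast]
    exact hj
  have hnd : ¬ (r : ℤ) ∣ ((r : ℤ) * j - 1) := by
    intro h
    have h1 : (r : ℤ) ∣ 1 := by
      have := dvd_sub (Dvd.intro j rfl : (r : ℤ) ∣ (r : ℤ) * j) h
      simpa using this
    have := Int.natAbs_dvd_natAbs.mpr h1
    simp at this
    exact hr.ne_one this
  have hmem := h1f_mem_zpowers_of_not_dvd g r a hr hga ((r : ℤ) * j - 1) hnd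
  have h0 : g ^ ((r : ℤ) * j - 1) = 1 := by
    rw [zpow_sub, hj', zpow_one, mul_inv_cancel]
  rw [h0, Subgroup.zpowers_one_eq_bot, Subgroup.mem_bot] at hmem
  exact hg1 hmem

end group

section P1

variable {F K : Type*} [Field F] [NumberField F] [Field K] [NumberField K] [Algebra F K]
  [IsGalois F K]

/-- The finite set of norms of the primes of `F` below a prime of `K` ramified over `F`. -/
noncomputable def h1f_ramNorms (F K : Type*) [Field F] [NumberField F] [Field K] [NumberField K]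
    [Algebra F K] : Finset ℕ :=
  (h1s_ramSet_finite F K).toFinset.image (fun w => Ideal.absNorm (h1z_below F K w).asIdeal)

theorem h1f_ramificationIdx_of_notMem (𝔮 : Ideal (𝓞 F)) (h𝔮 : Ideal.absNorm 𝔮 ∉ h1f_ramNorms F K)
    (𝔓 : Ideal (𝓞 K)) [𝔓.IsPrime] (h𝔓 : 𝔓 ≠ ⊥) (hl : 𝔓.LiesOver 𝔮) :
    𝔓.ramificationIdx (𝓞 F) = 1 := by
  by_contra hne
  apply h𝔮
  set w : HeightOneSpectrum (𝓞 K) := ⟨𝔓, inferInstance, h𝔓⟩ with hw
  have hwram : w ∈ h1s_ramSet F K := hne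
  have hbelow : (h1z_below F K w).asIdeal = 𝔮 := by
    rw [h1z_below_asIdeal]
    exact (hl.over).symm
  unfold h1f_ramNorms
  rw [Finset.mem_image]
  exact ⟨w, (Set.Finite.mem_toFinset _).mpr hwram, by rw [hbelow]⟩

/-- **(P1)** In a cyclic Galois extension `K/F` of number fields generated by an element `g` of
`r`-power order (`g ≠ 1`), outside any finite set of norms there is a prime `𝔮` of `F` of prime
norm such that every prime `𝔓` of `K` above `𝔮` is unramified and `g` is a power of the Frobenius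
element at `𝔓`. -/
theorem h1f_gen_frob (g : K ≃ₐ[F] K) (hgen : ∀ x : K ≃ₐ[F] K, x ∈ Subgroup.zpowers g)
    (r a : ℕ) (hr : r.Prime) (hga : g ^ (r ^ a) = 1) (hg1 : g ≠ 1) (T : Finset ℕ) :
    ∃ 𝔮 : Ideal (𝓞 F), 𝔮.IsPrime ∧ (Ideal.absNorm 𝔮).Prime ∧ Ideal.absNorm 𝔮 ∉ T ∧
      ∀ (𝔓 : Ideal (𝓞 K)) [𝔓.IsPrime] (h𝔓 : 𝔓 ≠ ⊥), 𝔓.LiesOver 𝔮 →
        𝔓.inertia Gal(K/F) = ⊥ ∧ g ∈ Subgroup.zpowers (h2a_frob F K 𝔓 h𝔓) := by
  classical
  have hcomm : ∀ x y : K ≃ₐ[F] K, x * y = y * x := by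
    intro x y
    obtain ⟨i, rfl⟩ := hgen x
    obtain ⟨j, rfl⟩ := hgen y
    show g ^ i * g ^ j = g ^ j * g ^ i
    rw [← zpow_add, ← zpow_add, add_comm]
  set H : Subgroup (K ≃ₐ[F] K) := Subgroup.zpowers (g ^ r) with hH
  have hHn : H.Normal :=
    ⟨fun n hn x => by rw [hcomm x n, mul_inv_cancel_right]; exact hn⟩
  set K'' : IntermediateField F K := IntermediateField.fixedField H with hK''
  have hfix : K''.fixingSubgroup = H := IntermediateField.fixingSubgroup_fixedField H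
  have hgH : g ∉ H := h1f_not_mem_zpowers_pow g r a hr hga hg1
  have hdeg : 1 < Module.finrank F K'' := by
    have hpos : 0 < Module.finrank F K'' := Module.finrank_pos
    have hne : Module.finrank F K'' ≠ 1 := by
      intro h1
      rw [IntermediateField.finrank_eq_one_iff] at h1
      apply hgH
      rw [← hfix, h1, IntermediateField.fixingSubgroup_bot]
      trivial
    omega
  obtain ⟨𝔮, h𝔮, hnp, hnT, hall⟩ := h1z_Z3_strong F K'' hdeg (T ∪ h1f_ramNorms F K)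
  have hnT1 : Ideal.absNorm 𝔮 ∉ T := fun h => hnT (Finset.mem_union_left _ h)
  have hnT2 : Ideal.absNorm 𝔮 ∉ h1f_ramNorms F K := fun h => hnT (Finset.mem_union_right _ h)
  refine ⟨𝔮, h𝔮, hnp, hnT1, ?_⟩
  intro 𝔓 _ h𝔓 hl
  have he : 𝔓.ramificationIdx (𝓞 F) = 1 := h1f_ramificationIdx_of_notMem 𝔮 hnT2 𝔓 h𝔓 hl
  have hI : 𝔓.inertia Gal(K/F) = ⊥ := (h2a_inertia_eq_bot_iff 𝔓 h𝔓).2 he
  refine ⟨hI, ?_⟩
  set 𝔔 : Ideal (𝓞 K'') := 𝔓.under (𝓞 K'') with h𝔔
  have h𝔔0 : 𝔔 ≠ ⊥ := h2a_under_ne_bot 𝔓 h𝔓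
  have h𝔔l : 𝔔.LiesOver 𝔮 := by
    constructor
    rw [h𝔔, Ideal.under_under]
    exact hl.over
  obtain ⟨he'', σ'', hσ1, hσ⟩ := hall 𝔔 inferInstance h𝔔l
  have hI'' : 𝔔.inertia Gal(K''/F) = ⊥ := (h2a_inertia_eq_bot_iff 𝔔 h𝔔0).2 he''
  have hres := h2a_frob_restrict (K := F) (L := K'') (M := K) 𝔓 h𝔓 hI''
  have hσ'' : σ'' = h2a_frob F K'' 𝔔 h𝔔0 := by
    apply h2a_frob_unique 𝔔 h𝔔0 hI''
    intro x
    have hcard : Nat.card (𝓞 F ⧸ 𝔔.under (𝓞 F)) = Ideal.absNorm 𝔮 := by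
      rw [← h𝔔l.over, Ideal.absNorm_apply, Submodule.cardQuot_apply]
    rw [hcard]
    exact hσ x
  set φ := h2a_frob F K 𝔓 h𝔓 with hφ
  have hφH : φ ∉ H := by
    intro hmem
    apply hσ1
    rw [hσ'', ← hres]
    rw [← hfix] at hmem
    ext x
    have h1 := (IntermediateField.mem_fixingSubgroup_iff K'' φ).mp hmem x x.2
    have h2 := AlgEquiv.restrictNormal_commutes φ K'' x
    exact h2.trans h1
  obtain ⟨i, hi⟩ := hgen φ
  have hi' : g ^ i = φ := hi
  have hri : ¬ (r : ℤ) ∣ i := by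
    rintro ⟨j, rfl⟩
    apply hφH
    refine ⟨j, ?_⟩
    show (g ^ r) ^ j = φ
    rw [← hi', zpow_mul, zpow_natCast]
  have := h1f_mem_zpowers_of_not_dvd g r a hr hga i hri
  rwa [hi'] at this

end P1

end Fermat.Agent.Lib.S41
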