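/-
S41 project (level raising), layer [C1] (helper1), passage to `ℚ̄`:
* `h1f_IsFrobAt A ℓ τ`: `τ ∈ G_ℚ` is an arithmetic Frobenius at the valuation subring `A` of `ℚ̄`
  (over `ℓ`): `τ` is in the decomposition group of `A` and `τ x ≡ x ^ ℓ mod 𝔪_A` on `A`;
* `h1f_exists_isFrobAt`: such a `τ` exists (finite-level Frobenius elements + compactness of
  `G_ℚ`, following helper5's Lib/S13/InertiaValue);
* `h1f_C1`: **(C1')** an element of `G_ℚ` of prime-power order on a finite normal level `L` is, on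
  `L`, a power of a Frobenius at a prime `ℓ` outside any given finite set.
-/
import Mathlib
import Fermat.Agent.Lib.S13.InertiaValue
import Fermat.Agent.Lib.S14.BridgeAux
import Fermat.Agent.Lib.S41.H1FrobRat

set_option autoImplicit false
set_option linter.unusedSectionVars false
set_option linter.unusedVariables false

noncomputable section

namespace Fermat.Agent.Lib.S41

open NumberField IsDedekindDomain IntermediateField
open Fermat.Agent.Lib.S13 Fermat.Agent.Lib.S14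
open scoped Pointwise

variable (A : ValuationSubring Qbar) (ℓ : ℕ)

/-- `τ` is an arithmetic Frobenius at the valuation subring `A` (over the prime `ℓ`). -/
def h1f_IsFrobAt (τ : GQ) : Prop :=
  τ ∈ A.decompositionSubgroup ℚ ∧ ∀ x ∈ A, A.valuation (τ x - x ^ ℓ) < 1

/-- `σ` acts as `z ↦ z ^ ℓ` modulo `𝔪_A` on the algebraic integers of `N`. -/
def h1f_FrobOn (N : IntermediateField ℚ Qbar) (σ : GQ) : Prop :=
  ∀ z : Qbar, z ∈ N → IsIntegral ℤ z → A.valuation (σ z - z ^ ℓ) < 1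

theorem h1f_frobOn_mono {N N' : IntermediateField ℚ Qbar} (h : N ≤ N') {σ : GQ}
    (hσ : h1f_FrobOn A ℓ N' σ) : h1f_FrobOn A ℓ N σ :=
  fun z hz hint => hσ z (h hz) hint

theorem h1f_frobOn_mul_fixing (N : IntermediateField ℚ Qbar) {σ ρ : GQ}
    (hσ : h1f_FrobOn A ℓ N σ) (hρ : ρ ∈ N.fixingSubgroup) : h1f_FrobOn A ℓ N (σ * ρ) := by
  intro z hz hint
  have h1 : ρ z = z := (IntermediateField.mem_fixingSubgroup_iff N ρ).mp hρ z hz
  show A.valuation (σ (ρ z) - z ^ ℓ) < 1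
  rw [h1]
  exact hσ z hz hint

theorem h1f_isClosed_frobOn (N : IntermediateField ℚ Qbar) [FiniteDimensional ℚ N] :
    IsClosed {σ : GQ | h1f_FrobOn A ℓ N σ} :=
  h5_isClosed_of_right_invariant N.fixingSubgroup (IntermediateField.fixingSubgroup_isOpen N) _
    (fun _ hσ _ hρ => h1f_frobOn_mul_fixing A ℓ N hσ hρ)

section Level

variable (N : IntermediateField ℚ Qbar) [FiniteDimensional ℚ N] [Normal ℚ N]
variable {ℓ} (hℓ : ℓ.Prime) (hA : A.LiesOverPrime ℓ)

include hℓ hA in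
/-- Finite level: there is an element of `G_ℚ` acting as Frobenius on the integers of `N`. -/
theorem h1f_exists_frobOn : ∃ σ : GQ, h1f_FrobOn A ℓ N σ := by
  set P : Ideal (𝓞 N) := h5_primeOf (algebraMap N Qbar) A with hP
  have hPbot : P ≠ ⊥ := h5_primeOf_ne_bot (algebraMap N Qbar) A hℓ hA
  have hmem : ((ℓ : ℕ) : 𝓞 N) ∈ P := h5_natCast_mem_primeOf (algebraMap N Qbar) A hA
  have hcard : Nat.card (𝓞 ℚ ⧸ P.under (𝓞 ℚ)) = ℓ := by
    rw [← Submodule.cardQuot_apply, ← Ideal.absNorm_apply]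
    exact h1f_absNorm_under_rat P hℓ hmem
  have hfin : Finite (𝓞 N ⧸ P) := Ideal.finiteQuotientOfFreeOfNeBot P hPbot
  set φ : N ≃ₐ[ℚ] N := arithFrobAt (𝓞 ℚ) Gal(N/ℚ) P with hφdef
  have hφ : ∀ x : 𝓞 N, φ • x - x ^ ℓ ∈ P := by
    intro x
    have := IsArithFrobAt.arithFrobAt (𝓞 ℚ) Gal(N/ℚ) P x
    rwa [hcard] at this
  obtain ⟨σ, hσ⟩ := AlgEquiv.restrictNormalHom_surjective (F := ℚ) (K₁ := N) Qbar φ
  refine ⟨σ, ?_⟩
  intro z hz hint
  have hint' : IsIntegral ℤ (⟨z, hz⟩ : N) := by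
    rw [← isIntegral_algebraMap_iff (algebraMap N Qbar).injective]
    exact hint
  set a : 𝓞 N := ⟨⟨z, hz⟩, hint'⟩ with ha
  have h1 : (φ • a - a ^ ℓ : 𝓞 N) ∈ P := hφ a
  rw [hP, h5_mem_primeOf_iff] at h1
  have h2 : algebraMap N Qbar (((φ • a - a ^ ℓ : 𝓞 N)) : N) = σ z - z ^ ℓ := by
    show algebraMap N Qbar (φ (a : N) - (a : N) ^ ℓ) = _
    rw [map_sub, map_pow]
    congr 1
    rw [← hσ]
    exact h5_restrict_apply N σ ⟨z, hz⟩
  rw [h2] at h1
  exact h1

end Level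

variable {ℓ} (hℓ : ℓ.Prime) (hA : A.LiesOverPrime ℓ)

include hℓ hA in
/-- Compactness: some element of `G_ℚ` acts as Frobenius on all algebraic integers. -/
theorem h1f_exists_frobOn_all :
    ∃ σ : GQ, ∀ z : Qbar, IsIntegral ℤ z → A.valuation (σ z - z ^ ℓ) < 1 := by
  classical
  let ι : Type := {N : IntermediateField ℚ Qbar // FiniteDimensional ℚ N ∧ Normal ℚ N}
  let t : ι → Set GQ := fun N => {σ | h1f_FrobOn A ℓ N.1 σ}
  have hclosed : ∀ i, IsClosed (t i) := fun i => by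
    have := i.2.1
    exact h1f_isClosed_frobOn A ℓ i.1
  have hfip : ∀ u : Finset ι, (Set.univ ∩ ⋂ i ∈ u, t i).Nonempty := by
    intro u
    have : ∀ i : ι, FiniteDimensional ℚ i.1 := fun i => i.2.1
    have : ∀ i : ι, Normal ℚ i.1 := fun i => i.2.2
    let N₀ : IntermediateField ℚ Qbar := ⨆ i : (u : Set ι), (i : ι).1
    have hfin0 : FiniteDimensional ℚ N₀ := IntermediateField.finiteDimensional_iSup_of_finite
    have hnor0 : Normal ℚ N₀ :=
      @IntermediateField.normal_iSup ℚ Qbar _ _ _ _ (fun i : (u : Set ι) => (i : ι).1)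
        (fun i => (i : ι).2.2)
    obtain ⟨σ, hσ⟩ := h1f_exists_frobOn A N₀ hℓ hA
    refine ⟨σ, trivial, Set.mem_iInter₂.mpr fun i hi => h1f_frobOn_mono A ℓ ?_ hσ⟩
    exact le_iSup (fun j : (u : Set ι) => (j : ι).1) ⟨i, hi⟩
  obtain ⟨σ, -, hσ⟩ := isCompact_univ.inter_iInter_nonempty t hclosed hfip
  have hσ' := Set.mem_iInter.mp hσ
  refine ⟨σ, fun z hz => ?_⟩
  obtain ⟨N, hfin, hnor, hzN⟩ := h5_exists_level z
  exact hσ' ⟨N, hfin, hnor⟩ z hzN hz

include hℓ hA in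
/-- An automorphism acting as Frobenius modulo `𝔪_A` on algebraic integers preserves `A` and acts
as Frobenius modulo `𝔪_A` on `A`. -/
theorem h1f_frob_on_A (σ : GQ) (hσ : ∀ z : Qbar, IsIntegral ℤ z → A.valuation (σ z - z ^ ℓ) < 1)
    (y : Qbar) (hy : A.valuation y ≤ 1) :
    A.valuation (σ y) ≤ 1 ∧ A.valuation (σ y - y ^ ℓ) < 1 := by
  obtain ⟨a, b, ha, hb, hvb, hab⟩ := h5_exists_repr_Qbar A hℓ hA y hy
  have hvbℓ : A.valuation (b ^ ℓ) = 1 := by rw [map_pow, hvb, one_pow]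
  have hσb : A.valuation (σ b) = 1 := by
    have h1 : σ b = b ^ ℓ + (σ b - b ^ ℓ) := by ring
    rw [h1, Valuation.map_add_eq_of_lt_left, hvbℓ]
    rw [hvbℓ]; exact hσ b hb
  have hσab : σ y * σ b = σ a := by rw [← map_mul, hab]
  constructor
  · have h1 : A.valuation (σ y) = A.valuation (σ a) := by
      have := congrArg A.valuation hσab
      rwa [map_mul, hσb, mul_one] at this
    rw [h1]
    exact h5_val_isIntegral_le_one A (h5_isIntegral_map σ ha)
  · have hkey : (σ y - y ^ ℓ) * (b ^ ℓ * σ b) = (σ a - a ^ ℓ) * b ^ ℓ - a ^ ℓ * (σ b - b ^ ℓ) := by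
      rw [← hσab, ← hab, mul_pow]; ring
    have h1 : A.valuation ((σ y - y ^ ℓ) * (b ^ ℓ * σ b)) = A.valuation (σ y - y ^ ℓ) := by
      rw [map_mul, map_mul, hvbℓ, hσb, mul_one, mul_one]
    rw [← h1, hkey]
    refine lt_of_le_of_lt (Valuation.map_sub _ _ _) (max_lt ?_ ?_)
    · rw [map_mul, hvbℓ, mul_one]; exact hσ a ha
    · rw [map_mul]
      have haℓ : A.valuation (a ^ ℓ) ≤ 1 := by
        rw [map_pow]
        exact pow_le_one' (h5_val_isIntegral_le_one A ha) ℓ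
      calc A.valuation (a ^ ℓ) * A.valuation (σ b - b ^ ℓ) ≤ 1 * A.valuation (σ b - b ^ ℓ) :=
            mul_le_mul' haℓ le_rfl
        _ < 1 := by rw [one_mul]; exact hσ b hb

include hℓ hA in
/-- **Existence of Frobenius elements** in `G_ℚ` at a valuation subring of `ℚ̄`. -/
theorem h1f_exists_isFrobAt : ∃ τ : GQ, h1f_IsFrobAt A ℓ τ := by
  obtain ⟨σ, hσ⟩ := h1f_exists_frobOn_all A hℓ hA
  have hA1 : ∀ y : Qbar, y ∈ A → σ y ∈ A ∧ A.valuation (σ y - y ^ ℓ) < 1 := by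
    intro y hy
    have := h1f_frob_on_A A hℓ hA σ hσ y ((ValuationSubring.valuation_le_one_iff A y).mpr hy)
    exact ⟨(ValuationSubring.valuation_le_one_iff A _).mp this.1, this.2⟩
  refine ⟨σ, ?_, fun x hx => (hA1 x hx).2⟩
  show σ • A = A
  ext x
  rw [ValuationSubring.mem_smul_pointwise_iff_exists]
  constructor
  · rintro ⟨y, hy, rfl⟩
    exact (hA1 y hy).1
  · intro hx
    refine ⟨σ⁻¹ x, ?_, ?_⟩
    · by_contra hnot
      -- `w = (σ⁻¹ x)⁻¹` is a non-unit of `A`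
      set w : Qbar := (σ⁻¹ x)⁻¹ with hw
      have hw0 : σ⁻¹ x ≠ 0 := by
        intro h0
        apply hnot
        rw [h0]
        exact A.zero_mem
      have hwA : w ∈ A := by
        rcases A.mem_or_inv_mem (σ⁻¹ x) with h | h
        · exact absurd h hnot
        · exact h
      have hwlt : A.valuation w < 1 := by
        rw [← not_le]
        intro hle
        -- then `w` is a unit, so `w⁻¹ = σ⁻¹ x ∈ A`
        have h1 : A.valuation w = 1 :=
          le_antisymm ((ValuationSubring.valuation_le_one_iff A w).mpr hwA) hle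
        have h2 : A.valuation (σ⁻¹ x) = 1 := by
          have : σ⁻¹ x = w⁻¹ := by rw [hw, inv_inv]
          rw [this, map_inv₀, h1, inv_one]
        exact hnot ((ValuationSubring.valuation_le_one_iff A _).mp h2.le)
      have hσw : σ w = x⁻¹ := by
        rw [hw, map_inv₀]
        congr 1
        show (σ * σ⁻¹) x = x
        rw [mul_inv_cancel]; rfl
      have h3 := (hA1 w hwA).2
      have hℓ0 : ℓ ≠ 0 := hℓ.ne_zero
      have h4 : A.valuation (w ^ ℓ) < 1 := by
        rw [map_pow]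
        exact pow_lt_one' hwlt hℓ0
      have h5 : A.valuation (σ w) < 1 := by
        have : σ w = (σ w - w ^ ℓ) + w ^ ℓ := by ring
        rw [this]
        exact lt_of_le_of_lt (Valuation.map_add _ _ _) (max_lt h3 h4)
      rw [hσw] at h5
      -- `v(x⁻¹) < 1` and `v(x) ≤ 1` contradict `v(x) v(x⁻¹) = 1`
      have hx1 : A.valuation x ≤ 1 := (ValuationSubring.valuation_le_one_iff A x).mpr hx
      have hx0 : x ≠ 0 := by
        intro h0
        apply hw0
        rw [h0, map_zero]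
      have h6 : A.valuation x * A.valuation x⁻¹ = 1 := by
        rw [← map_mul, mul_inv_cancel₀ hx0, map_one]
      have h7 : A.valuation x * A.valuation x⁻¹ < 1 := by
        calc A.valuation x * A.valuation x⁻¹ ≤ 1 * A.valuation x⁻¹ := mul_le_mul' hx1 le_rfl
          _ < 1 := by rw [one_mul]; exact h5
      rw [h6] at h7
      exact lt_irrefl _ h7
    · show σ • (σ⁻¹ x) = x
      show (σ * σ⁻¹) x = x
      rw [mul_inv_cancel]; rfl

/-- A Frobenius at `A` restricts to a Frobenius element at the prime cut out by `A` at every finite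
normal level. -/
theorem h1f_restrict_frob (N : IntermediateField ℚ Qbar) [FiniteDimensional ℚ N] [Normal ℚ N]
    {τ : GQ} (hτ : h1f_IsFrobAt A ℓ τ) (x : 𝓞 N) :
    AlgEquiv.restrictNormalHom N τ • x - x ^ ℓ ∈
      (h5_primeOf (algebraMap N Qbar) A : Ideal (𝓞 N)) := by
  rw [h5_mem_primeOf_iff]
  have h2 : algebraMap N Qbar (((AlgEquiv.restrictNormalHom N τ • x - x ^ ℓ : 𝓞 N)) : N) =
      τ ((x : N) : Qbar) - ((x : N) : Qbar) ^ ℓ := by
    show algebraMap N Qbar (AlgEquiv.restrictNormalHom N τ (x : N) - (x : N) ^ ℓ) = _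
    rw [map_sub, map_pow]
    congr 1
    exact h5_restrict_apply N τ (x : N)
  rw [h2]
  exact hτ.2 _ (h5_int_mem (algebraMap N Qbar) A x)

omit A hℓ hA in
/-- **(C1')** An element `σ` of `G_ℚ` whose restriction to a finite normal level `L` has
`r`-power order is, on `L`, a power of a Frobenius element at some prime `ℓ` outside any given
finite set `S`. -/
theorem h1f_C1 (L : IntermediateField ℚ Qbar) [FiniteDimensional ℚ L] [Normal ℚ L] (σ : GQ)
    (r a : ℕ) (hr : r.Prime) (hσ : ∀ x ∈ L, (σ ^ (r ^ a)) x = x) (S : Finset ℕ) :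
    ∃ (ℓ : ℕ) (A : ValuationSubring Qbar) (τ : GQ) (k : ℕ), ℓ.Prime ∧ ℓ ∉ S ∧
      A.LiesOverPrime ℓ ∧ h1f_IsFrobAt A ℓ τ ∧ ∀ x ∈ L, σ x = (τ ^ k) x := by
  classical
  set g : L ≃ₐ[ℚ] L := AlgEquiv.restrictNormalHom L σ with hg
  have hga : g ^ (r ^ a) = 1 := by
    rw [hg, ← map_pow]
    ext x
    have := h5_restrict_apply L (σ ^ (r ^ a)) x
    rw [this]
    exact hσ x x.2
  by_cases hg1 : g = 1
  · obtain ⟨ℓ, hℓS, hℓ⟩ := Nat.exists_infinite_primes (S.sup id + 1)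
    have hnotin : ℓ ∉ S := by
      intro h
      have : ℓ ≤ S.sup id := Finset.le_sup (f := id) h
      omega
    obtain ⟨A, hA⟩ := h5_exists_liesOver Qbar hℓ
    obtain ⟨τ, hτ⟩ := h1f_exists_isFrobAt A hℓ hA
    refine ⟨ℓ, A, τ, 0, hℓ, hnotin, hA, hτ, fun x hx => ?_⟩
    rw [pow_zero]
    have h1 := h5_restrict_apply L σ ⟨x, hx⟩
    rw [← hg, hg1] at h1
    exact h1.symm
  · obtain ⟨ℓ, 𝔓, hℓ, hℓS, h𝔓p, hℓmem, hall⟩ := h1f_exists_frob_rat g r a hr hga hg1 S
    have := h𝔓p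
    have h𝔓0 : 𝔓 ≠ ⊥ := by
      intro h
      rw [h, Ideal.mem_bot] at hℓmem
      have : (ℓ : ℕ) = 0 := by exact_mod_cast hℓmem
      exact hℓ.ne_zero this
    obtain ⟨A, ℓ', -, -, hA𝔓⟩ := h5b_exists_valuationSubring (algebraMap L Qbar) 𝔓 h𝔓0
    have hA : A.LiesOverPrime ℓ := by
      have h2 := hℓmem
      rw [← hA𝔓, h5_mem_primeOf_iff] at h2
      show (ℓ : Qbar) ∈ A.nonunits
      rw [ValuationSubring.mem_nonunits_iff]
      simpa using h2
    obtain ⟨τ, hτ⟩ := h1f_exists_isFrobAt A hℓ hA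
    set φ : L ≃ₐ[ℚ] L := AlgEquiv.restrictNormalHom L τ with hφ
    have hφfrob : ∀ x : 𝓞 L, φ • x - x ^ ℓ ∈ 𝔓 := by
      intro x
      rw [← hA𝔓]
      exact h1f_restrict_frob A L hτ x
    have hmem := hall φ hφfrob
    rw [← mem_powers_iff_mem_zpowers] at hmem
    obtain ⟨k, hk⟩ := hmem
    have hk' : φ ^ k = g := hk
    refine ⟨ℓ, A, τ, k, hℓ, hℓS, hA, hτ, fun x hx => ?_⟩
    have h1 := h5_restrict_apply L σ ⟨x, hx⟩
    have h2 := h5_restrict_apply L (τ ^ k) ⟨x, hx⟩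
    rw [map_pow, ← hφ, hk'] at h2
    exact h1.symm.trans h2

end Fermat.Agent.Lib.S41
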