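/-
S41 project (level raising), layer [C1] (helper1), consumer-side lemmas for (T1'):
what a Frobenius element `τ` at a valuation subring `A ∣ ℓ` of `ℚ̄` does to roots of unity and to
`p`-th roots of an integer.
* `h1c_val_sub_one`     : a non-trivial `M`-th root of unity is not `≡ 1` modulo a valuation with
                          `v M = 1`;
* `h1c_frob_root`       : `τ ζ = ζ ^ ℓ` for `ζ ^ M = 1`, `ℓ ∤ M`;
* `h1c_dvd_of_fix_root` : `ζ` primitive `M`-th root, `τ ζ = ζ` ⇒ `M ∣ ℓ - 1`;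
* `h1c_not_pow_of_move` : `α ^ p = q`, `τ α ≠ α`, `p ∣ ℓ - 1` ⇒ `q ^ ((ℓ - 1) / p) ≢ 1 mod ℓ`.
-/
import Mathlib
import Fermat.Agent.Lib.S05.Inertia
import Fermat.Agent.Lib.S41.H1FrobLift

set_option autoImplicit false
set_option linter.unusedSectionVars false
set_option linter.unusedVariables false

namespace Fermat.Agent.Lib.S41

open Fermat.Agent.Lib.S13 Fermat.Agent.Lib.S05

section general

variable {K : Type*} [Field K] {Γ₀ : Type*} [LinearOrderedCommGroupWithZero Γ₀]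
  (v : Valuation K Γ₀)

theorem h1c_val_eq_one_of_pow {x : K} {n : ℕ} (hn : n ≠ 0) (hx : v (x ^ n) = 1) : v x = 1 := by
  rw [map_pow] at hx
  exact (pow_eq_one_iff_left hn).mp hx

/-- A non-trivial `M`-th root of unity is not congruent to `1` modulo a valuation for which `M` is
a unit. -/
theorem h1c_val_sub_one (μ : K) (M : ℕ) (hμ : μ ^ M = 1) (hμ1 : μ ≠ 1)
    (hM : v (M : K) = 1) : v (μ - 1) = 1 := by
  have hM0 : M ≠ 0 := by
    rintro rfl
    simp at hM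
  have hvμ : v μ = 1 := h1c_val_eq_one_of_pow v hM0 (by rw [hμ, map_one])
  have hgeom : ∑ i ∈ Finset.range M, μ ^ i = 0 := by
    have h1 : (μ - 1) * ∑ i ∈ Finset.range M, μ ^ i = 0 := by
      rw [mul_geom_sum, hμ, sub_self]
    rcases mul_eq_zero.mp h1 with h | h
    · exact absurd (sub_eq_zero.mp h) hμ1
    · exact h
  have hMsum : (M : K) = -∑ i ∈ Finset.range M, (μ ^ i - 1) := by
    rw [Finset.sum_sub_distrib, hgeom]
    simp
  have hterm : ∀ i ∈ Finset.range M, v (μ ^ i - 1) ≤ v (μ - 1) := by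
    intro i _
    have h1 : μ ^ i - 1 = (μ - 1) * ∑ k ∈ Finset.range i, μ ^ k := by rw [mul_geom_sum]
    rw [h1, map_mul]
    have h2 : v (∑ k ∈ Finset.range i, μ ^ k) ≤ 1 := by
      apply Valuation.map_sum_le
      intro k _
      rw [map_pow, hvμ, one_pow]
    calc v (μ - 1) * v (∑ k ∈ Finset.range i, μ ^ k) ≤ v (μ - 1) * 1 := mul_le_mul_right h2 _
      _ = v (μ - 1) := mul_one _
  have hle : (1 : Γ₀) ≤ v (μ - 1) := by
    rw [← hM, hMsum, Valuation.map_neg]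
    exact Valuation.map_sum_le v hterm
  refine le_antisymm ?_ hle
  calc v (μ - 1) ≤ max (v μ) (v 1) := Valuation.map_sub v μ 1
    _ = 1 := by rw [hvμ, map_one, max_self]

/-- Two distinct `M`-th roots of unity are not congruent modulo a valuation for which `M` is a
unit. -/
theorem h1c_root_eq_of_val_lt (a b : K) (M : ℕ) (ha : a ^ M = 1) (hb : b ^ M = 1)
    (hM : v (M : K) = 1) (hab : v (a - b) < 1) : a = b := by
  have hM0 : M ≠ 0 := by
    rintro rfl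
    simp at hM
  by_contra hne
  have hb0 : b ≠ 0 := by
    rintro rfl
    rw [zero_pow hM0] at hb
    exact zero_ne_one hb
  have hvb : v b = 1 := h1c_val_eq_one_of_pow v hM0 (by rw [hb, map_one])
  have hμ : (a / b) ^ M = 1 := by rw [div_pow, ha, hb, div_one]
  have hμ1 : a / b ≠ 1 := by
    intro h
    exact hne ((div_eq_one_iff_eq hb0).mp h)
  have h1 := h1c_val_sub_one v (a / b) M hμ hμ1 hM
  have h2 : a - b = b * (a / b - 1) := by field_simp
  rw [h2, map_mul, hvb, h1, one_mul] at hab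
  exact lt_irrefl _ hab

end general

section frob

variable {A : ValuationSubring Qbar} {ℓ : ℕ} {τ : GQ}

/-- A Frobenius element at `A ∣ ℓ` raises roots of unity of order prime to `ℓ` to the `ℓ`-th
power. -/
theorem h1c_frob_root (hA : A.LiesOverPrime ℓ) (hτ : h1f_IsFrobAt A ℓ τ) (ζ : Qbar) (M : ℕ)
    (hζ : ζ ^ M = 1) (hM : Nat.Coprime M ℓ) : τ ζ = ζ ^ ℓ := by
  have hvM : A.valuation (M : Qbar) = 1 := by
    have hcop : IsCoprime (M : ℤ) (ℓ : ℤ) := Nat.isCoprime_iff_coprime.mpr hM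
    have := valuation_intCast_eq_one_of_isCoprime A hA hcop
    simpa using this
  have hM0 : M ≠ 0 := by
    rintro rfl
    simp at hvM
  have hvζ : A.valuation ζ = 1 := h1c_val_eq_one_of_pow A.valuation hM0 (by rw [hζ, map_one])
  have hζA : ζ ∈ A := (ValuationSubring.valuation_le_one_iff A ζ).mp hvζ.le
  apply h1c_root_eq_of_val_lt A.valuation (τ ζ) (ζ ^ ℓ) M _ _ hvM (hτ.2 ζ hζA)
  · rw [← map_pow, hζ, map_one]
  · rw [← pow_mul, mul_comm, pow_mul, hζ, one_pow]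

/-- If a Frobenius element at `A ∣ ℓ` fixes a primitive `M`-th root of unity (`ℓ ∤ M`), then
`ℓ ≡ 1 mod M`. -/
theorem h1c_dvd_of_fix_root (hℓ : ℓ.Prime) (hA : A.LiesOverPrime ℓ) (hτ : h1f_IsFrobAt A ℓ τ)
    (ζ : Qbar) (M : ℕ) (hζ : IsPrimitiveRoot ζ M) (hM : Nat.Coprime M ℓ) (hfix : τ ζ = ζ) :
    M ∣ ℓ - 1 := by
  have h1 := h1c_frob_root hA hτ ζ M hζ.pow_eq_one hM
  rw [hfix] at h1
  have hM0 : M ≠ 0 := by
    rintro rfl
    rw [Nat.coprime_zero_left] at hM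
    exact hℓ.one_lt.ne' hM
  have hζ0 : ζ ≠ 0 := hζ.ne_zero hM0
  apply hζ.dvd_of_pow_eq_one
  have h2 : ζ ^ ℓ = ζ ^ (ℓ - 1) * ζ := by
    rw [← pow_succ, Nat.sub_add_cancel hℓ.one_lt.le]
  rw [h2] at h1
  have h3 : ζ ^ (ℓ - 1) * ζ = 1 * ζ := by rw [one_mul]; exact h1.symm
  exact mul_right_cancel₀ hζ0 h3

/-- Conversely, a Frobenius element at `A ∣ ℓ` with `ℓ ≡ 1 mod M` fixes all `M`-th roots of
unity. -/
theorem h1c_fix_root_of_dvd (hℓ : ℓ.Prime) (hA : A.LiesOverPrime ℓ) (hτ : h1f_IsFrobAt A ℓ τ)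
    (ζ : Qbar) (M : ℕ) (hζ : ζ ^ M = 1) (hM : M ∣ ℓ - 1) : τ ζ = ζ := by
  have hcop : Nat.Coprime M ℓ := by
    have h1 : Nat.Coprime (ℓ - 1) ℓ := by
      have := (Nat.coprime_self_sub_right (m := 1) (n := ℓ) hℓ.one_lt.le).mpr
        (Nat.coprime_one_right ℓ)
      exact this.symm
    exact Nat.Coprime.coprime_dvd_left hM h1
  rw [h1c_frob_root hA hτ ζ M hζ hcop]
  obtain ⟨k, hk⟩ := hM
  have h2 : ζ ^ ℓ = ζ ^ (ℓ - 1) * ζ := by
    rw [← pow_succ, Nat.sub_add_cancel hℓ.one_lt.le]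
  rw [h2, hk, pow_mul, hζ, one_pow, one_mul]

/-- **Kummer condition.** If a Frobenius element `τ` at `A ∣ ℓ` moves a `p`-th root `α` of the
integer `q` (`ℓ ∤ q`, `p ∣ ℓ - 1`), then `q ^ ((ℓ - 1) / p) ≢ 1 mod ℓ`, i.e. `q` is not a `p`-th
power modulo `ℓ`. -/
theorem h1c_not_pow_of_move (hℓ : ℓ.Prime) (hA : A.LiesOverPrime ℓ) (hτ : h1f_IsFrobAt A ℓ τ)
    (p : ℕ) (hp : p.Prime) (hpℓ : p ∣ ℓ - 1) (q : ℤ) (hq : ¬ (ℓ : ℤ) ∣ q) (α : Qbar)
    (hα : α ^ p = (q : Qbar)) (hmove : τ α ≠ α) :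
    ¬ (ℓ : ℤ) ∣ q ^ ((ℓ - 1) / p) - 1 := by
  intro hdvd
  have hℓ1 : 0 < ℓ - 1 := Nat.sub_pos_of_lt hℓ.one_lt
  have hpneℓ : p ≠ ℓ := by
    intro h
    have := Nat.le_of_dvd hℓ1 hpℓ
    omega
  have hvp : A.valuation (p : Qbar) = 1 :=
    valuation_natCast_eq_one_of_prime_ne A hA hℓ hp hpneℓ
  have hvq : A.valuation (q : Qbar) = 1 := by
    apply valuation_intCast_eq_one_of_isCoprime A hA
    rw [isCoprime_comm]
    exact ((Nat.prime_iff_prime_int.mp hℓ).irreducible.coprime_iff_not_dvd).mpr hq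
  have hq0 : (q : Qbar) ≠ 0 := by
    intro h
    rw [h, map_zero] at hvq
    exact zero_ne_one hvq
  have hα0 : α ≠ 0 := by
    rintro rfl
    rw [zero_pow hp.ne_zero] at hα
    exact hq0 hα.symm
  have hvα : A.valuation α = 1 :=
    h1c_val_eq_one_of_pow A.valuation hp.ne_zero (by rw [hα, hvq])
  have hαA : α ∈ A := (ValuationSubring.valuation_le_one_iff A α).mp hvα.le
  set ω : Qbar := τ α / α with hω
  have hωp : ω ^ p = 1 := by
    rw [hω, div_pow, ← map_pow, hα, map_intCast, div_self hq0]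
  have hω1 : ω ≠ 1 := by
    intro h
    exact hmove ((div_eq_one_iff_eq hα0).mp h)
  have h1 : A.valuation (ω - 1) = 1 := h1c_val_sub_one A.valuation ω p hωp hω1 hvp
  set e : ℕ := (ℓ - 1) / p with he
  have hαℓ : α ^ ℓ = α * (q : Qbar) ^ e := by
    have h2 : ℓ = 1 + p * e := by
      rw [he, Nat.mul_div_cancel' hpℓ]
      omega
    conv_lhs => rw [h2]
    rw [pow_add, pow_one, pow_mul, hα]
  have h3 : A.valuation (τ α - α ^ ℓ) < 1 := hτ.2 α hαA
  have h4 : τ α - α ^ ℓ = α * (ω - (q : Qbar) ^ e) := by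
    rw [hαℓ, hω]
    field_simp
  rw [h4, map_mul, hvα, one_mul] at h3
  have h5 : A.valuation ((q : Qbar) ^ e - 1) < 1 := by
    obtain ⟨k, hk⟩ := hdvd
    have h6 : (q : Qbar) ^ e - 1 = ((ℓ : ℕ) : Qbar) * (k : Qbar) := by
      have := congrArg (fun z : ℤ => (z : Qbar)) hk
      simpa using this
    rw [h6, map_mul]
    have h7 : A.valuation ((ℓ : ℕ) : Qbar) < 1 :=
      (ValuationSubring.mem_nonunits_iff (A := A)).mp hA
    calc A.valuation ((ℓ : ℕ) : Qbar) * A.valuation (k : Qbar)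
        ≤ A.valuation ((ℓ : ℕ) : Qbar) * 1 :=
          mul_le_mul_right (valuation_intCast_le_one A k) _
      _ = A.valuation ((ℓ : ℕ) : Qbar) := mul_one _
      _ < 1 := h7
  have h8 : ω - 1 = (ω - (q : Qbar) ^ e) + ((q : Qbar) ^ e - 1) := by ring
  rw [h8] at h1
  have h9 := lt_of_le_of_lt (Valuation.map_add A.valuation _ _) (max_lt h3 h5)
  rw [h1] at h9
  exact lt_irrefl _ h9

/-- `ZMod` form of `h1c_not_pow_of_move`. -/
theorem h1c_not_pow_of_move_zmod (hℓ : ℓ.Prime) (hA : A.LiesOverPrime ℓ)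
    (hτ : h1f_IsFrobAt A ℓ τ) (p : ℕ) (hp : p.Prime) (hpℓ : p ∣ ℓ - 1) (q : ℤ)
    (hq : ¬ (ℓ : ℤ) ∣ q) (α : Qbar) (hα : α ^ p = (q : Qbar)) (hmove : τ α ≠ α) :
    (q : ZMod ℓ) ^ ((ℓ - 1) / p) ≠ 1 := by
  intro h
  apply h1c_not_pow_of_move hℓ hA hτ p hp hpℓ q hq α hα hmove
  rw [← ZMod.intCast_zmod_eq_zero_iff_dvd]
  push_cast
  rw [h, sub_self]

/-- `Nat.ModEq` form of `h1c_not_pow_of_move` for a natural number `q`. -/
theorem h1c_not_pow_of_move_nat (hℓ : ℓ.Prime) (hA : A.LiesOverPrime ℓ)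
    (hτ : h1f_IsFrobAt A ℓ τ) (p : ℕ) (hp : p.Prime) (hpℓ : p ∣ ℓ - 1) (q : ℕ)
    (hq : ¬ ℓ ∣ q) (α : Qbar) (hα : α ^ p = (q : Qbar)) (hmove : τ α ≠ α) :
    ¬ q ^ ((ℓ - 1) / p) ≡ 1 [MOD ℓ] := by
  intro h
  have hq' : ¬ (ℓ : ℤ) ∣ ((q : ℕ) : ℤ) := by
    rw [Int.natCast_dvd_natCast]; exact hq
  have hα' : α ^ p = (((q : ℕ) : ℤ) : Qbar) := by rw [hα]; simp
  apply h1c_not_pow_of_move_zmod hℓ hA hτ p hp hpℓ (q : ℤ) hq' α hα' hmove
  have := (ZMod.natCast_eq_natCast_iff _ _ _).mpr h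
  push_cast at this ⊢
  exact this

end frob

end Fermat.Agent.Lib.S41
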