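/-
S41 project (level raising), layer [C1] (helper1), TWO-PRIME version of `H1FrobCyc`:
in a cyclic Galois extension `K/F` of number fields whose order divides `r₁ ^ a * r₂ ^ b`
(`r₁ ≠ r₂` primes) there are primes of `F` of prime norm (outside any finite set), unramified in
`K`, whose Frobenius element GENERATES `Gal(K/F)`.  The union bound `1/r₁ + 1/r₂ < 1` for the two
split densities suffices.
-/
import Mathlib
import Fermat.Agent.Lib.S41.H1FrobCyc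

set_option autoImplicit false
set_option linter.unusedSectionVars false
set_option linter.unusedVariables false

open NumberField

namespace Fermat.Agent.Lib.S41

open Fermat.Agent.Lib.S14 IsDedekindDomain Ideal
open scoped Pointwise

/-- **Two-extension non-split lemma.** If `1/[M₁:F] + 1/[M₂:F] < 1`, then outside any finite set
there is a prime of `F` of prime norm, unramified in `M₁` and `M₂`, splitting completely in
neither. -/
theorem h1f_exists_nonsplit_two (F M₁ M₂ : Type*) [Field F] [NumberField F]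
    [Field M₁] [NumberField M₁] [Field M₂] [NumberField M₂]
    [Algebra F M₁] [IsGalois F M₁] [Algebra F M₂] [IsGalois F M₂]
    (hdeg : (1:ℝ) / (Module.finrank F M₁ : ℝ) + 1 / (Module.finrank F M₂ : ℝ) < 1)
    (T : Set (HeightOneSpectrum (𝓞 F))) (hT : T.Finite) :
    ∃ v : HeightOneSpectrum (𝓞 F), v ∉ T ∧ (absNorm v.asIdeal).Prime ∧
      v ∉ h1z_splitSet F M₁ ∧ v ∉ h1z_splitSet F M₂ ∧
      (∀ 𝔔 : Ideal (𝓞 M₁), 𝔔.IsPrime → 𝔔.LiesOver v.asIdeal →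
        𝔔.ramificationIdx (𝓞 F) = 1) ∧
      (∀ 𝔔 : Ideal (𝓞 M₂), 𝔔.IsPrime → 𝔔.LiesOver v.asIdeal →
        𝔔.ramificationIdx (𝓞 F) = 1) := by
  classical
  by_contra hcon0
  have hcon : ∀ v : HeightOneSpectrum (𝓞 F), v ∉ T → (absNorm v.asIdeal).Prime →
      v ∉ h1z_splitSet F M₁ → v ∉ h1z_splitSet F M₂ →
      (∀ 𝔔 : Ideal (𝓞 M₁), 𝔔.IsPrime → 𝔔.LiesOver v.asIdeal →
        𝔔.ramificationIdx (𝓞 F) = 1) →
      (∀ 𝔔 : Ideal (𝓞 M₂), 𝔔.IsPrime → 𝔔.LiesOver v.asIdeal →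
        𝔔.ramificationIdx (𝓞 F) = 1) → False :=
    fun v a b c d e f => hcon0 ⟨v, a, b, c, d, e, f⟩
  obtain ⟨C₁, hC₁⟩ := h1z_split_density' F M₁
  obtain ⟨C₂, hC₂⟩ := h1z_split_density' F M₂
  obtain ⟨hFs, CF, hCF⟩ := h9e_primeLog F
  set R₁ : Set (HeightOneSpectrum (𝓞 F)) := h1z_below F M₁ '' (h1s_ramSet F M₁) with hR₁
  set R₂ : Set (HeightOneSpectrum (𝓞 F)) := h1z_below F M₂ '' (h1s_ramSet F M₂) with hR₂
  have hR₁fin : R₁.Finite := (h1s_ramSet_finite F M₁).image _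
  have hR₂fin : R₂.Finite := (h1s_ramSet_finite F M₂).image _
  set NP : Set (HeightOneSpectrum (𝓞 F)) := {v | ¬ (absNorm v.asIdeal).Prime} with hNP
  have hmemR₁ : ∀ v : HeightOneSpectrum (𝓞 F), ∀ 𝔔 : Ideal (𝓞 M₁), 𝔔.IsPrime →
      𝔔.LiesOver v.asIdeal → 𝔔.ramificationIdx (𝓞 F) ≠ 1 → v ∈ R₁ := by
    intro v 𝔔 h𝔔 hl he
    refine ⟨⟨𝔔, h𝔔, Ideal.ne_bot_of_mem_primesOver v.ne_bot ⟨h𝔔, hl⟩⟩, he, ?_⟩
    exact HeightOneSpectrum.ext (hl.over).symm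
  have hmemR₂ : ∀ v : HeightOneSpectrum (𝓞 F), ∀ 𝔔 : Ideal (𝓞 M₂), 𝔔.IsPrime →
      𝔔.LiesOver v.asIdeal → 𝔔.ramificationIdx (𝓞 F) ≠ 1 → v ∈ R₂ := by
    intro v 𝔔 h𝔔 hl he
    refine ⟨⟨𝔔, h𝔔, Ideal.ne_bot_of_mem_primesOver v.ne_bot ⟨h𝔔, hl⟩⟩, he, ?_⟩
    exact HeightOneSpectrum.ext (hl.over).symm
  have hcover : (Set.univ : Set (HeightOneSpectrum (𝓞 F))) ⊆
      ((h1z_splitSet F M₁ ∪ h1z_splitSet F M₂) ∪ NP) ∪ (T ∪ (R₁ ∪ R₂)) := by
    intro v _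
    by_cases hvT : v ∈ T
    · exact Or.inr (Or.inl hvT)
    by_cases hvP : (absNorm v.asIdeal).Prime
    swap
    · exact Or.inl (Or.inr hvP)
    by_cases hvS1 : v ∈ h1z_splitSet F M₁
    · exact Or.inl (Or.inl (Or.inl hvS1))
    by_cases hvS2 : v ∈ h1z_splitSet F M₂
    · exact Or.inl (Or.inl (Or.inr hvS2))
    by_cases h1 : ∀ 𝔔 : Ideal (𝓞 M₁), 𝔔.IsPrime → 𝔔.LiesOver v.asIdeal →
        𝔔.ramificationIdx (𝓞 F) = 1
    · by_cases h2 : ∀ 𝔔 : Ideal (𝓞 M₂), 𝔔.IsPrime → 𝔔.LiesOver v.asIdeal →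
          𝔔.ramificationIdx (𝓞 F) = 1
      · exact absurd (hcon v hvT hvP hvS1 hvS2 h1 h2) id
      · push Not at h2
        obtain ⟨𝔔, h𝔔, hl, he⟩ := h2
        exact Or.inr (Or.inr (Or.inr (hmemR₂ v 𝔔 h𝔔 hl he)))
    · push Not at h1
      obtain ⟨𝔔, h𝔔, hl, he⟩ := h1
      exact Or.inr (Or.inr (Or.inl (hmemR₁ v 𝔔 h𝔔 hl he)))
  have hTR : (T ∪ (R₁ ∪ R₂)).Finite := hT.union (hR₁fin.union hR₂fin)
  set n₁ : ℝ := (Module.finrank F M₁ : ℝ) with hn₁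
  set n₂ : ℝ := (Module.finrank F M₂ : ℝ) with hn₂
  have hδ : 0 < 1 - (1 / n₁ + 1 / n₂) := by linarith
  set BNP : ℝ := Module.finrank ℤ (𝓞 F) * ∑' n : ℕ, (n : ℝ) ^ (-(2:ℝ)) with hBNP
  set K : ℝ := CF + C₁ + C₂ + BNP + (T ∪ (R₁ ∪ R₂)).ncard with hK
  have hkey : ∀ s : ℝ, 1 < s → s ≤ 2 →
      (1 - (1 / n₁ + 1 / n₂)) * Real.log (1 / (s - 1)) ≤ K := by
    intro s hs1 hs2
    have hsum := hFs s hs1
    have hg0 : ∀ v : HeightOneSpectrum (𝓞 F), 0 ≤ (absNorm v.asIdeal : ℝ) ^ (-s) :=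
      fun v => h1s_pterm_nonneg F v s
    have h1 := h1s_tsum_le_of_subset_union hg0 hsum hcover
    have h2 := h1s_tsum_le_of_subset_union hg0 hsum
      (Set.Subset.refl ((h1z_splitSet F M₁ ∪ h1z_splitSet F M₂) ∪ NP))
    have h2' := h1s_tsum_le_of_subset_union hg0 hsum
      (Set.Subset.refl (h1z_splitSet F M₁ ∪ h1z_splitSet F M₂))
    have h3 : ∑' v : ↥(T ∪ (R₁ ∪ R₂)), (absNorm v.1.asIdeal : ℝ) ^ (-s) ≤
        (T ∪ (R₁ ∪ R₂)).ncard :=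
      NumberField.Set.primeIdealZetaSum_le_card_of_finite hTR (by linarith)
    have h4 := h1s_nonprime_sum_le F hs1.le hsum
    have h5 := (abs_le.mp (hC₁ s hs1 hs2)).2
    have h5' := (abs_le.mp (hC₂ s hs1 hs2)).2
    have h6 := (abs_le.mp (hCF s hs1 hs2)).1
    rw [tsum_univ (fun v : HeightOneSpectrum (𝓞 F) => (absNorm v.asIdeal : ℝ) ^ (-s))] at h1
    have : (1 - (1 / n₁ + 1 / n₂)) * Real.log (1 / (s - 1)) =
        Real.log (1 / (s - 1)) - 1 / n₁ * Real.log (1 / (s - 1))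
          - 1 / n₂ * Real.log (1 / (s - 1)) := by ring
    rw [this, hK]
    linarith
  set X : ℝ := |K| / (1 - (1 / n₁ + 1 / n₂)) + 1 with hX
  have hX0 : 0 < X := by
    have : 0 ≤ |K| / (1 - (1 / n₁ + 1 / n₂)) := div_nonneg (abs_nonneg _) hδ.le
    linarith
  have hs1 : 1 < 1 + Real.exp (-X) := by linarith [Real.exp_pos (-X)]
  have hs2 : 1 + Real.exp (-X) ≤ 2 := by
    have : Real.exp (-X) ≤ 1 := Real.exp_le_one_iff.mpr (by linarith)
    linarith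
  have := hkey _ hs1 hs2
  have hlog : Real.log (1 / (1 + Real.exp (-X) - 1)) = X := by
    rw [add_sub_cancel_left, one_div, ← Real.exp_neg, neg_neg, Real.log_exp]
  rw [hlog, hX, mul_add, mul_one, mul_div_cancel₀ _ hδ.ne'] at this
  have := le_abs_self K
  linarith

section group

variable {G : Type*} [Group G]

/-- If `g ^ n = 1` and `i` is prime to `n`, then `g` is a power of `g ^ i`. -/
theorem h1f_mem_zpowers_of_coprime (g : G) (n : ℕ) (hgn : g ^ n = 1) (i : ℤ)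
    (hcop : IsCoprime i (n : ℤ)) : g ∈ Subgroup.zpowers (g ^ i) := by
  obtain ⟨u, v, huv⟩ := hcop
  refine ⟨u, ?_⟩
  have h1 : g ^ (n : ℤ) = 1 := by rw [zpow_natCast, hgn]
  calc (g ^ i) ^ u = g ^ (u * i) := by rw [← zpow_mul, mul_comm]
    _ = g ^ (u * i) * (g ^ (n : ℤ)) ^ v := by rw [h1, one_zpow, mul_one]
    _ = g ^ (u * i + v * (n : ℤ)) := by rw [← zpow_mul, ← zpow_add, mul_comm v]
    _ = g := by rw [huv, zpow_one]

end group

section P2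

variable {F K : Type*} [Field F] [NumberField F] [Field K] [NumberField K] [Algebra F K]
  [IsGalois F K]

/-- The degree over `F` of the fixed field of `⟨g ^ r⟩` in a cyclic extension generated by `g`,
`r` a prime dividing the order of `g`. -/
theorem h1f_finrank_fixedField_pow (g : K ≃ₐ[F] K)
    (hgen : ∀ x : K ≃ₐ[F] K, x ∈ Subgroup.zpowers g) (r : ℕ) (hr : r.Prime)
    (hrn : r ∣ orderOf g) :
    Module.finrank F (IntermediateField.fixedField (Subgroup.zpowers (g ^ r))) = r := by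
  set n := orderOf g with hn
  have hnpos : 0 < n := orderOf_pos g
  have htop : Subgroup.zpowers g = ⊤ := (Subgroup.eq_top_iff' _).mpr hgen
  have hcardG : Nat.card (K ≃ₐ[F] K) = n := by
    rw [hn, ← Nat.card_zpowers g, htop, Subgroup.card_top]
  have hfinK : Module.finrank F K = n := by rw [← IsGalois.card_aut_eq_finrank F K, hcardG]
  have hcardH : Nat.card (Subgroup.zpowers (g ^ r)) = n / r := by
    rw [Nat.card_zpowers, orderOf_pow' g hr.ne_zero, ← hn, Nat.gcd_eq_right hrn]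
  have h1 := IntermediateField.finrank_fixedField_eq_card (Subgroup.zpowers (g ^ r))
    (F := F) (E := K)
  rw [hcardH] at h1
  have h2 := Module.finrank_mul_finrank F
    (IntermediateField.fixedField (Subgroup.zpowers (g ^ r))) K
  rw [h1, hfinK] at h2
  have hdpos : 0 < n / r := Nat.div_pos (Nat.le_of_dvd hnpos hrn) hr.pos
  have h3 : r * (n / r) = n := Nat.mul_div_cancel' hrn
  apply Nat.eq_of_mul_eq_mul_right hdpos
  rw [h2, h3]

/-- The Frobenius at a prime which is non-split in the fixed field of `⟨g ^ r⟩` does not lie in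
`⟨g ^ r⟩`. -/
theorem h1f_frob_not_mem (g : K ≃ₐ[F] K) (r : ℕ)
    [hn : (Subgroup.zpowers (g ^ r)).Normal]
    (𝔓 : Ideal (𝓞 K)) [𝔓.IsPrime] (h𝔓 : 𝔓 ≠ ⊥) (v : HeightOneSpectrum (𝓞 F))
    (hl : 𝔓.LiesOver v.asIdeal)
    (hns : v ∉ h1z_splitSet F (IntermediateField.fixedField (Subgroup.zpowers (g ^ r))))
    (he : ∀ 𝔔 : Ideal (𝓞 (IntermediateField.fixedField (Subgroup.zpowers (g ^ r)))),
      𝔔.IsPrime → 𝔔.LiesOver v.asIdeal → 𝔔.ramificationIdx (𝓞 F) = 1) :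
    h2a_frob F K 𝔓 h𝔓 ∉ Subgroup.zpowers (g ^ r) := by
  set H : Subgroup (K ≃ₐ[F] K) := Subgroup.zpowers (g ^ r) with hH
  set K'' : IntermediateField F K := IntermediateField.fixedField H with hK''
  have hfix : K''.fixingSubgroup = H := IntermediateField.fixingSubgroup_fixedField H
  set 𝔔 : Ideal (𝓞 K'') := 𝔓.under (𝓞 K'') with h𝔔
  have h𝔔0 : 𝔔 ≠ ⊥ := h2a_under_ne_bot 𝔓 h𝔓
  have h𝔔l : 𝔔.LiesOver v.asIdeal := by
    constructor
    rw [h𝔔, Ideal.under_under]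
    exact hl.over
  have he'' := he 𝔔 inferInstance h𝔔l
  obtain ⟨σ'', hσ⟩ := h1z_exists_frob F K'' v 𝔔 inferInstance h𝔔l
  have hσ1 : σ'' ≠ 1 := h1z_frob_ne_one F K'' v hns 𝔔 inferInstance h𝔔l he'' σ'' hσ
  have hI'' : 𝔔.inertia Gal(K''/F) = ⊥ := (h2a_inertia_eq_bot_iff 𝔔 h𝔔0).2 he''
  have hres := h2a_frob_restrict (K := F) (L := K'') (M := K) 𝔓 h𝔓 hI''
  have hσ'' : σ'' = h2a_frob F K'' 𝔔 h𝔔0 := by
    apply h2a_frob_unique 𝔔 h𝔔0 hI''
    intro x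
    have hcard : Nat.card (𝓞 F ⧸ 𝔔.under (𝓞 F)) = Ideal.absNorm v.asIdeal := by
      rw [← h𝔔l.over, Ideal.absNorm_apply, Submodule.cardQuot_apply]
    rw [hcard]
    exact hσ x
  intro hmem
  apply hσ1
  rw [hσ'', ← hres]
  rw [← hfix] at hmem
  ext x
  have h1 := (IntermediateField.mem_fixingSubgroup_iff K'' _).mp hmem x x.2
  have h2 := AlgEquiv.restrictNormal_commutes (h2a_frob F K 𝔓 h𝔓) K'' x
  exact h2.trans h1

/-- **(P2)** Two-prime version of `h1f_gen_frob`. -/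
theorem h1f_gen_frob_two (g : K ≃ₐ[F] K) (hgen : ∀ x : K ≃ₐ[F] K, x ∈ Subgroup.zpowers g)
    (r₁ r₂ a b : ℕ) (hr₁ : r₁.Prime) (hr₂ : r₂.Prime) (hne : r₁ ≠ r₂)
    (hga : g ^ (r₁ ^ a * r₂ ^ b) = 1) (hg1 : g ≠ 1) (T : Finset ℕ) :
    ∃ 𝔮 : Ideal (𝓞 F), 𝔮.IsPrime ∧ (Ideal.absNorm 𝔮).Prime ∧ Ideal.absNorm 𝔮 ∉ T ∧
      ∀ (𝔓 : Ideal (𝓞 K)) [𝔓.IsPrime] (h𝔓 : 𝔓 ≠ ⊥), 𝔓.LiesOver 𝔮 →
        𝔓.inertia Gal(K/F) = ⊥ ∧ g ∈ Subgroup.zpowers (h2a_frob F K 𝔓 h𝔓) := by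
  classical
  have hnd : orderOf g ∣ r₁ ^ a * r₂ ^ b := orderOf_dvd_of_pow_eq_one hga
  by_cases h1 : r₁ ∣ orderOf g
  swap
  · -- order divides `r₂ ^ b`
    have hcop : Nat.Coprime (orderOf g) (r₁ ^ a) :=
      Nat.Coprime.pow_right a ((Nat.Prime.coprime_iff_not_dvd hr₁).mpr h1).symm
    have hd : orderOf g ∣ r₂ ^ b := hcop.dvd_of_dvd_mul_left hnd
    exact h1f_gen_frob g hgen r₂ b hr₂ (orderOf_dvd_iff_pow_eq_one.mp hd) hg1 T
  by_cases h2 : r₂ ∣ orderOf g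
  swap
  · have hcop : Nat.Coprime (orderOf g) (r₂ ^ b) :=
      Nat.Coprime.pow_right b ((Nat.Prime.coprime_iff_not_dvd hr₂).mpr h2).symm
    have hd : orderOf g ∣ r₁ ^ a := hcop.dvd_of_dvd_mul_right hnd
    exact h1f_gen_frob g hgen r₁ a hr₁ (orderOf_dvd_iff_pow_eq_one.mp hd) hg1 T
  -- both primes divide the order
  have hcomm : ∀ x y : K ≃ₐ[F] K, x * y = y * x := by
    intro x y
    obtain ⟨i, rfl⟩ := hgen x
    obtain ⟨j, rfl⟩ := hgen y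
    show g ^ i * g ^ j = g ^ j * g ^ i
    rw [← zpow_add, ← zpow_add, add_comm]
  have hn₁ : (Subgroup.zpowers (g ^ r₁)).Normal :=
    ⟨fun n hn x => by rw [hcomm x n, mul_inv_cancel_right]; exact hn⟩
  have hn₂ : (Subgroup.zpowers (g ^ r₂)).Normal :=
    ⟨fun n hn x => by rw [hcomm x n, mul_inv_cancel_right]; exact hn⟩
  set K₁ : IntermediateField F K := IntermediateField.fixedField (Subgroup.zpowers (g ^ r₁))
    with hK₁
  set K₂ : IntermediateField F K := IntermediateField.fixedField (Subgroup.zpowers (g ^ r₂))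
    with hK₂
  have hd₁ : Module.finrank F K₁ = r₁ := h1f_finrank_fixedField_pow g hgen r₁ hr₁ h1
  have hd₂ : Module.finrank F K₂ = r₂ := h1f_finrank_fixedField_pow g hgen r₂ hr₂ h2
  have hdeg : (1:ℝ) / (Module.finrank F K₁ : ℝ) + 1 / (Module.finrank F K₂ : ℝ) < 1 := by
    rw [hd₁, hd₂]
    have h21 : (2:ℝ) ≤ r₁ := by exact_mod_cast hr₁.two_le
    have h22 : (2:ℝ) ≤ r₂ := by exact_mod_cast hr₂.two_le
    rcases Nat.lt_or_ge 2 r₁ with h | h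
    · have h3 : (3:ℝ) ≤ r₁ := by exact_mod_cast h
      have e1 : (1:ℝ) / r₁ ≤ 1 / 3 := one_div_le_one_div_of_le (by norm_num) h3
      have e2 : (1:ℝ) / r₂ ≤ 1 / 2 := one_div_le_one_div_of_le (by norm_num) h22
      linarith
    · have hr12 : r₁ = 2 := le_antisymm h hr₁.two_le
      have h3' : 2 < r₂ := by
        rcases Nat.lt_or_ge 2 r₂ with h' | h'
        · exact h'
        · exact absurd (hr12.trans (le_antisymm h' hr₂.two_le).symm) hne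
      have h3 : (3:ℝ) ≤ r₂ := by exact_mod_cast h3'
      have e1 : (1:ℝ) / r₁ ≤ 1 / 2 := one_div_le_one_div_of_le (by norm_num) h21
      have e2 : (1:ℝ) / r₂ ≤ 1 / 3 := one_div_le_one_div_of_le (by norm_num) h3
      linarith
  set T' : Set (HeightOneSpectrum (𝓞 F)) :=
    {v | absNorm v.asIdeal ∈ T ∪ h1f_ramNorms F K} with hT'
  have hT'fin : T'.Finite := by
    have h1 : {I : Ideal (𝓞 F) | absNorm I ∈ T ∪ h1f_ramNorms F K}.Finite := by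
      have : {I : Ideal (𝓞 F) | absNorm I ∈ T ∪ h1f_ramNorms F K} =
          ⋃ t ∈ T ∪ h1f_ramNorms F K, {I : Ideal (𝓞 F) | absNorm I = t} := by
        ext I; simp
      rw [this]
      exact Set.Finite.biUnion (T ∪ h1f_ramNorms F K).finite_toSet
        (fun t _ => Ideal.finite_setOfPred_absNorm_eq t)
    refine Set.Finite.of_finite_image (f := HeightOneSpectrum.asIdeal) (h1.subset ?_) ?_
    · rintro _ ⟨v, hv, rfl⟩; exact hv
    · intro v₁ _ v₂ _ h; exact HeightOneSpectrum.ext h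
  obtain ⟨v, hvT, hvP, hvS₁, hvS₂, he₁, he₂⟩ := h1f_exists_nonsplit_two F K₁ K₂ hdeg T' hT'fin
  have hnT1 : Ideal.absNorm v.asIdeal ∉ T := fun h => hvT (Finset.mem_union_left _ h)
  have hnT2 : Ideal.absNorm v.asIdeal ∉ h1f_ramNorms F K :=
    fun h => hvT (Finset.mem_union_right _ h)
  refine ⟨v.asIdeal, v.isPrime, hvP, hnT1, ?_⟩
  intro 𝔓 _ h𝔓 hl
  have he : 𝔓.ramificationIdx (𝓞 F) = 1 :=
    h1f_ramificationIdx_of_notMem v.asIdeal hnT2 𝔓 h𝔓 hl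
  have hI : 𝔓.inertia Gal(K/F) = ⊥ := (h2a_inertia_eq_bot_iff 𝔓 h𝔓).2 he
  refine ⟨hI, ?_⟩
  have hφ₁ := h1f_frob_not_mem g r₁ 𝔓 h𝔓 v hl hvS₁ he₁
  have hφ₂ := h1f_frob_not_mem g r₂ 𝔓 h𝔓 v hl hvS₂ he₂
  obtain ⟨i, hi⟩ := hgen (h2a_frob F K 𝔓 h𝔓)
  have hi' : g ^ i = h2a_frob F K 𝔓 h𝔓 := hi
  have hri₁ : ¬ (r₁ : ℤ) ∣ i := by
    rintro ⟨j, rfl⟩
    apply hφ₁
    refine ⟨j, ?_⟩
    show (g ^ r₁) ^ j = _
    rw [← hi', zpow_mul, zpow_natCast]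
  have hri₂ : ¬ (r₂ : ℤ) ∣ i := by
    rintro ⟨j, rfl⟩
    apply hφ₂
    refine ⟨j, ?_⟩
    show (g ^ r₂) ^ j = _
    rw [← hi', zpow_mul, zpow_natCast]
  have hc₁ : IsCoprime i ((r₁ : ℤ) ^ a) := by
    apply IsCoprime.pow_right
    rw [isCoprime_comm]
    exact ((Nat.prime_iff_prime_int.mp hr₁).irreducible.coprime_iff_not_dvd).mpr hri₁
  have hc₂ : IsCoprime i ((r₂ : ℤ) ^ b) := by
    apply IsCoprime.pow_right
    rw [isCoprime_comm]
    exact ((Nat.prime_iff_prime_int.mp hr₂).irreducible.coprime_iff_not_dvd).mpr hri₂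
  have hc : IsCoprime i ((r₁ ^ a * r₂ ^ b : ℕ) : ℤ) := by
    push_cast
    exact IsCoprime.mul_right hc₁ hc₂
  have := h1f_mem_zpowers_of_coprime g (r₁ ^ a * r₂ ^ b) hga i hc
  rwa [hi'] at this

end P2

end Fermat.Agent.Lib.S41
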