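/-
S41 project (level raising), layer [C1] (helper1), GENERAL cyclic version of `H1FrobCyc`:
in ANY cyclic Galois extension `K/F` of number fields there are primes of `F` of prime norm
(outside any finite set), unramified in `K`, whose Frobenius element GENERATES `Gal(K/F)`.
Inclusion–exclusion over the squarefree divisors `d` of `[K:F]`: the primes splitting completely in
the subfield `K_d` of degree `d` have density `1/d`, so the primes with generating Frobenius have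
density `∏_{r ∣ n} (1 - 1/r) > 0`.
-/
import Mathlib
import Fermat.Agent.Lib.S41.H1FrobCyc2

set_option autoImplicit false
set_option linter.unusedSectionVars false
set_option linter.unusedVariables false

open NumberField

namespace Fermat.Agent.Lib.S41

open Fermat.Agent.Lib.S14 IsDedekindDomain Ideal
open scoped Pointwise

section FS

variable {F K : Type*} [Field F] [NumberField F] [Field K] [NumberField K] [Algebra F K]
  [IsGalois F K]

/-- **(FS)** At a prime `v` of `F` unramified in the fixed field `K^H` (`H` normal), the Frobenius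
element at a prime `𝔓 ∣ v` of `K` lies in `H` iff `v` splits completely in `K^H`. -/
theorem h1f_frob_mem_iff (H : Subgroup (K ≃ₐ[F] K)) [H.Normal]
    (𝔓 : Ideal (𝓞 K)) [𝔓.IsPrime] (h𝔓 : 𝔓 ≠ ⊥) (v : HeightOneSpectrum (𝓞 F))
    (hl : 𝔓.LiesOver v.asIdeal)
    (he : ∀ 𝔔 : Ideal (𝓞 (IntermediateField.fixedField H)),
      𝔔.IsPrime → 𝔔.LiesOver v.asIdeal → 𝔔.ramificationIdx (𝓞 F) = 1) :
    h2a_frob F K 𝔓 h𝔓 ∈ H ↔ v ∈ h1z_splitSet F (IntermediateField.fixedField H) := by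
  set K'' : IntermediateField F K := IntermediateField.fixedField H with hK''
  have hfix : K''.fixingSubgroup = H := IntermediateField.fixingSubgroup_fixedField H
  set 𝔔 : Ideal (𝓞 K'') := 𝔓.under (𝓞 K'') with h𝔔
  have h𝔔0 : 𝔔 ≠ ⊥ := h2a_under_ne_bot 𝔓 h𝔓
  have h𝔔l : 𝔔.LiesOver v.asIdeal := by
    constructor
    rw [h𝔔, Ideal.under_under]
    exact hl.over
  have he'' := he 𝔔 inferInstance h𝔔l
  have hI'' : 𝔔.inertia Gal(K''/F) = ⊥ := (h2a_inertia_eq_bot_iff 𝔔 h𝔔0).2 he''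
  have hres := h2a_frob_restrict (K := F) (L := K'') (M := K) 𝔓 h𝔓 hI''
  have hcard : Nat.card (𝓞 F ⧸ 𝔔.under (𝓞 F)) = Ideal.absNorm v.asIdeal := by
    rw [← h𝔔l.over, Ideal.absNorm_apply, Submodule.cardQuot_apply]
  have hmem_iff : h2a_frob F K 𝔓 h𝔓 ∈ H ↔ h2a_frob F K'' 𝔔 h𝔔0 = 1 := by
    have h0 : h2a_frob F K 𝔓 h𝔓 ∈ H ↔ h2a_frob F K 𝔓 h𝔓 ∈ K''.fixingSubgroup := by
      rw [hfix]
    rw [h0, ← hres]
    constructor
    · intro hmem
      ext x
      have h1 := (IntermediateField.mem_fixingSubgroup_iff K'' _).mp hmem x x.2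
      have h2 := AlgEquiv.restrictNormal_commutes (h2a_frob F K 𝔓 h𝔓) K'' x
      exact h2.trans h1
    · intro h1
      rw [IntermediateField.mem_fixingSubgroup_iff]
      intro x hx
      have h2 := AlgEquiv.restrictNormal_commutes (h2a_frob F K 𝔓 h𝔓) K'' ⟨x, hx⟩
      have h3 : AlgEquiv.restrictNormal (h2a_frob F K 𝔓 h𝔓) K'' = 1 := h1
      rw [h3] at h2
      exact h2.symm
  rw [hmem_iff]
  constructor
  · -- trivial Frobenius ⇒ split
    intro h1
    by_contra hns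
    obtain ⟨σ'', hσ⟩ := h1z_exists_frob F K'' v 𝔔 inferInstance h𝔔l
    have hσ1 : σ'' ≠ 1 := h1z_frob_ne_one F K'' v hns 𝔔 inferInstance h𝔔l he'' σ'' hσ
    have hσ'' : σ'' = h2a_frob F K'' 𝔔 h𝔔0 := by
      apply h2a_frob_unique 𝔔 h𝔔0 hI''
      intro x
      rw [hcard]
      exact hσ x
    exact hσ1 (hσ''.trans h1)
  · -- split ⇒ trivial Frobenius
    intro hs
    have hf : 𝔔.inertiaDeg (𝓞 F) = 1 := (hs 𝔔 inferInstance h𝔔l).2
    symm
    apply h2a_frob_unique 𝔔 h𝔔0 hI''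
    intro x
    rw [hcard]
    show (1 : Gal(K''/F)) • x - x ^ Ideal.absNorm v.asIdeal ∈ 𝔔
    rw [one_smul]
    have hmax : 𝔔.IsMaximal := Ideal.IsPrime.isMaximal inferInstance h𝔔0
    let _ : Field (𝓞 K'' ⧸ 𝔔) := Ideal.Quotient.field 𝔔
    have hfin : Finite (𝓞 K'' ⧸ 𝔔) := Ideal.finiteQuotientOfFreeOfNeBot 𝔔 h𝔔0
    have : Fintype (𝓞 K'' ⧸ 𝔔) := Fintype.ofFinite _
    have hN : Fintype.card (𝓞 K'' ⧸ 𝔔) = Ideal.absNorm v.asIdeal := by
      rw [← Nat.card_eq_fintype_card]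
      have hvmax : v.asIdeal.IsMaximal := v.isMaximal
      have := Ideal.absNorm_pow_inertiaDeg v.asIdeal 𝔔
      rw [hf, pow_one] at this
      rw [this, Ideal.absNorm_apply, Submodule.cardQuot_apply]
    have h2 : (Ideal.Quotient.mk 𝔔 x) ^ Ideal.absNorm v.asIdeal = Ideal.Quotient.mk 𝔔 x := by
      rw [← hN]
      exact FiniteField.pow_card _
    rw [← map_pow] at h2
    exact (Ideal.Quotient.eq).mp h2.symm

end FS

section cyc

variable {G : Type*} [Group G]

/-- In a cyclic group, for `d ∣ orderOf g`: `g ^ i ∈ ⟨g ^ d⟩ ↔ d ∣ i`. -/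
theorem h1f_pow_mem_zpowers_pow_iff (g : G) (hfin : IsOfFinOrder g) (d : ℕ)
    (hd : d ∣ orderOf g) (i : ℕ) : g ^ i ∈ Subgroup.zpowers (g ^ d) ↔ d ∣ i := by
  constructor
  · intro h
    rw [← (hfin.pow (n := d)).mem_powers_iff_mem_zpowers] at h
    obtain ⟨j, hj⟩ := h
    have h1 : g ^ (d * j) = g ^ i := by rw [pow_mul]; exact hj
    have h2 : d * j ≡ i [MOD orderOf g] := pow_eq_pow_iff_modEq.mp h1
    exact (h2.dvd_iff hd).mp (dvd_mul_right d j)
  · rintro ⟨j, rfl⟩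
    rw [pow_mul]
    exact Subgroup.npow_mem_zpowers (g ^ d) j

end cyc

section analysis

/-- Abstract inclusion–exclusion for weighted sums over a family of sets `S t` which, on `U`, is
multiplicative in `t` and covers `U`. -/
theorem h1f_incl_excl {β : Type*} (w : β → ℝ) (hw : Summable w) (P : Finset ℕ)
    (S : Finset ℕ → Set β) (U : Set β)
    (ha : ∀ v ∈ U, ∀ t, t ⊆ P → (v ∈ S t ↔ ∀ r ∈ t, v ∈ S {r}))
    (hb : ∀ v ∈ U, ∃ r ∈ P, v ∈ S {r}) :
    ∑ t ∈ P.powerset, (-1 : ℝ) ^ t.card * ∑' v : ↥(U ∩ S t), w v = 0 := by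
  classical
  have h1 : ∀ t ∈ P.powerset, (-1 : ℝ) ^ t.card * ∑' v : ↥(U ∩ S t), w v =
      ∑' v, (-1 : ℝ) ^ t.card * (U ∩ S t).indicator w v := by
    intro t _
    rw [tsum_subtype (U ∩ S t) w, tsum_mul_left]
  rw [Finset.sum_congr rfl h1, ← Summable.tsum_finsetSum]
  swap
  · intro t _
    exact (hw.indicator _).mul_left _
  have h2 : ∀ v, ∑ t ∈ P.powerset, (-1 : ℝ) ^ t.card * (U ∩ S t).indicator w v = 0 := by
    intro v
    by_cases hv : v ∈ U
    swap
    · apply Finset.sum_eq_zero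
      intro t _
      have hnmem : v ∉ U ∩ S t := fun h => hv h.1
      rw [Set.indicator_of_notMem hnmem, mul_zero]
    set χ : ℕ → ℝ := fun r => if v ∈ S {r} then 1 else 0 with hχ
    have h3 : ∀ t ∈ P.powerset, (U ∩ S t).indicator w v = w v * ∏ r ∈ t, χ r := by
      intro t ht
      have ht' : t ⊆ P := Finset.mem_powerset.mp ht
      by_cases hvt : v ∈ S t
      · have hmem : v ∈ U ∩ S t := ⟨hv, hvt⟩
        rw [Set.indicator_of_mem hmem]
        have : ∀ r ∈ t, χ r = 1 := by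
          intro r hr
          simp only [hχ]
          rw [if_pos ((ha v hv t ht').mp hvt r hr)]
        rw [Finset.prod_congr rfl this, Finset.prod_const_one, mul_one]
      · have hnmem : v ∉ U ∩ S t := fun h => hvt h.2
        rw [Set.indicator_of_notMem hnmem]
        have hne : ¬ ∀ r ∈ t, v ∈ S {r} := fun h => hvt ((ha v hv t ht').mpr h)
        push Not at hne
        obtain ⟨r, hr, hvr⟩ := hne
        have : χ r = 0 := by simp only [hχ]; rw [if_neg hvr]
        rw [Finset.prod_eq_zero hr this, mul_zero]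
    have h4 : ∑ t ∈ P.powerset, (-1 : ℝ) ^ t.card * (U ∩ S t).indicator w v =
        w v * ∏ r ∈ P, (1 - χ r) := by
      rw [Finset.prod_sub, Finset.mul_sum]
      apply Finset.sum_congr rfl
      intro t ht
      rw [h3 t ht, Finset.prod_const_one]
      ring
    rw [h4]
    obtain ⟨r, hr, hvr⟩ := hb v hv
    have : 1 - χ r = 0 := by simp only [hχ]; rw [if_pos hvr, sub_self]
    rw [Finset.prod_eq_zero hr this, mul_zero]
  rw [tsum_congr h2, tsum_zero]

/-- `∑_{t ⊆ P} (-1)^{|t|} / ∏_{r ∈ t} r = ∏_{r ∈ P} (1 - 1/r)`. -/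
theorem h1f_moebius_sum (P : Finset ℕ) :
    ∑ t ∈ P.powerset, (-1 : ℝ) ^ t.card * (1 / ((∏ x ∈ t, x : ℕ) : ℝ)) =
      ∏ r ∈ P, (1 - 1 / (r : ℝ)) := by
  classical
  rw [Finset.prod_sub]
  apply Finset.sum_congr rfl
  intro t _
  rw [Finset.prod_const_one, mul_one, Nat.cast_prod, Finset.prod_div_distrib,
    Finset.prod_const_one]

theorem h1f_moebius_pos (P : Finset ℕ) (hP : ∀ r ∈ P, 2 ≤ r) :
    0 < ∏ r ∈ P, (1 - 1 / (r : ℝ)) := by
  apply Finset.prod_pos
  intro r hr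
  have h2 : (2 : ℝ) ≤ r := by exact_mod_cast hP r hr
  have : (1 : ℝ) / r ≤ 1 / 2 := one_div_le_one_div_of_le (by norm_num) h2
  linarith

theorem h1f_tsum_mono_set {β : Type*} {g : β → ℝ} (hg : ∀ b, 0 ≤ g b) (hs : Summable g)
    {A B : Set β} (h : A ⊆ B) : ∑' b : ↥A, g b ≤ ∑' b : ↥B, g b := by
  classical
  rw [tsum_subtype A g, tsum_subtype B g]
  exact (hs.indicator A).tsum_le_tsum
    (fun b => Set.indicator_le_indicator_of_subset h hg b) (hs.indicator B)

end analysis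

section main

variable {F K : Type*} [Field F] [NumberField F] [Field K] [NumberField K] [Algebra F K]
  [IsGalois F K]

/-- The fixed field of `⟨g ^ d⟩`. -/
abbrev h1f_Kd (g : K ≃ₐ[F] K) (d : ℕ) : IntermediateField F K :=
  IntermediateField.fixedField (Subgroup.zpowers (g ^ d))

/-- The degree over `F` of the fixed field of `⟨g ^ d⟩` in a cyclic extension generated by `g`,
`d` a divisor of the order of `g`. -/
theorem h1f_finrank_Kd (g : K ≃ₐ[F] K)
    (hgen : ∀ x : K ≃ₐ[F] K, x ∈ Subgroup.zpowers g) (d : ℕ) (hdn : d ∣ orderOf g) :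
    Module.finrank F (h1f_Kd g d) = d := by
  set n := orderOf g with hn
  have hnpos : 0 < n := orderOf_pos g
  have hd0 : d ≠ 0 := by
    rintro rfl
    exact hnpos.ne' (Nat.eq_zero_of_zero_dvd hdn)
  have htop : Subgroup.zpowers g = ⊤ := (Subgroup.eq_top_iff' _).mpr hgen
  have hcardG : Nat.card (K ≃ₐ[F] K) = n := by
    rw [hn, ← Nat.card_zpowers g, htop, Subgroup.card_top]
  have hfinK : Module.finrank F K = n := by rw [← IsGalois.card_aut_eq_finrank F K, hcardG]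
  have hcardH : Nat.card (Subgroup.zpowers (g ^ d)) = n / d := by
    rw [Nat.card_zpowers, orderOf_pow' g hd0, ← hn, Nat.gcd_eq_right hdn]
  have h1 := IntermediateField.finrank_fixedField_eq_card (Subgroup.zpowers (g ^ d))
    (F := F) (E := K)
  rw [hcardH] at h1
  have h2 := Module.finrank_mul_finrank F
    (IntermediateField.fixedField (Subgroup.zpowers (g ^ d))) K
  rw [h1, hfinK] at h2
  have hdpos : 0 < n / d := Nat.div_pos (Nat.le_of_dvd hnpos hdn) (Nat.pos_of_ne_zero hd0)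
  have h3 : d * (n / d) = n := Nat.mul_div_cancel' hdn
  apply Nat.eq_of_mul_eq_mul_right hdpos
  show Module.finrank F (IntermediateField.fixedField (Subgroup.zpowers (g ^ d))) * (n / d) = _
  rw [h2, h3]

/-- **(P3)** In any cyclic extension `K/F` of number fields generated by `g`, there is a prime of
`F` of prime norm outside `T`, unramified in `K`, all of whose Frobenius elements generate
`Gal(K/F)`. -/
theorem h1f_gen_frob_cyc (g : K ≃ₐ[F] K) (hgen : ∀ x : K ≃ₐ[F] K, x ∈ Subgroup.zpowers g)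
    (T : Finset ℕ) :
    ∃ 𝔮 : Ideal (𝓞 F), 𝔮.IsPrime ∧ (Ideal.absNorm 𝔮).Prime ∧ Ideal.absNorm 𝔮 ∉ T ∧
      ∀ (𝔓 : Ideal (𝓞 K)) [𝔓.IsPrime] (h𝔓 : 𝔓 ≠ ⊥), 𝔓.LiesOver 𝔮 →
        𝔓.inertia Gal(K/F) = ⊥ ∧ g ∈ Subgroup.zpowers (h2a_frob F K 𝔓 h𝔓) := by
  classical
  have hcomm : ∀ x y : K ≃ₐ[F] K, x * y = y * x := by
    intro x y
    obtain ⟨i, rfl⟩ := hgen x
    obtain ⟨j, rfl⟩ := hgen y
    show g ^ i * g ^ j = g ^ j * g ^ i
    rw [← zpow_add, ← zpow_add, add_comm]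
  have hnorm : ∀ H : Subgroup (K ≃ₐ[F] K), H.Normal :=
    fun H => ⟨fun n hn x => by rw [hcomm x n, mul_inv_cancel_right]; exact hn⟩
  set n := orderOf g with hn
  have hnpos : 0 < n := orderOf_pos g
  have hfing : IsOfFinOrder g := isOfFinOrder_of_finite g
  set P : Finset ℕ := n.primeFactors with hP
  have hP2 : ∀ r ∈ P, 2 ≤ r := fun r hr => (Nat.prime_of_mem_primeFactors hr).two_le
  set d : Finset ℕ → ℕ := fun t => ∏ x ∈ t, x with hd
  have hd_dvd : ∀ t, t ⊆ P → d t ∣ n := fun t ht =>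
    (Finset.prod_dvd_prod_of_subset t P _ ht).trans (Nat.prod_primeFactors_dvd n)
  have hdeg : ∀ t, t ⊆ P → Module.finrank F (h1f_Kd g (d t)) = d t :=
    fun t ht => h1f_finrank_Kd g hgen (d t) (hd_dvd t ht)
  have hsingle : ∀ r, d {r} = r := fun r => Finset.prod_singleton _ _
  set S : Finset ℕ → Set (HeightOneSpectrum (𝓞 F)) :=
    fun t => h1z_splitSet F (h1f_Kd g (d t)) with hS
  set T' : Set (HeightOneSpectrum (𝓞 F)) :=
    {v | absNorm v.asIdeal ∈ T ∪ h1f_ramNorms F K} with hT'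
  have hT'fin : T'.Finite := by
    have h1 : {I : Ideal (𝓞 F) | absNorm I ∈ T ∪ h1f_ramNorms F K}.Finite := by
      have : {I : Ideal (𝓞 F) | absNorm I ∈ T ∪ h1f_ramNorms F K} =
          ⋃ t ∈ T ∪ h1f_ramNorms F K, {I : Ideal (𝓞 F) | absNorm I = t} := by
        ext I; simp
      rw [this]
      exact Set.Finite.biUnion (T ∪ h1f_ramNorms F K).finite_toSet
        (fun t _ => Ideal.finite_setOfPred_absNorm_eq t)
    refine Set.Finite.of_finite_image (f := HeightOneSpectrum.asIdeal) (h1.subset ?_) ?_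
    · rintro _ ⟨v, hv, rfl⟩; exact hv
    · intro v₁ _ v₂ _ h; exact HeightOneSpectrum.ext h
  set R : Finset ℕ → Set (HeightOneSpectrum (𝓞 F)) :=
    fun t => h1z_below F (h1f_Kd g (d t)) '' (h1s_ramSet F (h1f_Kd g (d t))) with hR
  have hRfin : ∀ t, (R t).Finite := fun t => (h1s_ramSet_finite F _).image _
  set Exc : Set (HeightOneSpectrum (𝓞 F)) := T' ∪ ⋃ t ∈ P.powerset, R t with hExc
  have hExcfin : Exc.Finite :=
    hT'fin.union (Set.Finite.biUnion (Finset.finite_toSet _) (fun t _ => hRfin t))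
  set NP : Set (HeightOneSpectrum (𝓞 F)) := {v | ¬ (absNorm v.asIdeal).Prime} with hNP
  set U : Set (HeightOneSpectrum (𝓞 F)) := {v | v ∉ Exc ∧ (absNorm v.asIdeal).Prime} with hU
  -- primes in `U` are unramified in all the subfields
  have hunr : ∀ v ∈ U, ∀ t, t ⊆ P → ∀ 𝔔 : Ideal (𝓞 (h1f_Kd g (d t))), 𝔔.IsPrime →
      𝔔.LiesOver v.asIdeal → 𝔔.ramificationIdx (𝓞 F) = 1 := by
    intro v hv t ht 𝔔 h𝔔 hl
    by_contra he
    apply hv.1
    refine Or.inr (Set.mem_biUnion (Finset.mem_coe.mpr (Finset.mem_powerset.mpr ht)) ?_)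
    refine ⟨⟨𝔔, h𝔔, Ideal.ne_bot_of_mem_primesOver v.ne_bot ⟨h𝔔, hl⟩⟩, he, ?_⟩
    exact HeightOneSpectrum.ext (hl.over).symm
  -- splitting in `K_{d t}` in terms of the exponent of the Frobenius
  have hfrob : ∀ v ∈ U, ∀ (𝔓 : Ideal (𝓞 K)) [𝔓.IsPrime] (h𝔓 : 𝔓 ≠ ⊥),
      𝔓.LiesOver v.asIdeal → ∀ t, t ⊆ P → ∀ i : ℕ, h2a_frob F K 𝔓 h𝔓 = g ^ i →
        (v ∈ S t ↔ d t ∣ i) := by
    intro v hv 𝔓 _ h𝔓 hl t ht i hi
    refine (h1f_frob_mem_iff (Subgroup.zpowers (g ^ d t)) 𝔓 h𝔓 v hl (hunr v hv t ht)).symm.trans ?_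
    rw [hi]
    exact h1f_pow_mem_zpowers_pow_iff g hfing (d t) (hd_dvd t ht) i
  have hexp : ∀ (𝔓 : Ideal (𝓞 K)) [𝔓.IsPrime] (h𝔓 : 𝔓 ≠ ⊥),
      ∃ i : ℕ, h2a_frob F K 𝔓 h𝔓 = g ^ i := by
    intro 𝔓 _ h𝔓
    have := hgen (h2a_frob F K 𝔓 h𝔓)
    rw [← hfing.mem_powers_iff_mem_zpowers] at this
    obtain ⟨i, hi⟩ := this
    exact ⟨i, hi.symm⟩
  have ha : ∀ v ∈ U, ∀ t, t ⊆ P → (v ∈ S t ↔ ∀ r ∈ t, v ∈ S {r}) := by
    intro v hv t ht
    have := v.isPrime
    obtain ⟨⟨𝔓, h𝔓p, h𝔓l⟩⟩ := (inferInstance : Nonempty (v.asIdeal.primesOver (𝓞 K)))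
    have h𝔓0 : 𝔓 ≠ ⊥ := Ideal.ne_bot_of_mem_primesOver v.ne_bot ⟨h𝔓p, h𝔓l⟩
    obtain ⟨i, hi⟩ := hexp 𝔓 h𝔓0
    rw [hfrob v hv 𝔓 h𝔓0 h𝔓l t ht i hi]
    constructor
    · intro hdi r hr
      rw [hfrob v hv 𝔓 h𝔓0 h𝔓l {r} (Finset.singleton_subset_iff.mpr (ht hr)) i hi, hsingle]
      exact (Finset.dvd_prod_of_mem _ hr).trans hdi
    · intro h
      apply Finset.prod_primes_dvd
      · intro r hr; exact (Nat.prime_of_mem_primeFactors (ht hr)).prime
      · intro r hr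
        have := h r hr
        rwa [hfrob v hv 𝔓 h𝔓0 h𝔓l {r} (Finset.singleton_subset_iff.mpr (ht hr)) i hi,
          hsingle] at this
  by_cases hex : ∃ v ∈ U, ∀ r ∈ P, v ∉ S {r}
  · obtain ⟨v, hv, hvS⟩ := hex
    have hvT : absNorm v.asIdeal ∉ T ∪ h1f_ramNorms F K := fun h => hv.1 (Or.inl h)
    have hnT1 : Ideal.absNorm v.asIdeal ∉ T := fun h => hvT (Finset.mem_union_left _ h)
    have hnT2 : Ideal.absNorm v.asIdeal ∉ h1f_ramNorms F K :=
      fun h => hvT (Finset.mem_union_right _ h)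
    refine ⟨v.asIdeal, v.isPrime, hv.2, hnT1, ?_⟩
    intro 𝔓 _ h𝔓 hl
    have he : 𝔓.ramificationIdx (𝓞 F) = 1 :=
      h1f_ramificationIdx_of_notMem v.asIdeal hnT2 𝔓 h𝔓 hl
    have hI : 𝔓.inertia Gal(K/F) = ⊥ := (h2a_inertia_eq_bot_iff 𝔓 h𝔓).2 he
    refine ⟨hI, ?_⟩
    obtain ⟨i, hi⟩ := hexp 𝔓 h𝔓
    have hcop : Nat.Coprime i n := by
      apply Nat.Coprime.symm
      apply Nat.coprime_of_dvd
      intro r hr hrn hri
      have hrP : r ∈ P := Nat.mem_primeFactors.mpr ⟨hr, hrn, hnpos.ne'⟩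
      apply hvS r hrP
      rw [hfrob v hv 𝔓 h𝔓 hl {r} (Finset.singleton_subset_iff.mpr hrP) i hi, hsingle]
      exact hri
    have hc : IsCoprime (i : ℤ) (n : ℤ) := Nat.isCoprime_iff_coprime.mpr hcop
    have := h1f_mem_zpowers_of_coprime g n (pow_orderOf_eq_one g) (i : ℤ) hc
    rw [zpow_natCast, ← hi] at this
    exact this
  · exfalso
    push Not at hex
    obtain ⟨hFs, -, -⟩ := h9e_primeLog F
    have hC : ∀ t : Finset ℕ, ∃ C : ℝ, ∀ s : ℝ, 1 < s → s ≤ 2 →
        |(∑' v : ↥(S t), (absNorm v.1.asIdeal : ℝ) ^ (-s))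
          - (1 / (Module.finrank F (h1f_Kd g (d t)) : ℝ)) * Real.log (1 / (s - 1))| ≤ C :=
      fun t => h1z_split_density' F (h1f_Kd g (d t))
    choose C hC using hC
    set BNP : ℝ := Module.finrank ℤ (𝓞 F) * ∑' n : ℕ, (n : ℝ) ^ (-(2:ℝ)) with hBNP
    set E : ℝ := ∑ t ∈ P.powerset, (C t + BNP + Exc.ncard) with hE
    set δ : ℝ := ∏ r ∈ P, (1 - 1 / (r : ℝ)) with hδ
    have hδpos : 0 < δ := h1f_moebius_pos P hP2
    have hkey : ∀ s : ℝ, 1 < s → s ≤ 2 → δ * Real.log (1 / (s - 1)) ≤ E := by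
      intro s hs1 hs2
      set w : HeightOneSpectrum (𝓞 F) → ℝ := fun v => (absNorm v.asIdeal : ℝ) ^ (-s) with hw
      have hsum : Summable w := hFs s hs1
      have hw0 : ∀ v, 0 ≤ w v := fun v => h1s_pterm_nonneg F v s
      have hie := h1f_incl_excl w hsum P S U ha hex
      set L : ℝ := Real.log (1 / (s - 1)) with hL
      have hbound : ∀ t ∈ P.powerset,
          |(1 / (d t : ℝ)) * L - ∑' v : ↥(U ∩ S t), w v| ≤ C t + BNP + Exc.ncard := by
        intro t ht
        have ht' := Finset.mem_powerset.mp ht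
        have h1 := hC t s hs1 hs2
        rw [hdeg t ht'] at h1
        have hle1 : ∑' v : ↥(U ∩ S t), w v ≤ ∑' v : ↥(S t), w v :=
          h1f_tsum_mono_set hw0 hsum Set.inter_subset_right
        have hcov : S t ⊆ (U ∩ S t) ∪ (NP ∪ Exc) := by
          intro v hv
          by_cases hvE : v ∈ Exc
          · exact Or.inr (Or.inr hvE)
          by_cases hvP : (absNorm v.asIdeal).Prime
          · exact Or.inl ⟨⟨hvE, hvP⟩, hv⟩
          · exact Or.inr (Or.inl hvP)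
        have h2 := h1s_tsum_le_of_subset_union hw0 hsum hcov
        have h3 := h1s_tsum_le_of_subset_union hw0 hsum (Set.Subset.refl (NP ∪ Exc))
        have h4 : ∑' v : ↥Exc, w v ≤ Exc.ncard :=
          NumberField.Set.primeIdealZetaSum_le_card_of_finite hExcfin (by linarith)
        have h5 : ∑' v : ↥NP, w v ≤ BNP := h1s_nonprime_sum_le F hs1.le hsum
        rw [abs_le] at h1 ⊢
        constructor <;> linarith [h1.1, h1.2]
      have hδL : δ * L = ∑ t ∈ P.powerset, (-1 : ℝ) ^ t.card * ((1 / (d t : ℝ)) * L) := by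
        rw [hδ, ← h1f_moebius_sum P, Finset.sum_mul]
        apply Finset.sum_congr rfl
        intro t _
        ring
      rw [hδL]
      calc ∑ t ∈ P.powerset, (-1 : ℝ) ^ t.card * ((1 / (d t : ℝ)) * L)
          = ∑ t ∈ P.powerset, (-1 : ℝ) ^ t.card * ((1 / (d t : ℝ)) * L)
              - ∑ t ∈ P.powerset, (-1 : ℝ) ^ t.card * ∑' v : ↥(U ∩ S t), w v := by
            rw [hie, sub_zero]
        _ = ∑ t ∈ P.powerset, (-1 : ℝ) ^ t.card *
              ((1 / (d t : ℝ)) * L - ∑' v : ↥(U ∩ S t), w v) := by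
            rw [← Finset.sum_sub_distrib]
            apply Finset.sum_congr rfl
            intro t _
            ring
        _ ≤ ∑ t ∈ P.powerset, (C t + BNP + Exc.ncard) := by
            apply Finset.sum_le_sum
            intro t ht
            refine le_trans (le_abs_self _) ?_
            rw [abs_mul, abs_pow, abs_neg, abs_one, one_pow, one_mul]
            exact hbound t ht
    set X : ℝ := |E| / δ + 1 with hX
    have hX0 : 0 < X := by
      have : 0 ≤ |E| / δ := div_nonneg (abs_nonneg _) hδpos.le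
      linarith
    have hs1 : 1 < 1 + Real.exp (-X) := by linarith [Real.exp_pos (-X)]
    have hs2 : 1 + Real.exp (-X) ≤ 2 := by
      have : Real.exp (-X) ≤ 1 := Real.exp_le_one_iff.mpr (by linarith)
      linarith
    have := hkey _ hs1 hs2
    have hlog : Real.log (1 / (1 + Real.exp (-X) - 1)) = X := by
      rw [add_sub_cancel_left, one_div, ← Real.exp_neg, neg_neg, Real.log_exp]
    rw [hlog, hX, mul_add, mul_one, mul_div_cancel₀ _ hδpos.ne'] at this
    have := le_abs_self E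
    linarith

end main

end Fermat.Agent.Lib.S41
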