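/-
S41 project (level raising), layer [C1] (helper1), two-prime version of `h1f_C1`:
* `h1f_C1_two`: **(C1'')** an element `σ` of `G_ℚ` whose restriction to a finite normal level `L` is
  nontrivial of order dividing `r₁ ^ a * r₂ ^ b` (`r₁ ≠ r₂` primes) generates, on `L`, the same
  cyclic group as a Frobenius element `τ` at some prime `ℓ` outside any given finite set `S`:
  `σ = τ ^ k` on `L` AND `τ = σ ^ k'` on `L`.
-/
import Mathlib
import Fermat.Agent.Lib.S41.H1FrobLift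
import Fermat.Agent.Lib.S41.H1FrobRat2

set_option autoImplicit false
set_option linter.unusedSectionVars false
set_option linter.unusedVariables false

noncomputable section

namespace Fermat.Agent.Lib.S41

open NumberField IsDedekindDomain IntermediateField
open Fermat.Agent.Lib.S13 Fermat.Agent.Lib.S14
open scoped Pointwise

/-- **(C1'')** An element `σ` of `G_ℚ` whose restriction to a finite normal level `L` is nontrivial
of order dividing `r₁ ^ a * r₂ ^ b` generates on `L` the same cyclic group as some Frobenius element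
`τ` at a prime `ℓ ∉ S`. -/
theorem h1f_C1_two (L : IntermediateField ℚ Qbar) [FiniteDimensional ℚ L] [Normal ℚ L] (σ : GQ)
    (r₁ r₂ a b : ℕ) (hr₁ : r₁.Prime) (hr₂ : r₂.Prime) (hne : r₁ ≠ r₂)
    (hσ : ∀ x ∈ L, (σ ^ (r₁ ^ a * r₂ ^ b)) x = x) (hσ1 : ∃ x ∈ L, σ x ≠ x) (S : Finset ℕ) :
    ∃ (ℓ : ℕ) (A : ValuationSubring Qbar) (τ : GQ) (k k' : ℕ), ℓ.Prime ∧ ℓ ∉ S ∧
      A.LiesOverPrime ℓ ∧ h1f_IsFrobAt A ℓ τ ∧ (∀ x ∈ L, σ x = (τ ^ k) x) ∧
      (∀ x ∈ L, τ x = (σ ^ k') x) := by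
  classical
  set g : L ≃ₐ[ℚ] L := AlgEquiv.restrictNormalHom L σ with hg
  have hga : g ^ (r₁ ^ a * r₂ ^ b) = 1 := by
    rw [hg, ← map_pow]
    ext x
    have := h5_restrict_apply L (σ ^ (r₁ ^ a * r₂ ^ b)) x
    rw [this]
    exact hσ x x.2
  have hg1 : g ≠ 1 := by
    intro h
    obtain ⟨x, hx, hne⟩ := hσ1
    apply hne
    have h1 := h5_restrict_apply L σ ⟨x, hx⟩
    rw [← hg, h] at h1
    exact h1.symm
  obtain ⟨ℓ, 𝔓, hℓ, hℓS, h𝔓p, hℓmem, hall⟩ :=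
    h1f_exists_frob_rat_two g r₁ r₂ a b hr₁ hr₂ hne hga hg1 S
  have := h𝔓p
  have h𝔓0 : 𝔓 ≠ ⊥ := by
    intro h
    rw [h, Ideal.mem_bot] at hℓmem
    have : (ℓ : ℕ) = 0 := by exact_mod_cast hℓmem
    exact hℓ.ne_zero this
  obtain ⟨A, ℓ', -, -, hA𝔓⟩ := h5b_exists_valuationSubring (algebraMap L Qbar) 𝔓 h𝔓0
  have hA : A.LiesOverPrime ℓ := by
    have h2 := hℓmem
    rw [← hA𝔓, h5_mem_primeOf_iff] at h2
    show (ℓ : Qbar) ∈ A.nonunits
    rw [ValuationSubring.mem_nonunits_iff]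
    simpa using h2
  obtain ⟨τ, hτ⟩ := h1f_exists_isFrobAt A hℓ hA
  set φ : L ≃ₐ[ℚ] L := AlgEquiv.restrictNormalHom L τ with hφ
  have hφfrob : ∀ x : 𝓞 L, φ • x - x ^ ℓ ∈ 𝔓 := by
    intro x
    rw [← hA𝔓]
    exact h1f_restrict_frob A L hτ x
  obtain ⟨hmem1, hmem2⟩ := hall φ hφfrob
  rw [← mem_powers_iff_mem_zpowers] at hmem1 hmem2
  obtain ⟨k, hk⟩ := hmem1
  obtain ⟨k', hk'⟩ := hmem2
  have hk1 : φ ^ k = g := hk
  have hk2 : g ^ k' = φ := hk'
  refine ⟨ℓ, A, τ, k, k', hℓ, hℓS, hA, hτ, fun x hx => ?_, fun x hx => ?_⟩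
  · have h1 := h5_restrict_apply L σ ⟨x, hx⟩
    have h2 := h5_restrict_apply L (τ ^ k) ⟨x, hx⟩
    rw [map_pow, ← hφ, hk1] at h2
    exact h1.symm.trans h2
  · have h1 := h5_restrict_apply L τ ⟨x, hx⟩
    have h2 := h5_restrict_apply L (σ ^ k') ⟨x, hx⟩
    rw [map_pow, ← hg, hk2] at h2
    exact h1.symm.trans h2

end Fermat.Agent.Lib.S41
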