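/-
S41 project (level raising), layer [C1] (helper1), general cyclic version of `H1FrobRat`:
for a finite Galois extension `K/ℚ` and ANY `g ∈ Gal(K/ℚ)`, outside any finite set of primes there
are a prime number `ℓ` and a prime `𝔓 ∣ ℓ` of `K` such that EVERY Frobenius element `φ` at `𝔓`
generates the same cyclic group as `g`: `g ∈ ⟨φ⟩` and `φ ∈ ⟨g⟩`.
-/
import Mathlib
import Fermat.Agent.Lib.S41.H1FrobRat
import Fermat.Agent.Lib.S41.H1FrobCyc3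

set_option autoImplicit false
set_option linter.unusedSectionVars false
set_option linter.unusedVariables false

open NumberField

namespace Fermat.Agent.Lib.S41

open Fermat.Agent.Lib.S14 IsDedekindDomain
open scoped Pointwise

section main

variable {K : Type*} [Field K] [NumberField K] [IsGalois ℚ K]

/-- **(N''')** -/
theorem h1f_exists_frob_rat_cyc (g : K ≃ₐ[ℚ] K) (T : Finset ℕ) :
    ∃ (ℓ : ℕ) (𝔓 : Ideal (𝓞 K)), ℓ.Prime ∧ ℓ ∉ T ∧ 𝔓.IsPrime ∧ ((ℓ : ℕ) : 𝓞 K) ∈ 𝔓 ∧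
      ∀ φ : K ≃ₐ[ℚ] K, (∀ x : 𝓞 K, φ • x - x ^ ℓ ∈ 𝔓) →
        g ∈ Subgroup.zpowers φ ∧ φ ∈ Subgroup.zpowers g := by
  classical
  set C : Subgroup (K ≃ₐ[ℚ] K) := Subgroup.zpowers g with hC
  set F : IntermediateField ℚ K := IntermediateField.fixedField C with hF
  have hfix : F.fixingSubgroup = C := IntermediateField.fixingSubgroup_fixedField C
  let e := IntermediateField.fixingSubgroupEquiv F
  have hgmem : g ∈ F.fixingSubgroup := by rw [hfix]; exact Subgroup.mem_zpowers g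
  set g' : K ≃ₐ[F] K := e ⟨g, hgmem⟩ with hg'
  have hg'res : g'.restrictScalars ℚ = g := by ext x; rfl
  have hgen : ∀ x : K ≃ₐ[F] K, x ∈ Subgroup.zpowers g' := by
    intro x
    obtain ⟨⟨c, hc⟩, rfl⟩ := e.surjective x
    have hc' : c ∈ C := hfix ▸ hc
    obtain ⟨i, hi⟩ := hc'
    refine ⟨i, ?_⟩
    show g' ^ i = e ⟨c, hc⟩
    rw [hg', ← map_zpow]
    congr 1
    exact Subtype.ext (by simpa using hi)
  obtain ⟨𝔮, h𝔮, hnp, hnT, hall⟩ :=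
    h1f_gen_frob_cyc g' hgen (T ∪ h1f_ramNorms ℚ K)
  have hnT1 : Ideal.absNorm 𝔮 ∉ T := fun h => hnT (Finset.mem_union_left _ h)
  have hnT2 : Ideal.absNorm 𝔮 ∉ h1f_ramNorms ℚ K := fun h => hnT (Finset.mem_union_right _ h)
  set ℓ : ℕ := Ideal.absNorm 𝔮 with hℓ
  have h𝔮0 : 𝔮 ≠ ⊥ := by
    intro h
    rw [hℓ, h, Ideal.absNorm_bot] at hnp
    exact Nat.not_prime_zero hnp
  have := h𝔮
  obtain ⟨⟨𝔓, h𝔓p, h𝔓l⟩⟩ := (inferInstance : Nonempty (𝔮.primesOver (𝓞 K)))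
  have h𝔓0 : 𝔓 ≠ ⊥ := Ideal.ne_bot_of_mem_primesOver h𝔮0 ⟨h𝔓p, h𝔓l⟩
  have hℓmem : ((ℓ : ℕ) : 𝓞 K) ∈ 𝔓 := by
    have h1 : ((ℓ : ℕ) : 𝓞 F) ∈ 𝔮 := Ideal.absNorm_mem 𝔮
    rw [h𝔓l.over, Ideal.under_def, Ideal.mem_comap, map_natCast] at h1
    exact h1
  obtain ⟨hIF, hgz⟩ := hall 𝔓 h𝔓0 h𝔓l
  have heQ : 𝔓.ramificationIdx (𝓞 ℚ) = 1 :=
    h1f_ramificationIdx_of_notMem (F := ℚ) (𝔓.under (𝓞 ℚ))
      (by rw [h1f_absNorm_under_rat 𝔓 hnp hℓmem]; exact hnT2) 𝔓 h𝔓0 ⟨rfl⟩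
  have hIQ : 𝔓.inertia Gal(K/ℚ) = ⊥ := (h2a_inertia_eq_bot_iff (F := ℚ) 𝔓 h𝔓0).2 heQ
  have hcardQ : Nat.card (𝓞 ℚ ⧸ 𝔓.under (𝓞 ℚ)) = ℓ := by
    rw [← Submodule.cardQuot_apply, ← Ideal.absNorm_apply]
    exact h1f_absNorm_under_rat 𝔓 hnp hℓmem
  have hcardF : Nat.card (𝓞 F ⧸ 𝔓.under (𝓞 F)) = ℓ := by
    rw [← h𝔓l.over, ← Submodule.cardQuot_apply, ← Ideal.absNorm_apply]
  refine ⟨ℓ, 𝔓, hnp, hnT1, h𝔓p, hℓmem, ?_⟩
  intro φ hφ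
  set φ' : K ≃ₐ[F] K := h2a_frob F K 𝔓 h𝔓0 with hφ'
  have hφ'Q : IsArithFrobAt (𝓞 ℚ) (φ'.restrictScalars ℚ) 𝔓 := by
    intro x
    rw [hcardQ]
    show (φ'.restrictScalars ℚ) • x - x ^ ℓ ∈ 𝔓
    rw [h2a_restrictScalars_smul (K := ℚ)]
    have := h2a_frob_spec (F := F) 𝔓 h𝔓0 x
    rwa [hcardF] at this
  have hφQ : IsArithFrobAt (𝓞 ℚ) φ 𝔓 := by
    intro x
    rw [hcardQ]
    exact hφ x
  have heq : φ = φ'.restrictScalars ℚ :=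
    (h2a_frob_unique 𝔓 h𝔓0 hIQ hφQ).trans (h2a_frob_unique 𝔓 h𝔓0 hIQ hφ'Q).symm
  constructor
  · obtain ⟨k, hk⟩ := hgz
    refine ⟨k, ?_⟩
    show φ ^ k = g
    have h1 : AlgEquiv.restrictScalarsHom ℚ (φ' ^ k) = AlgEquiv.restrictScalarsHom ℚ g' :=
      congrArg _ hk
    rw [map_zpow] at h1
    rw [heq, ← hg'res]
    exact h1
  · obtain ⟨k, hk⟩ := hgen φ'
    refine ⟨k, ?_⟩
    show g ^ k = φ
    have h1 : AlgEquiv.restrictScalarsHom ℚ (g' ^ k) = AlgEquiv.restrictScalarsHom ℚ φ' :=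
      congrArg _ hk
    rw [map_zpow] at h1
    rw [heq, ← hg'res]
    exact h1

end main

end Fermat.Agent.Lib.S41
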