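/-
S41 project (level raising), layer [C3'] (helper1): strengthening of helper7's (C3)
`h7n_exists_stable_line`.  A group `G` acting on a 2-dimensional `ZMod p`-vector space `V`,
together with a homomorphism `π : G → Q` to a FINITE group, such that every `g` whose image `π g`
has prime-power order fixes a nonzero vector, leaves a line stable.
(Only elements of prime-power order at a finite level are needed, which is what the
split-density form of Chebotarev (`h1f_C1`) provides.)
-/
import Mathlib
import Fermat.Agent.Lib.S41.H7NonEisGrp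

set_option autoImplicit false

namespace Fermat.Agent.Lib.S41

section main

variable {p : ℕ} [Fact p.Prime] {V : Type*} [AddCommGroup V] [Module (ZMod p) V]
  {G : Type*} [Group G] [DistribMulAction G V]

/-- The `r`-part trick: for `g` in a group mapping to a finite group `Q` and a prime `r`, some
power `g ^ m` with `r ∤ m` has image of `r`-power order. -/
theorem h1g_exists_rpart {Q : Type*} [Group Q] [Finite Q] (π : G →* Q) (g : G) (r : ℕ)
    (hr : r.Prime) : ∃ m b : ℕ, ¬ r ∣ m ∧ π (g ^ m) ^ (r ^ b) = 1 := by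
  have hn : orderOf (π g) ≠ 0 := (orderOf_pos (π g)).ne'
  obtain ⟨b, m, hm, hnm⟩ := Nat.exists_eq_pow_mul_and_not_dvd hn r hr.ne_one
  refine ⟨m, b, hm, ?_⟩
  rw [map_pow, ← pow_mul, mul_comm, ← hnm, pow_orderOf_eq_one]

/-- **C3'.** -/
theorem h1g_exists_stable_line [Module.Finite (ZMod p) V]
    (hV : Module.finrank (ZMod p) V = 2)
    {Q : Type*} [Group Q] [Finite Q] (π : G →* Q)
    (hfix : ∀ g : G, ∀ r : ℕ, r.Prime → ∀ b : ℕ, π g ^ (r ^ b) = 1 →
      ∃ v : V, v ≠ 0 ∧ g • v = v) :
    ∃ N : Submodule (ZMod p) V, N ≠ ⊥ ∧ N ≠ ⊤ ∧ ∀ g : G, ∀ v ∈ N, g • v ∈ N := by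
  classical
  have hp : p.Prime := Fact.out
  have hfinV : Finite V := Module.finite_of_finite (ZMod p)
  have hcard : Nat.card V = p ^ 2 := by
    have h := Module.natCard_eq_pow_finrank (K := ZMod p) (V := V)
    rw [hV, Nat.card_zmod] at h
    exact h
  -- the determinant character and its kernel
  let δ : G →* ZMod p := LinearMap.det.comp (h7n_lin p V)
  let H : Subgroup G := δ.ker
  -- an element of `H` with a fixed nonzero vector is unipotent
  have hHpow : ∀ h ∈ H, (∃ w : V, w ≠ 0 ∧ h • w = w) → ∀ v : V, (h ^ p) • v = v := by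
    intro h hh hw v
    have hdet : LinearMap.det (h7n_lin p V h) = 1 := hh
    have h1 := h7n_sub_one_sq hV (h7n_lin p V h) hdet (by
      obtain ⟨w, hw0, hw⟩ := hw
      exact ⟨w, hw0, hw⟩)
    have h2 := h7n_pow_p_eq_one (h7n_lin p V h) h1
    have h3 : h7n_lin p V (h ^ p) v = v := by
      rw [map_pow, h2]; rfl
    exact h3
  -- the image of `H` in `Perm V` is a `p`-group
  let K : Subgroup (Equiv.Perm V) := H.map (MulAction.toPermHom G V)
  have hKfin : Finite K := inferInstance
  have hK : IsPGroup p K := by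
    rw [IsPGroup.iff_card]
    refine ⟨(Nat.card K).primeFactorsList.length, ?_⟩
    apply Nat.eq_prime_pow_of_unique_prime_dvd Nat.card_pos.ne'
    intro r hr hrd
    have : Fact r.Prime := ⟨hr⟩
    obtain ⟨⟨k, h, hh, rfl⟩, hk⟩ := exists_prime_orderOf_dvd_card' r hrd
    obtain ⟨m, b, hm, hmb⟩ := h1g_exists_rpart π h r hr
    have hh' : h ^ m ∈ H := H.pow_mem hh m
    have hw := hfix (h ^ m) r hr b hmb
    have h1 := hHpow (h ^ m) hh' hw
    -- `(toPerm h) ^ (m * p) = 1`
    have h2 : (MulAction.toPermHom G V h) ^ (m * p) = 1 := by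
      rw [← map_pow]
      ext v
      have := h1 v
      rw [← pow_mul] at this
      simpa using this
    have h3 : orderOf (MulAction.toPermHom G V h) = r := by
      have := hk
      rw [← Subgroup.orderOf_coe] at this
      exact this
    have h4 : r ∣ m * p := by
      rw [← h3]
      exact orderOf_dvd_of_pow_eq_one h2
    rcases (Nat.Prime.dvd_mul hr).mp h4 with h5 | h5
    · exact absurd h5 hm
    · exact (Nat.prime_dvd_prime_iff_eq hr hp).mp h5
  have hfix0 : (0 : V) ∈ MulAction.fixedPoints K V := by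
    rintro ⟨k, h, hh, rfl⟩
    change (MulAction.toPermHom G V h) 0 = 0
    simp
  obtain ⟨b, hb, hb0⟩ := hK.exists_fixed_point_of_prime_dvd_card_of_fixed_point (α := V)
    (by rw [hcard]; exact dvd_pow_self p (by norm_num)) hfix0
  have hbH : ∀ h ∈ H, h • b = b := by
    intro h hh
    have := hb ⟨MulAction.toPermHom G V h, h, hh, rfl⟩
    exact this
  -- the submodule of `H`-fixed vectors
  let N : Submodule (ZMod p) V :=
    { carrier := {v | ∀ h ∈ H, h • v = v}
      add_mem' := by
        intro v w hv hw h hh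
        rw [smul_add, hv h hh, hw h hh]
      zero_mem' := by
        intro h _
        exact smul_zero h
      smul_mem' := by
        intro c v hv h hh
        have : h • (c • v) = h7n_lin p V h (c • v) := rfl
        rw [this, map_smul, h7n_lin_apply, hv h hh] }
  have hNstab : ∀ g : G, ∀ v ∈ N, g • v ∈ N := by
    intro g v hv h hh
    have hconj : g⁻¹ * h * g ∈ H := by
      have hn : H.Normal := MonoidHom.normal_ker δ
      have := hn.conj_mem h hh g⁻¹
      simpa using this
    have := hv _ hconj
    calc h • g • v = g • ((g⁻¹ * h * g) • v) := by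
          simp [mul_smul]
      _ = g • v := by rw [this]
  have hNbot : N ≠ ⊥ := by
    intro hN
    have : b ∈ N := hbH
    rw [hN, Submodule.mem_bot] at this
    exact hb0 this.symm
  by_cases hNtop : N = ⊤
  · -- `H` acts trivially, so the action is commutative
    have htriv : ∀ h ∈ H, ∀ v : V, h • v = v := by
      intro h hh v
      have : v ∈ N := by rw [hNtop]; trivial
      exact this h hh
    have hcomm : ∀ g₁ g₂ : G, ∀ v : V, g₁ • g₂ • v = g₂ • g₁ • v := by
      intro g₁ g₂ v
      have hc : g₂⁻¹ * g₁⁻¹ * g₂ * g₁ ∈ H := by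
        change δ (g₂⁻¹ * g₁⁻¹ * g₂ * g₁) = 1
        have h1 : δ g₁ * δ g₁⁻¹ = 1 := by rw [← map_mul, mul_inv_cancel, map_one]
        have h2 : δ g₂ * δ g₂⁻¹ = 1 := by rw [← map_mul, mul_inv_cancel, map_one]
        simp only [map_mul]
        calc δ g₂⁻¹ * δ g₁⁻¹ * δ g₂ * δ g₁ = (δ g₁ * δ g₁⁻¹) * (δ g₂ * δ g₂⁻¹) := by ring
          _ = 1 := by rw [h1, h2, one_mul]
      have := htriv _ hc (g₁⁻¹ • g₂⁻¹ • g₁ • g₂ • v)
      have h3 : (g₂⁻¹ * g₁⁻¹ * g₂ * g₁) • (g₁⁻¹ • g₂⁻¹ • g₁ • g₂ • v) =
          g₂⁻¹ • g₁⁻¹ • g₁ • g₂ • v := by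
        simp [mul_smul]
      rw [h3] at this
      have h4 : g₂⁻¹ • g₁⁻¹ • g₁ • g₂ • v = v := by simp
      rw [h4] at this
      have h5 : g₂ • g₁ • v = g₂ • g₁ • (g₁⁻¹ • g₂⁻¹ • g₁ • g₂ • v) := by rw [← this]
      rw [h5]
      simp
    by_cases hall : ∀ g : G, ∀ v : V, g • v = v
    · -- everything acts trivially: any line works
      have hpos : 0 < Module.finrank (ZMod p) V := by rw [hV]; norm_num
      obtain ⟨v, hv⟩ := Module.finrank_pos_iff_exists_ne_zero.mp hpos
      refine ⟨Submodule.span (ZMod p) {v}, ?_, ?_, ?_⟩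
      · intro h
        have : v ∈ Submodule.span (ZMod p) {v} := Submodule.mem_span_singleton_self v
        rw [h, Submodule.mem_bot] at this
        exact hv this
      · intro h
        have h1 : Module.finrank (ZMod p) (Submodule.span (ZMod p) {v}) = 1 :=
          finrank_span_singleton hv
        rw [h, finrank_top, hV] at h1
        omega
      · intro g w hw
        rw [hall g w]; exact hw
    · push Not at hall
      obtain ⟨g, v₀, hv₀⟩ := hall
      -- a prime dividing the order of the permutation induced by `g`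
      set gbar : Equiv.Perm V := MulAction.toPermHom G V g with hgbar
      have hgbar1 : orderOf gbar ≠ 1 := by
        intro h1
        rw [orderOf_eq_one_iff] at h1
        apply hv₀
        have := congrArg (fun e : Equiv.Perm V => e v₀) h1
        simpa [hgbar] using this
      obtain ⟨r, hr, hrd⟩ := Nat.exists_prime_and_dvd hgbar1
      obtain ⟨m, b', hm, hmb⟩ := h1g_exists_rpart π g r hr
      set g₀ : G := g ^ m with hg₀
      obtain ⟨w, hw0, hw⟩ := hfix g₀ r hr b' hmb
      -- `g₀` acts nontrivially
      have hg₀nt : ∃ v₁ : V, g₀ • v₁ ≠ v₁ := by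
        by_contra hcon
        push Not at hcon
        have h1 : gbar ^ m = 1 := by
          rw [hgbar, ← map_pow]
          ext v
          simpa using hcon v
        have h2 : orderOf gbar ∣ m := orderOf_dvd_of_pow_eq_one h1
        exact hm (dvd_trans hrd h2)
      obtain ⟨v₁, hv₁⟩ := hg₀nt
      let N' : Submodule (ZMod p) V := LinearMap.ker (h7n_lin p V g₀ - 1)
      have hN'mem : ∀ v : V, v ∈ N' ↔ g₀ • v = v := by
        intro v
        simp only [N', LinearMap.mem_ker, LinearMap.sub_apply, h7n_lin_apply,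
          Module.End.one_apply, sub_eq_zero]
      refine ⟨N', ?_, ?_, ?_⟩
      · intro h
        have : w ∈ N' := (hN'mem w).mpr hw
        rw [h, Submodule.mem_bot] at this
        exact hw0 this
      · intro h
        have : v₁ ∈ N' := by rw [h]; trivial
        exact hv₁ ((hN'mem v₁).mp this)
      · intro g' v hv
        rw [hN'mem] at hv ⊢
        rw [hcomm g₀ g' v, hv]
  · exact ⟨N, hNbot, hNtop, hNstab⟩

end main

end Fermat.Agent.Lib.S41
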