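import Fermat.Agent.Lib.S41.H6Par

/-!
# Project S41, layer [B] (helper6): restriction and transfer are adjoint (B2), frame level

`π : X' → X` an equivariant map of finite `SL(2,ℤ)`-sets (`-1` acting trivially), frames `F'`, `F`
with `π F'.x0 = F.x0` (so `F'.Γ ≤ F.Γ`).  Pull-back `h6t_pull` and push-forward `h6t_push` of
functions are equivariant and adjoint; `h6t_res`, `h6t_tr` (restriction and transfer of
characters); **`h6t_adjoint : P' (res x) z = P x (tr z)`**; explicit formula `h6t_tr_apply`.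
-/

set_option autoImplicit false

open scoped MatrixGroups
open ModularCurve.Period

namespace Fermat.Agent.Lib.S41

local notation "sS" => (ModularGroup.S : SL(2, ℤ))
local notation "sT" => (ModularGroup.T : SL(2, ℤ))
local notation "sU" => (h6p_U : SL(2, ℤ))

section Maps

variable {X' X : Type*} [MulAction SL(2, ℤ) X'] [MulAction SL(2, ℤ) X]
variable (π : X' → X)

/-- Pull-back of functions. -/
def h6t_pull (v : X → ℤ) : X' → ℤ := fun x' => v (π x')

theorem h6t_pull_sub (v w : X → ℤ) : h6t_pull π (v - w) = h6t_pull π v - h6t_pull π w := rfl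

theorem h6t_pull_add (v w : X → ℤ) : h6t_pull π (v + w) = h6t_pull π v + h6t_pull π w := rfl

variable [Fintype X'] [DecidableEq X]

/-- Push-forward (fibre sums) of functions. -/
def h6t_push (v' : X' → ℤ) : X → ℤ := fun x => ∑ x', if π x' = x then v' x' else 0

theorem h6t_push_add (v w : X' → ℤ) : h6t_push π (v + w) = h6t_push π v + h6t_push π w := by
  funext x
  show ∑ x', (if π x' = x then (v + w) x' else 0)
    = ∑ x', (if π x' = x then v x' else 0) + ∑ x', (if π x' = x then w x' else 0)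
  rw [← Finset.sum_add_distrib]
  refine Finset.sum_congr rfl fun x' _ => ?_
  split_ifs <;> simp

theorem h6t_push_neg (v : X' → ℤ) : h6t_push π (-v) = -h6t_push π v := by
  funext x
  show ∑ x', (if π x' = x then (-v) x' else 0) = -∑ x', (if π x' = x then v x' else 0)
  rw [← Finset.sum_neg_distrib]
  refine Finset.sum_congr rfl fun x' _ => ?_
  split_ifs <;> simp

theorem h6t_push_sub (v w : X' → ℤ) : h6t_push π (v - w) = h6t_push π v - h6t_push π w := by
  rw [sub_eq_add_neg, h6t_push_add, h6t_push_neg, sub_eq_add_neg]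

variable (hπ : ∀ (g : SL(2, ℤ)) (x' : X'), π (g • x') = g • π x')
include hπ

omit [Fintype X'] [DecidableEq X] in
theorem h6t_pull_rho (g : SL(2, ℤ)) (v : X → ℤ) :
    h6t_pull π (h6c_rho g v) = h6c_rho g (h6t_pull π v) := by
  funext x'
  show v (g⁻¹ • π x') = v (π (g⁻¹ • x'))
  rw [hπ]

theorem h6t_push_rho (g : SL(2, ℤ)) (v' : X' → ℤ) :
    h6t_push π (h6c_rho g v') = h6c_rho g (h6t_push π v') := by
  funext x
  show ∑ x', (if π x' = x then v' (g⁻¹ • x') else 0)
    = ∑ x', (if π x' = g⁻¹ • x then v' x' else 0)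
  rw [← Equiv.sum_comp (MulAction.toPerm g)]
  refine Finset.sum_congr rfl fun x'' _ => ?_
  show (if π (g • x'') = x then v' (g⁻¹ • g • x'') else 0) = _
  rw [inv_smul_smul, hπ]
  have : g • π x'' = x ↔ π x'' = g⁻¹ • x := by rw [eq_inv_smul_iff]
  simp only [this]

omit hπ in
theorem h6t_adj [Fintype X] (v : X → ℤ) (v' : X' → ℤ) :
    h6c_dot (h6t_pull π v) v' = h6c_dot v (h6t_push π v') := by
  unfold h6c_dot h6t_push h6t_pull
  simp_rw [Finset.mul_sum]
  rw [Finset.sum_comm]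
  refine Finset.sum_congr rfl fun x' _ => ?_
  simp_rw [mul_ite, mul_zero]
  rw [Finset.sum_ite_eq]
  simp

/-- Pull-back of cocycles. -/
def h6t_pullc (c : SL(2, ℤ) → X → ℤ) : SL(2, ℤ) → X' → ℤ := fun g => h6t_pull π (c g)

/-- Push-forward of cocycles. -/
def h6t_pushc (c' : SL(2, ℤ) → X' → ℤ) : SL(2, ℤ) → X → ℤ := fun g => h6t_push π (c' g)

omit [Fintype X'] [DecidableEq X] in
theorem h6t_pullc_isCoc {c : SL(2, ℤ) → X → ℤ} (hc : h6c_IsCoc c) : h6c_IsCoc (h6t_pullc π c) := by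
  intro g h
  show h6t_pull π (c (g * h)) = h6t_pull π (c g) + h6c_rho g (h6t_pull π (c h))
  rw [hc, h6t_pull_add, h6t_pull_rho π hπ]

theorem h6t_pushc_isCoc {c' : SL(2, ℤ) → X' → ℤ} (hc' : h6c_IsCoc c') :
    h6c_IsCoc (h6t_pushc π c') := by
  intro g h
  show h6t_push π (c' (g * h)) = h6t_push π (c' g) + h6c_rho g (h6t_push π (c' h))
  rw [hc', h6t_push_add, h6t_push_rho π hπ]

omit [Fintype X'] [DecidableEq X] in
theorem h6t_pullc_isPar {c : SL(2, ℤ) → X → ℤ} (hp : h6q_IsPar c) : h6q_IsPar (h6t_pullc π c) := by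
  obtain ⟨v, hv⟩ := hp
  refine ⟨h6t_pull π v, ?_⟩
  show h6t_pull π (c sT) = _
  rw [hv, h6t_pull_sub, h6t_pull_rho π hπ]

theorem h6t_pushc_isPar {c' : SL(2, ℤ) → X' → ℤ} (hp : h6q_IsPar c') :
    h6q_IsPar (h6t_pushc π c') := by
  obtain ⟨v, hv⟩ := hp
  refine ⟨h6t_push π v, ?_⟩
  show h6t_push π (c' sT) = _
  rw [hv, h6t_push_sub, h6t_push_rho π hπ]

variable [Fintype X]
variable (hneg' : ∀ x : X', (-1 : SL(2, ℤ)) • x = x) (hneg : ∀ x : X, (-1 : SL(2, ℤ)) • x = x)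
include hneg' hneg

/-- Adjointness on the level of cocycles. -/
theorem h6t_pair_adj {c : SL(2, ℤ) → X → ℤ} {c' : SL(2, ℤ) → X' → ℤ} (hc : h6c_IsCoc c)
    (hc' : h6c_IsCoc c') (hp : h6q_IsPar c) (hp' : h6q_IsPar c') :
    h6q_pair (h6t_pullc π c) c' = h6q_pair c (h6t_pushc π c') := by
  obtain ⟨v, hv⟩ := hp
  obtain ⟨a', ha'⟩ := h6q_exists_a hneg' hc'
  obtain ⟨b', hb'⟩ := h6q_exists_b hneg' hc'
  have hv1 : h6t_pullc π c sT = h6t_pull π v - h6c_rho sT (h6t_pull π v) := by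
    show h6t_pull π (c sT) = _
    rw [hv, h6t_pull_sub, h6t_pull_rho π hπ]
  have ha1 : h6t_pushc π c' sS = h6t_push π a' - h6c_rho sS (h6t_push π a') := by
    show h6t_push π (c' sS) = _
    rw [ha', h6t_push_sub, h6t_push_rho π hπ]
  have hb1 : h6t_pushc π c' sU = h6t_push π b' - h6c_rho sU (h6t_push π b') := by
    show h6t_push π (c' sU) = _
    rw [hb', h6t_push_sub, h6t_push_rho π hπ]
  rw [h6q_pair_eq hneg' (h6t_pullc_isCoc π hπ hc) hc' hp' hv1 ha' hb',
    h6q_pair_eq hneg hc (h6t_pushc_isCoc π hπ hc') (h6t_pushc_isPar π hπ hp') hv ha1 hb1]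
  unfold h6q_val h6q_w
  rw [← h6t_push_sub, ← h6t_adj]
  congr 1
  show h6t_pull π (c sS) - (h6t_pull π v - h6c_rho sS (h6t_pull π v)) = _
  rw [← h6t_pull_rho π hπ]
  rfl

end Maps

/-! ### Restriction and transfer of characters -/

section Frames

variable {X' X : Type*} [MulAction SL(2, ℤ) X'] [MulAction SL(2, ℤ) X]
variable (π : X' → X) (hπ : ∀ (g : SL(2, ℤ)) (x' : X'), π (g • x') = g • π x')
variable (F' : h6c_Frame SL(2, ℤ) X') (F : h6c_Frame SL(2, ℤ) X) (hx0 : π F'.x0 = F.x0)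

include hπ hx0 in
theorem h6t_le : F'.Γ ≤ F.Γ := by
  intro g hg
  rw [F.stab, ← hx0, ← hπ, (F'.stab g).mp hg]

/-- Restriction of characters. -/
def h6t_res (hle : F'.Γ ≤ F.Γ) (x : Additive F.Γ →+ ℤ) : Additive F'.Γ →+ ℤ :=
  x.comp (MonoidHom.toAdditive (Subgroup.inclusion hle))

theorem h6t_res_apply (hle : F'.Γ ≤ F.Γ) (x : Additive F.Γ →+ ℤ) (γ : F'.Γ) :
    h6t_res F' F hle x (Additive.ofMul γ) = x (Additive.ofMul (Subgroup.inclusion hle γ)) := rfl

theorem h6t_res_parabolic (hle : F'.Γ ≤ F.Γ) (x : Additive F.Γ →+ ℤ)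
    (hx : IsParabolicHom F.Γ x) : IsParabolicHom F'.Γ (h6t_res F' F hle x) := by
  intro γ htr
  rw [h6t_res_apply]
  exact hx _ htr

variable [Fintype X'] [DecidableEq X]

/-- Transfer of characters. -/
def h6t_tr (z : Additive F'.Γ →+ ℤ) : Additive F.Γ →+ ℤ :=
  F.ev (h6t_pushc π (F'.coc z)) (h6t_pushc_isCoc π hπ (F'.coc_isCoc z))

/-- The explicit transfer formula. -/
theorem h6t_tr_apply (z : Additive F'.Γ →+ ℤ) (γ : F.Γ) :
    h6t_tr π hπ F' F z (Additive.ofMul γ)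
      = ∑ x' : X', if π x' = F.x0 then z (Additive.ofMul (F'.cocElem (γ : SL(2, ℤ)) x')) else 0 :=
  rfl

variable (hneg' : ∀ x : X', (-1 : SL(2, ℤ)) • x = x) (hneg : ∀ x : X, (-1 : SL(2, ℤ)) • x = x)

include hneg in
theorem h6t_tr_parabolic [Finite X'] (z : Additive F'.Γ →+ ℤ) (hz : IsParabolicHom F'.Γ z) :
    IsParabolicHom F.Γ (h6t_tr π hπ F' F z) :=
  h6r_ev_parabolic hneg F _ (h6t_pushc_isPar π hπ (h6r_isPar_coc F' z hz))

variable [Fintype X]

include hneg' hneg hx0 in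
/-- **(B2)** restriction and transfer are adjoint. -/
theorem h6t_adjoint (x : Additive F.Γ →+ ℤ) (z : Additive F'.Γ →+ ℤ)
    (hx : IsParabolicHom F.Γ x) (hz : IsParabolicHom F'.Γ z) :
    h6q_P F' (h6t_res F' F (h6t_le π hπ F' F hx0) x) z = h6q_P F x (h6t_tr π hπ F' F z) := by
  have hle := h6t_le π hπ F' F hx0
  have hcx := F.coc_isCoc x
  have hcz := F'.coc_isCoc z
  have hpx := h6r_isPar_coc F x hx
  have hpz := h6r_isPar_coc F' z hz
  have hc1 := h6t_pullc_isCoc π hπ hcx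
  have hc2 := h6t_pushc_isCoc π hπ hcz
  have hp1 := h6t_pullc_isPar π hπ hpx
  have hp2 := h6t_pushc_isPar π hπ hpz
  -- the Shapiro cocycle of `res x` is cohomologous to the pull-back
  have hev : F'.ev (h6t_pullc π (F.coc x)) hc1 = h6t_res F' F hle x := by
    refine AddMonoidHom.ext fun γ' => ?_
    set γ : F'.Γ := Additive.toMul γ' with hγ
    show F.coc x (γ : SL(2, ℤ)) (π F'.x0) = x (Additive.ofMul (Subgroup.inclusion hle γ))
    rw [hx0]
    have := DFunLike.congr_fun (F.ev_coc x) (Additive.ofMul (Subgroup.inclusion hle γ))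
    rw [← this]; rfl
  have h1 : F'.coc (h6t_res F' F hle x)
      = fun g => h6t_pullc π (F.coc x) g + h6c_cob (-(F'.corr (h6t_pullc π (F.coc x)))) g := by
    funext g
    rw [← hev, F'.coc_ev]
    show _ - (_ - h6c_rho g _) = _ + (-_ - h6c_rho g (-_))
    rw [h6c_rho_neg]; abel
  have h2 : h6t_pushc π (F'.coc z)
      = fun g => F.coc (h6t_tr π hπ F' F z) g
          + h6c_cob (F.corr (h6t_pushc π (F'.coc z))) g := by
    funext g
    show _ = F.coc (F.ev _ hc2) g + _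
    rw [F.coc_ev]; abel
  have hptr := h6r_isPar_coc F _ (h6t_tr_parabolic π hπ F' F hneg z hz)
  unfold h6q_P
  rw [h1, h6q_pair_cob_left hneg' hc1 hcz hp1 hpz, h6t_pair_adj π hπ hneg' hneg hcx hcz hpx hpz, h2,
    h6q_pair_cob_right hneg hcx (F.coc_isCoc _) hpx hptr]

end Frames

end Fermat.Agent.Lib.S41
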