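import Fermat.Agent.Lib.S41.H6Perf2
import Fermat.Agent.Lib.S41.H6Adj

/-!
# Project S41, layer [B] (helper6): the pairing for a finite-index subgroup `Γ ≤ SL(2,ℤ)`, `-1 ∈ Γ`

Interface for the other layers:
* `h6u_P Γ x y : ℤ` — the pairing of two additive characters of `Γ` (bilinear on parabolic ones:
  `h6u_P_add_left`, `h6u_P_add_right`);
* `h6u_perfect` — **(B1)**;
* `h6u_res`, `h6u_tr`, `h6u_tr_apply`, `h6u_adjoint` — **(B2)** for `Γ' ≤ Γ`.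
-/

set_option autoImplicit false

open scoped MatrixGroups
open ModularCurve.Period

namespace Fermat.Agent.Lib.S41

section Std

variable (Γ : Subgroup SL(2, ℤ))

/-- The standard frame on `SL(2,ℤ) ⧸ Γ`. -/
@[reducible] noncomputable def h6u_frame : h6c_Frame SL(2, ℤ) (SL(2, ℤ) ⧸ Γ) where
  Γ := Γ
  x0 := ((1 : SL(2, ℤ)) : SL(2, ℤ) ⧸ Γ)
  stab g := by
    show g ∈ Γ ↔ ((g * 1 : SL(2, ℤ)) : SL(2, ℤ) ⧸ Γ) = ((1 : SL(2, ℤ)) : SL(2, ℤ) ⧸ Γ)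
    rw [mul_one, QuotientGroup.eq, mul_one, inv_mem_iff]
  r q := Quotient.out q
  hr q := by
    show ((Quotient.out q * 1 : SL(2, ℤ)) : SL(2, ℤ) ⧸ Γ) = q
    rw [mul_one]
    exact QuotientGroup.out_eq' q

theorem h6u_neg (hneg1 : (-1 : SL(2, ℤ)) ∈ Γ) (x : SL(2, ℤ) ⧸ Γ) : (-1 : SL(2, ℤ)) • x = x := by
  induction x using QuotientGroup.induction_on with
  | H g =>
    show (((-1 : SL(2, ℤ)) * g : SL(2, ℤ)) : SL(2, ℤ) ⧸ Γ) = (g : SL(2, ℤ) ⧸ Γ)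
    rw [QuotientGroup.eq]
    have : ((-1 : SL(2, ℤ)) * g)⁻¹ * g = -1 := by
      rw [neg_mul, one_mul]
      have h1 : (-g)⁻¹ = -g⁻¹ := by
        rw [inv_eq_iff_eq_inv]
        simp
      rw [h1, neg_mul, inv_mul_cancel]
    rw [this]; exact hneg1

variable [Γ.FiniteIndex]

/-- The `Fintype` instance used throughout. -/
noncomputable def h6u_fintype : Fintype (SL(2, ℤ) ⧸ Γ) := Fintype.ofFinite _

/-- **The pairing** of two additive characters of `Γ`. -/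
noncomputable def h6u_P (x y : Additive Γ →+ ℤ) : ℤ :=
  @h6q_P _ _ (h6u_fintype Γ) (h6u_frame Γ) x y

variable (hneg1 : (-1 : SL(2, ℤ)) ∈ Γ)
include hneg1

theorem h6u_P_add_left (x₁ x₂ y : Additive Γ →+ ℤ) (h₁ : IsParabolicHom Γ x₁)
    (h₂ : IsParabolicHom Γ x₂) (hy : IsParabolicHom Γ y) :
    h6u_P Γ (x₁ + x₂) y = h6u_P Γ x₁ y + h6u_P Γ x₂ y :=
  @h6q_P_add_left _ _ (h6u_fintype Γ) (h6u_neg Γ hneg1) (h6u_frame Γ) x₁ x₂ y h₁ h₂ hy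

theorem h6u_P_add_right (x y₁ y₂ : Additive Γ →+ ℤ) (hx : IsParabolicHom Γ x)
    (h₁ : IsParabolicHom Γ y₁) (h₂ : IsParabolicHom Γ y₂) :
    h6u_P Γ x (y₁ + y₂) = h6u_P Γ x y₁ + h6u_P Γ x y₂ :=
  @h6q_P_add_right _ _ (h6u_fintype Γ) (h6u_neg Γ hneg1) (h6u_frame Γ) x y₁ y₂ hx h₁ h₂

/-- **(B1)** perfectness: if `n ∣ P(x, y)` for every parabolic `y` then `x = n x'`. -/
theorem h6u_perfect (n : ℤ) (hn : n ≠ 0) (x : Additive Γ →+ ℤ) (hx : IsParabolicHom Γ x)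
    (hdiv : ∀ y : Additive Γ →+ ℤ, IsParabolicHom Γ y → n ∣ h6u_P Γ x y) :
    ∃ x' : Additive Γ →+ ℤ, IsParabolicHom Γ x' ∧ x = n • x' :=
  @h6s_perfect _ _ (h6u_fintype Γ) (h6u_neg Γ hneg1) _ (h6u_frame Γ) n hn x hx hdiv

end Std

section Adj

variable {Γ' Γ : Subgroup SL(2, ℤ)} (hle : Γ' ≤ Γ)

/-- The projection `SL(2,ℤ) ⧸ Γ' → SL(2,ℤ) ⧸ Γ`. -/
def h6u_proj : SL(2, ℤ) ⧸ Γ' → SL(2, ℤ) ⧸ Γ := Subgroup.quotientMapOfLE hle

theorem h6u_proj_smul (g : SL(2, ℤ)) (x' : SL(2, ℤ) ⧸ Γ') :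
    h6u_proj hle (g • x') = g • h6u_proj hle x' := by
  induction x' using QuotientGroup.induction_on with
  | H a => rfl

/-- Restriction of characters. -/
def h6u_res (x : Additive Γ →+ ℤ) : Additive Γ' →+ ℤ :=
  x.comp (MonoidHom.toAdditive (Subgroup.inclusion hle))

theorem h6u_res_apply (x : Additive Γ →+ ℤ) (γ : Γ') :
    h6u_res hle x (Additive.ofMul γ) = x (Additive.ofMul (Subgroup.inclusion hle γ)) := rfl

variable [Γ'.FiniteIndex] [Γ.FiniteIndex]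

/-- Transfer of characters. -/
noncomputable def h6u_tr (z : Additive Γ' →+ ℤ) : Additive Γ →+ ℤ := by
  classical
  exact @h6t_tr _ _ _ _ (h6u_proj hle) (h6u_proj_smul hle) (h6u_frame Γ') (h6u_frame Γ)
    (h6u_fintype Γ') _ z

/-- The explicit transfer formula. -/
theorem h6u_tr_apply [DecidableEq (SL(2, ℤ) ⧸ Γ)] (z : Additive Γ' →+ ℤ) (γ : Γ) :
    h6u_tr hle z (Additive.ofMul γ)
      = @Finset.sum _ _ _ (@Finset.univ _ (h6u_fintype Γ')) fun x' : SL(2, ℤ) ⧸ Γ' =>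
          if h6u_proj hle x' = ((1 : SL(2, ℤ)) : SL(2, ℤ) ⧸ Γ)
          then z (Additive.ofMul ((h6u_frame Γ').cocElem (γ : SL(2, ℤ)) x')) else 0 := by
  unfold h6u_tr
  rw [h6t_tr_apply]
  refine Finset.sum_congr rfl fun x' _ => ?_
  congr

variable (hneg1 : (-1 : SL(2, ℤ)) ∈ Γ')
include hneg1

theorem h6u_tr_parabolic (z : Additive Γ' →+ ℤ) (hz : IsParabolicHom Γ' z) :
    IsParabolicHom Γ (h6u_tr hle z) := by
  classical
  exact @h6t_tr_parabolic _ _ _ _ (h6u_proj hle) (h6u_proj_smul hle) (h6u_frame Γ') (h6u_frame Γ)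
    (h6u_fintype Γ') _ (h6u_neg Γ (hle hneg1)) _ z hz

/-- **(B2)** restriction and transfer are adjoint. -/
theorem h6u_adjoint (x : Additive Γ →+ ℤ) (z : Additive Γ' →+ ℤ) (hx : IsParabolicHom Γ x)
    (hz : IsParabolicHom Γ' z) :
    h6u_P Γ' (h6u_res hle x) z = h6u_P Γ x (h6u_tr hle z) := by
  classical
  exact @h6t_adjoint _ _ _ _ (h6u_proj hle) (h6u_proj_smul hle) (h6u_frame Γ') (h6u_frame Γ) rfl
    (h6u_fintype Γ') _ (h6u_neg Γ' hneg1) (h6u_neg Γ (hle hneg1)) (h6u_fintype Γ) x z hx hz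

end Adj

end Fermat.Agent.Lib.S41
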