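/-
S41 project (level raising), layer [B3b] (helper1): the `δ`-matching of residue sums  [Σ].

`G = SL(2,ℤ)`, `δ = diag(q, 1)`, `A = Γ₀(q)`, `B = δ A δ⁻¹ = Γ⁰(q)`.  For `Γ₁ ≤ A` of finite index and
`Γ₂ = δ Γ₁ δ⁻¹`, a function `η` on `Γ₂` which is invariant under `Γ₂`-conjugation and
homogeneous (`η (p ^ k) = k * η p`) on elements of trace `2`, and `N > 0` such that
`T ^ N` acts trivially on `G ⧸ Γ₁` and `G ⧸ Γ₂`:

  `∑ c : G ⧸ Γ₁, η (δ (c⁻¹ T ^ N c) δ⁻¹) = ∑ c' : G ⧸ Γ₂, η (c'⁻¹ T ^ N c')`.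

This is the group-theoretic half of the invariance of the pairing under conjugation by `δ`
(helper6's residue formula turns both sides into `N • P`).
-/
import Mathlib
import Fermat.Agent.Lib.S41.Defs
import Fermat.Agent.Lib.S41.H6Std
import Fermat.Agent.Lib.S16.H2Coset

set_option autoImplicit false
set_option linter.unusedSectionVars false
set_option linter.unusedVariables false

open scoped MatrixGroups
open CongruenceSubgroup

namespace Fermat.Agent.Lib.S41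

local notation "sS" => (ModularGroup.S : SL(2, ℤ))
local notation "sT" => (ModularGroup.T : SL(2, ℤ))

/-! ### Generic coset lemmas -/

section generic

variable {H : Type*} [Group H]

/-- Representative-independence: if `b ↦ f (b⁻¹ t b)` is right-`K`-invariant then it can be
evaluated at `Quotient.out`. -/
theorem h1m_out_conj (K : Subgroup H) (f : H → ℚ) (t : H)
    (hf : ∀ b : H, ∀ γ ∈ K, f ((b * γ)⁻¹ * t * (b * γ)) = f (b⁻¹ * t * b)) (b : H) :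
    f (((b : H ⧸ K)).out⁻¹ * t * ((b : H ⧸ K)).out) = f (b⁻¹ * t * b) := by
  obtain ⟨γ, hγ⟩ := QuotientGroup.mk_out_eq_mul K b
  rw [hγ]
  exact hf b γ γ.2

/-- Fibration of a coset sum along `K ≤ A`. -/
theorem h1m_sum_fiber (K A : Subgroup H) (hle : K ≤ A) [Fintype (H ⧸ K)] [Fintype (H ⧸ A)]
    [Fintype (A ⧸ K.subgroupOf A)] (Ψ : H ⧸ K → ℚ) :
    ∑ c : H ⧸ K, Ψ c =
      ∑ i : H ⧸ A, ∑ j : A ⧸ K.subgroupOf A, Ψ ((i.out * (j.out : H) : H) : H ⧸ K) := by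
  rw [← Fintype.sum_prod_type']
  rw [← Equiv.sum_comp (Subgroup.quotientEquivProdOfLE hle).symm]
  refine Finset.sum_congr rfl fun x _ => ?_
  obtain ⟨i, j⟩ := x
  congr 1
  conv_lhs => rw [← QuotientGroup.out_eq' j]
  rfl

/-- `Ψ_A(b) = ∑_{j ∈ A/K} f ((b j)⁻¹ t (b j))`. -/
noncomputable def h1m_Psi (K A : Subgroup H) [Fintype (A ⧸ K.subgroupOf A)] (f : H → ℚ)
    (t b : H) : ℚ :=
  ∑ j : A ⧸ K.subgroupOf A, f ((b * (j.out : H))⁻¹ * t * (b * (j.out : H)))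

theorem h1m_Psi_mul_right (K A : Subgroup H) [Fintype (A ⧸ K.subgroupOf A)] (f : H → ℚ) (t : H)
    (hf : ∀ b : H, ∀ γ ∈ K, f ((b * γ)⁻¹ * t * (b * γ)) = f (b⁻¹ * t * b)) (b a : H)
    (ha : a ∈ A) : h1m_Psi K A f t (b * a) = h1m_Psi K A f t b := by
  unfold h1m_Psi
  rw [← Equiv.sum_comp (MulAction.toPerm (⟨a, ha⟩ : A))
    (fun j : A ⧸ K.subgroupOf A => f ((b * (j.out : H))⁻¹ * t * (b * (j.out : H))))]
  refine Finset.sum_congr rfl fun j _ => ?_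
  have h1 : ((⟨a, ha⟩ : A) • j) = (((⟨a, ha⟩ : A) * j.out : A) : A ⧸ K.subgroupOf A) := by
    conv_lhs => rw [← QuotientGroup.out_eq' j]
    rfl
  obtain ⟨γ, hγ⟩ := QuotientGroup.mk_out_eq_mul (K.subgroupOf A) ((⟨a, ha⟩ : A) * j.out)
  have hγK : ((γ : A) : H) ∈ K := Subgroup.mem_subgroupOf.mp γ.2
  rw [MulAction.toPerm_apply, h1, hγ]
  have h2 : b * (((⟨a, ha⟩ : A) * j.out * (γ : A) : A) : H) = b * a * (j.out : H) * ((γ : A) : H) := by
    simp only [Subgroup.coe_mul, mul_assoc]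
  rw [h2, hf (b * a * (j.out : H)) _ hγK]

theorem h1m_Psi_mul_left (K A : Subgroup H) [Fintype (A ⧸ K.subgroupOf A)] (f : H → ℚ) (t : H)
    (m b : H) (hm : m * t = t * m) : h1m_Psi K A f t (m * b) = h1m_Psi K A f t b := by
  unfold h1m_Psi
  refine Finset.sum_congr rfl fun j _ => ?_
  have h1 : m⁻¹ * t * m = t := by rw [mul_assoc, ← hm, inv_mul_cancel_left]
  have h2 : (m * b * (j.out : H))⁻¹ * t * (m * b * (j.out : H))
      = (b * (j.out : H))⁻¹ * (m⁻¹ * t * m) * (b * (j.out : H)) := by group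
  rw [h2, h1]

theorem h1m_sum_eq_sum_Psi (K A : Subgroup H) (hle : K ≤ A) [Fintype (H ⧸ K)] [Fintype (H ⧸ A)]
    [Fintype (A ⧸ K.subgroupOf A)] (f : H → ℚ) (t : H)
    (hf : ∀ b : H, ∀ γ ∈ K, f ((b * γ)⁻¹ * t * (b * γ)) = f (b⁻¹ * t * b)) :
    ∑ x : H ⧸ K, f (x.out⁻¹ * t * x.out) = ∑ c : H ⧸ A, h1m_Psi K A f t c.out := by
  rw [h1m_sum_fiber K A hle (fun x => f (x.out⁻¹ * t * x.out))]
  refine Finset.sum_congr rfl fun c _ => ?_
  unfold h1m_Psi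
  refine Finset.sum_congr rfl fun j _ => ?_
  exact h1m_out_conj K f t hf _

/-- If `H ⧸ A` has `q + 1` elements, the coset of `g₀` and `q` cosets represented (up to the
centraliser of `t`) by `g₁`, the coset sum splits as `Ψ g₀ + q Ψ g₁`. -/
theorem h1m_sum_two (K A : Subgroup H) (hle : K ≤ A) [Fintype (H ⧸ K)] [Fintype (H ⧸ A)]
    [Fintype (A ⧸ K.subgroupOf A)] (f : H → ℚ) (t : H)
    (hf : ∀ b : H, ∀ γ ∈ K, f ((b * γ)⁻¹ * t * (b * γ)) = f (b⁻¹ * t * b))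
    (q : ℕ) (hcard : Fintype.card (H ⧸ A) = q + 1) (g₀ g₁ : H)
    (hcase : ∀ g : H, g₀⁻¹ * g ∈ A ∨ ∃ m : H, m * t = t * m ∧ (m * g₁)⁻¹ * g ∈ A) :
    ∑ x : H ⧸ K, f (x.out⁻¹ * t * x.out)
      = h1m_Psi K A f t g₀ + (q : ℚ) * h1m_Psi K A f t g₁ := by
  classical
  rw [h1m_sum_eq_sum_Psi K A hle f t hf]
  have key : ∀ c : H ⧸ A, h1m_Psi K A f t c.out
      = if c = (g₀ : H ⧸ A) then h1m_Psi K A f t g₀ else h1m_Psi K A f t g₁ := by
    intro c
    split_ifs with hc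
    · obtain ⟨a, ha⟩ := QuotientGroup.mk_out_eq_mul A g₀
      rw [hc, ha]
      exact h1m_Psi_mul_right K A f t hf g₀ a a.2
    · rcases hcase c.out with h | ⟨m, hm, h⟩
      · exfalso
        apply hc
        rw [← QuotientGroup.out_eq' c]
        exact (QuotientGroup.eq.mpr h).symm
      · have h3 : c.out = m * g₁ * ((m * g₁)⁻¹ * c.out) := by group
        rw [h3, h1m_Psi_mul_right K A f t hf _ _ h, h1m_Psi_mul_left K A f t m g₁ hm]
  rw [Finset.sum_congr rfl fun c _ => key c, Finset.sum_ite, Finset.sum_const, Finset.sum_const,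
    Finset.filter_eq', Finset.filter_ne', if_pos (Finset.mem_univ _), Finset.card_singleton,
    Finset.card_erase_of_mem (Finset.mem_univ _), Finset.card_univ, hcard, one_smul,
    Nat.add_sub_cancel, nsmul_eq_mul]

/-- Comparison of two coset sums along an isomorphism `ε : A ≃* B` matching `K₁` with `K₂`. -/
theorem h1m_sum_compare {A B : Subgroup H} (ε : A ≃* B) (K₁ K₂ : Subgroup H)
    (hK : ∀ a : A, (a : H) ∈ K₁ ↔ ((ε a : B) : H) ∈ K₂)
    [Fintype (A ⧸ K₁.subgroupOf A)] [Fintype (B ⧸ K₂.subgroupOf B)]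
    (φ₁ φ₂ : H → ℚ) (c : ℚ)
    (hφ₂ : ∀ b ∈ B, ∀ γ ∈ K₂, φ₂ (b * γ) = φ₂ b)
    (hφ : ∀ a : A, φ₁ a = c * φ₂ (ε a)) :
    ∑ j : A ⧸ K₁.subgroupOf A, φ₁ (j.out : H)
      = c * ∑ j : B ⧸ K₂.subgroupOf B, φ₂ (j.out : H) := by
  let β : A ⧸ K₁.subgroupOf A ≃ B ⧸ K₂.subgroupOf B :=
    Quotient.congr ε.toEquiv (by
      intro a a'
      rw [QuotientGroup.leftRel_apply, QuotientGroup.leftRel_apply]
      show a⁻¹ * a' ∈ K₁.subgroupOf A ↔ (ε a)⁻¹ * ε a' ∈ K₂.subgroupOf B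
      rw [← map_inv, ← map_mul, Subgroup.mem_subgroupOf, Subgroup.mem_subgroupOf]
      exact hK _)
  rw [Finset.mul_sum, ← Equiv.sum_comp β]
  refine Finset.sum_congr rfl fun j _ => ?_
  rw [hφ]
  congr 1
  have h1 : β j = ((ε j.out : B) : B ⧸ K₂.subgroupOf B) := by
    conv_lhs => rw [← QuotientGroup.out_eq' j]
    rfl
  obtain ⟨γ, hγ⟩ := QuotientGroup.mk_out_eq_mul (K₂.subgroupOf B) (ε j.out)
  rw [h1, hγ, Subgroup.coe_mul]
  exact (hφ₂ _ (ε j.out).2 _ (Subgroup.mem_subgroupOf.mp γ.2)).symm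

end generic

end Fermat.Agent.Lib.S41
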