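/-
S41 project (level raising), layer [B3b] (helper1): the `δ`-matching of residue sums  [Σ],
concrete part.  `h1m_sum_eq` is helper6's contract `h8v_sum_eq` (coset-sum identity for
`δ = diag(q, 1)`), verbatim.
-/
import Mathlib
import Fermat.Agent.Lib.S41.H1Match

set_option autoImplicit false
set_option linter.unusedSectionVars false
set_option linter.unusedVariables false
open scoped MatrixGroups
open CongruenceSubgroup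
namespace Fermat.Agent.Lib.S41
local notation "sS" => (ModularGroup.S : SL(2, ℤ))
local notation "sT" => (ModularGroup.T : SL(2, ℤ))

theorem h1m_mul_apply (g h : SL(2, ℤ)) (i j : Fin 2) :
    (g * h) i j = g i 0 * h 0 j + g i 1 * h 1 j := by
  rw [Matrix.SpecialLinearGroup.coe_mul, Matrix.mul_apply, Fin.sum_univ_two]

theorem h1m_inv_apply (g : SL(2, ℤ)) :
    g⁻¹ 0 0 = g 1 1 ∧ g⁻¹ 0 1 = - g 0 1 ∧ g⁻¹ 1 0 = - g 1 0 ∧ g⁻¹ 1 1 = g 0 0 := by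
  rw [Matrix.SpecialLinearGroup.coe_inv, Matrix.adjugate_fin_two]
  simp

theorem h1m_det (g : SL(2, ℤ)) : g 0 0 * g 1 1 - g 0 1 * g 1 0 = 1 := by
  have := g.det_coe
  rwa [Matrix.det_fin_two] at this

theorem h1m_ext {g h : SL(2, ℤ)} (h00 : g 0 0 = h 0 0) (h01 : g 0 1 = h 0 1) (h10 : g 1 0 = h 1 0)
    (h11 : g 1 1 = h 1 1) : g = h := by
  apply Subtype.ext
  ext i j
  fin_cases i <;> fin_cases j <;> assumption

theorem h1m_T_zpow_apply (k : ℤ) :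
    (sT ^ k) 0 0 = 1 ∧ (sT ^ k) 0 1 = k ∧ (sT ^ k) 1 0 = 0 ∧ (sT ^ k) 1 1 = 1 := by
  have := ModularGroup.coe_T_zpow k
  change ((sT ^ k : SL(2, ℤ)) : Matrix (Fin 2) (Fin 2) ℤ) = _ at this
  rw [this]
  simp

theorem h1m_S_apply : sS 0 0 = 0 ∧ sS 0 1 = -1 ∧ sS 1 0 = 1 ∧ sS 1 1 = 0 := by
  rw [ModularGroup.coe_S]
  simp

theorem h1m_mem_A {q : ℕ} (g : SL(2, ℤ)) : g ∈ Gamma0 q ↔ (q : ℤ) ∣ g 1 0 := by
  rw [Gamma0_mem]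
  exact ZMod.intCast_zmod_eq_zero_iff_dvd _ _

/-- The entrywise relation `g' = δ g δ⁻¹`, `δ = diag(q, 1)`. -/
def h1m_R (q : ℕ) (g g' : SL(2, ℤ)) : Prop :=
  g' 0 0 = g 0 0 ∧ g' 0 1 = q * g 0 1 ∧ q * g' 1 0 = g 1 0 ∧ g' 1 1 = g 1 1

theorem h1m_R_one (q : ℕ) : h1m_R q 1 1 := by
  refine ⟨rfl, ?_, ?_, rfl⟩ <;> simp

theorem h1m_R_mul {q : ℕ} {g g' h h' : SL(2, ℤ)} (hg : h1m_R q g g') (hh : h1m_R q h h') :
    h1m_R q (g * h) (g' * h') := by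
  obtain ⟨g00, g01, g10, g11⟩ := hg
  obtain ⟨h00, h01, h10, h11⟩ := hh
  refine ⟨?_, ?_, ?_, ?_⟩ <;> simp only [h1m_mul_apply]
  · rw [g00, g01, ← h10, h00]; ring
  · rw [g00, g01, h01, h11]; ring
  · rw [← g10, ← h10, g11, h00]; ring
  · rw [← g10, g11, h01, h11]; ring

theorem h1m_R_inv {q : ℕ} {g g' : SL(2, ℤ)} (hg : h1m_R q g g') : h1m_R q g⁻¹ g'⁻¹ := by
  obtain ⟨g00, g01, g10, g11⟩ := hg
  obtain ⟨a00, a01, a10, a11⟩ := h1m_inv_apply g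
  obtain ⟨b00, b01, b10, b11⟩ := h1m_inv_apply g'
  refine ⟨?_, ?_, ?_, ?_⟩
  · rw [a00, b00, g11]
  · rw [a01, b01, g01]; ring
  · rw [a10, b10, ← g10]; ring
  · rw [a11, b11, g00]

theorem h1m_R_pow {q : ℕ} {g g' : SL(2, ℤ)} (hg : h1m_R q g g') (n : ℕ) :
    h1m_R q (g ^ n) (g' ^ n) := by
  induction n with
  | zero => simpa using h1m_R_one q
  | succ n ih => rw [pow_succ, pow_succ]; exact h1m_R_mul ih hg

theorem h1m_R_fun {q : ℕ} (hq : 0 < q) {g g' g'' : SL(2, ℤ)} (h1 : h1m_R q g g')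
    (h2 : h1m_R q g g'') : g' = g'' := by
  obtain ⟨a00, a01, a10, a11⟩ := h1
  obtain ⟨b00, b01, b10, b11⟩ := h2
  have hq0 : (q : ℤ) ≠ 0 := by exact_mod_cast hq.ne'
  exact h1m_ext (a00.trans b00.symm) (a01.trans b01.symm)
    (mul_left_cancel₀ hq0 (a10.trans b10.symm)) (a11.trans b11.symm)

theorem h1m_R_inj {q : ℕ} (hq : 0 < q) {g h g' : SL(2, ℤ)} (h1 : h1m_R q g g')
    (h2 : h1m_R q h g') : g = h := by
  obtain ⟨a00, a01, a10, a11⟩ := h1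
  obtain ⟨b00, b01, b10, b11⟩ := h2
  have hq0 : (q : ℤ) ≠ 0 := by exact_mod_cast hq.ne'
  exact h1m_ext (a00.symm.trans b00) (mul_left_cancel₀ hq0 (a01.symm.trans b01))
    (a10.symm.trans b10) (a11.symm.trans b11)

theorem h1m_R_trace {q : ℕ} {g g' : SL(2, ℤ)} (h : h1m_R q g g') :
    (g' : Matrix (Fin 2) (Fin 2) ℤ).trace = (g : Matrix (Fin 2) (Fin 2) ℤ).trace := by
  rw [Matrix.trace_fin_two, Matrix.trace_fin_two, h.1, h.2.2.2]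

/-- `δ`-conjugation as a homomorphism `Γ₀(q) → SL(2,ℤ)`. -/
noncomputable def h1m_cd (q : ℕ) (hq : 0 < q) : ↥(Gamma0 q) →* SL(2, ℤ) where
  toFun g := ⟨h6_conjMat q ((g : SL(2, ℤ)) : Matrix (Fin 2) (Fin 2) ℤ), by
    rw [h6_conjMat_det q _ ((h1m_mem_A _).mp g.2)]
    exact (g : SL(2, ℤ)).2⟩
  map_one' := by
    apply Subtype.ext
    show h6_conjMat q ((((1 : Gamma0 q) : SL(2, ℤ)) : Matrix (Fin 2) (Fin 2) ℤ)) = 1
    rw [OneMemClass.coe_one, Matrix.SpecialLinearGroup.coe_one]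
    ext i j; fin_cases i <;> fin_cases j <;> simp [h6_conjMat]
  map_mul' g g' := by
    apply Subtype.ext
    show h6_conjMat q ((((g * g' : Gamma0 q) : SL(2, ℤ)) : Matrix (Fin 2) (Fin 2) ℤ))
      = h6_conjMat q _ * h6_conjMat q _
    rw [MulMemClass.coe_mul, Matrix.SpecialLinearGroup.coe_mul]
    exact h6_conjMat_mul q hq _ _ ((h1m_mem_A _).mp g.2) ((h1m_mem_A _).mp g'.2)

theorem h1m_R_cd (q : ℕ) (hq : 0 < q) (g : Gamma0 q) : h1m_R q g (h1m_cd q hq g) := by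
  have hd : (q : ℤ) ∣ (g : SL(2, ℤ)) 1 0 := (h1m_mem_A _).mp g.2
  refine ⟨?_, ?_, ?_, ?_⟩
  · show (h6_conjMat q _) 0 0 = _
    simp [h6_conjMat]
  · show (h6_conjMat q _) 0 1 = _
    simp [h6_conjMat]
  · show (q : ℤ) * (h6_conjMat q _) 1 0 = _
    simp only [h6_conjMat, Matrix.of_apply, Matrix.cons_val', Matrix.cons_val_zero,
      Matrix.cons_val_one]
    exact Int.mul_ediv_cancel' hd
  · show (h6_conjMat q _) 1 1 = _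
    simp [h6_conjMat]

theorem h1m_R_mem {q : ℕ} {g g' : SL(2, ℤ)} (h : h1m_R q g g') : g ∈ Gamma0 q :=
  (h1m_mem_A _).mpr ⟨_, h.2.2.1.symm⟩

theorem h1m_cd_inj (q : ℕ) (hq : 0 < q) : Function.Injective (h1m_cd q hq) := by
  intro a b hab
  apply Subtype.ext
  exact h1m_R_inj hq (h1m_R_cd q hq a) (hab ▸ h1m_R_cd q hq b)

theorem h1m_mem_B (q : ℕ) (hq : 0 < q) (g' : SL(2, ℤ)) :
    g' ∈ (h1m_cd q hq).range ↔ (q : ℤ) ∣ g' 0 1 := by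
  constructor
  · rintro ⟨a, rfl⟩
    exact ⟨_, (h1m_R_cd q hq a).2.1⟩
  · rintro ⟨b, hb⟩
    have hq0 : (q : ℤ) ≠ 0 := by exact_mod_cast hq.ne'
    have hdet := h1m_det g'
    let a : SL(2, ℤ) := ⟨!![g' 0 0, b; q * g' 1 0, g' 1 1], by
      rw [Matrix.det_fin_two_of]
      rw [hb] at hdet
      linarith⟩
    have hR : h1m_R q a g' := by
      refine ⟨?_, ?_, ?_, ?_⟩
      · show _ = (!![g' 0 0, b; q * g' 1 0, g' 1 1] : Matrix (Fin 2) (Fin 2) ℤ) 0 0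
        simp
      · show _ = (q : ℤ) * (!![g' 0 0, b; q * g' 1 0, g' 1 1] : Matrix (Fin 2) (Fin 2) ℤ) 0 1
        simp [hb]
      · show _ = (!![g' 0 0, b; q * g' 1 0, g' 1 1] : Matrix (Fin 2) (Fin 2) ℤ) 1 0
        simp
      · show _ = (!![g' 0 0, b; q * g' 1 0, g' 1 1] : Matrix (Fin 2) (Fin 2) ℤ) 1 1
        simp
    have ha : a ∈ Gamma0 q := h1m_R_mem hR
    exact ⟨⟨a, ha⟩, h1m_R_fun hq (h1m_R_cd q hq ⟨a, ha⟩) hR⟩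


theorem h1m_index_B (q : ℕ) (hq : q.Prime) : (h1m_cd q hq.pos).range.index = q + 1 := by
  have h : (h1m_cd q hq.pos).range = (Gamma0 q).map (MulAut.conj sS).toMonoidHom := by
    ext g
    rw [Subgroup.mem_map_equiv, h1m_mem_B, h1m_mem_A, MulAut.conj_symm_apply]
    have h1 : (sS⁻¹ * g * sS) 1 0 = - g 0 1 := by
      obtain ⟨s00, s01, s10, s11⟩ := h1m_S_apply
      obtain ⟨i00, i01, i10, i11⟩ := h1m_inv_apply sS
      simp only [h1m_mul_apply, i10, i11, s00, s10]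
      ring
    rw [h1, dvd_neg]
  rw [h, Subgroup.index_map_of_bijective (MulAut.conj sS).bijective, Fermat.Agent.Lib.S16.h2c_index_prime hq]

theorem h1m_exists_k (q : ℕ) (hq : q.Prime) (x y : ℤ) (hy : ¬ (q : ℤ) ∣ y) :
    ∃ k : ℤ, (q : ℤ) ∣ x - k * y := by
  have : Fact q.Prime := Fact.mk hq
  have hy' : (y : ZMod q) ≠ 0 := fun h => hy ((ZMod.intCast_zmod_eq_zero_iff_dvd _ q).mp h)
  obtain ⟨k, hk⟩ := ZMod.intCast_surjective ((x : ZMod q) * (y : ZMod q)⁻¹)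
  refine ⟨k, (ZMod.intCast_zmod_eq_zero_iff_dvd _ q).mp ?_⟩
  push_cast
  rw [hk, mul_assoc, inv_mul_cancel₀ hy', mul_one, sub_self]

theorem h1m_comm_T (k : ℤ) (N : ℕ) : sT ^ k * sT ^ N = sT ^ N * sT ^ k :=
  (((Commute.refl sT).zpow_left k).pow_right N).eq

theorem h1m_case_A (q : ℕ) (hq : q.Prime) (N : ℕ) (g : SL(2, ℤ)) :
    (1 : SL(2, ℤ))⁻¹ * g ∈ Gamma0 q ∨
      ∃ m : SL(2, ℤ), m * sT ^ N = sT ^ N * m ∧ (m * sS)⁻¹ * g ∈ Gamma0 q := by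
  by_cases h : (q : ℤ) ∣ g 1 0
  · left
    rw [inv_one, one_mul, h1m_mem_A]
    exact h
  · right
    obtain ⟨k, hk⟩ := h1m_exists_k q hq (g 0 0) (g 1 0) h
    refine ⟨sT ^ k, h1m_comm_T k N, ?_⟩
    rw [h1m_mem_A]
    obtain ⟨s00, s01, s10, s11⟩ := h1m_S_apply
    obtain ⟨t00, t01, t10, t11⟩ := h1m_T_zpow_apply k
    obtain ⟨i00, i01, i10, i11⟩ := h1m_inv_apply (sT ^ k * sS)
    have h1 : ((sT ^ k * sS)⁻¹ * g) 1 0 = - (g 0 0 - k * g 1 0) := by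
      rw [h1m_mul_apply, i10, i11, h1m_mul_apply, h1m_mul_apply, t00, t01, t10, t11, s00, s10]
      ring
    rw [h1, dvd_neg]
    exact hk

theorem h1m_case_B (q : ℕ) (hq : q.Prime) (N : ℕ) (g : SL(2, ℤ)) :
    sS⁻¹ * g ∈ (h1m_cd q hq.pos).range ∨
      ∃ m : SL(2, ℤ), m * sT ^ N = sT ^ N * m ∧ (m * 1)⁻¹ * g ∈ (h1m_cd q hq.pos).range := by
  by_cases h : (q : ℤ) ∣ g 1 1
  · left
    rw [h1m_mem_B]
    obtain ⟨s00, s01, s10, s11⟩ := h1m_S_apply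
    obtain ⟨i00, i01, i10, i11⟩ := h1m_inv_apply sS
    have h1 : (sS⁻¹ * g) 0 1 = g 1 1 := by
      rw [h1m_mul_apply, i00, i01, s11, s01]
      ring
    rw [h1]
    exact h
  · right
    obtain ⟨k, hk⟩ := h1m_exists_k q hq (g 0 1) (g 1 1) h
    refine ⟨sT ^ k, h1m_comm_T k N, ?_⟩
    rw [h1m_mem_B, mul_one]
    obtain ⟨t00, t01, t10, t11⟩ := h1m_T_zpow_apply k
    obtain ⟨i00, i01, i10, i11⟩ := h1m_inv_apply (sT ^ k)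
    have h1 : ((sT ^ k)⁻¹ * g) 0 1 = g 0 1 - k * g 1 1 := by
      rw [h1m_mul_apply, i00, i01, t11, t01]
      ring
    rw [h1]
    exact hk

theorem h1m_L_apply (n : ℤ) :
    (sS⁻¹ * sT ^ n * sS) 0 0 = 1 ∧ (sS⁻¹ * sT ^ n * sS) 0 1 = 0 ∧
      (sS⁻¹ * sT ^ n * sS) 1 0 = - n ∧ (sS⁻¹ * sT ^ n * sS) 1 1 = 1 := by
  obtain ⟨s00, s01, s10, s11⟩ := h1m_S_apply
  obtain ⟨t00, t01, t10, t11⟩ := h1m_T_zpow_apply n
  obtain ⟨i00, i01, i10, i11⟩ := h1m_inv_apply sS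
  refine ⟨?_, ?_, ?_, ?_⟩ <;>
    simp only [h1m_mul_apply, i00, i01, i10, i11, s00, s01, s10, s11, t00, t01, t10, t11] <;> ring

theorem h1m_trace_conj (b p : SL(2, ℤ)) :
    ((b⁻¹ * p * b : SL(2, ℤ)) : Matrix (Fin 2) (Fin 2) ℤ).trace
      = (p : Matrix (Fin 2) (Fin 2) ℤ).trace := by
  rw [Matrix.SpecialLinearGroup.coe_mul, Matrix.SpecialLinearGroup.coe_mul,
    Matrix.trace_mul_cycle, ← Matrix.SpecialLinearGroup.coe_mul, mul_inv_cancel,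
    Matrix.SpecialLinearGroup.coe_one, one_mul]

theorem h1m_trace_T (n : ℤ) : ((sT ^ n : SL(2, ℤ)) : Matrix (Fin 2) (Fin 2) ℤ).trace = 2 := by
  obtain ⟨t00, t01, t10, t11⟩ := h1m_T_zpow_apply n
  rw [Matrix.trace_fin_two, t00, t11]
  rfl


theorem h1m_conj_pow {H : Type*} [Group H] (c t : H) (n : ℕ) :
    (c⁻¹ * t * c) ^ n = c⁻¹ * t ^ n * c := by
  have h := conj_pow (a := c⁻¹) (b := t) (i := n)
  rwa [inv_inv] at h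

theorem h1m_R_TN (q N : ℕ) : h1m_R q (sT ^ N) ((sT ^ N) ^ q) := by
  rw [← pow_mul, ← zpow_natCast sT N, ← zpow_natCast sT (N * q)]
  obtain ⟨t00, t01, t10, t11⟩ := h1m_T_zpow_apply (N : ℤ)
  obtain ⟨u00, u01, u10, u11⟩ := h1m_T_zpow_apply ((N * q : ℕ) : ℤ)
  refine ⟨?_, ?_, ?_, ?_⟩
  · rw [t00, u00]
  · rw [t01, u01]; push_cast; ring
  · rw [t10, u10]; ring
  · rw [t11, u11]

theorem h1m_R_L (q N' : ℕ) :
    h1m_R q (sS⁻¹ * sT ^ (q * N') * sS) (sS⁻¹ * sT ^ N' * sS) := by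
  rw [← zpow_natCast sT N', ← zpow_natCast sT (q * N')]
  obtain ⟨t00, t01, t10, t11⟩ := h1m_L_apply (N' : ℤ)
  obtain ⟨u00, u01, u10, u11⟩ := h1m_L_apply ((q * N' : ℕ) : ℤ)
  refine ⟨?_, ?_, ?_, ?_⟩
  · rw [t00, u00]
  · rw [t01, u01]; ring
  · rw [t10, u10]; push_cast; ring
  · rw [t11, u11]

/-- **[Σ]** the coset-sum identity for `δ = diag(q, 1)`. -/
theorem h1m_sum_eq {q : ℕ} [Fact q.Prime] (Γ₁ Γ₂ : Subgroup SL(2, ℤ)) [Γ₁.FiniteIndex]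
    [Γ₂.FiniteIndex] [Fintype (SL(2, ℤ) ⧸ Γ₁)] [Fintype (SL(2, ℤ) ⧸ Γ₂)] (h1 : Γ₁ ≤ Gamma0 q)
    (e : Γ₁ ≃* Γ₂)
    (he : ∀ g : Γ₁, (e g : SL(2, ℤ)) 0 0 = (g : SL(2, ℤ)) 0 0 ∧
        (e g : SL(2, ℤ)) 0 1 = q * (g : SL(2, ℤ)) 0 1 ∧
        q * (e g : SL(2, ℤ)) 1 0 = (g : SL(2, ℤ)) 1 0 ∧ (e g : SL(2, ℤ)) 1 1 = (g : SL(2, ℤ)) 1 1)
    (η : Γ₂ → ℚ)
    (hconj : ∀ γ π : Γ₂, ((π : SL(2, ℤ)) : Matrix (Fin 2) (Fin 2) ℤ).trace = 2 →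
      η (γ⁻¹ * π * γ) = η π)
    (hpow : ∀ (π : Γ₂) (k : ℕ), ((π : SL(2, ℤ)) : Matrix (Fin 2) (Fin 2) ℤ).trace = 2 →
      η (π ^ k) = k * η π)
    (N : ℕ) (hN : 0 < N) (hT1 : ∀ x' : SL(2, ℤ) ⧸ Γ₁, sT ^ N • x' = x')
    (hT2 : ∀ x' : SL(2, ℤ) ⧸ Γ₂, sT ^ N • x' = x') :
    ∑ x' : SL(2, ℤ) ⧸ Γ₁, η (e ((h6u_frame Γ₁).cocElem (sT ^ N) x'))
      = ∑ x' : SL(2, ℤ) ⧸ Γ₂, η ((h6u_frame Γ₂).cocElem (sT ^ N) x') := by
  classical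
  have hq : q.Prime := Fact.out
  have hq0 : 0 < q := hq.pos
  have heR : ∀ g : Γ₁, h1m_R q g (e g) := he
  -- membership facts
  have hm1 : ∀ b : SL(2, ℤ), b⁻¹ * sT ^ N * b ∈ Γ₁ := by
    intro b
    have h : ((sT ^ N * b : SL(2, ℤ)) : SL(2, ℤ) ⧸ Γ₁) = (b : SL(2, ℤ) ⧸ Γ₁) := hT1 b
    have h' := QuotientGroup.eq.mp h
    have h3 : b⁻¹ * sT ^ N * b = ((sT ^ N * b)⁻¹ * b)⁻¹ := by group
    rw [h3]
    exact inv_mem h'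
  have hm2 : ∀ b : SL(2, ℤ), b⁻¹ * sT ^ N * b ∈ Γ₂ := by
    intro b
    have h : ((sT ^ N * b : SL(2, ℤ)) : SL(2, ℤ) ⧸ Γ₂) = (b : SL(2, ℤ) ⧸ Γ₂) := hT2 b
    have h' := QuotientGroup.eq.mp h
    have h3 : b⁻¹ * sT ^ N * b = ((sT ^ N * b)⁻¹ * b)⁻¹ := by group
    rw [h3]
    exact inv_mem h'
  have htr_t : ((sT ^ N : SL(2, ℤ)) : Matrix (Fin 2) (Fin 2) ℤ).trace = 2 := by
    rw [← zpow_natCast]
    exact h1m_trace_T _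
  -- the two functions
  let f₂ : SL(2, ℤ) → ℚ := fun g => if h : g ∈ Γ₂ then η ⟨g, h⟩ else 0
  let f₁ : SL(2, ℤ) → ℚ := fun g => if h : g ∈ Γ₁ then η (e ⟨g, h⟩) else 0
  have f₂_eq : ∀ g (h : g ∈ Γ₂), f₂ g = η ⟨g, h⟩ := fun g h => dif_pos h
  have f₁_eq : ∀ g (h : g ∈ Γ₁), f₁ g = η (e ⟨g, h⟩) := fun g h => dif_pos h
  -- rewrite both sides
  have hL : ∀ x' : SL(2, ℤ) ⧸ Γ₁, η (e ((h6u_frame Γ₁).cocElem (sT ^ N) x'))
      = f₁ (x'.out⁻¹ * sT ^ N * x'.out) := by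
    intro x'
    have hinv : (sT ^ N)⁻¹ • x' = x' := inv_smul_eq_iff.mpr (hT1 x').symm
    have hc : (((h6u_frame Γ₁).cocElem (sT ^ N) x' : Γ₁) : SL(2, ℤ))
        = x'.out⁻¹ * sT ^ N * x'.out := by
      show (Quotient.out x')⁻¹ * sT ^ N * Quotient.out ((sT ^ N)⁻¹ • x') = _
      rw [hinv]
    rw [f₁_eq _ (hm1 _)]
    congr 2
    exact Subtype.ext hc
  have hR : ∀ x' : SL(2, ℤ) ⧸ Γ₂, η ((h6u_frame Γ₂).cocElem (sT ^ N) x')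
      = f₂ (x'.out⁻¹ * sT ^ N * x'.out) := by
    intro x'
    have hinv : (sT ^ N)⁻¹ • x' = x' := inv_smul_eq_iff.mpr (hT2 x').symm
    have hc : (((h6u_frame Γ₂).cocElem (sT ^ N) x' : Γ₂) : SL(2, ℤ))
        = x'.out⁻¹ * sT ^ N * x'.out := by
      show (Quotient.out x')⁻¹ * sT ^ N * Quotient.out ((sT ^ N)⁻¹ • x') = _
      rw [hinv]
    rw [f₂_eq _ (hm2 _)]
    congr 1
    exact Subtype.ext hc
  rw [Finset.sum_congr rfl fun x' _ => hL x', Finset.sum_congr rfl fun x' _ => hR x']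
  -- invariance
  have hf₂ : ∀ b : SL(2, ℤ), ∀ γ ∈ Γ₂,
      f₂ ((b * γ)⁻¹ * sT ^ N * (b * γ)) = f₂ (b⁻¹ * sT ^ N * b) := by
    intro b γ hγ
    have hp := hm2 b
    have h3 : (b * γ)⁻¹ * sT ^ N * (b * γ) = γ⁻¹ * (b⁻¹ * sT ^ N * b) * γ := by group
    rw [h3, f₂_eq _ (Γ₂.mul_mem (Γ₂.mul_mem (Γ₂.inv_mem hγ) hp) hγ), f₂_eq _ hp]
    exact hconj ⟨γ, hγ⟩ ⟨_, hp⟩ (by rw [h1m_trace_conj]; exact htr_t)
  have hf₁ : ∀ b : SL(2, ℤ), ∀ γ ∈ Γ₁,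
      f₁ ((b * γ)⁻¹ * sT ^ N * (b * γ)) = f₁ (b⁻¹ * sT ^ N * b) := by
    intro b γ hγ
    have hp := hm1 b
    have h3 : (b * γ)⁻¹ * sT ^ N * (b * γ) = γ⁻¹ * (b⁻¹ * sT ^ N * b) * γ := by group
    rw [h3, f₁_eq _ (Γ₁.mul_mem (Γ₁.mul_mem (Γ₁.inv_mem hγ) hp) hγ), f₁_eq _ hp]
    have h4 : (⟨γ⁻¹ * (b⁻¹ * sT ^ N * b) * γ, Γ₁.mul_mem (Γ₁.mul_mem (Γ₁.inv_mem hγ) hp) hγ⟩ : Γ₁)
        = (⟨γ, hγ⟩ : Γ₁)⁻¹ * ⟨_, hp⟩ * ⟨γ, hγ⟩ := rfl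
    rw [h4, map_mul, map_mul, map_inv]
    exact hconj _ _ (by rw [h1m_R_trace (heR _)]; show Matrix.trace _ = 2; rw [h1m_trace_conj]; exact htr_t)
  -- the comparison key
  have hkey : ∀ (a : Gamma0 q) (v v' : SL(2, ℤ)), h1m_R q v v' →
      ∀ hv : (a : SL(2, ℤ))⁻¹ * v * a ∈ Γ₁,
        ((e ⟨_, hv⟩ : Γ₂) : SL(2, ℤ)) = (h1m_cd q hq0 a)⁻¹ * v' * (h1m_cd q hq0 a) := by
    intro a v v' hRv hv
    exact h1m_R_fun hq0 (heR ⟨_, hv⟩)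
      (h1m_R_mul (h1m_R_mul (h1m_R_inv (h1m_R_cd q hq0 a)) hRv) (h1m_R_cd q hq0 a))
  -- the two ambient groups
  have h2 : Γ₂ ≤ (h1m_cd q hq0).range := by
    intro γ' hγ'
    have hR' := heR (e.symm ⟨γ', hγ'⟩)
    rw [e.apply_symm_apply] at hR'
    exact (h1m_mem_B q hq0 γ').mpr ⟨_, hR'.2.1⟩
  have : (Gamma0 q).FiniteIndex := Subgroup.finiteIndex_of_le h1
  have : (h1m_cd q hq0).range.FiniteIndex := Subgroup.finiteIndex_of_le h2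
  let _ : Fintype (SL(2, ℤ) ⧸ Gamma0 q) := Fintype.ofFinite _
  let _ : Fintype (SL(2, ℤ) ⧸ (h1m_cd q hq0).range) := Fintype.ofFinite _
  let _ : Fintype (Gamma0 q ⧸ Γ₁.subgroupOf (Gamma0 q)) := Fintype.ofFinite _
  let _ : Fintype ((h1m_cd q hq0).range ⧸ Γ₂.subgroupOf (h1m_cd q hq0).range) := Fintype.ofFinite _
  have hcardA : Fintype.card (SL(2, ℤ) ⧸ Gamma0 q) = q + 1 := by
    rw [Fintype.card_eq_nat_card, ← Subgroup.index_eq_card,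
      Fermat.Agent.Lib.S16.h2c_index_prime hq]
  have hcardB : Fintype.card (SL(2, ℤ) ⧸ (h1m_cd q hq0).range) = q + 1 := by
    rw [Fintype.card_eq_nat_card, ← Subgroup.index_eq_card, h1m_index_B q hq]
  rw [h1m_sum_two Γ₁ (Gamma0 q) h1 f₁ (sT ^ N) hf₁ q hcardA 1 sS (h1m_case_A q hq N),
    h1m_sum_two Γ₂ (h1m_cd q hq0).range h2 f₂ (sT ^ N) hf₂ q hcardB sS 1 (h1m_case_B q hq N)]
  -- the isomorphism
  let ε : Gamma0 q ≃* (h1m_cd q hq0).range := MonoidHom.ofInjective (h1m_cd_inj q hq0)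
  have hε : ∀ a : Gamma0 q, ((ε a : (h1m_cd q hq0).range) : SL(2, ℤ)) = h1m_cd q hq0 a :=
    fun a => rfl
  have hK : ∀ a : Gamma0 q, (a : SL(2, ℤ)) ∈ Γ₁ ↔ ((ε a : (h1m_cd q hq0).range) : SL(2, ℤ)) ∈ Γ₂ := by
    intro a
    rw [hε]
    constructor
    · intro h
      have h3 : ((e ⟨a, h⟩ : Γ₂) : SL(2, ℤ)) = h1m_cd q hq0 a :=
        h1m_R_fun hq0 (heR ⟨a, h⟩) (h1m_R_cd q hq0 a)
      rw [← h3]
      exact (e ⟨a, h⟩).2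
    · intro h
      have hR' := heR (e.symm ⟨_, h⟩)
      rw [e.apply_symm_apply] at hR'
      have h3 := h1m_R_inj hq0 hR' (h1m_R_cd q hq0 a)
      rw [← h3]
      exact (e.symm ⟨_, h⟩).2
  -- `q ∣ N`
  obtain ⟨N', hN'⟩ : q ∣ N := by
    have h3 := h1 (hm1 sS)
    rw [h1m_mem_A, ← zpow_natCast, (h1m_L_apply (N : ℤ)).2.2.1, dvd_neg] at h3
    exact_mod_cast h3
  -- first comparison
  have c1 : h1m_Psi Γ₁ (Gamma0 q) f₁ (sT ^ N) 1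
      = q * h1m_Psi Γ₂ (h1m_cd q hq0).range f₂ (sT ^ N) 1 := by
    unfold h1m_Psi
    refine h1m_sum_compare ε Γ₁ Γ₂ hK (fun a => f₁ ((1 * a)⁻¹ * sT ^ N * (1 * a)))
      (fun b => f₂ ((1 * b)⁻¹ * sT ^ N * (1 * b))) q ?_ ?_
    · intro b _ γ hγ
      simp only [one_mul]
      exact hf₂ b γ hγ
    · intro a
      simp only [one_mul]
      have hv := hm1 (a : SL(2, ℤ))
      rw [f₁_eq _ hv, hε, f₂_eq _ (hm2 _)]
      have hE : e ⟨_, hv⟩ = (⟨_, hm2 (h1m_cd q hq0 a)⟩ : Γ₂) ^ q := by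
        apply Subtype.ext
        rw [hkey a _ _ (h1m_R_TN q N) hv, SubmonoidClass.coe_pow]
        exact (h1m_conj_pow _ _ _).symm
      rw [hE]
      exact hpow _ q (by show Matrix.trace _ = 2; rw [h1m_trace_conj]; exact htr_t)
  -- second comparison
  have c2 : h1m_Psi Γ₂ (h1m_cd q hq0).range f₂ (sT ^ N) sS
      = q * h1m_Psi Γ₁ (Gamma0 q) f₁ (sT ^ N) sS := by
    unfold h1m_Psi
    refine h1m_sum_compare ε.symm Γ₂ Γ₁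
      (fun b => by rw [hK (ε.symm b), ε.apply_symm_apply])
      (fun b => f₂ ((sS * b)⁻¹ * sT ^ N * (sS * b)))
      (fun a => f₁ ((sS * a)⁻¹ * sT ^ N * (sS * a))) q ?_ ?_
    · intro a _ γ hγ
      show f₁ ((sS * (a * γ))⁻¹ * sT ^ N * (sS * (a * γ))) = f₁ ((sS * a)⁻¹ * sT ^ N * (sS * a))
      have h5 : sS * (a * γ) = sS * a * γ := (mul_assoc _ _ _).symm
      rw [h5]
      exact hf₁ (sS * a) γ hγ
    · intro b
      show f₂ ((sS * (b : SL(2, ℤ)))⁻¹ * sT ^ N * (sS * b))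
        = q * f₁ ((sS * ((ε.symm b : Gamma0 q) : SL(2, ℤ)))⁻¹ * sT ^ N * (sS * (ε.symm b : Gamma0 q)))
      set a : Gamma0 q := ε.symm b with ha
      have hb : (b : SL(2, ℤ)) = h1m_cd q hq0 a := by
        rw [← hε, ha, ε.apply_symm_apply]
      have h3 : ∀ c : SL(2, ℤ), (sS * c)⁻¹ * sT ^ N * (sS * c) = c⁻¹ * (sS⁻¹ * sT ^ N * sS) * c := by
        intro c; group
      have hv : (a : SL(2, ℤ))⁻¹ * (sS⁻¹ * sT ^ N * sS) * a ∈ Γ₁ := by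
        rw [← h3]; exact hm1 _
      have hv2 : (b : SL(2, ℤ))⁻¹ * (sS⁻¹ * sT ^ N * sS) * b ∈ Γ₂ := by
        rw [← h3]; exact hm2 _
      rw [h3, h3, f₁_eq _ hv, f₂_eq _ hv2]
      have hRL : h1m_R q (sS⁻¹ * sT ^ N * sS) (sS⁻¹ * sT ^ N' * sS) := by
        rw [hN']; exact h1m_R_L q N'
      have hE : (⟨_, hv2⟩ : Γ₂) = (e ⟨_, hv⟩) ^ q := by
        apply Subtype.ext
        show (b : SL(2, ℤ))⁻¹ * (sS⁻¹ * sT ^ N * sS) * b = (((e ⟨_, hv⟩) ^ q : Γ₂) : SL(2, ℤ))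
        rw [SubmonoidClass.coe_pow, hkey a _ _ hRL hv, h1m_conj_pow, h1m_conj_pow, ← pow_mul,
          mul_comm N' q, ← hN', hb]
      rw [hE]
      exact hpow _ q (by
        rw [h1m_R_trace (heR _)]
        show Matrix.trace _ = 2
        rw [h1m_trace_conj, h1m_trace_conj]
        exact htr_t)
  rw [c1, c2]
  ring

end Fermat.Agent.Lib.S41
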