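/-
S41 project (level raising), layer [C3] (helper7): a group of automorphisms of a 2-dimensional
`ZMod p`-vector space all of whose elements fix a nonzero vector leaves a line stable.

Main result: `h7n_exists_stable_line`.
-/
import Mathlib

set_option autoImplicit false

namespace Fermat.Agent.Lib.S41

open Polynomial

section unipotent

variable {p : ℕ} [Fact p.Prime] {V : Type*} [AddCommGroup V] [Module (ZMod p) V]

/-- In dimension 2, an endomorphism with determinant 1 and eigenvalue 1 satisfies `(f-1)^2 = 0`. -/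
theorem h7n_sub_one_sq [Module.Finite (ZMod p) V]
    (hV : Module.finrank (ZMod p) V = 2) (f : Module.End (ZMod p) V)
    (hdet : LinearMap.det f = 1) (hfix : ∃ v : V, v ≠ 0 ∧ f v = v) :
    (f - 1) ^ 2 = 0 := by
  have hmonic : f.charpoly.Monic := LinearMap.charpoly_monic f
  have hdeg : f.charpoly.natDegree = 2 := by rw [LinearMap.charpoly_natDegree, hV]
  have hc0 : f.charpoly.coeff 0 = 1 := by
    have h := LinearMap.det_eq_sign_charpoly_coeff f
    rw [hV, hdet] at h
    simpa using h.symm
  have hc2 : f.charpoly.coeff 2 = 1 := by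
    have := hmonic.coeff_natDegree
    rwa [hdeg] at this
  have hroot : f.charpoly.IsRoot 1 := by
    rw [← Module.End.hasEigenvalue_iff_isRoot_charpoly]
    obtain ⟨v, hv0, hv⟩ := hfix
    exact Module.End.hasEigenvalue_of_hasEigenvector ⟨by
      rw [Module.End.mem_eigenspace_iff, hv, one_smul], hv0⟩
  have hform : f.charpoly = X ^ 2 + C (f.charpoly.coeff 1) * X + 1 := by
    ext n
    rcases n with _ | _ | _ | n
    · simp [hc0]
    · simp [coeff_one]
    · simp [hc2, coeff_one]
    · have : f.charpoly.coeff (n + 3) = 0 :=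
        coeff_eq_zero_of_natDegree_lt (by rw [hdeg]; omega)
      rw [this]
      simp [coeff_X_pow, coeff_one]
  have hc1 : f.charpoly.coeff 1 = -2 := by
    have h := hroot
    rw [IsRoot.def, hform] at h
    simp at h
    linear_combination h
  have hform' : f.charpoly = (X - 1) ^ 2 := by
    rw [hform, hc1]
    simp only [map_neg, C_ofNat]
    ring
  have h := LinearMap.aeval_self_charpoly f
  rw [hform'] at h
  simpa using h

/-- A unipotent endomorphism `(f-1)^2 = 0` in characteristic `p` satisfies `f^p = 1`. -/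
theorem h7n_pow_p_eq_one (f : Module.End (ZMod p) V) (h : (f - 1) ^ 2 = 0) : f ^ p = 1 := by
  have hk : ∀ k : ℕ, f ^ k = 1 + k • (f - 1) := by
    intro k
    induction k with
    | zero => simp
    | succ k ih =>
      have hf : f = 1 + (f - 1) := by abel
      rw [pow_succ, ih]
      nth_rewrite 2 [hf]
      rw [mul_add, mul_one, add_mul, one_mul, smul_mul_assoc, ← sq, h, smul_zero, add_zero,
        succ_nsmul]
      abel
  rw [hk p]
  have : p • (f - 1) = 0 := by
    ext v
    simp only [LinearMap.smul_apply, LinearMap.zero_apply]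
    rw [← Nat.cast_smul_eq_nsmul (ZMod p), ZMod.natCast_self, zero_smul]
  rw [this, add_zero]

end unipotent

section main

variable {p : ℕ} [Fact p.Prime] {V : Type*} [AddCommGroup V] [Module (ZMod p) V]
  {G : Type*} [Group G] [DistribMulAction G V]

variable (p V) in
/-- The `ZMod p`-linear endomorphism given by the action of `g`. -/
noncomputable def h7n_lin : G →* Module.End (ZMod p) V where
  toFun g := (DistribSMul.toAddMonoidHom V g).toZModLinearMap p
  map_one' := by
    ext v
    simp
  map_mul' g h := by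
    ext v
    simp [mul_smul]

@[simp]
theorem h7n_lin_apply (g : G) (v : V) : h7n_lin p V g v = g • v := rfl

/-- **C3.** If every element of `G` fixes a nonzero vector of the 2-dimensional space `V`, then
`G` leaves a line stable. -/
theorem h7n_exists_stable_line [Module.Finite (ZMod p) V]
    (hV : Module.finrank (ZMod p) V = 2)
    (hfix : ∀ g : G, ∃ v : V, v ≠ 0 ∧ g • v = v) :
    ∃ N : Submodule (ZMod p) V, N ≠ ⊥ ∧ N ≠ ⊤ ∧ ∀ g : G, ∀ v ∈ N, g • v ∈ N := by
  classical
  have hfinV : Finite V := Module.finite_of_finite (ZMod p)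
  have hcard : Nat.card V = p ^ 2 := by
    have h := Module.natCard_eq_pow_finrank (K := ZMod p) (V := V)
    rw [hV, Nat.card_zmod] at h
    exact h
  -- the determinant character and its kernel
  let δ : G →* ZMod p := LinearMap.det.comp (h7n_lin p V)
  let H : Subgroup G := δ.ker
  have hHpow : ∀ h ∈ H, ∀ v : V, (h ^ p) • v = v := by
    intro h hh v
    have hdet : LinearMap.det (h7n_lin p V h) = 1 := hh
    have h1 := h7n_sub_one_sq hV (h7n_lin p V h) hdet (by
      obtain ⟨w, hw0, hw⟩ := hfix h
      exact ⟨w, hw0, hw⟩)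
    have h2 := h7n_pow_p_eq_one (h7n_lin p V h) h1
    have h3 : h7n_lin p V (h ^ p) v = v := by
      rw [map_pow, h2]; rfl
    exact h3
  -- the image of `H` in `Perm V` is a `p`-group
  let K : Subgroup (Equiv.Perm V) := H.map (MulAction.toPermHom G V)
  have hK : IsPGroup p K := by
    rintro ⟨k, h, hh, rfl⟩
    refine ⟨1, ?_⟩
    apply Subtype.ext
    simp only [pow_one, Subgroup.coe_pow, Subgroup.coe_one]
    rw [← map_pow]
    ext v
    simpa using hHpow h hh v
  have hfix0 : (0 : V) ∈ MulAction.fixedPoints K V := by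
    rintro ⟨k, h, hh, rfl⟩
    change (MulAction.toPermHom G V h) 0 = 0
    simp
  obtain ⟨b, hb, hb0⟩ := hK.exists_fixed_point_of_prime_dvd_card_of_fixed_point (α := V)
    (by rw [hcard]; exact dvd_pow_self p (by norm_num)) hfix0
  have hbH : ∀ h ∈ H, h • b = b := by
    intro h hh
    have := hb ⟨MulAction.toPermHom G V h, h, hh, rfl⟩
    exact this
  -- the submodule of `H`-fixed vectors
  let N : Submodule (ZMod p) V :=
    { carrier := {v | ∀ h ∈ H, h • v = v}
      add_mem' := by
        intro v w hv hw h hh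
        rw [smul_add, hv h hh, hw h hh]
      zero_mem' := by
        intro h _
        exact smul_zero h
      smul_mem' := by
        intro c v hv h hh
        have : h • (c • v) = h7n_lin p V h (c • v) := rfl
        rw [this, map_smul, h7n_lin_apply, hv h hh] }
  have hNstab : ∀ g : G, ∀ v ∈ N, g • v ∈ N := by
    intro g v hv h hh
    have hconj : g⁻¹ * h * g ∈ H := by
      have hn : H.Normal := MonoidHom.normal_ker δ
      have := hn.conj_mem h hh g⁻¹
      simpa using this
    have := hv _ hconj
    calc h • g • v = g • ((g⁻¹ * h * g) • v) := by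
          simp [mul_smul]
      _ = g • v := by rw [this]
  have hNbot : N ≠ ⊥ := by
    intro hN
    have : b ∈ N := hbH
    rw [hN, Submodule.mem_bot] at this
    exact hb0 this.symm
  by_cases hNtop : N = ⊤
  · -- `H` acts trivially, so the action is commutative
    have htriv : ∀ h ∈ H, ∀ v : V, h • v = v := by
      intro h hh v
      have : v ∈ N := by rw [hNtop]; trivial
      exact this h hh
    have hcomm : ∀ g₁ g₂ : G, ∀ v : V, g₁ • g₂ • v = g₂ • g₁ • v := by
      intro g₁ g₂ v
      have hc : g₂⁻¹ * g₁⁻¹ * g₂ * g₁ ∈ H := by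
        change δ (g₂⁻¹ * g₁⁻¹ * g₂ * g₁) = 1
        have h1 : δ g₁ * δ g₁⁻¹ = 1 := by rw [← map_mul, mul_inv_cancel, map_one]
        have h2 : δ g₂ * δ g₂⁻¹ = 1 := by rw [← map_mul, mul_inv_cancel, map_one]
        simp only [map_mul]
        calc δ g₂⁻¹ * δ g₁⁻¹ * δ g₂ * δ g₁ = (δ g₁ * δ g₁⁻¹) * (δ g₂ * δ g₂⁻¹) := by ring
          _ = 1 := by rw [h1, h2, one_mul]
      have := htriv _ hc (g₁⁻¹ • g₂⁻¹ • g₁ • g₂ • v)
      have h3 : (g₂⁻¹ * g₁⁻¹ * g₂ * g₁) • (g₁⁻¹ • g₂⁻¹ • g₁ • g₂ • v) = g₂⁻¹ • g₁⁻¹ • g₁ • g₂ • v := by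
        simp [mul_smul]
      rw [h3] at this
      have h4 : g₂⁻¹ • g₁⁻¹ • g₁ • g₂ • v = v := by simp
      rw [h4] at this
      -- `v = g₁⁻¹ • g₂⁻¹ • g₁ • g₂ • v`
      have h5 : g₂ • g₁ • v = g₂ • g₁ • (g₁⁻¹ • g₂⁻¹ • g₁ • g₂ • v) := by rw [← this]
      rw [h5]
      simp
    by_cases hall : ∀ g : G, ∀ v : V, g • v = v
    · -- everything acts trivially: any line works
      have hpos : 0 < Module.finrank (ZMod p) V := by rw [hV]; norm_num
      obtain ⟨v, hv⟩ := Module.finrank_pos_iff_exists_ne_zero.mp hpos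
      refine ⟨Submodule.span (ZMod p) {v}, ?_, ?_, ?_⟩
      · intro h
        have : v ∈ Submodule.span (ZMod p) {v} := Submodule.mem_span_singleton_self v
        rw [h, Submodule.mem_bot] at this
        exact hv this
      · intro h
        have h1 : Module.finrank (ZMod p) (Submodule.span (ZMod p) {v}) = 1 :=
          finrank_span_singleton hv
        rw [h, finrank_top, hV] at h1
        omega
      · intro g w hw
        rw [hall g w]; exact hw
    · push Not at hall
      obtain ⟨g₀, v₀, hv₀⟩ := hall
      let N' : Submodule (ZMod p) V := LinearMap.ker (h7n_lin p V g₀ - 1)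
      have hN'mem : ∀ v : V, v ∈ N' ↔ g₀ • v = v := by
        intro v
        simp only [N', LinearMap.mem_ker, LinearMap.sub_apply, h7n_lin_apply,
          Module.End.one_apply, sub_eq_zero]
      refine ⟨N', ?_, ?_, ?_⟩
      · intro h
        obtain ⟨w, hw0, hw⟩ := hfix g₀
        have : w ∈ N' := (hN'mem w).mpr hw
        rw [h, Submodule.mem_bot] at this
        exact hw0 this
      · intro h
        have : v₀ ∈ N' := by rw [h]; trivial
        exact hv₀ ((hN'mem v₀).mp this)
      · intro g v hv
        rw [hN'mem] at hv ⊢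
        rw [hcomm g₀ g v, hv]
  · exact ⟨N, hNbot, hNtop, hNstab⟩

end main

end Fermat.Agent.Lib.S41
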