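/-
S41 project (level raising), layer [C] assembly (helper7): the non-Eisenstein statement (T1)
`h6_NonEisStatement` from the two contracts

* `h7n_FrobGenStatement` (C1, helper1): every element of `G_ℚ` acts on `E[p]` as a power of a
  Frobenius element at a prime outside any given finite set;
* `h7n_FrobFixStatement` (C2, helper9): away from a finite exceptional set, if `p` divides
  `#W̃(𝔽_ℓ) = ℓ + 1 - a_ℓ(W)` then every Frobenius element at `ℓ` fixes a nonzero point of `E[p]`;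

together with (C3) `h7n_exists_stable_line` and `dim E[p] = 2` (Lib/S13).
-/
import Mathlib
import Fermat.Prelude.Def_EllipticCurve_FrobeniusTrace
import Fermat.Agent.Lib.S41.Defs
import Fermat.Agent.Lib.S41.H7NonEisGrp
import Fermat.Agent.Lib.S13.TorsionRank

set_option autoImplicit false

open WeierstrassCurve WeierstrassCurve.Affine WeierstrassCurve.Affine.Point

namespace Fermat.Agent.Lib.S41

local notation "Γℚ" => (AlgebraicClosure ℚ ≃ₐ[ℚ] AlgebraicClosure ℚ)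

/-- **(C1)** Frobenius elements generate every cyclic subgroup of the image of `G_ℚ` on `E[p]`:
for every `σ` and every finite set `S` of primes there are a prime `ℓ ∉ S`, a place `A` over `ℓ`
and a Frobenius element `τ` at `A` such that `σ` acts on `E[p]` as a power of `τ`. -/
def h7n_FrobGenStatement : Prop :=
  ∀ (E : WeierstrassCurve ℚ) [E.IsElliptic] {p : ℕ} (_ : p.Prime) (S : Finset ℕ) (σ : Γℚ),
    ∃ ℓ : ℕ, ℓ.Prime ∧ ℓ ∉ S ∧
      ∃ (A : ValuationSubring (AlgebraicClosure ℚ)) (_ : A.LiesOverPrime ℓ) (τ : Γℚ),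
        A.IsFrobeniusAt τ ℓ ∧
        ∃ k : ℕ, ∀ x : Submodule.torsionBy ℤ (E⁄(AlgebraicClosure ℚ)).Point p,
          σ • x = τ ^ k • x

/-- **(C2)** Away from a finite set of primes: if `p ∣ a_ℓ(W) - (1 + ℓ)` (i.e. `p ∣ #W̃(𝔽_ℓ)`),
`ℓ` good for `W`, `ℓ ≠ p`, then every Frobenius element at `ℓ` fixes a nonzero point of `E[p]`. -/
def h7n_FrobFixStatement : Prop :=
  ∀ (E : WeierstrassCurve ℚ) [E.IsElliptic] {W : WeierstrassCurve ℤ}
    (_ : W.IsIntegralModelOf E) {p : ℕ} (_ : p.Prime) (_ : p ≠ 2),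
    ∃ S₀ : Finset ℕ, ∀ ℓ : ℕ, ℓ.Prime → ℓ ∉ S₀ → ℓ ≠ p → W.IsGoodPrimeFor ℓ →
      ((p : ℤ) ∣ W.apOfModel ℓ - (1 + (ℓ : ℤ))) →
      ∀ (A : ValuationSubring (AlgebraicClosure ℚ)), A.LiesOverPrime ℓ →
        ∀ τ : Γℚ, A.IsFrobeniusAt τ ℓ →
          ∃ x : Submodule.torsionBy ℤ (E⁄(AlgebraicClosure ℚ)).Point p, x ≠ 0 ∧ τ • x = x

/-- The discriminant of an integral model of an elliptic curve is nonzero. -/
theorem h7n_Δ_ne_zero (E : WeierstrassCurve ℚ) [E.IsElliptic] {W : WeierstrassCurve ℤ}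
    (hW : W.IsIntegralModelOf E) : W.Δ ≠ 0 := by
  obtain ⟨C, hC⟩ := hW
  intro h0
  have h1 : (W.map (Int.castRingHom ℚ)).Δ = 0 := by
    rw [WeierstrassCurve.map_Δ, h0, _root_.map_zero]
  rw [← hC, WeierstrassCurve.variableChange_Δ] at h1
  have hE : E.Δ ≠ 0 := E.isUnit_Δ.ne_zero
  rcases mul_eq_zero.mp h1 with h | h
  · exact Units.ne_zero (C.u⁻¹) (pow_eq_zero_iff (by norm_num) |>.mp h)
  · exact hE h

/-- `dim_{𝔽_p} E[p] = 2` for an elliptic curve over `ℚ` (from Lib/S13, via `ℂ/Λ`). -/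
theorem h7n_finrank_torsion (E : WeierstrassCurve ℚ) [E.IsElliptic] {p : ℕ} (hp : p.Prime) :
    Module.finrank (ZMod p) (Submodule.torsionBy ℤ (E⁄(AlgebraicClosure ℚ)).Point p) = 2 :=
  Fermat.Agent.Lib.S13.h9d_finrank_torsion
    (Fermat.Agent.Lib.S13.h9d_complexCount_of_short
      (Fermat.Agent.Lib.S13.h9d_shortCount_of_lattice
        Fermat.Agent.Lib.S13.h3_exists_periodPair_g
        (fun L n hn => Fermat.Agent.Lib.S13.h1_card_torsion L n hn)))
    E E.isUnit_Δ.ne_zero p hp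

/-- **(T1)** the non-Eisenstein statement from (C1), (C2), (C3). -/
theorem h7n_nonEis (hC1 : h7n_FrobGenStatement) (hC2 : h7n_FrobFixStatement) :
    h6_NonEisStatement := by
  intro E _ W hW p hp hp2 hirr S
  classical
  by_contra hcon
  push Not at hcon
  have hp' : Fact p.Prime := ⟨hp⟩
  obtain ⟨S₀, hS₀⟩ := hC2 E hW hp hp2
  have hΔ : W.Δ ≠ 0 := h7n_Δ_ne_zero E hW
  let S' : Finset ℕ := S ∪ S₀ ∪ W.Δ.natAbs.primeFactors ∪ {p}
  -- every element of `G_ℚ` fixes a nonzero vector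
  have hfix : ∀ σ : Γℚ,
      ∃ x : Submodule.torsionBy ℤ (E⁄(AlgebraicClosure ℚ)).Point p, x ≠ 0 ∧ σ • x = x := by
    intro σ
    obtain ⟨ℓ, hℓ, hℓS', A, hA, τ, hτ, k, hk⟩ := hC1 E hp S' σ
    have hℓS : ℓ ∉ S := fun h => hℓS' (by simp [S', h])
    have hℓS₀ : ℓ ∉ S₀ := fun h => hℓS' (by simp [S', h])
    have hℓp : ℓ ≠ p := fun h => hℓS' (by simp [S', h])
    have hℓΔ : ℓ ∉ W.Δ.natAbs.primeFactors := fun h => hℓS' (by simp [S', h])
    have hgood : W.IsGoodPrimeFor ℓ := by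
      intro hdvd
      apply hℓΔ
      rw [Nat.mem_primeFactors]
      refine ⟨hℓ, ?_, by simpa using hΔ⟩
      exact Int.natCast_dvd.mp hdvd
    obtain ⟨x, hx0, hx⟩ := hS₀ ℓ hℓ hℓS₀ hℓp hgood (hcon ℓ hℓ hℓS hgood) A hA τ hτ
    refine ⟨x, hx0, ?_⟩
    rw [hk x]
    clear hk
    induction k with
    | zero => simp
    | succ k ih => rw [pow_succ, mul_smul, hx, ih]
  have hrank := h7n_finrank_torsion E hp
  have hfin : Module.Finite (ZMod p)
      (Submodule.torsionBy ℤ (E⁄(AlgebraicClosure ℚ)).Point p) :=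
    Module.finite_of_finrank_pos (by rw [hrank]; norm_num)
  obtain ⟨N, hNbot, hNtop, hNstab⟩ := h7n_exists_stable_line hrank hfix
  rcases hirr.2 N (fun σ x hx => hNstab σ x hx) with h | h
  · exact hNbot h
  · exact hNtop h

end Fermat.Agent.Lib.S41
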