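/-
S41 project (level raising), layer [C] assembly (helper1): the non-Eisenstein statement (T1)
`h6_NonEisStatement` from the single remaining contract (C2) `h7n_FrobFixStatement` (helper7's
shape), using the PROVEN Chebotarev-type input `h1f_C1` (C1', prime-power form), the strengthened
group lemma `h1g_exists_stable_line` (C3') and `dim E[p] = 2` (Lib/S13).
-/
import Mathlib
import Fermat.Agent.Lib.S41.H7NonEis
import Fermat.Agent.Lib.S41.H1Grp
import Fermat.Agent.Lib.S41.H1FrobLift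
import Fermat.Agent.Lib.S13.OpenKernel

set_option autoImplicit false

open WeierstrassCurve WeierstrassCurve.Affine WeierstrassCurve.Affine.Point

namespace Fermat.Agent.Lib.S41

open Fermat.Agent.Lib.S13

/-- Bridge: a Frobenius in the sense of `h1f_IsFrobAt` is a Frobenius in the Prelude's sense. -/
theorem h1n_isFrobeniusAt {A : ValuationSubring Qbar} {ℓ : ℕ} {τ : GQ}
    (h : h1f_IsFrobAt A ℓ τ) : A.IsFrobeniusAt τ ℓ := by
  refine ⟨h.1, fun x => ?_⟩
  obtain ⟨y, rfl⟩ := IsLocalRing.residue_surjective x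
  rw [← IsLocalRing.ResidueField.residue_smul, ← map_pow]
  have hmem : ((⟨τ, h.1⟩ : A.decompositionSubgroup ℚ) • y) - y ^ ℓ ∈
      IsLocalRing.maximalIdeal A := by
    rw [ValuationSubring.valuation_lt_one_iff]
    exact h.2 y y.2
  rw [← sub_eq_zero, ← map_sub]
  exact (Ideal.Quotient.eq_zero_iff_mem).mpr hmem

/-- A finite normal level through which the action on `E[p]` factors. -/
theorem h1n_exists_level (E : WeierstrassCurve ℚ) (p : ℕ)
    (hfin : Finite (Submodule.torsionBy ℤ (E⁄Qbar).Point p)) :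
    ∃ L : IntermediateField ℚ Qbar, FiniteDimensional ℚ L ∧ Normal ℚ L ∧
      ∀ σ τ' : GQ, (∀ x ∈ L, σ x = τ' x) →
        ∀ P : Submodule.torsionBy ℤ (E⁄Qbar).Point p, σ • P = τ' • P := by
  let S : Set Qbar := ⋃ x : Submodule.torsionBy ℤ (E⁄Qbar).Point p,
    lead_s13_coords (x : (E⁄Qbar).Point)
  have hS : S.Finite := Set.finite_iUnion fun x => lead_s13_coords_finite _
  have : Finite S := hS
  set L0 : IntermediateField ℚ Qbar := IntermediateField.adjoin ℚ S with hL0
  have hL0fin : FiniteDimensional ℚ L0 :=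
    IntermediateField.finiteDimensional_adjoin fun x _ =>
      (lead_s13_isAlgebraic_Qbar.isAlgebraic x).isIntegral
  refine ⟨IntermediateField.normalClosure ℚ L0 Qbar, inferInstance,
    normalClosure.normal ℚ L0 Qbar, ?_⟩
  intro σ τ' hagree P
  apply Subtype.ext
  show σ • (P : (E⁄Qbar).Point) = τ' • (P : (E⁄Qbar).Point)
  have h1 : (τ'⁻¹ * σ) • (P : (E⁄Qbar).Point) = (P : (E⁄Qbar).Point) := by
    apply lead_s13_smul_eq_of_coords
    intro t ht
    have htL : t ∈ IntermediateField.normalClosure ℚ L0 Qbar := by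
      apply IntermediateField.le_normalClosure L0
      apply IntermediateField.subset_adjoin
      exact Set.mem_iUnion.2 ⟨P, ht⟩
    show τ'⁻¹ (σ t) = t
    rw [hagree t htL]
    show (τ'⁻¹ * τ') t = t
    rw [inv_mul_cancel]; rfl
  calc σ • (P : (E⁄Qbar).Point) = (τ' * (τ'⁻¹ * σ)) • (P : (E⁄Qbar).Point) := by
        rw [mul_inv_cancel_left]
    _ = τ' • (P : (E⁄Qbar).Point) := by rw [mul_smul, h1]

/-- **(T1)** the non-Eisenstein statement from (C2) alone ((C1') and (C3') are proven). -/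
theorem h1n_nonEis (hC2 : h7n_FrobFixStatement) : h6_NonEisStatement := by
  intro E _ W hW p hp hp2 hirr S
  classical
  by_contra hcon
  push Not at hcon
  have hp' : Fact p.Prime := ⟨hp⟩
  obtain ⟨S₀, hS₀⟩ := hC2 E hW hp hp2
  have hΔ : W.Δ ≠ 0 := h7n_Δ_ne_zero E hW
  let S' : Finset ℕ := S ∪ S₀ ∪ W.Δ.natAbs.primeFactors ∪ {p}
  have hrank := h7n_finrank_torsion E hp
  have hfin : Module.Finite (ZMod p)
      (Submodule.torsionBy ℤ (E⁄(AlgebraicClosure ℚ)).Point p) :=
    Module.finite_of_finrank_pos (by rw [hrank]; norm_num)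
  have hfinV : Finite (Submodule.torsionBy ℤ (E⁄(AlgebraicClosure ℚ)).Point p) :=
    Module.finite_of_finite (ZMod p)
  obtain ⟨L, hLfin, hLnor, hL⟩ := h1n_exists_level E p hfinV
  -- elements of prime-power order at level `L` fix a nonzero vector
  have hfix : ∀ g : GQ, ∀ r : ℕ, r.Prime → ∀ b : ℕ,
      (AlgEquiv.restrictNormalHom L g) ^ (r ^ b) = 1 →
      ∃ x : Submodule.torsionBy ℤ (E⁄(AlgebraicClosure ℚ)).Point p, x ≠ 0 ∧ g • x = x := by
    intro σ r hr b hσ
    have hσ' : ∀ x ∈ L, (σ ^ (r ^ b)) x = x := by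
      intro x hx
      have h1 := h5_restrict_apply L (σ ^ (r ^ b)) ⟨x, hx⟩
      rw [map_pow, hσ] at h1
      exact h1.symm
    obtain ⟨ℓ, A, τ, k, hℓ, hℓS', hA, hτ, hk⟩ := h1f_C1 L σ r b hr hσ' S'
    have hℓS : ℓ ∉ S := fun h => hℓS' (by simp [S', h])
    have hℓS₀ : ℓ ∉ S₀ := fun h => hℓS' (by simp [S', h])
    have hℓp : ℓ ≠ p := fun h => hℓS' (by simp [S', h])
    have hℓΔ : ℓ ∉ W.Δ.natAbs.primeFactors := fun h => hℓS' (by simp [S', h])
    have hgood : W.IsGoodPrimeFor ℓ := by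
      intro hdvd
      apply hℓΔ
      rw [Nat.mem_primeFactors]
      refine ⟨hℓ, ?_, by simpa using hΔ⟩
      exact Int.natCast_dvd.mp hdvd
    obtain ⟨x, hx0, hx⟩ := hS₀ ℓ hℓ hℓS₀ hℓp hgood (hcon ℓ hℓ hℓS hgood) A hA τ
      (h1n_isFrobeniusAt hτ)
    refine ⟨x, hx0, ?_⟩
    rw [hL σ (τ ^ k) hk x]
    clear hk
    induction k with
    | zero => simp
    | succ k ih => rw [pow_succ, mul_smul, hx, ih]
  obtain ⟨N, hNbot, hNtop, hNstab⟩ :=
    h1g_exists_stable_line hrank (AlgEquiv.restrictNormalHom L) hfix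
  rcases hirr.2 N (fun σ x hx => hNstab σ x hx) with h | h
  · exact hNbot h
  · exact hNtop h

end Fermat.Agent.Lib.S41
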