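/-
S41 project (level raising), layer [C] assembly, variant (helper1): (T1) from (C2) stated with the
UNFOLDED Frobenius hypotheses (`τ ∈ D_A`, `v_A (τ x - x ^ ℓ) < 1` on `A`), which is the shape of
helper9's `h9c_core`; plus the converse bridge from the Prelude's `IsFrobeniusAt`.
-/
import Mathlib
import Fermat.Agent.Lib.S41.H1NonEis

set_option autoImplicit false

open WeierstrassCurve WeierstrassCurve.Affine WeierstrassCurve.Affine.Point

namespace Fermat.Agent.Lib.S41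

open Fermat.Agent.Lib.S13

/-- Converse bridge: the Prelude's `IsFrobeniusAt` gives `h1f_IsFrobAt`. -/
theorem h1n_isFrobAt_of_isFrobeniusAt {A : ValuationSubring Qbar} {ℓ : ℕ} {τ : GQ}
    (h : A.IsFrobeniusAt τ ℓ) : h1f_IsFrobAt A ℓ τ := by
  obtain ⟨hD, hF⟩ := h
  refine ⟨hD, fun x hx => ?_⟩
  have h1 := hF (IsLocalRing.residue A ⟨x, hx⟩)
  rw [← IsLocalRing.ResidueField.residue_smul, ← map_pow] at h1
  have h2 : ((⟨τ, hD⟩ : A.decompositionSubgroup ℚ) • (⟨x, hx⟩ : A)) - (⟨x, hx⟩ : A) ^ ℓ ∈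
      IsLocalRing.maximalIdeal A := by
    rw [← Ideal.Quotient.eq]
    exact h1
  rw [ValuationSubring.valuation_lt_one_iff] at h2
  exact h2

/-- **(C2)**, unfolded shape. -/
def h1n_FrobFixStatement' : Prop :=
  ∀ (E : WeierstrassCurve ℚ) [E.IsElliptic] {W : WeierstrassCurve ℤ}
    (_ : W.IsIntegralModelOf E) {p : ℕ} (_ : p.Prime) (_ : p ≠ 2),
    ∃ S₀ : Finset ℕ, ∀ ℓ : ℕ, ℓ.Prime → ℓ ∉ S₀ → ℓ ≠ p → W.IsGoodPrimeFor ℓ →
      ((p : ℤ) ∣ W.apOfModel ℓ - (1 + (ℓ : ℤ))) →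
      ∀ (A : ValuationSubring Qbar), A.LiesOverPrime ℓ →
        ∀ τ : GQ, τ ∈ A.decompositionSubgroup ℚ → (∀ x ∈ A, A.valuation (τ x - x ^ ℓ) < 1) →
          ∃ x : Submodule.torsionBy ℤ (E⁄Qbar).Point p, x ≠ 0 ∧ τ • x = x

theorem h1n_frobFix_of' (h : h1n_FrobFixStatement') : h7n_FrobFixStatement := by
  intro E _ W hW p hp hp2
  obtain ⟨S₀, hS₀⟩ := h E hW hp hp2
  refine ⟨S₀, fun ℓ hℓ hℓS hℓp hgood hdvd A hA τ hτ => ?_⟩
  have h1 := h1n_isFrobAt_of_isFrobeniusAt hτ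
  exact hS₀ ℓ hℓ hℓS hℓp hgood hdvd A hA τ h1.1 h1.2

/-- **(T1)** from the unfolded (C2). -/
theorem h1n_nonEis' (h : h1n_FrobFixStatement') : h6_NonEisStatement :=
  h1n_nonEis (h1n_frobFix_of' h)

end Fermat.Agent.Lib.S41
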