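/-
S41 project (level raising), Lemma R (oddness), part (R2b) (helper1):
a lattice `Λ ⊂ ℂ` stable under complex conjugation contains a real period `ω_r` and a purely
imaginary period `ω_i` which are not divisible by `p` in `Λ` (`p ≥ 2`).
-/
import Mathlib

set_option autoImplicit false
set_option linter.unusedSectionVars false
set_option linter.unusedVariables false

namespace Fermat.Agent.Lib.S41

open Complex

variable (L : PeriodPair)

/-- Every nonzero period is a positive integer multiple of a period not divisible by `p`. -/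
theorem h1r_exists_primitive {ω : ℂ} (hω : ω ∈ L.lattice) (hω0 : ω ≠ 0) (p : ℕ) (hp : 2 ≤ p) :
    ∃ (ω' : ℂ) (g : ℕ), 0 < g ∧ ω' ∈ L.lattice ∧ ω = (g : ℂ) * ω' ∧ ω' / (p : ℂ) ∉ L.lattice := by
  obtain ⟨m, n, rfl⟩ := PeriodPair.mem_lattice.mp hω
  have hmn : ¬ (m = 0 ∧ n = 0) := by
    rintro ⟨rfl, rfl⟩
    apply hω0
    simp
  have hg : 0 < Int.gcd m n := by
    rw [Int.gcd_pos_iff]
    tauto
  set g := Int.gcd m n with hgdef
  obtain ⟨m', hm'⟩ : (g : ℤ) ∣ m := Int.gcd_dvd_left m n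
  obtain ⟨n', hn'⟩ : (g : ℤ) ∣ n := Int.gcd_dvd_right m n
  have hcop : Int.gcd m' n' = 1 := by
    have h1 := Int.gcd_div_gcd_div_gcd (i := m) (j := n) hg
    have hg0 : (g : ℤ) ≠ 0 := by exact_mod_cast hg.ne'
    have e1 : m / (g : ℤ) = m' := by rw [hm', Int.mul_ediv_cancel_left _ hg0]
    have e2 : n / (g : ℤ) = n' := by rw [hn', Int.mul_ediv_cancel_left _ hg0]
    rw [← hgdef, e1, e2] at h1
    exact h1
  refine ⟨(m' : ℂ) * L.ω₁ + (n' : ℂ) * L.ω₂, g, hg, ?_, ?_, ?_⟩
  · exact PeriodPair.mem_lattice.mpr ⟨m', n', rfl⟩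
  · rw [hm', hn']
    push_cast
    ring
  · intro hmem
    have hp0 : (p : ℚ) ≠ 0 := by
      have : 0 < p := by omega
      exact_mod_cast this.ne'
    have e : ((m' : ℂ) * L.ω₁ + (n' : ℂ) * L.ω₂) / (p : ℂ) =
        (((m' : ℚ) / (p : ℚ) : ℚ) : ℂ) * L.ω₁ + (((n' : ℚ) / (p : ℚ) : ℚ) : ℂ) * L.ω₂ := by
      push_cast
      ring
    rw [e, PeriodPair.mul_ω₁_add_mul_ω₂_mem_lattice] at hmem
    obtain ⟨h1, h2⟩ := hmem
    have key : ∀ k : ℤ, ((k : ℚ) / (p : ℚ)).den = 1 → (p : ℤ) ∣ k := by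
      intro k hden
      obtain ⟨j, hj⟩ : ∃ j : ℤ, (k : ℚ) / (p : ℚ) = (j : ℚ) :=
        ⟨_, ((Rat.den_eq_one_iff _).mp hden).symm⟩
      refine ⟨j, ?_⟩
      have : (k : ℚ) = (p : ℚ) * (j : ℚ) := by
        field_simp at hj
        linear_combination hj
      exact_mod_cast this
    have hd1 := key m' h1
    have hd2 := key n' h2
    have hd : (p : ℤ) ∣ ((Int.gcd m' n' : ℕ) : ℤ) := Int.dvd_coe_gcd hd1 hd2
    rw [hcop] at hd
    have : (p : ℤ) ≤ 1 := Int.le_of_dvd one_pos (by simpa using hd)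
    omega

/-- A conjugation-stable lattice contains a real period and a purely imaginary period, both not
divisible by `p` in the lattice. -/
theorem h1r_exists_periods
    (hlat : ∀ z : ℂ, (starRingEnd ℂ) z ∈ L.lattice ↔ z ∈ L.lattice) (p : ℕ) (hp : 2 ≤ p) :
    (∃ ω ∈ L.lattice, (starRingEnd ℂ) ω = ω ∧ ω / (p : ℂ) ∉ L.lattice) ∧
    (∃ ω ∈ L.lattice, (starRingEnd ℂ) ω = -ω ∧ ω / (p : ℂ) ∉ L.lattice) := by
  have hindep := (LinearIndependent.pair_iff (R := ℝ) (x := L.ω₁) (y := L.ω₂)).mp L.indep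
  have hc1 : (starRingEnd ℂ) L.ω₁ ∈ L.lattice := (hlat _).mpr L.ω₁_mem_lattice
  have hc2 : (starRingEnd ℂ) L.ω₂ ∈ L.lattice := (hlat _).mpr L.ω₂_mem_lattice
  -- descend `conj ω = ε ω` from `g ω'` to `ω'`
  have hdesc : ∀ (ε : ℂ) (ω ω' : ℂ) (g : ℕ), 0 < g → ω = (g : ℂ) * ω' →
      (starRingEnd ℂ) ω = ε * ω → (starRingEnd ℂ) ω' = ε * ω' := by
    intro ε ω ω' g hg hωg hconj
    have hg0 : (g : ℂ) ≠ 0 := by exact_mod_cast hg.ne'
    rw [hωg, map_mul, Complex.conj_natCast] at hconj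
    apply mul_left_cancel₀ hg0
    rw [hconj]
    ring
  constructor
  · -- a nonzero real period
    have hex : ∃ ω ∈ L.lattice, (starRingEnd ℂ) ω = ω ∧ ω ≠ 0 := by
      by_cases h1 : L.ω₁ + (starRingEnd ℂ) L.ω₁ = 0
      · by_cases h2 : L.ω₂ + (starRingEnd ℂ) L.ω₂ = 0
        · exfalso
          -- both periods purely imaginary
          have hr1 : L.ω₁.re = 0 := by
            have := congrArg Complex.re h1
            simp at this
            linarith
          have hr2 : L.ω₂.re = 0 := by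
            have := congrArg Complex.re h2
            simp at this
            linarith
          have hrel : (L.ω₂.im : ℝ) • L.ω₁ + (-(L.ω₁.im) : ℝ) • L.ω₂ = 0 := by
            apply Complex.ext
            · simp [hr1, hr2]
            · simp
              ring
          obtain ⟨e1, e2⟩ := hindep _ _ hrel
          have hi1 : L.ω₁.im = 0 := by linarith
          have hω1 : L.ω₁ = 0 := Complex.ext hr1 hi1
          have hrel' : (1 : ℝ) • L.ω₁ + (0 : ℝ) • L.ω₂ = 0 := by rw [hω1]; simp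
          exact one_ne_zero (hindep _ _ hrel').1
        · exact ⟨_, add_mem L.ω₂_mem_lattice hc2, by rw [map_add, Complex.conj_conj, add_comm], h2⟩
      · exact ⟨_, add_mem L.ω₁_mem_lattice hc1, by rw [map_add, Complex.conj_conj, add_comm], h1⟩
    obtain ⟨ω, hω, hconj, hω0⟩ := hex
    obtain ⟨ω', g, hg, hω', hωg, hprim⟩ := h1r_exists_primitive L hω hω0 p hp
    refine ⟨ω', hω', ?_, hprim⟩
    have := hdesc 1 ω ω' g hg hωg (by rw [one_mul]; exact hconj)
    rwa [one_mul] at this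
  · -- a nonzero purely imaginary period
    have hex : ∃ ω ∈ L.lattice, (starRingEnd ℂ) ω = -ω ∧ ω ≠ 0 := by
      by_cases h1 : L.ω₁ - (starRingEnd ℂ) L.ω₁ = 0
      · by_cases h2 : L.ω₂ - (starRingEnd ℂ) L.ω₂ = 0
        · exfalso
          -- both periods real
          have hi1 : L.ω₁.im = 0 := by
            have := congrArg Complex.im h1
            simp at this
            linarith
          have hi2 : L.ω₂.im = 0 := by
            have := congrArg Complex.im h2
            simp at this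
            linarith
          have hrel : (L.ω₂.re : ℝ) • L.ω₁ + (-(L.ω₁.re) : ℝ) • L.ω₂ = 0 := by
            apply Complex.ext
            · simp
              ring
            · simp [hi1, hi2]
          obtain ⟨e1, e2⟩ := hindep _ _ hrel
          have hr1 : L.ω₁.re = 0 := by linarith
          have hω1 : L.ω₁ = 0 := Complex.ext hr1 hi1
          have hrel' : (1 : ℝ) • L.ω₁ + (0 : ℝ) • L.ω₂ = 0 := by rw [hω1]; simp
          exact one_ne_zero (hindep _ _ hrel').1
        · exact ⟨_, sub_mem L.ω₂_mem_lattice hc2,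
            by rw [map_sub, Complex.conj_conj, neg_sub], h2⟩
      · exact ⟨_, sub_mem L.ω₁_mem_lattice hc1,
          by rw [map_sub, Complex.conj_conj, neg_sub], h1⟩
    obtain ⟨ω, hω, hconj, hω0⟩ := hex
    obtain ⟨ω', g, hg, hω', hωg, hprim⟩ := h1r_exists_primitive L hω hω0 p hp
    refine ⟨ω', hω', ?_, hprim⟩
    have := hdesc (-1) ω ω' g hg hωg (by rw [neg_one_mul]; exact hconj)
    rwa [neg_one_mul] at this

end Fermat.Agent.Lib.S41
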