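/-
S41 project (level raising), layer [C2] (helper9): definitions, the two sub-contracts and the core
assembly for short integral Weierstrass models `Y² = X³ + aX + b` (`a b : ℤ`).

* `h9c_LiftStatement` (C2a, lifting/counting): if `p ∣ #W̃(𝔽_ℓ)` there is a `τ`-fixed point `Q` of
  `E(ℚ̄)` outside the kernel of reduction `E₁` with `p • Q ∈ E₁`.
* `h9c_DivStatement` (C2b): `E₁` is `n`-divisible for `v(n) = 1`.
* `h9c_core`: (C2a) + (C2b) ⇒ a nonzero `τ`-fixed point of order `p`.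
-/
import Mathlib
import Fermat.Prelude.Def_FLTPrelim_GaloisRep
import Fermat.Prelude.Def_FLTPrelim_Ramification
import Fermat.Agent.Lib.S05.KernelTorsion
import Fermat.Agent.Lib.S05.Inertia
import Fermat.Agent.Lib.S05.ReductionG
import Fermat.Agent.Lib.S13.Defs

set_option autoImplicit false

open WeierstrassCurve WeierstrassCurve.Affine WeierstrassCurve.Affine.Point

namespace Fermat.Agent.Lib.S41

open Fermat.Agent.Lib.S13 Fermat.Agent.Lib.S05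

/-- The short Weierstrass curve `Y² = X³ + aX + b` over `ℚ`. -/
def h9c_Ws (a b : ℤ) : WeierstrassCurve ℚ := ⟨0, 0, 0, (a : ℚ), (b : ℚ)⟩

/-- The short Weierstrass curve `Y² = X³ + aX + b` over `ℤ`. -/
def h9c_WsZ (a b : ℤ) : WeierstrassCurve ℤ := ⟨0, 0, 0, a, b⟩

/-- The same curve over `ℚ̄`. -/
noncomputable abbrev h9c_WsQbar (a b : ℤ) : WeierstrassCurve Qbar := (h9c_Ws a b).baseChange Qbar

/-- Membership in the kernel of reduction `E₁` at the place `A`. -/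
abbrev h9c_Ker (A : ValuationSubring Qbar) (a b : ℤ) (P : ((h9c_Ws a b)⁄Qbar).Point) : Prop :=
  KtKer A.valuation (h9c_WsQbar a b) P

/-- **(C2a)** lifting and counting. -/
def h9c_LiftStatement : Prop :=
  ∀ (a b : ℤ) {p ℓ : ℕ}, p.Prime → ℓ.Prime → ℓ ≠ 2 → ℓ ≠ 3 →
    ¬ (ℓ : ℤ) ∣ 4 * a ^ 3 + 27 * b ^ 2 →
    p ∣ Nat.card ((h9c_WsZ a b).map (Int.castRingHom (ZMod ℓ))).toAffine.Point →
    ∀ (A : ValuationSubring Qbar) (τ : GQ), A.LiesOverPrime ℓ →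
      τ ∈ A.decompositionSubgroup ℚ → (∀ x ∈ A, A.valuation (τ x - x ^ ℓ) < 1) →
      ∃ Q : ((h9c_Ws a b)⁄Qbar).Point, τ • Q = Q ∧ ¬ h9c_Ker A a b Q ∧ h9c_Ker A a b (p • Q)

/-- **(C2b)** the kernel of reduction is `n`-divisible for `n` a unit at `A`. -/
def h9c_DivStatement : Prop :=
  ∀ (a b : ℤ), 4 * a ^ 3 + 27 * b ^ 2 ≠ 0 → ∀ (A : ValuationSubring Qbar) (n : ℕ), 0 < n →
    A.valuation (n : Qbar) = 1 →
    ∀ R : ((h9c_Ws a b)⁄Qbar).Point, h9c_Ker A a b R →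
      ∃ Q : ((h9c_Ws a b)⁄Qbar).Point, h9c_Ker A a b Q ∧ n • Q = R

theorem h9c_isAlgebraic_Qbar : Algebra.IsAlgebraic ℚ Qbar := by
  have h : (DivisionRing.toRatAlgebra : Algebra ℚ Qbar) =
      AlgebraicClosure.instAlgebra (k := ℚ) (R := ℚ) := Subsingleton.elim _ _
  rw [h]
  exact AlgebraicClosure.isAlgebraic ℚ

section facts

variable (A : ValuationSubring Qbar) (a b : ℤ)

theorem h9c_a₁ : (h9c_WsQbar a b).a₁ = 0 := by simp [h9c_Ws]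
theorem h9c_a₂ : (h9c_WsQbar a b).a₂ = 0 := by simp [h9c_Ws]
theorem h9c_a₃ : (h9c_WsQbar a b).a₃ = 0 := by simp [h9c_Ws]
theorem h9c_a₄ : (h9c_WsQbar a b).a₄ = (a : Qbar) := by simp [h9c_Ws]
theorem h9c_a₆ : (h9c_WsQbar a b).a₆ = (b : Qbar) := by simp [h9c_Ws]

theorem h9c_v_a₂ : A.valuation (h9c_WsQbar a b).a₂ ≤ 1 := by
  rw [h9c_a₂, _root_.map_zero]; exact zero_le_one
theorem h9c_v_a₄ : A.valuation (h9c_WsQbar a b).a₄ ≤ 1 := by
  rw [h9c_a₄]; exact valuation_intCast_le_one A a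
theorem h9c_v_a₆ : A.valuation (h9c_WsQbar a b).a₆ ≤ 1 := by
  rw [h9c_a₆]; exact valuation_intCast_le_one A b

/-- `E₁` is a subgroup. -/
theorem h9c_ker_add {P Q : ((h9c_Ws a b)⁄Qbar).Point} (hP : h9c_Ker A a b P)
    (hQ : h9c_Ker A a b Q) : h9c_Ker A a b (P + Q) :=
  ktKer_add A.valuation (h9c_WsQbar a b) (h9c_a₁ a b) (h9c_a₃ a b) (h9c_v_a₂ A a b)
    (h9c_v_a₄ A a b) (h9c_v_a₆ A a b) P Q hP hQ

theorem h9c_ker_neg {P : ((h9c_Ws a b)⁄Qbar).Point} (hP : h9c_Ker A a b P) :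
    h9c_Ker A a b (-P) :=
  ktKer_neg A.valuation (h9c_WsQbar a b) P hP

theorem h9c_ker_sub {P Q : ((h9c_Ws a b)⁄Qbar).Point} (hP : h9c_Ker A a b P)
    (hQ : h9c_Ker A a b Q) : h9c_Ker A a b (P - Q) := by
  rw [sub_eq_add_neg]; exact h9c_ker_add A a b hP (h9c_ker_neg A a b hQ)

theorem h9c_ker_nsmul {P : ((h9c_Ws a b)⁄Qbar).Point} (hP : h9c_Ker A a b P) (n : ℕ) :
    h9c_Ker A a b (n • P) :=
  (kt_nsmul_est A.valuation (h9c_WsQbar a b) (h9c_a₁ a b) (h9c_a₃ a b) (h9c_v_a₂ A a b)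
    (h9c_v_a₄ A a b) (h9c_v_a₆ A a b) P hP n).1

/-- `E₁` has no `n`-torsion for `v(n) = 1`. -/
theorem h9c_ker_torsion_free {P : ((h9c_Ws a b)⁄Qbar).Point} (hP : h9c_Ker A a b P) (n : ℕ)
    (hn : A.valuation (n : Qbar) = 1) (hnP : n • P = 0) : P = 0 :=
  kt_eq_zero_of_nsmul A.valuation (h9c_WsQbar a b) (h9c_a₁ a b) (h9c_a₃ a b) (h9c_v_a₂ A a b)
    (h9c_v_a₄ A a b) (h9c_v_a₆ A a b) P hP n hn hnP

/-- `E₁` is stable under the decomposition group. -/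
theorem h9c_ker_smul {τ : GQ} (hτ : τ ∈ A.decompositionSubgroup ℚ)
    {P : ((h9c_Ws a b)⁄Qbar).Point} (hP : h9c_Ker A a b P) : h9c_Ker A a b (τ • P) := by
  rcases P with _ | ⟨x, y, h⟩
  · exact trivial
  · obtain ⟨h', e⟩ := smul_some_eq (h9c_Ws a b) τ h
    rw [e]
    show 1 < A.valuation (τ x)
    haveI := h9c_isAlgebraic_Qbar
    rw [valuation_apply_of_mem_decomposition A hτ x]
    exact hP

end facts

/-- **Core of (C2)** for short integral models. -/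
theorem h9c_core (hL : h9c_LiftStatement) (hD : h9c_DivStatement) (a b : ℤ) {p ℓ : ℕ}
    (hp : p.Prime) (hℓ : ℓ.Prime) (hℓp : ℓ ≠ p) (hℓ2 : ℓ ≠ 2) (hℓ3 : ℓ ≠ 3)
    (hgood : ¬ (ℓ : ℤ) ∣ 4 * a ^ 3 + 27 * b ^ 2)
    (hcard : p ∣ Nat.card ((h9c_WsZ a b).map (Int.castRingHom (ZMod ℓ))).toAffine.Point)
    (A : ValuationSubring Qbar) (τ : GQ) (hA : A.LiesOverPrime ℓ)
    (hτD : τ ∈ A.decompositionSubgroup ℚ) (hτF : ∀ x ∈ A, A.valuation (τ x - x ^ ℓ) < 1) :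
    ∃ P : ((h9c_Ws a b)⁄Qbar).Point, P ≠ 0 ∧ p • P = 0 ∧ τ • P = P := by
  have hne : 4 * a ^ 3 + 27 * b ^ 2 ≠ 0 := fun h => hgood (by rw [h]; exact dvd_zero _)
  have hvp : A.valuation (p : Qbar) = 1 :=
    valuation_natCast_eq_one_of_prime_ne A hA hℓ hp (Ne.symm hℓp)
  obtain ⟨Q, hτQ, hQ1, hpQ⟩ := hL a b hp hℓ hℓ2 hℓ3 hgood hcard A τ hA hτD hτF
  obtain ⟨Q', hQ'1, hQ'⟩ := hD a b hne A p hp.pos hvp (p • Q) hpQ
  -- `τ • Q' = Q'` by uniqueness of division points in `E₁`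
  have hτQ' : τ • Q' = Q' := by
    have h1 : h9c_Ker A a b (τ • Q' - Q') :=
      h9c_ker_sub A a b (h9c_ker_smul A a b hτD hQ'1) hQ'1
    have h2 : p • (τ • Q' - Q') = 0 := by
      rw [nsmul_sub, ← smul_nsmul (h9c_Ws a b) τ p Q', hQ', smul_nsmul (h9c_Ws a b) τ p Q, hτQ,
        sub_self]
    exact sub_eq_zero.mp (h9c_ker_torsion_free A a b h1 p hvp h2)
  refine ⟨Q - Q', ?_, ?_, ?_⟩
  · intro h0
    apply hQ1
    rw [sub_eq_zero.mp h0]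
    exact hQ'1
  · rw [nsmul_sub, hQ', sub_self]
  · rw [smul_sub, hτQ, hτQ']

end Fermat.Agent.Lib.S41
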