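/-
S41 project (level raising), layer [C2] (helper9): the analytic norm identity.

For a lattice `Λ`, `n ≥ 1`, `x₀ ∈ ℂ` and the `n`-division points `t_s` (`s ∈ Fin n × Fin n`):
  `∏_s (℘(z/n + t_s) - x₀) = (n² ∏_{s ≠ 0} (℘(t_s) - x₀)) · ℘(z) + B`   for all `z ∉ Λ`,
with a constant `B`.  (The left side is an even `Λ`-periodic function with only a double pole at
the lattice points; subtract the principal part and apply Liouville, `h1_elliptic_const`.)
-/
import Mathlib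
import Fermat.Agent.Lib.S13.WPBasic
import Fermat.Agent.Lib.S13.WPGroup

set_option autoImplicit false

noncomputable section

namespace Fermat.Agent.Lib.S41

open Filter Topology PeriodPair
open Fermat.Agent.Lib.S13

variable (L : PeriodPair)

/-! ### Division points and the lattice -/

theorem h9a_int_mul_mem (a b : ℤ) : (a : ℂ) * L.ω₁ + (b : ℂ) * L.ω₂ ∈ L.lattice :=
  h1_natCast_mul_mem L a b

/-- `t_s ∉ Λ` for `s ≠ 0`. -/
theorem h9a_divPt_notMem (n : ℕ) [NeZero n] {s : Fin n × Fin n} (hs : s ≠ 0) :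
    h1_divPt L n s ∉ L.lattice := by
  have hn : 0 < n := Nat.pos_of_ne_zero (NeZero.ne n)
  have hnQ : (n : ℚ) ≠ 0 := Nat.cast_ne_zero.mpr hn.ne'
  intro hmem
  have e : h1_divPt L n s = ((((s.1 : ℕ) : ℚ) / (n : ℚ) : ℚ) : ℂ) * L.ω₁
      + ((((s.2 : ℕ) : ℚ) / (n : ℚ) : ℚ) : ℂ) * L.ω₂ := by
    simp only [h1_divPt]; push_cast; ring
  rw [e, PeriodPair.mul_ω₁_add_mul_ω₂_mem_lattice] at hmem
  have key : ∀ a : Fin n, ((((a : ℕ) : ℚ) / (n : ℚ) : ℚ)).den = 1 → a = 0 := by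
    intro a hden
    obtain ⟨k, hk⟩ : ∃ k : ℤ, ((a : ℕ) : ℚ) / (n : ℚ) = (k : ℚ) :=
      ⟨_, ((Rat.den_eq_one_iff _).mp hden).symm⟩
    have hk' : ((a : ℕ) : ℤ) = k * n := by
      have : (((a : ℕ) : ℤ) : ℚ) = (k : ℚ) * (n : ℚ) := by
        field_simp at hk
        push_cast
        linear_combination hk
      exact_mod_cast this
    have ha := a.2
    have hk0 : k = 0 := by
      by_contra hne
      rcases lt_or_gt_of_ne hne with hlt | hgt
      · have : k * (n : ℤ) ≤ -1 * n :=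
          mul_le_mul_of_nonneg_right (by omega) (by positivity)
        omega
      · have : 1 * (n : ℤ) ≤ k * n :=
          mul_le_mul_of_nonneg_right (by omega) (by positivity)
        omega
    rw [hk0, zero_mul] at hk'
    apply Fin.ext
    have : (a : ℕ) = 0 := by exact_mod_cast hk'
    simpa using this
  exact hs (Prod.ext (key _ hmem.1) (key _ hmem.2))

theorem h9a_divPt_zero (n : ℕ) [NeZero n] : h1_divPt L n (0 : Fin n × Fin n) = 0 := by
  simp [h1_divPt]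

/-- If `z / n + t ∈ Λ` with `n t ∈ Λ`, then `z ∈ Λ`. -/
theorem h9a_mem_of_div_add_mem (n : ℕ) [NeZero n] (s : Fin n × Fin n) {z : ℂ}
    (h : z / n + h1_divPt L n s ∈ L.lattice) : z ∈ L.lattice := by
  have hn : 0 < n := Nat.pos_of_ne_zero (NeZero.ne n)
  have hn0 : (n : ℂ) ≠ 0 := Nat.cast_ne_zero.mpr hn.ne'
  have h1 : (n : ℤ) • (z / n + h1_divPt L n s) ∈ L.lattice := L.lattice.smul_mem _ h
  have h2 : (n : ℂ) * h1_divPt L n s ∈ L.lattice := by
    rw [h1_divPt_mul L n hn]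
    exact_mod_cast h9a_int_mul_mem L (s.1 : ℕ) (s.2 : ℕ)
  have e : z = (n : ℤ) • (z / n + h1_divPt L n s) - (n : ℂ) * h1_divPt L n s := by
    rw [zsmul_eq_mul]; push_cast; field_simp; ring
  rw [e]
  exact sub_mem h1 h2

/-! ### Reindexing -/

/-- Congruence of a `Fin n` sum with the sum of values. -/
theorem h9a_val_add (n : ℕ) [NeZero n] (a b : Fin n) :
    ∃ k : ℤ, (((a + b : Fin n) : ℕ) : ℤ) = (a : ℕ) + (b : ℕ) - k * n := by
  have h : ((a + b : Fin n) : ℕ) = ((a : ℕ) + (b : ℕ)) % n := Fin.val_add a b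
  refine ⟨(((a : ℕ) + (b : ℕ)) / n : ℕ), ?_⟩
  have := Nat.mod_add_div ((a : ℕ) + (b : ℕ)) n
  rw [h]
  push_cast
  have h2 : ((((a : ℕ) + (b : ℕ)) % n : ℕ) : ℤ) + (n : ℤ) * ((((a : ℕ) + (b : ℕ)) / n : ℕ) : ℤ)
      = (a : ℕ) + (b : ℕ) := by exact_mod_cast this
  linarith

/-- `t_{s + s'} ≡ t_s + t_{s'}` modulo `Λ`. -/
theorem h9a_divPt_add (n : ℕ) [NeZero n] (s s' : Fin n × Fin n) :
    h1_divPt L n (s + s') - (h1_divPt L n s + h1_divPt L n s') ∈ L.lattice := by
  have hn : 0 < n := Nat.pos_of_ne_zero (NeZero.ne n)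
  have hn0 : (n : ℂ) ≠ 0 := Nat.cast_ne_zero.mpr hn.ne'
  obtain ⟨k₁, hk₁⟩ := h9a_val_add n s.1 s'.1
  obtain ⟨k₂, hk₂⟩ := h9a_val_add n s.2 s'.2
  have e : h1_divPt L n (s + s') - (h1_divPt L n s + h1_divPt L n s')
      = ((-k₁ : ℤ) : ℂ) * L.ω₁ + ((-k₂ : ℤ) : ℂ) * L.ω₂ := by
    have h1 : ((((s + s').1 : Fin n) : ℕ) : ℂ) = ((s.1 : ℕ) : ℂ) + ((s'.1 : ℕ) : ℂ) - k₁ * n := by
      have : (s + s').1 = s.1 + s'.1 := rfl
      rw [this]
      exact_mod_cast congrArg (Int.cast : ℤ → ℂ) hk₁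
    have h2 : ((((s + s').2 : Fin n) : ℕ) : ℂ) = ((s.2 : ℕ) : ℂ) + ((s'.2 : ℕ) : ℂ) - k₂ * n := by
      have : (s + s').2 = s.2 + s'.2 := rfl
      rw [this]
      exact_mod_cast congrArg (Int.cast : ℤ → ℂ) hk₂
    simp only [h1_divPt]
    rw [h1, h2]
    push_cast
    field_simp
    ring
  rw [e]
  exact h9a_int_mul_mem L _ _

/-- `t_{-s} ≡ -t_s` modulo `Λ`. -/
theorem h9a_divPt_neg (n : ℕ) [NeZero n] (s : Fin n × Fin n) :
    h1_divPt L n (-s) + h1_divPt L n s ∈ L.lattice := by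
  have h := h9a_divPt_add L n (-s) s
  rw [neg_add_cancel, h9a_divPt_zero, zero_sub] at h
  simpa using neg_mem h

/-- A `Λ`-periodic function has the same value at congruent points. -/
theorem h9a_wp_congr {z w : ℂ} (h : z - w ∈ L.lattice) : ℘[L] z = ℘[L] w := by
  have := L.weierstrassP_add_coe w ⟨z - w, h⟩
  simpa using this


/-! ### The norm function -/

/-- `f(z) = ∏_s (℘(z/n + t_s) - x₀)`. -/
def h9a_f (n : ℕ) (x₀ z : ℂ) : ℂ :=
  ∏ s : Fin n × Fin n, (℘[L] (z / n + h1_divPt L n s) - x₀)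

/-- `h(z) = ∏_{s ≠ 0} (℘(z/n + t_s) - x₀)`. -/
def h9a_h (n : ℕ) [NeZero n] (x₀ z : ℂ) : ℂ :=
  ∏ s ∈ (Finset.univ.erase (0 : Fin n × Fin n)), (℘[L] (z / n + h1_divPt L n s) - x₀)

theorem h9a_f_eq (n : ℕ) [NeZero n] (x₀ z : ℂ) :
    h9a_f L n x₀ z = (℘[L] (z / n) - x₀) * h9a_h L n x₀ z := by
  unfold h9a_f h9a_h
  rw [← Finset.mul_prod_erase Finset.univ _ (Finset.mem_univ (0 : Fin n × Fin n)),
    h9a_divPt_zero, add_zero]

/-- Translation of the argument by a point congruent to a division point permutes the factors. -/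
theorem h9a_prod_shift (n : ℕ) [NeZero n] (x₀ w c : ℂ) (s₀ : Fin n × Fin n)
    (hc : c - h1_divPt L n s₀ ∈ L.lattice) :
    ∏ s : Fin n × Fin n, (℘[L] (w + c + h1_divPt L n s) - x₀)
      = ∏ s : Fin n × Fin n, (℘[L] (w + h1_divPt L n s) - x₀) := by
  rw [← Equiv.prod_comp (Equiv.addRight s₀)
    (fun s => ℘[L] (w + h1_divPt L n s) - x₀)]
  refine Finset.prod_congr rfl fun s _ => ?_
  congr 1
  apply h9a_wp_congr
  have h := h9a_divPt_add L n s s₀
  have e : w + c + h1_divPt L n s - (w + h1_divPt L n (Equiv.addRight s₀ s))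
      = (c - h1_divPt L n s₀) - (h1_divPt L n (s + s₀) - (h1_divPt L n s + h1_divPt L n s₀)) := by
    simp only [Equiv.coe_addRight]; ring
  rw [e]
  exact sub_mem hc h

theorem h9a_omega_div (n : ℕ) [NeZero n] :
    L.ω₁ / n - h1_divPt L n ((1 : Fin n), (0 : Fin n)) ∈ L.lattice ∧
    L.ω₂ / n - h1_divPt L n ((0 : Fin n), (1 : Fin n)) ∈ L.lattice := by
  have hn : 0 < n := Nat.pos_of_ne_zero (NeZero.ne n)
  have hn0 : (n : ℂ) ≠ 0 := Nat.cast_ne_zero.mpr hn.ne'
  have h1 : ((1 : Fin n) : ℕ) = 1 % n := Fin.val_one' n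
  have h0 : ((0 : Fin n) : ℕ) = 0 := Fin.val_zero n
  obtain ⟨q, hq⟩ : ∃ q : ℕ, 1 = 1 % n + n * q := ⟨1 / n, (Nat.mod_add_div 1 n).symm⟩
  have hdiv : (1 : ℂ) = ((1 % n : ℕ) : ℂ) + (n : ℂ) * (q : ℂ) := by exact_mod_cast hq
  constructor
  · have e : L.ω₁ / n - h1_divPt L n ((1 : Fin n), (0 : Fin n))
        = ((q : ℤ) : ℂ) * L.ω₁ + ((0 : ℤ) : ℂ) * L.ω₂ := by
      simp only [h1_divPt, h1, h0]
      push_cast
      field_simp
      linear_combination (L.ω₁) * hdiv
    rw [e]; exact h9a_int_mul_mem L _ _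
  · have e : L.ω₂ / n - h1_divPt L n ((0 : Fin n), (1 : Fin n))
        = ((0 : ℤ) : ℂ) * L.ω₁ + ((q : ℤ) : ℂ) * L.ω₂ := by
      simp only [h1_divPt, h1, h0]
      push_cast
      field_simp
      linear_combination (L.ω₂) * hdiv
    rw [e]; exact h9a_int_mul_mem L _ _

/-- `f` is `Λ`-periodic. -/
theorem h9a_f_periodic (n : ℕ) [NeZero n] (x₀ : ℂ) {l : ℂ} (hl : l ∈ L.lattice) (z : ℂ) :
    h9a_f L n x₀ (z + l) = h9a_f L n x₀ z := by
  revert z
  refine Submodule.span_induction (p := fun l _ => ∀ z, h9a_f L n x₀ (z + l) = h9a_f L n x₀ z)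
    ?_ ?_ ?_ ?_ hl
  · intro x hx z
    simp only [Set.mem_insert_iff, Set.mem_singleton_iff] at hx
    unfold h9a_f
    rcases hx with rfl | rfl
    · have := h9a_prod_shift L n x₀ (z / n) (L.ω₁ / n) _ (h9a_omega_div L n).1
      rw [← this]
      refine Finset.prod_congr rfl fun s _ => ?_
      congr 2; ring
    · have := h9a_prod_shift L n x₀ (z / n) (L.ω₂ / n) _ (h9a_omega_div L n).2
      rw [← this]
      refine Finset.prod_congr rfl fun s _ => ?_
      congr 2; ring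
  · intro z; simp
  · intro x y _ _ hx hy z
    rw [← add_assoc, hy, hx]
  · intro a x _ hx z
    induction a using Int.induction_on with
    | zero => simp
    | succ i ih =>
      rw [add_smul, one_smul, ← add_assoc, hx, ih]
    | pred i ih =>
      have h1 : ∀ z, h9a_f L n x₀ (z - x) = h9a_f L n x₀ z := fun z => by
        have := hx (z - x); rw [sub_add_cancel] at this; exact this.symm
      rw [sub_smul, one_smul, ← add_sub_assoc, h1, ih]

/-- `f` is even. -/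
theorem h9a_f_neg (n : ℕ) [NeZero n] (x₀ z : ℂ) : h9a_f L n x₀ (-z) = h9a_f L n x₀ z := by
  unfold h9a_f
  rw [← Equiv.prod_comp (Equiv.neg (Fin n × Fin n))
    (fun s => ℘[L] (z / n + h1_divPt L n s) - x₀)]
  refine Finset.prod_congr rfl fun s _ => ?_
  congr 1
  rw [← L.weierstrassP_neg]
  apply h9a_wp_congr
  have e : -(-z / n + h1_divPt L n s) - (z / n + h1_divPt L n (Equiv.neg _ s))
      = -(h1_divPt L n (-s) + h1_divPt L n s) := by
    simp only [Equiv.neg_apply]; ring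
  rw [e]
  exact neg_mem (h9a_divPt_neg L n s)

/-- `h` is even. -/
theorem h9a_h_neg (n : ℕ) [NeZero n] (x₀ z : ℂ) : h9a_h L n x₀ (-z) = h9a_h L n x₀ z := by
  unfold h9a_h
  refine Finset.prod_nbij' (fun s => -s) (fun s => -s) ?_ ?_ ?_ ?_ ?_
  · intro a ha; simpa using ha
  · intro a ha; simpa using ha
  · intro a _; simp
  · intro a _; simp
  · intro s _
    congr 1
    rw [← L.weierstrassP_neg]
    apply h9a_wp_congr
    have e : -(-z / n + h1_divPt L n s) - (z / n + h1_divPt L n (-s))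
        = -(h1_divPt L n (-s) + h1_divPt L n s) := by ring
    rw [e]
    exact neg_mem (h9a_divPt_neg L n s)


/-! ### Local analysis at `0` -/

theorem h9a_wp_eq_except (z : ℂ) : ℘[L] z = ℘[L - (0 : ℂ)] z + 1 / z ^ 2 := by
  have := L.weierstrassPExcept_def (0 : L.lattice) z
  simp only [ZeroMemClass.coe_zero, sub_zero] at this
  rw [this]
  simp

theorem h9a_h_analyticAt (n : ℕ) [NeZero n] (x₀ : ℂ) : AnalyticAt ℂ (h9a_h L n x₀) 0 := by
  show AnalyticAt ℂ (fun z => ∏ s ∈ (Finset.univ.erase (0 : Fin n × Fin n)),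
    (℘[L] (z / n + h1_divPt L n s) - x₀)) 0
  apply Finset.analyticAt_fun_prod
  intro s hs
  have hs0 : s ≠ 0 := Finset.ne_of_mem_erase hs
  have h1 : AnalyticAt ℂ ℘[L] (h1_divPt L n s) :=
    L.analyticOnNhd_weierstrassP _ (h9a_divPt_notMem L n hs0)
  have h2 : AnalyticAt ℂ (fun z : ℂ => z / n + h1_divPt L n s) 0 := by fun_prop
  exact (h1.comp_of_eq h2 (by simp)).sub analyticAt_const

theorem h9a_deriv_h_zero (n : ℕ) [NeZero n] (x₀ : ℂ) : deriv (h9a_h L n x₀) 0 = 0 := by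
  have h1 : (fun z => h9a_h L n x₀ (-z)) = h9a_h L n x₀ := funext (h9a_h_neg L n x₀)
  have h2 := deriv_comp_neg (f := h9a_h L n x₀) (x := (0 : ℂ))
  rw [h1, neg_zero] at h2
  linear_combination (1 / 2 : ℂ) * h2

/-- The second difference quotient of `h` at `0`. -/
def h9a_k (n : ℕ) [NeZero n] (x₀ : ℂ) : ℂ → ℂ := dslope (dslope (h9a_h L n x₀) 0) 0

theorem h9a_k_analyticAt (n : ℕ) [NeZero n] (x₀ : ℂ) : AnalyticAt ℂ (h9a_k L n x₀) 0 := by
  obtain ⟨p, hp⟩ := h9a_h_analyticAt L n x₀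
  exact ⟨_, hp.has_fpower_series_dslope_fslope.has_fpower_series_dslope_fslope⟩

theorem h9a_h_eq (n : ℕ) [NeZero n] (x₀ z : ℂ) :
    h9a_h L n x₀ z = h9a_h L n x₀ 0 + z ^ 2 * h9a_k L n x₀ z := by
  have h1 := sub_smul_dslope (h9a_h L n x₀) 0 z
  have h2 := sub_smul_dslope (dslope (h9a_h L n x₀) 0) 0 z
  rw [dslope_same, h9a_deriv_h_zero] at h2
  simp only [sub_zero, smul_eq_mul] at h1 h2
  unfold h9a_k
  rw [pow_two, mul_assoc, h2, h1]
  ring

/-- The regular part of `f - A' ℘` at `0`. -/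
def h9a_G0 (n : ℕ) [NeZero n] (x₀ : ℂ) (z : ℂ) : ℂ :=
  (n : ℂ) ^ 2 * h9a_k L n x₀ z + (℘[L - (0 : ℂ)] (z / n) - x₀) * h9a_h L n x₀ z
    - ((n : ℂ) ^ 2 * h9a_h L n x₀ 0) * ℘[L - (0 : ℂ)] z

theorem h9a_G0_analyticAt (n : ℕ) [NeZero n] (x₀ : ℂ) : AnalyticAt ℂ (h9a_G0 L n x₀) 0 := by
  have he : AnalyticAt ℂ ℘[L - (0 : ℂ)] 0 := L.analyticAt_weierstrassPExcept 0
  have h2 : AnalyticAt ℂ (fun z : ℂ => z / n) 0 := by fun_prop
  have he2 : AnalyticAt ℂ (fun z : ℂ => ℘[L - (0 : ℂ)] (z / n)) 0 :=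
    he.comp_of_eq h2 (by simp)
  unfold h9a_G0
  exact ((analyticAt_const.mul (h9a_k_analyticAt L n x₀)).add
    ((he2.sub analyticAt_const).mul (h9a_h_analyticAt L n x₀))).sub (analyticAt_const.mul he)

theorem h9a_sub_eq_G0 (n : ℕ) [NeZero n] (x₀ : ℂ) {z : ℂ} (hz : z ≠ 0) :
    h9a_f L n x₀ z - ((n : ℂ) ^ 2 * h9a_h L n x₀ 0) * ℘[L] z = h9a_G0 L n x₀ z := by
  have hn : 0 < n := Nat.pos_of_ne_zero (NeZero.ne n)
  have hn0 : (n : ℂ) ≠ 0 := Nat.cast_ne_zero.mpr hn.ne'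
  rw [h9a_f_eq, h9a_wp_eq_except L z, h9a_wp_eq_except L (z / n)]
  unfold h9a_G0
  have hh := h9a_h_eq L n x₀ z
  generalize h9a_h L n x₀ z = H at hh ⊢
  rw [hh]
  field_simp
  ring

/-! ### The identity -/

/-- **The norm identity.** -/
theorem h9a_norm_identity (n : ℕ) [NeZero n] (x₀ : ℂ) :
    ∃ B : ℂ, ∀ z, z ∉ L.lattice →
      h9a_f L n x₀ z = ((n : ℂ) ^ 2 * h9a_h L n x₀ 0) * ℘[L] z + B := by
  classical
  have hn : 0 < n := Nat.pos_of_ne_zero (NeZero.ne n)
  have hn0 : (n : ℂ) ≠ 0 := Nat.cast_ne_zero.mpr hn.ne'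
  set A' : ℂ := (n : ℂ) ^ 2 * h9a_h L n x₀ 0 with hA'
  let g : ℂ → ℂ := fun z => h9a_f L n x₀ z - A' * ℘[L] z
  let G : ℂ → ℂ := fun z => if z ∈ L.lattice then h9a_G0 L n x₀ 0 else g z
  have hg_per : ∀ z, ∀ l ∈ L.lattice, g (z + l) = g z := by
    intro z l hl
    show h9a_f L n x₀ (z + l) - A' * ℘[L] (z + l) = h9a_f L n x₀ z - A' * ℘[L] z
    rw [h9a_f_periodic L n x₀ hl, L.weierstrassP_add_coe z ⟨l, hl⟩]
  have hG_per : ∀ z, ∀ l ∈ L.lattice, G (z + l) = G z := by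
    intro z l hl
    have hiff : z + l ∈ L.lattice ↔ z ∈ L.lattice :=
      ⟨fun h => by simpa using sub_mem h hl, fun h => add_mem h hl⟩
    show (if z + l ∈ L.lattice then _ else g (z + l)) = if z ∈ L.lattice then _ else g z
    by_cases hz : z ∈ L.lattice
    · rw [if_pos hz, if_pos (hiff.mpr hz)]
    · rw [if_neg hz, if_neg (fun h => hz (hiff.mp h)), hg_per z l hl]
  have hG_diff : Differentiable ℂ G := by
    intro z
    by_cases hz : z ∈ L.lattice
    · -- near a lattice point `G = G0 (· - z)`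
      have hev : G =ᶠ[𝓝 z] fun w => h9a_G0 L n x₀ (w - z) := by
        filter_upwards [L.compl_lattice_sdiff_singleton_mem_nhds z] with w hw
        by_cases hwz : w = z
        · subst hwz
          show (if w ∈ L.lattice then _ else g w) = _
          rw [if_pos hz, sub_self]
        · have hwL : w ∉ L.lattice := fun h => hw ⟨h, hwz⟩
          show (if w ∈ L.lattice then _ else g w) = _
          rw [if_neg hwL]
          have h1 : g w = g (w - z) := by
            have := hg_per (w - z) z hz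
            rw [sub_add_cancel] at this
            exact this
          rw [h1]
          exact h9a_sub_eq_G0 L n x₀ (sub_ne_zero.mpr hwz)
      have hd : DifferentiableAt ℂ (fun w => h9a_G0 L n x₀ (w - z)) z := by
        have h0 : DifferentiableAt ℂ (h9a_G0 L n x₀) ((fun w : ℂ => w - z) z) := by
          simp only [sub_self]; exact (h9a_G0_analyticAt L n x₀).differentiableAt
        exact DifferentiableAt.comp (g := h9a_G0 L n x₀) (f := fun w : ℂ => w - z) z h0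
          (by fun_prop)
      exact hd.congr_of_eventuallyEq hev
    · have hev : G =ᶠ[𝓝 z] g := by
        filter_upwards [L.isClosed_lattice.isOpen_compl.mem_nhds hz] with w hw
        exact if_neg (show w ∉ L.lattice from hw)
      have hd : DifferentiableAt ℂ g z := by
        refine DifferentiableAt.sub ?_ ?_
        · show DifferentiableAt ℂ (fun z => ∏ s : Fin n × Fin n,
            (℘[L] (z / n + h1_divPt L n s) - x₀)) z
          apply DifferentiableAt.fun_finsetProd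
          intro s _
          have hs : z / n + h1_divPt L n s ∉ L.lattice :=
            fun h => hz (h9a_mem_of_div_add_mem L n s h)
          have h1 : DifferentiableAt ℂ ℘[L] (z / n + h1_divPt L n s) :=
            (L.analyticOnNhd_weierstrassP _ hs).differentiableAt
          have h2 : DifferentiableAt ℂ (fun z : ℂ => z / n + h1_divPt L n s) z := by fun_prop
          exact (h1.comp z h2).sub (differentiableAt_const _)
        · exact (differentiableAt_const _).mul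
            (L.analyticOnNhd_weierstrassP _ hz).differentiableAt
      exact hd.congr_of_eventuallyEq hev
  refine ⟨h9a_G0 L n x₀ 0, fun z hz => ?_⟩
  have h1 := h1_elliptic_const L G hG_diff hG_per z
  have h2 : G z = g z := if_neg hz
  have h3 : G 0 = h9a_G0 L n x₀ 0 := if_pos (zero_mem _)
  rw [h2, h3] at h1
  show h9a_f L n x₀ z = A' * ℘[L] z + h9a_G0 L n x₀ 0
  rw [← h1]
  show h9a_f L n x₀ z = A' * ℘[L] z + (h9a_f L n x₀ z - A' * ℘[L] z)
  ring

end Fermat.Agent.Lib.S41
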