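/-
S41 project (level raising), layer [C2] (helper9): the norm identity on the points of a short
Weierstrass curve over `ℂ`.

For `E : Y² = X³ + AX + B` over `ℂ` (`4A³ + 27B² ≠ 0`) and `n ≥ 1` there is an enumeration
`T : Fin n × Fin n → E[n]` (injective, `T 0 = 0`) such that for every `x₀` there is a constant `B'`
with `∏_s (x(Q + T s) - x₀) = (n² ∏_{s ≠ 0} (x(T s) - x₀)) · x(n • Q) + B'` whenever `n • Q ≠ 0`.
-/
import Mathlib
import Fermat.Agent.Lib.S13.Lattice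
import Fermat.Agent.Lib.S13.TorsionDescent
import Fermat.Agent.Lib.S41.H9C2Analytic

set_option autoImplicit false

noncomputable section

open WeierstrassCurve WeierstrassCurve.Affine

namespace Fermat.Agent.Lib.S41

open PeriodPair
open Fermat.Agent.Lib.S13

variable (L : PeriodPair)

theorem h9b_cx_Phi {u : ℂ} (hu : u ∉ L.lattice) : h9d_cx (h1_Phi L u) = ℘[L] u := by
  rw [h1_Phi_of_notMem L hu]; rfl

/-- The norm identity on the curve of a lattice. -/
theorem h9b_identity_lattice (n : ℕ) [NeZero n] (x₀ : ℂ) :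
    ∃ B' : ℂ, ∀ Q : (h1_curve L).toAffine.Point, n • Q ≠ 0 →
      ∏ s : Fin n × Fin n, (h9d_cx (Q + h1_Phi L (h1_divPt L n s)) - x₀)
        = ((n : ℂ) ^ 2 * ∏ s ∈ (Finset.univ.erase (0 : Fin n × Fin n)),
            (h9d_cx (h1_Phi L (h1_divPt L n s)) - x₀)) * h9d_cx (n • Q) + B' := by
  have hn : 0 < n := Nat.pos_of_ne_zero (NeZero.ne n)
  have hn0 : (n : ℂ) ≠ 0 := Nat.cast_ne_zero.mpr hn.ne'
  obtain ⟨B, hB⟩ := h9a_norm_identity L n x₀
  refine ⟨B, fun Q hQ => ?_⟩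
  obtain ⟨w, rfl⟩ := h1_Phi_surjective L Q
  rw [← h1_Phi_nsmul] at hQ ⊢
  have hz : (n : ℂ) * w ∉ L.lattice := fun h => hQ ((h1_Phi_eq_zero_iff L).mpr h)
  have hzw : (n : ℂ) * w / n = w := by field_simp
  have h1 := hB ((n : ℂ) * w) hz
  unfold h9a_f at h1
  rw [hzw] at h1
  have h2 : ∀ s : Fin n × Fin n, h9d_cx (h1_Phi L w + h1_Phi L (h1_divPt L n s))
      = ℘[L] (w + h1_divPt L n s) := by
    intro s
    rw [← h1_Phi_add]
    apply h9b_cx_Phi
    intro hmem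
    apply hz
    have := h9a_mem_of_div_add_mem L n s (z := (n : ℂ) * w) (by rw [hzw]; exact hmem)
    exact this
  have h3 : ∀ s ∈ (Finset.univ.erase (0 : Fin n × Fin n)),
      h9d_cx (h1_Phi L (h1_divPt L n s)) - x₀ = ℘[L] ((0 : ℂ) / n + h1_divPt L n s) - x₀ := by
    intro s hs
    rw [zero_div, zero_add, h9b_cx_Phi L (h9a_divPt_notMem L n (Finset.ne_of_mem_erase hs))]
  rw [Finset.prod_congr rfl (fun s _ => by rw [h2 s]), h1, h9b_cx_Phi L hz,
    Finset.prod_congr rfl h3]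
  rfl

theorem h9b_torsion_lattice (n : ℕ) [NeZero n] (s : Fin n × Fin n) :
    n • h1_Phi L (h1_divPt L n s) = 0 := by
  have hn : 0 < n := Nat.pos_of_ne_zero (NeZero.ne n)
  rw [← h1_Phi_nsmul, h1_divPt_mul L n hn, h1_Phi_eq_zero_iff]
  exact_mod_cast h1_natCast_mul_mem L (s.1 : ℕ) (s.2 : ℕ)

theorem h9b_injective_lattice (n : ℕ) [NeZero n] :
    Function.Injective fun s : Fin n × Fin n => h1_Phi L (h1_divPt L n s) := by
  intro s s' h
  have h1 : h1_Phi L (h1_divPt L n s) = h1_Phi L (h1_divPt L n s') := h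
  rw [h1_Phi_eq_iff] at h1
  -- `t_s - t_{s'} ≡ t_{s - s'}`
  have h2 := h9a_divPt_add L n (s - s') s'
  rw [sub_add_cancel] at h2
  have h3 : h1_divPt L n (s - s') ∈ L.lattice := by
    have e : h1_divPt L n (s - s') = (h1_divPt L n s - h1_divPt L n s')
        - (h1_divPt L n s - (h1_divPt L n (s - s') + h1_divPt L n s')) := by ring
    rw [e]
    exact sub_mem h1 h2
  by_contra hne
  exact h9a_divPt_notMem L n (sub_ne_zero.mpr hne) h3

/-- The statement of the identity for a Weierstrass curve over `ℂ`. -/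
def h9b_Identity (W : WeierstrassCurve ℂ) (n : ℕ) [NeZero n] : Prop :=
  ∃ T : Fin n × Fin n → W.toAffine.Point, T 0 = 0 ∧ (∀ s, n • T s = 0) ∧ Function.Injective T ∧
    ∀ x₀ : ℂ, ∃ B' : ℂ, ∀ Q : W.toAffine.Point, n • Q ≠ 0 →
      ∏ s : Fin n × Fin n, (h9d_cx (Q + T s) - x₀)
        = ((n : ℂ) ^ 2 * ∏ s ∈ (Finset.univ.erase (0 : Fin n × Fin n)),
            (h9d_cx (T s) - x₀)) * h9d_cx (n • Q) + B'

theorem h9b_identity_curve (n : ℕ) [NeZero n] : h9b_Identity (h1_curve L) n :=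
  ⟨fun s => h1_Phi L (h1_divPt L n s), by
      show h1_Phi L (h1_divPt L n 0) = 0
      rw [h9a_divPt_zero]; exact h1_Phi_of_mem L (zero_mem _),
    h9b_torsion_lattice L n, h9b_injective_lattice L n,
    fun x₀ => h9b_identity_lattice L n x₀⟩

/-- **The norm identity for short Weierstrass curves over `ℂ`.** -/
theorem h9b_identity_short (A B : ℂ) (hAB : 4 * A ^ 3 + 27 * B ^ 2 ≠ 0) (n : ℕ) [NeZero n] :
    h9b_Identity (⟨0, 0, 0, A, B⟩ : WeierstrassCurve ℂ) n := by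
  have hne : (-4 * A) ^ 3 - 27 * (-4 * B) ^ 2 ≠ 0 := by
    intro h0
    apply hAB
    linear_combination (-1 / 16 : ℂ) * h0
  obtain ⟨L, hg₂, hg₃⟩ := h3_exists_periodPair_g (-4 * A) (-4 * B) hne
  have h := h9b_identity_curve L n
  have hA : -L.g₂ / 4 = A := by rw [hg₂]; ring
  have hB : -L.g₃ / 4 = B := by rw [hg₃]; ring
  unfold h1_curve at h
  rw [hA, hB] at h
  exact h


/-- The points of the curve of a lattice form a divisible group. -/
theorem h9b_divisible_curve (n : ℕ) (hn : 0 < n) (R : (h1_curve L).toAffine.Point) :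
    ∃ Q : (h1_curve L).toAffine.Point, n • Q = R := by
  have hn0 : (n : ℂ) ≠ 0 := Nat.cast_ne_zero.mpr hn.ne'
  obtain ⟨z, rfl⟩ := h1_Phi_surjective L R
  refine ⟨h1_Phi L (z / n), ?_⟩
  rw [← h1_Phi_nsmul]
  congr 1
  field_simp

/-- The points of a short Weierstrass curve over `ℂ` form a divisible group. -/
theorem h9b_divisible_short (A B : ℂ) (hAB : 4 * A ^ 3 + 27 * B ^ 2 ≠ 0) (n : ℕ) (hn : 0 < n)
    (R : (⟨0, 0, 0, A, B⟩ : WeierstrassCurve ℂ).toAffine.Point) :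
    ∃ Q : (⟨0, 0, 0, A, B⟩ : WeierstrassCurve ℂ).toAffine.Point, n • Q = R := by
  have hne : (-4 * A) ^ 3 - 27 * (-4 * B) ^ 2 ≠ 0 := by
    intro h0
    apply hAB
    linear_combination (-1 / 16 : ℂ) * h0
  obtain ⟨L, hg₂, hg₃⟩ := h3_exists_periodPair_g (-4 * A) (-4 * B) hne
  have h := h9b_divisible_curve L n hn
  have hA : -L.g₂ / 4 = A := by rw [hg₂]; ring
  have hB : -L.g₃ / 4 = B := by rw [hg₃]; ring
  unfold h1_curve at h
  rw [hA, hB] at h
  exact h R

end Fermat.Agent.Lib.S41
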