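/-
S41 project (level raising), layer [C2] (helper9): descent of division points and of the norm
identity from `ℂ` to `ℚ̄`.

* `h9e_exists_div`: `E(ℚ̄)` is divisible (for `E` over `ℚ` with `Δ ≠ 0`).
* `h9e_identityQ`: the norm identity over `ℚ̄` for short integral models.
-/
import Mathlib
import Fermat.Agent.Lib.S13.TorsionRank
import Fermat.Agent.Lib.S41.H9C2Points
import Fermat.Agent.Lib.S41.H9C2Defs

set_option autoImplicit false

noncomputable section

open WeierstrassCurve WeierstrassCurve.Affine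

namespace Fermat.Agent.Lib.S41

open Fermat.Agent.Lib.S13

/-! ### Generalities -/

/-- In a commutative group with finite `n`-torsion the fibres of multiplication by `n` are finite. -/
theorem h9e_fiber_finite {G : Type*} [AddCommGroup G] (n : ℕ)
    (hfin : Finite {P : G // n • P = 0}) (R : G) : {P : G | n • P = R}.Finite := by
  by_cases hne : ∃ P₀ : G, n • P₀ = R
  · obtain ⟨P₀, hP₀⟩ := hne
    have hfin' : {P : G | n • P = 0}.Finite := Set.finite_coe_iff.mp hfin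
    refine (hfin'.image (fun P => P + P₀)).subset ?_
    intro P hP
    refine ⟨P - P₀, ?_, by simp⟩
    show n • (P - P₀) = 0
    rw [nsmul_sub, hP, hP₀, sub_self]
  · have : {P : G | n • P = R} = ∅ := by
      ext P
      simp only [Set.mem_setOf_eq, Set.mem_empty_iff_false, iff_false]
      exact fun h => hne ⟨P, h⟩
    rw [this]; exact Set.finite_empty

theorem h9e_complexCount : h9d_ComplexCount :=
  h9d_complexCount_of_short (h9d_shortCount_of_lattice h3_exists_periodPair_g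
    (fun L n hn => h1_card_torsion L n hn))

theorem h9e_torsion_finite (W : WeierstrassCurve ℚ) (hΔ : W.Δ ≠ 0) (n : ℕ) (hn : 0 < n) :
    Finite {Q : (W⁄ℂ).Point // n • Q = 0} := by
  have hΔC : (W.baseChange ℂ).Δ ≠ 0 := by
    rw [WeierstrassCurve.baseChange, WeierstrassCurve.map_Δ]
    exact (map_ne_zero_iff _ (algebraMap ℚ ℂ).injective).mpr hΔ
  have hcard : Nat.card {Q : (W⁄ℂ).Point // n • Q = 0} = n ^ 2 := h9e_complexCount _ hΔC n hn
  apply Nat.finite_of_card_ne_zero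
  rw [hcard]; exact pow_ne_zero 2 hn.ne'

/-- `x(ι P) = ι (x P)`. -/
theorem h9e_cx_map {W : WeierstrassCurve ℚ} (j : Qbar →ₐ[ℚ] ℂ) (P : (W⁄Qbar).Point) :
    h9d_cx (Point.map (W' := W.toAffine) j P) = j (h9d_cx P) := by
  rcases P with _ | ⟨x, y, h⟩
  · show (0 : ℂ) = j 0
    rw [map_zero]
  · rfl

/-- The conjugates of a point of `E(ℚ̄)` form a finite set. -/
theorem h9e_conj_finite (W : WeierstrassCurve ℚ) (R₀ : (W⁄Qbar).Point) :
    (Set.range fun j : Qbar →ₐ[ℚ] ℂ => Point.map (W' := W.toAffine) j R₀).Finite := by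
  classical
  haveI := lead_s13_isAlgebraic_Qbar
  rcases R₀ with _ | ⟨x₀, y₀, h₀⟩
  · refine (Set.finite_singleton (0 : (W⁄ℂ).Point)).subset ?_
    rintro _ ⟨j, rfl⟩
    rfl
  · let X : Set ℂ := (minpoly ℚ x₀).rootSet ℂ
    let Y : Set ℂ := (minpoly ℚ y₀).rootSet ℂ
    have hX : X.Finite := Polynomial.rootSet_finite _ _
    have hY : Y.Finite := Polynomial.rootSet_finite _ _
    let g : ℂ × ℂ → (W⁄ℂ).Point := fun xy =>
      if h : (W⁄ℂ).Nonsingular xy.1 xy.2 then Point.some xy.1 xy.2 h else 0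
    refine ((hX.prod hY).image g).subset ?_
    rintro _ ⟨j, rfl⟩
    have hmem : ∀ z : Qbar, j z ∈ (minpoly ℚ z).rootSet ℂ := by
      intro z
      have hz : IsIntegral ℚ z := (Algebra.IsAlgebraic.isAlgebraic z).isIntegral
      rw [Polynomial.mem_rootSet]
      refine ⟨minpoly.ne_zero hz, ?_⟩
      rw [Polynomial.aeval_algHom_apply, minpoly.aeval, map_zero]
    have hns : (W⁄ℂ).Nonsingular (j x₀) (j y₀) :=
      (baseChange_nonsingular (W := W.toAffine) (f := j) j.injective x₀ y₀).mpr h₀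
    refine ⟨(j x₀, j y₀), ⟨hmem x₀, hmem y₀⟩, ?_⟩
    show (if h : (W⁄ℂ).Nonsingular (j x₀) (j y₀) then Point.some (j x₀) (j y₀) h else 0) = _
    rw [dif_pos hns]
    rfl

/-- **Division points of algebraic points are algebraic.** -/
theorem h9e_div_descent (W : WeierstrassCurve ℚ) (hΔ : W.Δ ≠ 0) (n : ℕ) (hn : 0 < n)
    (R₀ : (W⁄Qbar).Point) (Q : (W⁄ℂ).Point)
    (hQ : n • Q = Point.map (W' := W.toAffine) h9d_iota R₀) :
    ∃ Q' : (W⁄Qbar).Point, Point.map (W' := W.toAffine) h9d_iota Q' = Q ∧ n • Q' = R₀ := by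
  have hfin := h9e_torsion_finite W hΔ n hn
  have key : ∃ Q' : (W⁄Qbar).Point, Point.map (W' := W.toAffine) h9d_iota Q' = Q := by
    rcases Q with _ | ⟨x, y, h⟩
    · exact ⟨0, rfl⟩
    · -- the finite set containing all conjugates of `Q`
      let S : Set (W⁄ℂ).Point := ⋃ R' ∈ (Set.range fun j : Qbar →ₐ[ℚ] ℂ =>
        Point.map (W' := W.toAffine) j R₀), {P | n • P = R'}
      have hS : S.Finite :=
        (h9e_conj_finite W R₀).biUnion fun R' _ => h9e_fiber_finite n hfin R'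
      have hσ : ∀ σ : ℂ ≃+* ℂ, ∃ h' : (W⁄ℂ).Nonsingular (σ x) (σ y),
          (Point.some (σ x) (σ y) h' : (W⁄ℂ).Point) ∈ S := by
        intro σ
        let σ' : ℂ →ₐ[ℚ] ℂ := (σ : ℂ →+* ℂ).toRatAlgHom
        have h1 : Point.map (W' := W.toAffine) σ' (Point.some x y h)
            = Point.some (σ' x) (σ' y) _ := Point.map_some σ' h
        refine ⟨(baseChange_nonsingular (W := W.toAffine) (f := σ') σ'.injective x y).mpr h, ?_⟩
        have h2 : n • Point.map (W' := W.toAffine) σ' (Point.some x y h)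
            = Point.map (W' := W.toAffine) (σ'.comp h9d_iota) R₀ := by
          rw [← map_nsmul, hQ, Point.map_map]
        rw [h1] at h2
        exact Set.mem_biUnion ⟨σ'.comp h9d_iota, rfl⟩ h2
      have hx : IsAlgebraic ℚ x := by
        refine h9d_isAlgebraic_of_finite_orbit x _ (hS.image h9d_cx) fun σ => ?_
        obtain ⟨h', hmem⟩ := hσ σ
        exact ⟨_, hmem, rfl⟩
      have hy : IsAlgebraic ℚ y := by
        refine h9d_isAlgebraic_of_finite_orbit y _ (hS.image h9d_cy) fun σ => ?_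
        obtain ⟨h', hmem⟩ := hσ σ
        exact ⟨_, hmem, rfl⟩
      obtain ⟨x', rfl⟩ := h9d_mem_range_iota hx
      obtain ⟨y', rfl⟩ := h9d_mem_range_iota hy
      have h' : (W⁄Qbar).Nonsingular x' y' :=
        (baseChange_nonsingular (W := W.toAffine) (f := h9d_iota) h9d_iota_injective x' y').mp h
      exact ⟨Point.some x' y' h', Point.map_some h9d_iota h'⟩
  obtain ⟨Q', hQ'⟩ := key
  refine ⟨Q', hQ', ?_⟩
  apply Point.map_injective (W' := W.toAffine) h9d_iota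
  rw [map_nsmul, hQ', hQ]

/-! ### Short integral models -/

theorem h9e_Ws_Δ (a b : ℤ) (hab : 4 * a ^ 3 + 27 * b ^ 2 ≠ 0) : (h9c_Ws a b).Δ ≠ 0 := by
  have h : (h9c_Ws a b).Δ = -16 * (((4 * a ^ 3 + 27 * b ^ 2 : ℤ) : ℚ)) := by
    simp only [h9c_Ws, WeierstrassCurve.Δ, WeierstrassCurve.b₂, WeierstrassCurve.b₄,
      WeierstrassCurve.b₆, WeierstrassCurve.b₈]
    push_cast
    ring
  rw [h]
  have : ((4 * a ^ 3 + 27 * b ^ 2 : ℤ) : ℚ) ≠ 0 := by exact_mod_cast hab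
  exact mul_ne_zero (by norm_num) this

theorem h9e_Ws_baseChange (a b : ℤ) :
    (h9c_Ws a b).baseChange ℂ = (⟨0, 0, 0, (a : ℂ), (b : ℂ)⟩ : WeierstrassCurve ℂ) := by
  ext <;> simp [h9c_Ws, WeierstrassCurve.baseChange]

theorem h9e_hAB (a b : ℤ) (hab : 4 * a ^ 3 + 27 * b ^ 2 ≠ 0) :
    4 * (a : ℂ) ^ 3 + 27 * (b : ℂ) ^ 2 ≠ 0 := by
  have : ((4 * a ^ 3 + 27 * b ^ 2 : ℤ) : ℂ) ≠ 0 := by exact_mod_cast hab
  push_cast at this
  exact this

/-- **`E(ℚ̄)` is divisible.** -/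
theorem h9e_exists_div (a b : ℤ) (hab : 4 * a ^ 3 + 27 * b ^ 2 ≠ 0) (n : ℕ) (hn : 0 < n)
    (R₀ : ((h9c_Ws a b)⁄Qbar).Point) : ∃ Q' : ((h9c_Ws a b)⁄Qbar).Point, n • Q' = R₀ := by
  have hdiv : ∀ R : ((h9c_Ws a b)⁄ℂ).Point, ∃ Q : ((h9c_Ws a b)⁄ℂ).Point, n • Q = R := by
    show ∀ R : ((h9c_Ws a b).baseChange ℂ).toAffine.Point,
      ∃ Q : ((h9c_Ws a b).baseChange ℂ).toAffine.Point, n • Q = R
    rw [h9e_Ws_baseChange]
    exact h9b_divisible_short _ _ (h9e_hAB a b hab) n hn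
  obtain ⟨Q, hQ⟩ := hdiv (Point.map (W' := (h9c_Ws a b).toAffine) h9d_iota R₀)
  obtain ⟨Q', -, hQ'⟩ := h9e_div_descent (h9c_Ws a b) (h9e_Ws_Δ a b hab) n hn R₀ Q hQ
  exact ⟨Q', hQ'⟩

/-- The norm identity over `ℚ̄`. -/
def h9e_IdentityQ (a b : ℤ) (n : ℕ) [NeZero n] : Prop :=
  ∃ T : Fin n × Fin n → ((h9c_Ws a b)⁄Qbar).Point, T 0 = 0 ∧ (∀ s, n • T s = 0) ∧
    Function.Injective T ∧ ∀ x₀ : Qbar, ∃ B' : Qbar, ∀ Q : ((h9c_Ws a b)⁄Qbar).Point, n • Q ≠ 0 →
      ∏ s : Fin n × Fin n, (h9d_cx (Q + T s) - x₀)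
        = ((n : Qbar) ^ 2 * ∏ s ∈ (Finset.univ.erase (0 : Fin n × Fin n)),
            (h9d_cx (T s) - x₀)) * h9d_cx (n • Q) + B'

theorem h9e_identityQ (a b : ℤ) (hab : 4 * a ^ 3 + 27 * b ^ 2 ≠ 0) (n : ℕ) [NeZero n] :
    h9e_IdentityQ a b n := by
  classical
  have hn : 0 < n := Nat.pos_of_ne_zero (NeZero.ne n)
  have hΔ := h9e_Ws_Δ a b hab
  have hC : h9b_Identity ((h9c_Ws a b).baseChange ℂ) n := by
    rw [h9e_Ws_baseChange]
    exact h9b_identity_short _ _ (h9e_hAB a b hab) n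
  obtain ⟨Tc, hTcz, hTc0, hTcinj, hTc⟩ := hC
  set f : ((h9c_Ws a b)⁄Qbar).Point →+ ((h9c_Ws a b)⁄ℂ).Point :=
    Point.map (W' := (h9c_Ws a b).toAffine) h9d_iota with hf
  have hfinj : Function.Injective f := Point.map_injective h9d_iota
  -- descend the torsion points
  have hT : ∀ s, ∃ P : ((h9c_Ws a b)⁄Qbar).Point, f P = Tc s ∧ n • P = 0 := by
    intro s
    have h0 : n • Tc s = Point.map (W' := (h9c_Ws a b).toAffine) h9d_iota 0 := by
      rw [hTc0 s]; rfl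
    exact h9e_div_descent (h9c_Ws a b) hΔ n hn 0 (Tc s) h0
  choose T hfT hT0 using hT
  refine ⟨T, ?_, hT0, ?_, ?_⟩
  · apply hfinj
    rw [hfT, hTcz, map_zero]
  · intro s s' h
    apply hTcinj
    show Tc s = Tc s'
    rw [← hfT s, ← hfT s', h]
  · intro x₀
    obtain ⟨Bc, hBc⟩ := hTc (h9d_iota x₀)
    -- the two sides over `ℚ̄`
    obtain ⟨lhs, hlhs⟩ : ∃ lhs : ((h9c_Ws a b)⁄Qbar).Point → Qbar, lhs = fun Q =>
      ∏ s : Fin n × Fin n, (h9d_cx (Q + T s) - x₀) := ⟨_, rfl⟩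
    obtain ⟨A', hA'⟩ : ∃ A' : Qbar, A' = (n : Qbar) ^ 2 *
      ∏ s ∈ (Finset.univ.erase (0 : Fin n × Fin n)), (h9d_cx (T s) - x₀) := ⟨_, rfl⟩
    have hcx : ∀ P : ((h9c_Ws a b)⁄Qbar).Point, h9d_cx (f P) = h9d_iota (h9d_cx P) :=
      fun P => h9e_cx_map h9d_iota P
    have e1 : ∀ (Q : ((h9c_Ws a b)⁄Qbar).Point) (s : Fin n × Fin n),
        h9d_cx (f Q + Tc s) = h9d_iota (h9d_cx (Q + T s)) := fun Q s => by
      rw [← hfT s, ← map_add, hcx]
    have e2 : ∀ s : Fin n × Fin n, h9d_cx (Tc s) = h9d_iota (h9d_cx (T s)) := fun s => by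
      rw [← hfT s, hcx]
    have hkey : ∀ Q : ((h9c_Ws a b)⁄Qbar).Point, n • Q ≠ 0 →
        h9d_iota (lhs Q) = h9d_iota A' * h9d_iota (h9d_cx (n • Q)) + Bc := by
      intro Q hQ
      have hfQ : n • f Q ≠ 0 := by
        rw [← map_nsmul]
        intro h
        exact hQ (hfinj (by rw [h, map_zero]))
      have := hBc (f Q) hfQ
      rw [← map_nsmul, hcx] at this
      simp only [e1, e2] at this
      rw [hlhs, hA']
      simp only [map_prod, map_sub, map_mul, map_pow, map_natCast]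
      exact this
    by_cases hex : ∃ Q₀ : ((h9c_Ws a b)⁄Qbar).Point, n • Q₀ ≠ 0
    · obtain ⟨Q₀, hQ₀⟩ := hex
      refine ⟨lhs Q₀ - A' * h9d_cx (n • Q₀), fun Q hQ => ?_⟩
      apply h9d_iota_injective
      have h1 := hkey Q hQ
      have h2 := hkey Q₀ hQ₀
      rw [← hA']
      show h9d_iota ((fun Q => ∏ s : Fin n × Fin n, (h9d_cx (Q + T s) - x₀)) Q) = _
      rw [← hlhs, map_add, map_mul, map_sub, map_mul, h1, h2]
      ring
    · refine ⟨0, fun Q hQ => ?_⟩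
      exact absurd ⟨Q, hQ⟩ hex

end Fermat.Agent.Lib.S41
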