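/-
S41 project (level raising), Lemma R (oddness), parts (R2a)+(R2c) (helper1):
complex conjugation on the `p`-torsion of a short Weierstrass curve over `ℚ` has a nonzero fixed
vector and a nonzero negated vector, ASSUMING the contract `h1r_ConjStatement` (R1, helper9): the
lattice of a period pair with real `g₂, g₃` is stable under complex conjugation and
`℘(z̄) = conj ℘(z)`, `℘'(z̄) = conj ℘'(z)`.
-/
import Mathlib
import Fermat.Prelude.Def_GaloisRep_ComplexConjugation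
import Fermat.Prelude.Def_FLTPrelim_GaloisRep
import Fermat.Agent.Lib.S13.WPGroup
import Fermat.Agent.Lib.S13.Lattice
import Fermat.Agent.Lib.S13.TorsionDescent
import Fermat.Agent.Lib.S41.H9C2Descent
import Fermat.Agent.Lib.S41.H1RPeriod

set_option autoImplicit false
set_option linter.unusedSectionVars false
set_option linter.unusedVariables false

noncomputable section

namespace Fermat.Agent.Lib.S41

open PeriodPair WeierstrassCurve WeierstrassCurve.Affine WeierstrassCurve.Affine.Point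
open Fermat.Agent.Lib.S13

/-- **Contract (R1)** (helper9): conjugation-invariance of a lattice with real invariants. -/
def h1r_ConjStatement : Prop :=
  ∀ (L : PeriodPair), (starRingEnd ℂ) L.g₂ = L.g₂ → (starRingEnd ℂ) L.g₃ = L.g₃ →
    (∀ z : ℂ, (starRingEnd ℂ) z ∈ L.lattice ↔ z ∈ L.lattice) ∧
    (∀ z : ℂ, ℘[L] ((starRingEnd ℂ) z) = (starRingEnd ℂ) (℘[L] z)) ∧
    (∀ z : ℂ, ℘'[L] ((starRingEnd ℂ) z) = (starRingEnd ℂ) (℘'[L] z))

/-- The uniformisation of any curve equal to the curve of the lattice. -/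
theorem h1r_exists_unif (L : PeriodPair) (W : WeierstrassCurve ℂ) (hW : h1_curve L = W) :
    ∃ Ψ : ℂ →+ W.toAffine.Point, (∀ z, Ψ z = 0 ↔ z ∈ L.lattice) ∧
      ∀ z, z ∉ L.lattice → ∃ h : W.toAffine.Nonsingular (℘[L] z) (℘'[L] z / 2),
        Ψ z = Point.some _ _ h := by
  subst hW
  exact ⟨h1_PhiHom L, fun z => h1_Phi_eq_zero_iff L,
    fun z hz => ⟨h1_nonsingular L hz, h1_Phi_of_notMem L hz⟩⟩

/-- Complex conjugation on the complex points of a curve over `ℚ`. -/
def h1r_cP (W : WeierstrassCurve ℚ) : (W⁄ℂ).Point →+ (W⁄ℂ).Point :=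
  Point.map (W' := W.toAffine) complexConjAlgEquiv.toAlgHom

/-- Base change to `ℂ` intertwines `complexConjugation` with complex conjugation. -/
theorem h1r_map_conj (W : WeierstrassCurve ℚ) (P : (W⁄(AlgebraicClosure ℚ)).Point) :
    Point.map (W' := W.toAffine) complexEmbedding (complexConjugation • P) =
      h1r_cP W (Point.map (W' := W.toAffine) complexEmbedding P) := by
  rcases P with _ | ⟨x, y, h⟩
  · rfl
  · show Point.map (W' := W.toAffine) complexEmbedding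
        (Point.map (W' := W.toAffine) complexConjugation.toAlgHom (Point.some x y h)) = _
    rw [h1r_cP, Point.map_some, Point.map_some, Point.map_some, Point.map_some]
    simp only [Point.some.injEq]
    exact ⟨complexEmbedding_complexConjugation x, complexEmbedding_complexConjugation y⟩

/-- **(R2)** for short Weierstrass curves over `ℚ`. -/
theorem h1r_short_conj_eigen (hR1 : h1r_ConjStatement) (a b : ℚ)
    (hab : 4 * a ^ 3 + 27 * b ^ 2 ≠ 0) (p : ℕ) (hp : 2 ≤ p) :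
    ∃ Qp Qm : ((⟨0, 0, 0, a, b⟩ : WeierstrassCurve ℚ)⁄(AlgebraicClosure ℚ)).Point,
      Qp ≠ 0 ∧ Qm ≠ 0 ∧ p • Qp = 0 ∧ p • Qm = 0 ∧
      complexConjugation • Qp = Qp ∧ complexConjugation • Qm = -Qm := by
  classical
  set Ws : WeierstrassCurve ℚ := ⟨0, 0, 0, a, b⟩ with hWs
  have hΔ : Ws.Δ ≠ 0 := by
    have : Ws.Δ = -16 * (4 * a ^ 3 + 27 * b ^ 2) := by
      simp only [hWs, WeierstrassCurve.Δ, WeierstrassCurve.b₂, WeierstrassCurve.b₄,
        WeierstrassCurve.b₆, WeierstrassCurve.b₈]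
      ring
    rw [this]
    exact mul_ne_zero (by norm_num) hab
  -- the lattice
  have hne : (-4 * (a : ℂ)) ^ 3 - 27 * (-4 * (b : ℂ)) ^ 2 ≠ 0 := by
    intro h0
    apply hab
    have h1 : ((4 * a ^ 3 + 27 * b ^ 2 : ℚ) : ℂ) = 0 := by
      push_cast
      linear_combination (-1 / 16 : ℂ) * h0
    exact_mod_cast h1
  obtain ⟨L, hg₂, hg₃⟩ := h3_exists_periodPair_g (-4 * (a : ℂ)) (-4 * (b : ℂ)) hne
  have h₂ : (starRingEnd ℂ) L.g₂ = L.g₂ := by
    rw [hg₂, map_mul, map_neg, Complex.conj_ofNat, map_ratCast]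
  have h₃ : (starRingEnd ℂ) L.g₃ = L.g₃ := by
    rw [hg₃, map_mul, map_neg, Complex.conj_ofNat, map_ratCast]
  obtain ⟨hlat, hwp, hdwp⟩ := hR1 L h₂ h₃
  have hW : h1_curve L = Ws.baseChange ℂ := by
    ext
    · simp [h1_curve, hWs, WeierstrassCurve.baseChange]
    · simp [h1_curve, hWs, WeierstrassCurve.baseChange]
    · simp [h1_curve, hWs, WeierstrassCurve.baseChange]
    · simp only [h1_curve, hWs, WeierstrassCurve.baseChange, WeierstrassCurve.map, hg₂]
      simp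
    · simp only [h1_curve, hWs, WeierstrassCurve.baseChange, WeierstrassCurve.map, hg₃]
      simp
  obtain ⟨Ψ, hΨ0, hΨs⟩ := h1r_exists_unif L (Ws.baseChange ℂ) hW
  -- conjugation-equivariance of the uniformisation
  have hΨc : ∀ z : ℂ, Ψ ((starRingEnd ℂ) z) = h1r_cP Ws (Ψ z) := by
    intro z
    by_cases hz : z ∈ L.lattice
    · rw [(hΨ0 z).mpr hz, (hΨ0 _).mpr ((hlat z).mpr hz), _root_.map_zero]
    · have hz' : (starRingEnd ℂ) z ∉ L.lattice := fun h => hz ((hlat z).mp h)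
      obtain ⟨h1, e1⟩ := hΨs z hz
      obtain ⟨h2, e2⟩ := hΨs _ hz'
      rw [e1, e2, h1r_cP, Point.map_some]
      simp only [Point.some.injEq]
      refine ⟨hwp z, ?_⟩
      rw [hdwp z]
      show (starRingEnd ℂ) (℘'[L] z) / 2 = (starRingEnd ℂ) (℘'[L] z / 2)
      rw [map_div₀, Complex.conj_ofNat]
  obtain ⟨⟨ωr, hωr, hcr, hpr⟩, ⟨ωi, hωi, hci, hpi⟩⟩ := h1r_exists_periods L hlat p hp
  have hp0 : (p : ℂ) ≠ 0 := by
    have : 0 < p := by omega
    exact_mod_cast this.ne'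
  have hpp : 0 < p := by omega
  -- the two complex points
  have hmulr : p • (ωr / (p : ℂ)) = ωr := by
    rw [nsmul_eq_mul]; field_simp
  have hmuli : p • (ωi / (p : ℂ)) = ωi := by
    rw [nsmul_eq_mul]; field_simp
  have hPr0 : p • Ψ (ωr / (p : ℂ)) = 0 := by
    rw [← map_nsmul, hmulr]; exact (hΨ0 _).mpr hωr
  have hPi0 : p • Ψ (ωi / (p : ℂ)) = 0 := by
    rw [← map_nsmul, hmuli]; exact (hΨ0 _).mpr hωi
  have hPr1 : Ψ (ωr / (p : ℂ)) ≠ 0 := fun h => hpr ((hΨ0 _).mp h)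
  have hPi1 : Ψ (ωi / (p : ℂ)) ≠ 0 := fun h => hpi ((hΨ0 _).mp h)
  have hPrc : h1r_cP Ws (Ψ (ωr / (p : ℂ))) = Ψ (ωr / (p : ℂ)) := by
    rw [← hΨc, map_div₀, hcr, Complex.conj_natCast]
  have hPic : h1r_cP Ws (Ψ (ωi / (p : ℂ))) = -Ψ (ωi / (p : ℂ)) := by
    rw [← hΨc, map_div₀, hci, Complex.conj_natCast, neg_div, map_neg]
  -- descent to `ℚ̄`
  obtain ⟨Qr, hQr, hQr0⟩ := h9e_div_descent Ws hΔ p hpp 0 (Ψ (ωr / (p : ℂ)))
    (by rw [hPr0, _root_.map_zero])
  obtain ⟨Qi, hQi, hQi0⟩ := h9e_div_descent Ws hΔ p hpp 0 (Ψ (ωi / (p : ℂ)))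
    (by rw [hPi0, _root_.map_zero])
  have hinj : Function.Injective (Point.map (W' := Ws.toAffine) complexEmbedding) :=
    Point.map_injective complexEmbedding
  have hQr' : Point.map (W' := Ws.toAffine) complexEmbedding Qr = Ψ (ωr / (p : ℂ)) := hQr
  have hQi' : Point.map (W' := Ws.toAffine) complexEmbedding Qi = Ψ (ωi / (p : ℂ)) := hQi
  refine ⟨Qr, Qi, ?_, ?_, hQr0, hQi0, ?_, ?_⟩
  · intro h
    apply hPr1
    rw [← hQr', h, _root_.map_zero]
  · intro h
    apply hPi1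
    rw [← hQi', h, _root_.map_zero]
  · apply hinj
    rw [h1r_map_conj, hQr', hPrc]
  · apply hinj
    rw [h1r_map_conj, hQi', hPic, map_neg, hQi']

end Fermat.Agent.Lib.S41
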