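/-
S41 project (level raising), Lemma R (oddness), parts (R2c)+(R3) (helper1):
* `h1r_conj_eigen`: complex conjugation has a nonzero fixed vector and a nonzero negated vector on
  `E[p]`, `E` an elliptic curve over `ℚ` (assuming the contract (R1) `h1r_ConjStatement`);
* `h1r_reducible_of_conj_eigen`, `h1r_reducible_of_abelian`: **Lemma R** — if `G_ℚ` acts on `E[p]`
  (`p` odd) through an abelian group, then `E[p]` is reducible.
-/
import Mathlib
import Fermat.Agent.Lib.S05.Transfer
import Fermat.Agent.Lib.S41.H7NonEisGrp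
import Fermat.Agent.Lib.S41.H1RConj

set_option autoImplicit false
set_option linter.unusedSectionVars false
set_option linter.unusedVariables false

open WeierstrassCurve WeierstrassCurve.Affine WeierstrassCurve.Affine.Point

namespace Fermat.Agent.Lib.S41

open Fermat.Agent.Lib.S13 Fermat.Agent.Lib.S05 Fermat.Agent.Lib.S51

/-- A variable change defined over the base field induces a Galois-equivariant isomorphism on
points. -/
theorem h1r_exists_equiv_of_variableChange {F₀ L : Type*} [Field F₀] [Field L] [Algebra F₀ L]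
    [DecidableEq L] (W : WeierstrassCurve F₀) (C : VariableChange F₀) :
    ∃ Φ : ((C • W)⁄L).Point ≃+ (W⁄L).Point,
      ∀ (σ : L ≃ₐ[F₀] L) (Q : ((C • W)⁄L).Point), Φ (σ • Q) = σ • Φ Q := by
  have heq : (C.map (algebraMap F₀ L)) • (W.baseChange L) = (C • W).baseChange L :=
    map_variableChange ..
  let Φ : ((C • W)⁄L).Point ≃+ (W⁄L).Point :=
    (h9_pointCongr heq.symm).trans
      (vcPointEquiv (W.baseChange L) (C.map (algebraMap F₀ L)))
  refine ⟨Φ, ?_⟩
  intro σ
  have hCσ : (C.map (algebraMap F₀ L)).map (σ : L →+* L) = C.map (algebraMap F₀ L) := by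
    rw [VariableChange.map_map]
    congr 1
    ext z
    exact σ.commutes z
  have hΦ_some : ∀ {x y : L} (hxy : ((C • W)⁄L).Nonsingular x y),
      ∃ h', Φ (Point.some x y hxy) =
        Point.some (vcX (C.map (algebraMap F₀ L)) x) (vcY (C.map (algebraMap F₀ L)) x y) h' := by
    intro x y hxy
    have hxy' : ((C.map (algebraMap F₀ L)) • (W.baseChange L)).toAffine.Nonsingular x y :=
      heq.symm ▸ hxy
    refine ⟨(nonsingular_vc _ _ _ _).mp hxy', ?_⟩
    show vcPointEquiv _ _ (h9_pointCongr heq.symm (Point.some x y hxy)) = _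
    rw [h9_pointCongr_some, vcPointEquiv_some]
  have hΦσ : ∀ Q : ((C • W)⁄L).Point,
      Φ (Point.map σ.toAlgHom Q) = Point.map σ.toAlgHom (Φ Q) := by
    rintro (_ | ⟨x, y, hxy⟩)
    · rw [show (Point.zero : ((C • W)⁄L).Point) = 0 from rfl, _root_.map_zero, _root_.map_zero,
        _root_.map_zero]
    · obtain ⟨h1, e1⟩ := hΦ_some hxy
      rw [e1, Point.map_some, Point.map_some]
      obtain ⟨h2, e2⟩ := hΦ_some ((WeierstrassCurve.Affine.baseChange_nonsingular (C • W)
        σ.toAlgHom.injective x y).mpr hxy)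
      rw [e2]
      have ex : vcX (C.map (algebraMap F₀ L)) (σ.toAlgHom x) =
          σ.toAlgHom (vcX (C.map (algebraMap F₀ L)) x) := by
        have := vcX_map (σ : L →+* L) (C.map (algebraMap F₀ L)) x
        rw [hCσ] at this
        exact this
      have ey : vcY (C.map (algebraMap F₀ L)) (σ.toAlgHom x) (σ.toAlgHom y) =
          σ.toAlgHom (vcY (C.map (algebraMap F₀ L)) x y) := by
        have := vcY_map (σ : L →+* L) (C.map (algebraMap F₀ L)) x y
        rw [hCσ] at this
        exact this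
      simp only [Point.some.injEq]
      exact ⟨ex, ey⟩
  intro Q
  exact hΦσ Q

/-- **(R2)** Complex conjugation on `E[p]` has a nonzero fixed vector and a nonzero negated
vector. -/
theorem h1r_conj_eigen (hR1 : h1r_ConjStatement) (E : WeierstrassCurve ℚ) [E.IsElliptic] {p : ℕ}
    (hp : p.Prime) :
    ∃ xp xm : Submodule.torsionBy ℤ (E⁄(AlgebraicClosure ℚ)).Point p, xp ≠ 0 ∧ xm ≠ 0 ∧
      complexConjugation • xp = xp ∧ complexConjugation • xm = -xm := by
  classical
  have : Invertible (2 : ℚ) := invertibleOfNonzero two_ne_zero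
  have : Invertible (3 : ℚ) := invertibleOfNonzero three_ne_zero
  obtain ⟨C, hC⟩ := E.exists_variableChange_isShortNF
  have hform : C • E = ⟨0, 0, 0, (C • E).a₄, (C • E).a₆⟩ := by
    ext
    · exact hC.a₁
    · exact hC.a₂
    · exact hC.a₃
    · rfl
    · rfl
  have hΔ' : (C • E).Δ ≠ 0 := by
    rw [variableChange_Δ]
    exact mul_ne_zero (by simp) E.isUnit_Δ.ne_zero
  have hAB : 4 * (C • E).a₄ ^ 3 + 27 * (C • E).a₆ ^ 2 ≠ 0 := by
    intro h0
    apply hΔ'
    rw [Δ_of_isShortNF, h0, mul_zero]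
  have h := h1r_short_conj_eigen hR1 (C • E).a₄ (C • E).a₆ hAB p hp.two_le
  rw [← hform] at h
  obtain ⟨Qp, Qm, hQp, hQm, hQp0, hQm0, hcp, hcm⟩ := h
  obtain ⟨Φ, hΦ⟩ := h1r_exists_equiv_of_variableChange (L := AlgebraicClosure ℚ) E C
  have hmem : ∀ Q : ((C • E)⁄(AlgebraicClosure ℚ)).Point, p • Q = 0 →
      Φ Q ∈ Submodule.torsionBy ℤ (E⁄(AlgebraicClosure ℚ)).Point p := by
    intro Q hQ
    rw [Submodule.mem_torsionBy_iff, Nat.cast_smul_eq_nsmul, ← map_nsmul, hQ, _root_.map_zero]
  refine ⟨⟨Φ Qp, hmem Qp hQp0⟩, ⟨Φ Qm, hmem Qm hQm0⟩, ?_, ?_, ?_, ?_⟩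
  · intro h0
    apply hQp
    apply Φ.injective
    rw [_root_.map_zero]
    exact congrArg Subtype.val h0
  · intro h0
    apply hQm
    apply Φ.injective
    rw [_root_.map_zero]
    exact congrArg Subtype.val h0
  · apply Subtype.ext
    show complexConjugation • Φ Qp = Φ Qp
    rw [← hΦ, hcp]
  · apply Subtype.ext
    show complexConjugation • Φ Qm = -Φ Qm
    rw [← hΦ, hcm, map_neg]

/-- **(R3)**, abstract form: a group acting on a `ZMod p`-vector space (`p` odd) which commutes
with an element `c` having a nonzero fixed vector and a nonzero negated vector leaves the proper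
nonzero subspace `ker (c - 1)` stable. -/
theorem h1r_stable_of_involution {p : ℕ} [Fact p.Prime] (hp2 : p ≠ 2) {V : Type*}
    [AddCommGroup V] [Module (ZMod p) V] {G : Type*} [Group G] [DistribMulAction G V] (c : G)
    (xp xm : V) (hxp : xp ≠ 0) (hxm : xm ≠ 0) (hcp : c • xp = xp) (hcm : c • xm = -xm)
    (hab : ∀ σ : G, ∀ x : V, σ • c • x = c • σ • x) :
    ∃ N : Submodule (ZMod p) V, N ≠ ⊥ ∧ N ≠ ⊤ ∧ ∀ σ : G, ∀ x ∈ N, σ • x ∈ N := by
  have hp : p.Prime := Fact.out
  let N : Submodule (ZMod p) V := LinearMap.ker (h7n_lin p V c - LinearMap.id)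
  have hN : ∀ x : V, x ∈ N ↔ c • x = x := by
    intro x
    rw [LinearMap.mem_ker, LinearMap.sub_apply, h7n_lin_apply, LinearMap.id_apply, sub_eq_zero]
  refine ⟨N, ?_, ?_, ?_⟩
  · intro h
    apply hxp
    have : xp ∈ N := (hN xp).mpr hcp
    rw [h] at this
    exact (Submodule.mem_bot _).mp this
  · intro h
    apply hxm
    have : xm ∈ N := by rw [h]; exact Submodule.mem_top
    have h1 : c • xm = xm := (hN xm).mp this
    rw [hcm] at h1
    have h2 : (2 : ZMod p) • xm = 0 := by
      rw [two_smul]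
      nth_rewrite 1 [← h1]
      exact neg_add_cancel xm
    have h3 : (2 : ZMod p) ≠ 0 := by
      intro h0
      have : ((2 : ℕ) : ZMod p) = 0 := by exact_mod_cast h0
      rw [ZMod.natCast_eq_zero_iff] at this
      have := (Nat.prime_dvd_prime_iff_eq hp Nat.prime_two).mp this
      exact hp2 this
    exact (smul_eq_zero.mp h2).resolve_left h3
  · intro σ x hx
    rw [hN] at hx ⊢
    rw [← hab σ x, hx]

/-- **(R3)** A `G_ℚ`-module structure on `E[p]` (`p` odd) for which the action is abelian and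
complex conjugation has eigenvalues `1` and `-1` is reducible. -/
theorem h1r_reducible_of_conj_eigen (E : WeierstrassCurve ℚ) [E.IsElliptic] {p : ℕ}
    (hp : p.Prime) (hp2 : p ≠ 2)
    (heig : ∃ xp xm : Submodule.torsionBy ℤ (E⁄(AlgebraicClosure ℚ)).Point p, xp ≠ 0 ∧ xm ≠ 0 ∧
      complexConjugation • xp = xp ∧ complexConjugation • xm = -xm)
    (hab : ∀ σ τ : AlgebraicClosure ℚ ≃ₐ[ℚ] AlgebraicClosure ℚ,
      ∀ x : Submodule.torsionBy ℤ (E⁄(AlgebraicClosure ℚ)).Point p, σ • τ • x = τ • σ • x) :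
    ¬ GaloisRepIsIrreducible (K := AlgebraicClosure ℚ) ℚ E p := by
  intro hirr
  have hp' : Fact p.Prime := ⟨hp⟩
  obtain ⟨xp, xm, hxp, hxm, hcp, hcm⟩ := heig
  obtain ⟨N, hNbot, hNtop, hNstab⟩ :=
    h1r_stable_of_involution hp2 complexConjugation xp xm hxp hxm hcp hcm
      (fun σ x => hab σ complexConjugation x)
  rcases hirr.2 N (fun σ x hx => hNstab σ x hx) with h | h
  · exact hNbot h
  · exact hNtop h

/-- **Lemma R**, modulo the contract (R1). -/
theorem h1r_reducible_of_abelian (hR1 : h1r_ConjStatement) (E : WeierstrassCurve ℚ)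
    [E.IsElliptic] {p : ℕ} (hp : p.Prime) (hp2 : p ≠ 2)
    (hab : ∀ σ τ : AlgebraicClosure ℚ ≃ₐ[ℚ] AlgebraicClosure ℚ,
      ∀ x : Submodule.torsionBy ℤ (E⁄(AlgebraicClosure ℚ)).Point p, σ • τ • x = τ • σ • x) :
    ¬ GaloisRepIsIrreducible (K := AlgebraicClosure ℚ) ℚ E p :=
  h1r_reducible_of_conj_eigen E hp hp2 (h1r_conj_eigen hR1 E hp) hab

end Fermat.Agent.Lib.S41
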