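import Mathlib

/-!
# S41, layer F0 (abstract half): linear algebra over `ℤ` modulo `p`

Owner: helper2.

* `h2f_farkas`: finite duality mod `p` (`M` finite free over `ℤ`): if every `n ∈ M` with
  `p ∣ B n z` for all `z` satisfies `p ∣ τ n`, then `τ ≡ B · z` mod `p` for some `z`.
* `h2f_dual`: the dual Ihara lemma from Poincaré duality (perfect pairings mod `p`, adjointness,
  self-adjointness) and Ihara's lemma.
* `h2f_comm`: `TA ∘ α' = α' ∘ TC` from adjointness, self-adjointness and `TC ∘ α = α ∘ TA`.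
-/

set_option autoImplicit false

namespace Fermat.Agent.Lib.S41

/-- **Finite duality mod `p`.** -/
theorem h2f_farkas {M LC : Type*} [AddCommGroup M] [Module.Finite ℤ M] [Module.Free ℤ M]
    [AddCommGroup LC] (p : ℕ) [Fact p.Prime] (B : M →+ LC →+ ℤ) (τ : M →+ ℤ)
    (h : ∀ n, (∀ z, (p : ℤ) ∣ B n z) → (p : ℤ) ∣ τ n) :
    ∃ z, ∀ n, (p : ℤ) ∣ B n z - τ n := by
  classical
  set ι := Module.Free.ChooseBasisIndex ℤ M
  set b : Module.Basis ι ℤ M := Module.Free.chooseBasis ℤ M with hb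
  -- the evaluation map `LC → (ι → ZMod p)`
  let Ψ : LC →+ (ι → ZMod p) :=
    { toFun := fun z i => ((B (b i) z : ℤ) : ZMod p)
      map_zero' := by funext i; simp
      map_add' := by intro z z'; funext i; simp }
  have hΨ : ∀ z i, Ψ z i = ((B (b i) z : ℤ) : ZMod p) := fun _ _ => rfl
  set W : Submodule (ZMod p) (ι → ZMod p) := AddSubgroup.toZModSubmodule p Ψ.range with hW
  have hWmem : ∀ v, v ∈ W ↔ ∃ z, Ψ z = v := by
    intro v
    rw [hW]
    show v ∈ Ψ.range ↔ _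
    exact AddMonoidHom.mem_range
  set t : ι → ZMod p := fun i => ((τ (b i) : ℤ) : ZMod p) with ht
  have key : t ∈ W := by
    by_contra hnot
    obtain ⟨f, hft, hfW⟩ := Submodule.exists_le_ker_of_notMem hnot
    -- coefficients of `f`
    set c : ι → ZMod p := fun i => f (fun j => if i = j then 1 else 0) with hc
    have hf : ∀ v : ι → ZMod p, f v = ∑ i, v i * c i := by
      intro v
      rw [LinearMap.pi_apply_eq_sum_univ f v]
      rfl
    set n : M := ∑ i, ((c i).val : ℤ) • b i with hn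
    have hcast : ∀ i, (((c i).val : ℤ) : ZMod p) = c i := by
      intro i
      rw [Int.cast_natCast, ZMod.natCast_zmod_val]
    have h1 : ∀ z, (p : ℤ) ∣ B n z := by
      intro z
      rw [← ZMod.intCast_zmod_eq_zero_iff_dvd]
      have : B n z = ∑ i, ((c i).val : ℤ) * B (b i) z := by
        rw [hn, map_sum, AddMonoidHom.finsetSum_apply]
        refine Finset.sum_congr rfl fun i _ => ?_
        rw [map_zsmul, AddMonoidHom.smul_apply, smul_eq_mul]
      rw [this, Int.cast_sum]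
      have h2 : f (Ψ z) = 0 := hfW ((hWmem _).mpr ⟨z, rfl⟩)
      rw [hf] at h2
      rw [← h2]
      refine Finset.sum_congr rfl fun i _ => ?_
      rw [Int.cast_mul, hcast, hΨ, mul_comm]
    have h3 := h n h1
    rw [← ZMod.intCast_zmod_eq_zero_iff_dvd] at h3
    apply hft
    rw [hf, ← h3]
    have : τ n = ∑ i, ((c i).val : ℤ) * τ (b i) := by
      rw [hn, map_sum]
      refine Finset.sum_congr rfl fun i _ => ?_
      rw [map_zsmul, smul_eq_mul]
    rw [this, Int.cast_sum]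
    refine Finset.sum_congr rfl fun i _ => ?_
    rw [Int.cast_mul, hcast, mul_comm]
  obtain ⟨z, hz⟩ := (hWmem t).mp key
  refine ⟨z, ?_⟩
  -- on the basis, then everywhere
  have hbasis : ∀ i, (p : ℤ) ∣ B (b i) z - τ (b i) := by
    intro i
    rw [← ZMod.intCast_zmod_eq_zero_iff_dvd, Int.cast_sub, sub_eq_zero]
    have := congrFun hz i
    rw [hΨ] at this
    exact this
  let S : Submodule ℤ M :=
    { carrier := {n | (p : ℤ) ∣ B n z - τ n}
      zero_mem' := by simp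
      add_mem' := by
        intro a a' ha ha'
        show (p : ℤ) ∣ B (a + a') z - τ (a + a')
        have : B (a + a') z - τ (a + a') = (B a z - τ a) + (B a' z - τ a') := by
          rw [map_add, AddMonoidHom.add_apply, map_add]; ring
        rw [this]
        exact dvd_add ha ha'
      smul_mem' := by
        intro k a ha
        show (p : ℤ) ∣ B (k • a) z - τ (k • a)
        have : B (k • a) z - τ (k • a) = k * (B a z - τ a) := by
          rw [map_zsmul, AddMonoidHom.smul_apply, map_zsmul, smul_eq_mul, smul_eq_mul]; ring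
        rw [this]
        exact Dvd.dvd.mul_left ha k }
  have hS : S = ⊤ := by
    apply top_le_iff.mp
    rw [← b.span_eq, Submodule.span_le]
    rintro _ ⟨i, rfl⟩
    exact hbasis i
  intro n
  have : n ∈ S := by rw [hS]; trivial
  exact this

/-- **Dual Ihara lemma** from Poincaré duality and Ihara's lemma (at the operator `s0`). -/
theorem h2f_dual {LA LC : Type*} [AddCommGroup LA] [Module.Finite ℤ LA] [Module.Free ℤ LA]
    [AddCommGroup LC] (p : ℕ) [Fact p.Prime] (PA : LA →+ LA →+ ℤ) (PC : LC →+ LC →+ ℤ)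
    (hPC : ∀ w : LC, (∀ z, (p : ℤ) ∣ PC w z) → ∃ w', w = (p : ℤ) • w')
    (hPA : ∀ y : LA, (∀ x, (p : ℤ) ∣ PA x y) → ∃ y', y = (p : ℤ) • y')
    (α β : LA →+ LC) (α' β' : LC →+ LA)
    (hα : ∀ x z, PC (α x) z = PA x (α' z)) (hβ : ∀ x z, PC (β x) z = PA x (β' z))
    (s0 : LA →+ LA) (hs0 : ∀ x y, PA (s0 x) y = PA x (s0 y))
    (ihara : ∀ x y : LA, (∃ z, α x + β y = (p : ℤ) • z) →
      (∃ x', s0 x = (p : ℤ) • x') ∧ (∃ y', s0 y = (p : ℤ) • y')) :
    ∀ x y : LA, ∃ (z : LC) (x' y' : LA),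
      α' z = s0 x + (p : ℤ) • x' ∧ β' z = s0 y + (p : ℤ) • y' := by
  intro x y
  let B : LA × LA →+ LC →+ ℤ := AddMonoidHom.mk'
    (fun n => (PA n.1).comp α' + (PA n.2).comp β') (by
      intro a b
      ext z
      simp only [Prod.fst_add, Prod.snd_add, map_add, AddMonoidHom.add_apply,
        AddMonoidHom.comp_apply]
      ring)
  have hB : ∀ n z, B n z = PA n.1 (α' z) + PA n.2 (β' z) := fun _ _ => rfl
  let τ : LA × LA →+ ℤ := AddMonoidHom.mk'
    (fun n => PA n.1 (s0 x) + PA n.2 (s0 y)) (by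
      intro a b
      simp only [Prod.fst_add, Prod.snd_add, map_add, AddMonoidHom.add_apply]
      ring)
  have hτ : ∀ n, τ n = PA n.1 (s0 x) + PA n.2 (s0 y) := fun _ => rfl
  have hfar : ∀ n, (∀ z, (p : ℤ) ∣ B n z) → (p : ℤ) ∣ τ n := by
    intro n hn
    have h1 : ∀ z, (p : ℤ) ∣ PC (α n.1 + β n.2) z := by
      intro z
      have := hn z
      rwa [hB, ← hα, ← hβ, ← AddMonoidHom.add_apply, ← map_add] at this
    obtain ⟨w', hw'⟩ := hPC _ h1
    obtain ⟨⟨x₁, hx₁⟩, ⟨x₂, hx₂⟩⟩ := ihara n.1 n.2 ⟨w', hw'⟩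
    rw [hτ, ← hs0, ← hs0, hx₁, hx₂, map_zsmul, map_zsmul, AddMonoidHom.smul_apply,
      AddMonoidHom.smul_apply, smul_eq_mul, smul_eq_mul, ← mul_add]
    exact Dvd.intro _ rfl
  obtain ⟨z, hz⟩ := h2f_farkas p B τ hfar
  have h1 : ∀ n₁, (p : ℤ) ∣ PA n₁ (α' z - s0 x) := by
    intro n₁
    have := hz (n₁, 0)
    rw [hB, hτ] at this
    simpa [map_sub] using this
  have h2 : ∀ n₂, (p : ℤ) ∣ PA n₂ (β' z - s0 y) := by
    intro n₂
    have := hz (0, n₂)
    rw [hB, hτ] at this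
    simpa [map_sub] using this
  obtain ⟨x', hx'⟩ := hPA _ h1
  obtain ⟨y', hy'⟩ := hPA _ h2
  exact ⟨z, x', y', by rw [← hx']; abel, by rw [← hy']; abel⟩

/-- `TA ∘ α' = α' ∘ TC` from adjointness and self-adjointness. -/
theorem h2f_comm {LA LC : Type*} [AddCommGroup LA] [AddCommGroup LC]
    (PA : LA →+ LA →+ ℤ) (PC : LC →+ LC →+ ℤ)
    (hPA0 : ∀ y : LA, (∀ x, PA x y = 0) → y = 0)
    (α : LA →+ LC) (α' : LC →+ LA) (hα : ∀ x z, PC (α x) z = PA x (α' z))
    (TA : LA →+ LA) (TC : LC →+ LC) (hTA : ∀ x y, PA (TA x) y = PA x (TA y))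
    (hTC : ∀ x y, PC (TC x) y = PC x (TC y)) (hcomm : ∀ x, TC (α x) = α (TA x)) :
    ∀ z, TA (α' z) = α' (TC z) := by
  intro z
  rw [← sub_eq_zero]
  apply hPA0
  intro x
  rw [map_sub, ← hTA, ← hα, ← hcomm, hTC, hα, sub_self]

/-- In a finite free `ℤ`-module, an element divisible by all powers of `p` vanishes. -/
theorem h2f_eq_zero_of_pow_dvd {L : Type*} [AddCommGroup L] [Module.Finite ℤ L] [Module.Free ℤ L]
    (p : ℕ) (hp : 2 ≤ p) (y : L) (h : ∀ k : ℕ, ∃ y', y = ((p : ℤ) ^ k) • y') : y = 0 := by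
  classical
  set b := Module.Free.chooseBasis ℤ L
  apply b.repr.injective
  rw [map_zero]
  ext i
  rw [Finsupp.zero_apply]
  by_contra hne
  obtain ⟨c, hc⟩ : ∃ c : ℤ, c = b.repr y i := ⟨_, rfl⟩
  rw [← hc] at hne
  obtain ⟨y', hy'⟩ := h c.natAbs
  have hdvd : (p : ℤ) ^ c.natAbs ∣ c := by
    have h5 : b.repr y i = (p : ℤ) ^ c.natAbs * b.repr y' i := by
      have := congrArg (fun v => b.repr v i) hy'
      simpa [map_zsmul] using this
    exact ⟨b.repr y' i, hc.trans h5⟩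
  have h1 : ((p ^ c.natAbs : ℕ) : ℤ) ∣ c := by exact_mod_cast hdvd
  have h2 : p ^ c.natAbs ∣ c.natAbs := Int.natCast_dvd.mp h1
  have h3 : p ^ c.natAbs ≤ c.natAbs := Nat.le_of_dvd (Int.natAbs_pos.mpr hne) h2
  have h4 : c.natAbs < p ^ c.natAbs := Nat.lt_pow_self hp
  omega

/-- Non-degeneracy over `ℤ` from non-degeneracy mod `p`. -/
theorem h2f_nondeg_of_mod {L : Type*} [AddCommGroup L] [Module.Finite ℤ L] [Module.Free ℤ L]
    (p : ℕ) [Fact p.Prime] (P : L →+ L →+ ℤ)
    (hP : ∀ y : L, (∀ x, (p : ℤ) ∣ P x y) → ∃ y', y = (p : ℤ) • y') :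
    ∀ y : L, (∀ x, P x y = 0) → y = 0 := by
  have hp : p.Prime := Fact.out
  have hp0 : (p : ℤ) ≠ 0 := by exact_mod_cast hp.ne_zero
  intro y hy
  apply h2f_eq_zero_of_pow_dvd p hp.two_le
  intro k
  induction k with
  | zero => exact ⟨y, by simp⟩
  | succ k ih =>
    obtain ⟨y', hy'⟩ := ih
    have h1 : ∀ x, P x y' = 0 := by
      intro x
      have := hy x
      rw [hy', map_zsmul, smul_eq_mul] at this
      rcases mul_eq_zero.mp this with h | h
      · exact absurd h (pow_ne_zero _ hp0)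
      · exact h
    obtain ⟨y'', hy''⟩ := hP y' (fun x => by rw [h1 x]; exact dvd_zero _)
    exact ⟨y'', by rw [hy', hy'', smul_smul, pow_succ]⟩

end Fermat.Agent.Lib.S41
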