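import Mathlib
import Fermat.Agent.Lib.S41.H5Lattice
import Fermat.Agent.Lib.S41.Defs2

/-!
# S41, layer F0 (bridge): Ihara's hypothesis of `h6b_F1Statement` on the lattices `L_N`

Owner: helper2.  `h2f_ihara_lattice`: the `ihara` hypothesis of `h6b_F1Statement` (at a special
prime `ℓ`) for `LA = parabolicHoms ℤ (Gamma0 N) ℤ`, `α = h5l_α`, `β = h5l_β`, `TA = h5l_T`,
`e = 1 + ℓ`, from `h6b_iharaAvg` by reduction mod `p`.
-/

set_option autoImplicit false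

open CongruenceSubgroup ModularCurve.Period
open scoped MatrixGroups

noncomputable section

namespace Fermat.Agent.Lib.S41

/-- reduction mod `p` of an integral character -/
def h2f_red (p : ℕ) {Γ : Type*} [Group Γ] (φ : Additive Γ →+ ℤ) : Additive Γ →+ ZMod p :=
  (Int.castAddHom (ZMod p)).comp φ

theorem h2f_red_apply (p : ℕ) {Γ : Type*} [Group Γ] (φ : Additive Γ →+ ℤ) (g : Additive Γ) :
    h2f_red p φ g = ((φ g : ℤ) : ZMod p) := rfl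

theorem h2f_red_par (p M : ℕ) (φ : Additive (Gamma0 M) →+ ℤ) (h : IsParabolicHom (Gamma0 M) φ) :
    IsParabolicHom (Gamma0 M) (h2f_red p φ) := by
  intro γ hγ
  rw [h2f_red_apply, h γ hγ, Int.cast_zero]

/-- `T_ℓ` commutes with reduction mod `p`. -/
theorem h2f_red_T (p M ℓ : ℕ) [Fact ℓ.Prime] (hℓ : ¬ ℓ ∣ M) (φ : Additive (Gamma0 M) →+ ℤ) :
    h5h_T M ℓ hℓ (ZMod p) (h2f_red p φ) = h2f_red p (h5h_T M ℓ hℓ ℤ φ) := by
  refine AddMonoidHom.ext fun g' => ?_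
  set g : Gamma0 M := Additive.toMul g'
  show h5h_T M ℓ hℓ (ZMod p) (h2f_red p φ) (Additive.ofMul g)
    = h2f_red p (h5h_T M ℓ hℓ ℤ φ) (Additive.ofMul g)
  rw [h2f_red_apply, h5h_T, h5h_T, h5f_Fam.op_apply, h5f_Fam.op_apply, Int.cast_sum]
  rfl

/-- A lattice element all of whose values are divisible by `p` is divisible by `p`. -/
theorem h2f_div_of_forall_dvd (M p : ℕ) (hp0 : p ≠ 0) (u : parabolicHoms ℤ (Gamma0 M) ℤ)
    (h : ∀ g : Additive (Gamma0 M), (p : ℤ) ∣ u.1 g) : ∃ x', u = (p : ℤ) • x' := by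
  have hpz : (p : ℤ) ≠ 0 := by exact_mod_cast hp0
  let φ : Additive (Gamma0 M) →+ ℤ := AddMonoidHom.mk' (fun g => u.1 g / (p : ℤ)) (by
    intro a b
    show u.1 (a + b) / (p : ℤ) = u.1 a / (p : ℤ) + u.1 b / (p : ℤ)
    rw [map_add, Int.add_ediv_of_dvd_left (h a)])
  have hφ : ∀ g, (p : ℤ) * φ g = u.1 g := fun g => Int.mul_ediv_cancel' (h g)
  have hpar : IsParabolicHom (Gamma0 M) φ := by
    intro γ hγ
    have h1 := hφ (Additive.ofMul γ)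
    rw [u.2 γ hγ] at h1
    rcases mul_eq_zero.mp h1 with h2 | h2
    · exact absurd h2 hpz
    · exact h2
  refine ⟨⟨φ, hpar⟩, ?_⟩
  apply Subtype.ext
  refine AddMonoidHom.ext fun g => ?_
  show u.1 g = (p : ℤ) • φ g
  rw [smul_eq_mul, hφ]

/-- **Ihara's hypothesis on the lattices.** -/
theorem h2f_ihara_lattice {p N q : ℕ} [Fact q.Prime] (hp : p.Prime) (hp2 : p ≠ 2) (hN : 0 < N)
    (hqN : ¬ q ∣ N) (hqp : q ≠ p) :
    ∃ M₀ : ℕ, 0 < M₀ ∧ ∀ (ℓ : ℕ) [Fact ℓ.Prime] (hℓN : ¬ ℓ ∣ N), ℓ ≠ q → ℓ ≡ 1 [MOD M₀] →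
      ((q : ZMod ℓ) ^ ((ℓ - 1) / p) ≠ 1) →
      ∀ x y : parabolicHoms ℤ (Gamma0 N) ℤ,
        (∃ z, h5l_α N q x + h5l_β N q y = (p : ℤ) • z) →
        (∃ x', h5l_T N ℓ hℓN x - (1 + (ℓ : ℤ)) • x = (p : ℤ) • x') ∧
        (∃ y', h5l_T N ℓ hℓN y - (1 + (ℓ : ℤ)) • y = (p : ℤ) • y') := by
  have hq : q.Prime := Fact.out
  obtain ⟨M₀, hM₀, hpM₀, hmain⟩ := h6b_iharaAvg hp hp2 hN hq hqN hqp
  refine ⟨M₀, hM₀, ?_⟩
  intro ℓ _ hℓN hℓq hℓM hqw x y hz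
  obtain ⟨z, hz⟩ := hz
  have hℓ : ℓ.Prime := Fact.out
  -- `ℓ ≡ 1 mod p`
  have hℓp : ((ℓ : ℤ) : ZMod p) = 1 := by
    have h1 : ℓ ≡ 1 [MOD p] := hℓM.of_dvd hpM₀
    have h2 := (ZMod.natCast_eq_natCast_iff ℓ 1 p).mpr h1
    rw [Int.cast_natCast, h2, Nat.cast_one]
  -- cancellation mod p
  have hcancel : ∀ g : Gamma0 (N * q), h2f_red p x.1 (Additive.ofMul (h6_incl N q g))
      + h2f_red p y.1 (Additive.ofMul (h6_conjH N q hq.pos g)) = 0 := by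
    intro g
    have h1 := congrArg (fun w : parabolicHoms ℤ (Gamma0 (N * q)) ℤ => w.1 (Additive.ofMul g)) hz
    have h2 : x.1 (Additive.ofMul (h6_incl N q g)) + y.1 (Additive.ofMul (h6_conjH N q hq.pos g))
        = (p : ℤ) * z.1 (Additive.ofMul g) := h1
    rw [h2f_red_apply, h2f_red_apply, ← Int.cast_add, h2, Int.cast_mul, Int.cast_natCast,
      ZMod.natCast_self, zero_mul]
  obtain ⟨hx2, hy2⟩ := hmain ℓ hℓN hℓq hℓM hqw (h2f_red p x.1) (h2f_red p y.1)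
    (h2f_red_par p N x.1 x.2) (h2f_red_par p N y.1 y.2) hcancel
  have key : ∀ w : parabolicHoms ℤ (Gamma0 N) ℤ,
      h5h_T N ℓ hℓN (ZMod p) (h2f_red p w.1) = 2 • h2f_red p w.1 →
      ∃ w', h5l_T N ℓ hℓN w - (1 + (ℓ : ℤ)) • w = (p : ℤ) • w' := by
    intro w hw
    apply h2f_div_of_forall_dvd N p hp.ne_zero
    intro g
    rw [← ZMod.intCast_zmod_eq_zero_iff_dvd]
    have h1 : (h5l_T N ℓ hℓN w - (1 + (ℓ : ℤ)) • w).1 g
        = h5h_T N ℓ hℓN ℤ w.1 g - (1 + (ℓ : ℤ)) * w.1 g := rfl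
    rw [h1, Int.cast_sub, Int.cast_mul, Int.cast_add, Int.cast_one, hℓp]
    have h2 : ((h5h_T N ℓ hℓN ℤ w.1 g : ℤ) : ZMod p) = 2 • ((w.1 g : ℤ) : ZMod p) := by
      have := congrArg (fun φ : Additive (Gamma0 N) →+ ZMod p => φ g) hw
      rw [h2f_red_T] at this
      exact this
    rw [h2, two_nsmul]
    ring
  exact ⟨key x hx2, key y hy2⟩

end Fermat.Agent.Lib.S41
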