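import Mathlib
import Fermat.Agent.Lib.S41.H6Std
import Fermat.Agent.Lib.S41.H5Orbit

/-!
# Project S41, layer [B]-bridge (helper5): helper6's transfer `h6u_tr` as an orbit family

* `h5o_orbitFam_indep` — the operator of an orbit family depends only on the stabiliser of the
  base point (two transitive right `Γ₂`-sets whose base points have the same stabiliser give the
  same operator);
* `h5x_tr_eq` — for `Γ' ≤ Γ ≤ SL(2,ℤ)` of finite index, `h6u_tr hle z` is the operator of the orbit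
  family on the fibre `h5x_I hle` of `SL(2,ℤ) ⧸ Γ' → SL(2,ℤ) ⧸ Γ` over the base point, with
  `σ γ x' = γ⁻¹ • x'`, section `x' ↦ (out x')⁻¹`, `h = 1`, `κ k = k`;
* `h5x_stab_iff` — the stabiliser of the base point of that model is `Γ'`.
-/

set_option autoImplicit false

open scoped MatrixGroups
open ModularCurve.Period Matrix.SpecialLinearGroup

noncomputable section

namespace Fermat.Agent.Lib.S41

/-- **The orbit family (transfer) does not depend on the model of the coset space**: two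
transitive right `Γ₂`-sets with base points having the same stabiliser give the same operator. -/
theorem h5o_orbitFam_indep {𝔾 : Type*} [Group 𝔾] {Γ₁ Γ₂ : Type*} [Group Γ₁] [Group Γ₂]
    {I I' : Type*} [Fintype I] [Fintype I'] (A : Type*) [AddCommGroup A]
    (ι₁ : Γ₁ →* 𝔾) (ι₂ : Γ₂ →* 𝔾) (inj : Function.Injective ι₁)
    (σ : Γ₂ → Equiv.Perm I) (σ_mul : ∀ g g' x, σ (g * g') x = σ g' (σ g x))
    (x₀ : I) (r : I → Γ₂) (hr : ∀ x, σ (r x) x₀ = x)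
    (σ' : Γ₂ → Equiv.Perm I') (σ'_mul : ∀ g g' x, σ' (g * g') x = σ' g' (σ' g x))
    (x₀' : I') (r' : I' → Γ₂) (hr' : ∀ x, σ' (r' x) x₀' = x)
    (h : 𝔾)
    (κ : (k : Γ₂) → σ k x₀ = x₀ → Γ₁) (hκ : ∀ k hk, h * ι₂ k = ι₁ (κ k hk) * h)
    (κ' : (k : Γ₂) → σ' k x₀' = x₀' → Γ₁) (hκ' : ∀ k hk, h * ι₂ k = ι₁ (κ' k hk) * h)
    (hstab : ∀ k, σ k x₀ = x₀ ↔ σ' k x₀' = x₀') :
    (h5o_orbitFam ι₁ ι₂ inj σ σ_mul x₀ r hr h κ hκ).op A
      = (h5o_orbitFam ι₁ ι₂ inj σ' σ'_mul x₀' r' hr' h κ' hκ').op A := by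
  -- general facts
  have hone : ∀ x, σ 1 x = x := h5o_σ_one σ σ_mul
  have hone' : ∀ x, σ' 1 x = x := h5o_σ_one σ' σ'_mul
  -- if `g`, `g'` send `x₀` to the same point then they send `x₀'` to the same point
  have key : ∀ g g' : Γ₂, σ g x₀ = σ g' x₀ → σ' g x₀' = σ' g' x₀' := by
    intro g g' hgg
    have h1 : σ (g * g'⁻¹) x₀ = x₀ := by
      rw [σ_mul, hgg]
      exact h5o_σ_inv σ σ_mul g' x₀
    have h2 := (hstab _).mp h1
    rw [σ'_mul] at h2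
    have h3 := congrArg (σ' g') h2
    rw [h5o_σ_inv' σ' σ'_mul] at h3
    exact h3
  have key' : ∀ g g' : Γ₂, σ' g x₀' = σ' g' x₀' → σ g x₀ = σ g' x₀ := by
    intro g g' hgg
    have h1 : σ' (g * g'⁻¹) x₀' = x₀' := by
      rw [σ'_mul, hgg]
      exact h5o_σ_inv σ' σ'_mul g' x₀'
    have h2 := (hstab _).mpr h1
    rw [σ_mul] at h2
    have h3 := congrArg (σ g') h2
    rw [h5o_σ_inv' σ σ_mul] at h3
    exact h3
  let e : I ≃ I' :=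
    { toFun := fun x => σ' (r x) x₀'
      invFun := fun x' => σ (r' x') x₀
      left_inv := by
        intro x
        show σ (r' (σ' (r x) x₀')) x₀ = x
        have := key' (r' (σ' (r x) x₀')) (r x) (hr' _)
        rw [this, hr]
      right_inv := by
        intro x'
        show σ' (r (σ (r' x') x₀)) x₀' = x'
        have := key (r (σ (r' x') x₀)) (r' x') (hr _)
        rw [this, hr'] }
  have he : ∀ x, e x = σ' (r x) x₀' := fun _ => rfl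
  have hstabε : ∀ x, σ (r' (e x) * (r x)⁻¹) x₀ = x₀ := by
    intro x
    rw [hstab, σ'_mul, hr', he]
    exact h5o_σ_inv σ' σ'_mul (r x) x₀'
  refine h5f_Fam.op_eq_of_match _ _ rfl rfl e (fun x => κ _ (hstabε x)) ?_ ?_
  · intro x
    show h * ι₂ (r' (e x)) = ι₁ (κ _ (hstabε x)) * (h * ι₂ (r x))
    rw [← mul_assoc, ← hκ _ (hstabε x), mul_assoc, ← map_mul, inv_mul_cancel_right]
  · intro g x
    show e (σ g x) = σ' g (e x)
    rw [he, he, ← σ'_mul]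
    apply key
    rw [hr, σ_mul, hr]


/-! ### helper6's transfer as an orbit family -/

section Model

variable {Γ' Γ : Subgroup SL(2, ℤ)} (hle : Γ' ≤ Γ)

/-- The embedding of a subgroup of `SL(2,ℤ)` into `GL₂(ℝ)`. -/
def h5x_ι (Δ : Subgroup SL(2, ℤ)) : Δ →* GL (Fin 2) ℝ := (mapGL ℝ).comp Δ.subtype

theorem h5x_ι_inj (Δ : Subgroup SL(2, ℤ)) : Function.Injective (h5x_ι Δ) :=
  mapGL_injective.comp Subtype.val_injective

/-- The fibre of `SL(2,ℤ) ⧸ Γ' → SL(2,ℤ) ⧸ Γ` over the base point. -/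
def h5x_I : Type :=
  {x' : SL(2, ℤ) ⧸ Γ' // h6u_proj hle x' = ((1 : SL(2, ℤ)) : SL(2, ℤ) ⧸ Γ)}

theorem h5x_proj_mk (a : SL(2, ℤ)) :
    h6u_proj hle ((a : SL(2, ℤ)) : SL(2, ℤ) ⧸ Γ') = ((a : SL(2, ℤ)) : SL(2, ℤ) ⧸ Γ) := rfl

theorem h5x_mk_eq_one_iff (Δ : Subgroup SL(2, ℤ)) (a : SL(2, ℤ)) :
    ((a : SL(2, ℤ)) : SL(2, ℤ) ⧸ Δ) = ((1 : SL(2, ℤ)) : SL(2, ℤ) ⧸ Δ) ↔ a ∈ Δ := by
  rw [QuotientGroup.eq, mul_one, inv_mem_iff]

theorem h5x_out_mem (x' : h5x_I hle) : Quotient.out x'.1 ∈ Γ := by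
  have h := x'.2
  rw [← QuotientGroup.out_eq' x'.1, h5x_proj_mk, h5x_mk_eq_one_iff] at h
  exact h

theorem h5x_smul_mem (γ : Γ) (x' : h5x_I hle) :
    h6u_proj hle ((γ : SL(2, ℤ)) • x'.1) = ((1 : SL(2, ℤ)) : SL(2, ℤ) ⧸ Γ) := by
  rw [h6u_proj_smul, x'.2]
  show (((γ : SL(2, ℤ)) * 1 : SL(2, ℤ)) : SL(2, ℤ) ⧸ Γ) = _
  rw [mul_one, h5x_mk_eq_one_iff]
  exact γ.2

/-- The right action of `Γ` on the fibre: `x' · γ = γ⁻¹ • x'`. -/
def h5x_σ (γ : Γ) : Equiv.Perm (h5x_I hle) where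
  toFun x' := ⟨(γ⁻¹ : Γ).1 • x'.1, h5x_smul_mem hle γ⁻¹ x'⟩
  invFun x' := ⟨(γ : SL(2, ℤ)) • x'.1, h5x_smul_mem hle γ x'⟩
  left_inv x' := by
    apply Subtype.ext
    show (γ : SL(2, ℤ)) • ((γ⁻¹ : Γ) : SL(2, ℤ)) • x'.1 = x'.1
    rw [Subgroup.coe_inv, smul_inv_smul]
  right_inv x' := by
    apply Subtype.ext
    show ((γ⁻¹ : Γ) : SL(2, ℤ)) • (γ : SL(2, ℤ)) • x'.1 = x'.1
    rw [Subgroup.coe_inv, inv_smul_smul]

theorem h5x_σ_coe (γ : Γ) (x' : h5x_I hle) :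
    (h5x_σ hle γ x').1 = (γ : SL(2, ℤ))⁻¹ • x'.1 := rfl

theorem h5x_σ_mul (g g' : Γ) (x' : h5x_I hle) :
    h5x_σ hle (g * g') x' = h5x_σ hle g' (h5x_σ hle g x') := by
  apply Subtype.ext
  rw [h5x_σ_coe, h5x_σ_coe, h5x_σ_coe, Subgroup.coe_mul, mul_inv_rev, mul_smul]

/-- The base point of the fibre. -/
def h5x_x0 : h5x_I hle := ⟨((1 : SL(2, ℤ)) : SL(2, ℤ) ⧸ Γ'), rfl⟩

/-- The section `x' ↦ (out x')⁻¹`. -/
def h5x_r (x' : h5x_I hle) : Γ := ⟨(Quotient.out x'.1)⁻¹, Γ.inv_mem (h5x_out_mem hle x')⟩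

theorem h5x_hr (x' : h5x_I hle) : h5x_σ hle (h5x_r hle x') (h5x_x0 hle) = x' := by
  apply Subtype.ext
  rw [h5x_σ_coe]
  show ((Quotient.out x'.1)⁻¹)⁻¹ • ((1 : SL(2, ℤ)) : SL(2, ℤ) ⧸ Γ') = x'.1
  rw [inv_inv]
  show (((Quotient.out x'.1) * 1 : SL(2, ℤ)) : SL(2, ℤ) ⧸ Γ') = x'.1
  rw [mul_one]
  exact QuotientGroup.out_eq' x'.1

theorem h5x_stab_iff (k : Γ) : h5x_σ hle k (h5x_x0 hle) = h5x_x0 hle ↔ (k : SL(2, ℤ)) ∈ Γ' := by
  have h1 : h5x_σ hle k (h5x_x0 hle) = h5x_x0 hle ↔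
      (h5x_σ hle k (h5x_x0 hle)).1 = (h5x_x0 hle).1 :=
    ⟨fun h => congrArg Subtype.val h, fun h => Subtype.ext h⟩
  rw [h1, h5x_σ_coe]
  show ((((k : SL(2, ℤ))⁻¹ * 1 : SL(2, ℤ)) : SL(2, ℤ) ⧸ Γ')) = ((1 : SL(2, ℤ)) : SL(2, ℤ) ⧸ Γ') ↔ _
  rw [mul_one, h5x_mk_eq_one_iff, inv_mem_iff]

/-- `κ` for helper6's model. -/
def h5x_κ (k : Γ) (hk : h5x_σ hle k (h5x_x0 hle) = h5x_x0 hle) : Γ' :=
  ⟨(k : SL(2, ℤ)), (h5x_stab_iff hle k).mp hk⟩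

variable [Γ'.FiniteIndex] [Γ.FiniteIndex]

/-- The `Fintype` instance on the fibre (compatible with `h6u_fintype`). -/
noncomputable instance h5x_fintype : Fintype (h5x_I hle) :=
  @Subtype.fintype _ _ (Classical.decPred _) (h6u_fintype Γ')

/-- helper6's transfer is the operator of an orbit family. -/
theorem h5x_tr_eq (z : Additive Γ' →+ ℤ) :
    h6u_tr hle z
      = (h5o_orbitFam (h5x_ι Γ') (h5x_ι Γ) (h5x_ι_inj Γ') (h5x_σ hle) (h5x_σ_mul hle) (h5x_x0 hle)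
          (h5x_r hle) (h5x_hr hle) 1 (h5x_κ hle) (fun _ _ => by rw [one_mul, mul_one]; rfl)).op ℤ z := by
  classical
  refine AddMonoidHom.ext fun γ' => ?_
  obtain ⟨γ, rfl⟩ : ∃ γ : Γ, Additive.ofMul γ = γ' := ⟨Additive.toMul γ', rfl⟩
  rw [h6u_tr_apply, h5f_Fam.op_apply, ← Finset.sum_filter]
  rw [@Finset.sum_subtype _ _ _ (fun x' => h6u_proj hle x' = ((1 : SL(2, ℤ)) : SL(2, ℤ) ⧸ Γ))
    (h5x_fintype hle) _ (fun x => by simp)]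
  refine Finset.sum_congr rfl fun x' _ => ?_
  congr 2
  apply Subtype.ext
  show (Quotient.out x'.1)⁻¹ * (γ : SL(2, ℤ)) * Quotient.out ((γ : SL(2, ℤ))⁻¹ • x'.1)
    = (Quotient.out x'.1)⁻¹ * (γ : SL(2, ℤ)) * ((Quotient.out ((γ : SL(2, ℤ))⁻¹ • x'.1))⁻¹)⁻¹
  rw [inv_inv]

end Model

end Fermat.Agent.Lib.S41
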