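import Fermat.Agent.Lib.S41.H6Std

/-!
# Project S41, layer [B] (helper9): the pairing of helper6 is alternating

`h9s_pair_skew` : `h6q_pair c' c = - h6q_pair c c'` for `T`-parabolic cocycles;
`h9s_P_skew`, `h9s_uP_skew` : the same for the pairings `h6q_P F`, `h6u_P Γ` of parabolic characters.
-/

set_option autoImplicit false

open scoped MatrixGroups
open ModularCurve.Period

namespace Fermat.Agent.Lib.S41

local notation "sS" => (ModularGroup.S : SL(2, ℤ))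
local notation "sT" => (ModularGroup.T : SL(2, ℤ))
local notation "sU" => (h6p_U : SL(2, ℤ))

section Skew

variable {X : Type*} [MulAction SL(2, ℤ) X] [Fintype X]
variable (hneg : ∀ x : X, (-1 : SL(2, ℤ)) • x = x)
include hneg

omit hneg in
/-- The same computation for any `g` (only invariance of the dot product is used). -/
theorem h9s_dot_g (g : SL(2, ℤ)) (B B' : X → ℤ) :
    h6c_dot (B - h6c_rho g B) (B' - h6c_rho g B')
      = h6c_dot (B - h6c_rho g B) B' + h6c_dot (B' - h6c_rho g B') B := by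
  have e1 : h6c_dot (h6c_rho g B) (h6c_rho g B') = h6c_dot B B' := h6c_dot_rho g B B'
  have e2 : h6c_dot B (h6c_rho g B') = h6c_dot (h6c_rho g B') B := h6c_dot_comm _ _
  have e3 : h6c_dot B' B = h6c_dot B B' := h6c_dot_comm _ _
  simp only [h6c_dot_sub_left, h6c_dot_sub_right]
  rw [e1, e2, e3]
  ring

/-- **The pairing of parabolic cocycles is alternating.** -/
theorem h9s_pair_skew {c c' : SL(2, ℤ) → X → ℤ} (hc : h6c_IsCoc c) (hc' : h6c_IsCoc c')
    (hp : h6q_IsPar c) (hp' : h6q_IsPar c') : h6q_pair c' c = -h6q_pair c c' := by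
  obtain ⟨v, hv⟩ := hp
  obtain ⟨v', hv'⟩ := hp'
  obtain ⟨a₀, ha₀⟩ := h6q_exists_a hneg hc
  obtain ⟨b₀, hb₀⟩ := h6q_exists_b hneg hc
  obtain ⟨a, ha⟩ := h6q_exists_a hneg hc'
  obtain ⟨b, hb⟩ := h6q_exists_b hneg hc'
  rw [h6q_pair_eq hneg hc hc' ⟨v', hv'⟩ hv ha hb, h6q_pair_eq hneg hc' hc ⟨v, hv⟩ hv' ha₀ hb₀]
  unfold h6q_val
  -- the four shifted witnesses
  obtain ⟨A, hA⟩ : ∃ A : X → ℤ, A = a₀ - v := ⟨_, rfl⟩
  obtain ⟨B, hB⟩ : ∃ B : X → ℤ, B = b₀ - v := ⟨_, rfl⟩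
  obtain ⟨A', hA'⟩ : ∃ A' : X → ℤ, A' = a - v' := ⟨_, rfl⟩
  obtain ⟨B', hB'⟩ : ∃ B' : X → ℤ, B' = b - v' := ⟨_, rfl⟩
  have hwS : h6q_w c v = A - h6c_rho sS A := by
    unfold h6q_w
    rw [ha₀, hA, h6c_rho_sub]; abel
  have hwU : h6q_w c v = B - h6c_rho sU B := by
    rw [h6q_w_eq_U hneg hc hv, hb₀, hB, h6c_rho_sub]; abel
  have hwS' : h6q_w c' v' = A' - h6c_rho sS A' := by
    unfold h6q_w
    rw [ha, hA', h6c_rho_sub]; abel
  have hwU' : h6q_w c' v' = B' - h6c_rho sU B' := by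
    rw [h6q_w_eq_U hneg hc' hv', hb, hB', h6c_rho_sub]; abel
  have hab : a - b = A' - B' := by rw [hA', hB']; abel
  have hab₀ : a₀ - b₀ = A - B := by rw [hA, hB]; abel
  -- `⟨w, w'⟩` computed in two ways
  have k1 := h9s_dot_g sS A A'
  have k2 := h9s_dot_g sU B B'
  rw [← hwS, ← hwS'] at k1
  rw [← hwU, ← hwU'] at k2
  rw [hab, hab₀, h6c_dot_sub_right, h6c_dot_sub_right]
  linarith

end Skew

section P

variable {X : Type*} [MulAction SL(2, ℤ) X] [Fintype X]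
variable (hneg : ∀ x : X, (-1 : SL(2, ℤ)) • x = x) (F : h6c_Frame SL(2, ℤ) X)
include hneg

/-- The pairing of parabolic characters of the stabiliser of a frame is alternating. -/
theorem h9s_P_skew (x y : Additive F.Γ →+ ℤ) (hx : IsParabolicHom F.Γ x)
    (hy : IsParabolicHom F.Γ y) : h6q_P F y x = -h6q_P F x y :=
  h9s_pair_skew hneg (F.coc_isCoc x) (F.coc_isCoc y) (h6r_isPar_coc F x hx) (h6r_isPar_coc F y hy)

end P

section Std

variable (Γ : Subgroup SL(2, ℤ)) [Γ.FiniteIndex] (hneg1 : (-1 : SL(2, ℤ)) ∈ Γ)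
include hneg1

/-- **Skew-symmetry of the standard pairing `h6u_P Γ`.** -/
theorem h9s_uP_skew (x y : Additive Γ →+ ℤ) (hx : IsParabolicHom Γ x) (hy : IsParabolicHom Γ y) :
    h6u_P Γ y x = -h6u_P Γ x y :=
  @h9s_P_skew _ _ (h6u_fintype Γ) (h6u_neg Γ hneg1) (h6u_frame Γ) x y hx hy

end Std

end Fermat.Agent.Lib.S41
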