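import Mathlib
import Fermat.Agent.Lib.S41.H6Std
import Fermat.Agent.Lib.S41.H9Skew
import Fermat.Agent.Lib.S41.H5Transfer
import Fermat.Agent.Lib.S41.H5Lattice

/-!
# Project S41, B-bridge (helper5): helper6's integral pairing on the lattices
`L_M = parabolicHoms ℤ (Gamma0 M) ℤ`

* `h5y_P M : L_M →+ L_M →+ ℤ` (for `[NeZero M]`): the pairing `h6u_P (Gamma0 M)`;
* `h5y_perfect`: perfectness at every nonzero integer (B1);
* `h5y_skew`: skew-symmetry;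
* `h5y_tr_eq_cores`: `h6u_tr (Γ₀(Mq) ≤ Γ₀(M)) z = (h5c_cores hqM).op ℤ z`;
* `h5y_adj_α`: `α ⊣ α'`.
-/

set_option autoImplicit false

open CongruenceSubgroup Matrix.SpecialLinearGroup ModularCurve.Period
open scoped MatrixGroups OnePoint

noncomputable section

namespace Fermat.Agent.Lib.S41

theorem h5y_neg_one_mem (M : ℕ) : (-1 : SL(2, ℤ)) ∈ Gamma0 M := by
  rw [Gamma0_mem]
  simp

section P

variable (M : ℕ) [NeZero M]

/-- helper6's pairing on `L_M`. -/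
def h5y_P : parabolicHoms ℤ (Gamma0 M) ℤ →+ parabolicHoms ℤ (Gamma0 M) ℤ →+ ℤ :=
  AddMonoidHom.mk' (fun x => AddMonoidHom.mk' (fun y => h6u_P (Gamma0 M) x.1 y.1)
    (fun y₁ y₂ => h6u_P_add_right (Gamma0 M) (h5y_neg_one_mem M) x.1 y₁.1 y₂.1 x.2 y₁.2 y₂.2))
    (fun x₁ x₂ => by
      refine AddMonoidHom.ext fun y => ?_
      exact h6u_P_add_left (Gamma0 M) (h5y_neg_one_mem M) x₁.1 x₂.1 y.1 x₁.2 x₂.2 y.2)

theorem h5y_P_apply (x y : parabolicHoms ℤ (Gamma0 M) ℤ) :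
    h5y_P M x y = h6u_P (Gamma0 M) x.1 y.1 := rfl

/-- **(B1)** perfectness at every nonzero integer. -/
theorem h5y_perfect (n : ℤ) (hn : n ≠ 0) (x : parabolicHoms ℤ (Gamma0 M) ℤ)
    (h : ∀ y, n ∣ h5y_P M x y) : ∃ x' : parabolicHoms ℤ (Gamma0 M) ℤ, x = n • x' := by
  obtain ⟨x', hx', hxx'⟩ := h6u_perfect (Gamma0 M) (h5y_neg_one_mem M) n hn x.1 x.2
    (fun y hy => h ⟨y, hy⟩)
  exact ⟨⟨x', hx'⟩, Subtype.ext hxx'⟩

/-- Skew-symmetry. -/
theorem h5y_skew (x y : parabolicHoms ℤ (Gamma0 M) ℤ) : h5y_P M y x = -h5y_P M x y :=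
  h9s_uP_skew (Gamma0 M) (h5y_neg_one_mem M) x.1 y.1 x.2 y.2

end P

section Alpha

variable {M q : ℕ} [Fact q.Prime] (hqM : ¬ q ∣ M)

include hqM in
/-- The two models of `Γ₀(M q) \ Γ₀(M)` have the same stabiliser at the base point. -/
theorem h5y_stab_iff (k : Gamma0 M) :
    h5x_σ (h6_gamma0_mul_le M q) k (h5x_x0 (h6_gamma0_mul_le M q)) = h5x_x0 (h6_gamma0_mul_le M q)
      ↔ h5h_act q (k : SL(2, ℤ)) ∞ = ∞ := by
  rw [h5x_stab_iff, h5c_act_infty_iff]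
  constructor
  · intro h
    exact dvd_trans (Dvd.intro_left _ rfl) (h6_dvd_of_mem M q _ h)
  · intro h
    exact h5c_mem_mul hqM k h

variable [NeZero M] [NeZero (M * q)]

/-- helper6's transfer for `Γ₀(M q) ≤ Γ₀(M)` is my corestriction `α'`. -/
theorem h5y_tr_eq_cores (z : Additive (Gamma0 (M * q)) →+ ℤ) :
    h6u_tr (h6_gamma0_mul_le M q) z = (h5c_cores hqM).op ℤ z := by
  rw [h5x_tr_eq]
  have key := h5o_orbitFam_indep ℤ (h5x_ι (Gamma0 (M * q))) (h5x_ι (Gamma0 M))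
    (h5x_ι_inj (Gamma0 (M * q)))
    (h5x_σ (h6_gamma0_mul_le M q)) (h5x_σ_mul (h6_gamma0_mul_le M q))
    (h5x_x0 (h6_gamma0_mul_le M q)) (h5x_r (h6_gamma0_mul_le M q))
    (h5x_hr (h6_gamma0_mul_le M q))
    (fun g : Gamma0 M => h5h_act q (g : SL(2, ℤ))) (fun _ _ x => h5h_act_mul q _ _ x)
    ∞ (h5c_secInf hqM) (h5c_secInf_spec hqM) 1
    (h5x_κ (h6_gamma0_mul_le M q)) (fun _ _ => by rw [one_mul, mul_one]; rfl)
    (h5c_κinf hqM) (fun k hk => by rw [one_mul, mul_one]; rfl)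
    (h5y_stab_iff hqM)
  exact congrFun (congrArg DFunLike.coe key) z

/-- **`α ⊣ α'`** for helper6's pairing. -/
theorem h5y_adj_α (x : parabolicHoms ℤ (Gamma0 M) ℤ) (z : parabolicHoms ℤ (Gamma0 (M * q)) ℤ) :
    h5y_P (M * q) (h5l_α M q x) z = h5y_P M x (h5l_α' M q hqM z) := by
  have h := h6u_adjoint (h6_gamma0_mul_le M q) (h5y_neg_one_mem (M * q)) x.1 z.1 x.2 z.2
  rw [h5y_tr_eq_cores hqM] at h
  exact h

end Alpha

end Fermat.Agent.Lib.S41
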