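import Mathlib
import Fermat.Agent.Lib.S16.H3PeriodHecke
import Fermat.Agent.Lib.S41.H5Lattice

/-!
# Project S41, layer [H] (H2): the period map intertwines `T_ℓ` on cusp forms and `h5h_T`

Owner: helper5.
-/

set_option autoImplicit false

open P2MW.S_ModularForm_heckeT_slash_eq_self_of_mem_Gamma0.ModularForm.HeckeSlashInvariance
open CongruenceSubgroup Matrix.SpecialLinearGroup ModularCurve ModularCurve.Period
open Fermat.Agent.Lib.Helper3.MS Fermat.Agent.Lib.S21 Fermat.Agent.Lib.S16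
open scoped MatrixGroups OnePoint ModularForm

noncomputable section

namespace Fermat.Agent.Lib.S41

variable {N : ℕ} [NeZero N]

/-- **H2**: `periodMap (T_ℓ f) = T_ℓ^coh (periodMap f)`. -/
theorem h5b_periodMap_T {ℓ : ℕ} [Fact ℓ.Prime] (hℓ : ℓ.Prime) (hℓN : ¬ ℓ ∣ N)
    (f : CuspForm (Gamma0 N) 2) :
    periodMap N (CuspForm.heckeTLin 2 hℓ hℓN f) = h5h_T N ℓ hℓN ℂ (periodMap N f) := by
  have : NeZero ℓ := ⟨hℓ.ne_zero⟩
  refine AddMonoidHom.ext fun g' => ?_
  set g : Gamma0 N := Additive.toMul g'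
  change periodMap N (CuspForm.heckeTLin 2 hℓ hℓN f) (Additive.ofMul g)
    = ∑ x, periodMap N f (Additive.ofMul ((h5h_heckeFam N ℓ hℓN).δ g x))
  rw [h1_periodMap_apply, CuspForm.coe_heckeTLin_apply, heckeT_eq_sum_onePoint,
    period_sum _ _ (fun x _ => h3_isDiff_slash_rep (h1_isDiff f) ℓ x) (g : SL(2, ℤ))]
  refine Finset.sum_congr rfl fun x _ => ?_
  rw [h1_periodMap_apply]
  exact h3_period_rep (h1_isDiff f) ℓ x _ (g : SL(2, ℤ)) _ ((h5h_heckeFam N ℓ hℓN).rel g x)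

end Fermat.Agent.Lib.S41
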