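import Mathlib
import Fermat.Agent.Lib.S41.H5Bridge

/-!
# Project S41, layer [H] (H3): the operator `U_q` on `Hom(Γ₀(M), A)` (`q ∣ M`)

Owner: helper5.
-/

set_option autoImplicit false

open P2MW.S_ModularForm_heckeT_slash_eq_self_of_mem_Gamma0.ModularForm.HeckeSlashInvariance
open CongruenceSubgroup Matrix.SpecialLinearGroup ModularCurve ModularCurve.Period
open Fermat.Agent.Lib.Helper3.MS Fermat.Agent.Lib.S21 Fermat.Agent.Lib.S16
open scoped MatrixGroups OnePoint ModularForm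

noncomputable section

namespace Fermat.Agent.Lib.S41

section UFam

variable (M q : ℕ) [NeZero q] (hqM : q ∣ M)

omit [NeZero q] in
include hqM in
theorem h5u_c_zero (g : Gamma0 M) : (((g : SL(2, ℤ)) 1 0 : ℤ) : ZMod q) = 0 :=
  (ZMod.intCast_zmod_eq_zero_iff_dvd _ _).mpr
    ((Int.natCast_dvd_natCast.mpr hqM).trans (h5h_dvd M g))

/-- The permutation of `ZMod q` induced by `g ∈ Γ₀(M)`, `q ∣ M`. -/
def h5u_perm (g : Gamma0 M) : Equiv.Perm (ZMod q) :=
  affinePerm (g : SL(2, ℤ)) (h5u_c_zero M q hqM g)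

theorem h5u_perm_mul (g g' : Gamma0 M) (j : ZMod q) :
    h5u_perm M q hqM (g * g') j = h5u_perm M q hqM g' (h5u_perm M q hqM g j) := by
  have hc := h5u_c_zero M q hqM g
  have hc' := h5u_c_zero M q hqM g'
  have had := unit_of_apply_one_zero_eq_zero (g : SL(2, ℤ)) hc
  simp only [h5u_perm, affinePerm_apply]
  rw [Subgroup.coe_mul, Matrix.SpecialLinearGroup.coe_mul]
  simp only [Matrix.mul_apply, Fin.sum_univ_two]
  push_cast
  set a := (((g : SL(2, ℤ)) 0 0 : ℤ) : ZMod q)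
  set b := (((g : SL(2, ℤ)) 0 1 : ℤ) : ZMod q)
  set c := (((g : SL(2, ℤ)) 1 0 : ℤ) : ZMod q)
  set d := (((g : SL(2, ℤ)) 1 1 : ℤ) : ZMod q)
  set a' := (((g' : SL(2, ℤ)) 0 0 : ℤ) : ZMod q)
  set b' := (((g' : SL(2, ℤ)) 0 1 : ℤ) : ZMod q)
  set c' := (((g' : SL(2, ℤ)) 1 0 : ℤ) : ZMod q)
  set d' := (((g' : SL(2, ℤ)) 1 1 : ℤ) : ZMod q)
  linear_combination (d' * b') * had
    + (b' * (a * b' + b * d' + c * b' * j + d * d' * j) + d * d' * b' * j) * hc

include hqM in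
theorem h5u_exists (g : Gamma0 M) (j : ZMod q) :
    ∃ g' : Gamma0 M, ModularForm.heckeMatrix q j.val * h5h_ι M g
      = h5h_ι M g' * ModularForm.heckeMatrix q (h5u_perm M q hqM g j).val := by
  have hc : (q : ℤ) ∣ (g : SL(2, ℤ)) 1 0 :=
    (Int.natCast_dvd_natCast.mpr hqM).trans (h5h_dvd M g)
  obtain ⟨g', hg', h⟩ := heckeMatrix_mul_of_dvd (g : SL(2, ℤ)) hc j
  refine ⟨⟨g', ?_⟩, h⟩
  apply h5h_mem_of_dvd
  rw [hg']
  exact Dvd.dvd.mul_left (h5h_dvd M g) _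

/-- The family of `U_q` at level `M` (`q ∣ M`). -/
def h5u_fam : h5f_Fam (GL (Fin 2) ℝ) (Gamma0 M) (Gamma0 M) (ZMod q) where
  ι₁ := h5h_ι M
  ι₂ := h5h_ι M
  inj := h5h_ι_inj M
  β := fun j => ModularForm.heckeMatrix q j.val
  σ := fun g => h5u_perm M q hqM g
  δ := fun g j => Classical.choose (h5u_exists M q hqM g j)
  rel := fun g j => Classical.choose_spec (h5u_exists M q hqM g j)
  σ_mul := fun g g' j => h5u_perm_mul M q hqM g g' j

/-- The cohomological operator `U_q` on `Hom(Γ₀(M), A)`. -/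
def h5u_U (A : Type*) [AddCommGroup A] :
    (Additive (Gamma0 M) →+ A) →+ (Additive (Gamma0 M) →+ A) :=
  (h5u_fam M q hqM).op A

end UFam

/-- **H2 for `U_q`**: `periodMap (U_q f) = U_q^coh (periodMap f)`. -/
theorem h5u_periodMap_U {N : ℕ} [NeZero N] {q : ℕ} [NeZero q] (hqN : q ∣ N)
    (f : CuspForm (Gamma0 N) 2) :
    periodMap N (CuspForm.heckeULin 2 hqN f) = h5u_U N q hqN ℂ (periodMap N f) := by
  refine AddMonoidHom.ext fun g' => ?_
  set g : Gamma0 N := Additive.toMul g'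
  change periodMap N (CuspForm.heckeULin 2 hqN f) (Additive.ofMul g)
    = ∑ x, periodMap N f (Additive.ofMul ((h5u_fam N q hqN).δ g x))
  rw [h1_periodMap_apply, CuspForm.coe_heckeULin_apply, heckeU_eq_sum_zmod]
  have e : (∑ x : ZMod q, (⇑f) ∣[(2 : ℤ)] ModularForm.heckeMatrix q x.val)
      = ∑ x : ZMod q, (⇑f) ∣[(2 : ℤ)] heckeRep q (x : OnePoint (ZMod q)) := rfl
  rw [e, period_sum Finset.univ (fun x : ZMod q => (⇑f) ∣[(2 : ℤ)] heckeRep q (x : OnePoint (ZMod q)))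
    (fun x _ => h3_isDiff_slash_rep (h1_isDiff f) q _) (g : SL(2, ℤ))]
  refine Finset.sum_congr rfl fun x _ => ?_
  rw [h1_periodMap_apply]
  exact h3_period_rep (h1_isDiff f) q (x : OnePoint (ZMod q))
    ((h5u_perm N q hqN g x : ZMod q) : OnePoint (ZMod q)) (g : SL(2, ℤ)) _
    ((h5u_fam N q hqN).rel g x)

end Fermat.Agent.Lib.S41
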