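import Mathlib
import Fermat.Agent.Lib.S41.H5U
import Fermat.Agent.Lib.S41.H5Ident
import Fermat.Agent.Lib.S41.H5Lattice

/-!
# Project S41, layer [H] (H3): `res ∘ cores = 1 + U_q W`, `res ∘ coresH = W + U_q`,
hence `U_q² = 1` on `ker α' ∩ ker β'`

Owner: helper5.
-/

set_option autoImplicit false

open P2MW.S_ModularForm_heckeT_slash_eq_self_of_mem_Gamma0.ModularForm.HeckeSlashInvariance
open P2MW.S_ModularForm_heckeT_slash_eq_self_of_mem_Gamma0.ModularForm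
open CongruenceSubgroup Matrix.SpecialLinearGroup ModularCurve ModularCurve.Period
open scoped MatrixGroups OnePoint ModularForm

noncomputable section

namespace Fermat.Agent.Lib.S41

section Master

variable {𝔾 Γ : Type*} [Group 𝔾] [Group Γ] {A : Type*} [AddCommGroup A]

/-- Telescoping lemma with a central factor `z`. -/
theorem h5n_master (ι : Γ →* 𝔾) (hι : Function.Injective ι) (φ : Additive Γ →+ A)
    {I J : Type*} [Fintype I] [Fintype J] (β : I → 𝔾) (β' : J → 𝔾) (g : 𝔾) (z : 𝔾)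
    (hz : ∀ X : 𝔾, z * X = X * z)
    (σ : Equiv.Perm I) (σ' : Equiv.Perm J) (e : I ≃ J) (δ : I → Γ) (δ' : J → Γ) (ε : I → Γ)
    (hδ : ∀ x, β x * g = ι (δ x) * β (σ x))
    (hδ' : ∀ y, β' y * g = ι (δ' y) * β' (σ' y))
    (hε : ∀ x, β' (e x) = z * (ι (ε x) * β x))
    (hcomm : ∀ x, e (σ x) = σ' (e x)) :
    ∑ x, φ (Additive.ofMul (δ x)) = ∑ y, φ (Additive.ofMul (δ' y)) := by
  have hz' : ∀ X : 𝔾, z⁻¹ * X = X * z⁻¹ := by
    intro X
    have := hz (z⁻¹ * X * z⁻¹)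
    rw [← mul_assoc, ← mul_assoc, mul_inv_cancel, one_mul, inv_mul_cancel_right] at this
    exact this.symm
  refine h5f_master ι hι φ β (fun y => z⁻¹ * β' y) g σ σ' e δ δ' ε hδ ?_ ?_ hcomm
  · intro y
    show z⁻¹ * β' y * g = ι (δ' y) * (z⁻¹ * β' (σ' y))
    rw [mul_assoc, hδ' y, ← mul_assoc, hz', mul_assoc]
  · intro x
    show z⁻¹ * β' (e x) = ι (ε x) * β x
    rw [hε x, inv_mul_cancel_left]

end Master

variable {M q : ℕ} [Fact q.Prime] {A : Type*} [AddCommGroup A] (hqM : ¬ q ∣ M)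

instance h5n_neZero : NeZero q := ⟨(Fact.out : q.Prime).ne_zero⟩

omit [Fact q.Prime] in
theorem h5n_dvd : q ∣ M * q := Dvd.intro_left M rfl

omit [Fact q.Prime] in
theorem h5n_incl_coe (k : Gamma0 (M * q)) :
    ((h6_incl M q k : Gamma0 M) : SL(2, ℤ)) = (k : SL(2, ℤ)) := rfl

/-- For `k ∈ Γ₀(M q)`: the action on `P¹(𝔽_q)` fixes `∞`. -/
theorem h5n_act_infty (k : Gamma0 (M * q)) : h5h_act q (k : SL(2, ℤ)) ∞ = ∞ :=
  (h5c_act_infty_iff q _).mpr (dvd_trans (Dvd.intro_left _ rfl) (h6_dvd_of_mem M q k k.2))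

/-- For `k ∈ Γ₀(M q)`: the action on the finite points is the affine permutation. -/
theorem h5n_act_coe (k : Gamma0 (M * q)) (j : ZMod q) :
    h5h_act q (k : SL(2, ℤ)) (j : OnePoint (ZMod q))
      = ((h5u_perm (M * q) q h5n_dvd k j : ZMod q) : OnePoint (ZMod q)) := by
  have hc := h5u_c_zero (M * q) q h5n_dvd k
  have had := unit_of_apply_one_zero_eq_zero (k : SL(2, ℤ)) hc
  rw [h5h_act_apply, OnePoint.smul_some_eq_ite]
  simp only [redMatrix_apply_one_zero, redMatrix_apply_one_one, redMatrix_apply_zero_zero,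
    redMatrix_apply_zero_one]
  rw [hc, zero_mul, zero_add]
  have ha : ((((k : SL(2, ℤ)) 0 0 : ℤ) : ZMod q)) ≠ 0 := by
    intro h0
    rw [h0, zero_mul] at had
    exact zero_ne_one had
  rw [if_neg ha]
  congr 1
  rw [h5u_perm, affinePerm_apply, div_eq_iff ha]
  linear_combination (-(((((k : SL(2, ℤ)) 0 1 : ℤ) : ZMod q))
    + ((((k : SL(2, ℤ)) 1 1 : ℤ) : ZMod q)) * j)) * had

theorem h5n_sum_onePoint {B : Type*} [AddCommMonoid B] (f : OnePoint (ZMod q) → B) :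
    ∑ x, f x = f ∞ + ∑ j : ZMod q, f (j : OnePoint (ZMod q)) :=
  Fintype.sum_option f

/-! ### The operator `W` -/

/-- The Atkin–Lehner-type operator `W` at level `M q` as a family: conjugation by
`diag(1,q) · s_∞`, where `s_∞ ∈ Γ₀(M)` maps `0` to `∞` in `P¹(𝔽_q)`. -/
def h5n_W (hqM : ¬ q ∣ M) :
    h5f_Fam (GL (Fin 2) ℝ) (Gamma0 (M * q)) (Gamma0 (M * q)) Unit where
  ι₁ := h5h_ι (M * q)
  ι₂ := h5h_ι (M * q)
  inj := h5h_ι_inj (M * q)
  β := fun _ => (h5c_coresH hqM).β ∞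
  σ := fun _ => Equiv.refl _
  δ := fun k _ => (h5c_coresH hqM).δ (h6_incl M q k) ∞
  rel := fun k _ => by
    have h := (h5c_coresH hqM).rel (h6_incl M q k) ∞
    have h2 : (h5c_coresH hqM).σ (h6_incl M q k) ∞ = ∞ := h5n_act_infty k
    rw [h2] at h
    exact h
  σ_mul := fun _ _ _ => rfl

theorem h5n_W_op_apply (ψ : Additive (Gamma0 (M * q)) →+ A) (k : Gamma0 (M * q)) :
    (h5n_W hqM).op A ψ (Additive.ofMul k)
      = ψ (Additive.ofMul ((h5c_coresH hqM).δ (h6_incl M q k) ∞)) := by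
  rw [h5f_Fam.op_apply]
  simp [h5n_W]

/-! ### (R2): `res ∘ coresH = W + U_q` -/

theorem h5n_lower_entry (k g' : SL(2, ℤ)) (j : ZMod q)
    (h : heckeRep q ((0 : ZMod q) : OnePoint (ZMod q)) * mapGL ℝ k
      = mapGL ℝ g' * heckeRep q (j : OnePoint (ZMod q))) :
    g' 1 0 = (q : ℤ) * k 1 0 := by
  have hq0 : q ≠ 0 := (Fact.out : q.Prime).ne_zero
  have h1 := congrArg (fun m : GL (Fin 2) ℝ => (m : Matrix (Fin 2) (Fin 2) ℝ) 1 0) h
  simp only [heckeRep_coe, Matrix.GeneralLinearGroup.coe_mul, Matrix.mul_apply, Fin.sum_univ_two,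
    ModularForm.val_heckeMatrix hq0, ZMod.val_zero] at h1
  simp at h1
  exact_mod_cast h1.symm

include hqM in
theorem h5n_match_R2 (j : ZMod q) : ∃ ε : Gamma0 (M * q),
    (h5c_coresH hqM).β (j : OnePoint (ZMod q))
      = h5h_ι (M * q) ε * ModularForm.heckeMatrix q j.val := by
  obtain ⟨g', hg'⟩ := h5h_hecke_exists M q hqM (h5c_secZero hqM (j : OnePoint (ZMod q)))
    ((0 : ZMod q) : OnePoint (ZMod q))
  rw [h5c_secZero_spec hqM] at hg'
  have hlow := h5n_lower_entry (h5c_secZero hqM (j : OnePoint (ZMod q)) : SL(2, ℤ))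
    (g' : SL(2, ℤ)) j hg'
  exact ⟨⟨(g' : SL(2, ℤ)), h5c_mem_mul hqM g' ⟨_, hlow⟩⟩, hg'⟩

theorem h5n_R2 (ψ : Additive (Gamma0 (M * q)) →+ A) (k : Gamma0 (M * q)) :
    (h5c_coresH hqM).op A ψ (Additive.ofMul (h6_incl M q k))
      = (h5n_W hqM).op A ψ (Additive.ofMul k)
        + h5u_U (M * q) q h5n_dvd A ψ (Additive.ofMul k) := by
  rw [h5n_W_op_apply, h5u_U, h5f_Fam.op_apply, h5f_Fam.op_apply, h5n_sum_onePoint]
  congr 1
  symm
  choose ε hε using h5n_match_R2 (M := M) (q := q) hqM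
  refine h5f_master (h5h_ι (M * q)) (h5h_ι_inj (M * q)) ψ
    (fun j : ZMod q => ModularForm.heckeMatrix q j.val)
    (fun j : ZMod q => (h5c_coresH hqM).β (j : OnePoint (ZMod q)))
    (h5h_ι (M * q) k) (h5u_perm (M * q) q h5n_dvd k) (h5u_perm (M * q) q h5n_dvd k)
    (Equiv.refl _) (fun j => (h5u_fam (M * q) q h5n_dvd).δ k j)
    (fun j => (h5c_coresH hqM).δ (h6_incl M q k) (j : OnePoint (ZMod q))) ε ?_ ?_ ?_ ?_
  · intro x
    exact (h5u_fam (M * q) q h5n_dvd).rel k x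
  · intro y
    have h := (h5c_coresH hqM).rel (h6_incl M q k) (y : OnePoint (ZMod q))
    have h2 : (h5c_coresH hqM).σ (h6_incl M q k) (y : OnePoint (ZMod q))
        = ((h5u_perm (M * q) q h5n_dvd k y : ZMod q) : OnePoint (ZMod q)) := h5n_act_coe k y
    rw [h2] at h
    exact h
  · intro x
    exact hε x
  · intro x
    rfl

/-! ### (R1): `res ∘ cores = 1 + U_q W` -/

theorem h5n_key_matrix (s r0 : SL(2, ℤ)) (n : ℕ)
    (h00 : s 0 0 = q * r0 0 0) (h01 : r0 0 1 = r0 0 0 * n + s 0 1) (h10 : r0 1 0 = s 1 0)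
    (h11 : r0 1 1 = s 1 0 * n + q * s 1 1) :
    heckeRep q ((0 : ZMod q) : OnePoint (ZMod q)) * mapGL ℝ s * ModularForm.heckeMatrix q n
      = (heckeRep q ∞ * heckeRep q ((0 : ZMod q) : OnePoint (ZMod q))) * mapGL ℝ r0 := by
  have hq0 : q ≠ 0 := (Fact.out : q.Prime).ne_zero
  have h00' : ((s 0 0 : ℤ) : ℝ) = q * ((r0 0 0 : ℤ) : ℝ) := by exact_mod_cast h00
  have h01' : ((r0 0 1 : ℤ) : ℝ) = ((r0 0 0 : ℤ) : ℝ) * n + ((s 0 1 : ℤ) : ℝ) := by
    exact_mod_cast h01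
  have h10' : ((r0 1 0 : ℤ) : ℝ) = ((s 1 0 : ℤ) : ℝ) := by exact_mod_cast h10
  have h11' : ((r0 1 1 : ℤ) : ℝ) = ((s 1 0 : ℤ) : ℝ) * n + q * ((s 1 1 : ℤ) : ℝ) := by
    exact_mod_cast h11
  apply Matrix.GeneralLinearGroup.ext
  intro i j
  simp only [Matrix.GeneralLinearGroup.coe_mul, Matrix.mul_apply, Fin.sum_univ_two,
    heckeRep_infty, heckeRep_coe, ModularForm.val_heckeDiagMatrix hq0,
    ModularForm.val_heckeMatrix hq0, ZMod.val_zero, mapGL_apply]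
  fin_cases i <;> fin_cases j <;> simp
  · exact h00'
  · rw [h01', h00']; ring
  · exact Or.inl h10.symm
  · rw [h11']; ring

include hqM in
theorem h5n_match_R1 (j : ZMod q) : ∃ ε : Gamma0 (M * q),
    (h5c_coresH hqM).β ∞ * ModularForm.heckeMatrix q j.val
      = (heckeRep q ∞ * heckeRep q ((0 : ZMod q) : OnePoint (ZMod q)))
        * (h5h_ι (M * q) ε * (h5c_cores hqM).β (j : OnePoint (ZMod q))) := by
  have hspec := h5c_secZero_spec hqM (∞ : OnePoint (ZMod q))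
  obtain ⟨s, hs⟩ : ∃ s : Gamma0 M, s = h5c_secZero hqM (∞ : OnePoint (ZMod q)) := ⟨_, rfl⟩
  rw [← hs] at hspec
  -- `q ∣ a`
  have ha : (q : ℤ) ∣ (s : SL(2, ℤ)) 0 0 := by
    rw [h5c_act_zero] at hspec
    by_contra hcon
    rw [if_neg] at hspec
    · exact OnePoint.coe_ne_infty _ hspec
    · rwa [ZMod.intCast_zmod_eq_zero_iff_dvd]
  obtain ⟨a', ha'⟩ := ha
  have hdet : (s : SL(2, ℤ)) 0 0 * (s : SL(2, ℤ)) 1 1 - (s : SL(2, ℤ)) 0 1 * (s : SL(2, ℤ)) 1 0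
      = 1 := by
    have := (s : SL(2, ℤ)).det_coe
    rw [Matrix.det_fin_two] at this
    exact this
  let r0 : SL(2, ℤ) := ⟨!![a', a' * (j.val : ℤ) + (s : SL(2, ℤ)) 0 1;
      (s : SL(2, ℤ)) 1 0, (s : SL(2, ℤ)) 1 0 * (j.val : ℤ) + q * (s : SL(2, ℤ)) 1 1], by
    rw [Matrix.det_fin_two_of]
    rw [ha'] at hdet
    linear_combination hdet⟩
  have e00 : r0 0 0 = a' := rfl
  have e01 : r0 0 1 = a' * (j.val : ℤ) + (s : SL(2, ℤ)) 0 1 := rfl
  have e10 : r0 1 0 = (s : SL(2, ℤ)) 1 0 := rfl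
  have e11 : r0 1 1 = (s : SL(2, ℤ)) 1 0 * (j.val : ℤ) + q * (s : SL(2, ℤ)) 1 1 := rfl
  have hr0 : r0 ∈ Gamma0 M := h5h_mem_of_dvd M r0 (by rw [e10]; exact h5h_dvd M s)
  -- `c` is invertible mod `q`
  have hc : ((((s : SL(2, ℤ)) 1 0 : ℤ) : ZMod q)) ≠ 0 := by
    intro h0
    have : (((s : SL(2, ℤ)) 0 0 * (s : SL(2, ℤ)) 1 1
        - (s : SL(2, ℤ)) 0 1 * (s : SL(2, ℤ)) 1 0 : ℤ) : ZMod q) = ((1 : ℤ) : ZMod q) := by
      rw [hdet]
    rw [ha'] at this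
    push_cast at this
    rw [h0] at this
    simp at this
  have hact : h5h_act q r0 ∞ = (j : OnePoint (ZMod q)) := by
    rw [h5c_act_infty_of_ne q r0 (by rw [e10]; exact hc), e10, e11]
    congr 1
    push_cast
    rw [ZMod.natCast_self, zero_mul, add_zero, ZMod.natCast_zmod_val, mul_div_cancel_left₀ _ hc]
  have hfix : h5h_act q (((⟨r0, hr0⟩ : Gamma0 M) * (h5c_secInf hqM (j : OnePoint (ZMod q)))⁻¹
      : Gamma0 M) : SL(2, ℤ)) ∞ = ∞ := by
    rw [Subgroup.coe_mul, h5h_act_mul, Subgroup.coe_inv]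
    show h5h_act q (h5c_secInf hqM (j : OnePoint (ZMod q)) : SL(2, ℤ))⁻¹ (h5h_act q r0 ∞) = ∞
    rw [hact]
    have h1 := h5o_σ_inv (fun g : SL(2, ℤ) => h5h_act q g)
      (fun g g' x => h5h_act_mul q g g' x) (h5c_secInf hqM (j : OnePoint (ZMod q)) : SL(2, ℤ)) ∞
    rw [h5c_secInf_spec hqM] at h1
    exact h1
  refine ⟨h5c_κinf hqM _ hfix, ?_⟩
  have e1 : h5h_ι (M * q) (h5c_κinf hqM _ hfix) * (h5c_cores hqM).β (j : OnePoint (ZMod q))
      = mapGL ℝ r0 := by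
    show h5h_ι M ((⟨r0, hr0⟩ : Gamma0 M) * (h5c_secInf hqM (j : OnePoint (ZMod q)))⁻¹)
      * (1 * h5h_ι M (h5c_secInf hqM (j : OnePoint (ZMod q)))) = mapGL ℝ r0
    rw [one_mul, ← map_mul, inv_mul_cancel_right]
    rfl
  rw [e1]
  show heckeRep q ((0 : ZMod q) : OnePoint (ZMod q)) * h5h_ι M (h5c_secZero hqM ∞)
    * ModularForm.heckeMatrix q j.val = _
  rw [← hs, h5h_ι_apply]
  exact h5n_key_matrix (s : SL(2, ℤ)) r0 j.val (by rw [e00]; exact ha') (by rw [e01, e00])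
    e10 e11

theorem h5n_cores_δ_infty (k : Gamma0 (M * q)) :
    ∃ c : Gamma0 (M * q), (h5c_cores hqM).δ (h6_incl M q k) ∞ = c * k * c⁻¹ := by
  refine ⟨h5c_κinf hqM (h5c_secInf hqM ∞) (h5c_secInf_spec hqM ∞), ?_⟩
  apply Subtype.ext
  show (h5c_secInf hqM ∞ : SL(2, ℤ)) * ((h6_incl M q k : Gamma0 M) : SL(2, ℤ))
    * ((h5c_secInf hqM (h5h_act q ((h6_incl M q k : Gamma0 M) : SL(2, ℤ)) ∞) : Gamma0 M)
        : SL(2, ℤ))⁻¹ = _
  rw [h5n_incl_coe, h5n_act_infty k]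
  rfl

/-- (R1): `res ∘ cores = 1 + U_q ∘ W`. -/
theorem h5n_R1 (ψ : Additive (Gamma0 (M * q)) →+ A) (k : Gamma0 (M * q)) :
    (h5c_cores hqM).op A ψ (Additive.ofMul (h6_incl M q k))
      = ψ (Additive.ofMul k)
        + h5u_U (M * q) q h5n_dvd A ((h5n_W hqM).op A ψ) (Additive.ofMul k) := by
  rw [h5u_U, h5f_Fam.op_apply, h5f_Fam.op_apply, h5n_sum_onePoint]
  congr 1
  · obtain ⟨c, hc⟩ := h5n_cores_δ_infty hqM k
    rw [hc, ofMul_mul, ofMul_mul, ofMul_inv, map_add, map_add, map_neg]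
    abel
  · simp_rw [h5n_W_op_apply]
    choose ε hε using h5n_match_R1 (M := M) (q := q) hqM
    refine h5n_master (h5h_ι (M * q)) (h5h_ι_inj (M * q)) ψ
      (fun j : ZMod q => (h5c_cores hqM).β (j : OnePoint (ZMod q)))
      (fun j : ZMod q => (h5c_coresH hqM).β ∞ * ModularForm.heckeMatrix q j.val)
      (h5h_ι (M * q) k) (heckeRep q ∞ * heckeRep q ((0 : ZMod q) : OnePoint (ZMod q)))
      h5i_central
      (h5u_perm (M * q) q h5n_dvd k) (h5u_perm (M * q) q h5n_dvd k)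
      (Equiv.refl _)
      (fun j => (h5c_cores hqM).δ (h6_incl M q k) (j : OnePoint (ZMod q)))
      (fun j => (h5c_coresH hqM).δ (h6_incl M q ((h5u_fam (M * q) q h5n_dvd).δ k j)) ∞)
      ε ?_ ?_ ?_ ?_
    · intro x
      have h := (h5c_cores hqM).rel (h6_incl M q k) (x : OnePoint (ZMod q))
      have h2 : (h5c_cores hqM).σ (h6_incl M q k) (x : OnePoint (ZMod q))
          = ((h5u_perm (M * q) q h5n_dvd k x : ZMod q) : OnePoint (ZMod q)) := h5n_act_coe k x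
      rw [h2] at h
      exact h
    · intro y
      have hU : ModularForm.heckeMatrix q y.val * h5h_ι (M * q) k
          = h5h_ι (M * q) ((h5u_fam (M * q) q h5n_dvd).δ k y)
            * ModularForm.heckeMatrix q (h5u_perm (M * q) q h5n_dvd k y).val :=
        (h5u_fam (M * q) q h5n_dvd).rel k y
      have hW : (h5c_coresH hqM).β ∞ * h5h_ι (M * q) ((h5u_fam (M * q) q h5n_dvd).δ k y)
          = h5h_ι (M * q)
              ((h5c_coresH hqM).δ (h6_incl M q ((h5u_fam (M * q) q h5n_dvd).δ k y)) ∞)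
            * (h5c_coresH hqM).β ∞ :=
        (h5n_W hqM).rel ((h5u_fam (M * q) q h5n_dvd).δ k y) ()
      show (h5c_coresH hqM).β ∞ * ModularForm.heckeMatrix q y.val * h5h_ι (M * q) k
        = h5h_ι (M * q)
            ((h5c_coresH hqM).δ (h6_incl M q ((h5u_fam (M * q) q h5n_dvd).δ k y)) ∞)
          * ((h5c_coresH hqM).β ∞
            * ModularForm.heckeMatrix q (h5u_perm (M * q) q h5n_dvd k y).val)
      rw [mul_assoc, hU, ← mul_assoc, hW, mul_assoc]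
    · intro x
      exact hε x
    · intro x
      rfl

/-- **H3**: `U_q² = 1` on `ker α' ∩ ker β'` (the `q`-new part), for any coefficient group. -/
theorem h5n_U_sq (ψ : Additive (Gamma0 (M * q)) →+ A)
    (h1 : (h5c_cores hqM).op A ψ = 0) (h2 : (h5c_coresH hqM).op A ψ = 0) :
    h5u_U (M * q) q h5n_dvd A (h5u_U (M * q) q h5n_dvd A ψ) = ψ := by
  have hW : (h5n_W hqM).op A ψ = -(h5u_U (M * q) q h5n_dvd A ψ) := by
    refine AddMonoidHom.ext fun k' => ?_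
    have h := h5n_R2 hqM ψ (Additive.toMul k')
    rw [h2] at h
    exact eq_neg_of_add_eq_zero_left h.symm
  have hUW : h5u_U (M * q) q h5n_dvd A ((h5n_W hqM).op A ψ) = -ψ := by
    refine AddMonoidHom.ext fun k' => ?_
    have h := h5n_R1 hqM ψ (Additive.toMul k')
    rw [h1] at h
    exact eq_neg_of_add_eq_zero_right h.symm
  rw [hW, map_neg] at hUW
  exact neg_injective hUW

/-! ### Lattice versions -/

/-- `U_q` on `L_M` (`q ∣ M`). -/
def h5l_U (M q : ℕ) [NeZero q] (hq : q ∣ M) :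
    parabolicHoms ℤ (Gamma0 M) ℤ →+ parabolicHoms ℤ (Gamma0 M) ℤ :=
  h5l_restrict (h5u_U M q hq ℤ)
    (h5p_op_parabolic (h5u_fam M q hq) rfl rfl h5l_int_torsionFree)

theorem h5l_U_coe (M q : ℕ) [NeZero q] (hq : q ∣ M) (y : parabolicHoms ℤ (Gamma0 M) ℤ) :
    ((h5l_U M q hq y : parabolicHoms ℤ (Gamma0 M) ℤ) : Additive (Gamma0 M) →+ ℤ)
      = h5u_U M q hq ℤ y.1 := rfl

/-- **H3 on the lattice**: `U_q² = 1` on `L^new = ker α' ∩ ker β' ⊂ L_{Mq}`. -/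
theorem h5l_U_sq (y : parabolicHoms ℤ (Gamma0 (M * q)) ℤ)
    (h1 : h5l_α' M q hqM y = 0) (h2 : h5l_β' M q hqM y = 0) :
    h5l_U (M * q) q h5n_dvd (h5l_U (M * q) q h5n_dvd y) = y := by
  apply Subtype.ext
  show h5u_U (M * q) q h5n_dvd ℤ (h5u_U (M * q) q h5n_dvd ℤ y.1) = y.1
  refine h5n_U_sq hqM y.1 ?_ ?_
  · exact congrArg Subtype.val h1
  · exact congrArg Subtype.val h2

end Fermat.Agent.Lib.S41
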