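import Mathlib
import Fermat.Agent.S49

/-!
# Project S41, layer [F3], part 1: abstract Deligne–Serre lifting for a lattice

Owner: helper8.

`V` a finite-dimensional complex vector space, `Λ ⊂ V` a finitely generated subgroup spanning `V`,
stable under a commuting family `T i` of endomorphisms of `V`.  If `y ∈ Λ ∖ pΛ` is an eigenvector
modulo `p` with integer eigenvalues `a i`, then there are a non-zero `w ∈ V`, algebraic integers
`c i` and a maximal ideal `𝔪'` of `ℤ̄` over `p` with `T i w = c i • w` and `c i ≡ a i (mod 𝔪')`.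
-/

set_option autoImplicit false

namespace Fermat.Agent.Lib.S41

open Fermat.Agent.S49

section Core

variable {V : Type*} [AddCommGroup V] [Module ℂ V] [FiniteDimensional ℂ V] {I : Type*}

/-- `s • y ∈ pΛ` and `y ∉ pΛ` force `p ∣ s`. -/
theorem h8s_dvd_of_smul_mem (Λ : Submodule ℤ V) {p : ℕ} (hp : p.Prime) (y : V) (hyΛ : y ∈ Λ)
    (hy : ¬ ∃ y' ∈ Λ, y = (p : ℤ) • y') (s : ℤ) (hs : ∃ y' ∈ Λ, s • y = (p : ℤ) • y') :
    (p : ℤ) ∣ s := by
  by_contra hnd
  have hcop : IsCoprime (p : ℤ) s :=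
    (Int.isCoprime_iff_gcd_eq_one).mpr
      ((Nat.Prime.coprime_iff_not_dvd hp).mpr (fun h => hnd (by
        rwa [← Int.natAbs_dvd_natAbs, Int.natAbs_natCast])))
  obtain ⟨u, v, huv⟩ := hcop
  obtain ⟨y', hy'Λ, hy'⟩ := hs
  apply hy
  refine ⟨u • y + v • y', Λ.add_mem (Λ.smul_mem u hyΛ) (Λ.smul_mem v hy'Λ), ?_⟩
  calc y = (u * (p : ℤ) + v * s) • y := by rw [huv, one_smul]
    _ = (p : ℤ) • (u • y) + v • (s • y) := by
        rw [add_smul, mul_smul, mul_smul, smul_comm u]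
    _ = (p : ℤ) • (u • y + v • y') := by
        rw [hy', smul_comm v, smul_add]

/-- Abstract Deligne–Serre lifting, for a commutative ring `𝒜` acting on `V` through `ι`. -/
theorem h8s_core {𝒜 : Type*} [CommRing 𝒜] (ι : 𝒜 →+* Module.End ℂ V)
    (Λ : Submodule ℤ V) (hstab : ∀ s : 𝒜, ∀ x ∈ Λ, ι s x ∈ Λ)
    (hint : ∀ s : 𝒜, ∃ P : Polynomial ℤ, P.Monic ∧ ι (P.eval₂ (Int.castRingHom 𝒜) s) = 0)
    (gen : I → 𝒜) {p : ℕ} (hp : p.Prime) (a : I → ℤ) (y : V) (hyΛ : y ∈ Λ)
    (hy : ¬ ∃ y' ∈ Λ, y = (p : ℤ) • y')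
    (heig : ∀ i, ∃ y' ∈ Λ, ι (gen i) y - a i • y = (p : ℤ) • y') :
    ∃ (w : V) (c : I → integralClosure ℤ ℂ) (𝔪' : Ideal (integralClosure ℤ ℂ)),
      w ≠ 0 ∧ 𝔪'.IsMaximal ∧ ((p : ℕ) : integralClosure ℤ ℂ) ∈ 𝔪' ∧
      (∀ i, ι (gen i) w = (c i : ℂ) • w ∧ c i - ((a i : ℤ) : integralClosure ℤ ℂ) ∈ 𝔪') ∧
      ∀ s : 𝒜, ι s = 0 → ι s w = 0 := by
  classical
  haveI : Fact p.Prime := ⟨hp⟩
  -- the polynomial ring and its two characters
  let ρ₀ : MvPolynomial I ℤ →+* 𝒜 := MvPolynomial.eval₂Hom (Int.castRingHom 𝒜) gen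
  let ρ : MvPolynomial I ℤ →+* Module.End ℂ V := ι.comp ρ₀
  let χ : MvPolynomial I ℤ →+* ZMod p := (Int.castRingHom (ZMod p)).comp (MvPolynomial.eval a)
  have hρX : ∀ i, ρ (MvPolynomial.X i) = ι (gen i) := fun i => by
    show ι (ρ₀ (MvPolynomial.X i)) = _
    congr 1
    exact MvPolynomial.eval₂_X _ _ i
  have hρC : ∀ (n : ℤ) (x : V), ρ (MvPolynomial.C n) x = n • x := fun n x => by
    have h1 : ρ (MvPolynomial.C n) = (n : Module.End ℂ V) := by
      show ι (ρ₀ (MvPolynomial.C n)) = _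
      have : ρ₀ (MvPolynomial.C n) = (n : 𝒜) := by
        show MvPolynomial.eval₂ (Int.castRingHom 𝒜) gen (MvPolynomial.C n) = _
        rw [MvPolynomial.eval₂_C]; rfl
      rw [this, map_intCast]
    rw [h1]
    simp
  -- the key induction: every polynomial acts on `y` through its value at `a`, modulo `pΛ`
  have hkey : ∀ t : MvPolynomial I ℤ,
      ∃ y' ∈ Λ, ρ t y - (MvPolynomial.eval a t) • y = (p : ℤ) • y' := by
    intro t
    induction t using MvPolynomial.induction_on with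
    | C n =>
      refine ⟨0, Λ.zero_mem, ?_⟩
      rw [hρC, MvPolynomial.eval_C, sub_self, smul_zero]
    | add t₁ t₂ h₁ h₂ =>
      obtain ⟨y₁, hy₁Λ, hy₁⟩ := h₁
      obtain ⟨y₂, hy₂Λ, hy₂⟩ := h₂
      refine ⟨y₁ + y₂, Λ.add_mem hy₁Λ hy₂Λ, ?_⟩
      rw [map_add, map_add, LinearMap.add_apply, add_smul, smul_add, ← hy₁, ← hy₂]
      abel
    | mul_X t i h =>
      obtain ⟨y₁, hy₁Λ, hy₁⟩ := h
      obtain ⟨y₂, hy₂Λ, hy₂⟩ := heig i
      refine ⟨a i • y₁ + ρ t y₂, Λ.add_mem (Λ.smul_mem _ hy₁Λ) (hstab (ρ₀ t) y₂ hy₂Λ), ?_⟩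
      have e1 : ρ (t * MvPolynomial.X i) y = ρ t (ι (gen i) y) := by
        rw [map_mul, hρX]; rfl
      have e2 : ι (gen i) y = a i • y + (p : ℤ) • y₂ := by
        rw [← hy₂]; abel
      have e3 : ρ t y = (MvPolynomial.eval a t) • y + (p : ℤ) • y₁ := by
        rw [← hy₁]; abel
      rw [e1, e2, map_add, map_zsmul, map_zsmul, e3, map_mul, MvPolynomial.eval_X, smul_add,
        smul_add, mul_smul, smul_comm (a i) (p : ℤ) y₁, smul_comm (a i) (MvPolynomial.eval a t) y]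
      abel
  -- the maximal ideal `𝔫 = ker χ`
  have hχsurj : Function.Surjective χ := fun z => by
    obtain ⟨n, rfl⟩ := ZMod.intCast_surjective z
    exact ⟨MvPolynomial.C n, by simp [χ]⟩
  have h𝔫max : (RingHom.ker χ).IsMaximal := RingHom.ker_isMaximal_of_surjective χ hχsurj
  haveI : (RingHom.ker χ).IsPrime := h𝔫max.isPrime
  have hker : ∀ t : MvPolynomial I ℤ, ρ t = 0 → t ∈ RingHom.ker χ := by
    intro t ht
    obtain ⟨y', hy'Λ, hy'⟩ := hkey t
    rw [ht, LinearMap.zero_apply, zero_sub, ← neg_smul] at hy'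
    have hd : (p : ℤ) ∣ -(MvPolynomial.eval a t) :=
      h8s_dvd_of_smul_mem Λ hp y hyΛ hy _ ⟨y', hy'Λ, hy'⟩
    rw [RingHom.mem_ker]
    show ((MvPolynomial.eval a t : ℤ) : ZMod p) = 0
    rw [ZMod.intCast_zmod_eq_zero_iff_dvd]
    exact (dvd_neg.mp hd)
  obtain ⟨w, θ, hw, hθ, hθker⟩ := exists_eigenchar_of_prime ρ (RingHom.ker χ) hker
  -- integrality of the eigenvalues
  have hcompℤ : θ.comp (Int.castRingHom (MvPolynomial I ℤ)) = algebraMap ℤ ℂ :=
    Subsingleton.elim _ _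
  have hθint : ∀ t, θ t ∈ integralClosure ℤ ℂ := by
    intro t
    obtain ⟨P, hP, hPe⟩ := hint (ρ₀ t)
    refine ⟨P, hP, ?_⟩
    have h1 : ρ (P.eval₂ (Int.castRingHom (MvPolynomial I ℤ)) t) = 0 := by
      show ι (ρ₀ (P.eval₂ (Int.castRingHom (MvPolynomial I ℤ)) t)) = 0
      rw [Polynomial.hom_eval₂]
      have : ρ₀.comp (Int.castRingHom (MvPolynomial I ℤ)) = Int.castRingHom 𝒜 :=
        Subsingleton.elim _ _
      rw [this]
      exact hPe
    have h2 := hθ (P.eval₂ (Int.castRingHom (MvPolynomial I ℤ)) t)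
    rw [h1, LinearMap.zero_apply] at h2
    have h3 : θ (P.eval₂ (Int.castRingHom (MvPolynomial I ℤ)) t) = 0 := by
      rcases smul_eq_zero.mp h2.symm with h | h
      · exact h
      · exact absurd h hw
    rw [Polynomial.hom_eval₂, hcompℤ] at h3
    exact h3
  set θ' : MvPolynomial I ℤ →+* integralClosure ℤ ℂ :=
    θ.codRestrict (integralClosure ℤ ℂ) hθint with hθ'
  have hθ'coe : ∀ t, ((θ' t : integralClosure ℤ ℂ) : ℂ) = θ t := fun t => rfl
  have hkerle : RingHom.ker θ' ≤ RingHom.ker χ := by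
    intro t ht
    apply hθker
    rw [RingHom.mem_ker] at ht
    rw [← hθ'coe, ht]
    rfl
  have hθ'int : θ'.IsIntegral := by
    apply RingHom.IsIntegral.tower_top (Int.castRingHom (MvPolynomial I ℤ)) θ'
    have hcomp : θ'.comp (Int.castRingHom (MvPolynomial I ℤ))
        = algebraMap ℤ (integralClosure ℤ ℂ) := Subsingleton.elim _ _
    rw [hcomp]
    exact algebraMap_isIntegral_iff.mpr inferInstance
  have hmapne : (RingHom.ker χ).map θ' ≠ ⊤ := by
    rw [Ne, Ideal.map_eq_top_iff_of_ker_le θ' hkerle hθ'int]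
    exact h𝔫max.ne_top
  obtain ⟨𝔪', h𝔪'max, h𝔪'le⟩ := Ideal.exists_le_maximal _ hmapne
  have hmem : ∀ t ∈ RingHom.ker χ, θ' t ∈ 𝔪' := fun t ht =>
    h𝔪'le (Ideal.mem_map_of_mem θ' ht)
  refine ⟨w, fun i => θ' (MvPolynomial.X i), 𝔪', hw, h𝔪'max, ?_, ?_, ?_⟩
  · have h1 : (MvPolynomial.C (p : ℤ) : MvPolynomial I ℤ) ∈ RingHom.ker χ := by
      rw [RingHom.mem_ker]
      simp [χ]
    have h2 := hmem _ h1
    have h3 : θ' (MvPolynomial.C (p : ℤ)) = ((p : ℕ) : integralClosure ℤ ℂ) := by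
      have : (MvPolynomial.C (p : ℤ) : MvPolynomial I ℤ) = ((p : ℕ) : MvPolynomial I ℤ) := by
        simp
      rw [this, map_natCast]
    rwa [h3] at h2
  · intro i
    refine ⟨?_, ?_⟩
    · rw [hθ'coe, ← hθ, hρX]
    · have h1 : (MvPolynomial.X i - MvPolynomial.C (a i) : MvPolynomial I ℤ) ∈ RingHom.ker χ := by
        rw [RingHom.mem_ker]
        simp [χ]
      have h2 := hmem _ h1
      have h3 : θ' (MvPolynomial.C (a i)) = ((a i : ℤ) : integralClosure ℤ ℂ) := by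
        have : (MvPolynomial.C (a i) : MvPolynomial I ℤ) = ((a i : ℤ) : MvPolynomial I ℤ) := by
          simp
        rw [this, map_intCast]
      rwa [map_sub, h3] at h2
  · intro s hs
    rw [hs, LinearMap.zero_apply]

open scoped IsMulCommutative in
/-- Deligne–Serre lifting for a spanning lattice stable under a commuting family. -/
theorem h8s_ds_span (Λ : Submodule ℤ V) (hfg : Λ.FG)
    (hspan : Submodule.span ℂ (Λ : Set V) = ⊤)
    (T : I → Module.End ℂ V) (hstab : ∀ i, ∀ x ∈ Λ, T i x ∈ Λ)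
    (hcomm : ∀ i j, T i * T j = T j * T i)
    {p : ℕ} (hp : p.Prime) (a : I → ℤ) (y : V) (hyΛ : y ∈ Λ)
    (hy : ¬ ∃ y' ∈ Λ, y = (p : ℤ) • y')
    (heig : ∀ i, ∃ y' ∈ Λ, T i y - a i • y = (p : ℤ) • y') :
    ∃ (w : V) (c : I → integralClosure ℤ ℂ) (𝔪' : Ideal (integralClosure ℤ ℂ)),
      w ≠ 0 ∧ 𝔪'.IsMaximal ∧ ((p : ℕ) : integralClosure ℤ ℂ) ∈ 𝔪' ∧
      ∀ i, T i w = (c i : ℂ) • w ∧ c i - ((a i : ℤ) : integralClosure ℤ ℂ) ∈ 𝔪' := by
  classical
  let 𝒜 : Subalgebra ℤ (Module.End ℂ V) := Algebra.adjoin ℤ (Set.range T)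
  haveI : IsMulCommutative 𝒜 := Algebra.isMulCommutative_adjoin ℤ (by
    rintro _ ⟨i, rfl⟩ _ ⟨j, rfl⟩
    exact hcomm i j)
  letI : CommRing 𝒜 := inferInstance
  let ι : 𝒜 →+* Module.End ℂ V := 𝒜.val.toRingHom
  have hιcoe : ∀ s : 𝒜, ι s = (s : Module.End ℂ V) := fun s => rfl
  have hstab' : ∀ s : 𝒜, ∀ x ∈ Λ, ι s x ∈ Λ := by
    rintro ⟨s, hs⟩
    show ∀ x ∈ Λ, s x ∈ Λ
    induction hs using Algebra.adjoin_induction with
    | mem s hs =>
      obtain ⟨i, rfl⟩ := hs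
      exact hstab i
    | algebraMap n =>
      intro x hx
      have : (algebraMap ℤ (Module.End ℂ V) n) x = n • x := by
        rw [Module.algebraMap_end_apply]
      rw [this]
      exact Λ.smul_mem n hx
    | add s t _ _ hs ht =>
      intro x hx
      exact Λ.add_mem (hs x hx) (ht x hx)
    | mul s t _ _ hs ht =>
      intro x hx
      exact hs _ (ht x hx)
  -- restriction to the lattice
  let r : 𝒜 →+* Module.End ℤ Λ :=
    { toFun := fun s => ((ι s).restrictScalars ℤ).restrict (fun x hx => hstab' s x hx)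
      map_one' := by
        apply LinearMap.ext; intro x; apply Subtype.ext; rfl
      map_mul' := fun s t => by
        apply LinearMap.ext; intro x; apply Subtype.ext; rfl
      map_zero' := by
        apply LinearMap.ext; intro x; apply Subtype.ext; rfl
      map_add' := fun s t => by
        apply LinearMap.ext; intro x; apply Subtype.ext; rfl }
  have hr : ∀ (s : 𝒜) (x : Λ), ((r s x : Λ) : V) = ι s x := fun s x => rfl
  have hrinj : ∀ s : 𝒜, r s = 0 → ι s = 0 := by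
    intro s hs
    have h0 : ∀ x ∈ Λ, ι s x = 0 := by
      intro x hx
      have := hr s ⟨x, hx⟩
      rw [hs] at this
      exact this.symm
    apply LinearMap.ext
    intro x
    have hx : x ∈ Submodule.span ℂ (Λ : Set V) := by rw [hspan]; exact Submodule.mem_top
    induction hx using Submodule.span_induction with
    | mem x hx => exact h0 x hx
    | zero => simp
    | add x y _ _ hx hy => rw [map_add, hx, hy]; simp
    | smul c x _ hx => rw [map_smul, hx]; simp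
  haveI : Module.Finite ℤ Λ := Module.Finite.iff_fg.mpr hfg
  have hint : ∀ s : 𝒜, ∃ P : Polynomial ℤ, P.Monic ∧ ι (P.eval₂ (Int.castRingHom 𝒜) s) = 0 := by
    intro s
    obtain ⟨P, hP, hPe⟩ := Algebra.IsIntegral.isIntegral (R := ℤ) (r s)
    refine ⟨P, hP, hrinj _ ?_⟩
    have hcomp : r.comp (Int.castRingHom 𝒜) = algebraMap ℤ (Module.End ℤ Λ) :=
      Subsingleton.elim _ _
    rw [Polynomial.hom_eval₂, hcomp]
    exact hPe
  obtain ⟨w, c, 𝔪', hw, hmax, hpm, hc, -⟩ := h8s_core ι Λ hstab' hint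
    (fun i => (⟨T i, Algebra.subset_adjoin ⟨i, rfl⟩⟩ : 𝒜)) hp a y hyΛ hy heig
  exact ⟨w, c, 𝔪', hw, hmax, hpm, hc⟩

end Core

section General

variable {V : Type*} [AddCommGroup V] [Module ℂ V] {I : Type*}

/-- **Deligne–Serre lifting for a lattice** `Λ` in an arbitrary complex vector space, stable
under a family of endomorphisms commuting on `Λ`. -/
theorem h8s_deligneSerre (Λ : Submodule ℤ V) (hfg : Λ.FG) (T : I → Module.End ℂ V)
    (hstab : ∀ i, ∀ x ∈ Λ, T i x ∈ Λ)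
    (hcomm : ∀ i j, ∀ x ∈ Λ, T i (T j x) = T j (T i x))
    {p : ℕ} (hp : p.Prime) (a : I → ℤ) (y : V) (hyΛ : y ∈ Λ)
    (hy : ¬ ∃ y' ∈ Λ, y = (p : ℤ) • y')
    (heig : ∀ i, ∃ y' ∈ Λ, T i y - a i • y = (p : ℤ) • y') :
    ∃ (w : V) (c : I → integralClosure ℤ ℂ) (𝔪' : Ideal (integralClosure ℤ ℂ)),
      w ∈ Submodule.span ℂ (Λ : Set V) ∧ w ≠ 0 ∧ 𝔪'.IsMaximal ∧
      ((p : ℕ) : integralClosure ℤ ℂ) ∈ 𝔪' ∧
      ∀ i, T i w = (c i : ℂ) • w ∧ c i - ((a i : ℤ) : integralClosure ℤ ℂ) ∈ 𝔪' := by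
  classical
  set W : Submodule ℂ V := Submodule.span ℂ (Λ : Set V) with hWdef
  have hΛW : ∀ x ∈ Λ, x ∈ W := fun x hx => Submodule.subset_span hx
  -- finite-dimensionality
  obtain ⟨S, hS⟩ := hfg
  have hWS : W = Submodule.span ℂ (S : Set V) := by
    apply le_antisymm
    · apply Submodule.span_le.mpr
      intro x hx
      have hx' : x ∈ Submodule.span ℤ (S : Set V) := by rw [hS]; exact hx
      exact Submodule.span_le_restrictScalars ℤ ℂ _ hx'
    · apply Submodule.span_mono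
      intro x hx
      have : x ∈ Submodule.span ℤ (S : Set V) := Submodule.subset_span hx
      rw [hS] at this
      exact this
  haveI : FiniteDimensional ℂ W := by
    rw [hWS]
    exact FiniteDimensional.span_finset ℂ S
  -- stability of `W`
  have hWstab : ∀ i, ∀ x ∈ W, T i x ∈ W := by
    intro i x hx
    induction hx using Submodule.span_induction with
    | mem x hx => exact hΛW _ (hstab i x hx)
    | zero => rw [map_zero]; exact W.zero_mem
    | add x y _ _ hx hy => rw [map_add]; exact W.add_mem hx hy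
    | smul c x _ hx => rw [map_smul]; exact W.smul_mem c hx
  have hWcomm : ∀ i j, ∀ x ∈ W, T i (T j x) = T j (T i x) := by
    intro i j x hx
    induction hx using Submodule.span_induction with
    | mem x hx => exact hcomm i j x hx
    | zero => simp
    | add x y _ _ hx hy => rw [map_add, map_add, map_add, map_add, hx, hy]
    | smul c x _ hx => rw [map_smul, map_smul, map_smul, map_smul, hx]
  let T' : I → Module.End ℂ W := fun i => (T i).restrict (hWstab i)
  have hT' : ∀ i (x : W), ((T' i x : W) : V) = T i x := fun i x => rfl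
  let Λ' : Submodule ℤ W := Λ.comap (W.subtype.restrictScalars ℤ)
  have hΛ' : ∀ x : W, x ∈ Λ' ↔ (x : V) ∈ Λ := fun x => Iff.rfl
  have hfg' : Λ'.FG := by
    apply Submodule.fg_of_fg_map_injective (W.subtype.restrictScalars ℤ)
      (by exact W.injective_subtype)
    have : Λ'.map (W.subtype.restrictScalars ℤ) = Λ := by
      apply le_antisymm
      · rintro _ ⟨x, hx, rfl⟩
        exact hx
      · intro x hx
        exact ⟨⟨x, hΛW x hx⟩, hx, rfl⟩
    rw [this]
    exact ⟨S, hS⟩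
  have hspan' : Submodule.span ℂ (Λ' : Set W) = ⊤ := by
    apply Submodule.map_injective_of_injective W.injective_subtype
    rw [Submodule.map_span, Submodule.map_top, Submodule.range_subtype]
    have : (W.subtype '' (Λ' : Set W)) = (Λ : Set V) := by
      ext x
      constructor
      · rintro ⟨x', hx', rfl⟩
        exact hx'
      · intro hx
        exact ⟨⟨x, hΛW x hx⟩, hx, rfl⟩
    rw [this]
  obtain ⟨w, c, 𝔪', hw, hmax, hpm, hc⟩ := h8s_ds_span Λ' hfg' hspan' T'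
    (fun i x hx => hstab i _ hx)
    (fun i j => by
      apply LinearMap.ext; intro x; apply Subtype.ext
      exact hWcomm i j x x.2)
    hp a ⟨y, hΛW y hyΛ⟩ hyΛ
    (by
      rintro ⟨y', hy'Λ, hy'⟩
      exact hy ⟨y', hy'Λ, congrArg Subtype.val hy'⟩)
    (fun i => by
      obtain ⟨y', hy'Λ, hy'⟩ := heig i
      exact ⟨⟨y', hΛW y' hy'Λ⟩, hy'Λ, Subtype.ext hy'⟩)
  refine ⟨w, c, 𝔪', w.2, fun h => hw (Subtype.ext h), hmax, hpm, fun i => ⟨?_, (hc i).2⟩⟩
  have := congrArg Subtype.val (hc i).1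
  exact this

end General

end Fermat.Agent.Lib.S41
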