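import Mathlib
import Fermat.Agent.Lib.S41.H5New
import Fermat.Prelude.Def_ModularCurve_PeriodHomPair
import Fermat.Agent.Lib.S21.PeriodPrim

/-!
# Project S41, layer [H]/[F]: Eichler–Shimura equivariance

`charInvolution` commutes with the cohomological `T_ℓ` and `U_q`; hence `periodHomPair`
intertwines the Hecke operators on cusp forms with the cohomological ones.

Owner: helper5.
-/

set_option autoImplicit false

open P2MW.S_ModularForm_heckeT_slash_eq_self_of_mem_Gamma0.ModularForm.HeckeSlashInvariance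
open P2MW.S_ModularForm_heckeT_slash_eq_self_of_mem_Gamma0.ModularForm
open CongruenceSubgroup Matrix.SpecialLinearGroup ModularCurve ModularCurve.Period
open Fermat.Agent.Lib.S21
open scoped MatrixGroups OnePoint ModularForm

noncomputable section

namespace Fermat.Agent.Lib.S41

/-- `ε = diag(1, -1) ∈ GL₂(ℝ)`. -/
def h5e_eps : GL (Fin 2) ℝ :=
  Matrix.GeneralLinearGroup.mkOfDetNeZero !![1, 0; 0, -1] (by simp [Matrix.det_fin_two_of])

theorem h5e_eps_val : ((h5e_eps : GL (Fin 2) ℝ) : Matrix (Fin 2) (Fin 2) ℝ) = !![1, 0; 0, -1] := rfl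

theorem h5e_eps_rel (N : ℕ) (g : Gamma0 N) :
    h5e_eps * h5h_ι N g = h5h_ι N (jConjGamma0 N g) * h5e_eps := by
  apply Matrix.GeneralLinearGroup.ext
  intro i j
  rw [Matrix.GeneralLinearGroup.coe_mul, Matrix.GeneralLinearGroup.coe_mul, Matrix.mul_apply,
    Matrix.mul_apply, Fin.sum_univ_two, Fin.sum_univ_two, h5e_eps_val, h5h_ι_apply, h5h_ι_apply]
  fin_cases i <;> fin_cases j <;>
    simp [mapGL_apply, jConjGamma0_coe, jConjSL_coe]

/-- Pull-back along `jConjGamma0` as a family. -/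
def h5e_jFam (N : ℕ) : h5f_Fam (GL (Fin 2) ℝ) (Gamma0 N) (Gamma0 N) Unit :=
  h5f_ofHom (h5h_ι N) (h5h_ι N) (h5h_ι_inj N) (jConjGamma0 N) h5e_eps (h5e_eps_rel N)

theorem h5e_jFam_op {N : ℕ} {A : Type*} [AddCommGroup A] (R : Type*) [Semiring R] [Module R A]
    (φ : Additive (Gamma0 N) →+ A) :
    (h5e_jFam N).op A φ = charInvolution N R A φ := by
  refine AddMonoidHom.ext fun g => ?_
  exact h5f_ofHom_op _ _ _ _ _ _ φ (Additive.toMul g)

/-- Negation on `P¹(𝔽_ℓ)`. -/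
def h5e_neg (ℓ : ℕ) : OnePoint (ZMod ℓ) ≃ OnePoint (ZMod ℓ) :=
  Equiv.optionCongr (Equiv.neg (ZMod ℓ))

theorem h5e_neg_infty (ℓ : ℕ) : h5e_neg ℓ (∞ : OnePoint (ZMod ℓ)) = ∞ := rfl

theorem h5e_neg_coe (ℓ : ℕ) (j : ZMod ℓ) :
    h5e_neg ℓ (j : OnePoint (ZMod ℓ)) = ((-j : ZMod ℓ) : OnePoint (ZMod ℓ)) := rfl

theorem h5e_match_fin (M q : ℕ) [NeZero q] (j : ZMod q) :
    ∃ γ : Gamma0 M, ModularForm.heckeMatrix q (-j).val * h5e_eps
      = h5h_ι M γ * (h5e_eps * ModularForm.heckeMatrix q j.val) := by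
  have hq0 : q ≠ 0 := NeZero.ne q
  set a : ℕ := (-j).val with ha
  set b : ℕ := j.val with hb
  obtain ⟨t, ht⟩ : (q : ℤ) ∣ (a : ℤ) + (b : ℤ) := by
    rw [← ZMod.intCast_zmod_eq_zero_iff_dvd]
    push_cast
    rw [ha, hb, ZMod.natCast_zmod_val, ZMod.natCast_zmod_val, neg_add_cancel]
  refine ⟨h5m_Tpow M t, ?_⟩
  rw [h5h_ι_apply]
  show _ = mapGL ℝ (ModularGroup.T ^ t) * _
  apply Matrix.GeneralLinearGroup.ext
  intro i k
  have htr : (a : ℝ) + (b : ℝ) = (q : ℝ) * (t : ℝ) := by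
    have := congrArg (Int.cast : ℤ → ℝ) ht
    push_cast at this
    linarith
  simp only [Matrix.GeneralLinearGroup.coe_mul, Matrix.mul_apply, Fin.sum_univ_two,
    ModularForm.val_heckeMatrix hq0, mapGL_apply, ModularGroup.coe_T_zpow, h5e_eps_val]
  fin_cases i <;> fin_cases k <;> simp
  linarith

theorem h5e_match (M ℓ : ℕ) [Fact ℓ.Prime] (y : OnePoint (ZMod ℓ)) :
    ∃ γ : Gamma0 M, heckeRep ℓ (h5e_neg ℓ y) * h5e_eps
      = h5h_ι M γ * (h5e_eps * heckeRep ℓ y) := by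
  have hℓ0 : ℓ ≠ 0 := (Fact.out : ℓ.Prime).ne_zero
  induction y using OnePoint.rec with
  | infty =>
    refine ⟨1, ?_⟩
    rw [h5e_neg_infty, map_one, one_mul, heckeRep_infty]
    apply Matrix.GeneralLinearGroup.ext
    intro i j
    simp only [Matrix.GeneralLinearGroup.coe_mul, Matrix.mul_apply, Fin.sum_univ_two,
      ModularForm.val_heckeDiagMatrix hℓ0, h5e_eps_val]
    fin_cases i <;> fin_cases j <;> simp
  | coe j =>
    rw [h5e_neg_coe, heckeRep_coe, heckeRep_coe]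
    exact h5e_match_fin M ℓ j

variable {M ℓ : ℕ} [Fact ℓ.Prime] {A : Type*} [AddCommGroup A]

/-- **`T_ℓ` commutes with the involution `j`.** -/
theorem h5e_T_j (hℓ : ¬ ℓ ∣ M) (φ : Additive (Gamma0 M) →+ A) :
    h5h_T M ℓ hℓ A ((h5e_jFam M).op A φ) = (h5e_jFam M).op A (h5h_T M ℓ hℓ A φ) := by
  rw [h5h_T, ← h5f_Fam.op_comp (h5e_jFam M) (h5h_heckeFam M ℓ hℓ) rfl,
    ← h5f_Fam.op_comp (h5h_heckeFam M ℓ hℓ) (h5e_jFam M) rfl]
  congr 1
  choose ε hε using h5e_match M ℓ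
  refine h5f_Fam.op_eq_of_match' _ _ rfl rfl
    ((Equiv.prodComm _ _).trans (Equiv.prodCongr (Equiv.refl Unit) (h5e_neg ℓ)))
    (fun yu => ε yu.1) ?_ ?_
  · rintro ⟨y, u⟩
    exact hε y
  · rintro ⟨u, x⟩ ⟨u', x'⟩ γ h
    have h1 : heckeRep ℓ x * h5e_eps = h5h_ι M γ * (heckeRep ℓ x' * h5e_eps) := h
    rw [← mul_assoc] at h1
    have h2 := h5m_heckeRep_distinct x x' (γ : SL(2, ℤ)) (mul_right_cancel h1)
    rw [h2]

/-- **`U_ℓ` commutes with the involution `j`** (`ℓ ∣ M` prime). -/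
theorem h5e_U_j (hℓ : ℓ ∣ M) (φ : Additive (Gamma0 M) →+ A) :
    h5u_U M ℓ hℓ A ((h5e_jFam M).op A φ) = (h5e_jFam M).op A (h5u_U M ℓ hℓ A φ) := by
  rw [h5u_U, ← h5f_Fam.op_comp (h5e_jFam M) (h5u_fam M ℓ hℓ) rfl,
    ← h5f_Fam.op_comp (h5u_fam M ℓ hℓ) (h5e_jFam M) rfl]
  congr 1
  choose ε hε using h5e_match_fin M ℓ
  refine h5f_Fam.op_eq_of_match' _ _ rfl rfl
    ((Equiv.prodComm _ _).trans (Equiv.prodCongr (Equiv.refl Unit) (Equiv.neg (ZMod ℓ))))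
    (fun yu => ε yu.1) ?_ ?_
  · rintro ⟨y, u⟩
    exact hε y
  · rintro ⟨u, x⟩ ⟨u', x'⟩ γ h
    have h1 : heckeRep ℓ (x : OnePoint (ZMod ℓ)) * h5e_eps
        = h5h_ι M γ * (heckeRep ℓ (x' : OnePoint (ZMod ℓ)) * h5e_eps) := h
    rw [← mul_assoc] at h1
    have h2 := h5m_heckeRep_distinct (x : OnePoint (ZMod ℓ)) (x' : OnePoint (ZMod ℓ))
      (γ : SL(2, ℤ)) (mul_right_cancel h1)
    rw [OnePoint.coe_injective h2]

/-! ### `periodHomPair` is Hecke-equivariant -/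

theorem h5e_php_apply (N : ℕ) [NeZero N] (f g : CuspForm (Gamma0 N) 2) :
    periodHomPair N (f, g)
      = (periodMap N f + charInvolution N ℂ ℂ (periodMap N f))
        + (periodMap N g - charInvolution N ℂ ℂ (periodMap N g)) := by
  obtain ⟨pml, hpml, hdef⟩ := periodHomPair_def N (h1_existsPeriodMapLinear N)
  rw [hdef]
  simp only [LinearMap.coprod_apply, LinearMap.comp_apply, LinearMap.add_apply,
    LinearMap.sub_apply, LinearMap.id_apply, hpml]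

theorem h5e_php_T {N : ℕ} [NeZero N] {ℓ : ℕ} [Fact ℓ.Prime] (hℓ : ℓ.Prime) (hℓN : ¬ ℓ ∣ N)
    (f g : CuspForm (Gamma0 N) 2) :
    periodHomPair N (CuspForm.heckeTLin 2 hℓ hℓN f, CuspForm.heckeTLin 2 hℓ hℓN g)
      = h5h_T N ℓ hℓN ℂ (periodHomPair N (f, g)) := by
  rw [h5e_php_apply, h5e_php_apply, map_add, map_add, map_sub, h5b_periodMap_T, h5b_periodMap_T,
    ← h5e_jFam_op ℂ, ← h5e_jFam_op ℂ, ← h5e_jFam_op ℂ, ← h5e_jFam_op ℂ, h5e_T_j, h5e_T_j]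

theorem h5e_php_U {N : ℕ} [NeZero N] {q : ℕ} [Fact q.Prime] (hqN : q ∣ N)
    (f g : CuspForm (Gamma0 N) 2) :
    periodHomPair N (CuspForm.heckeULin 2 hqN f, CuspForm.heckeULin 2 hqN g)
      = h5u_U N q hqN ℂ (periodHomPair N (f, g)) := by
  rw [h5e_php_apply, h5e_php_apply, map_add, map_add, map_sub, h5u_periodMap_U, h5u_periodMap_U,
    ← h5e_jFam_op ℂ, ← h5e_jFam_op ℂ, ← h5e_jFam_op ℂ, ← h5e_jFam_op ℂ, h5e_U_j, h5e_U_j]

end Fermat.Agent.Lib.S41
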