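import Mathlib
import Fermat.Agent.Lib.S16.H3PeriodPar
import Fermat.Agent.Lib.S41.H5ES

/-!
# Project S41, layer [F3], part 3a: coefficient extension and commutation of the cohomological
Hecke operators on parabolic homomorphisms

Owner: helper8.
-/

set_option autoImplicit false

open CongruenceSubgroup ModularCurve ModularCurve.Period
open Fermat.Agent.Lib.S21 Fermat.Agent.Lib.S16
open scoped MatrixGroups

noncomputable section

namespace Fermat.Agent.Lib.S41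

section Coeff

variable {Γ : Type*} [Group Γ]

/-- Extension of coefficients `ℤ → ℂ`. -/
def h8f_j : (Additive Γ →+ ℤ) →ₗ[ℤ] (Additive Γ →+ ℂ) where
  toFun φ := (Int.castAddHom ℂ).comp φ
  map_add' φ ψ := by
    refine AddMonoidHom.ext fun g => ?_
    simp
  map_smul' n φ := by
    refine AddMonoidHom.ext fun g => ?_
    simp

theorem h8f_j_apply (φ : Additive Γ →+ ℤ) (g : Additive Γ) : h8f_j φ g = ((φ g : ℤ) : ℂ) := rfl

theorem h8f_j_injective : Function.Injective (h8f_j (Γ := Γ)) := by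
  intro φ ψ h
  refine AddMonoidHom.ext fun g => ?_
  have := DFunLike.congr_fun h g
  rw [h8f_j_apply, h8f_j_apply] at this
  exact_mod_cast this

variable {𝔾 : Type*} [Group 𝔾] {Γ₁ Γ₂ : Type*} [Group Γ₁] [Group Γ₂] {I : Type*} [Fintype I]

/-- Family operators commute with the extension of coefficients. -/
theorem h8f_op_j (F : h5f_Fam 𝔾 Γ₁ Γ₂ I) (φ : Additive Γ₁ →+ ℤ) :
    F.op ℂ (h8f_j φ) = h8f_j (F.op ℤ φ) := by
  refine AddMonoidHom.ext fun g' => ?_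
  set g : Γ₂ := Additive.toMul g'
  change ∑ x, ((φ (Additive.ofMul (F.δ g x)) : ℤ) : ℂ)
    = ((∑ x, φ (Additive.ofMul (F.δ g x)) : ℤ) : ℂ)
  rw [Int.cast_sum]

/-- A family operator with complex coefficients as a `ℂ`-linear map. -/
def h8f_opLin (F : h5f_Fam 𝔾 Γ₁ Γ₂ I) : (Additive Γ₁ →+ ℂ) →ₗ[ℂ] (Additive Γ₂ →+ ℂ) where
  toFun := F.op ℂ
  map_add' := map_add _
  map_smul' z φ := by
    refine AddMonoidHom.ext fun g' => ?_
    set g : Γ₂ := Additive.toMul g'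
    change ∑ x, z • φ (Additive.ofMul (F.δ g x)) = z • ∑ x, φ (Additive.ofMul (F.δ g x))
    rw [Finset.smul_sum]

@[simp] theorem h8f_opLin_apply (F : h5f_Fam 𝔾 Γ₁ Γ₂ I) (φ : Additive Γ₁ →+ ℂ) :
    h8f_opLin F φ = F.op ℂ φ := rfl

end Coeff

theorem h8f_j_parabolic {M : ℕ} (φ : Additive (Gamma0 M) →+ ℤ)
    (hφ : φ ∈ parabolicHoms ℤ (Gamma0 M) ℤ) :
    h8f_j φ ∈ parabolicHoms ℂ (Gamma0 M) ℂ := by
  intro γ hγ
  show ((φ (Additive.ofMul γ) : ℤ) : ℂ) = 0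
  rw [hφ γ hγ, Int.cast_zero]

variable {M : ℕ} [NeZero M]

theorem h8f_php_surj (φ : Additive (Gamma0 M) →+ ℂ) (hφ : φ ∈ parabolicHoms ℂ (Gamma0 M) ℂ) :
    ∃ f g : CuspForm (Gamma0 M) 2, periodHomPair M (f, g) = φ := by
  rw [← h3_range_periodHomPair M] at hφ
  obtain ⟨⟨f, g⟩, h⟩ := hφ
  exact ⟨f, g, h⟩

/-- `T_ℓ^coh` and `T_ℓ'^coh` commute on parabolic homomorphisms. -/
theorem h8f_TT_comm {ℓ ℓ' : ℕ} [Fact ℓ.Prime] [Fact ℓ'.Prime] (hℓ : ¬ ℓ ∣ M) (hℓ' : ¬ ℓ' ∣ M)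
    (φ : Additive (Gamma0 M) →+ ℂ) (hφ : φ ∈ parabolicHoms ℂ (Gamma0 M) ℂ) :
    h5h_T M ℓ hℓ ℂ (h5h_T M ℓ' hℓ' ℂ φ) = h5h_T M ℓ' hℓ' ℂ (h5h_T M ℓ hℓ ℂ φ) := by
  obtain ⟨f, g, rfl⟩ := h8f_php_surj φ hφ
  have hp : ℓ.Prime := Fact.out
  have hp' : ℓ'.Prime := Fact.out
  rw [← h5e_php_T hp' hℓ', ← h5e_php_T hp hℓ, ← h5e_php_T hp hℓ, ← h5e_php_T hp' hℓ']
  have hc := (CuspForm.heckeTLin_comm (N := M) 2 hp hℓ hp' hℓ').eq
  have h1 := LinearMap.congr_fun hc f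
  have h2 := LinearMap.congr_fun hc g
  rw [Module.End.mul_apply, Module.End.mul_apply] at h1 h2
  rw [h1, h2]

/-- `T_ℓ^coh` and `U_q^coh` commute on parabolic homomorphisms. -/
theorem h8f_TU_comm {ℓ q : ℕ} [Fact ℓ.Prime] [Fact q.Prime] (hℓ : ¬ ℓ ∣ M) (hq : q ∣ M)
    (φ : Additive (Gamma0 M) →+ ℂ) (hφ : φ ∈ parabolicHoms ℂ (Gamma0 M) ℂ) :
    h5h_T M ℓ hℓ ℂ (h5u_U M q hq ℂ φ) = h5u_U M q hq ℂ (h5h_T M ℓ hℓ ℂ φ) := by
  obtain ⟨f, g, rfl⟩ := h8f_php_surj φ hφ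
  have hp : ℓ.Prime := Fact.out
  rw [← h5e_php_U hq, ← h5e_php_T hp hℓ, ← h5e_php_T hp hℓ, ← h5e_php_U hq]
  have hc := (CuspForm.heckeTLin_heckeULin_comm (N := M) 2 hp hℓ hq).eq
  have h1 := LinearMap.congr_fun hc f
  have h2 := LinearMap.congr_fun hc g
  rw [Module.End.mul_apply, Module.End.mul_apply] at h1 h2
  rw [h1, h2]

/-- The period pair of a pair of cusp forms is parabolic. -/
theorem h8f_php_mem (f g : CuspForm (Gamma0 M) 2) :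
    periodHomPair M (f, g) ∈ parabolicHoms ℂ (Gamma0 M) ℂ := by
  rw [← h3_range_periodHomPair M]
  exact ⟨(f, g), rfl⟩

end Fermat.Agent.Lib.S41
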