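import Mathlib
import Fermat.Agent.S49
import Fermat.Agent.Lib.S41.H8F3a
import Fermat.Agent.Lib.S41.H8DS

/-!
# Project S41, layer [F3]: from a `q`-new mod `p` eigenclass in `L_M` to a normalised eigenform

Owner: helper8.

Input: `y ∈ L_M = parabolicHoms ℤ (Gamma0 M) ℤ` with `U_q² y = y`, `y ∉ p L_M`,
`T_ℓ y ≡ a ℓ • y (mod p L_M)` for `ℓ ∈ G`.  Output: a normalised eigenform `g` of level `M` and a
maximal ideal `𝔪'` of `ℤ̄` over `p` with `a_ℓ(g) ≡ a ℓ (mod 𝔪')` (`ℓ ∈ G`) and `a_q(g)² = 1`.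
-/

set_option autoImplicit false

open CongruenceSubgroup ModularCurve ModularCurve.Period
open Fermat.Agent.Lib.S21 Fermat.Agent.Lib.S16
open scoped MatrixGroups

noncomputable section

namespace Fermat.Agent.Lib.S41

/-- `T_ℓ^coh` with an explicit primality proof. -/
def h8f_T (M ℓ : ℕ) (hℓ : ℓ.Prime) (hℓM : ¬ ℓ ∣ M) (A : Type*) [AddCommGroup A] :
    (Additive (Gamma0 M) →+ A) →+ (Additive (Gamma0 M) →+ A) :=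
  haveI : Fact ℓ.Prime := ⟨hℓ⟩
  h5h_T M ℓ hℓM A

/-- `T_ℓ` on the lattice `L_M` with an explicit primality proof. -/
def h8f_lT (M ℓ : ℕ) (hℓ : ℓ.Prime) (hℓM : ¬ ℓ ∣ M) :
    parabolicHoms ℤ (Gamma0 M) ℤ →+ parabolicHoms ℤ (Gamma0 M) ℤ :=
  haveI : Fact ℓ.Prime := ⟨hℓ⟩
  h5l_T M ℓ hℓM

/-- `T_ℓ^coh` with complex coefficients as a linear map. -/
def h8f_Tlin (M ℓ : ℕ) (hℓ : ℓ.Prime) (hℓM : ¬ ℓ ∣ M) :
    Module.End ℂ (Additive (Gamma0 M) →+ ℂ) :=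
  haveI : Fact ℓ.Prime := ⟨hℓ⟩
  h8f_opLin (h5h_heckeFam M ℓ hℓM)

theorem h8f_Tlin_apply (M ℓ : ℕ) (hℓ : ℓ.Prime) (hℓM : ¬ ℓ ∣ M) (φ : Additive (Gamma0 M) →+ ℂ) :
    h8f_Tlin M ℓ hℓ hℓM φ = h8f_T M ℓ hℓ hℓM ℂ φ := rfl

theorem h8f_T_j (M ℓ : ℕ) (hℓ : ℓ.Prime) (hℓM : ¬ ℓ ∣ M) (x : Additive (Gamma0 M) →+ ℤ) :
    h8f_T M ℓ hℓ hℓM ℂ (h8f_j x) = h8f_j (h8f_T M ℓ hℓ hℓM ℤ x) :=
  haveI : Fact ℓ.Prime := ⟨hℓ⟩
  h8f_op_j (h5h_heckeFam M ℓ hℓM) x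

theorem h8f_T_parabolic (M ℓ : ℕ) (hℓ : ℓ.Prime) (hℓM : ¬ ℓ ∣ M) (x : Additive (Gamma0 M) →+ ℤ)
    (hx : x ∈ parabolicHoms ℤ (Gamma0 M) ℤ) :
    h8f_T M ℓ hℓ hℓM ℤ x ∈ parabolicHoms ℤ (Gamma0 M) ℤ :=
  haveI : Fact ℓ.Prime := ⟨hℓ⟩
  h5p_op_parabolic (h5h_heckeFam M ℓ hℓM) rfl rfl h5l_int_torsionFree x hx

theorem h8f_lT_coe (M ℓ : ℕ) (hℓ : ℓ.Prime) (hℓM : ¬ ℓ ∣ M) (y : parabolicHoms ℤ (Gamma0 M) ℤ) :
    ((h8f_lT M ℓ hℓ hℓM y : parabolicHoms ℤ (Gamma0 M) ℤ) : Additive (Gamma0 M) →+ ℤ)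
      = h8f_T M ℓ hℓ hℓM ℤ y.1 := rfl

variable {M : ℕ} [NeZero M]

theorem h8f_T_T_comm {ℓ ℓ' : ℕ} (hℓ : ℓ.Prime) (hℓ' : ℓ'.Prime) (hℓM : ¬ ℓ ∣ M) (hℓ'M : ¬ ℓ' ∣ M)
    (φ : Additive (Gamma0 M) →+ ℂ) (hφ : φ ∈ parabolicHoms ℂ (Gamma0 M) ℂ) :
    h8f_T M ℓ hℓ hℓM ℂ (h8f_T M ℓ' hℓ' hℓ'M ℂ φ) = h8f_T M ℓ' hℓ' hℓ'M ℂ (h8f_T M ℓ hℓ hℓM ℂ φ) :=
  haveI : Fact ℓ.Prime := ⟨hℓ⟩
  haveI : Fact ℓ'.Prime := ⟨hℓ'⟩
  h8f_TT_comm hℓM hℓ'M φ hφ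

theorem h8f_T_U_comm {ℓ q : ℕ} [Fact q.Prime] (hℓ : ℓ.Prime) (hℓM : ¬ ℓ ∣ M) (hq : q ∣ M)
    (φ : Additive (Gamma0 M) →+ ℂ) (hφ : φ ∈ parabolicHoms ℂ (Gamma0 M) ℂ) :
    h8f_T M ℓ hℓ hℓM ℂ (h5u_U M q hq ℂ φ) = h5u_U M q hq ℂ (h8f_T M ℓ hℓ hℓM ℂ φ) :=
  haveI : Fact ℓ.Prime := ⟨hℓ⟩
  h8f_TU_comm hℓM hq φ hφ

theorem h8f_php_T {ℓ : ℕ} (hℓ : ℓ.Prime) (hℓM : ¬ ℓ ∣ M) (f g : CuspForm (Gamma0 M) 2) :
    periodHomPair M (CuspForm.heckeTLin 2 hℓ hℓM f, CuspForm.heckeTLin 2 hℓ hℓM g)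
      = h8f_T M ℓ hℓ hℓM ℂ (periodHomPair M (f, g)) :=
  haveI : Fact ℓ.Prime := ⟨hℓ⟩
  h5e_php_T hℓ hℓM f g

/-- Stage 1: the complex eigenvector in the span of the `U_q² = 1` part of the lattice. -/
theorem h8f_stage1 {p q : ℕ} [Fact q.Prime] (hp : p.Prime) (hqM : q ∣ M)
    (a : ℕ → ℤ) (G : Set ℕ) (hG : ∀ ℓ ∈ G, ℓ.Prime ∧ ¬ ℓ ∣ M)
    (y : parabolicHoms ℤ (Gamma0 M) ℤ)
    (hU : h5l_U M q hqM (h5l_U M q hqM y) = y)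
    (hy : ¬ ∃ y' : parabolicHoms ℤ (Gamma0 M) ℤ, y = (p : ℤ) • y')
    (heig : ∀ ℓ (hℓ : ℓ ∈ G), ∃ y' : parabolicHoms ℤ (Gamma0 M) ℤ,
      h8f_lT M ℓ (hG ℓ hℓ).1 (hG ℓ hℓ).2 y - a ℓ • y = (p : ℤ) • y') :
    ∃ (w : Additive (Gamma0 M) →+ ℂ) (c : {ℓ : ℕ // ℓ ∈ G} → integralClosure ℤ ℂ)
      (𝔪' : Ideal (integralClosure ℤ ℂ)),
      w ∈ parabolicHoms ℂ (Gamma0 M) ℂ ∧ w ≠ 0 ∧ 𝔪'.IsMaximal ∧
      ((p : ℕ) : integralClosure ℤ ℂ) ∈ 𝔪' ∧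
      h5u_U M q hqM ℂ (h5u_U M q hqM ℂ w) = w ∧
      ∀ i : {ℓ : ℕ // ℓ ∈ G},
        h8f_T M i.1 (hG i.1 i.2).1 (hG i.1 i.2).2 ℂ w = (c i : ℂ) • w ∧
        c i - ((a i.1 : ℤ) : integralClosure ℤ ℂ) ∈ 𝔪' := by
  classical
  -- the operators
  let Tc : {ℓ : ℕ // ℓ ∈ G} → Module.End ℂ (Additive (Gamma0 M) →+ ℂ) := fun i =>
    h8f_Tlin M i.1 (hG i.1 i.2).1 (hG i.1 i.2).2
  let Uc : Module.End ℂ (Additive (Gamma0 M) →+ ℂ) := h8f_opLin (h5u_fam M q hqM)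
  have hTc : ∀ i φ, Tc i φ = h8f_T M i.1 (hG i.1 i.2).1 (hG i.1 i.2).2 ℂ φ := fun i φ => rfl
  have hUc : ∀ φ, Uc φ = h5u_U M q hqM ℂ φ := fun φ => rfl
  -- the lattices
  let L : Submodule ℤ (Additive (Gamma0 M) →+ ℤ) := parabolicHoms ℤ (Gamma0 M) ℤ
  let UU2 : (Additive (Gamma0 M) →+ ℂ) →ₗ[ℤ] (Additive (Gamma0 M) →+ ℂ) :=
    ((Uc * Uc - 1 : Module.End ℂ (Additive (Gamma0 M) →+ ℂ))).restrictScalars ℤ
  let Λ : Submodule ℤ (Additive (Gamma0 M) →+ ℂ) := (L.map h8f_j) ⊓ LinearMap.ker UU2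
  have hΛ : ∀ φ, φ ∈ Λ ↔ (∃ x ∈ L, h8f_j x = φ) ∧ Uc (Uc φ) = φ := by
    intro φ
    rw [Submodule.mem_inf, Submodule.mem_map, LinearMap.mem_ker]
    apply and_congr Iff.rfl
    show Uc (Uc φ) - φ = 0 ↔ _
    exact sub_eq_zero
  have hfg : Λ.FG := by
    have hL : L.FG := Module.Finite.iff_fg.mp (h5l_finite M)
    exact Submodule.FG.of_le (hL.map h8f_j) inf_le_left
  have hΛP : ∀ φ ∈ Λ, φ ∈ parabolicHoms ℂ (Gamma0 M) ℂ := by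
    intro φ hφ
    obtain ⟨⟨x, hx, rfl⟩, -⟩ := (hΛ φ).mp hφ
    exact h8f_j_parabolic x hx
  -- integral versions of the operators preserve `L`
  have hTL : ∀ (i : {ℓ : ℕ // ℓ ∈ G}) (x : Additive (Gamma0 M) →+ ℤ), x ∈ L →
      h8f_T M i.1 (hG i.1 i.2).1 (hG i.1 i.2).2 ℤ x ∈ L := fun i x hx =>
    h8f_T_parabolic M i.1 _ _ x hx
  have hUL : ∀ x : Additive (Gamma0 M) →+ ℤ, x ∈ L → h5u_U M q hqM ℤ x ∈ L := fun x hx =>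
    h5p_op_parabolic (h5u_fam M q hqM) rfl rfl h5l_int_torsionFree x hx
  have hTj : ∀ (i : {ℓ : ℕ // ℓ ∈ G}) (x : Additive (Gamma0 M) →+ ℤ),
      Tc i (h8f_j x) = h8f_j (h8f_T M i.1 (hG i.1 i.2).1 (hG i.1 i.2).2 ℤ x) := fun i x =>
    h8f_T_j M i.1 _ _ x
  have hUj : ∀ x : Additive (Gamma0 M) →+ ℤ, Uc (h8f_j x) = h8f_j (h5u_U M q hqM ℤ x) :=
    fun x => h8f_op_j _ x
  have hUP : ∀ φ ∈ Λ, Uc φ ∈ parabolicHoms ℂ (Gamma0 M) ℂ := by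
    intro φ hφ
    obtain ⟨⟨x, hx, rfl⟩, -⟩ := (hΛ φ).mp hφ
    rw [hUj]
    exact h8f_j_parabolic _ (hUL x hx)
  have hTUcomm : ∀ (i : {ℓ : ℕ // ℓ ∈ G}) φ, φ ∈ parabolicHoms ℂ (Gamma0 M) ℂ →
      Tc i (Uc φ) = Uc (Tc i φ) := fun i φ hφ =>
    h8f_T_U_comm (hG i.1 i.2).1 (hG i.1 i.2).2 hqM φ hφ
  have hstab : ∀ i, ∀ φ ∈ Λ, Tc i φ ∈ Λ := by
    intro i φ hφ
    obtain ⟨⟨x, hx, hxφ⟩, hUφ⟩ := (hΛ φ).mp hφ
    refine (hΛ _).mpr ⟨⟨_, hTL i x hx, ?_⟩, ?_⟩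
    · rw [← hxφ, hTj]
    · rw [← hTUcomm i φ (hΛP φ hφ), ← hTUcomm i (Uc φ) (hUP φ hφ), hUφ]
  have hcomm : ∀ i j, ∀ φ ∈ Λ, Tc i (Tc j φ) = Tc j (Tc i φ) := fun i j φ hφ =>
    h8f_T_T_comm (hG i.1 i.2).1 (hG j.1 j.2).1 (hG i.1 i.2).2 (hG j.1 j.2).2 φ (hΛP φ hφ)
  -- the vector
  have hyΛ : h8f_j y.1 ∈ Λ := by
    refine (hΛ _).mpr ⟨⟨y.1, y.2, rfl⟩, ?_⟩
    rw [hUj, hUj]
    congr 1
    exact congrArg Subtype.val hU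
  have hy' : ¬ ∃ φ' ∈ Λ, h8f_j y.1 = (p : ℤ) • φ' := by
    rintro ⟨φ', hφ', h⟩
    obtain ⟨⟨x, hx, rfl⟩, -⟩ := (hΛ φ').mp hφ'
    apply hy
    refine ⟨⟨x, hx⟩, Subtype.ext ?_⟩
    apply h8f_j_injective
    rw [h, ← map_zsmul]
    rfl
  have hpne : (p : ℤ) ≠ 0 := by exact_mod_cast hp.ne_zero
  have heig' : ∀ i : {ℓ : ℕ // ℓ ∈ G}, ∃ φ' ∈ Λ,
      Tc i (h8f_j y.1) - a i.1 • h8f_j y.1 = (p : ℤ) • φ' := by
    intro i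
    obtain ⟨y', hy'⟩ := heig i.1 i.2
    have h1 : Tc i (h8f_j y.1) - a i.1 • h8f_j y.1 = (p : ℤ) • h8f_j y'.1 := by
      rw [hTj, ← map_zsmul, ← map_sub, ← map_zsmul]
      congr 1
      exact congrArg Subtype.val hy'
    refine ⟨h8f_j y'.1, (hΛ _).mpr ⟨⟨y'.1, y'.2, rfl⟩, ?_⟩, h1⟩
    -- `U²` fixes `p • φ'`, hence `φ'`
    have h2 : (p : ℤ) • h8f_j y'.1 ∈ Λ := by
      rw [← h1]
      exact Λ.sub_mem (hstab i _ hyΛ) (Λ.smul_mem _ hyΛ)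
    have h3 := ((hΛ _).mp h2).2
    rw [map_zsmul, map_zsmul] at h3
    have hinj : Function.Injective fun φ : Additive (Gamma0 M) →+ ℂ => (p : ℤ) • φ := by
      intro φ ψ h
      have h' : ((p : ℤ) : ℂ) • φ = ((p : ℤ) : ℂ) • ψ := by
        rw [Int.cast_smul_eq_zsmul, Int.cast_smul_eq_zsmul]; exact h
      exact smul_right_injective _ (Int.cast_ne_zero.mpr hpne) h'
    exact hinj h3
  have hspanU : ∀ φ ∈ Submodule.span ℂ (Λ : Set (Additive (Gamma0 M) →+ ℂ)), Uc (Uc φ) = φ := by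
    intro φ hφ
    induction hφ using Submodule.span_induction with
    | mem φ hφ => exact ((hΛ φ).mp hφ).2
    | zero => simp
    | add φ ψ _ _ h1 h2 => rw [map_add, map_add, h1, h2]
    | smul z φ _ h1 => rw [map_smul, map_smul, h1]
  obtain ⟨w, c, 𝔪', hwspan, hw, hmax, hpm, hc⟩ :=
    h8s_deligneSerre Λ hfg Tc hstab hcomm hp (fun i => a i.1) (h8f_j y.1) hyΛ hy' heig'
  have hwP : w ∈ parabolicHoms ℂ (Gamma0 M) ℂ :=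
    (Submodule.span_le.mpr hΛP) hwspan
  have hwU : Uc (Uc w) = w := hspanU w hwspan
  exact ⟨w, c, 𝔪', hwP, hw, hmax, hpm, hwU, fun i => ⟨(hc i).1, (hc i).2⟩⟩

open Fermat.Agent.S49 in
/-- Stage 2: from a complex eigenvector among the parabolic homomorphisms to a normalised
eigenform. -/
theorem h8f_stage2 {q : ℕ} [Fact q.Prime] (hqM : q ∣ M)
    (G : Set ℕ) (hG : ∀ ℓ ∈ G, ℓ.Prime ∧ ¬ ℓ ∣ M)
    (w : Additive (Gamma0 M) →+ ℂ) (c : {ℓ : ℕ // ℓ ∈ G} → ℂ)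
    (hwP : w ∈ parabolicHoms ℂ (Gamma0 M) ℂ) (hw : w ≠ 0)
    (hwU : h5u_U M q hqM ℂ (h5u_U M q hqM ℂ w) = w)
    (hc : ∀ i : {ℓ : ℕ // ℓ ∈ G}, h8f_T M i.1 (hG i.1 i.2).1 (hG i.1 i.2).2 ℂ w = c i • w) :
    ∃ g : CuspForm (Gamma0 M) 2, g.IsNormalizedEigenform ∧
      (∀ i : {ℓ : ℕ // ℓ ∈ G}, ModularFormClass.qCoeff g i.1 = c i) ∧ g.IsNewAt q := by
  classical
  have hq : q.Prime := Fact.out
  haveI : FiniteDimensional ℂ (CuspForm (Gamma0 M) 2) := (h8_dimStatement M).1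
  -- transport to cusp forms
  obtain ⟨f, g0, hfg⟩ := h8f_php_surj w hwP
  have hinj := h1_periodHomPair_inj M
  have hTeq : ∀ i : {ℓ : ℕ // ℓ ∈ G},
      CuspForm.heckeTLin 2 (hG i.1 i.2).1 (hG i.1 i.2).2 f = c i • f ∧
      CuspForm.heckeTLin 2 (hG i.1 i.2).1 (hG i.1 i.2).2 g0 = c i • g0 := by
    intro i
    have h1 := h8f_php_T (hG i.1 i.2).1 (hG i.1 i.2).2 f g0
    rw [hfg, hc i, ← hfg, ← map_smul] at h1
    have h2 := hinj h1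
    exact ⟨congrArg Prod.fst h2, congrArg Prod.snd h2⟩
  have hUeq : CuspForm.heckeULin 2 hqM (CuspForm.heckeULin 2 hqM f) = f ∧
      CuspForm.heckeULin 2 hqM (CuspForm.heckeULin 2 hqM g0) = g0 := by
    have h1 := h5e_php_U hqM (CuspForm.heckeULin 2 hqM f) (CuspForm.heckeULin 2 hqM g0)
    rw [h5e_php_U hqM f g0, hfg, hwU, ← hfg] at h1
    have h2 := hinj h1
    exact ⟨congrArg Prod.fst h2, congrArg Prod.snd h2⟩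
  -- a nonzero cusp form with these eigenvalues
  obtain ⟨h, hh0, hhT, hhU⟩ : ∃ h : CuspForm (Gamma0 M) 2, h ≠ 0 ∧
      (∀ i : {ℓ : ℕ // ℓ ∈ G}, CuspForm.heckeTLin 2 (hG i.1 i.2).1 (hG i.1 i.2).2 h = c i • h) ∧
      CuspForm.heckeULin 2 hqM (CuspForm.heckeULin 2 hqM h) = h := by
    by_cases hf0 : f = 0
    · refine ⟨g0, ?_, fun i => (hTeq i).2, hUeq.2⟩
      intro hg0
      apply hw
      rw [← hfg, hf0, hg0]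
      exact map_zero _
    · exact ⟨f, hf0, fun i => (hTeq i).1, hUeq.1⟩
  -- the eigenspace
  let S' : Submodule ℂ (CuspForm (Gamma0 M) 2) :=
    { carrier := {s | (∀ i : {ℓ : ℕ // ℓ ∈ G},
          CuspForm.heckeTLin 2 (hG i.1 i.2).1 (hG i.1 i.2).2 s = c i • s) ∧
          CuspForm.heckeULin 2 hqM (CuspForm.heckeULin 2 hqM s) = s}
      zero_mem' := ⟨fun i => by rw [map_zero, smul_zero], by rw [map_zero, map_zero]⟩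
      add_mem' := fun {s t} hs ht =>
        ⟨fun i => by rw [map_add, hs.1 i, ht.1 i, smul_add],
          by rw [map_add, map_add, hs.2, ht.2]⟩
      smul_mem' := fun z s hs =>
        ⟨fun i => by rw [map_smul, hs.1 i, smul_comm],
          by rw [map_smul, map_smul, hs.2]⟩ }
  have hS'mem : ∀ s, s ∈ S' ↔ (∀ i : {ℓ : ℕ // ℓ ∈ G},
      CuspForm.heckeTLin 2 (hG i.1 i.2).1 (hG i.1 i.2).2 s = c i • s) ∧
      CuspForm.heckeULin 2 hqM (CuspForm.heckeULin 2 hqM s) = s := fun s => Iff.rfl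
  have hhS' : h ∈ S' := (hS'mem h).mpr ⟨hhT, hhU⟩
  -- stability under the Hecke algebra
  have hcommT : ∀ (t : HA M) (i : {ℓ : ℕ // ℓ ∈ G}) (s : CuspForm (Gamma0 M) 2),
      CuspForm.heckeTLin 2 (hG i.1 i.2).1 (hG i.1 i.2).2 (rho t s)
        = rho t (CuspForm.heckeTLin 2 (hG i.1 i.2).1 (hG i.1 i.2).2 s) := by
    intro t i s
    have h1 : TT (hG i.1 i.2).1 (hG i.1 i.2).2 * t = t * TT (hG i.1 i.2).1 (hG i.1 i.2).2 :=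
      mul_comm _ _
    have h2 := congrArg (fun u : HA M => rho u s) h1
    simp only [map_mul, Module.End.mul_apply, rho_TT] at h2
    exact h2
  have hcommU : ∀ (t : HA M) (s : CuspForm (Gamma0 M) 2),
      CuspForm.heckeULin 2 hqM (rho t s) = rho t (CuspForm.heckeULin 2 hqM s) := by
    intro t s
    have h1 : UU hq hqM * t = t * UU hq hqM := mul_comm _ _
    have h2 := congrArg (fun u : HA M => rho u s) h1
    simp only [map_mul, Module.End.mul_apply, rho_UU] at h2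
    exact h2
  have hS'stab : ∀ (t : HA M), ∀ s ∈ S', rho t s ∈ S' := by
    intro t s hs
    refine (hS'mem _).mpr ⟨fun i => ?_, ?_⟩
    · rw [hcommT, ((hS'mem s).mp hs).1 i, map_smul]
    · rw [hcommU, hcommU, ((hS'mem s).mp hs).2]
  let ρ' : HA M →+* Module.End ℂ S' :=
    { toFun := fun t => (rho t).restrict (hS'stab t)
      map_one' := by
        apply LinearMap.ext; intro x; apply Subtype.ext; rfl
      map_mul' := fun s t => by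
        apply LinearMap.ext; intro x; apply Subtype.ext; rfl
      map_zero' := by
        apply LinearMap.ext; intro x; apply Subtype.ext; rfl
      map_add' := fun s t => by
        apply LinearMap.ext; intro x; apply Subtype.ext; rfl }
  have hρ' : ∀ (t : HA M) (x : S'), ((ρ' t x : S') : CuspForm (Gamma0 M) 2) = rho t x :=
    fun t x => rfl
  -- a maximal ideal containing the kernel
  have hkerne : RingHom.ker ρ' ≠ ⊤ := by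
    intro htop
    have h1 : (1 : HA M) ∈ RingHom.ker ρ' := by rw [htop]; exact Submodule.mem_top
    rw [RingHom.mem_ker, map_one] at h1
    have h2 := LinearMap.congr_fun h1 ⟨h, hhS'⟩
    apply hh0
    exact congrArg Subtype.val h2
  obtain ⟨𝔫, h𝔫max, h𝔫le⟩ := Ideal.exists_le_maximal _ hkerne
  haveI : 𝔫.IsPrime := h𝔫max.isPrime
  obtain ⟨w', θ, hw', hθ, -⟩ := exists_eigenchar_of_prime ρ' 𝔫
    (fun t ht => h𝔫le (by rw [RingHom.mem_ker]; exact ht))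
  have hw'0 : (w' : CuspForm (Gamma0 M) 2) ≠ 0 := fun h0 => hw' (Subtype.ext h0)
  have hθ' : ∀ t : HA M, rho t (w' : CuspForm (Gamma0 M) 2) = θ t • (w' : CuspForm (Gamma0 M) 2) :=
    fun t => by
      have := congrArg Subtype.val (hθ t)
      exact this
  -- the normalised eigenform
  set τ : ℕ → ℂ := fun p =>
    if hp : p.Prime then (if hpN : p ∣ M then θ (UU hp hpN) else θ (TT hp hpN)) else 0 with hτ
  obtain ⟨g, hg, hgp⟩ := exists_normalized (w' : CuspForm (Gamma0 M) 2) hw'0 τ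
    (fun p hp hpN => by
      have := hθ' (TT hp hpN)
      rw [rho_TT] at this
      rw [this, hτ]
      simp only [dif_pos hp, dif_neg hpN])
    (fun p hp hpN => by
      have := hθ' (UU hp hpN)
      rw [rho_UU] at this
      rw [this, hτ]
      simp only [dif_pos hp, dif_pos hpN])
  refine ⟨g, hg, fun i => ?_, ?_⟩
  · rw [hgp i.1 (hG i.1 i.2).1, hτ]
    simp only [dif_pos (hG i.1 i.2).1, dif_neg (hG i.1 i.2).2]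
    have h1 := hθ' (TT (hG i.1 i.2).1 (hG i.1 i.2).2)
    rw [rho_TT, ((hS'mem _).mp w'.2).1 i] at h1
    exact (smul_left_injective ℂ hw'0 h1).symm
  · show ModularFormClass.qCoeff g q ^ 2 = 1
    rw [hgp q hq, hτ]
    simp only [dif_pos hq, dif_pos hqM]
    have h1 := hθ' (UU hq hqM)
    rw [rho_UU] at h1
    have h2 := ((hS'mem _).mp w'.2).2
    rw [h1, map_smul, h1, smul_smul] at h2
    have h3 : (θ (UU hq hqM) * θ (UU hq hqM)) • (w' : CuspForm (Gamma0 M) 2)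
        = (1 : ℂ) • (w' : CuspForm (Gamma0 M) 2) := by rw [h2, one_smul]
    have h4 := smul_left_injective ℂ hw'0 h3
    rw [pow_two]
    exact h4

/-- **(F3)** From a mod `p` eigenclass `y ∈ L_M ∖ p L_M` with `U_q² y = y` to a normalised
eigenform of level `M` with congruent eigenvalues and `a_q² = 1`. -/
theorem h8f_F3 {p q : ℕ} [Fact q.Prime] (hp : p.Prime) (hqM : q ∣ M)
    (a : ℕ → ℤ) (G : Set ℕ) (hG : ∀ ℓ ∈ G, ℓ.Prime ∧ ¬ ℓ ∣ M)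
    (y : parabolicHoms ℤ (Gamma0 M) ℤ)
    (hU : h5l_U M q hqM (h5l_U M q hqM y) = y)
    (hy : ¬ ∃ y' : parabolicHoms ℤ (Gamma0 M) ℤ, y = (p : ℤ) • y')
    (heig : ∀ ℓ (hℓ : ℓ ∈ G), ∃ y' : parabolicHoms ℤ (Gamma0 M) ℤ,
      h8f_lT M ℓ (hG ℓ hℓ).1 (hG ℓ hℓ).2 y - a ℓ • y = (p : ℤ) • y') :
    ∃ (g : CuspForm (Gamma0 M) 2) (𝔪' : Ideal (integralClosure ℤ ℂ)),
      g.IsNormalizedEigenform ∧ 𝔪'.IsMaximal ∧ ((p : ℕ) : integralClosure ℤ ℂ) ∈ 𝔪' ∧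
      (∀ ℓ ∈ G, ∃ c : integralClosure ℤ ℂ, (c : ℂ) = ModularFormClass.qCoeff g ℓ ∧
          c - ((a ℓ : ℤ) : integralClosure ℤ ℂ) ∈ 𝔪') ∧
      g.IsNewAt q := by
  obtain ⟨w, c, 𝔪', hwP, hw, hmax, hpm, hwU, hc⟩ := h8f_stage1 hp hqM a G hG y hU hy heig
  obtain ⟨g, hg, hgc, hnew⟩ := h8f_stage2 hqM G hG w (fun i => (c i : ℂ)) hwP hw hwU
    (fun i => (hc i).1)
  exact ⟨g, 𝔪', hg, hmax, hpm, fun ℓ hℓ => ⟨c ⟨ℓ, hℓ⟩, (hgc ⟨ℓ, hℓ⟩).symm, (hc ⟨ℓ, hℓ⟩).2⟩, hnew⟩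

end Fermat.Agent.Lib.S41
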