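import Mathlib
import Fermat.Agent.Lib.S41.Defs2
import Fermat.Agent.Lib.S41.F1b
import Fermat.Agent.Lib.S41.F0Abs
import Fermat.Agent.Lib.S41.H5New
import Fermat.Agent.Lib.S41.H8F3

/-!
# Project S41: assembly of [T2′] (modular level raising) from the layer contracts

Owner: lead.

Inputs (contracts, each a `Prop`):
* `l0_BStatement`     — layer [B]: integral Poincaré duality pairings on the lattices `L_M`, perfect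
  at every prime, skew, with `res ⊣ cores` and `resH ⊣ coresH`;
* `l0_IharaLatStatement` — [A′] in lattice form (from `h2v_ihara_avg`);
* `l0_F2Statement`    — step (i): a mod `p` eigenclass in `L_N` attached to `f`.
Already proven layers used directly: `l1b_F1` (F1b), `h8f_F3` (F3), `h5l_*` ([H]), `F0Abs` (F0).

Output: `l0_T2_of_contracts : l0_BStatement → l0_IharaLatStatement → l0_F2Statement →
  h6b_ModLevelRaiseStatement`.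
-/

set_option autoImplicit false

open CongruenceSubgroup ModularCurve.Period
open scoped MatrixGroups

namespace Fermat.Agent.Lib.S41

/-- Layer **[B]** contract consumed by the assembly. -/
def l0_BStatement : Prop :=
  ∃ P : ∀ M : ℕ, (parabolicHoms ℤ (Gamma0 M) ℤ →+ parabolicHoms ℤ (Gamma0 M) ℤ →+ ℤ),
    (∀ M : ℕ, 0 < M → ∀ p : ℕ, p.Prime → ∀ x : parabolicHoms ℤ (Gamma0 M) ℤ,
        (∀ y, (p : ℤ) ∣ P M x y) → ∃ x', x = (p : ℤ) • x') ∧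
    (∀ M : ℕ, 0 < M → ∀ x y : parabolicHoms ℤ (Gamma0 M) ℤ, P M y x = -P M x y) ∧
    (∀ (M r : ℕ) [Fact r.Prime] (hrM : ¬ r ∣ M), 0 < M →
        ∀ (x : parabolicHoms ℤ (Gamma0 M) ℤ) (z : parabolicHoms ℤ (Gamma0 (M * r)) ℤ),
          P (M * r) (h5l_α M r x) z = P M x (h5l_α' M r hrM z)) ∧
    (∀ (M r : ℕ) [Fact r.Prime] (hrM : ¬ r ∣ M), 0 < M →
        ∀ (x : parabolicHoms ℤ (Gamma0 M) ℤ) (z : parabolicHoms ℤ (Gamma0 (M * r)) ℤ),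
          P (M * r) (h5l_β M r x) z = P M x (h5l_β' M r hrM z))

/-- **[A′] in lattice form**: the `ihara` hypothesis of `h6b_F1Statement` at special primes. -/
def l0_IharaLatStatement : Prop :=
  ∀ {p N q : ℕ} [Fact q.Prime] (_ : p.Prime) (_ : p ≠ 2) (_ : 0 < N) (_ : ¬ q ∣ N) (_ : q ≠ p),
    ∃ M₀ : ℕ, 0 < M₀ ∧ ∀ (ℓ : ℕ) (hℓ : ℓ.Prime) (hℓN : ¬ ℓ ∣ N), ℓ ≠ q → ℓ ≡ 1 [MOD M₀] →
      (q : ZMod ℓ) ^ ((ℓ - 1) / p) ≠ 1 →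
      ∀ x y : parabolicHoms ℤ (Gamma0 N) ℤ,
        (∃ z, h5l_α N q x + h5l_β N q y = (p : ℤ) • z) →
        (∃ x', h8f_lT N ℓ hℓ hℓN x - (1 + (ℓ : ℤ)) • x = (p : ℤ) • x') ∧
        (∃ y', h8f_lT N ℓ hℓ hℓN y - (1 + (ℓ : ℤ)) • y = (p : ℤ) • y')

/-- **(F2)** step (i): the mod `p` eigenclass attached to `f`. -/
def l0_F2Statement : Prop :=
  ∀ {p N q' : ℕ} [Fact q'.Prime] (_ : p.Prime) (_ : 0 < N) (hq'N : ¬ q' ∣ N)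
    (f : CuspForm (Gamma0 N) 2) (𝔪 : Ideal (integralClosure ℤ ℂ))
    (_ : f.IsNormalizedEigenform) (_ : 𝔪.IsMaximal) (_ : (p : integralClosure ℤ ℂ) ∈ 𝔪)
    (a : ℕ → ℤ) (G : Set ℕ) (hG : ∀ ℓ ∈ G, ℓ.Prime ∧ ¬ ℓ ∣ N)
    (_ : ∀ ℓ ∈ G, ∃ c : integralClosure ℤ ℂ, (c : ℂ) = ModularFormClass.qCoeff f ℓ ∧
        c - ((a ℓ : ℤ) : integralClosure ℤ ℂ) ∈ 𝔪)
    (_ : ∃ c : integralClosure ℤ ℂ, (c : ℂ) = ModularFormClass.qCoeff f q' ∧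
        c ^ 2 - ((q' : integralClosure ℤ ℂ) + 1) ^ 2 ∈ 𝔪),
    ∃ x : parabolicHoms ℤ (Gamma0 N) ℤ, (¬ ∃ x', x = (p : ℤ) • x') ∧
      (∀ ℓ (hℓ : ℓ ∈ G), ∃ x', h8f_lT N ℓ (hG ℓ hℓ).1 (hG ℓ hℓ).2 x - a ℓ • x = (p : ℤ) • x') ∧
      ∃ ε : ℤ, (ε = 1 ∨ ε = -1) ∧
        ∃ x', h5l_T N q' hq'N x - (ε * ((q' : ℤ) + 1)) • x = (p : ℤ) • x'

/-- `T_r` is self-adjoint for the [B] pairing at every level. -/
theorem l0_T_selfadj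
    (P : ∀ M : ℕ, (parabolicHoms ℤ (Gamma0 M) ℤ →+ parabolicHoms ℤ (Gamma0 M) ℤ →+ ℤ))
    (hskew : ∀ M : ℕ, 0 < M → ∀ x y : parabolicHoms ℤ (Gamma0 M) ℤ, P M y x = -P M x y)
    (hadjα : ∀ (M r : ℕ) [Fact r.Prime] (hrM : ¬ r ∣ M), 0 < M →
        ∀ (x : parabolicHoms ℤ (Gamma0 M) ℤ) (z : parabolicHoms ℤ (Gamma0 (M * r)) ℤ),
          P (M * r) (h5l_α M r x) z = P M x (h5l_α' M r hrM z))
    (hadjβ : ∀ (M r : ℕ) [Fact r.Prime] (hrM : ¬ r ∣ M), 0 < M →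
        ∀ (x : parabolicHoms ℤ (Gamma0 M) ℤ) (z : parabolicHoms ℤ (Gamma0 (M * r)) ℤ),
          P (M * r) (h5l_β M r x) z = P M x (h5l_β' M r hrM z))
    (M r : ℕ) (hr : r.Prime) (hrM : ¬ r ∣ M) (hM : 0 < M)
    (x y : parabolicHoms ℤ (Gamma0 M) ℤ) :
    P M (h8f_lT M r hr hrM x) y = P M x (h8f_lT M r hr hrM y) := by
  have : Fact r.Prime := ⟨hr⟩
  have hMr : 0 < M * r := Nat.mul_pos hM hr.pos
  exact l0_selfadj (P M) (P (M * r)) (hskew M hM) (hskew (M * r) hMr)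
    (h5l_α M r) (h5l_β M r) (h5l_α' M r hrM) (h5l_β' M r hrM) (h5l_T M r hrM)
    (hadjα M r hrM hM) (hadjβ M r hrM hM) (h5l_α'_β M r hrM) (h5l_β'_α M r hrM) x y

/-- **Assembly of [T2′].** -/
theorem l0_T2_of_contracts (hB : l0_BStatement) (hI : l0_IharaLatStatement)
    (hF2 : l0_F2Statement) : h6b_ModLevelRaiseStatement := by
  intro p N q' hp hp2 hN hq' hq'N hq'p f 𝔪 hf hmax hpm a G hG hcong hne hLR
  have : Fact q'.Prime := ⟨hq'⟩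
  have : Fact p.Prime := ⟨hp⟩
  have : NeZero N := ⟨hN.ne'⟩
  have hNq : 0 < N * q' := Nat.mul_pos hN hq'.pos
  have : NeZero (N * q') := ⟨hNq.ne'⟩
  obtain ⟨P, hperf, hskew, hadjα, hadjβ⟩ := hB
  obtain ⟨M₀, hM₀, Hih⟩ := hI (q := q') hp hp2 hN hq'N hq'p
  obtain ⟨ℓ0, hℓ0G, hℓ0M, hℓ0K, hℓ0ne⟩ := hne M₀ hM₀
  -- the two versions of `hG`
  have hGN : ∀ ℓ ∈ G, ℓ.Prime ∧ ¬ ℓ ∣ N := fun ℓ hℓ =>
    ⟨(hG ℓ hℓ).1, fun hd => (hG ℓ hℓ).2.1 (Dvd.dvd.mul_right hd q')⟩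
  have hGC : ∀ ℓ ∈ G, ℓ.Prime ∧ ¬ ℓ ∣ N * q' := fun ℓ hℓ => ⟨(hG ℓ hℓ).1, (hG ℓ hℓ).2.1⟩
  have hGq : ∀ ℓ ∈ G, ℓ ≠ q' := fun ℓ hℓ he => (hG ℓ hℓ).2.1 (he ▸ Dvd.intro_left N rfl)
  -- step (i)
  obtain ⟨x, hx, hxeig, ε, hε, hT⟩ := hF2 (q' := q') hp hN hq'N f 𝔪 hf hmax hpm a G hGN hcong hLR
  -- the lattices and operators
  let ι : Type := {ℓ : ℕ // ℓ ∈ G}
  let TA : ι → parabolicHoms ℤ (Gamma0 N) ℤ →+ parabolicHoms ℤ (Gamma0 N) ℤ :=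
    fun i => h8f_lT N i.1 (hGN i.1 i.2).1 (hGN i.1 i.2).2
  let TC : ι → parabolicHoms ℤ (Gamma0 (N * q')) ℤ →+ parabolicHoms ℤ (Gamma0 (N * q')) ℤ :=
    fun i => h8f_lT (N * q') i.1 (hGC i.1 i.2).1 (hGC i.1 i.2).2
  let i0 : ι := ⟨ℓ0, hℓ0G⟩
  have hTAadj : ∀ (i : ι) (u v : parabolicHoms ℤ (Gamma0 N) ℤ),
      P N (TA i u) v = P N u (TA i v) := fun i u v =>
    l0_T_selfadj P hskew hadjα hadjβ N i.1 (hGN i.1 i.2).1 (hGN i.1 i.2).2 hN u v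
  have hTCadj : ∀ (i : ι) (u v : parabolicHoms ℤ (Gamma0 (N * q')) ℤ),
      P (N * q') (TC i u) v = P (N * q') u (TC i v) := fun i u v =>
    l0_T_selfadj P hskew hadjα hadjβ (N * q') i.1 (hGC i.1 i.2).1 (hGC i.1 i.2).2 hNq u v
  have hCα : ∀ (i : ι) (u : parabolicHoms ℤ (Gamma0 N) ℤ),
      TC i (h5l_α N q' u) = h5l_α N q' (TA i u) := by
    intro i u
    have : Fact (i.1).Prime := ⟨(hGN i.1 i.2).1⟩
    exact h5l_T_α N q' i.1 (hGN i.1 i.2).2 (hGC i.1 i.2).2 u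
  have hCβ : ∀ (i : ι) (u : parabolicHoms ℤ (Gamma0 N) ℤ),
      TC i (h5l_β N q' u) = h5l_β N q' (TA i u) := by
    intro i u
    have : Fact (i.1).Prime := ⟨(hGN i.1 i.2).1⟩
    have hqℓ : ((q' : ℕ) : ZMod i.1) ≠ 0 := by
      intro h0
      have hd : i.1 ∣ q' := (ZMod.natCast_eq_zero_iff _ _).mp h0
      exact hGq i.1 i.2 ((Nat.prime_dvd_prime_iff_eq (hGN i.1 i.2).1 hq').mp hd)
    exact h5l_T_β N q' i.1 (hGN i.1 i.2).2 (hGC i.1 i.2).2 hqℓ u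
  have hAα' : ∀ (i : ι) (z : parabolicHoms ℤ (Gamma0 (N * q')) ℤ),
      TA i (h5l_α' N q' hq'N z) = h5l_α' N q' hq'N (TC i z) := fun i z =>
    l0_comm p hp (P N) (P (N * q')) (hperf N hN p hp) (hskew N hN) (h5l_α N q')
      (h5l_α' N q' hq'N) (hadjα N q' hq'N hN) (TA i) (TC i) (hTAadj i) (hTCadj i) (hCα i) z
  have hAβ' : ∀ (i : ι) (z : parabolicHoms ℤ (Gamma0 (N * q')) ℤ),
      TA i (h5l_β' N q' hq'N z) = h5l_β' N q' hq'N (TC i z) := fun i z =>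
    l0_comm p hp (P N) (P (N * q')) (hperf N hN p hp) (hskew N hN) (h5l_β N q')
      (h5l_β' N q' hq'N) (hadjβ N q' hq'N hN) (TA i) (TC i) (hTAadj i) (hTCadj i) (hCβ i) z
  have hihara : ∀ u v : parabolicHoms ℤ (Gamma0 N) ℤ,
      (∃ z, h5l_α N q' u + h5l_β N q' v = (p : ℤ) • z) →
      (∃ u', TA i0 u - (1 + (ℓ0 : ℤ)) • u = (p : ℤ) • u') ∧
      (∃ v', TA i0 v - (1 + (ℓ0 : ℤ)) • v = (p : ℤ) • v') := fun u v huv =>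
    Hih ℓ0 (hGN ℓ0 hℓ0G).1 (hGN ℓ0 hℓ0G).2 (hGq ℓ0 hℓ0G) hℓ0M hℓ0K u v huv
  have hdual := l0_dual p (P N) (P (N * q')) (hperf N hN p hp) (hperf (N * q') hNq p hp)
    (h5l_α N q') (h5l_β N q') (h5l_α' N q' hq'N) (h5l_β' N q' hq'N)
    (hadjα N q' hq'N hN) (hadjβ N q' hq'N hN) (TA i0) (1 + (ℓ0 : ℤ)) (hTAadj i0) hihara
  -- steps (ii)+(iii)
  obtain ⟨y, hy1, hy2, hy, hyeig⟩ := l1b_F1 (parabolicHoms ℤ (Gamma0 N) ℤ)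
    (parabolicHoms ℤ (Gamma0 (N * q')) ℤ) p hp (q' : ℤ) ι TA TC (h5l_T N q' hq'N)
    (h5l_α N q') (h5l_β N q') (h5l_α' N q' hq'N) (h5l_β' N q' hq'N)
    (h5l_α'_α N q' hq'N) (h5l_β'_β N q' hq'N) (h5l_α'_β N q' hq'N) (h5l_β'_α N q' hq'N)
    hCα hCβ hAα' hAβ' (fun i => 1 + (i.1 : ℤ)) (fun i => a i.1) i0 hℓ0ne hihara hdual
    x hx (fun i => hxeig i.1 i.2) ε hε hT
  -- steps (iv)+(v)
  have hU := h5l_U_sq hq'N y hy1 hy2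
  exact h8f_F3 hp h5n_dvd a G hGC y hU hy (fun ℓ hℓ => hyeig ⟨ℓ, hℓ⟩)

end Fermat.Agent.Lib.S41
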