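import Mathlib
import Fermat.Agent.Lib.S41.H5BBridge
import Fermat.Agent.Lib.S41.T2Assembly

/-!
# Project S41, B-bridge (helper5): the layer-[B] contract `l0_BStatement` from `β ⊣ β'`

`h5y_B_of_beta`: if `β ⊣ β'` holds for the pairings `h5y_P`, then `l0_BStatement` holds
(perfectness = `h5y_perfect`, skew = `h5y_skew`, `α ⊣ α'` = `h5y_adj_α`).
-/

set_option autoImplicit false

open CongruenceSubgroup Matrix.SpecialLinearGroup ModularCurve.Period
open scoped MatrixGroups OnePoint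

noncomputable section

namespace Fermat.Agent.Lib.S41

/-- The pairing at all levels (`0` at level `0`). -/
def h5y_PAll (M : ℕ) :
    parabolicHoms ℤ (Gamma0 M) ℤ →+ parabolicHoms ℤ (Gamma0 M) ℤ →+ ℤ :=
  if h : M = 0 then 0 else @h5y_P M ⟨h⟩

theorem h5y_PAll_eq (M : ℕ) [NeZero M] : h5y_PAll M = h5y_P M := by
  unfold h5y_PAll
  rw [dif_neg (NeZero.ne M)]

/-- The `β ⊣ β'` hypothesis (to be supplied by (I-β) + B3b). -/
def h5y_BetaAdjStatement : Prop :=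
  ∀ {M q : ℕ} [Fact q.Prime] (hqM : ¬ q ∣ M) [NeZero M] [NeZero (M * q)]
    (x : parabolicHoms ℤ (Gamma0 M) ℤ) (z : parabolicHoms ℤ (Gamma0 (M * q)) ℤ),
    h6u_P (Gamma0 (M * q)) (h5l_β M q x).1 z.1 = h6u_P (Gamma0 M) x.1 (h5l_β' M q hqM z).1

/-- **Layer [B]** from `β ⊣ β'`. -/
theorem h5y_B_of_beta (hβ : h5y_BetaAdjStatement) : l0_BStatement := by
  refine ⟨h5y_PAll, ?_, ?_, ?_, ?_⟩
  · intro M hM p hp x h
    haveI : NeZero M := ⟨hM.ne'⟩
    rw [h5y_PAll_eq] at h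
    exact h5y_perfect M (p : ℤ) (by exact_mod_cast hp.ne_zero) x h
  · intro M hM x y
    haveI : NeZero M := ⟨hM.ne'⟩
    rw [h5y_PAll_eq]
    exact h5y_skew M x y
  · intro M r _ hrM hM x z
    haveI : NeZero M := ⟨hM.ne'⟩
    haveI : NeZero (M * r) := ⟨Nat.mul_ne_zero hM.ne' (Fact.out : r.Prime).ne_zero⟩
    rw [h5y_PAll_eq, h5y_PAll_eq]
    exact h5y_adj_α hrM x z
  · intro M r _ hrM hM x z
    haveI : NeZero M := ⟨hM.ne'⟩
    haveI : NeZero (M * r) := ⟨Nat.mul_ne_zero hM.ne' (Fact.out : r.Prime).ne_zero⟩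
    rw [h5y_PAll_eq, h5y_PAll_eq]
    exact hβ hrM x z

end Fermat.Agent.Lib.S41
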