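import Fermat.Agent.Lib.S41.H6Par

/-!
# Project S41, layer [B] (helper6): the residue formula

`X` a finite `SL(2,ℤ)`-set with `-1` acting trivially, `c, c'` two `T`-parabolic cocycles and
`H : SL(2,ℤ) → ℚ` a function with `H (g h) = H g + H h + ⟨c g, ρ g (c' h)⟩`.  Then
`H (T ^ N) = N · h6q_pair c c'` as soon as `T ^ N` acts trivially (`h6x_residue_abs`).

For a frame `F` and `η : F.Γ → ℚ` with `η (γ γ') = η γ + η γ' + x γ · y γ'` this gives
`N · h6q_P F x y = ∑ x', η (F.cocElem (T ^ N) x')` (`h6x_residue`).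
-/

set_option autoImplicit false

open scoped MatrixGroups
open ModularCurve.Period

namespace Fermat.Agent.Lib.S41

local notation "sS" => (ModularGroup.S : SL(2, ℤ))
local notation "sT" => (ModularGroup.T : SL(2, ℤ))
local notation "sU" => (h6p_U : SL(2, ℤ))

section Abs

variable {X : Type*} [MulAction SL(2, ℤ) X] [Fintype X]
variable (hneg : ∀ x : X, (-1 : SL(2, ℤ)) • x = x)
variable {c c' : SL(2, ℤ) → X → ℤ} (hc : h6c_IsCoc c) (hc' : h6c_IsCoc c')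
variable {H : SL(2, ℤ) → ℚ}
  (hH : ∀ g h, H (g * h) = H g + H h + ((h6c_dot (c g) (h6c_rho g (c' h)) : ℤ) : ℚ))

include hc hH in
theorem h6x_H_one : H 1 = 0 := by
  have h := hH 1 1
  rw [mul_one, hc.one, h6c_dot_zero_left] at h
  push_cast at h
  linarith

include hneg hc hH in
theorem h6x_H_neg_one : H (-1) = 0 := by
  have h := hH (-1) (-1)
  rw [neg_mul_neg, one_mul, h6x_H_one hc hH, h6q_c_neg_one hneg hc, h6c_dot_zero_left] at h
  push_cast at h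
  linarith

include hneg hc hc' hH in
theorem h6x_H_S : 2 * H sS = ((h6c_dot (c sS) (c' sS) : ℤ) : ℚ) := by
  have h := hH sS sS
  rw [← pow_two, h6p_S_sq, h6x_H_neg_one hneg hc hH] at h
  have h2 : h6c_rho sS (c' sS) = -c' sS :=
    eq_neg_of_add_eq_zero_right (h6q_cS_anti hneg hc')
  rw [h2, h6c_dot_neg_right] at h
  push_cast at h
  linarith

include hneg hc hc' hH in
theorem h6x_H_Sinv : 2 * H sS⁻¹ = ((h6c_dot (c sS) (c' sS) : ℤ) : ℚ) := by
  have h := hH sS sS⁻¹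
  rw [mul_inv_cancel, h6x_H_one hc hH, hc'.inv, h6c_rho_neg, h6c_rho_cancel_inv,
    h6c_dot_neg_right] at h
  have h2 := h6x_H_S hneg hc hc' hH
  push_cast at h
  linarith

include hneg hc hc' hH in
theorem h6x_H_U : 3 * H sU
    = ((h6c_dot (c sU) (c' sU) : ℤ) : ℚ) - ((h6c_dot (c sU) (h6c_rho sU (c' sU)) : ℤ) : ℚ) := by
  have h1 := hH sU sU
  have h2 := hH (sU * sU) sU
  have h3 : sU * sU * sU = -1 := by
    have := h6p_U_cube
    rw [pow_succ, pow_two] at this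
    exact this
  rw [h3, h6x_H_neg_one hneg hc hH, h1] at h2
  have h4 : c (sU * sU) = c sU + h6c_rho sU (c sU) := hc sU sU
  have h5 : h6c_rho (sU * sU) (c' sU) = -c' sU - h6c_rho sU (c' sU) := by
    have := h6q_cU_norm hneg hc'
    rw [pow_two] at this
    have e : h6c_rho (sU * sU) (c' sU) = 0 - c' sU - h6c_rho sU (c' sU) := by
      rw [← this]; abel
    rw [e, zero_sub]
  have h6 : h6c_dot (h6c_rho sU (c sU)) (h6c_rho (sU * sU) (c' sU))
      = h6c_dot (c sU) (h6c_rho sU (c' sU)) := by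
    rw [h6c_rho_mul sU sU, h6c_dot_rho]
  have h7 : h6c_dot (c (sU * sU)) (h6c_rho (sU * sU) (c' sU))
      = - h6c_dot (c sU) (c' sU) := by
    rw [h4, h6c_dot_add_left, h6, h5, h6c_dot_sub_right, h6c_dot_neg_right]
    ring
  rw [h7] at h2
  push_cast at h2
  linarith

include hneg hc hc' hH in
theorem h6x_H_T : H sT = H sS⁻¹ + H sU - ((h6c_dot (c sS) (c' sU) : ℤ) : ℚ) := by
  have h := hH sS⁻¹ sU
  rw [← h6q_T_eq, hc.inv, h6c_dot_neg_left, h6c_dot_rho] at h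
  push_cast at h
  linarith

include hneg hc hc' hH in
theorem h6x_H_T_pow {v : X → ℤ} (hv : c sT = v - h6c_rho sT v) (n : ℕ) :
    H (sT ^ n) = (n : ℚ) * (H sT - ((h6c_dot v (c' sT) : ℤ) : ℚ))
      + ((h6c_dot v (c' (sT ^ n)) : ℤ) : ℚ) := by
  induction n with
  | zero =>
    rw [pow_zero, h6x_H_one hc hH, hc'.one, h6c_dot_zero_right]
    simp
  | succ n ih =>
    have h := hH (sT ^ n) sT
    rw [← pow_succ] at h
    have h1 : c (sT ^ n) = v - h6c_rho (sT ^ n) v := by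
      have := h6r_coc_T_zpow hneg hc hv (n : ℤ)
      rwa [zpow_natCast] at this
    have h2 : h6c_dot (c (sT ^ n)) (h6c_rho (sT ^ n) (c' sT))
        = h6c_dot v (h6c_rho (sT ^ n) (c' sT)) - h6c_dot v (c' sT) := by
      rw [h1, h6c_dot_sub_left, h6c_dot_rho]
    have h3 : h6c_dot v (c' (sT ^ (n + 1)))
        = h6c_dot v (c' (sT ^ n)) + h6c_dot v (h6c_rho (sT ^ n) (c' sT)) := by
      rw [h6c_IsCoc.pow_succ hc', h6c_dot_add_right]
    rw [h, ih, h2, h3]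
    push_cast
    ring

include hneg hc hc' in
/-- The integral identity behind the residue formula. -/
theorem h6x_six_val {v a b : X → ℤ} (hv : c sT = v - h6c_rho sT v)
    (ha : c' sS = a - h6c_rho sS a) (hb : c' sU = b - h6c_rho sU b) :
    6 * h6q_val c v a b = 3 * h6c_dot (c sS) (c' sS)
      + 2 * (h6c_dot (c sU) (c' sU) - h6c_dot (c sU) (h6c_rho sU (c' sU)))
      - 6 * h6c_dot (c sS) (c' sU) - 6 * h6c_dot v (c' sT) := by
  have hwS : h6c_rho sS (h6q_w c v) = -h6q_w c v :=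
    eq_neg_of_add_eq_zero_right (h6q_w_anti hneg hc v)
  have hc'S : h6c_rho sS (c' sS) = -c' sS :=
    eq_neg_of_add_eq_zero_right (h6q_cS_anti hneg hc')
  have hnorm' : h6c_rho sU (h6c_rho sU (c' sU)) = -c' sU - h6c_rho sU (c' sU) := by
    have := h6q_cU_norm hneg hc'
    rw [pow_two, h6c_rho_mul sU sU] at this
    have e : h6c_rho sU (h6c_rho sU (c' sU)) = 0 - c' sU - h6c_rho sU (c' sU) := by
      rw [← this]; abel
    rw [e, zero_sub]
  -- E1
  have E1 : 2 * h6c_dot (h6q_w c v) a = h6c_dot (h6q_w c v) (c' sS) := by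
    rw [ha, h6c_dot_sub_right, h6c_dot_rho_right, h6q_rhoS_inv hneg, hwS, h6c_dot_neg_left]
    ring
  -- E2
  have hwU := h6q_w_normU hneg hc hv
  have p012 : h6c_dot (h6q_w c v) b + h6c_dot (h6c_rho sU (h6q_w c v)) b
      + h6c_dot (h6c_rho sU (h6c_rho sU (h6q_w c v))) b = 0 := by
    rw [← h6c_dot_add_left, ← h6c_dot_add_left, hwU, h6c_dot_zero_left]
  have q1 : h6c_dot (h6q_w c v) (h6c_rho sU b)
      = h6c_dot (h6c_rho sU (h6c_rho sU (h6q_w c v))) b := by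
    rw [h6c_dot_rho_right, h6q_rhoU_inv hneg]
  have q2 : h6c_dot (h6q_w c v) (h6c_rho sU (h6c_rho sU b))
      = h6c_dot (h6c_rho sU (h6q_w c v)) b := by
    rw [← h6c_dot_rho sU (h6q_w c v), h6q_rhoU_cube hneg]
  have E2a : h6c_dot (h6q_w c v) (c' sU)
      = h6c_dot (h6q_w c v) b - h6c_dot (h6c_rho sU (h6c_rho sU (h6q_w c v))) b := by
    rw [hb, h6c_dot_sub_right, q1]
  have E2b : h6c_dot (h6q_w c v) (h6c_rho sU (c' sU))
      = h6c_dot (h6c_rho sU (h6c_rho sU (h6q_w c v))) b - h6c_dot (h6c_rho sU (h6q_w c v)) b := by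
    rw [hb, h6c_rho_sub, h6c_dot_sub_right, q1, q2]
  -- E3
  have E3 : h6c_dot (h6q_w c v) (c' sS) = h6c_dot (c sS) (c' sS) - 2 * h6c_dot v (c' sS) := by
    have : h6c_dot (h6c_rho sS v) (c' sS) = - h6c_dot v (c' sS) := by
      rw [h6c_dot_rho_left, h6q_rhoS_inv hneg, hc'S, h6c_dot_neg_right]
    unfold h6q_w
    rw [h6c_dot_sub_left, h6c_dot_sub_left, this]
    ring
  -- E4, E5
  have hwU' := h6q_w_eq_U hneg hc hv
  have E4 : h6c_dot (h6q_w c v) (c' sU) = h6c_dot (c sU) (c' sU) - h6c_dot v (c' sU)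
      + h6c_dot v (h6c_rho sU (h6c_rho sU (c' sU))) := by
    have : h6c_dot (h6c_rho sU v) (c' sU) = h6c_dot v (h6c_rho sU (h6c_rho sU (c' sU))) := by
      rw [h6c_dot_rho_left, h6q_rhoU_inv hneg]
    rw [hwU', h6c_dot_sub_left, h6c_dot_sub_left, this]
    ring
  have E5 : h6c_dot (h6q_w c v) (h6c_rho sU (c' sU))
      = h6c_dot (c sU) (h6c_rho sU (c' sU)) - h6c_dot v (h6c_rho sU (c' sU))
        + h6c_dot v (c' sU) := by
    rw [hwU', h6c_dot_sub_left, h6c_dot_sub_left, h6c_dot_rho]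
    ring
  -- E6
  have E6 : h6c_dot (c sU) (c' sU) - h6c_dot (c sS) (c' sU)
      = h6c_dot v (h6c_rho sS (c' sU)) - h6c_dot v (h6c_rho sU (h6c_rho sU (c' sU))) := by
    have h1 : c sU = c sS + (h6c_rho sS v - h6c_rho sU v) := by
      rw [h6q_cU_eq hneg hc, hv, h6c_rho_sub, ← h6q_rhoU_eq hneg]
    have h2 : h6c_dot (h6c_rho sS v) (c' sU) = h6c_dot v (h6c_rho sS (c' sU)) := by
      rw [h6c_dot_rho_left, h6q_rhoS_inv hneg]
    have h3 : h6c_dot (h6c_rho sU v) (c' sU) = h6c_dot v (h6c_rho sU (h6c_rho sU (c' sU))) := by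
      rw [h6c_dot_rho_left, h6q_rhoU_inv hneg]
    rw [h1, h6c_dot_add_left, h6c_dot_sub_left, h2, h3]
    ring
  -- E7
  have E7 : h6c_dot v (c' sT) = h6c_dot v (h6c_rho sS (c' sU)) + h6c_dot v (c' sS) := by
    have h1 : c' sT = h6c_rho sS (c' sU) + c' sS := by
      have h := h6q_cU_eq hneg hc'
      have h' : h6c_rho sS (c' sU) = h6c_rho sS (c' sS) + c' sT := by
        rw [h, h6c_rho_add, h6q_rhoS_rhoS hneg]
      rw [h', hc'S]; abel
    rw [h1, h6c_dot_add_right]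
  -- norm
  have En : h6c_dot v (h6c_rho sU (h6c_rho sU (c' sU)))
      = - h6c_dot v (c' sU) - h6c_dot v (h6c_rho sU (c' sU)) := by
    rw [hnorm', h6c_dot_sub_right, h6c_dot_neg_right]
  unfold h6q_val
  rw [h6c_dot_sub_right]
  linarith

include hneg hc hc' hH in
/-- **Abstract residue formula.** -/
theorem h6x_residue_abs (hp : h6q_IsPar c) (hp' : h6q_IsPar c') (N : ℕ)
    (hT : ∀ x : X, sT ^ N • x = x) :
    H (sT ^ N) = (N : ℚ) * ((h6q_pair c c' : ℤ) : ℚ) := by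
  obtain ⟨v, hv⟩ := hp
  obtain ⟨v', hv'⟩ := hp'
  obtain ⟨a, ha⟩ := h6q_exists_a hneg hc'
  obtain ⟨b, hb⟩ := h6q_exists_b hneg hc'
  rw [h6q_pair_eq hneg hc hc' ⟨v', hv'⟩ hv ha hb]
  have h1 := h6x_H_T_pow hneg hc hc' hH hv N
  have h2 : c' (sT ^ N) = 0 := by
    have := h6r_coc_T_zpow hneg hc' hv' (N : ℤ)
    rw [zpow_natCast] at this
    rw [this, h6c_rho_of_triv _ hT, sub_self]
  rw [h2, h6c_dot_zero_right] at h1
  have h3 := h6x_six_val hneg hc hc' hv ha hb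
  have h4 := h6x_H_T hneg hc hc' hH
  have h5 := h6x_H_Sinv hneg hc hc' hH
  have h6 := h6x_H_U hneg hc hc' hH
  have h3' : (6 : ℚ) * ((h6q_val c v a b : ℤ) : ℚ)
      = 3 * ((h6c_dot (c sS) (c' sS) : ℤ) : ℚ)
      + 2 * (((h6c_dot (c sU) (c' sU) : ℤ) : ℚ)
        - ((h6c_dot (c sU) (h6c_rho sU (c' sU)) : ℤ) : ℚ))
      - 6 * ((h6c_dot (c sS) (c' sU) : ℤ) : ℚ) - 6 * ((h6c_dot v (c' sT) : ℤ) : ℚ) := by
    exact_mod_cast h3
  have h7 : H sT - ((h6c_dot v (c' sT) : ℤ) : ℚ) = ((h6q_val c v a b : ℤ) : ℚ) := by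
    linarith
  rw [h1, h7]
  push_cast
  ring

end Abs

/-! ### Frames -/

section Frame

variable {X : Type*} [MulAction SL(2, ℤ) X] [Fintype X]
variable (F : h6c_Frame SL(2, ℤ) X)

/-- `H g = ∑ x', η (cocElem g x')`. -/
def h6x_H (η : F.Γ → ℚ) (g : SL(2, ℤ)) : ℚ := ∑ x' : X, η (F.cocElem g x')

variable {x y : Additive F.Γ →+ ℤ} {η : F.Γ → ℚ}
  (hη : ∀ γ γ' : F.Γ, η (γ * γ') = η γ + η γ'
    + ((x (Additive.ofMul γ) : ℤ) : ℚ) * ((y (Additive.ofMul γ') : ℤ) : ℚ))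

include hη in
theorem h6x_H_mul (g h : SL(2, ℤ)) :
    h6x_H F η (g * h) = h6x_H F η g + h6x_H F η h
      + ((h6c_dot (F.coc x g) (h6c_rho g (F.coc y h)) : ℤ) : ℚ) := by
  unfold h6x_H h6c_dot
  have h1 : ∑ x' : X, η (F.cocElem h x') = ∑ x' : X, η (F.cocElem h (g⁻¹ • x')) :=
    (Equiv.sum_comp (MulAction.toPerm g⁻¹) (fun x' => η (F.cocElem h x'))).symm
  rw [h1]
  push_cast
  rw [← Finset.sum_add_distrib, ← Finset.sum_add_distrib]
  refine Finset.sum_congr rfl fun x' _ => ?_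
  rw [F.cocElem_mul, hη]
  rfl

include hη in
theorem h6x_eta_one : η 1 = 0 := by
  have h := hη 1 1
  rw [mul_one] at h
  have : x (Additive.ofMul (1 : F.Γ)) = 0 := map_zero x
  rw [this] at h
  push_cast at h
  linarith

include hη in
theorem h6x_eta_conj (γ π : F.Γ) (hxπ : x (Additive.ofMul π) = 0)
    (hyπ : y (Additive.ofMul π) = 0) : η (γ⁻¹ * π * γ) = η π := by
  have h1 := hη (γ⁻¹ * π) γ
  have h2 := hη γ⁻¹ π
  have h3 := hη γ⁻¹ γ
  rw [inv_mul_cancel, h6x_eta_one F hη] at h3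
  have e1 : x (Additive.ofMul (γ⁻¹ * π)) = x (Additive.ofMul γ⁻¹) := by
    rw [ofMul_mul, map_add, hxπ, add_zero]
  rw [e1] at h1
  rw [hyπ] at h2
  push_cast at h1 h2 h3
  linarith

include hη in
theorem h6x_eta_pow (π : F.Γ) (hyπ : y (Additive.ofMul π) = 0) (k : ℕ) :
    η (π ^ k) = (k : ℚ) * η π := by
  induction k with
  | zero => rw [pow_zero, h6x_eta_one F hη]; simp
  | succ k ih =>
    rw [pow_succ, hη, ih, hyπ]
    push_cast
    ring

variable (hneg : ∀ x : X, (-1 : SL(2, ℤ)) • x = x)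

include hneg hη in
/-- **Residue formula.** -/
theorem h6x_residue (hx : IsParabolicHom F.Γ x) (hy : IsParabolicHom F.Γ y) (N : ℕ)
    (hT : ∀ x' : X, sT ^ N • x' = x') :
    (N : ℚ) * ((h6q_P F x y : ℤ) : ℚ) = ∑ x' : X, η (F.cocElem (sT ^ N) x') :=
  (h6x_residue_abs hneg (F.coc_isCoc x) (F.coc_isCoc y) (h6x_H_mul F hη)
    (h6r_isPar_coc F x hx) (h6r_isPar_coc F y hy) N hT).symm

theorem h6x_trace_cocElem (N : ℕ) (hT : ∀ x' : X, sT ^ N • x' = x') (x' : X) :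
    (((F.cocElem (sT ^ N) x' : F.Γ) : SL(2, ℤ)) : Matrix (Fin 2) (Fin 2) ℤ).trace = 2 := by
  have h1 : (sT ^ N)⁻¹ • x' = x' := by rw [inv_smul_eq_iff, hT]
  show ((((F.r x')⁻¹ * sT ^ N * F.r ((sT ^ N)⁻¹ • x') : SL(2, ℤ)) :
    Matrix (Fin 2) (Fin 2) ℤ)).trace = 2
  rw [h1, h6r_trace_conj_T_pow]

include hneg hη in
/-- Skew-symmetry, given a residue cochain. -/
theorem h6x_skew_of_eta (hx : IsParabolicHom F.Γ x) (hy : IsParabolicHom F.Γ y) :
    h6q_P F y x = - h6q_P F x y := by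
  obtain ⟨N, hN, hT⟩ := h6r_exists_period (X := X) sT
  obtain ⟨η', hdef⟩ : ∃ η' : F.Γ → ℚ, ∀ γ, η' γ
      = ((x (Additive.ofMul γ) : ℤ) : ℚ) * ((y (Additive.ofMul γ) : ℤ) : ℚ) - η γ :=
    ⟨_, fun _ => rfl⟩
  have hη' : ∀ γ γ' : F.Γ, η' (γ * γ') = η' γ + η' γ'
      + ((y (Additive.ofMul γ) : ℤ) : ℚ) * ((x (Additive.ofMul γ') : ℤ) : ℚ) := by
    intro γ γ'
    rw [hdef, hdef, hdef, hη, ofMul_mul, map_add, map_add]
    push_cast
    ring
  have h1 := h6x_residue F hη hneg hx hy N hT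
  have h2 := h6x_residue F hη' hneg hy hx N hT
  have h3 : ∑ x' : X, η' (F.cocElem (sT ^ N) x')
      = - ∑ x' : X, η (F.cocElem (sT ^ N) x') := by
    rw [← Finset.sum_neg_distrib]
    refine Finset.sum_congr rfl fun x' _ => ?_
    have : x (Additive.ofMul (F.cocElem (sT ^ N) x')) = 0 := by
      apply hx
      rw [h6x_trace_cocElem F N hT x']
      norm_num
    rw [hdef, this]
    push_cast
    ring
  rw [h3, ← h1] at h2
  have hN' : (N : ℚ) ≠ 0 := by exact_mod_cast hN.ne'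
  have h4 : ((h6q_P F y x : ℤ) : ℚ) = - ((h6q_P F x y : ℤ) : ℚ) := by
    have : (N : ℚ) * (((h6q_P F y x : ℤ) : ℚ) + ((h6q_P F x y : ℤ) : ℚ)) = 0 := by
      rw [mul_add, h2]; ring
    rcases mul_eq_zero.mp this with h | h
    · exact absurd h hN'
    · linarith
  exact_mod_cast h4

end Frame


end Fermat.Agent.Lib.S41
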