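import Fermat.Agent.Lib.S41.H6CocSL

/-!
# Project S41, layer [B], piece [η]: the Heisenberg lift

Owner: helper8 (contract and recipe by helper6).

For a frame `F` on an `SL(2,ℤ)`-set `X` on which `-1` acts trivially and two additive characters
`x, y` of the stabiliser `F.Γ`, there is `η : F.Γ → ℚ` with
`η (γ γ') = η γ + η γ' + x γ * y γ'`  (i.e. `x ∪ y` is a rational coboundary on `F.Γ`).
Proof: lift `(coc x, coc y)` to a crossed homomorphism with values in the Heisenberg group `ℚ³`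
using the presentation `PSL(2,ℤ) = C₂ * C₃` (`h6p_lift`).
-/

set_option autoImplicit false

open scoped MatrixGroups

namespace Fermat.Agent.Lib.S41

local notation "sS" => (ModularGroup.S : SL(2, ℤ))
local notation "sU" => (h6p_U : SL(2, ℤ))

/-- The rational Heisenberg group: `(a,b,c)(a',b',c') = (a+a', b+b', c+c'+a b')`. -/
@[ext] structure h8h_Heis where
  a : ℚ
  b : ℚ
  c : ℚ

namespace h8h_Heis

instance : Mul h8h_Heis := ⟨fun u v => ⟨u.a + v.a, u.b + v.b, u.c + v.c + u.a * v.b⟩⟩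
instance : One h8h_Heis := ⟨⟨0, 0, 0⟩⟩
instance : Inv h8h_Heis := ⟨fun u => ⟨-u.a, -u.b, -u.c + u.a * u.b⟩⟩

@[simp] theorem mul_a (u v : h8h_Heis) : (u * v).a = u.a + v.a := rfl
@[simp] theorem mul_b (u v : h8h_Heis) : (u * v).b = u.b + v.b := rfl
@[simp] theorem mul_c (u v : h8h_Heis) : (u * v).c = u.c + v.c + u.a * v.b := rfl
@[simp] theorem one_a : (1 : h8h_Heis).a = 0 := rfl
@[simp] theorem one_b : (1 : h8h_Heis).b = 0 := rfl
@[simp] theorem one_c : (1 : h8h_Heis).c = 0 := rfl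
@[simp] theorem inv_a (u : h8h_Heis) : (u⁻¹).a = -u.a := rfl
@[simp] theorem inv_b (u : h8h_Heis) : (u⁻¹).b = -u.b := rfl
@[simp] theorem inv_c (u : h8h_Heis) : (u⁻¹).c = -u.c + u.a * u.b := rfl

instance : Group h8h_Heis where
  mul_assoc u v w := by
    ext
    · simp only [mul_a]; ring
    · simp only [mul_b]; ring
    · simp only [mul_c, mul_a, mul_b]; ring
  one_mul u := by
    ext
    · simp only [mul_a, one_a]; ring
    · simp only [mul_b, one_b]; ring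
    · simp only [mul_c, one_c, one_a]; ring
  mul_one u := by
    ext
    · simp only [mul_a, one_a]; ring
    · simp only [mul_b, one_b]; ring
    · simp only [mul_c, one_c, one_b]; ring
  inv_mul_cancel u := by
    ext
    · simp only [mul_a, inv_a, one_a]; ring
    · simp only [mul_b, inv_b, one_b]; ring
    · simp only [mul_c, inv_c, inv_a, one_c]; ring

end h8h_Heis

section Tw

variable {G : Type*} [Group G] {X : Type*} [MulAction G X]

/-- The twisted permutation `f ↦ (z ↦ m z * f (g⁻¹ • z))` of `X → Heis`. -/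
def h8h_tw (g : G) (m : X → h8h_Heis) : Equiv.Perm (X → h8h_Heis) where
  toFun f := fun z => m z * f (g⁻¹ • z)
  invFun f := fun z => (m (g • z))⁻¹ * f (g • z)
  left_inv f := by
    funext z
    show (m (g • z))⁻¹ * (m (g • z) * f (g⁻¹ • g • z)) = f z
    rw [inv_smul_smul, inv_mul_cancel_left]
  right_inv f := by
    funext z
    show m z * ((m (g • g⁻¹ • z))⁻¹ * f (g • g⁻¹ • z)) = f z
    rw [smul_inv_smul, mul_inv_cancel_left]

theorem h8h_tw_apply (g : G) (m f : X → h8h_Heis) (z : X) :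
    h8h_tw g m f z = m z * f (g⁻¹ • z) := rfl

theorem h8h_tw_mul (g h : G) (m m' : X → h8h_Heis) :
    h8h_tw g m * h8h_tw h m' = h8h_tw (g * h) (fun z => m z * m' (g⁻¹ • z)) := by
  ext1 f
  funext z
  show m z * (m' (g⁻¹ • z) * f (h⁻¹ • g⁻¹ • z)) = m z * m' (g⁻¹ • z) * f ((g * h)⁻¹ • z)
  rw [mul_inv_rev, mul_smul, mul_assoc]

theorem h8h_tw_eq_one (g : G) (m : X → h8h_Heis) (hg : ∀ z : X, g • z = z) (hm : ∀ z, m z = 1) :
    h8h_tw g m = 1 := by
  ext1 f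
  funext z
  have : g⁻¹ • z = z := by rw [inv_smul_eq_iff, hg]
  show m z * f (g⁻¹ • z) = f z
  rw [hm, one_mul, this]

theorem h8h_tw_const_one (g : G) (m : X → h8h_Heis) : h8h_tw g m (fun _ => 1) = m := by
  funext z
  show m z * 1 = m z
  rw [mul_one]

end Tw

section Coc

variable {X : Type*} [MulAction SL(2, ℤ) X] {A : Type*} [AddCommGroup A]

theorem h8h_cS_anti (hneg : ∀ x : X, (-1 : SL(2, ℤ)) • x = x) (h2 : ∀ a : A, a + a = 0 → a = 0)
    {c : SL(2, ℤ) → X → A} (hc : h6c_IsCoc c) : c sS + h6c_rho sS (c sS) = 0 := by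
  rw [← hc, ← pow_two, h6p_S_sq, h6c_coc_neg_one hneg h2 hc]

theorem h8h_cU_norm (hneg : ∀ x : X, (-1 : SL(2, ℤ)) • x = x) (h2 : ∀ a : A, a + a = 0 → a = 0)
    {c : SL(2, ℤ) → X → A} (hc : h6c_IsCoc c) :
    c sU + h6c_rho sU (c sU) + h6c_rho (sU ^ 2) (c sU) = 0 := by
  have h := h6c_IsCoc.pow hc sU 3
  rw [h6p_U_cube, h6c_coc_neg_one hneg h2 hc] at h
  rw [Finset.sum_range_succ, Finset.sum_range_succ, Finset.sum_range_one, pow_zero, h6c_rho_one,
    pow_one] at h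
  exact h.symm

end Coc

/-- **[η] The Heisenberg lift.** -/
theorem h8h_exists_eta {X : Type*} [MulAction SL(2, ℤ) X] (F : h6c_Frame SL(2, ℤ) X)
    (hneg : ∀ x : X, (-1 : SL(2, ℤ)) • x = x) (x y : Additive F.Γ →+ ℤ) :
    ∃ η : F.Γ → ℚ, ∀ γ γ' : F.Γ,
      η (γ * γ') = η γ + η γ' + (x (Additive.ofMul γ) : ℚ) * (y (Additive.ofMul γ') : ℚ) := by
  classical
  have h2 : ∀ a : ℚ, a + a = 0 → a = 0 := fun a h => by linarith
  set xq : Additive F.Γ →+ ℚ := (Int.castAddHom ℚ).comp x with hxq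
  set yq : Additive F.Γ →+ ℚ := (Int.castAddHom ℚ).comp y with hyq
  set cx : SL(2, ℤ) → X → ℚ := F.coc xq with hcxdef
  set cy : SL(2, ℤ) → X → ℚ := F.coc yq with hcydef
  have hcx : h6c_IsCoc cx := F.coc_isCoc xq
  have hcy : h6c_IsCoc cy := F.coc_isCoc yq
  -- pointwise relations
  have hSS : ∀ z : X, sS⁻¹ • sS⁻¹ • z = z := by
    intro z
    rw [← mul_smul, ← mul_inv_rev, ← pow_two, h6p_S_sq, inv_smul_eq_iff, hneg]
  have hUUU : ∀ z : X, sU⁻¹ • sU⁻¹ • sU⁻¹ • z = z := by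
    intro z
    rw [← mul_smul, ← mul_smul, ← mul_inv_rev, ← mul_inv_rev, ← pow_two, ← pow_succ', h6p_U_cube,
      inv_smul_eq_iff, hneg]
  have hS : ∀ {c : SL(2, ℤ) → X → ℚ}, h6c_IsCoc c → ∀ z : X, c sS z + c sS (sS⁻¹ • z) = 0 := by
    intro c hc z
    have := congrFun (h8h_cS_anti hneg h2 hc) z
    exact this
  have hU : ∀ {c : SL(2, ℤ) → X → ℚ}, h6c_IsCoc c → ∀ z : X,
      c sU z + c sU (sU⁻¹ • z) + c sU (sU⁻¹ • sU⁻¹ • z) = 0 := by
    intro c hc z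
    have := congrFun (h8h_cU_norm hneg h2 hc) z
    simp only [Pi.add_apply, h6c_rho_apply, Pi.zero_apply] at this
    have e : (sU ^ 2)⁻¹ • z = sU⁻¹ • sU⁻¹ • z := by
      rw [← mul_smul, ← mul_inv_rev, ← pow_two]
    rw [e] at this
    exact this
  -- the lifts of `S` and `U`
  let mS : X → h8h_Heis := fun z => ⟨cx sS z, cy sS z, cx sS z * cy sS z / 2⟩
  let R : X → ℚ := fun z => cx sU z * cy sU (sU⁻¹ • z) + cx sU z * cy sU (sU⁻¹ • sU⁻¹ • z)
    + cx sU (sU⁻¹ • z) * cy sU (sU⁻¹ • sU⁻¹ • z)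
  let mU : X → h8h_Heis := fun z => ⟨cx sU z, cy sU z, -(R z) / 3⟩
  have hR : ∀ z : X, R (sU⁻¹ • z) = R z := by
    intro z
    show cx sU (sU⁻¹ • z) * cy sU (sU⁻¹ • sU⁻¹ • z)
        + cx sU (sU⁻¹ • z) * cy sU (sU⁻¹ • sU⁻¹ • sU⁻¹ • z)
        + cx sU (sU⁻¹ • sU⁻¹ • z) * cy sU (sU⁻¹ • sU⁻¹ • sU⁻¹ • z)
      = cx sU z * cy sU (sU⁻¹ • z) + cx sU z * cy sU (sU⁻¹ • sU⁻¹ • z)
        + cx sU (sU⁻¹ • z) * cy sU (sU⁻¹ • sU⁻¹ • z)
    rw [hUUU]
    have h1 := hU hcx z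
    have h2 := hU hcy z
    linear_combination (cy sU z) * h1 - (cx sU z) * h2
  have hσ : (h8h_tw sS mS) ^ 2 = 1 := by
    rw [pow_two, h8h_tw_mul]
    apply h8h_tw_eq_one
    · intro z
      rw [← pow_two, h6p_S_sq, hneg]
    · intro z
      have h1 := hS hcx z
      have h2 := hS hcy z
      ext
      · show cx sS z + cx sS (sS⁻¹ • z) = 0
        exact h1
      · show cy sS z + cy sS (sS⁻¹ • z) = 0
        exact h2
      · show cx sS z * cy sS z / 2 + cx sS (sS⁻¹ • z) * cy sS (sS⁻¹ • z) / 2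
          + cx sS z * cy sS (sS⁻¹ • z) = 0
        have e1 : cx sS (sS⁻¹ • z) = -cx sS z := by linarith
        have e2 : cy sS (sS⁻¹ • z) = -cy sS z := by linarith
        rw [e1, e2]
        ring
  have hυ : (h8h_tw sU mU) ^ 3 = 1 := by
    rw [pow_succ, pow_two, h8h_tw_mul, h8h_tw_mul]
    apply h8h_tw_eq_one
    · intro z
      rw [← pow_two, ← pow_succ, h6p_U_cube, hneg]
    · intro z
      have h1 := hU hcx z
      have h2 := hU hcy z
      have e : (sU * sU)⁻¹ • z = sU⁻¹ • sU⁻¹ • z := by rw [mul_inv_rev, mul_smul]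
      ext
      · show cx sU z + cx sU (sU⁻¹ • z) + cx sU ((sU * sU)⁻¹ • z) = 0
        rw [e]; exact h1
      · show cy sU z + cy sU (sU⁻¹ • z) + cy sU ((sU * sU)⁻¹ • z) = 0
        rw [e]; exact h2
      · show -(R z) / 3 + -(R (sU⁻¹ • z)) / 3 + cx sU z * cy sU (sU⁻¹ • z)
            + -(R ((sU * sU)⁻¹ • z)) / 3
            + (cx sU z + cx sU (sU⁻¹ • z)) * cy sU ((sU * sU)⁻¹ • z) = 0
        rw [e, hR, hR, hR]
        show -(R z) / 3 + -(R z) / 3 + cx sU z * cy sU (sU⁻¹ • z) + -(R z) / 3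
            + (cx sU z + cx sU (sU⁻¹ • z)) * cy sU (sU⁻¹ • sU⁻¹ • z) = 0
        have hRz : R z = cx sU z * cy sU (sU⁻¹ • z) + cx sU z * cy sU (sU⁻¹ • sU⁻¹ • z)
            + cx sU (sU⁻¹ • z) * cy sU (sU⁻¹ • sU⁻¹ • z) := rfl
        rw [hRz]
        ring
  obtain ⟨Ξ, hΞS, hΞU⟩ := h6p_lift _ _ hσ hυ
  -- structure of `Ξ g`
  have hstruct : ∀ g : SL(2, ℤ), ∃ m : X → h8h_Heis,
      Ξ g = h8h_tw g m ∧ (∀ z, (m z).a = cx g z) ∧ (∀ z, (m z).b = cy g z) := by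
    intro g
    have hg : g ∈ Subgroup.closure ({ModularGroup.S, h6p_U} : Set SL(2, ℤ)) := by
      rw [h6c_closure_S_U]; exact Subgroup.mem_top g
    induction hg using Subgroup.closure_induction with
    | mem u hu =>
      rcases hu with rfl | rfl
      · exact ⟨mS, hΞS, fun z => rfl, fun z => rfl⟩
      · exact ⟨mU, hΞU, fun z => rfl, fun z => rfl⟩
    | one =>
      refine ⟨fun _ => 1, ?_, fun z => ?_, fun z => ?_⟩
      · rw [map_one]
        exact (h8h_tw_eq_one 1 _ (fun z => one_smul _ z) (fun z => rfl)).symm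
      · rw [hcx.one]; rfl
      · rw [hcy.one]; rfl
    | mul u v _ _ hu hv =>
      obtain ⟨m, hm, hma, hmb⟩ := hu
      obtain ⟨m', hm', hma', hmb'⟩ := hv
      refine ⟨fun z => m z * m' (u⁻¹ • z), ?_, fun z => ?_, fun z => ?_⟩
      · rw [map_mul, hm, hm', h8h_tw_mul]
      · rw [h8h_Heis.mul_a, hma, hma', hcx u v]; rfl
      · rw [h8h_Heis.mul_b, hmb, hmb', hcy u v]; rfl
    | inv u _ hu =>
      obtain ⟨m, hm, hma, hmb⟩ := hu
      refine ⟨fun z => (m (u • z))⁻¹, ?_, fun z => ?_, fun z => ?_⟩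
      · rw [map_inv, hm]
        symm
        apply eq_inv_of_mul_eq_one_left
        rw [h8h_tw_mul]
        apply h8h_tw_eq_one
        · intro z; rw [inv_mul_cancel, one_smul]
        · intro z
          show (m (u • z))⁻¹ * m (u⁻¹⁻¹ • z) = 1
          rw [inv_inv, inv_mul_cancel]
      · rw [h8h_Heis.inv_a, hma, hcx.inv u]
        show -cx u (u • z) = -(cx u (u⁻¹⁻¹ • z))
        rw [inv_inv]
      · rw [h8h_Heis.inv_b, hmb, hcy.inv u]
        show -cy u (u • z) = -(cy u (u⁻¹⁻¹ • z))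
        rw [inv_inv]
  choose Mf hM hMa hMb using hstruct
  refine ⟨fun γ => (Mf (γ : SL(2, ℤ)) F.x0).c, ?_⟩
  intro γ γ'
  have hfix : (γ : SL(2, ℤ))⁻¹ • F.x0 = F.x0 := by
    rw [inv_smul_eq_iff]; exact ((F.stab _).mp γ.2).symm
  have h1 : Ξ ((γ : SL(2, ℤ)) * (γ' : SL(2, ℤ)))
      = h8h_tw ((γ : SL(2, ℤ)) * (γ' : SL(2, ℤ)))
          (fun z => Mf (γ : SL(2, ℤ)) z * Mf (γ' : SL(2, ℤ)) ((γ : SL(2, ℤ))⁻¹ • z)) := by
    rw [map_mul, hM, hM, h8h_tw_mul]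
  have h2 := hM ((γ : SL(2, ℤ)) * (γ' : SL(2, ℤ)))
  have h3 : Mf ((γ : SL(2, ℤ)) * (γ' : SL(2, ℤ)))
      = fun z => Mf (γ : SL(2, ℤ)) z * Mf (γ' : SL(2, ℤ)) ((γ : SL(2, ℤ))⁻¹ • z) := by
    rw [← h8h_tw_const_one ((γ : SL(2, ℤ)) * (γ' : SL(2, ℤ))) (Mf _), ← h2, h1,
      h8h_tw_const_one]
  have h4 := congrFun h3 F.x0
  simp only [hfix] at h4
  have hxa : (Mf (γ : SL(2, ℤ)) F.x0).a = (x (Additive.ofMul γ) : ℚ) := by
    rw [hMa]
    have := DFunLike.congr_fun (F.ev_coc xq) (Additive.ofMul γ)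
    rw [F.ev_apply] at this
    exact this
  have hyb : (Mf (γ' : SL(2, ℤ)) F.x0).b = (y (Additive.ofMul γ') : ℚ) := by
    rw [hMb]
    have := DFunLike.congr_fun (F.ev_coc yq) (Additive.ofMul γ')
    rw [F.ev_apply] at this
    exact this
  show (Mf ((γ * γ' : F.Γ) : SL(2, ℤ)) F.x0).c = _
  rw [Subgroup.coe_mul, h4, h8h_Heis.mul_c, hxa, hyb]

end Fermat.Agent.Lib.S41
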