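import Fermat.Agent.Lib.S41.H6Std
import Fermat.Agent.Lib.S41.H6Res
import Fermat.Agent.Lib.S41.H8Eta

/-!
# Project S41, layer [B] (helper6): (B3b) invariance of the pairing under `diag(q,1)`

`h6v_conj_isometry_of_sum`: the isometry from the coset-sum identity [Σ] (`h6v_SumStatement`),
the Heisenberg lift [η] (`h8h_exists_eta`) and the residue formula [R] (`h6x_residue`).
-/

set_option autoImplicit false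

open scoped MatrixGroups
open CongruenceSubgroup ModularCurve.Period

namespace Fermat.Agent.Lib.S41

local notation "sT" => (ModularGroup.T : SL(2, ℤ))

/-- The coset-sum identity [Σ] for `δ = diag(q,1)`. -/
def h6v_SumStatement : Prop :=
  ∀ {q : ℕ} [Fact q.Prime] (Γ₁ Γ₂ : Subgroup SL(2, ℤ)) [Γ₁.FiniteIndex] [Γ₂.FiniteIndex]
    [Fintype (SL(2, ℤ) ⧸ Γ₁)] [Fintype (SL(2, ℤ) ⧸ Γ₂)] (_ : Γ₁ ≤ Gamma0 q) (e : Γ₁ ≃* Γ₂)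
    (_ : ∀ g : Γ₁, (e g : SL(2, ℤ)) 0 0 = (g : SL(2, ℤ)) 0 0 ∧
        (e g : SL(2, ℤ)) 0 1 = q * (g : SL(2, ℤ)) 0 1 ∧
        q * (e g : SL(2, ℤ)) 1 0 = (g : SL(2, ℤ)) 1 0 ∧ (e g : SL(2, ℤ)) 1 1 = (g : SL(2, ℤ)) 1 1)
    (η : Γ₂ → ℚ)
    (_ : ∀ γ π : Γ₂, ((π : SL(2, ℤ)) : Matrix (Fin 2) (Fin 2) ℤ).trace = 2 →
        η (γ⁻¹ * π * γ) = η π)
    (_ : ∀ (π : Γ₂) (k : ℕ), ((π : SL(2, ℤ)) : Matrix (Fin 2) (Fin 2) ℤ).trace = 2 →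
        η (π ^ k) = k * η π)
    (N : ℕ) (_ : 0 < N) (_ : ∀ x' : SL(2, ℤ) ⧸ Γ₁, sT ^ N • x' = x')
    (_ : ∀ x' : SL(2, ℤ) ⧸ Γ₂, sT ^ N • x' = x'),
    ∑ x' : SL(2, ℤ) ⧸ Γ₁, η (e ((h6u_frame Γ₁).cocElem (sT ^ N) x'))
      = ∑ x' : SL(2, ℤ) ⧸ Γ₂, η ((h6u_frame Γ₂).cocElem (sT ^ N) x')

section Iso

variable {q : ℕ} [Fact q.Prime] (Γ₁ Γ₂ : Subgroup SL(2, ℤ)) [Γ₁.FiniteIndex] [Γ₂.FiniteIndex]
variable (hneg1 : (-1 : SL(2, ℤ)) ∈ Γ₁) (hneg2 : (-1 : SL(2, ℤ)) ∈ Γ₂)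
variable (h1 : Γ₁ ≤ Gamma0 q) (e : Γ₁ ≃* Γ₂)
variable (he : ∀ g : Γ₁, (e g : SL(2, ℤ)) 0 0 = (g : SL(2, ℤ)) 0 0 ∧
        (e g : SL(2, ℤ)) 0 1 = q * (g : SL(2, ℤ)) 0 1 ∧
        q * (e g : SL(2, ℤ)) 1 0 = (g : SL(2, ℤ)) 1 0 ∧ (e g : SL(2, ℤ)) 1 1 = (g : SL(2, ℤ)) 1 1)

/-- Transport of a character along `e`. -/
def h6v_pull (x : Additive Γ₂ →+ ℤ) : Additive Γ₁ →+ ℤ :=
  x.comp (MonoidHom.toAdditive e.toMonoidHom)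

theorem h6v_pull_apply (x : Additive Γ₂ →+ ℤ) (γ : Γ₁) :
    h6v_pull Γ₁ Γ₂ e x (Additive.ofMul γ) = x (Additive.ofMul (e γ)) := rfl

include he in
theorem h6v_trace_e (g : Γ₁) :
    (((e g : Γ₂) : SL(2, ℤ)) : Matrix (Fin 2) (Fin 2) ℤ).trace
      = (((g : Γ₁) : SL(2, ℤ)) : Matrix (Fin 2) (Fin 2) ℤ).trace := by
  obtain ⟨h00, -, -, h11⟩ := he g
  rw [Matrix.trace_fin_two, Matrix.trace_fin_two]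
  exact congrArg₂ (· + ·) h00 h11

include he in
theorem h6v_pull_parabolic (x : Additive Γ₂ →+ ℤ) (hx : IsParabolicHom Γ₂ x) :
    IsParabolicHom Γ₁ (h6v_pull Γ₁ Γ₂ e x) := by
  intro γ hγ
  rw [h6v_pull_apply]
  apply hx
  rw [h6v_trace_e Γ₁ Γ₂ e he]
  exact hγ

theorem h6v_pow_fix {G : Type*} [Group G] {X : Type*} [MulAction G X] (g : G) (x : X)
    (h : g • x = x) (n : ℕ) : g ^ n • x = x := by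
  induction n with
  | zero => rw [pow_zero, one_smul]
  | succ n ih => rw [pow_succ, mul_smul, h, ih]

include hneg1 hneg2 h1 he in
/-- **(B3b)** from [Σ]. -/
theorem h6v_conj_isometry_of_sum (hsum : h6v_SumStatement) (x y : Additive Γ₂ →+ ℤ)
    (hx : IsParabolicHom Γ₂ x) (hy : IsParabolicHom Γ₂ y) :
    h6u_P Γ₁ (h6v_pull Γ₁ Γ₂ e x) (h6v_pull Γ₁ Γ₂ e y) = h6u_P Γ₂ x y := by
  classical
  letI := h6u_fintype Γ₁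
  letI := h6u_fintype Γ₂
  obtain ⟨η, hη⟩ := h8h_exists_eta (h6u_frame Γ₂) (h6u_neg Γ₂ hneg2) x y
  obtain ⟨N₁, hN₁, hT₁⟩ := h6r_exists_period (X := SL(2, ℤ) ⧸ Γ₁) sT
  obtain ⟨N₂, hN₂, hT₂⟩ := h6r_exists_period (X := SL(2, ℤ) ⧸ Γ₂) sT
  have hT1 : ∀ x' : SL(2, ℤ) ⧸ Γ₁, sT ^ (N₁ * N₂) • x' = x' := by
    intro x'
    rw [pow_mul]
    exact h6v_pow_fix _ _ (hT₁ x') _
  have hT2 : ∀ x' : SL(2, ℤ) ⧸ Γ₂, sT ^ (N₁ * N₂) • x' = x' := by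
    intro x'
    rw [mul_comm, pow_mul]
    exact h6v_pow_fix _ _ (hT₂ x') _
  have hN : 0 < N₁ * N₂ := Nat.mul_pos hN₁ hN₂
  -- the residue cochain on `Γ₁`
  obtain ⟨η₁, hdef⟩ : ∃ η₁ : (h6u_frame Γ₁).Γ → ℚ, ∀ γ : Γ₁, η₁ γ = η (e γ) :=
    ⟨fun γ => η (e γ), fun _ => rfl⟩
  have hη₁ : ∀ γ γ' : (h6u_frame Γ₁).Γ, η₁ (γ * γ') = η₁ γ + η₁ γ'
        + ((h6v_pull Γ₁ Γ₂ e x (Additive.ofMul γ) : ℤ) : ℚ)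
          * ((h6v_pull Γ₁ Γ₂ e y (Additive.ofMul γ') : ℤ) : ℚ) := by
    intro γ γ'
    rw [hdef, hdef, hdef, map_mul, hη]
    rfl
  have r1 := @h6x_residue _ _ (h6u_fintype Γ₁) (h6u_frame Γ₁) _ _ _ hη₁ (h6u_neg Γ₁ hneg1)
    (h6v_pull_parabolic Γ₁ Γ₂ e he x hx) (h6v_pull_parabolic Γ₁ Γ₂ e he y hy) (N₁ * N₂) hT1
  have r2 := @h6x_residue _ _ (h6u_fintype Γ₂) (h6u_frame Γ₂) _ _ _ hη (h6u_neg Γ₂ hneg2)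
    hx hy (N₁ * N₂) hT2
  have hconj : ∀ γ π : Γ₂, ((π : SL(2, ℤ)) : Matrix (Fin 2) (Fin 2) ℤ).trace = 2 →
      η (γ⁻¹ * π * γ) = η π := by
    intro γ π hπ
    have h4 : ((π : SL(2, ℤ)) : Matrix (Fin 2) (Fin 2) ℤ).trace ^ 2 = 4 := by rw [hπ]; norm_num
    exact h6x_eta_conj (h6u_frame Γ₂) hη γ π (hx π h4) (hy π h4)
  have hpow : ∀ (π : Γ₂) (k : ℕ), ((π : SL(2, ℤ)) : Matrix (Fin 2) (Fin 2) ℤ).trace = 2 →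
      η (π ^ k) = k * η π := by
    intro π k hπ
    have h4 : ((π : SL(2, ℤ)) : Matrix (Fin 2) (Fin 2) ℤ).trace ^ 2 = 4 := by rw [hπ]; norm_num
    exact h6x_eta_pow (h6u_frame Γ₂) hη π (hy π h4) k
  have s := hsum Γ₁ Γ₂ h1 e he η hconj hpow (N₁ * N₂) hN hT1 hT2
  have hN' : ((N₁ * N₂ : ℕ) : ℚ) ≠ 0 := by exact_mod_cast hN.ne'
  have key : ((N₁ * N₂ : ℕ) : ℚ) * ((h6u_P Γ₁ (h6v_pull Γ₁ Γ₂ e x) (h6v_pull Γ₁ Γ₂ e y) : ℤ) : ℚ)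
      = ((N₁ * N₂ : ℕ) : ℚ) * ((h6u_P Γ₂ x y : ℤ) : ℚ) := by
    unfold h6u_P
    rw [r1, r2, ← s]
    exact Finset.sum_congr rfl fun x' _ => hdef _
  have := mul_left_cancel₀ hN' key
  exact_mod_cast this

end Iso

end Fermat.Agent.Lib.S41
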