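import Fermat.Agent.Lib.S41.H2IBeta
import Fermat.Agent.Lib.S41.H6Iso
import Fermat.Agent.Lib.S41.H5BFinal

/-!
# Project S41 (helper2): glue — `β ⊣ β'` from the coset-sum identity [Σ]

`h2g_iso_of_sum : h6v_SumStatement → h2j_IsoStatement` (helper6's `h6v_conj_isometry_of_sum`),
`h2g_betaAdj_of_sum : h6v_SumStatement → h5y_BetaAdjStatement` (with `h2j_beta_adj`),
so that S41 follows from `h6v_SumStatement` alone via lead's `l0_s41_of_betaAdj`.
-/

set_option autoImplicit false

open CongruenceSubgroup ModularCurve.Period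
open scoped MatrixGroups

namespace Fermat.Agent.Lib.S41

theorem h2g_iso_of_sum (hsum : h6v_SumStatement) : h2j_IsoStatement := by
  intro q _ Γ₁ Γ₂ _ _ h1 hneg1 hneg2 e he x y hx hy
  exact h6v_conj_isometry_of_sum Γ₁ Γ₂ hneg1 hneg2 h1 e he hsum x y hx hy

theorem h2g_betaAdj_of_sum (hsum : h6v_SumStatement) : h5y_BetaAdjStatement := by
  intro M q _ hqM _ _ x z
  exact h2j_beta_adj hqM (h2j_isoAt_of_statement hqM (h2g_iso_of_sum hsum)) x z

end Fermat.Agent.Lib.S41
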