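import Fermat.Agent.Lib.S41.H6Std
import Fermat.Agent.Lib.S41.H5Lattice

/-!
# Project S41, layer [B] bridge, piece (I-β) (helper2)

* `h2j_G2 M q` — the image of `conjH : Γ₀(M q) → Γ₀(M)` inside `SL(2,ℤ)` (`= Γ₀(M) ⊓ Γ⁰(q)`),
  `h2j_e : Γ₀(M q) ≃* h2j_G2 M q`, its entries (`h2j_e_entries`), finite index, `-1 ∈`, `≤ Γ₀(M)`;
* `h2j_tr_eq` — helper6's transfer from `h2j_G2 M q` to `Γ₀(M)`, precomposed with `e⁻¹`, is
  helper5's `(h5c_coresH hqM).op ℤ`;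
* `h2j_beta_adj` — `β ⊣ β'` for `h6u_P`, from `h6u_adjoint` and the conjugation isometry
  (hypothesis `h2j_IsoStatement` = helper6's `h6v_conj_isometry`).
-/

set_option autoImplicit false

open P2MW.S_ModularForm_heckeT_slash_eq_self_of_mem_Gamma0.ModularForm.HeckeSlashInvariance
open P2MW.S_ModularForm_heckeT_slash_eq_self_of_mem_Gamma0.ModularForm
open CongruenceSubgroup Matrix.SpecialLinearGroup ModularCurve.Period
open scoped MatrixGroups OnePoint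

noncomputable section

namespace Fermat.Agent.Lib.S41

section Group

variable (M q : ℕ) [Fact q.Prime]

/-- `conjH` as a map to `SL(2,ℤ)`. -/
def h2j_f : Gamma0 (M * q) →* SL(2, ℤ) := (Gamma0 M).subtype.comp (h6_conjH M q h5i_qpos)

theorem h2j_f_apply (g : Gamma0 (M * q)) :
    h2j_f M q g = ((h6_conjH M q h5i_qpos g : Gamma0 M) : SL(2, ℤ)) := rfl

theorem h2j_conjH_injective : Function.Injective (h6_conjH M q h5i_qpos) := by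
  intro g g' h
  apply h5h_ι_inj (M * q)
  have h1 := h5i_conjH_rel (M := M) (q := q) g
  have h2 := h5i_conjH_rel (M := M) (q := q) g'
  rw [h] at h1
  exact mul_left_cancel (h1.trans h2.symm)

theorem h2j_f_injective : Function.Injective (h2j_f M q) :=
  Subtype.val_injective.comp (h2j_conjH_injective M q)

/-- `Γ₂ = conjH (Γ₀(M q)) = Γ₀(M) ⊓ Γ⁰(q)` as a subgroup of `SL(2,ℤ)`. -/
def h2j_G2 : Subgroup SL(2, ℤ) := (h2j_f M q).range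

/-- `e = conjH : Γ₀(M q) ≃* Γ₂`. -/
def h2j_e : Gamma0 (M * q) ≃* h2j_G2 M q := MonoidHom.ofInjective (h2j_f_injective M q)

theorem h2j_e_coe (g : Gamma0 (M * q)) :
    ((h2j_e M q g : h2j_G2 M q) : SL(2, ℤ)) = ((h6_conjH M q h5i_qpos g : Gamma0 M) : SL(2, ℤ)) :=
  rfl

theorem h2j_le : h2j_G2 M q ≤ Gamma0 M := by
  rintro _ ⟨g, rfl⟩
  exact (h6_conjH M q h5i_qpos g).2

theorem h2j_incl_e (g : Gamma0 (M * q)) :
    Subgroup.inclusion (h2j_le M q) (h2j_e M q g) = h6_conjH M q h5i_qpos g := rfl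

/-- The entries of `e g`. -/
theorem h2j_e_entries (g : Gamma0 (M * q)) :
    ((h2j_e M q g : h2j_G2 M q) : SL(2, ℤ)) 0 0 = (g : SL(2, ℤ)) 0 0 ∧
    ((h2j_e M q g : h2j_G2 M q) : SL(2, ℤ)) 0 1 = (q : ℤ) * (g : SL(2, ℤ)) 0 1 ∧
    (q : ℤ) * ((h2j_e M q g : h2j_G2 M q) : SL(2, ℤ)) 1 0 = (g : SL(2, ℤ)) 1 0 ∧
    ((h2j_e M q g : h2j_G2 M q) : SL(2, ℤ)) 1 1 = (g : SL(2, ℤ)) 1 1 := by
  refine ⟨rfl, rfl, ?_, rfl⟩
  obtain ⟨c, hc⟩ : (q : ℤ) ∣ (g : SL(2, ℤ)) 1 0 :=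
    dvd_trans (Dvd.intro_left _ rfl) (h6_dvd_of_mem M q g g.2)
  have hqz : (q : ℤ) ≠ 0 := by exact_mod_cast (Fact.out : q.Prime).ne_zero
  show (q : ℤ) * h6_conjMat q _ 1 0 = _
  simp only [h6_conjMat, Matrix.of_apply, Matrix.cons_val', Matrix.cons_val_zero,
    Matrix.cons_val_one]
  rw [hc, Int.mul_ediv_cancel_left _ hqz]

theorem h2j_neg_one_mem : (-1 : SL(2, ℤ)) ∈ h2j_G2 M q := by
  have hm : (-1 : SL(2, ℤ)) ∈ Gamma0 (M * q) := by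
    rw [Gamma0_mem]
    simp
  refine ⟨⟨-1, hm⟩, ?_⟩
  rw [h2j_f_apply]
  apply Subtype.ext
  show h6_conjMat q ((-1 : SL(2, ℤ)) : Matrix (Fin 2) (Fin 2) ℤ) = _
  ext i j
  fin_cases i <;> fin_cases j <;> simp [h6_conjMat]

/-- `h · conjH(k') = k' · h` for `h = heckeRep q 0 = diag(1, q)`. -/
theorem h2j_rel (k' : Gamma0 (M * q)) :
    heckeRep q ((0 : ZMod q) : OnePoint (ZMod q)) * h5h_ι M (h6_conjH M q h5i_qpos k')
      = h5h_ι (M * q) k' * heckeRep q ((0 : ZMod q) : OnePoint (ZMod q)) := by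
  have h1 := h5i_conjH_rel (M := M) (q := q) k'
  have h2 := h5i_central (q := q) (h5h_ι M (h6_conjH M q h5i_qpos k'))
  -- `D * (ι k' * h) = D * (h * ι (conjH k'))`
  have h3 : heckeRep q ∞ * (h5h_ι (M * q) k' * heckeRep q ((0 : ZMod q) : OnePoint (ZMod q)))
      = heckeRep q ∞ * (heckeRep q ((0 : ZMod q) : OnePoint (ZMod q))
          * h5h_ι M (h6_conjH M q h5i_qpos k')) := by
    rw [← mul_assoc, h1, mul_assoc, ← mul_assoc (heckeRep q ∞), ← h2, mul_assoc]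
  exact (mul_left_cancel h3).symm

end Group

section Stab

variable {M q : ℕ} [Fact q.Prime] (hqM : ¬ q ∣ M)

include hqM in
/-- The stabiliser of `0` in `Γ₀(M)` is `Γ₂`. -/
theorem h2j_mem_of_fix (k : SL(2, ℤ)) (hk : k ∈ Gamma0 M)
    (hfix : h5h_act q k ((0 : ZMod q) : OnePoint (ZMod q)) = ((0 : ZMod q) : OnePoint (ZMod q))) :
    k ∈ h2j_G2 M q := by
  refine ⟨h5c_κzero hqM ⟨k, hk⟩ hfix, ?_⟩
  rw [h2j_f_apply, h5i_conjH_κzero hqM ⟨k, hk⟩ hfix]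

theorem h2j_fix_of_dvd (k : SL(2, ℤ)) (hk : (q : ℤ) ∣ k 0 1) :
    h5h_act q k ((0 : ZMod q) : OnePoint (ZMod q)) = ((0 : ZMod q) : OnePoint (ZMod q)) := by
  rw [h5c_act_zero]
  have h01 : ((k 0 1 : ℤ) : ZMod q) = 0 := (ZMod.intCast_zmod_eq_zero_iff_dvd _ _).mpr hk
  have h00 : ((k 0 0 : ℤ) : ZMod q) ≠ 0 := by
    intro h0
    have hdet : k 0 0 * k 1 1 - k 0 1 * k 1 0 = 1 := by
      have := k.det_coe
      rwa [Matrix.det_fin_two] at this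
    have h9 := congrArg (fun n : ℤ => (n : ZMod q)) hdet
    simp only [Int.cast_sub, Int.cast_mul, Int.cast_one, h0, h01, zero_mul, sub_zero] at h9
    exact zero_ne_one h9
  rw [if_neg h00, h01, zero_div]

theorem h2j_fix_of_mem (k : SL(2, ℤ)) (hk : k ∈ h2j_G2 M q) :
    h5h_act q k ((0 : ZMod q) : OnePoint (ZMod q)) = ((0 : ZMod q) : OnePoint (ZMod q)) := by
  obtain ⟨g, rfl⟩ := hk
  exact h2j_fix_of_dvd _ ⟨_, (h2j_e_entries M q g).2.1⟩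

include hqM in
theorem h2j_mem_iff (k : SL(2, ℤ)) :
    k ∈ h2j_G2 M q ↔ k ∈ Gamma0 M ∧ (q : ℤ) ∣ k 0 1 := by
  constructor
  · intro hk
    refine ⟨h2j_le M q hk, ?_⟩
    obtain ⟨g, rfl⟩ := hk
    exact ⟨_, (h2j_e_entries M q g).2.1⟩
  · rintro ⟨h1, h2⟩
    exact h2j_mem_of_fix hqM k h1 (h2j_fix_of_dvd k h2)

include hqM in
theorem h2j_finiteIndex [NeZero M] : (h2j_G2 M q).FiniteIndex := by
  haveI : NeZero (M * q) := ⟨Nat.mul_ne_zero (NeZero.ne M) (Fact.out : q.Prime).ne_zero⟩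
  refine Subgroup.finiteIndex_of_le (H := Gamma (M * q)) ?_
  intro g hg
  rw [Gamma_mem] at hg
  rw [h2j_mem_iff hqM]
  constructor
  · rw [Gamma0_mem]
    have h10 : (((M * q : ℕ) : ℤ)) ∣ g 1 0 := (ZMod.intCast_zmod_eq_zero_iff_dvd _ _).mp hg.2.2.1
    exact (ZMod.intCast_zmod_eq_zero_iff_dvd _ _).mpr
      (dvd_trans (by exact_mod_cast Dvd.intro q rfl) h10)
  · have h01 : (((M * q : ℕ) : ℤ)) ∣ g 0 1 := (ZMod.intCast_zmod_eq_zero_iff_dvd _ _).mp hg.2.1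
    exact dvd_trans (by exact_mod_cast Dvd.intro_left M rfl) h01

end Stab

/-! ### The transfer from `Γ₂` is `coresH` -/

section Transfer

variable {M q : ℕ} [Fact q.Prime]

theorem h2j_act_inv (g : SL(2, ℤ)) (x : OnePoint (ZMod q)) :
    h5h_act q g⁻¹ (h5h_act q g x) = x := by
  rw [← h5h_act_mul, mul_inv_cancel, h5h_act_one]

theorem h2j_act_inv' (g : SL(2, ℤ)) (x : OnePoint (ZMod q)) :
    h5h_act q g (h5h_act q g⁻¹ x) = x := by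
  rw [← h5h_act_mul, inv_mul_cancel, h5h_act_one]

theorem h2j_proj_eq_one_iff (a : SL(2, ℤ)) :
    h6u_proj (h2j_le M q) (a : SL(2, ℤ) ⧸ h2j_G2 M q) = ((1 : SL(2, ℤ)) : SL(2, ℤ) ⧸ Gamma0 M)
      ↔ a ∈ Gamma0 M := by
  show ((a : SL(2, ℤ)) : SL(2, ℤ) ⧸ Gamma0 M) = ((1 : SL(2, ℤ)) : SL(2, ℤ) ⧸ Gamma0 M) ↔ _
  rw [QuotientGroup.eq, mul_one, inv_mem_iff]

theorem h2j_out_mem (x' : SL(2, ℤ) ⧸ h2j_G2 M q)
    (hx' : h6u_proj (h2j_le M q) x' = ((1 : SL(2, ℤ)) : SL(2, ℤ) ⧸ Gamma0 M)) :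
    Quotient.out x' ∈ Gamma0 M := by
  rw [← h2j_proj_eq_one_iff (M := M) (q := q), QuotientGroup.out_eq']
  exact hx'

/-- `h · g₂ = e⁻¹(g₂) · h` for `g₂ ∈ Γ₂`. -/
theorem h2j_rel' (c : h2j_G2 M q) :
    heckeRep q ((0 : ZMod q) : OnePoint (ZMod q)) * mapGL ℝ (c : SL(2, ℤ))
      = h5h_ι (M * q) ((h2j_e M q).symm c) * heckeRep q ((0 : ZMod q) : OnePoint (ZMod q)) := by
  have h := h2j_rel M q ((h2j_e M q).symm c)
  have h2 : h5h_ι M (h6_conjH M q h5i_qpos ((h2j_e M q).symm c)) = mapGL ℝ (c : SL(2, ℤ)) := by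
    rw [h5h_ι_apply, ← h2j_e_coe, MulEquiv.apply_symm_apply]
  rw [h2] at h
  exact h

variable (hqM : ¬ q ∣ M)

/-- The fibre of `SL(2,ℤ)⧸Γ₂ → SL(2,ℤ)⧸Γ₀(M)` over the base point. -/
abbrev h2j_J (M q : ℕ) [Fact q.Prime] : Type :=
  {x' : SL(2, ℤ) ⧸ h2j_G2 M q //
    h6u_proj (h2j_le M q) x' = ((1 : SL(2, ℤ)) : SL(2, ℤ) ⧸ Gamma0 M)}

/-- The map `P¹(𝔽_q) → fibre`, `y ↦ ⟦r_y⁻¹⟧`. -/
def h2j_eJfun (y : OnePoint (ZMod q)) : h2j_J M q :=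
  ⟨(((h5c_secZero hqM y : Gamma0 M) : SL(2, ℤ))⁻¹ : SL(2, ℤ)), by
    rw [h2j_proj_eq_one_iff]
    exact inv_mem (h5c_secZero hqM y).2⟩

theorem h2j_eJfun_bijective : Function.Bijective (h2j_eJfun (M := M) (q := q) hqM) := by
  constructor
  · intro y y' h
    have h1 := congrArg Subtype.val h
    change (((((h5c_secZero hqM y : Gamma0 M) : SL(2, ℤ))⁻¹ : SL(2, ℤ)) :
        SL(2, ℤ) ⧸ h2j_G2 M q))
      = ((((h5c_secZero hqM y' : Gamma0 M) : SL(2, ℤ))⁻¹ : SL(2, ℤ)) :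
        SL(2, ℤ) ⧸ h2j_G2 M q) at h1
    rw [QuotientGroup.eq, inv_inv] at h1
    have h2 := h2j_fix_of_mem _ h1
    rw [h5h_act_mul, h5c_secZero_spec hqM y] at h2
    have h3 := congrArg (h5h_act q ((h5c_secZero hqM y' : Gamma0 M) : SL(2, ℤ))) h2
    rw [h2j_act_inv', h5c_secZero_spec hqM y'] at h3
    exact h3
  · rintro ⟨x', hx'⟩
    have hρ := h2j_out_mem x' hx'
    set ρ : SL(2, ℤ) := Quotient.out x' with hρdef
    refine ⟨h5h_act q ρ⁻¹ ((0 : ZMod q) : OnePoint (ZMod q)), ?_⟩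
    apply Subtype.ext
    show (((((h5c_secZero hqM _ : Gamma0 M) : SL(2, ℤ))⁻¹ : SL(2, ℤ)) :
        SL(2, ℤ) ⧸ h2j_G2 M q)) = x'
    rw [← QuotientGroup.out_eq' x', QuotientGroup.eq, inv_inv]
    apply h2j_mem_of_fix hqM _ (mul_mem (h5c_secZero hqM _).2 hρ)
    rw [h5h_act_mul, h5c_secZero_spec hqM, h2j_act_inv']

/-- The bijection `P¹(𝔽_q) ≃ fibre`. -/
def h2j_eJ : OnePoint (ZMod q) ≃ h2j_J M q :=
  Equiv.ofBijective _ (h2j_eJfun_bijective hqM)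

theorem h2j_smul_mem_fibre (g : SL(2, ℤ)) (hg : g ∈ Gamma0 M) (x' : h2j_J M q) :
    h6u_proj (h2j_le M q) (g • x'.1) = ((1 : SL(2, ℤ)) : SL(2, ℤ) ⧸ Gamma0 M) := by
  rw [h6u_proj_smul, x'.2]
  show (((g * 1 : SL(2, ℤ))) : SL(2, ℤ) ⧸ Gamma0 M) = ((1 : SL(2, ℤ)) : SL(2, ℤ) ⧸ Gamma0 M)
  rw [QuotientGroup.eq, mul_one, mul_one, inv_mem_iff]
  exact hg

/-- `γ⁻¹ •` on the fibre. -/
def h2j_σ' (γ : Gamma0 M) : Equiv.Perm (h2j_J M q) where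
  toFun x' := ⟨(γ : SL(2, ℤ))⁻¹ • x'.1, h2j_smul_mem_fibre _ (inv_mem γ.2) x'⟩
  invFun x' := ⟨(γ : SL(2, ℤ)) • x'.1, h2j_smul_mem_fibre _ γ.2 x'⟩
  left_inv x' := Subtype.ext (smul_inv_smul _ _)
  right_inv x' := Subtype.ext (inv_smul_smul _ _)

/-- `t_y = r_y · out ⟦r_y⁻¹⟧ ∈ Γ₂`. -/
theorem h2j_t_mem (y : OnePoint (ZMod q)) :
    (((h5c_secZero hqM y : Gamma0 M) : SL(2, ℤ))
      * Quotient.out ((h2j_eJfun hqM y).1))⁻¹ ∈ h2j_G2 M q := by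
  apply inv_mem
  have h : ((Quotient.out ((h2j_eJfun hqM y).1) : SL(2, ℤ)) : SL(2, ℤ) ⧸ h2j_G2 M q)
      = (h2j_eJfun hqM y).1 := QuotientGroup.out_eq' _
  have h2 : (h2j_eJfun hqM y).1
      = ((((h5c_secZero hqM y : Gamma0 M) : SL(2, ℤ))⁻¹ : SL(2, ℤ)) :
          SL(2, ℤ) ⧸ h2j_G2 M q) := rfl
  rw [h2] at h
  have h3 := QuotientGroup.eq.mp h.symm
  rwa [inv_inv] at h3

/-- **(I-β), transfer identification**: helper6's transfer from `Γ₂` to `Γ₀(M)` of `z ∘ e⁻¹` is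
helper5's `coresH`. -/
theorem h2j_tr_eq [NeZero M] (z : Additive (Gamma0 (M * q)) →+ ℤ) :
    (haveI := h2j_finiteIndex (M := M) (q := q) hqM
     h6u_tr (h2j_le M q)
       (z.comp (MonoidHom.toAdditive ((h2j_e M q).symm : h2j_G2 M q →* Gamma0 (M * q)))))
      = (h5c_coresH hqM).op ℤ z := by
  classical
  haveI := h2j_finiteIndex (M := M) (q := q) hqM
  letI : Fintype (SL(2, ℤ) ⧸ h2j_G2 M q) := h6u_fintype _
  refine AddMonoidHom.ext fun γ' => ?_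
  obtain ⟨γ, hγ⟩ : ∃ γ : Gamma0 M, Additive.ofMul γ = γ' := ⟨Additive.toMul γ', rfl⟩
  subst hγ
  rw [h6u_tr_apply, h5f_Fam.op_apply]
  -- data of the second family
  let h0 : GL (Fin 2) ℝ := heckeRep q ((0 : ZMod q) : OnePoint (ZMod q))
  let β' : h2j_J M q → GL (Fin 2) ℝ := fun x' => h0 * mapGL ℝ ((Quotient.out x'.1 : SL(2, ℤ))⁻¹)
  let δ' : h2j_J M q → Gamma0 (M * q) := fun x' =>
    (h2j_e M q).symm ((h6u_frame (h2j_G2 M q)).cocElem (γ : SL(2, ℤ)) x'.1)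
  let ε : OnePoint (ZMod q) → Gamma0 (M * q) := fun y =>
    (h2j_e M q).symm ⟨_, h2j_t_mem hqM y⟩
  have hδ' : ∀ x' : h2j_J M q, β' x' * h5h_ι M γ
      = h5h_ι (M * q) (δ' x') * β' (h2j_σ' γ x') := by
    intro x'
    show h0 * mapGL ℝ ((Quotient.out x'.1 : SL(2, ℤ))⁻¹) * mapGL ℝ (γ : SL(2, ℤ))
      = h5h_ι (M * q) ((h2j_e M q).symm ((h6u_frame (h2j_G2 M q)).cocElem (γ : SL(2, ℤ)) x'.1))
        * (h0 * mapGL ℝ ((Quotient.out ((γ : SL(2, ℤ))⁻¹ • x'.1) : SL(2, ℤ))⁻¹))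
    rw [← mul_assoc, ← h2j_rel', mul_assoc, mul_assoc, ← map_mul, ← map_mul]
    congr 2
    show _ = (Quotient.out x'.1)⁻¹ * (γ : SL(2, ℤ)) * Quotient.out ((γ : SL(2, ℤ))⁻¹ • x'.1)
      * (Quotient.out ((γ : SL(2, ℤ))⁻¹ • x'.1))⁻¹
    rw [mul_inv_cancel_right]
  have hε : ∀ y : OnePoint (ZMod q), β' (h2j_eJ hqM y)
      = h5h_ι (M * q) (ε y) * (h5c_coresH hqM).β y := by
    intro y
    show h0 * mapGL ℝ ((Quotient.out (h2j_eJfun hqM y).1 : SL(2, ℤ))⁻¹)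
      = h5h_ι (M * q) ((h2j_e M q).symm ⟨_, h2j_t_mem hqM y⟩)
        * (h0 * mapGL ℝ ((h5c_secZero hqM y : Gamma0 M) : SL(2, ℤ)))
    rw [← mul_assoc, ← h2j_rel', mul_assoc, ← map_mul]
    congr 2
    show _ = (((h5c_secZero hqM y : Gamma0 M) : SL(2, ℤ))
      * Quotient.out ((h2j_eJfun hqM y).1))⁻¹ * ((h5c_secZero hqM y : Gamma0 M) : SL(2, ℤ))
    rw [mul_inv_rev, inv_mul_cancel_right]
  have hcomm : ∀ y : OnePoint (ZMod q),
      h2j_eJ hqM ((h5c_coresH hqM).σ γ y) = h2j_σ' γ (h2j_eJ hqM y) := by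
    intro y
    apply Subtype.ext
    show (((((h5c_secZero hqM (h5h_act q (γ : SL(2, ℤ)) y) : Gamma0 M) : SL(2, ℤ))⁻¹ :
        SL(2, ℤ)) : SL(2, ℤ) ⧸ h2j_G2 M q))
      = ((((γ : SL(2, ℤ))⁻¹ * ((h5c_secZero hqM y : Gamma0 M) : SL(2, ℤ))⁻¹ : SL(2, ℤ))) :
        SL(2, ℤ) ⧸ h2j_G2 M q)
    rw [QuotientGroup.eq, inv_inv]
    apply h2j_mem_of_fix hqM _
      (mul_mem (h5c_secZero hqM _).2 (mul_mem (inv_mem γ.2) (inv_mem (h5c_secZero hqM y).2)))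
    rw [h5h_act_mul, h5c_secZero_spec hqM, h5h_act_mul, h2j_act_inv]
    have h9 := h2j_act_inv (q := q) ((h5c_secZero hqM y : Gamma0 M) : SL(2, ℤ))
      ((0 : ZMod q) : OnePoint (ZMod q))
    rw [h5c_secZero_spec hqM y] at h9
    exact h9
  have key := h5f_master (h5h_ι (M * q)) (h5h_ι_inj (M * q)) z (h5c_coresH hqM).β β'
    (h5h_ι M γ) ((h5c_coresH hqM).σ γ) (h2j_σ' γ) (h2j_eJ hqM) ((h5c_coresH hqM).δ γ) δ' ε
    ((h5c_coresH hqM).rel γ) hδ' hε hcomm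
  rw [key]
  -- the sum over the fibre as a sum with `if`
  rw [← Finset.sum_filter]
  exact Finset.sum_subtype _ (fun x' => by simp) _

end Transfer

/-! ### The adjunction `β ⊣ β'` -/

/-- helper6's conjugation isometry **(B3b)** in general form (the contract of his `h6v_conj_isometry`,
with the harmless extra hypotheses `-1 ∈ Γᵢ`). -/
def h2j_IsoStatement : Prop :=
  ∀ {q : ℕ} [Fact q.Prime] (Γ₁ Γ₂ : Subgroup SL(2, ℤ)) [Γ₁.FiniteIndex] [Γ₂.FiniteIndex]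
    (_ : Γ₁ ≤ Gamma0 q) (_ : (-1 : SL(2, ℤ)) ∈ Γ₁) (_ : (-1 : SL(2, ℤ)) ∈ Γ₂) (e : Γ₁ ≃* Γ₂)
    (_ : ∀ g : Γ₁, (e g : SL(2, ℤ)) 0 0 = (g : SL(2, ℤ)) 0 0 ∧
        (e g : SL(2, ℤ)) 0 1 = (q : ℤ) * (g : SL(2, ℤ)) 0 1 ∧
        (q : ℤ) * (e g : SL(2, ℤ)) 1 0 = (g : SL(2, ℤ)) 1 0 ∧
        (e g : SL(2, ℤ)) 1 1 = (g : SL(2, ℤ)) 1 1)
    (x y : Additive Γ₂ →+ ℤ) (_ : IsParabolicHom Γ₂ x) (_ : IsParabolicHom Γ₂ y),
    h6u_P Γ₁ (x.comp (MonoidHom.toAdditive (e : Γ₁ →* Γ₂)))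
      (y.comp (MonoidHom.toAdditive (e : Γ₁ →* Γ₂))) = h6u_P Γ₂ x y

section Adjunction

variable {M q : ℕ} [Fact q.Prime] (hqM : ¬ q ∣ M)

theorem h2j_gamma0_mul_le : Gamma0 (M * q) ≤ Gamma0 q := by
  rw [mul_comm]
  exact h6_gamma0_mul_le q M

theorem h2j_neg_one_mem_gamma0 (K : ℕ) : (-1 : SL(2, ℤ)) ∈ Gamma0 K := by
  rw [Gamma0_mem]
  simp

/-- The conjugation isometry at the instance needed here. -/
def h2j_IsoAt (M q : ℕ) [Fact q.Prime] (hqM : ¬ q ∣ M) [NeZero M] [NeZero (M * q)] : Prop :=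
  ∀ x y : Additive (h2j_G2 M q) →+ ℤ, IsParabolicHom (h2j_G2 M q) x →
    IsParabolicHom (h2j_G2 M q) y →
    h6u_P (Gamma0 (M * q))
        (x.comp (MonoidHom.toAdditive ((h2j_e M q : Gamma0 (M * q) ≃* h2j_G2 M q) :
          Gamma0 (M * q) →* h2j_G2 M q)))
        (y.comp (MonoidHom.toAdditive ((h2j_e M q : Gamma0 (M * q) ≃* h2j_G2 M q) :
          Gamma0 (M * q) →* h2j_G2 M q)))
      = (haveI := h2j_finiteIndex (M := M) (q := q) hqM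
         h6u_P (h2j_G2 M q) x y)

theorem h2j_isoAt_of_statement (hiso : h2j_IsoStatement) [NeZero M] [NeZero (M * q)] :
    h2j_IsoAt M q hqM := by
  intro x y hx hy
  haveI := h2j_finiteIndex (M := M) (q := q) hqM
  exact hiso (q := q) (Gamma0 (M * q)) (h2j_G2 M q) h2j_gamma0_mul_le
    (h2j_neg_one_mem_gamma0 _) (h2j_neg_one_mem M q) (h2j_e M q) (h2j_e_entries M q) x y hx hy

/-- **(I-β)**: `β ⊣ β'` for the pairings `h6u_P`. -/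
theorem h2j_beta_adj [NeZero M] [NeZero (M * q)] (hiso : h2j_IsoAt M q hqM)
    (x : parabolicHoms ℤ (Gamma0 M) ℤ) (z : parabolicHoms ℤ (Gamma0 (M * q)) ℤ) :
    h6u_P (Gamma0 (M * q)) (h5l_β M q x).1 z.1
      = h6u_P (Gamma0 M) x.1 (h5l_β' M q hqM z).1 := by
  haveI := h2j_finiteIndex (M := M) (q := q) hqM
  have hneg2 : (-1 : SL(2, ℤ)) ∈ h2j_G2 M q := h2j_neg_one_mem M q
  set eh : Gamma0 (M * q) →* h2j_G2 M q :=
    ((h2j_e M q : Gamma0 (M * q) ≃* h2j_G2 M q) : Gamma0 (M * q) →* h2j_G2 M q) with heh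
  let u : Additive (h2j_G2 M q) →+ ℤ := h6u_res (h2j_le M q) x.1
  let v : Additive (h2j_G2 M q) →+ ℤ :=
    z.1.comp (MonoidHom.toAdditive ((h2j_e M q).symm : h2j_G2 M q →* Gamma0 (M * q)))
  have hu : IsParabolicHom (h2j_G2 M q) u := fun γ htr => x.2 _ htr
  have hv : IsParabolicHom (h2j_G2 M q) v := by
    intro γ htr
    show z.1 (Additive.ofMul ((h2j_e M q).symm γ)) = 0
    apply z.2
    have h := h2j_e_entries M q ((h2j_e M q).symm γ)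
    rw [MulEquiv.apply_symm_apply] at h
    rw [Matrix.trace_fin_two] at htr ⊢
    rw [← h.1, ← h.2.2.2]
    exact htr
  have h1 : (h5l_β M q x).1 = u.comp (MonoidHom.toAdditive eh) := rfl
  have h2 : z.1 = v.comp (MonoidHom.toAdditive eh) := by
    refine AddMonoidHom.ext fun g' => ?_
    show z.1 g' = z.1 (Additive.ofMul ((h2j_e M q).symm (h2j_e M q (Additive.toMul g'))))
    rw [MulEquiv.symm_apply_apply]
    rfl
  calc h6u_P (Gamma0 (M * q)) (h5l_β M q x).1 z.1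
      = h6u_P (Gamma0 (M * q)) (u.comp (MonoidHom.toAdditive eh))
          (v.comp (MonoidHom.toAdditive eh)) := by rw [← h1, ← h2]
    _ = h6u_P (h2j_G2 M q) u v := hiso u v hu hv
    _ = h6u_P (Gamma0 M) x.1 (h6u_tr (h2j_le M q) v) :=
        h6u_adjoint (h2j_le M q) hneg2 x.1 v x.2 hv
    _ = h6u_P (Gamma0 M) x.1 (h5l_β' M q hqM z).1 := by
        rw [h2j_tr_eq hqM z.1]
        rfl

end Adjunction

end Fermat.Agent.Lib.S41
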