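import Fermat.Agent.Lib.S41.H6Std

/-!
# Project S41, layer [B] (helper2): skew-symmetry of the integral pairing

On helper6's API: for `T`-parabolic cocycles `c, c'` of `SL(2,ℤ)` with values in `X → ℤ`
(`-1` acting trivially on the finite set `X`), `h6q_pair c' c = - h6q_pair c c'`
(`h2k_pair_skew`); consequences for characters of a frame (`h2k_P_skew`) and for a finite-index
subgroup `Γ ∋ -1` (`h2k_u_skew`).

Proof: with `w = c S - (v - ρ S v) = A - ρ S A = B - ρ U B` one has `2 A = w + (S-invariant)`,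
`3 B = (w - ρ U² w) + (U-invariant)`, and `w ⊥` invariants, so
`6 P(c, c') = ⟨w, w'⟩ + 2 ⟨w, ρ U² w'⟩`; the sum of the two orders is `2 ⟨w, N_U w'⟩ = 0`.
-/

set_option autoImplicit false

open scoped MatrixGroups
open ModularCurve.Period

namespace Fermat.Agent.Lib.S41

local notation "sS" => (ModularGroup.S : SL(2, ℤ))
local notation "sT" => (ModularGroup.T : SL(2, ℤ))
local notation "sU" => (h6p_U : SL(2, ℤ))

section Skew

variable {X : Type*} [MulAction SL(2, ℤ) X] [Fintype X]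
variable (hneg : ∀ x : X, (-1 : SL(2, ℤ)) • x = x)
include hneg

/-- `6 · (value) = ⟨w, w'⟩ + 2 ⟨w, ρ U (ρ U w')⟩`. -/
theorem h2k_six {c c' : SL(2, ℤ) → X → ℤ} (hc : h6c_IsCoc c) (hc' : h6c_IsCoc c')
    {v v' a' b' : X → ℤ} (hv : c sT = v - h6c_rho sT v) (hv' : c' sT = v' - h6c_rho sT v')
    (ha' : c' sS = a' - h6c_rho sS a') (hb' : c' sU = b' - h6c_rho sU b') :
    6 * h6q_val c v a' b'
      = h6c_dot (h6q_w c v) (h6q_w c' v')
        + 2 * h6c_dot (h6q_w c v) (h6c_rho sU (h6c_rho sU (h6q_w c' v'))) := by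
  obtain ⟨w, hw⟩ : ∃ w : X → ℤ, w = h6q_w c v := ⟨_, rfl⟩
  obtain ⟨w', hw'⟩ : ∃ w' : X → ℤ, w' = h6q_w c' v' := ⟨_, rfl⟩
  obtain ⟨A', hA'⟩ : ∃ A' : X → ℤ, A' = a' - v' := ⟨_, rfl⟩
  obtain ⟨B', hB'⟩ : ∃ B' : X → ℤ, B' = b' - v' := ⟨_, rfl⟩
  have hwS : ∀ z : X → ℤ, h6c_rho sS z = z → h6c_dot w z = 0 := fun z hz => by
    rw [hw]; exact h6q_w_dot_invS hneg hc v z hz
  have hwU : ∀ z : X → ℤ, h6c_rho sU z = z → h6c_dot w z = 0 := fun z hz => by
    rw [hw]; exact h6q_w_dot_invU hneg hc hv z hz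
  have hval : h6q_val c v a' b' = h6c_dot w (a' - b') := by
    rw [hw]; rfl
  rw [← hw, ← hw']
  have hA : w' = A' - h6c_rho sS A' := by
    rw [hw', hA']
    unfold h6q_w
    rw [ha', h6c_rho_sub]
    abel
  have hB : w' = B' - h6c_rho sU B' := by
    rw [hw', h6q_w_eq_U hneg hc' hv', hb', hB', h6c_rho_sub]
    abel
  have hab : a' - b' = A' - B' := by
    rw [hA', hB']; abel
  -- `2 A' = w' + (A' + ρ S A')`
  have h2A : (2 : ℤ) • A' = w' + (A' + h6c_rho sS A') := by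
    rw [hA]
    funext x
    simp only [Pi.smul_apply, Pi.add_apply, Pi.sub_apply, smul_eq_mul]
    ring
  have hzS : h6c_rho sS (A' + h6c_rho sS A') = A' + h6c_rho sS A' := by
    rw [h6c_rho_add, h6q_rhoS_rhoS hneg, add_comm]
  have e2 : 2 * h6c_dot w A' = h6c_dot w w' := by
    have h := congrArg (h6c_dot w) h2A
    rw [h6c_dot_smul_right, h6c_dot_add_right, hwS _ hzS, add_zero] at h
    exact h
  -- `3 B' = (w' - ρ U (ρ U w')) + (B' + ρ U B' + ρ U (ρ U B'))`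
  have h3B : (3 : ℤ) • B'
      = (w' - h6c_rho sU (h6c_rho sU w'))
        + (B' + h6c_rho sU B' + h6c_rho sU (h6c_rho sU B')) := by
    have hcube := h6q_rhoU_cube hneg B'
    rw [hB]
    simp only [h6c_rho_sub]
    rw [hcube]
    funext x
    simp only [Pi.smul_apply, Pi.add_apply, Pi.sub_apply, smul_eq_mul]
    ring
  have hzU : h6c_rho sU (B' + h6c_rho sU B' + h6c_rho sU (h6c_rho sU B'))
      = B' + h6c_rho sU B' + h6c_rho sU (h6c_rho sU B') := by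
    rw [h6c_rho_add, h6c_rho_add, h6q_rhoU_cube hneg]
    abel
  have e3 : 3 * h6c_dot w B' = h6c_dot w w' - h6c_dot w (h6c_rho sU (h6c_rho sU w')) := by
    have h := congrArg (h6c_dot w) h3B
    rw [h6c_dot_smul_right, h6c_dot_add_right, h6c_dot_sub_right, hwU _ hzU, add_zero] at h
    exact h
  rw [hval, hab, h6c_dot_sub_right]
  linarith

/-- **Skew-symmetry** of the pairing of `T`-parabolic cocycles. -/
theorem h2k_pair_skew {c c' : SL(2, ℤ) → X → ℤ} (hc : h6c_IsCoc c) (hc' : h6c_IsCoc c')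
    (hp : h6q_IsPar c) (hp' : h6q_IsPar c') : h6q_pair c' c = -h6q_pair c c' := by
  obtain ⟨v, hv⟩ := hp
  obtain ⟨v', hv'⟩ := hp'
  obtain ⟨a, ha⟩ := h6q_exists_a hneg hc
  obtain ⟨b, hb⟩ := h6q_exists_b hneg hc
  obtain ⟨a', ha'⟩ := h6q_exists_a hneg hc'
  obtain ⟨b', hb'⟩ := h6q_exists_b hneg hc'
  rw [h6q_pair_eq hneg hc hc' ⟨v', hv'⟩ hv ha' hb', h6q_pair_eq hneg hc' hc ⟨v, hv⟩ hv' ha hb]
  have e1 := h2k_six hneg hc hc' hv hv' ha' hb'
  have e2 := h2k_six hneg hc' hc hv' hv ha hb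
  have eN := h6q_w_normU hneg hc' hv'
  obtain ⟨w, hw⟩ : ∃ w : X → ℤ, w = h6q_w c v := ⟨_, rfl⟩
  obtain ⟨w', hw'⟩ : ∃ w' : X → ℤ, w' = h6q_w c' v' := ⟨_, rfl⟩
  rw [← hw, ← hw'] at e1 e2
  rw [← hw'] at eN
  have e3 : h6c_dot w' (h6c_rho sU (h6c_rho sU w)) = h6c_dot w (h6c_rho sU w') := by
    rw [← h6c_dot_rho sU w' (h6c_rho sU (h6c_rho sU w)), h6q_rhoU_cube hneg, h6c_dot_comm]
  have e4 : h6c_dot w w' + h6c_dot w (h6c_rho sU w')
      + h6c_dot w (h6c_rho sU (h6c_rho sU w')) = 0 := by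
    have h := congrArg (h6c_dot w) eN
    rw [h6c_dot_add_right, h6c_dot_add_right, h6c_dot_zero_right] at h
    exact h
  have e5 := h6c_dot_comm w' w
  rw [e3] at e2
  linarith

/-- Skew-symmetry of the pairing of parabolic characters of the stabiliser of a frame. -/
theorem h2k_P_skew (F : h6c_Frame SL(2, ℤ) X) (x y : Additive F.Γ →+ ℤ)
    (hx : IsParabolicHom F.Γ x) (hy : IsParabolicHom F.Γ y) :
    h6q_P F y x = -h6q_P F x y :=
  h2k_pair_skew hneg (F.coc_isCoc x) (F.coc_isCoc y) (h6r_isPar_coc F x hx)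
    (h6r_isPar_coc F y hy)

end Skew

/-- Skew-symmetry of `h6u_P`. -/
theorem h2k_u_skew (Γ : Subgroup SL(2, ℤ)) [Γ.FiniteIndex] (hneg1 : (-1 : SL(2, ℤ)) ∈ Γ)
    (x y : Additive Γ →+ ℤ) (hx : IsParabolicHom Γ x) (hy : IsParabolicHom Γ y) :
    h6u_P Γ y x = -h6u_P Γ x y :=
  @h2k_P_skew _ _ (h6u_fintype Γ) (h6u_neg Γ hneg1) (h6u_frame Γ) x y hx hy

end Fermat.Agent.Lib.S41
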