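import Mathlib
import Fermat.Prelude.Def_ModularCurve_PeriodMap
import Fermat.Agent.Lib.S16.H6TorsionFree

/-!
# Project S41, layer F2 (helper3): rationality of parabolic homomorphisms

`h3f_dualBasis`: a finitely generated abelian group `M` has elements `e k` and characters
`ψ k : M →+ ℤ` with `ψ k (e m) = δ_{km}` such that every homomorphism `φ` from `M` to a torsion
free abelian group satisfies `φ m = ∑ k, ψ k m • φ (e k)`.

`h3f_dualBasis_par`: the same for parabolic homomorphisms of a finitely generated subgroup of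
`SL(2, ℤ)`.
-/

set_option autoImplicit false

open DirectSum ModularCurve.Period
open scoped MatrixGroups

namespace Fermat.Agent.Lib.S41

open Fermat.Agent.Lib.S16

theorem h3f_dualBasis (M : Type*) [AddCommGroup M] [AddGroup.FG M] :
    ∃ (n : ℕ) (e : Fin n → M) (ψ : Fin n → M →+ ℤ),
      (∀ k m, ψ k (e m) = if k = m then 1 else 0) ∧
      ∀ (A : Type) [AddCommGroup A], (∀ (r : ℕ) (a : A), r ≠ 0 → r • a = 0 → a = 0) →
        ∀ (φ : M →+ A) (m : M), φ m = ∑ k, ψ k m • φ (e k) := by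
  classical
  obtain ⟨n, ι, _, p, hp, e, ⟨E⟩⟩ := AddCommGroup.equiv_free_prod_directSum_zmod M
  refine ⟨n, fun k => E.symm (Finsupp.single k 1, 0),
    fun k => (Finsupp.applyAddHom k).comp
      ((AddMonoidHom.fst (Fin n →₀ ℤ) (⨁ i : ι, ZMod (p i ^ e i))).comp E.toAddMonoidHom),
    ?_, ?_⟩
  · intro k m
    show (E (E.symm (Finsupp.single m 1, 0))).1 k = _
    rw [AddEquiv.apply_symm_apply, Finsupp.single_apply]
    by_cases h : k = m
    · subst h; simp
    · rw [if_neg h, if_neg (fun h' => h h'.symm)]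
  · intro A _ htf φ m
    show φ m = ∑ k, ((E m).1 k) • φ (E.symm (Finsupp.single k 1, 0))
    have hm : m = E.symm ((E m).1, 0) + E.symm (0, (E m).2) := by
      rw [← map_add, Prod.mk_add_mk, add_zero, zero_add, Prod.mk.eta, AddEquiv.symm_apply_apply]
    -- the torsion part dies
    have htors : φ (E.symm (0, (E m).2)) = 0 := by
      have hN : (∏ i, p i ^ e i) ≠ 0 :=
        Finset.prod_ne_zero_iff.mpr fun i _ => pow_ne_zero _ (hp i).ne_zero
      apply htf _ _ hN
      rw [← map_nsmul, ← map_nsmul, Prod.smul_mk, smul_zero, h6t_torsion_smul, ← Prod.zero_eq_mk,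
        map_zero, map_zero]
    -- the free part
    let χ₁ : (Fin n →₀ ℤ) →+ A :=
      (φ.comp E.symm.toAddMonoidHom).comp (AddMonoidHom.inl (Fin n →₀ ℤ) _)
    let χ₂ : (Fin n →₀ ℤ) →+ A :=
      ∑ k, ((AddMonoidHom.flip (smulAddHom ℤ A)) (φ (E.symm (Finsupp.single k 1, 0)))).comp
        (Finsupp.applyAddHom k)
    have hχ : χ₁ = χ₂ := by
      apply Finsupp.addHom_ext
      intro j y
      show φ (E.symm (Finsupp.single j y, 0)) = χ₂ (Finsupp.single j y)
      have h1 : (Finsupp.single j y, (0 : ⨁ i : ι, ZMod (p i ^ e i)))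
          = y • (Finsupp.single j (1 : ℤ), (0 : ⨁ i : ι, ZMod (p i ^ e i))) := by
        rw [Prod.smul_mk, smul_zero, Finsupp.smul_single, smul_eq_mul, mul_one]
      rw [h1, map_zsmul, map_zsmul]
      simp only [χ₂, AddMonoidHom.finsetSum_apply, AddMonoidHom.comp_apply,
        Finsupp.applyAddHom_apply, AddMonoidHom.flip_apply, smulAddHom_apply,
        Finsupp.single_apply]
      rw [Finset.sum_eq_single j]
      · simp
      · intro b _ hb; rw [if_neg (fun h => hb h.symm), zero_smul]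
      · intro h; exact absurd (Finset.mem_univ j) h
    have h2 : φ (E.symm ((E m).1, 0)) = ∑ k, ((E m).1 k) • φ (E.symm (Finsupp.single k 1, 0)) := by
      have := DFunLike.congr_fun hχ (E m).1
      simp only [χ₁, χ₂, AddMonoidHom.finsetSum_apply, AddMonoidHom.comp_apply,
        Finsupp.applyAddHom_apply, AddMonoidHom.flip_apply, smulAddHom_apply,
        AddMonoidHom.inl_apply] at this
      exact this
    conv_lhs => rw [hm]
    rw [map_add, htors, add_zero, h2]

/-- Dual basis data for the parabolic homomorphisms of a finitely generated subgroup of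
`SL(2, ℤ)`. -/
theorem h3f_dualBasis_par (Γ : Subgroup SL(2, ℤ)) [Group.FG Γ] :
    ∃ (n : ℕ) (γ : Fin n → Γ) (ψ : Fin n → Additive Γ →+ ℤ),
      (∀ k, IsParabolicHom Γ (ψ k)) ∧
      (∀ k m, ψ k (Additive.ofMul (γ m)) = if k = m then 1 else 0) ∧
      ∀ (A : Type) [AddCommGroup A], (∀ (r : ℕ) (a : A), r ≠ 0 → r • a = 0 → a = 0) →
        ∀ (φ : Additive Γ →+ A), IsParabolicHom Γ φ →
          ∀ g : Additive Γ, φ g = ∑ k, ψ k g • φ (Additive.ofMul (γ k)) := by
  classical
  let 𝒮 : Set Γ := {δ | ((δ : SL(2, ℤ)) : Matrix (Fin 2) (Fin 2) ℤ).trace ^ 2 = 4}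
  have hFG : AddGroup.FG (h6t_M 𝒮) := by
    have h1 : Group.FG (Abelianization Γ) :=
      Group.fg_of_surjective (f := Abelianization.of) (fun a => by
        obtain ⟨γ, hγ⟩ := Quot.exists_rep a
        exact ⟨γ, by rw [← Abelianization.mk_eq_of]; exact hγ⟩)
    infer_instance
  obtain ⟨n, e, ψ', hδ, hform⟩ := h3f_dualBasis (h6t_M 𝒮)
  choose g hg using fun k => h6t_pi_surjective 𝒮 (e k)
  refine ⟨n, fun k => Additive.toMul (g k), fun k => (ψ' k).comp (h6t_pi 𝒮), ?_, ?_, ?_⟩
  · intro k δ hδ'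
    show ψ' k (h6t_pi 𝒮 (Additive.ofMul δ)) = 0
    rw [h6t_pi_kills 𝒮 δ hδ', map_zero]
  · intro k m
    show ψ' k (h6t_pi 𝒮 (Additive.ofMul (Additive.toMul (g m)))) = _
    rw [ofMul_toMul, hg, hδ]
  · intro A _ htf φ hφ x
    obtain ⟨φ', hφ'⟩ := h6t_lift 𝒮 φ (fun δ hδ' => hφ δ hδ')
    rw [← hφ' x, hform A htf φ' (h6t_pi 𝒮 x)]
    refine Finset.sum_congr rfl fun k _ => ?_
    show ψ' k (h6t_pi 𝒮 x) • φ' (e k) = ψ' k (h6t_pi 𝒮 x) • φ (Additive.ofMul (Additive.toMul (g k)))
    rw [ofMul_toMul, ← hφ' (g k), hg]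

end Fermat.Agent.Lib.S41
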