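import Mathlib

/-!
# Project S41, layer F2 (helper3): the socle lemma and the reduction of an eigenvector

Pure algebra.

* `h3f_socle`: a finite module `M` over a commutative ring `𝕋`, a prime `𝔫 ⊇ Ann M`
  ⇒ a nonzero element of `M` killed by `𝔫`.
* `h3f_isIntegral_of_eigen`: eigenvalues of integer matrices are algebraic integers.
* `h3f_reduce_matrix`, `h3f_reduce_family`: a common complex eigenvector of commuting integer
  matrices, with eigenvalues congruent to integers modulo a prime `𝔪 ∋ p` of `ℤ̄`, gives an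
  integer vector, nonzero mod `p`, which is a common eigenvector mod `p`.
-/

set_option autoImplicit false
set_option linter.style.haveILetI false

open Matrix

namespace Fermat.Agent.Lib.S41

/-- **Socle lemma.** -/
theorem h3f_socle {𝕋 M : Type*} [CommRing 𝕋] [AddCommGroup M] [Module 𝕋 M] [Finite M]
    (𝔫 : Ideal 𝕋) [h𝔫 : 𝔫.IsPrime]
    (hann : ∀ t : 𝕋, (∀ m : M, t • m = 0) → t ∈ 𝔫) :
    ∃ x : M, x ≠ 0 ∧ ∀ t ∈ 𝔫, t • x = 0 := by
  classical
  let good : Set (Submodule 𝕋 M) := {W | ∀ t : 𝕋, (∀ m ∈ W, t • m = 0) → t ∈ 𝔫}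
  have htop : (⊤ : Submodule 𝕋 M) ∈ good := fun t ht => hann t fun m => ht m trivial
  have : IsArtinian 𝕋 M := isArtinian_of_finite
  have : IsNoetherian 𝕋 M := isNoetherian_of_finite 𝕋 M
  obtain ⟨W, hW, hmin⟩ := IsArtinian.set_has_minimal good ⟨⊤, htop⟩
  have h1 : (1 : 𝕋) ∉ 𝔫 := fun h => h𝔫.ne_top ((Ideal.eq_top_iff_one 𝔫).mpr h)
  have hWne : W ≠ ⊥ := by
    rintro rfl
    exact h1 (hW 1 (fun m hm => by rw [(Submodule.mem_bot 𝕋).mp hm, smul_zero]))
  obtain ⟨x, hxW, hx0⟩ := (Submodule.ne_bot_iff W).mp hWne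
  refine ⟨x, hx0, fun t ht => ?_⟩
  let W₁ : Submodule 𝕋 M := W.map (LinearMap.lsmul 𝕋 M t)
  have hW₁le : W₁ ≤ W := by
    rintro _ ⟨m, hm, rfl⟩
    exact W.smul_mem t hm
  have hW₁ : W₁ ∉ good := by
    intro hg
    have heq : W₁ = W := by
      by_contra hne
      exact hmin W₁ hg (lt_of_le_of_ne hW₁le hne)
    have hle : W ≤ Ideal.span {t} • W := by
      intro m hm
      rw [← heq] at hm
      obtain ⟨m', hm', rfl⟩ := hm
      exact Submodule.smul_mem_smul (Ideal.subset_span rfl) hm'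
    obtain ⟨r, hr1, hr⟩ := Submodule.exists_sub_one_mem_and_smul_eq_zero_of_fg_of_le_smul
      (Ideal.span {t}) W (IsNoetherian.noetherian W) hle
    have hr𝔫 : r ∈ 𝔫 := hW r hr
    have hr1' : r - 1 ∈ 𝔫 := ((Ideal.span_singleton_le_iff_mem 𝔫).mpr ht) hr1
    have : (1 : 𝕋) ∈ 𝔫 := by
      have := 𝔫.sub_mem hr𝔫 hr1'
      simpa using this
    exact h1 this
  have hex : ∃ s : 𝕋, (∀ m ∈ W₁, s • m = 0) ∧ s ∉ 𝔫 := by
    by_contra hcon
    refine hW₁ (fun s hs => ?_)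
    by_contra hs𝔫
    exact hcon ⟨s, hs, hs𝔫⟩
  obtain ⟨s, hs, hs𝔫⟩ := hex
  let W₂ : Submodule 𝕋 M := W ⊓ LinearMap.ker (LinearMap.lsmul 𝕋 M t)
  have hW₂ : W₂ ∈ good := by
    intro u hu
    have hus : u * s ∈ 𝔫 := by
      apply hW
      intro m hm
      have hsm : s • m ∈ W₂ := by
        refine Submodule.mem_inf.mpr ⟨W.smul_mem s hm, ?_⟩
        rw [LinearMap.mem_ker, LinearMap.lsmul_apply, smul_comm]
        exact hs _ ⟨m, hm, rfl⟩
      rw [mul_smul]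
      exact hu _ hsm
    exact (h𝔫.mem_or_mem hus).resolve_right hs𝔫
  have hW₂eq : W₂ = W := by
    by_contra hne
    exact hmin W₂ hW₂ (lt_of_le_of_ne inf_le_left hne)
  have hx2 : x ∈ W₂ := by rw [hW₂eq]; exact hxW
  have := (Submodule.mem_inf.mp hx2).2
  rwa [LinearMap.mem_ker, LinearMap.lsmul_apply] at this

/-- Eigenvalues of integer matrices are algebraic integers. -/
theorem h3f_isIntegral_of_eigen {n : ℕ} (S : Matrix (Fin n) (Fin n) ℤ) (z : Fin n → ℂ)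
    (hz : z ≠ 0) (μ : ℂ) (h : (S.map (Int.castRingHom ℂ)) *ᵥ z = μ • z) : IsIntegral ℤ μ := by
  set Sc : Matrix (Fin n) (Fin n) ℂ := S.map (Int.castRingHom ℂ) with hSc
  have hev : Module.End.HasEigenvector (Matrix.toLin' Sc) μ z := by
    refine ⟨?_, hz⟩
    rw [Module.End.mem_eigenspace_iff, Matrix.toLin'_apply]
    exact h
  have hroot : (Matrix.toLin' Sc).charpoly.IsRoot μ :=
    (Module.End.hasEigenvalue_iff_isRoot_charpoly _ μ).mp
      (Module.End.hasEigenvalue_of_hasEigenvector hev)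
  rw [Matrix.charpoly_toLin', hSc, Matrix.charpoly_map] at hroot
  refine ⟨S.charpoly, Matrix.charpoly_monic S, ?_⟩
  rw [Polynomial.eval₂_eq_eval_map]
  exact hroot

/-- **Reduction of an eigenvector (matrix form).** -/
theorem h3f_reduce_matrix {𝕋 : Type*} [CommRing 𝕋] {n : ℕ}
    (ρ : 𝕋 →+* Matrix (Fin n) (Fin n) ℤ) (lam : 𝕋 →+* ℂ) (z : Fin n → ℂ) (hz : z ≠ 0)
    (heig : ∀ t, ((ρ t).map (Int.castRingHom ℂ)) *ᵥ z = lam t • z)
    (p : ℕ) (hp : p.Prime) (𝔪 : Ideal (integralClosure ℤ ℂ)) [h𝔪 : 𝔪.IsPrime]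
    (hpm : (p : integralClosure ℤ ℂ) ∈ 𝔪) :
    ∃ v : Fin n → ℤ, (∃ k, ¬ (p : ℤ) ∣ v k) ∧
      ∀ t : 𝕋, (∃ c ∈ 𝔪, ((c : integralClosure ℤ ℂ) : ℂ) = lam t) →
        ∀ k, (p : ℤ) ∣ ((ρ t) *ᵥ v) k := by
  classical
  haveI : Fact p.Prime := ⟨hp⟩
  haveI : NeZero p := ⟨hp.ne_zero⟩
  have hint : ∀ t, lam t ∈ integralClosure ℤ ℂ := fun t =>
    h3f_isIntegral_of_eigen (ρ t) z hz (lam t) (heig t)
  let lam' : 𝕋 →+* integralClosure ℤ ℂ := lam.codRestrict (integralClosure ℤ ℂ) hint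
  have hlam' : ∀ t, ((lam' t : integralClosure ℤ ℂ) : ℂ) = lam t := fun t => rfl
  let 𝔫 : Ideal 𝕋 := Ideal.comap lam' 𝔪
  haveI : 𝔫.IsPrime := Ideal.comap_isPrime lam' 𝔪
  let ρbar : 𝕋 →+* Matrix (Fin n) (Fin n) (ZMod p) :=
    (Int.castRingHom (ZMod p)).mapMatrix.comp ρ
  let toEnd : Matrix (Fin n) (Fin n) (ZMod p) →+* Module.End (ZMod p) (Fin n → ZMod p) :=
    (Matrix.toLinAlgEquiv' : Matrix (Fin n) (Fin n) (ZMod p) ≃ₐ[ZMod p] _).toAlgHom.toRingHom
  letI : Module 𝕋 (Fin n → ZMod p) := Module.compHom _ (toEnd.comp ρbar)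
  have hsmul : ∀ (t : 𝕋) (x : Fin n → ZMod p),
      t • x = ((ρ t).map (Int.castRingHom (ZMod p))) *ᵥ x := by
    intro t x; rfl
  -- the annihilator is contained in `𝔫`
  have hann : ∀ t : 𝕋, (∀ m : Fin n → ZMod p, t • m = 0) → t ∈ 𝔫 := by
    intro t ht
    have hdvd : ∀ i k, (p : ℤ) ∣ (ρ t) i k := by
      intro i k
      have h1 := congrFun (ht (Pi.single k 1)) i
      rw [hsmul, Matrix.mulVec_single_one] at h1
      have h2 : (((ρ t) i k : ℤ) : ZMod p) = 0 := h1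
      exact (ZMod.intCast_zmod_eq_zero_iff_dvd _ _).mp h2
    let S : Matrix (Fin n) (Fin n) ℤ := Matrix.of fun i k => (ρ t) i k / (p : ℤ)
    have hS : ∀ i k, (ρ t) i k = (p : ℤ) * S i k := by
      intro i k
      exact (Int.mul_ediv_cancel' (hdvd i k)).symm
    have hp0 : (p : ℂ) ≠ 0 := by exact_mod_cast hp.ne_zero
    have hSz : (S.map (Int.castRingHom ℂ)) *ᵥ z = (lam t / (p : ℂ)) • z := by
      have h1 := heig t
      have h2 : (ρ t).map (Int.castRingHom ℂ) = (p : ℂ) • S.map (Int.castRingHom ℂ) := by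
        ext i k
        simp only [Matrix.map_apply, Matrix.smul_apply, smul_eq_mul]
        rw [hS i k]
        simp
      rw [h2, Matrix.smul_mulVec] at h1
      have h3 : (S.map (Int.castRingHom ℂ)) *ᵥ z = (p : ℂ)⁻¹ • (lam t • z) := by
        rw [← h1, smul_smul, inv_mul_cancel₀ hp0, one_smul]
      rw [h3, smul_smul]
      congr 1
      field_simp
    have hμ : IsIntegral ℤ (lam t / (p : ℂ)) := h3f_isIntegral_of_eigen S z hz _ hSz
    let μ : integralClosure ℤ ℂ := ⟨lam t / (p : ℂ), hμ⟩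
    have heq : lam' t = (p : integralClosure ℤ ℂ) * μ := by
      apply Subtype.ext
      rw [hlam']
      show lam t = ((p : integralClosure ℤ ℂ) : ℂ) * (lam t / (p : ℂ))
      rw [show ((p : integralClosure ℤ ℂ) : ℂ) = (p : ℂ) by simp]
      field_simp
    show lam' t ∈ 𝔪
    rw [heq]
    exact 𝔪.mul_mem_right _ hpm
  obtain ⟨xb, hxb0, hxb⟩ := h3f_socle 𝔫 hann
  refine ⟨fun k => ((xb k).val : ℤ), ?_, ?_⟩
  · obtain ⟨k, hk⟩ := Function.ne_iff.mp hxb0
    refine ⟨k, fun hdvd => hk ?_⟩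
    have h1 : ((((xb k).val : ℤ)) : ZMod p) = 0 := (ZMod.intCast_zmod_eq_zero_iff_dvd _ _).mpr hdvd
    rw [Int.cast_natCast, ZMod.natCast_zmod_val] at h1
    exact h1
  · rintro t ⟨c, hc, hct⟩ k
    have ht : t ∈ 𝔫 := by
      show lam' t ∈ 𝔪
      have : lam' t = c := Subtype.ext (by rw [hlam', hct])
      rw [this]; exact hc
    have h1 : (((ρ t).map (Int.castRingHom (ZMod p))) *ᵥ xb) k = 0 := by
      have := congrFun (hxb t ht) k
      rw [hsmul] at this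
      exact this
    apply (ZMod.intCast_zmod_eq_zero_iff_dvd _ _).mp
    rw [← h1]
    simp only [Matrix.mulVec, dotProduct, Matrix.map_apply, Int.coe_castRingHom]
    push_cast
    refine Finset.sum_congr rfl fun m _ => ?_
    rw [ZMod.natCast_zmod_val]

open scoped IsMulCommutative in
/-- **Reduction of an eigenvector (commuting family form).** -/
theorem h3f_reduce_family {n : ℕ} {I : Type*} (A : I → Matrix (Fin n) (Fin n) ℤ)
    (hcomm : ∀ i k, A i * A k = A k * A i) (c : I → ℂ) (z : Fin n → ℂ) (hz : z ≠ 0)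
    (heig : ∀ i, ((A i).map (Int.castRingHom ℂ)) *ᵥ z = c i • z)
    (p : ℕ) (hp : p.Prime) (𝔪 : Ideal (integralClosure ℤ ℂ)) [h𝔪 : 𝔪.IsPrime]
    (hpm : (p : integralClosure ℤ ℂ) ∈ 𝔪) :
    ∃ v : Fin n → ℤ, (∃ k, ¬ (p : ℤ) ∣ v k) ∧
      ∀ (i : I) (b : ℤ), (∃ c' ∈ 𝔪, ((c' : integralClosure ℤ ℂ) : ℂ) = c i - (b : ℂ)) →
        ∀ k, (p : ℤ) ∣ ((A i) *ᵥ v - b • v) k := by
  classical
  set s : Set (Matrix (Fin n) (Fin n) ℤ) := Set.range A with hs
  have hcomm' : ∀ a ∈ s, ∀ b ∈ s, a * b = b * a := by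
    rintro _ ⟨i, rfl⟩ _ ⟨k, rfl⟩
    exact hcomm i k
  haveI : IsMulCommutative (Algebra.adjoin ℤ s) := Algebra.isMulCommutative_adjoin ℤ hcomm'
  letI : CommRing (Algebra.adjoin ℤ s) := inferInstance
  let ρ₀ : MvPolynomial I ℤ →ₐ[ℤ] Algebra.adjoin ℤ s :=
    MvPolynomial.aeval (fun i => ⟨A i, Algebra.subset_adjoin ⟨i, rfl⟩⟩)
  let ρ : MvPolynomial I ℤ →+* Matrix (Fin n) (Fin n) ℤ :=
    (Algebra.adjoin ℤ s).val.toRingHom.comp ρ₀.toRingHom
  have hρX : ∀ i, ρ (MvPolynomial.X i) = A i := by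
    intro i
    show ((ρ₀ (MvPolynomial.X i) : Algebra.adjoin ℤ s) : Matrix (Fin n) (Fin n) ℤ) = A i
    rw [MvPolynomial.aeval_X]
  let lam : MvPolynomial I ℤ →+* ℂ := (MvPolynomial.aeval c).toRingHom
  have hlamX : ∀ i, lam (MvPolynomial.X i) = c i := fun i => MvPolynomial.aeval_X c i
  have heig' : ∀ t, ((ρ t).map (Int.castRingHom ℂ)) *ᵥ z = lam t • z := by
    intro t
    induction t using MvPolynomial.induction_on with
    | C a =>
      rw [show (MvPolynomial.C a : MvPolynomial I ℤ) = ((a : ℤ) : MvPolynomial I ℤ) by simp,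
        map_intCast, map_intCast]
      have : ((a : Matrix (Fin n) (Fin n) ℤ)).map (Int.castRingHom ℂ)
          = ((a : ℤ) : Matrix (Fin n) (Fin n) ℂ) :=
        map_intCast ((Int.castRingHom ℂ).mapMatrix (m := Fin n)) a
      rw [this, Matrix.intCast_mulVec]
    | add P Q hP hQ =>
      rw [map_add, map_add, Matrix.map_add _ (by simp), Matrix.add_mulVec, hP, hQ, add_smul]
    | mul_X P i hP =>
      rw [map_mul, map_mul, hρX, hlamX]
      have : ((ρ P) * A i).map (Int.castRingHom ℂ)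
          = (ρ P).map (Int.castRingHom ℂ) * (A i).map (Int.castRingHom ℂ) := by
        exact Matrix.map_mul
      rw [this, ← Matrix.mulVec_mulVec, heig i, Matrix.mulVec_smul, hP, smul_smul, mul_comm]
  obtain ⟨v, hv, hv'⟩ := h3f_reduce_matrix ρ lam z hz heig' p hp 𝔪 hpm
  refine ⟨v, hv, fun i b hb k => ?_⟩
  have h1 := hv' (MvPolynomial.X i - (b : MvPolynomial I ℤ)) (by
    obtain ⟨c', hc', hcc⟩ := hb
    refine ⟨c', hc', ?_⟩
    rw [hcc, map_sub, hlamX, map_intCast]) k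
  rw [map_sub, hρX, map_intCast, Matrix.sub_mulVec, Matrix.intCast_mulVec] at h1
  simpa using h1

end Fermat.Agent.Lib.S41
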