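import Mathlib
import Fermat.Prelude.Def_FLTPrelim_ModularRep
import Fermat.Agent.Lib.Helper2.HeckeEigen
import Fermat.Agent.Lib.S16.H3PeriodPar
import Fermat.Agent.Lib.S41.H5Bridge
import Fermat.Agent.Lib.S41.H3Socle
import Fermat.Agent.Lib.S41.H3Rat

/-!
# Project S41, layer F2 (helper3): step (i) of (T2)

An eigenform `f` of level `N` whose eigenvalues are congruent to integers `a ℓ` modulo a prime
`𝔪 ∋ p` of `ℤ̄` produces a class `x ∈ L_N = parabolicHoms ℤ (Gamma0 N) ℤ`, `x ∉ p L_N`, which is an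
eigenvector mod `p` of the `T_ℓ` with eigenvalues `a ℓ`.
-/

set_option autoImplicit false
set_option linter.style.haveILetI false

open CongruenceSubgroup ModularCurve ModularCurve.Period ModularFormClass Matrix
open Fermat.Agent.Lib.Helper2 Fermat.Agent.Lib.S21 Fermat.Agent.Lib.S16
open scoped MatrixGroups ComplexConjugate

noncomputable section

namespace Fermat.Agent.Lib.S41

variable {N : ℕ} [NeZero N]

/-! ### A normalised eigenform is an eigenvector of every `T_ℓ` -/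

theorem h3f_coeff_rel {f : CuspForm (Gamma0 N) 2} (hf : f.IsNormalizedEigenform) {ℓ : ℕ}
    (hℓ : ℓ.Prime) (hℓN : ¬ ℓ ∣ N) (n : ℕ) :
    qCoeff ⇑f (n * ℓ) + (if ℓ ∣ n then (ℓ : ℂ) * qCoeff ⇑f (n / ℓ) else 0)
      = qCoeff ⇑f ℓ * qCoeff ⇑f n := by
  rcases Nat.eq_zero_or_pos n with rfl | hn
  · simp [qCoeff_cusp_zero]
  obtain ⟨r, m, hm, rfl⟩ := Nat.exists_eq_pow_mul_and_not_dvd hn.ne' ℓ hℓ.ne_one
  have hcop : ∀ j, (ℓ ^ j).Coprime m := fun j =>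
    Nat.Coprime.pow_left j ((Nat.Prime.coprime_iff_not_dvd hℓ).mpr hm)
  cases r with
  | zero =>
    have hnd : ¬ ℓ ∣ ℓ ^ 0 * m := by simpa using hm
    rw [if_neg hnd, add_zero, pow_zero, one_mul, mul_comm m ℓ,
      hf.qCoeff_mul_of_coprime ℓ m (by simpa using hcop 1)]
  | succ r =>
    have hd : ℓ ∣ ℓ ^ (r + 1) * m := Dvd.dvd.mul_right (dvd_pow_self ℓ (Nat.succ_ne_zero r)) m
    have h1 : ℓ ^ (r + 1) * m * ℓ = ℓ ^ (r + 2) * m := by ring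
    have h2 : ℓ ^ (r + 1) * m / ℓ = ℓ ^ r * m := by
      rw [pow_succ, mul_comm (ℓ ^ r) ℓ, mul_assoc, Nat.mul_div_cancel_left _ hℓ.pos]
    rw [if_pos hd, h1, h2, hf.qCoeff_mul_of_coprime _ _ (hcop (r + 2)),
      hf.qCoeff_mul_of_coprime _ _ (hcop r), hf.qCoeff_mul_of_coprime _ _ (hcop (r + 1)),
      hf.qCoeff_prime_pow_of_not_dvd ℓ r hℓ hℓN]
    ring

theorem h3f_heckeT_eigen {f : CuspForm (Gamma0 N) 2} (hf : f.IsNormalizedEigenform) {ℓ : ℕ}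
    (hℓ : ℓ.Prime) (hℓN : ¬ ℓ ∣ N) :
    CuspForm.heckeTLin 2 hℓ hℓN f = qCoeff ⇑f ℓ • f := by
  have h0 : CuspForm.heckeTLin 2 hℓ hℓN f - qCoeff ⇑f ℓ • f = 0 := by
    apply eq_zero_of_forall_qCoeff_eq_zero
    intro n
    have hsub : CuspForm.heckeTLin 2 hℓ hℓN f - qCoeff ⇑f ℓ • f
        = CuspForm.heckeTLin 2 hℓ hℓN f + (-(qCoeff ⇑f ℓ)) • f := by
      rw [neg_smul, sub_eq_add_neg]
    rw [hsub, Helper2.qCoeff_add, Helper2.qCoeff_smul, Helper2.qCoeff_heckeTLin]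
    have := h3f_coeff_rel hf hℓ hℓN n
    have h21 : ((ℓ : ℂ) ^ ((2 : ℤ) - 1)) = (ℓ : ℂ) := by norm_num
    rw [h21]
    linear_combination this
  exact sub_eq_zero.mp h0

/-! ### The period map: linearity, parabolicity, injectivity -/

theorem h3f_pm_add (f g : CuspForm (Gamma0 N) 2) :
    periodMap N (f + g) = periodMap N f + periodMap N g := by
  obtain ⟨pml, hpml⟩ := h1_existsPeriodMapLinear N
  rw [← hpml, ← hpml, ← hpml, map_add]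

theorem h3f_pm_smul (c : ℂ) (f : CuspForm (Gamma0 N) 2) :
    periodMap N (c • f) = c • periodMap N f := by
  obtain ⟨pml, hpml⟩ := h1_existsPeriodMapLinear N
  rw [← hpml, ← hpml, map_smul]

theorem h3f_pm_sub (f g : CuspForm (Gamma0 N) 2) :
    periodMap N (f - g) = periodMap N f - periodMap N g := by
  obtain ⟨pml, hpml⟩ := h1_existsPeriodMapLinear N
  rw [← hpml, ← hpml, ← hpml, map_sub]

theorem h3f_pair_diag (f : CuspForm (Gamma0 N) 2) :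
    periodHomPair N (f, f) = (2 : ℂ) • periodMap N f := by
  obtain ⟨pml, hpml, hdef⟩ := periodHomPair_def N (h1_existsPeriodMapLinear N)
  rw [hdef]
  simp only [LinearMap.coprod_apply, LinearMap.comp_apply, LinearMap.add_apply,
    LinearMap.sub_apply, LinearMap.id_apply, hpml]
  rw [two_smul]
  abel

theorem h3f_pm_par (f : CuspForm (Gamma0 N) 2) :
    periodMap N f ∈ parabolicHoms ℂ (Gamma0 N) ℂ := by
  have h1 : periodHomPair N (f, f) ∈ parabolicHoms ℂ (Gamma0 N) ℂ := by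
    rw [← h3_range_periodHomPair N]
    exact LinearMap.mem_range_self _ _
  rw [h3f_pair_diag] at h1
  have h2 := (parabolicHoms ℂ (Gamma0 N) ℂ).smul_mem ((2 : ℂ)⁻¹) h1
  rwa [smul_smul, inv_mul_cancel₀ (two_ne_zero), one_smul] at h2

theorem h3f_pm_ne_zero {f : CuspForm (Gamma0 N) 2} (hf : f ≠ 0) : periodMap N f ≠ 0 := by
  intro h0
  have h1 : periodHomPair N (f, f) = 0 := by rw [h3f_pair_diag, h0, smul_zero]
  have h2 : (f, f) = (0 : CuspForm (Gamma0 N) 2 × CuspForm (Gamma0 N) 2) :=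
    h1_periodHomPair_inj N (by rw [h1, map_zero])
  exact hf (congrArg Prod.fst h2)

/-! ### Complex conjugation of characters and the decomposition of parabolic characters -/

/-- `conj ∘ φ`. -/
def h3f_conj (φ : Additive (Gamma0 N) →+ ℂ) : Additive (Gamma0 N) →+ ℂ :=
  (starRingEnd ℂ).toAddMonoidHom.comp φ

omit [NeZero N] in
@[simp] theorem h3f_conj_apply (φ : Additive (Gamma0 N) →+ ℂ) (g : Additive (Gamma0 N)) :
    h3f_conj φ g = conj (φ g) := rfl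

omit [NeZero N] in
theorem h3f_conj_add (φ ψ : Additive (Gamma0 N) →+ ℂ) :
    h3f_conj (φ + ψ) = h3f_conj φ + h3f_conj ψ := by
  refine AddMonoidHom.ext fun g => ?_
  simp

omit [NeZero N] in
theorem h3f_T_conj {ℓ : ℕ} [Fact ℓ.Prime] (hℓN : ¬ ℓ ∣ N) (φ : Additive (Gamma0 N) →+ ℂ) :
    h5h_T N ℓ hℓN ℂ (h3f_conj φ) = h3f_conj (h5h_T N ℓ hℓN ℂ φ) := by
  refine AddMonoidHom.ext fun g' => ?_
  obtain ⟨g, rfl⟩ : ∃ g : Gamma0 N, Additive.ofMul g = g' := ⟨Additive.toMul g', rfl⟩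
  rw [h3f_conj_apply]
  unfold h5h_T
  rw [h5f_Fam.op_apply, h5f_Fam.op_apply, map_sum]
  rfl

theorem h3f_iota_pm (f : CuspForm (Gamma0 N) 2) :
    charInvolution N ℂ ℂ (periodMap N f) = h3f_conj (periodMap N (-(h3_conjForm f))) := by
  refine AddMonoidHom.ext fun g' => ?_
  obtain ⟨γ, rfl⟩ : ∃ g : Gamma0 N, Additive.ofMul g = g' := ⟨Additive.toMul g', rfl⟩
  rw [charInvolution_apply, toMul_ofMul, h3f_conj_apply]
  have h1 : periodMap N (-(h3_conjForm f)) = -periodMap N (h3_conjForm f) := by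
    have := h3f_pm_smul (-1 : ℂ) (h3_conjForm f)
    simpa using this
  rw [h1, AddMonoidHom.neg_apply, h3_period_conjForm, neg_neg, Complex.conj_conj]

/-- Every parabolic character is `pm F₁ + conj ∘ pm F₂`. -/
theorem h3f_par_decomp {φ : Additive (Gamma0 N) →+ ℂ} (hφ : φ ∈ parabolicHoms ℂ (Gamma0 N) ℂ) :
    ∃ F₁ F₂ : CuspForm (Gamma0 N) 2, φ = periodMap N F₁ + h3f_conj (periodMap N F₂) := by
  rw [← h3_range_periodHomPair N] at hφ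
  obtain ⟨⟨f₁, f₂⟩, rfl⟩ := hφ
  obtain ⟨pml, hpml, hdef⟩ := periodHomPair_def N (h1_existsPeriodMapLinear N)
  refine ⟨f₁ + f₂, -(h3_conjForm f₁) - -(h3_conjForm f₂), ?_⟩
  rw [hdef]
  simp only [LinearMap.coprod_apply, LinearMap.comp_apply, LinearMap.add_apply,
    LinearMap.sub_apply, LinearMap.id_apply, hpml]
  rw [h3f_iota_pm, h3f_iota_pm, h3f_pm_add, h3f_pm_sub, sub_eq_add_neg (periodMap N (-h3_conjForm f₁)),
    h3f_conj_add]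
  have hneg : h3f_conj (-periodMap N (-h3_conjForm f₂))
      = -h3f_conj (periodMap N (-h3_conjForm f₂)) := by
    refine AddMonoidHom.ext fun g => ?_
    simp
  rw [hneg]
  abel

/-! ### Hecke operators on parabolic characters: naturality, commutativity -/

omit [NeZero N] in
theorem h3f_T_apply {A : Type*} [AddCommGroup A] {ℓ : ℕ} [Fact ℓ.Prime] (hℓN : ¬ ℓ ∣ N)
    (φ : Additive (Gamma0 N) →+ A) (g : Gamma0 N) :
    h5h_T N ℓ hℓN A φ (Additive.ofMul g)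
      = ∑ x, φ (Additive.ofMul ((h5h_heckeFam N ℓ hℓN).δ g x)) := rfl

omit [NeZero N] in
theorem h3f_T_cast {ℓ : ℕ} [Fact ℓ.Prime] (hℓN : ¬ ℓ ∣ N) (ψ : Additive (Gamma0 N) →+ ℤ) :
    h5h_T N ℓ hℓN ℂ ((Int.castAddHom ℂ).comp ψ) = (Int.castAddHom ℂ).comp (h5h_T N ℓ hℓN ℤ ψ) := by
  refine AddMonoidHom.ext fun g' => ?_
  obtain ⟨g, rfl⟩ : ∃ g : Gamma0 N, Additive.ofMul g = g' := ⟨Additive.toMul g', rfl⟩
  rw [AddMonoidHom.comp_apply, h3f_T_apply, h3f_T_apply, map_sum]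
  rfl

omit [NeZero N] in
theorem h3f_T_par {A : Type*} [AddCommGroup A]
    (hA : ∀ (n : ℕ) (a : A), n ≠ 0 → n • a = 0 → a = 0) {ℓ : ℕ} [Fact ℓ.Prime] (hℓN : ¬ ℓ ∣ N)
    {φ : Additive (Gamma0 N) →+ A} (hφ : IsParabolicHom (Gamma0 N) φ) :
    IsParabolicHom (Gamma0 N) (h5h_T N ℓ hℓN A φ) :=
  h5p_op_parabolic (h5h_heckeFam N ℓ hℓN) rfl rfl hA φ hφ

theorem h3f_T_decomp {ℓ : ℕ} [Fact ℓ.Prime] (hℓ : ℓ.Prime) (hℓN : ¬ ℓ ∣ N)
    (F₁ F₂ : CuspForm (Gamma0 N) 2) :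
    h5h_T N ℓ hℓN ℂ (periodMap N F₁ + h3f_conj (periodMap N F₂))
      = periodMap N (CuspForm.heckeTLin 2 hℓ hℓN F₁)
        + h3f_conj (periodMap N (CuspForm.heckeTLin 2 hℓ hℓN F₂)) := by
  rw [map_add, h3f_T_conj, ← h5b_periodMap_T hℓ hℓN, ← h5b_periodMap_T hℓ hℓN]

/-- The `T_ℓ` commute on parabolic characters with values in `ℂ`. -/
theorem h3f_T_comm_C {ℓ ℓ' : ℕ} [Fact ℓ.Prime] [Fact ℓ'.Prime] (hℓN : ¬ ℓ ∣ N) (hℓ'N : ¬ ℓ' ∣ N)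
    {φ : Additive (Gamma0 N) →+ ℂ} (hφ : φ ∈ parabolicHoms ℂ (Gamma0 N) ℂ) :
    h5h_T N ℓ hℓN ℂ (h5h_T N ℓ' hℓ'N ℂ φ) = h5h_T N ℓ' hℓ'N ℂ (h5h_T N ℓ hℓN ℂ φ) := by
  have hℓ : ℓ.Prime := Fact.out
  have hℓ' : ℓ'.Prime := Fact.out
  obtain ⟨F₁, F₂, rfl⟩ := h3f_par_decomp hφ
  rw [h3f_T_decomp hℓ' hℓ'N, h3f_T_decomp hℓ hℓN, h3f_T_decomp hℓ hℓN, h3f_T_decomp hℓ' hℓ'N]
  have hc := CuspForm.heckeTLin_comm (N := N) 2 hℓ hℓN hℓ' hℓ'N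
  have hc1 : ∀ F, CuspForm.heckeTLin 2 hℓ hℓN (CuspForm.heckeTLin 2 hℓ' hℓ'N F)
      = CuspForm.heckeTLin 2 hℓ' hℓ'N (CuspForm.heckeTLin 2 hℓ hℓN F) := fun F =>
    congrArg (fun T : Module.End ℂ (CuspForm (Gamma0 N) 2) => T F) hc.eq
  rw [hc1, hc1]

omit [NeZero N] in
theorem h3f_cast_par {ψ : Additive (Gamma0 N) →+ ℤ} (hψ : IsParabolicHom (Gamma0 N) ψ) :
    (Int.castAddHom ℂ).comp ψ ∈ parabolicHoms ℂ (Gamma0 N) ℂ := by
  intro γ hγ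
  show ((ψ (Additive.ofMul γ) : ℤ) : ℂ) = 0
  rw [hψ γ hγ, Int.cast_zero]

theorem h3f_int_torsionFree : ∀ (n : ℕ) (a : ℤ), n ≠ 0 → n • a = 0 → a = 0 := by
  intro n a hn h
  rw [nsmul_eq_mul] at h
  rcases mul_eq_zero.mp h with h1 | h1
  · exact absurd (by exact_mod_cast h1) hn
  · exact h1

theorem h3f_complex_torsionFree : ∀ (n : ℕ) (a : ℂ), n ≠ 0 → n • a = 0 → a = 0 := by
  intro n a hn h
  rw [nsmul_eq_mul] at h
  rcases mul_eq_zero.mp h with h1 | h1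
  · exact absurd (by exact_mod_cast h1) hn
  · exact h1

/-- The `T_ℓ` commute on parabolic characters with values in `ℤ`. -/
theorem h3f_T_comm_int {ℓ ℓ' : ℕ} [Fact ℓ.Prime] [Fact ℓ'.Prime] (hℓN : ¬ ℓ ∣ N) (hℓ'N : ¬ ℓ' ∣ N)
    {ψ : Additive (Gamma0 N) →+ ℤ} (hψ : IsParabolicHom (Gamma0 N) ψ) :
    h5h_T N ℓ hℓN ℤ (h5h_T N ℓ' hℓ'N ℤ ψ) = h5h_T N ℓ' hℓ'N ℤ (h5h_T N ℓ hℓN ℤ ψ) := by
  have h1 := h3f_T_comm_C hℓN hℓ'N (h3f_cast_par hψ)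
  rw [h3f_T_cast, h3f_T_cast, h3f_T_cast, h3f_T_cast] at h1
  refine AddMonoidHom.ext fun g => ?_
  have h2 := DFunLike.congr_fun h1 g
  simp only [AddMonoidHom.comp_apply, Int.coe_castAddHom] at h2
  exact_mod_cast h2

/-! ### The matrices of the `T_ℓ` in a dual basis -/

section Mat

variable {n : ℕ} (γ : Fin n → Gamma0 N) (ψ : Fin n → Additive (Gamma0 N) →+ ℤ)

/-- The matrix of `T_ℓ` in the dual basis data `(γ, ψ)`. -/
def h3f_mat (ℓ : ℕ) (hℓ : ℓ.Prime) (hℓN : ¬ ℓ ∣ N) : Matrix (Fin n) (Fin n) ℤ :=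
  haveI : Fact ℓ.Prime := ⟨hℓ⟩
  Matrix.of fun m k => h5h_T N ℓ hℓN ℤ (ψ k) (Additive.ofMul (γ m))

omit [NeZero N] in
theorem h3f_mat_apply {ℓ : ℕ} [Fact ℓ.Prime] (hℓ : ℓ.Prime) (hℓN : ¬ ℓ ∣ N) (m k : Fin n) :
    h3f_mat γ ψ ℓ hℓ hℓN m k = h5h_T N ℓ hℓN ℤ (ψ k) (Additive.ofMul (γ m)) := rfl

omit [NeZero N] in
/-- **Key formula**: `T_ℓ φ` in terms of the dual basis. -/
theorem h3f_key {A : Type} [AddCommGroup A]
    (hform : ∀ (φ : Additive (Gamma0 N) →+ A), IsParabolicHom (Gamma0 N) φ →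
      ∀ g : Additive (Gamma0 N), φ g = ∑ k, ψ k g • φ (Additive.ofMul (γ k)))
    {ℓ : ℕ} [Fact ℓ.Prime] (hℓN : ¬ ℓ ∣ N) (φ : Additive (Gamma0 N) →+ A)
    (hφ : IsParabolicHom (Gamma0 N) φ) (g : Gamma0 N) :
    h5h_T N ℓ hℓN A φ (Additive.ofMul g)
      = ∑ k, (h5h_T N ℓ hℓN ℤ (ψ k) (Additive.ofMul g)) • φ (Additive.ofMul (γ k)) := by
  rw [h3f_T_apply]
  simp_rw [h3f_T_apply (A := ℤ), Finset.sum_smul]
  rw [Finset.sum_comm]
  refine Finset.sum_congr rfl fun x _ => ?_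
  exact hform φ hφ _

end Mat

/-! ### The main theorem -/

/-- **(F2)** step (i) of (T2). -/
theorem h3f_F2 {p N q : ℕ} [NeZero N] [Fact q.Prime] (hp : p.Prime) (hqN : ¬ q ∣ N)
    (f : CuspForm (Gamma0 N) 2) (𝔪 : Ideal (integralClosure ℤ ℂ)) (hf : f.IsNormalizedEigenform)
    (hmax : 𝔪.IsMaximal) (hpm : (p : integralClosure ℤ ℂ) ∈ 𝔪) (a : ℕ → ℤ) (G : Set ℕ)
    (hcong : ∀ ℓ ∈ G, ∃ c : integralClosure ℤ ℂ, (c : ℂ) = ModularFormClass.qCoeff f ℓ ∧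
        c - ((a ℓ : ℤ) : integralClosure ℤ ℂ) ∈ 𝔪)
    (hLR : ∃ c : integralClosure ℤ ℂ, (c : ℂ) = ModularFormClass.qCoeff f q ∧
        c ^ 2 - ((q : integralClosure ℤ ℂ) + 1) ^ 2 ∈ 𝔪) :
    ∃ x : parabolicHoms ℤ (Gamma0 N) ℤ, (¬ ∃ x', x = (p : ℤ) • x') ∧
      (∀ ℓ ∈ G, ∀ [Fact ℓ.Prime] (hℓN : ¬ ℓ ∣ N),
        ∃ x', h5l_T N ℓ hℓN x - a ℓ • x = (p : ℤ) • x') ∧
      ∃ ε : ℤ, (ε = 1 ∨ ε = -1) ∧
        ∃ x', h5l_T N q hqN x - (ε * ((q : ℤ) + 1)) • x = (p : ℤ) • x' := by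
  classical
  haveI : Group.FG (Gamma0 N) := h5l_fg N
  haveI : 𝔪.IsPrime := hmax.isPrime
  obtain ⟨n, γ, ψ, hpar, hδ, hform⟩ := h3f_dualBasis_par (Gamma0 N)
  have hformZ := hform ℤ h3f_int_torsionFree
  have hformC := hform ℂ h3f_complex_torsionFree
  -- the family of matrices and eigenvalues, indexed by `ℕ`
  let A : ℕ → Matrix (Fin n) (Fin n) ℤ := fun ℓ =>
    if h : ℓ.Prime ∧ ¬ ℓ ∣ N then h3f_mat γ ψ ℓ h.1 h.2 else 0
  let c : ℕ → ℂ := fun ℓ => if ℓ.Prime ∧ ¬ ℓ ∣ N then qCoeff ⇑f ℓ else 0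
  let z : Fin n → ℂ := fun k => periodMap N f (Additive.ofMul (γ k))
  have hA : ∀ (ℓ : ℕ) (hℓ : ℓ.Prime) (hℓN : ¬ ℓ ∣ N), A ℓ = h3f_mat γ ψ ℓ hℓ hℓN := by
    intro ℓ hℓ hℓN
    exact dif_pos ⟨hℓ, hℓN⟩
  have hc : ∀ (ℓ : ℕ), ℓ.Prime → ¬ ℓ ∣ N → c ℓ = qCoeff ⇑f ℓ := by
    intro ℓ hℓ hℓN
    exact if_pos ⟨hℓ, hℓN⟩
  -- product formula
  have hprod : ∀ (ℓ ℓ' : ℕ) (hℓ : ℓ.Prime) (hℓN : ¬ ℓ ∣ N) (hℓ' : ℓ'.Prime) (hℓ'N : ¬ ℓ' ∣ N)
      (m k : Fin n),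
      (h3f_mat γ ψ ℓ hℓ hℓN * h3f_mat γ ψ ℓ' hℓ' hℓ'N) m k
        = (haveI : Fact ℓ.Prime := ⟨hℓ⟩; haveI : Fact ℓ'.Prime := ⟨hℓ'⟩;
            h5h_T N ℓ hℓN ℤ (h5h_T N ℓ' hℓ'N ℤ (ψ k)) (Additive.ofMul (γ m))) := by
    intro ℓ ℓ' hℓ hℓN hℓ' hℓ'N m k
    haveI : Fact ℓ.Prime := ⟨hℓ⟩
    haveI : Fact ℓ'.Prime := ⟨hℓ'⟩
    show _ = h5h_T N ℓ hℓN ℤ (h5h_T N ℓ' hℓ'N ℤ (ψ k)) (Additive.ofMul (γ m))
    rw [h3f_key γ ψ hformZ hℓN _ (h3f_T_par h3f_int_torsionFree hℓ'N (hpar k)), Matrix.mul_apply]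
    refine Finset.sum_congr rfl fun j _ => ?_
    rw [smul_eq_mul]
    rfl
  have hcomm : ∀ i k, A i * A k = A k * A i := by
    intro i k
    by_cases hi : i.Prime ∧ ¬ i ∣ N
    · by_cases hk : k.Prime ∧ ¬ k ∣ N
      · rw [hA i hi.1 hi.2, hA k hk.1 hk.2]
        ext m j
        rw [hprod, hprod]
        haveI : Fact i.Prime := ⟨hi.1⟩
        haveI : Fact k.Prime := ⟨hk.1⟩
        show h5h_T N i hi.2 ℤ (h5h_T N k hk.2 ℤ (ψ j)) (Additive.ofMul (γ m))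
          = h5h_T N k hk.2 ℤ (h5h_T N i hi.2 ℤ (ψ j)) (Additive.ofMul (γ m))
        rw [h3f_T_comm_int hi.2 hk.2 (hpar j)]
      · have : A k = 0 := dif_neg hk
        rw [this, mul_zero, zero_mul]
    · have : A i = 0 := dif_neg hi
      rw [this, mul_zero, zero_mul]
  have hz : z ≠ 0 := by
    intro hz0
    apply h3f_pm_ne_zero hf.ne_zero
    refine AddMonoidHom.ext fun g => ?_
    rw [hformC _ (h3f_pm_par f) g]
    refine Finset.sum_eq_zero fun k _ => ?_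
    have : periodMap N f (Additive.ofMul (γ k)) = 0 := congrFun hz0 k
    rw [this, smul_zero]
  have heig : ∀ i, ((A i).map (Int.castRingHom ℂ)) *ᵥ z = c i • z := by
    intro i
    by_cases hi : i.Prime ∧ ¬ i ∣ N
    · haveI : Fact i.Prime := ⟨hi.1⟩
      rw [hA i hi.1 hi.2, hc i hi.1 hi.2]
      funext m
      have h1 := h3f_key γ ψ hformC hi.2 (periodMap N f) (h3f_pm_par f) (γ m)
      rw [← h5b_periodMap_T hi.1 hi.2, h3f_heckeT_eigen hf hi.1 hi.2, h3f_pm_smul] at h1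
      simp only [Matrix.mulVec, dotProduct, Matrix.map_apply, Int.coe_castRingHom,
        Pi.smul_apply, smul_eq_mul]
      rw [AddMonoidHom.smul_apply, smul_eq_mul] at h1
      rw [h1]
      refine Finset.sum_congr rfl fun k _ => ?_
      rw [zsmul_eq_mul]
      rfl
    · have h1 : A i = 0 := dif_neg hi
      have h2 : c i = 0 := if_neg hi
      rw [h1, h2, Matrix.map_zero _ (by simp), Matrix.zero_mulVec, zero_smul]
  obtain ⟨v, hv, hv'⟩ := h3f_reduce_family A hcomm c z hz heig p hp 𝔪 hpm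
  -- the class `x`
  let x : parabolicHoms ℤ (Gamma0 N) ℤ :=
    ⟨∑ k, v k • ψ k, Submodule.sum_mem _ fun k _ => Submodule.smul_mem _ _ (hpar k)⟩
  have hxγ : ∀ m, x.1 (Additive.ofMul (γ m)) = v m := by
    intro m
    show (∑ k, v k • ψ k) (Additive.ofMul (γ m)) = v m
    rw [AddMonoidHom.finsetSum_apply, Finset.sum_eq_single m]
    · rw [AddMonoidHom.smul_apply, hδ, if_pos rfl, smul_eq_mul, mul_one]
    · intro k _ hk
      rw [AddMonoidHom.smul_apply, hδ, if_neg hk, smul_zero]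
    · intro h; exact absurd (Finset.mem_univ m) h
  -- from divisibility of coordinates to divisibility in `L_N`
  have hdiv : ∀ (ℓ : ℕ) [Fact ℓ.Prime] (hℓN : ¬ ℓ ∣ N) (b : ℤ),
      (∀ m, (p : ℤ) ∣ ((A ℓ) *ᵥ v - b • v) m) →
        ∃ x', h5l_T N ℓ hℓN x - b • x = (p : ℤ) • x' := by
    intro ℓ _ hℓN b hd
    have hℓ : ℓ.Prime := Fact.out
    choose u hu using hd
    let y : parabolicHoms ℤ (Gamma0 N) ℤ := h5l_T N ℓ hℓN x - b • x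
    have hyγ : ∀ m, y.1 (Additive.ofMul (γ m)) = (p : ℤ) * u m := by
      intro m
      rw [← hu m]
      show h5h_T N ℓ hℓN ℤ x.1 (Additive.ofMul (γ m)) - b • x.1 (Additive.ofMul (γ m)) = _
      rw [h3f_key γ ψ hformZ hℓN x.1 x.2 (γ m), hA ℓ hℓ hℓN]
      simp only [Pi.sub_apply, Pi.smul_apply, Matrix.mulVec, dotProduct, hxγ, smul_eq_mul]
      rfl
    refine ⟨⟨∑ k, u k • ψ k, Submodule.sum_mem _ fun k _ => Submodule.smul_mem _ _ (hpar k)⟩, ?_⟩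
    apply Subtype.ext
    refine AddMonoidHom.ext fun g => ?_
    show y.1 g = (p : ℤ) • (∑ k, u k • ψ k) g
    rw [hformZ y.1 y.2 g, AddMonoidHom.finsetSum_apply, Finset.smul_sum]
    refine Finset.sum_congr rfl fun k _ => ?_
    rw [hyγ k, AddMonoidHom.smul_apply, smul_eq_mul, smul_eq_mul, smul_eq_mul]
    ring
  refine ⟨x, ?_, ?_, ?_⟩
  · rintro ⟨x', hx'⟩
    obtain ⟨k, hk⟩ := hv
    apply hk
    rw [← hxγ k, hx']
    show (p : ℤ) ∣ (p : ℤ) • x'.1 (Additive.ofMul (γ k))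
    exact ⟨_, rfl⟩
  · intro ℓ hℓG _ hℓN
    have hℓ : ℓ.Prime := Fact.out
    obtain ⟨c₀, hc₀, hc₀m⟩ := hcong ℓ hℓG
    apply hdiv ℓ hℓN (a ℓ)
    apply hv' ℓ (a ℓ)
    refine ⟨_, hc₀m, ?_⟩
    rw [hc ℓ hℓ hℓN, ← hc₀]
    simp
  · have hq : q.Prime := Fact.out
    obtain ⟨c₀, hc₀, hc₀m⟩ := hLR
    have hfac : c₀ ^ 2 - ((q : integralClosure ℤ ℂ) + 1) ^ 2
        = (c₀ - (((q : ℤ) + 1 : ℤ) : integralClosure ℤ ℂ))
          * (c₀ - ((-((q : ℤ) + 1) : ℤ) : integralClosure ℤ ℂ)) := by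
      push_cast
      ring
    rw [hfac] at hc₀m
    rcases Ideal.IsPrime.mem_or_mem inferInstance hc₀m with h1 | h1
    · refine ⟨1, Or.inl rfl, ?_⟩
      rw [one_mul]
      apply hdiv q hqN ((q : ℤ) + 1)
      apply hv' q ((q : ℤ) + 1)
      refine ⟨_, h1, ?_⟩
      rw [hc q hq hqN, ← hc₀]
      simp
    · refine ⟨-1, Or.inr rfl, ?_⟩
      rw [neg_one_mul]
      apply hdiv q hqN (-((q : ℤ) + 1))
      apply hv' q (-((q : ℤ) + 1))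
      refine ⟨_, h1, ?_⟩
      rw [hc q hq hqN, ← hc₀]
      simp

end Fermat.Agent.Lib.S41
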