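import Mathlib
import Fermat.Agent.Lib.S41.H5ES
import Fermat.Agent.S21

/-!
# Project S41, layer [F3] helpers: linear versions of the family operators, coefficient change
`ℤ → ℂ`, and commutation of the cohomological Hecke operators on parabolic classes (via ES)

Owner: helper5.
-/

set_option autoImplicit false
set_option linter.style.haveILetI false

open P2MW.S_ModularForm_heckeT_slash_eq_self_of_mem_Gamma0.ModularForm.HeckeSlashInvariance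
open P2MW.S_ModularForm_heckeT_slash_eq_self_of_mem_Gamma0.ModularForm
open CongruenceSubgroup Matrix.SpecialLinearGroup ModularCurve ModularCurve.Period
open Fermat.Agent.Lib.S21 ModularFormClass
open scoped MatrixGroups OnePoint ModularForm

noncomputable section

namespace Fermat.Agent.Lib.S41

section Lin

variable {𝔾 : Type*} [Group 𝔾] {Γ₁ Γ₂ : Type*} [Group Γ₁] [Group Γ₂] {I : Type*} [Fintype I]

/-- Naturality of `op` in the coefficient group. -/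
theorem h5f_Fam.op_comp_hom (F : h5f_Fam 𝔾 Γ₁ Γ₂ I) {A B : Type*} [AddCommGroup A]
    [AddCommGroup B] (f : A →+ B) (φ : Additive Γ₁ →+ A) :
    F.op B (f.comp φ) = f.comp (F.op A φ) := by
  refine AddMonoidHom.ext fun g => ?_
  show ∑ x, f (φ _) = f (∑ x, φ _)
  rw [map_sum]

/-- The `R`-linear version of `op`. -/
def h5f_Fam.opLin (F : h5f_Fam 𝔾 Γ₁ Γ₂ I) (R A : Type*) [Semiring R] [AddCommGroup A]
    [Module R A] : (Additive Γ₁ →+ A) →ₗ[R] (Additive Γ₂ →+ A) where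
  toFun := F.op A
  map_add' := map_add _
  map_smul' c φ := by
    refine AddMonoidHom.ext fun g => ?_
    show ∑ x, c • φ _ = c • ∑ x, φ _
    rw [Finset.smul_sum]

theorem h5f_Fam.opLin_apply (F : h5f_Fam 𝔾 Γ₁ Γ₂ I) (R A : Type*) [Semiring R] [AddCommGroup A]
    [Module R A] (φ : Additive Γ₁ →+ A) : F.opLin R A φ = F.op A φ := rfl

end Lin

/-- Coefficient change `ℤ → ℂ`. -/
def h5d_cast (Γ : Type*) [Group Γ] : (Additive Γ →+ ℤ) →ₗ[ℤ] (Additive Γ →+ ℂ) where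
  toFun φ := (Int.castAddHom ℂ).comp φ
  map_add' _ _ := by ext; simp
  map_smul' _ _ := by ext; simp

theorem h5d_cast_apply {Γ : Type*} [Group Γ] (φ : Additive Γ →+ ℤ) (g : Additive Γ) :
    h5d_cast Γ φ g = ((φ g : ℤ) : ℂ) := rfl

theorem h5d_cast_injective (Γ : Type*) [Group Γ] : Function.Injective (h5d_cast Γ) := by
  intro φ ψ h
  refine AddMonoidHom.ext fun g => ?_
  have := DFunLike.congr_fun h g
  rw [h5d_cast_apply, h5d_cast_apply] at this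
  exact_mod_cast this

theorem h5d_cast_op {𝔾 : Type*} [Group 𝔾] {Γ₁ Γ₂ : Type*} [Group Γ₁] [Group Γ₂] {I : Type*}
    [Fintype I] (F : h5f_Fam 𝔾 Γ₁ Γ₂ I) (φ : Additive Γ₁ →+ ℤ) :
    F.op ℂ (h5d_cast Γ₁ φ) = h5d_cast Γ₂ (F.op ℤ φ) :=
  F.op_comp_hom (Int.castAddHom ℂ) φ

theorem h5d_cast_parabolic {M : ℕ} (φ : Additive (Gamma0 M) →+ ℤ) :
    IsParabolicHom (Gamma0 M) (h5d_cast _ φ) ↔ IsParabolicHom (Gamma0 M) φ := by
  constructor
  · intro h g hg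
    have := h g hg
    rw [h5d_cast_apply] at this
    exact_mod_cast this
  · intro h g hg
    rw [h5d_cast_apply, h g hg]
    simp

/-! ### Commutation of the cohomological Hecke operators on parabolic classes (via ES) -/

theorem h5d_TT_comm {K : ℕ} [NeZero K] {ℓ ℓ' : ℕ} [Fact ℓ.Prime] [Fact ℓ'.Prime]
    (hℓ : ¬ ℓ ∣ K) (hℓ' : ¬ ℓ' ∣ K)
    (w : Additive (Gamma0 K) →+ ℂ) (hw : IsParabolicHom (Gamma0 K) w) :
    h5h_T K ℓ hℓ ℂ (h5h_T K ℓ' hℓ' ℂ w) = h5h_T K ℓ' hℓ' ℂ (h5h_T K ℓ hℓ ℂ w) := by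
  have hr := (Fermat.Agent.S21.result K).2
  have hw' : w ∈ LinearMap.range (periodHomPair K) := by rw [hr]; exact hw
  obtain ⟨⟨f, g⟩, rfl⟩ := hw'
  have hp : ℓ.Prime := Fact.out
  have hp' : ℓ'.Prime := Fact.out
  rw [← h5e_php_T hp' hℓ', ← h5e_php_T hp hℓ, ← h5e_php_T hp hℓ, ← h5e_php_T hp' hℓ']
  have c := CuspForm.heckeTLin_comm (N := K) 2 hp hℓ hp' hℓ'
  have c1 := LinearMap.congr_fun c.eq f
  have c2 := LinearMap.congr_fun c.eq g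
  rw [Module.End.mul_apply, Module.End.mul_apply] at c1 c2
  rw [c1, c2]

theorem h5d_TU_comm {K : ℕ} [NeZero K] {ℓ q : ℕ} [Fact ℓ.Prime] [Fact q.Prime]
    (hℓ : ¬ ℓ ∣ K) (hq : q ∣ K)
    (w : Additive (Gamma0 K) →+ ℂ) (hw : IsParabolicHom (Gamma0 K) w) :
    h5h_T K ℓ hℓ ℂ (h5u_U K q hq ℂ w) = h5u_U K q hq ℂ (h5h_T K ℓ hℓ ℂ w) := by
  have hr := (Fermat.Agent.S21.result K).2
  have hw' : w ∈ LinearMap.range (periodHomPair K) := by rw [hr]; exact hw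
  obtain ⟨⟨f, g⟩, rfl⟩ := hw'
  have hp : ℓ.Prime := Fact.out
  rw [← h5e_php_U hq, ← h5e_php_T hp hℓ, ← h5e_php_T hp hℓ, ← h5e_php_U hq]
  have c := CuspForm.heckeTLin_heckeULin_comm (N := K) 2 hp hℓ hq
  have c1 := LinearMap.congr_fun c.eq f
  have c2 := LinearMap.congr_fun c.eq g
  rw [Module.End.mul_apply, Module.End.mul_apply] at c1 c2
  rw [c1, c2]

theorem h5d_TT_comm_int {K : ℕ} [NeZero K] {ℓ ℓ' : ℕ} [Fact ℓ.Prime] [Fact ℓ'.Prime]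
    (hℓ : ¬ ℓ ∣ K) (hℓ' : ¬ ℓ' ∣ K)
    (φ : Additive (Gamma0 K) →+ ℤ) (hφ : IsParabolicHom (Gamma0 K) φ) :
    h5h_T K ℓ hℓ ℤ (h5h_T K ℓ' hℓ' ℤ φ) = h5h_T K ℓ' hℓ' ℤ (h5h_T K ℓ hℓ ℤ φ) := by
  apply h5d_cast_injective
  simp only [h5h_T, ← h5d_cast_op]
  exact h5d_TT_comm hℓ hℓ' _ ((h5d_cast_parabolic φ).mpr hφ)

theorem h5d_TU_comm_int {K : ℕ} [NeZero K] {ℓ q : ℕ} [Fact ℓ.Prime] [Fact q.Prime]
    (hℓ : ¬ ℓ ∣ K) (hq : q ∣ K)
    (φ : Additive (Gamma0 K) →+ ℤ) (hφ : IsParabolicHom (Gamma0 K) φ) :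
    h5h_T K ℓ hℓ ℤ (h5u_U K q hq ℤ φ) = h5u_U K q hq ℤ (h5h_T K ℓ hℓ ℤ φ) := by
  apply h5d_cast_injective
  simp only [h5h_T, h5u_U, ← h5d_cast_op]
  exact h5d_TU_comm hℓ hq _ ((h5d_cast_parabolic φ).mpr hφ)

end Fermat.Agent.Lib.S41
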