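import Mathlib
import Fermat.Agent.S49

/-!
# Project S41, layer [F3]: abstract Deligne–Serre lifting for a lattice with commuting operators

Owner: helper5.  Generalises the argument of `Fermat/Agent/S49.lean` (LemmaA + lying-over).
-/

set_option autoImplicit false
set_option linter.style.haveILetI false
set_option linter.deprecated false

noncomputable section

namespace Fermat.Agent.Lib.S41

open Fermat.Agent.S49 in
/-- **Abstract Deligne–Serre lifting**: commuting operators on a finite-dimensional complex vector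
space preserving a finitely generated spanning lattice `L`; a mod `p` eigenvector in `L / p L`
lifts to an honest eigenvector with congruent eigenvalues. -/
theorem h5d_DS₀ {V : Type*} [AddCommGroup V] [Module ℂ V] [FiniteDimensional ℂ V]
    (L : Submodule ℤ V) (hLfg : L.FG) (hspan : Submodule.span ℂ (L : Set V) = ⊤)
    {ι : Type*} (T : ι → Module.End ℂ V) (hTL : ∀ i, ∀ x ∈ L, T i x ∈ L)
    (hcomm : ∀ i j, T i * T j = T j * T i)
    (a : ι → ℤ) {p : ℕ} (y : V) (hyL : y ∈ L)
    (hy : ¬ ∃ y' ∈ L, y = (p : ℤ) • y')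
    (heig : ∀ i, ∃ y' ∈ L, T i y - a i • y = (p : ℤ) • y') :
    ∃ (w : V) (c : ι → ℂ) (𝔪' : Ideal (integralClosure ℤ ℂ)), w ≠ 0 ∧ 𝔪'.IsMaximal ∧
      ((p : ℕ) : integralClosure ℤ ℂ) ∈ 𝔪' ∧ (∀ i, T i w = c i • w) ∧
      ∀ i, ∃ c' : integralClosure ℤ ℂ, (c' : ℂ) = c i ∧
        c' - ((a i : ℤ) : integralClosure ℤ ℂ) ∈ 𝔪' := by
  classical
  set s : Set (Module.End ℂ V) := Set.range T with hs_def
  have hs : ∀ a ∈ s, ∀ b ∈ s, a * b = b * a := by
    rintro _ ⟨i, rfl⟩ _ ⟨j, rfl⟩
    exact hcomm i j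
  letI : CommRing (Algebra.adjoin ℤ s) := Algebra.adjoinCommRingOfComm ℤ hs
  let ρ : Algebra.adjoin ℤ s →+* Module.End ℂ V := (Algebra.adjoin ℤ s).val.toRingHom
  have hρ : ∀ t : Algebra.adjoin ℤ s, ρ t = (t : Module.End ℂ V) := fun _ => rfl
  -- every element preserves `L`
  have hpres : ∀ t : Algebra.adjoin ℤ s, ∀ x ∈ L, ρ t x ∈ L := by
    intro t
    refine Algebra.adjoin_induction (p := fun t _ => ∀ x ∈ L, t x ∈ L) ?_ ?_ ?_ ?_ t.2
    · rintro _ ⟨i, rfl⟩
      exact hTL i
    · intro r x hx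
      have : (algebraMap ℤ (Module.End ℂ V) r) x = r • x := by
        simp
      rw [this]
      exact L.smul_mem r hx
    · intro a b _ _ ha hb x hx
      exact L.add_mem (ha x hx) (hb x hx)
    · intro a b _ _ ha hb x hx
      exact ha _ (hb x hx)
  -- the ideal of operators sending `y` into `p L`
  let I : Ideal (Algebra.adjoin ℤ s) :=
    { carrier := {t | ∃ y' ∈ L, ρ t y = (p : ℤ) • y'}
      add_mem' := by
        rintro t t' ⟨y₁, hy₁, h₁⟩ ⟨y₂, hy₂, h₂⟩
        refine ⟨y₁ + y₂, L.add_mem hy₁ hy₂, ?_⟩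
        rw [map_add, LinearMap.add_apply, h₁, h₂, smul_add]
      zero_mem' := ⟨0, L.zero_mem, by simp⟩
      smul_mem' := by
        rintro t' t ⟨y', hy', h⟩
        refine ⟨ρ t' y', hpres t' y' hy', ?_⟩
        show ρ (t' * t) y = _
        rw [map_mul, Module.End.mul_apply, h, map_zsmul] }
  have hImem : ∀ t, t ∈ I ↔ ∃ y' ∈ L, ρ t y = (p : ℤ) • y' := fun _ => Iff.rfl
  have hItop : I ≠ ⊤ := by
    intro htop
    have h1 : (1 : Algebra.adjoin ℤ s) ∈ I := htop ▸ Submodule.mem_top
    obtain ⟨y', hy', h⟩ := (hImem 1).mp h1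
    rw [map_one, Module.End.one_apply] at h
    exact hy ⟨y', hy', h⟩
  obtain ⟨𝔫, h𝔫max, hle⟩ := Ideal.exists_le_maximal I hItop
  have : 𝔫.IsPrime := h𝔫max.isPrime
  obtain ⟨w, θ, hw, hθ, hθker⟩ := exists_eigenchar_of_prime ρ 𝔫
    (fun t ht => by
      have : t = 0 := Subtype.ext ht
      rw [this]; exact 𝔫.zero_mem)
  -- restriction to the lattice
  haveI : Module.Finite ℤ L := Module.Finite.iff_fg.mpr hLfg
  let resL : Algebra.adjoin ℤ s →+* Module.End ℤ L :=
    { toFun := fun t => ((ρ t).restrictScalars ℤ).restrict (fun x hx => hpres t x hx)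
      map_one' := by ext x; rfl
      map_mul' := fun _ _ => by ext x; rfl
      map_zero' := by ext x; rfl
      map_add' := fun _ _ => by ext x; rfl }
  have hresL : ∀ (t : Algebra.adjoin ℤ s) (x : L), ((resL t x : L) : V) = ρ t x := fun _ _ => rfl
  have hresL_inj : Function.Injective resL := by
    rw [injective_iff_map_eq_zero]
    intro t ht
    have h1 : ρ t = 0 := by
      apply LinearMap.ext_on hspan
      intro x hx
      have := hresL t ⟨x, hx⟩
      rw [ht] at this
      simpa using this.symm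
    exact Subtype.ext h1
  have hint : ∀ t, θ t ∈ integralClosure ℤ ℂ := by
    intro t
    obtain ⟨P, hP, hPe⟩ := Algebra.IsIntegral.isIntegral (R := ℤ) (resL t)
    have hPt : Polynomial.eval₂ (Int.castRingHom (Algebra.adjoin ℤ s)) t P = 0 := by
      apply hresL_inj
      have hcomp : resL.comp (Int.castRingHom (Algebra.adjoin ℤ s)) =
          algebraMap ℤ (Module.End ℤ L) := Subsingleton.elim _ _
      rw [Polynomial.hom_eval₂, map_zero, hcomp]
      exact hPe
    refine ⟨P, hP, ?_⟩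
    have hcomp : θ.comp (Int.castRingHom (Algebra.adjoin ℤ s)) = algebraMap ℤ ℂ :=
      Subsingleton.elim _ _
    have := congrArg θ hPt
    rw [Polynomial.hom_eval₂, map_zero, hcomp] at this
    exact this
  set θ' : Algebra.adjoin ℤ s →+* integralClosure ℤ ℂ :=
    θ.codRestrict (integralClosure ℤ ℂ) hint with hθ'
  have hθ'coe : ∀ t, ((θ' t : integralClosure ℤ ℂ) : ℂ) = θ t := fun t => rfl
  have hkerle : RingHom.ker θ' ≤ 𝔫 := by
    intro t ht
    apply hθker
    rw [RingHom.mem_ker] at ht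
    rw [← hθ'coe, ht]
    rfl
  have hθ'int : θ'.IsIntegral := by
    apply RingHom.IsIntegral.tower_top (Int.castRingHom (Algebra.adjoin ℤ s)) θ'
    have hcomp : θ'.comp (Int.castRingHom (Algebra.adjoin ℤ s))
        = algebraMap ℤ (integralClosure ℤ ℂ) := Subsingleton.elim _ _
    rw [hcomp]
    exact algebraMap_isIntegral_iff.mpr inferInstance
  have hmapne : 𝔫.map θ' ≠ ⊤ := by
    rw [Ne, Ideal.map_eq_top_iff_of_ker_le θ' hkerle hθ'int]
    exact h𝔫max.ne_top
  obtain ⟨𝔪', h𝔪'max, h𝔪'le⟩ := Ideal.exists_le_maximal _ hmapne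
  have hmem : ∀ t ∈ I, θ' t ∈ 𝔪' := fun t ht =>
    h𝔪'le (Ideal.mem_map_of_mem θ' (hle ht))
  -- the generators
  let τ : ι → Algebra.adjoin ℤ s := fun i => ⟨T i, Algebra.subset_adjoin ⟨i, rfl⟩⟩
  refine ⟨w, fun i => θ (τ i), 𝔪', hw, h𝔪'max, ?_, fun i => hθ (τ i), fun i => ?_⟩
  · have hpI : ((p : ℕ) : Algebra.adjoin ℤ s) ∈ I := by
      refine (hImem _).mpr ⟨y, hyL, ?_⟩
      rw [map_natCast, Module.End.natCast_apply]
      exact (natCast_zsmul y p).symm
    have := hmem _ hpI
    rwa [map_natCast] at this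
  · refine ⟨θ' (τ i), rfl, ?_⟩
    have hI : τ i - ((a i : ℤ) : Algebra.adjoin ℤ s) ∈ I := by
      obtain ⟨y', hy', h⟩ := heig i
      refine (hImem _).mpr ⟨y', hy', ?_⟩
      rw [map_sub, map_intCast, LinearMap.sub_apply, Module.End.intCast_apply]
      exact h
    have := hmem _ hI
    rwa [map_sub, map_intCast] at this

/-- **Abstract Deligne–Serre lifting**, version for a finitely generated lattice `L` inside an
arbitrary complex vector space `H` (the eigenvector lives in the `ℂ`-span of `L`). -/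
theorem h5d_DS {H : Type*} [AddCommGroup H] [Module ℂ H]
    (L : Submodule ℤ H) (hLfg : L.FG)
    {ι : Type*} (T : ι → Module.End ℂ H) (hTL : ∀ i, ∀ x ∈ L, T i x ∈ L)
    (hcomm : ∀ i j, ∀ x ∈ L, T i (T j x) = T j (T i x))
    (a : ι → ℤ) {p : ℕ} (y : H) (hyL : y ∈ L)
    (hy : ¬ ∃ y' ∈ L, y = (p : ℤ) • y')
    (heig : ∀ i, ∃ y' ∈ L, T i y - a i • y = (p : ℤ) • y') :
    ∃ (w : H) (c : ι → ℂ) (𝔪' : Ideal (integralClosure ℤ ℂ)), w ≠ 0 ∧
      w ∈ Submodule.span ℂ (L : Set H) ∧ 𝔪'.IsMaximal ∧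
      ((p : ℕ) : integralClosure ℤ ℂ) ∈ 𝔪' ∧ (∀ i, T i w = c i • w) ∧
      ∀ i, ∃ c' : integralClosure ℤ ℂ, (c' : ℂ) = c i ∧
        c' - ((a i : ℤ) : integralClosure ℤ ℂ) ∈ 𝔪' := by
  classical
  set V : Submodule ℂ H := Submodule.span ℂ (L : Set H) with hV
  have hLV : ∀ x ∈ L, x ∈ V := fun x hx => Submodule.subset_span hx
  -- stability of `V`
  have hstab : ∀ i, ∀ x ∈ V, T i x ∈ V := by
    intro i x hx
    induction hx using Submodule.span_induction with
    | mem x hx => exact hLV _ (hTL i x hx)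
    | zero => rw [map_zero]; exact V.zero_mem
    | add x y _ _ hx hy => rw [map_add]; exact V.add_mem hx hy
    | smul c x _ hx => rw [map_smul]; exact V.smul_mem c hx
  have hcommV : ∀ i j, ∀ x ∈ V, T i (T j x) = T j (T i x) := by
    intro i j x hx
    induction hx using Submodule.span_induction with
    | mem x hx => exact hcomm i j x hx
    | zero => simp
    | add x y _ _ hx hy => rw [map_add, map_add, map_add, map_add, hx, hy]
    | smul c x _ hx => rw [map_smul, map_smul, map_smul, map_smul, hx]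
  -- finite-dimensionality
  haveI : FiniteDimensional ℂ V := by
    obtain ⟨S, hS⟩ := hLfg
    have hVS : V = Submodule.span ℂ (S : Set H) := by
      apply le_antisymm
      · rw [hV, Submodule.span_le]
        intro x hx
        rw [← hS] at hx
        exact Submodule.span_subset_span ℤ ℂ _ hx
      · apply Submodule.span_mono
        rw [← hS]
        exact Submodule.subset_span
    rw [hVS]
    exact FiniteDimensional.span_finset ℂ S
  let T' : ι → Module.End ℂ V := fun i => (T i).restrict (hstab i)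
  have hT' : ∀ i (v : V), ((T' i v : V) : H) = T i v := fun _ _ => rfl
  let LV : Submodule ℤ V := L.comap (V.subtype.restrictScalars ℤ)
  have hLVmem : ∀ v : V, v ∈ LV ↔ (v : H) ∈ L := fun _ => Iff.rfl
  have hLVfg : LV.FG := by
    apply Submodule.fg_of_fg_map_injective (V.subtype.restrictScalars ℤ)
      (fun a b h => Subtype.ext h)
    rw [Submodule.map_comap_eq_of_le]
    · exact hLfg
    · intro x hx
      exact ⟨⟨x, hLV x hx⟩, rfl⟩
  have hLVspan : Submodule.span ℂ (LV : Set V) = ⊤ := Submodule.span_span_coe_preimage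
  obtain ⟨w, c, 𝔪', hw, hmax, hp, hTw, hc⟩ := h5d_DS₀ LV hLVfg hLVspan T'
    (fun i x hx => hTL i _ hx)
    (fun i j => by
      ext v
      exact hcommV i j v v.2)
    a ⟨y, hLV y hyL⟩ hyL
    (by
      rintro ⟨y', hy', h⟩
      exact hy ⟨(y' : H), hy', congrArg Subtype.val h⟩)
    (fun i => by
      obtain ⟨y', hy', h⟩ := heig i
      exact ⟨⟨y', hLV y' hy'⟩, hy', Subtype.ext h⟩)
  refine ⟨(w : H), c, 𝔪', fun h => hw (Subtype.ext h), w.2, hmax, hp, fun i => ?_, hc⟩
  have := congrArg Subtype.val (hTw i)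
  exact this

end Fermat.Agent.Lib.S41
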