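import Mathlib
import Fermat.Agent.S49
import Fermat.Agent.S21
import Fermat.Agent.Lib.Helper2.HeckeEigen
import Fermat.Prelude.Def_FreyPackage_LevelRaising

/-!
# Project S41, layer [F3], step (v): from a partial eigenvector on cusp forms to a normalised
eigenform (common eigenvector of the whole Hecke algebra inside the stable subspace).

Owner: helper5.
-/

set_option autoImplicit false
set_option linter.style.haveILetI false

open CongruenceSubgroup ModularFormClass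

noncomputable section

namespace Fermat.Agent.Lib.S41

open Fermat.Agent.S49 in
/-- From a nonzero cusp form which is an eigenvector of the `T_ℓ`, `ℓ ∈ G`, and fixed by `U_q²`,
to a normalised eigenform with the same `T_ℓ`-eigenvalues and `a_q² = 1`. -/
theorem h5g_exists_eigenform {K : ℕ} [NeZero K] {q : ℕ} (hq : q.Prime) (hqK : q ∣ K)
    (G : Set ℕ) (hG : ∀ ℓ ∈ G, ℓ.Prime ∧ ¬ ℓ ∣ K) (c : ℕ → ℂ)
    (f : CuspForm (Gamma0 K) 2) (hf : f ≠ 0)
    (hT : ∀ ℓ (hℓ : ℓ ∈ G), CuspForm.heckeTLin 2 (hG ℓ hℓ).1 (hG ℓ hℓ).2 f = c ℓ • f)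
    (hU : CuspForm.heckeULin 2 hqK (CuspForm.heckeULin 2 hqK f) = f) :
    ∃ g : CuspForm (Gamma0 K) 2, g.IsNormalizedEigenform ∧
      (∀ ℓ ∈ G, qCoeff g ℓ = c ℓ) ∧ g.IsNewAt q := by
  classical
  haveI : FiniteDimensional ℂ (CuspForm (Gamma0 K) 2) := (Fermat.Agent.Lib.S21.h8_dimStatement K).1
  -- the subspace `S'`
  let S' : Submodule ℂ (CuspForm (Gamma0 K) 2) :=
    { carrier := {g | (∀ ℓ (hℓ : ℓ ∈ G), CuspForm.heckeTLin 2 (hG ℓ hℓ).1 (hG ℓ hℓ).2 g = c ℓ • g)
        ∧ CuspForm.heckeULin 2 hqK (CuspForm.heckeULin 2 hqK g) = g}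
      add_mem' := by
        rintro g g' ⟨h1, h2⟩ ⟨h1', h2'⟩
        refine ⟨fun ℓ hℓ => ?_, ?_⟩
        · rw [map_add, h1 ℓ hℓ, h1' ℓ hℓ, smul_add]
        · rw [map_add, map_add, h2, h2']
      zero_mem' := ⟨fun ℓ hℓ => by rw [map_zero, smul_zero], by rw [map_zero, map_zero]⟩
      smul_mem' := by
        rintro z g ⟨h1, h2⟩
        refine ⟨fun ℓ hℓ => ?_, ?_⟩
        · rw [map_smul, h1 ℓ hℓ, smul_comm]
        · rw [map_smul, map_smul, h2] }
  have hS'mem : ∀ g, g ∈ S' ↔ (∀ ℓ (hℓ : ℓ ∈ G),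
      CuspForm.heckeTLin 2 (hG ℓ hℓ).1 (hG ℓ hℓ).2 g = c ℓ • g)
        ∧ CuspForm.heckeULin 2 hqK (CuspForm.heckeULin 2 hqK g) = g := fun _ => Iff.rfl
  have hfS' : f ∈ S' := ⟨hT, hU⟩
  -- stability under the Hecke algebra
  have hstab : ∀ t : HA K, ∀ g ∈ S', rho t g ∈ S' := by
    intro t g hg
    obtain ⟨h1, h2⟩ := (hS'mem g).mp hg
    refine (hS'mem _).mpr ⟨fun ℓ hℓ => ?_, ?_⟩
    · have e : rho (TT (hG ℓ hℓ).1 (hG ℓ hℓ).2) * rho t = rho t * rho (TT (hG ℓ hℓ).1 (hG ℓ hℓ).2) := by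
        rw [← map_mul, ← map_mul, mul_comm]
      have := LinearMap.congr_fun e g
      rw [Module.End.mul_apply, Module.End.mul_apply, rho_TT, h1 ℓ hℓ, map_smul] at this
      exact this
    · have e : rho (UU hq hqK) * (rho (UU hq hqK) * rho t)
          = rho t * (rho (UU hq hqK) * rho (UU hq hqK)) := by
        rw [← map_mul, ← map_mul, ← map_mul, ← map_mul]
        congr 1
        ring
      have := LinearMap.congr_fun e g
      rw [Module.End.mul_apply, Module.End.mul_apply, Module.End.mul_apply, Module.End.mul_apply,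
        rho_UU, h2] at this
      exact this
  let ρ' : HA K →+* Module.End ℂ S' :=
    { toFun := fun t => (rho t).restrict (hstab t)
      map_one' := by ext x; rfl
      map_mul' := fun _ _ => by ext x; rfl
      map_zero' := by ext x; rfl
      map_add' := fun _ _ => by ext x; rfl }
  have hρ' : ∀ (t : HA K) (x : S'), ((ρ' t x : S') : CuspForm (Gamma0 K) 2) = rho t x :=
    fun _ _ => rfl
  have hker : RingHom.ker ρ' ≠ ⊤ := by
    intro htop
    have h1 : (1 : HA K) ∈ RingHom.ker ρ' := htop ▸ Submodule.mem_top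
    rw [RingHom.mem_ker, map_one] at h1
    have h2 := LinearMap.congr_fun h1 ⟨f, hfS'⟩
    rw [Module.End.one_apply, LinearMap.zero_apply] at h2
    exact hf (congrArg Subtype.val h2)
  obtain ⟨𝔫, h𝔫max, hle⟩ := Ideal.exists_le_maximal _ hker
  have : 𝔫.IsPrime := h𝔫max.isPrime
  obtain ⟨w, θ, hw, hθ, -⟩ := exists_eigenvector_of_prime ρ' 𝔫
    (fun t ht => hle (RingHom.mem_ker.mpr ht))
  have hw0 : (w : CuspForm (Gamma0 K) 2) ≠ 0 := fun h => hw (Subtype.ext h)
  have hθ' : ∀ t : HA K, rho t (w : CuspForm (Gamma0 K) 2) = θ t • (w : CuspForm (Gamma0 K) 2) := by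
    intro t
    have := congrArg Subtype.val (hθ t)
    rw [hρ'] at this
    exact this
  set lam : ℕ → ℂ := fun p =>
    if hp : p.Prime then (if hpK : p ∣ K then θ (UU hp hpK) else θ (TT hp hpK)) else 0 with hlam
  obtain ⟨g, hg, hgp⟩ := Fermat.Agent.Lib.Helper2.exists_isNormalizedEigenform_of_eigenvector
    (w : CuspForm (Gamma0 K) 2) hw0 lam
    (fun ℓ hℓ hℓK => by
      have := hθ' (TT hℓ hℓK)
      rw [rho_TT] at this
      rw [this, hlam]
      simp only [dif_pos hℓ, dif_neg hℓK])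
    (fun r hr hrK => by
      have := hθ' (UU hr hrK)
      rw [rho_UU] at this
      rw [this, hlam]
      simp only [dif_pos hr, dif_pos hrK])
  obtain ⟨hw1, hw2⟩ := (hS'mem _).mp w.2
  refine ⟨g, hg, fun ℓ hℓ => ?_, ?_⟩
  · rw [hgp ℓ (hG ℓ hℓ).1, hlam]
    simp only [dif_pos (hG ℓ hℓ).1, dif_neg (hG ℓ hℓ).2]
    have h1 := hθ' (TT (hG ℓ hℓ).1 (hG ℓ hℓ).2)
    rw [rho_TT, hw1 ℓ hℓ] at h1
    exact (smul_left_injective ℂ hw0 h1).symm
  · show qCoeff g q ^ 2 = 1
    rw [hgp q hq, hlam]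
    simp only [dif_pos hq, dif_pos hqK]
    have h1 := hθ' (UU hq hqK)
    rw [rho_UU] at h1
    have h2 : (θ (UU hq hqK) ^ 2) • (w : CuspForm (Gamma0 K) 2) = (1 : ℂ) • (w : CuspForm (Gamma0 K) 2) := by
      rw [one_smul, pow_two, mul_smul, ← h1, ← map_smul, ← h1]
      exact hw2
    exact smul_left_injective ℂ hw0 h2

end Fermat.Agent.Lib.S41
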