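import Mathlib

/-!
# Project S41, layer [B] (helper6): Shapiro cocycles on a pointed transitive `G`-set

Generic part (any group `G`, any `G`-set `X`, values in an additive commutative group `A`):
the permutation action `h6c_rho` on functions, cocycles `h6c_IsCoc`, frames `h6c_Frame`
(base point, stabiliser, section), the Shapiro cocycle `h6c_Frame.coc` of an additive character
of the stabiliser, evaluation `h6c_Frame.ev` of a cocycle at the base point, the two comparison
lemmas, the dot product on `X → ℤ`, and the "potential" lemma `h6c_potential`.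
-/

set_option autoImplicit false

namespace Fermat.Agent.Lib.S41

section Rho

variable {G : Type*} [Group G] {X : Type*} [MulAction G X] {A : Type*} [AddCommGroup A]

/-- The permutation action on functions: `(ρ g v) x = v (g⁻¹ • x)`. -/
def h6c_rho (g : G) (v : X → A) : X → A := fun x => v (g⁻¹ • x)

@[simp] theorem h6c_rho_apply (g : G) (v : X → A) (x : X) : h6c_rho g v x = v (g⁻¹ • x) := rfl

theorem h6c_rho_one (v : X → A) : h6c_rho (1 : G) v = v := by
  funext x; simp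

theorem h6c_rho_mul (g h : G) (v : X → A) : h6c_rho (g * h) v = h6c_rho g (h6c_rho h v) := by
  funext x; simp [mul_smul]

theorem h6c_rho_inv_cancel (g : G) (v : X → A) : h6c_rho g⁻¹ (h6c_rho g v) = v := by
  rw [← h6c_rho_mul, inv_mul_cancel, h6c_rho_one]

theorem h6c_rho_cancel_inv (g : G) (v : X → A) : h6c_rho g (h6c_rho g⁻¹ v) = v := by
  rw [← h6c_rho_mul, mul_inv_cancel, h6c_rho_one]

@[simp] theorem h6c_rho_zero (g : G) : h6c_rho g (0 : X → A) = 0 := rfl

theorem h6c_rho_add (g : G) (v w : X → A) : h6c_rho g (v + w) = h6c_rho g v + h6c_rho g w := rfl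

theorem h6c_rho_neg (g : G) (v : X → A) : h6c_rho g (-v) = -h6c_rho g v := rfl

theorem h6c_rho_sub (g : G) (v w : X → A) : h6c_rho g (v - w) = h6c_rho g v - h6c_rho g w := rfl

theorem h6c_rho_zsmul (g : G) (n : ℤ) (v : X → A) : h6c_rho g (n • v) = n • h6c_rho g v := rfl

theorem h6c_rho_sum {ι : Type*} (s : Finset ι) (g : G) (f : ι → X → A) :
    h6c_rho g (∑ i ∈ s, f i) = ∑ i ∈ s, h6c_rho g (f i) := by
  funext x
  simp [Finset.sum_apply]

/-- `ρ g` is trivial when `g` acts trivially. -/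
theorem h6c_rho_of_triv (g : G) (hg : ∀ x : X, g • x = x) (v : X → A) : h6c_rho g v = v := by
  funext x
  have : g⁻¹ • x = x := by rw [inv_smul_eq_iff, hg]
  simp [this]

/-- Cocycles `c : G → (X → A)`: `c (g h) = c g + ρ g (c h)`. -/
def h6c_IsCoc (c : G → X → A) : Prop := ∀ g h, c (g * h) = c g + h6c_rho g (c h)

theorem h6c_IsCoc.one {c : G → X → A} (hc : h6c_IsCoc c) : c 1 = 0 := by
  have h := hc 1 1
  rw [mul_one, h6c_rho_one] at h
  exact left_eq_add.mp h

theorem h6c_IsCoc.inv {c : G → X → A} (hc : h6c_IsCoc c) (g : G) :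
    c g⁻¹ = -h6c_rho g⁻¹ (c g) := by
  have h := hc g⁻¹ g
  rw [inv_mul_cancel, hc.one] at h
  exact eq_neg_of_add_eq_zero_left h.symm

theorem h6c_IsCoc.pow_succ {c : G → X → A} (hc : h6c_IsCoc c) (g : G) (n : ℕ) :
    c (g ^ (n + 1)) = c (g ^ n) + h6c_rho (g ^ n) (c g) := by
  rw [_root_.pow_succ, hc (g ^ n) g]

/-- `c (g ^ n) = ∑_{k<n} ρ (g^k) (c g)`. -/
theorem h6c_IsCoc.pow {c : G → X → A} (hc : h6c_IsCoc c) (g : G) (n : ℕ) :
    c (g ^ n) = ∑ k ∈ Finset.range n, h6c_rho (g ^ k) (c g) := by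
  induction n with
  | zero => simp [hc.one]
  | succ n ih => rw [h6c_IsCoc.pow_succ hc g n, ih, Finset.sum_range_succ]

theorem h6c_IsCoc.add {c c' : G → X → A} (hc : h6c_IsCoc c) (hc' : h6c_IsCoc c') :
    h6c_IsCoc (fun g => c g + c' g) := by
  intro g h
  show c (g * h) + c' (g * h) = c g + c' g + h6c_rho g (c h + c' h)
  rw [hc, hc', h6c_rho_add]; abel

theorem h6c_IsCoc.sub {c c' : G → X → A} (hc : h6c_IsCoc c) (hc' : h6c_IsCoc c') :
    h6c_IsCoc (fun g => c g - c' g) := by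
  intro g h
  show c (g * h) - c' (g * h) = c g - c' g + h6c_rho g (c h - c' h)
  rw [hc, hc', h6c_rho_sub]; abel

theorem h6c_IsCoc.zsmul {c : G → X → A} (hc : h6c_IsCoc c) (n : ℤ) :
    h6c_IsCoc (fun g => n • c g) := by
  intro g h
  show n • c (g * h) = n • c g + h6c_rho g (n • c h)
  rw [hc, h6c_rho_zsmul, smul_add]

/-- The coboundary of a function. -/
def h6c_cob (f : X → A) : G → X → A := fun g => f - h6c_rho g f

theorem h6c_cob_apply (f : X → A) (g : G) (x : X) : h6c_cob f g x = f x - f (g⁻¹ • x) := rfl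

theorem h6c_cob_isCoc (f : X → A) : h6c_IsCoc (h6c_cob (G := G) f) := by
  intro g h
  show f - h6c_rho (g * h) f = f - h6c_rho g f + h6c_rho g (f - h6c_rho h f)
  rw [h6c_rho_mul, h6c_rho_sub]; abel

/-- Two cocycles agreeing on a generating set agree. -/
theorem h6c_IsCoc.ext_of_closure {c c' : G → X → A} (hc : h6c_IsCoc c) (hc' : h6c_IsCoc c')
    (S : Set G) (hS : Subgroup.closure S = ⊤) (h : ∀ s ∈ S, c s = c' s) (g : G) : c g = c' g := by
  have hg : g ∈ Subgroup.closure S := by rw [hS]; exact Subgroup.mem_top g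
  induction hg using Subgroup.closure_induction with
  | mem x hx => exact h x hx
  | one => rw [hc.one, hc'.one]
  | mul x y _ _ hx hy => rw [hc, hc', hx, hy]
  | inv x _ hx => rw [hc.inv, hc'.inv, hx]

end Rho

/-! ### Frames -/

/-- A pointed `G`-set with a section: base point `x0`, its stabiliser `Γ`, and `r x • x0 = x`. -/
structure h6c_Frame (G : Type*) [Group G] (X : Type*) [MulAction G X] where
  Γ : Subgroup G
  x0 : X
  stab : ∀ g : G, g ∈ Γ ↔ g • x0 = x0
  r : X → G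
  hr : ∀ x, r x • x0 = x

namespace h6c_Frame

variable {G : Type*} [Group G] {X : Type*} [MulAction G X] {A : Type*} [AddCommGroup A]
variable (F : h6c_Frame G X)

theorem r_inv_smul (x : X) : (F.r x)⁻¹ • x = F.x0 := by
  rw [inv_smul_eq_iff, F.hr]

theorem cocElem_mem (g : G) (x : X) : (F.r x)⁻¹ * g * F.r (g⁻¹ • x) ∈ F.Γ := by
  rw [F.stab, mul_smul, mul_smul, F.hr, smul_inv_smul, F.r_inv_smul]

/-- The element `r_x⁻¹ g r_{g⁻¹ x}` of the stabiliser. -/
def cocElem (g : G) (x : X) : F.Γ := ⟨(F.r x)⁻¹ * g * F.r (g⁻¹ • x), F.cocElem_mem g x⟩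

theorem cocElem_mul (g h : G) (x : X) :
    F.cocElem (g * h) x = F.cocElem g x * F.cocElem h (g⁻¹ • x) := by
  apply Subtype.ext
  show (F.r x)⁻¹ * (g * h) * F.r ((g * h)⁻¹ • x)
    = (F.r x)⁻¹ * g * F.r (g⁻¹ • x) * ((F.r (g⁻¹ • x))⁻¹ * h * F.r (h⁻¹ • g⁻¹ • x))
  rw [mul_inv_rev, mul_smul]
  group

/-- The Shapiro cocycle of an additive character of the stabiliser. -/
def coc (φ : Additive F.Γ →+ A) (g : G) : X → A := fun x => φ (Additive.ofMul (F.cocElem g x))

theorem coc_apply (φ : Additive F.Γ →+ A) (g : G) (x : X) :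
    F.coc φ g x = φ (Additive.ofMul (F.cocElem g x)) := rfl

theorem coc_isCoc (φ : Additive F.Γ →+ A) : h6c_IsCoc (F.coc φ) := by
  intro g h
  funext x
  show φ (Additive.ofMul (F.cocElem (g * h) x))
    = φ (Additive.ofMul (F.cocElem g x)) + φ (Additive.ofMul (F.cocElem h (g⁻¹ • x)))
  rw [F.cocElem_mul, ofMul_mul, map_add]

theorem coc_add (φ ψ : Additive F.Γ →+ A) (g : G) : F.coc (φ + ψ) g = F.coc φ g + F.coc ψ g := rfl

theorem coc_zsmul (n : ℤ) (φ : Additive F.Γ →+ A) (g : G) : F.coc (n • φ) g = n • F.coc φ g := rfl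

theorem r_x0_mem : F.r F.x0 ∈ F.Γ := by rw [F.stab, F.hr]

/-- Evaluation of a cocycle at the base point: an additive character of the stabiliser. -/
def ev (c : G → X → A) (hc : h6c_IsCoc c) : Additive F.Γ →+ A :=
  AddMonoidHom.mk' (fun γ => c ((Additive.toMul γ : F.Γ) : G) F.x0) (by
    intro γ γ'
    show c (((Additive.toMul γ : F.Γ) : G) * ((Additive.toMul γ' : F.Γ) : G)) F.x0 = _
    rw [hc]
    have h1 : ((Additive.toMul γ : F.Γ) : G)⁻¹ • F.x0 = F.x0 := by
      rw [inv_smul_eq_iff]; exact ((F.stab _).mp (Additive.toMul γ : F.Γ).2).symm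
    show c _ F.x0 + c _ (((Additive.toMul γ : F.Γ) : G)⁻¹ • F.x0) = _
    rw [h1])

theorem ev_apply (c : G → X → A) (hc : h6c_IsCoc c) (γ : F.Γ) :
    F.ev c hc (Additive.ofMul γ) = c (γ : G) F.x0 := rfl

/-- `ev (coc φ) = φ`. -/
theorem ev_coc (φ : Additive F.Γ →+ A) : F.ev (F.coc φ) (F.coc_isCoc φ) = φ := by
  refine AddMonoidHom.ext fun γ' => ?_
  set γ : F.Γ := Additive.toMul γ' with hγ
  show φ (Additive.ofMul (F.cocElem (γ : G) F.x0)) = φ (Additive.ofMul γ)
  have h1 : (γ : G)⁻¹ • F.x0 = F.x0 := by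
    rw [inv_smul_eq_iff]; exact ((F.stab _).mp γ.2).symm
  set r0 : F.Γ := ⟨F.r F.x0, F.r_x0_mem⟩ with hr0
  have h2 : F.cocElem (γ : G) F.x0 = r0⁻¹ * γ * r0 := by
    apply Subtype.ext
    show (F.r F.x0)⁻¹ * (γ : G) * F.r ((γ : G)⁻¹ • F.x0) = (F.r F.x0)⁻¹ * (γ : G) * F.r F.x0
    rw [h1]
  rw [h2, ofMul_mul, ofMul_mul, ofMul_inv, map_add, map_add, map_neg]
  abel

/-- The correcting function in `coc (ev c) = c - cob f`. -/
def corr (c : G → X → A) : X → A := fun x => c (F.r x) x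

/-- `coc (ev c) = c - cob (corr c)`. -/
theorem coc_ev (c : G → X → A) (hc : h6c_IsCoc c) (g : G) :
    F.coc (F.ev c hc) g = c g - h6c_cob (F.corr c) g := by
  funext x
  show c ((F.r x)⁻¹ * g * F.r (g⁻¹ • x)) F.x0 = c g x - (c (F.r x) x - c (F.r (g⁻¹ • x)) (g⁻¹ • x))
  have e1 : (F.r x)⁻¹⁻¹ • F.x0 = x := by rw [inv_inv, F.hr]
  have e2 : ((F.r x)⁻¹ * g)⁻¹ • F.x0 = g⁻¹ • x := by
    rw [mul_inv_rev, inv_inv, mul_smul, F.hr]
  have h1 := congrFun (hc ((F.r x)⁻¹ * g) (F.r (g⁻¹ • x))) F.x0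
  have h2 := congrFun (hc (F.r x)⁻¹ g) F.x0
  have h3 := congrFun (hc.inv (F.r x)) F.x0
  simp only [Pi.add_apply, Pi.neg_apply, h6c_rho_apply] at h1 h2 h3
  rw [e2] at h1
  rw [e1] at h2 h3
  rw [h1, h2, h3]
  abel

end h6c_Frame

/-! ### The dot product on `X → ℤ` -/

section Dot

variable {G : Type*} [Group G] {X : Type*} [MulAction G X] [Fintype X]

/-- The standard dot product on `X → ℤ`. -/
def h6c_dot (v w : X → ℤ) : ℤ := ∑ x, v x * w x

omit [MulAction G X] in
theorem h6c_dot_comm (v w : X → ℤ) : h6c_dot v w = h6c_dot w v := by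
  unfold h6c_dot; exact Finset.sum_congr rfl fun x _ => mul_comm _ _

omit [MulAction G X] in
theorem h6c_dot_add_left (v v' w : X → ℤ) : h6c_dot (v + v') w = h6c_dot v w + h6c_dot v' w := by
  unfold h6c_dot; rw [← Finset.sum_add_distrib]
  exact Finset.sum_congr rfl fun x _ => by simp [add_mul]

omit [MulAction G X] in
theorem h6c_dot_add_right (v w w' : X → ℤ) : h6c_dot v (w + w') = h6c_dot v w + h6c_dot v w' := by
  rw [h6c_dot_comm, h6c_dot_add_left, h6c_dot_comm w, h6c_dot_comm w']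

omit [MulAction G X] in
theorem h6c_dot_neg_left (v w : X → ℤ) : h6c_dot (-v) w = -h6c_dot v w := by
  unfold h6c_dot; rw [← Finset.sum_neg_distrib]
  exact Finset.sum_congr rfl fun x _ => by simp

omit [MulAction G X] in
theorem h6c_dot_neg_right (v w : X → ℤ) : h6c_dot v (-w) = -h6c_dot v w := by
  rw [h6c_dot_comm, h6c_dot_neg_left, h6c_dot_comm]

omit [MulAction G X] in
theorem h6c_dot_sub_left (v v' w : X → ℤ) : h6c_dot (v - v') w = h6c_dot v w - h6c_dot v' w := by
  rw [sub_eq_add_neg, h6c_dot_add_left, h6c_dot_neg_left, sub_eq_add_neg]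

omit [MulAction G X] in
theorem h6c_dot_sub_right (v w w' : X → ℤ) : h6c_dot v (w - w') = h6c_dot v w - h6c_dot v w' := by
  rw [sub_eq_add_neg, h6c_dot_add_right, h6c_dot_neg_right, sub_eq_add_neg]

omit [MulAction G X] in
@[simp] theorem h6c_dot_zero_left (w : X → ℤ) : h6c_dot 0 w = 0 := by
  unfold h6c_dot; simp

omit [MulAction G X] in
@[simp] theorem h6c_dot_zero_right (v : X → ℤ) : h6c_dot v 0 = 0 := by
  unfold h6c_dot; simp

omit [MulAction G X] in
theorem h6c_dot_smul_left (n : ℤ) (v w : X → ℤ) : h6c_dot (n • v) w = n * h6c_dot v w := by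
  unfold h6c_dot; rw [Finset.mul_sum]
  exact Finset.sum_congr rfl fun x _ => by simp [mul_assoc]

omit [MulAction G X] in
theorem h6c_dot_smul_right (n : ℤ) (v w : X → ℤ) : h6c_dot v (n • w) = n * h6c_dot v w := by
  rw [h6c_dot_comm, h6c_dot_smul_left, h6c_dot_comm]

omit [MulAction G X] in
/-- The dot product with a delta function. -/
theorem h6c_dot_single [DecidableEq X] (v : X → ℤ) (x : X) :
    h6c_dot v (Pi.single x 1) = v x := by
  unfold h6c_dot
  rw [Finset.sum_eq_single x]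
  · simp
  · intro y _ hy; simp [Pi.single_eq_of_ne hy]
  · intro h; exact absurd (Finset.mem_univ x) h

theorem h6c_dot_rho (g : G) (v w : X → ℤ) :
    h6c_dot (h6c_rho g v) (h6c_rho g w) = h6c_dot v w := by
  unfold h6c_dot
  exact Equiv.sum_comp (MulAction.toPerm g⁻¹) (fun x => v x * w x)

theorem h6c_dot_rho_left (g : G) (v w : X → ℤ) :
    h6c_dot (h6c_rho g v) w = h6c_dot v (h6c_rho g⁻¹ w) := by
  rw [← h6c_dot_rho g⁻¹, h6c_rho_inv_cancel]

theorem h6c_dot_rho_right (g : G) (v w : X → ℤ) :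
    h6c_dot v (h6c_rho g w) = h6c_dot (h6c_rho g⁻¹ v) w := by
  rw [← h6c_dot_rho g⁻¹, h6c_rho_inv_cancel]

end Dot

/-! ### Potentials -/

section Potential

theorem h6c_sum_shift (a : ℕ → ℤ) (N : ℕ) :
    ∑ k ∈ Finset.range N, (k : ℤ) * a (k + 1) + ∑ k ∈ Finset.range N, a (k + 1)
      = ∑ k ∈ Finset.range N, (k : ℤ) * a k + (N : ℤ) * a N := by
  induction N with
  | zero => simp
  | succ n ih =>
    rw [Finset.sum_range_succ, Finset.sum_range_succ (fun k => a (k + 1)),
      Finset.sum_range_succ (fun k => (k : ℤ) * a k)]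
    push_cast
    linear_combination ih

variable {G : Type*} [Group G] {X : Type*} [MulAction G X]

/-- **Potential lemma**: if `g ^ N` acts trivially and the norm `∑_{k<N} ρ(g^k) v` vanishes, then
`v = v' - ρ(g) v'` for an integral `v'`. -/
theorem h6c_potential (g : G) (N : ℕ) (hN : 0 < N) (hg : ∀ x : X, g ^ N • x = x)
    (v : X → ℤ) (hv : ∑ k ∈ Finset.range N, h6c_rho (g ^ k) v = 0) :
    ∃ v' : X → ℤ, v = v' - h6c_rho g v' := by
  set S : X → ℤ := fun x => ∑ k ∈ Finset.range N, (k : ℤ) * v ((g ^ k)⁻¹ • x) with hS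
  have hN0 : (N : ℤ) ≠ 0 := by exact_mod_cast hN.ne'
  have key : ∀ x, S (g⁻¹ • x) - S x = (N : ℤ) * v x := by
    intro x
    set a : ℕ → ℤ := fun k => v ((g ^ k)⁻¹ • x) with ha
    have h1 : S (g⁻¹ • x) = ∑ k ∈ Finset.range N, (k : ℤ) * a (k + 1) := by
      refine Finset.sum_congr rfl fun k _ => ?_
      show (k : ℤ) * v ((g ^ k)⁻¹ • g⁻¹ • x) = (k : ℤ) * v ((g ^ (k + 1))⁻¹ • x)
      rw [← mul_smul, ← mul_inv_rev, ← pow_succ']
    have h2 : S x = ∑ k ∈ Finset.range N, (k : ℤ) * a k := rfl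
    have h3 : ∑ k ∈ Finset.range N, a k = 0 := by
      have := congrFun hv x
      rw [Finset.sum_apply] at this
      exact this
    have h4 : a N = a 0 := by
      show v ((g ^ N)⁻¹ • x) = v ((g ^ 0)⁻¹ • x)
      rw [pow_zero, inv_one, one_smul]
      congr 1
      rw [inv_smul_eq_iff, hg]
    have h5 : ∑ k ∈ Finset.range N, a (k + 1) = 0 := by
      have h6 := Finset.sum_range_succ a N
      have h7 := Finset.sum_range_succ' a N
      rw [h6] at h7
      linarith
    have h8 := h6c_sum_shift a N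
    have h9 : a 0 = v x := by
      show v ((g ^ 0)⁻¹ • x) = v x
      rw [pow_zero, inv_one, one_smul]
    rw [h1, h2]
    rw [h5, add_zero, h4, h9] at h8
    linarith
  refine ⟨fun x => (-S x) / (N : ℤ), ?_⟩
  funext x
  show v x = (-S x) / (N : ℤ) - (-S (g⁻¹ • x)) / (N : ℤ)
  have h : -S x = -S (g⁻¹ • x) + v x * (N : ℤ) := by
    have := key x; linarith
  rw [h, Int.add_mul_ediv_right _ _ hN0]
  ring

end Potential

end Fermat.Agent.Lib.S41
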