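import Mathlib

/-!
# S41 / layer B0 (helper6): the universal property of `PSL(2,ℤ) = C₂ * C₃`, stated on `SL(2,ℤ)`

`h6p_lift`: for every group `K` and `σ υ : K` with `σ ^ 2 = 1`, `υ ^ 3 = 1` there is a homomorphism
`F : SL(2,ℤ) →* K` with `F S = σ`, `F (S * T) = υ`.  Proof: ping-pong on the upper half plane.
-/

set_option autoImplicit false

noncomputable section

namespace Fermat.Agent.Lib.S41

open UpperHalfPlane ModularGroup Monoid
open scoped MatrixGroups Pointwise

/-- The homomorphism `C_n → K` attached to an element of order dividing `n`. -/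
def h6p_cyc (n : ℕ) {K : Type*} [Group K] (k : K) (hk : k ^ n = 1) :
    Multiplicative (ZMod n) →* K :=
  AddMonoidHom.toMultiplicativeLeft
    (ZMod.lift n ⟨zmultiplesHom (Additive K) (Additive.ofMul k), by
      rw [zmultiplesHom_apply, natCast_zsmul, ← ofMul_pow, hk, ofMul_one]⟩)

theorem h6p_cyc_apply (n : ℕ) {K : Type*} [Group K] (k : K) (hk : k ^ n = 1) (j : ℤ) :
    h6p_cyc n k hk (Multiplicative.ofAdd (j : ZMod n)) = k ^ j := by
  unfold h6p_cyc
  rw [AddMonoidHom.coe_toMultiplicativeLeft]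
  simp only [Function.comp_apply, toAdd_ofAdd, ZMod.lift_coe, zmultiplesHom_apply]
  rw [← ofMul_zpow, toMul_ofMul]

theorem h6p_cyc_one (n : ℕ) {K : Type*} [Group K] (k : K) (hk : k ^ n = 1) :
    h6p_cyc n k hk (Multiplicative.ofAdd (1 : ZMod n)) = k := by
  have := h6p_cyc_apply n k hk 1
  simpa using this


/-! ### The two generators acting on the upper half plane -/

/-- `U = S T`, of order `3` modulo `±1`. -/
abbrev h6p_U : SL(2, ℤ) := ModularGroup.S * ModularGroup.T

theorem h6p_S_sq : (ModularGroup.S : SL(2, ℤ)) ^ 2 = -1 := by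
  ext i j; fin_cases i <;> fin_cases j <;> simp [ModularGroup.S, pow_two]

theorem h6p_U_cube : h6p_U ^ 3 = -1 := by
  ext i j; fin_cases i <;> fin_cases j <;>
    simp [h6p_U, ModularGroup.S, ModularGroup.T, pow_succ, Matrix.mul_apply, Fin.sum_univ_two]

/-- The permutation of `ℍ` induced by an element of `SL(2,ℤ)`. -/
def h6p_perm : SL(2, ℤ) →* Equiv.Perm ℍ := MulAction.toPermHom SL(2, ℤ) ℍ

theorem h6p_perm_apply (g : SL(2, ℤ)) (z : ℍ) : h6p_perm g z = g • z := rfl

theorem h6p_perm_neg_one : h6p_perm (-1) = 1 := by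
  ext1 z
  rw [h6p_perm_apply, Equiv.Perm.one_apply]
  have := ModularGroup.SL_neg_smul (1 : SL(2, ℤ)) z
  rw [one_smul] at this
  exact this

theorem h6p_permS_sq : h6p_perm ModularGroup.S ^ 2 = 1 := by
  rw [← map_pow, h6p_S_sq, h6p_perm_neg_one]

theorem h6p_permU_cube : h6p_perm h6p_U ^ 3 = 1 := by
  rw [← map_pow, h6p_U_cube, h6p_perm_neg_one]

theorem h6p_re_S_smul (z : ℍ) : (ModularGroup.S • z).re = -z.re / Complex.normSq (z : ℂ) := by
  rw [UpperHalfPlane.modular_S_smul]
  show ((-(z : ℂ))⁻¹).re = _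
  rw [Complex.inv_re, Complex.normSq_neg, Complex.neg_re]
  rfl

theorem h6p_re_T_smul (z : ℍ) : (ModularGroup.T • z).re = z.re + 1 := by
  rw [UpperHalfPlane.modular_T_smul]
  simp [add_comm]

theorem h6p_normSq_pos (z : ℍ) : 0 < Complex.normSq (z : ℂ) :=
  Complex.normSq_pos.mpr (UpperHalfPlane.ne_zero z)

theorem h6p_re_U_smul (z : ℍ) :
    (h6p_U • z).re = -(z.re + 1) / Complex.normSq ((ModularGroup.T • z : ℍ) : ℂ) := by
  rw [h6p_U, mul_smul, h6p_re_S_smul, h6p_re_T_smul]


/-! ### Ping-pong -/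

/-- The two cyclic factors: `C₂` (index `false`) and `C₃` (index `true`). -/
abbrev h6p_H (b : Bool) : Type := Multiplicative (ZMod (cond b 3 2))

/-- The two generators as permutations of `ℍ`. -/
def h6p_gen (b : Bool) : Equiv.Perm ℍ := cond b (h6p_perm h6p_U) (h6p_perm ModularGroup.S)

theorem h6p_gen_pow (b : Bool) : h6p_gen b ^ (cond b 3 2) = 1 := by
  cases b
  · exact h6p_permS_sq
  · exact h6p_permU_cube

/-- The maps of the factors to `Perm ℍ`. -/
def h6p_f (b : Bool) : h6p_H b →* Equiv.Perm ℍ := h6p_cyc _ (h6p_gen b) (h6p_gen_pow b)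

/-- The ping-pong sets: right half plane for `C₂`, left half plane for `C₃`. -/
def h6p_X (b : Bool) : Set ℍ := cond b {z | z.re < 0} {z | 0 < z.re}

theorem h6p_S_maps (z : ℍ) (hz : z.re < 0) : 0 < (ModularGroup.S • z).re := by
  rw [h6p_re_S_smul]
  exact div_pos (by linarith) (h6p_normSq_pos z)

theorem h6p_U_maps (z : ℍ) (hz : 0 < z.re) : (h6p_U • z).re < 0 := by
  rw [h6p_re_U_smul]
  exact div_neg_of_neg_of_pos (by linarith) (h6p_normSq_pos _)

theorem h6p_U_sq_maps (z : ℍ) (hz : 0 < z.re) : (h6p_U ^ 2 • z).re < 0 := by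
  -- `U² = (U)⁻¹` up to sign, and `U⁻¹ = T⁻¹ S⁻¹`; compute directly: `U² • z = -1 - 1/z`
  have h1 : h6p_U ^ 2 = ModularGroup.T⁻¹ * ModularGroup.S := by
    ext i j; fin_cases i <;> fin_cases j <;>
      simp [h6p_U, ModularGroup.S, ModularGroup.T, pow_two, Matrix.mul_apply, Fin.sum_univ_two,
        Matrix.SpecialLinearGroup.coe_inv, Matrix.adjugate_fin_two]
  rw [h1, mul_smul]
  have h2 : (ModularGroup.T⁻¹ • (ModularGroup.S • z)).re = (ModularGroup.S • z).re - 1 := by
    have := UpperHalfPlane.modular_T_zpow_smul (ModularGroup.S • z) (-1)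
    rw [zpow_neg_one] at this
    rw [this]
    simp [sub_eq_neg_add]
  rw [h2, h6p_re_S_smul]
  have : -z.re / Complex.normSq (z : ℂ) < 0 :=
    div_neg_of_neg_of_pos (by linarith) (h6p_normSq_pos z)
  linarith


theorem h6p_zmod2_cases (h : Multiplicative (ZMod 2)) (hne : h ≠ 1) :
    h = Multiplicative.ofAdd (1 : ZMod 2) := by
  have key : ∀ a : ZMod 2, Multiplicative.ofAdd a ≠ 1 → a = 1 := by decide
  have := key (Multiplicative.toAdd h) hne
  rw [← this]; rfl

theorem h6p_zmod3_cases (h : Multiplicative (ZMod 3)) (hne : h ≠ 1) :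
    h = Multiplicative.ofAdd (1 : ZMod 3) ∨ h = Multiplicative.ofAdd ((2 : ℤ) : ZMod 3) := by
  have key : ∀ a : ZMod 3, Multiplicative.ofAdd a ≠ 1 → a = 1 ∨ a = ((2 : ℤ) : ZMod 3) := by decide
  rcases key (Multiplicative.toAdd h) hne with h1 | h1
  · left; rw [← h1]; rfl
  · right; rw [← h1]; rfl

theorem h6p_f_false_one :
    h6p_f false (Multiplicative.ofAdd (1 : ZMod 2)) = h6p_perm ModularGroup.S :=
  h6p_cyc_one _ _ _

theorem h6p_f_true_one :
    h6p_f true (Multiplicative.ofAdd (1 : ZMod 3)) = h6p_perm h6p_U :=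
  h6p_cyc_one _ _ _

theorem h6p_f_true_two :
    h6p_f true (Multiplicative.ofAdd ((2 : ℤ) : ZMod 3)) = h6p_perm (h6p_U ^ 2) := by
  have := h6p_cyc_apply 3 (h6p_gen true) (h6p_gen_pow true) 2
  rw [map_pow]
  exact this

theorem h6p_pingpong : Pairwise fun i j => ∀ h : h6p_H i, h ≠ 1 → h6p_f i h • h6p_X j ⊆ h6p_X i := by
  intro i j hij h hne
  cases i <;> cases j
  · exact absurd rfl hij
  · -- `C₂` maps the left half plane into the right half plane
    rw [h6p_zmod2_cases h hne]
    erw [h6p_f_false_one]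
    rintro _ ⟨z, hz, rfl⟩
    exact h6p_S_maps z hz
  · rcases h6p_zmod3_cases h hne with rfl | rfl
    · rw [h6p_f_true_one]
      rintro _ ⟨z, hz, rfl⟩
      exact h6p_U_maps z hz
    · rw [h6p_f_true_two]
      rintro _ ⟨z, hz, rfl⟩
      exact h6p_U_sq_maps z hz
  · exact absurd rfl hij

theorem h6p_lift_injective : Function.Injective (CoprodI.lift h6p_f) := by
  refine CoprodI.lift_injective_of_ping_pong h6p_f (Or.inr ⟨true, ?_⟩) h6p_X ?_ ?_ h6p_pingpong
  · show (3 : Cardinal) ≤ Cardinal.mk (Multiplicative (ZMod 3))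
    rw [Cardinal.mk_fintype]
    have : Fintype.card (Multiplicative (ZMod 3)) = 3 := by
      rw [Fintype.card_multiplicative, ZMod.card]
    rw [this]
    norm_num
  · intro b
    cases b
    · exact ⟨⟨⟨1, 1⟩, by norm_num⟩, by show (0 : ℝ) < 1; norm_num⟩
    · exact ⟨⟨⟨-1, 1⟩, by norm_num⟩, by show (-1 : ℝ) < 0; norm_num⟩
  · intro i j hij
    cases i <;> cases j
    · exact absurd rfl hij
    · rw [Function.onFun, Set.disjoint_left]
      intro z h1 h2
      have h1' : 0 < z.re := h1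
      have h2' : z.re < 0 := h2
      linarith
    · rw [Function.onFun, Set.disjoint_left]
      intro z h1 h2
      have h1' : z.re < 0 := h1
      have h2' : 0 < z.re := h2
      linarith
    · exact absurd rfl hij


/-! ### The universal property -/

theorem h6p_perm_mem_range (g : SL(2, ℤ)) : h6p_perm g ∈ (CoprodI.lift h6p_f).range := by
  have hS : h6p_perm ModularGroup.S ∈ (CoprodI.lift h6p_f).range :=
    ⟨CoprodI.of (i := false) (Multiplicative.ofAdd (1 : ZMod 2)), by
      rw [CoprodI.lift_of]; exact h6p_f_false_one⟩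
  have hU : h6p_perm h6p_U ∈ (CoprodI.lift h6p_f).range :=
    ⟨CoprodI.of (i := true) (Multiplicative.ofAdd (1 : ZMod 3)), by
      rw [CoprodI.lift_of]; exact h6p_f_true_one⟩
  have hT : h6p_perm ModularGroup.T ∈ (CoprodI.lift h6p_f).range := by
    have : ModularGroup.T = ModularGroup.S⁻¹ * h6p_U := by
      rw [h6p_U, inv_mul_cancel_left]
    rw [this, map_mul, map_inv]
    exact Subgroup.mul_mem _ (Subgroup.inv_mem _ hS) hU
  have hle : Subgroup.closure ({ModularGroup.S, ModularGroup.T} : Set SL(2, ℤ))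
      ≤ (CoprodI.lift h6p_f).range.comap h6p_perm := by
    rw [Subgroup.closure_le]
    rintro x (rfl | rfl)
    · exact hS
    · exact hT
  rw [SpecialLinearGroup.SL2Z_generators] at hle
  exact hle (Subgroup.mem_top g)

/-- **Universal property of `PSL(2,ℤ) = C₂ * C₃`**, stated on `SL(2,ℤ)`. -/
theorem h6p_lift {K : Type*} [Group K] (σ υ : K) (hσ : σ ^ 2 = 1) (hυ : υ ^ 3 = 1) :
    ∃ F : SL(2, ℤ) →* K, F ModularGroup.S = σ ∧ F (ModularGroup.S * ModularGroup.T) = υ := by
  classical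
  let e := MonoidHom.ofInjective h6p_lift_injective
  let r : SL(2, ℤ) →* (CoprodI.lift h6p_f).range :=
    MonoidHom.codRestrict h6p_perm _ h6p_perm_mem_range
  let gK : ∀ b : Bool, h6p_H b →* K := fun b =>
    h6p_cyc _ (cond b υ σ) (by cases b; exact hσ; exact hυ)
  refine ⟨(CoprodI.lift gK).comp (e.symm.toMonoidHom.comp r), ?_, ?_⟩
  · have h1 : e.symm (r ModularGroup.S)
        = CoprodI.of (i := false) (Multiplicative.ofAdd (1 : ZMod 2)) := by
      rw [MulEquiv.symm_apply_eq]
      apply Subtype.ext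
      show h6p_perm ModularGroup.S = CoprodI.lift h6p_f (CoprodI.of _)
      rw [CoprodI.lift_of]; exact h6p_f_false_one.symm
    show CoprodI.lift gK (e.symm (r ModularGroup.S)) = σ
    rw [h1, CoprodI.lift_of]
    exact h6p_cyc_one _ _ _
  · have h1 : e.symm (r (ModularGroup.S * ModularGroup.T))
        = CoprodI.of (i := true) (Multiplicative.ofAdd (1 : ZMod 3)) := by
      rw [MulEquiv.symm_apply_eq]
      apply Subtype.ext
      show h6p_perm h6p_U = CoprodI.lift h6p_f (CoprodI.of _)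
      rw [CoprodI.lift_of]; exact h6p_f_true_one.symm
    show CoprodI.lift gK (e.symm (r (ModularGroup.S * ModularGroup.T))) = υ
    rw [h1, CoprodI.lift_of]
    exact h6p_cyc_one _ _ _

end Fermat.Agent.Lib.S41
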