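import Fermat.Agent.Lib.S41.H6Coc
import Fermat.Agent.Lib.S41.H6Pres

/-!
# Project S41, layer [B] (helper6): cocycles of `SL(2,ℤ)` with prescribed values on `S`, `U = ST`

Existence (`h6c_exists_coc`, from the universal property `h6p_lift` applied to the group of
affine permutations of `X → A`) and uniqueness (`h6c_coc_ext`).
-/

set_option autoImplicit false

open scoped MatrixGroups

namespace Fermat.Agent.Lib.S41

section Aff

variable {G : Type*} [Group G] {X : Type*} [MulAction G X] {A : Type*} [AddCommGroup A]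

/-- The affine permutation `v ↦ ρ g v + w` of `X → A`. -/
def h6c_aff (g : G) (w : X → A) : Equiv.Perm (X → A) where
  toFun v := h6c_rho g v + w
  invFun v := h6c_rho g⁻¹ (v - w)
  left_inv v := by
    show h6c_rho g⁻¹ (h6c_rho g v + w - w) = v
    rw [add_sub_cancel_right, h6c_rho_inv_cancel]
  right_inv v := by
    show h6c_rho g (h6c_rho g⁻¹ (v - w)) + w = v
    rw [h6c_rho_cancel_inv, sub_add_cancel]

theorem h6c_aff_apply (g : G) (w v : X → A) : h6c_aff g w v = h6c_rho g v + w := rfl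

theorem h6c_aff_mul (g h : G) (w w' : X → A) :
    h6c_aff g w * h6c_aff h w' = h6c_aff (g * h) (h6c_rho g w' + w) := by
  ext1 v
  show h6c_rho g (h6c_rho h v + w') + w = h6c_rho (g * h) v + (h6c_rho g w' + w)
  rw [h6c_rho_add, h6c_rho_mul, add_assoc]

end Aff

theorem h6c_closure_S_U :
    Subgroup.closure ({ModularGroup.S, h6p_U} : Set SL(2, ℤ)) = ⊤ := by
  rw [eq_top_iff, ← SpecialLinearGroup.SL2Z_generators, Subgroup.closure_le]
  rintro x (rfl | rfl)
  · exact Subgroup.subset_closure (Set.mem_insert _ _)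
  · have hT : ModularGroup.T = ModularGroup.S⁻¹ * h6p_U := by
      rw [h6p_U, inv_mul_cancel_left]
    rw [hT]
    exact Subgroup.mul_mem _ (Subgroup.inv_mem _ (Subgroup.subset_closure (Set.mem_insert _ _)))
      (Subgroup.subset_closure (Set.mem_insert_of_mem _ rfl))

section SL

variable {X : Type*} [MulAction SL(2, ℤ) X] {A : Type*} [AddCommGroup A]

/-- Uniqueness: cocycles of `SL(2,ℤ)` agreeing on `S` and `U` agree. -/
theorem h6c_coc_ext {c c' : SL(2, ℤ) → X → A} (hc : h6c_IsCoc c) (hc' : h6c_IsCoc c')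
    (hS : c ModularGroup.S = c' ModularGroup.S) (hU : c h6p_U = c' h6p_U) (g : SL(2, ℤ)) :
    c g = c' g := by
  refine hc.ext_of_closure hc' _ h6c_closure_S_U ?_ g
  rintro s (rfl | rfl)
  · exact hS
  · exact hU

/-- A cocycle vanishes on `-1` when `-1` acts trivially on `X` and `A` has no `2`-torsion. -/
theorem h6c_coc_neg_one (hneg : ∀ x : X, (-1 : SL(2, ℤ)) • x = x)
    (h2 : ∀ a : A, a + a = 0 → a = 0) {c : SL(2, ℤ) → X → A} (hc : h6c_IsCoc c) :
    c (-1) = 0 := by
  have h := hc (-1) (-1)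
  rw [neg_mul_neg, one_mul, hc.one, h6c_rho_of_triv _ hneg] at h
  funext x
  exact h2 _ (congrFun h x).symm

/-- **Existence** of a cocycle with prescribed values on `S` and `U`. -/
theorem h6c_exists_coc (hneg : ∀ x : X, (-1 : SL(2, ℤ)) • x = x) (a b : X → A)
    (ha : a + h6c_rho ModularGroup.S a = 0)
    (hb : b + h6c_rho h6p_U b + h6c_rho (h6p_U ^ 2) b = 0) :
    ∃ c : SL(2, ℤ) → X → A, h6c_IsCoc c ∧ c ModularGroup.S = a ∧ c h6p_U = b := by
  have hσ : (h6c_aff ModularGroup.S a) ^ 2 = 1 := by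
    rw [pow_two, h6c_aff_mul, ← pow_two, h6p_S_sq]
    ext1 v
    rw [h6c_aff_apply, h6c_rho_of_triv _ hneg, add_comm (h6c_rho _ a), ha, add_zero]
    rfl
  have hυ : (h6c_aff h6p_U b) ^ 3 = 1 := by
    rw [pow_succ, pow_two, h6c_aff_mul, h6c_aff_mul, ← pow_two, ← pow_succ, h6p_U_cube]
    ext1 v
    rw [h6c_aff_apply, h6c_rho_of_triv _ hneg]
    have : h6c_rho (h6p_U ^ 2) b + (h6c_rho h6p_U b + b) = 0 := by
      rw [← hb]; abel
    rw [this, add_zero]
    rfl
  obtain ⟨Φ, hΦS, hΦU⟩ := h6p_lift _ _ hσ hυ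
  -- every `Φ g` is affine with linear part `ρ g`
  have haff : ∀ g : SL(2, ℤ), ∃ w : X → A, Φ g = h6c_aff g w := by
    intro g
    have hg : g ∈ Subgroup.closure ({ModularGroup.S, h6p_U} : Set SL(2, ℤ)) := by
      rw [h6c_closure_S_U]; exact Subgroup.mem_top g
    induction hg using Subgroup.closure_induction with
    | mem x hx =>
      rcases hx with rfl | rfl
      · exact ⟨a, hΦS⟩
      · exact ⟨b, hΦU⟩
    | one =>
      refine ⟨0, ?_⟩
      rw [map_one]
      ext1 v
      rw [h6c_aff_apply, h6c_rho_one, add_zero]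
      rfl
    | mul x y _ _ hx hy =>
      obtain ⟨w, hw⟩ := hx
      obtain ⟨w', hw'⟩ := hy
      exact ⟨_, by rw [map_mul, hw, hw', h6c_aff_mul]⟩
    | inv x _ hx =>
      obtain ⟨w, hw⟩ := hx
      refine ⟨-h6c_rho x⁻¹ w, ?_⟩
      rw [map_inv, hw, inv_eq_iff_mul_eq_one, h6c_aff_mul, mul_inv_cancel]
      ext1 v
      rw [h6c_aff_apply, h6c_rho_one, h6c_rho_neg, h6c_rho_cancel_inv, neg_add_cancel, add_zero]
      rfl
  have hform : ∀ g : SL(2, ℤ), Φ g = h6c_aff g (Φ g 0) := by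
    intro g
    obtain ⟨w, hw⟩ := haff g
    have : Φ g 0 = w := by rw [hw, h6c_aff_apply, h6c_rho_zero, zero_add]
    rw [this]; exact hw
  refine ⟨fun g => Φ g 0, ?_, ?_, ?_⟩
  · intro g h
    show Φ (g * h) 0 = Φ g 0 + h6c_rho g (Φ h 0)
    rw [map_mul, Equiv.Perm.mul_apply]
    conv_lhs => rw [hform g]
    rw [h6c_aff_apply, add_comm]
  · show Φ ModularGroup.S 0 = a
    rw [hΦS, h6c_aff_apply, h6c_rho_zero, zero_add]
  · show Φ h6p_U 0 = b
    rw [hΦU, h6c_aff_apply, h6c_rho_zero, zero_add]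

end SL

end Fermat.Agent.Lib.S41
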