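import Fermat.Agent.Lib.S41.H6CocSL

/-!
# Project S41, layer [B] (helper6): the integral pairing on parabolic cocycles of `SL(2,ℤ)`

`X` a finite `SL(2,ℤ)`-set on which `-1` acts trivially, `V = X → ℤ`.  For cocycles `c, c'` with
`c T = v - ρ T v`, `c' S = a - ρ S a`, `c' U = b - ρ U b` the value
`h6q_val c v a b = ⟨c S - (v - ρ S v), a - b⟩`; it does not depend on the witnesses `v, a, b`
as soon as `c' T` is also a `T`-coboundary (`h6q_val_indep`).
-/

set_option autoImplicit false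

open scoped MatrixGroups

namespace Fermat.Agent.Lib.S41

local notation "sS" => (ModularGroup.S : SL(2, ℤ))
local notation "sT" => (ModularGroup.T : SL(2, ℤ))
local notation "sU" => (h6p_U : SL(2, ℤ))

theorem h6q_U_eq : sU = sS * sT := rfl

theorem h6q_T_eq : sT = sS⁻¹ * sU := by rw [h6q_U_eq, inv_mul_cancel_left]

section RhoSU

variable {X : Type*} [MulAction SL(2, ℤ) X] {A : Type*} [AddCommGroup A]
variable (hneg : ∀ x : X, (-1 : SL(2, ℤ)) • x = x)
include hneg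

theorem h6q_rhoS_rhoS (v : X → A) : h6c_rho sS (h6c_rho sS v) = v := by
  rw [← h6c_rho_mul, ← pow_two, h6p_S_sq, h6c_rho_of_triv _ hneg]

theorem h6q_rhoS_inv (v : X → A) : h6c_rho sS⁻¹ v = h6c_rho sS v := by
  have h := h6c_rho_inv_cancel sS (h6c_rho sS v)
  rw [h6q_rhoS_rhoS hneg] at h
  exact h

theorem h6q_rhoU_cube (v : X → A) : h6c_rho sU (h6c_rho sU (h6c_rho sU v)) = v := by
  rw [← h6c_rho_mul, ← h6c_rho_mul, ← pow_two, ← pow_succ, h6p_U_cube, h6c_rho_of_triv _ hneg]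

theorem h6q_rhoU_inv (v : X → A) : h6c_rho sU⁻¹ v = h6c_rho sU (h6c_rho sU v) := by
  have h := h6c_rho_inv_cancel sU (h6c_rho sU (h6c_rho sU v))
  rw [h6q_rhoU_cube hneg] at h
  exact h

theorem h6q_rhoU_eq (v : X → A) : h6c_rho sU v = h6c_rho sS (h6c_rho sT v) := by
  rw [← h6c_rho_mul]

end RhoSU

section CocZ

variable {X : Type*} [MulAction SL(2, ℤ) X]
variable (hneg : ∀ x : X, (-1 : SL(2, ℤ)) • x = x)
variable {c : SL(2, ℤ) → X → ℤ} (hc : h6c_IsCoc c)
include hneg hc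

theorem h6q_c_neg_one : c (-1) = 0 :=
  h6c_coc_neg_one hneg (fun a h => by omega) hc

theorem h6q_cS_anti : c sS + h6c_rho sS (c sS) = 0 := by
  rw [← hc, ← pow_two, h6p_S_sq, h6q_c_neg_one hneg hc]

theorem h6q_cU_norm : c sU + h6c_rho sU (c sU) + h6c_rho (sU ^ 2) (c sU) = 0 := by
  have h := h6c_IsCoc.pow hc sU 3
  rw [h6p_U_cube, h6q_c_neg_one hneg hc] at h
  rw [Finset.sum_range_succ, Finset.sum_range_succ, Finset.sum_range_one, pow_zero, h6c_rho_one,
    pow_one] at h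
  exact h.symm

theorem h6q_cU_eq : c sU = c sS + h6c_rho sS (c sT) := by
  rw [h6q_U_eq, hc]

theorem h6q_exists_a : ∃ a : X → ℤ, c sS = a - h6c_rho sS a := by
  refine h6c_potential sS 2 (by norm_num) (fun x => ?_) (c sS) ?_
  · rw [h6p_S_sq, hneg]
  · rw [Finset.sum_range_succ, Finset.sum_range_one, pow_zero, h6c_rho_one, pow_one]
    exact h6q_cS_anti hneg hc

theorem h6q_exists_b : ∃ b : X → ℤ, c sU = b - h6c_rho sU b := by
  refine h6c_potential sU 3 (by norm_num) (fun x => ?_) (c sU) ?_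
  · rw [h6p_U_cube, hneg]
  · rw [Finset.sum_range_succ, Finset.sum_range_succ, Finset.sum_range_one, pow_zero, h6c_rho_one,
      pow_one]
    exact h6q_cU_norm hneg hc

end CocZ

/-! ### The value and its independence of the witnesses -/

section Val

variable {X : Type*} [MulAction SL(2, ℤ) X] [Fintype X]

/-- `w = c S - (v - ρ S v)`. -/
def h6q_w (c : SL(2, ℤ) → X → ℤ) (v : X → ℤ) : X → ℤ := c sS - (v - h6c_rho sS v)

/-- The value of the pairing computed with witnesses `v, a, b`. -/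
def h6q_val (c : SL(2, ℤ) → X → ℤ) (v a b : X → ℤ) : ℤ := h6c_dot (h6q_w c v) (a - b)

variable (hneg : ∀ x : X, (-1 : SL(2, ℤ)) • x = x)
variable {c : SL(2, ℤ) → X → ℤ} (hc : h6c_IsCoc c)
include hneg hc

omit [Fintype X] in
theorem h6q_w_anti (v : X → ℤ) : h6q_w c v + h6c_rho sS (h6q_w c v) = 0 := by
  unfold h6q_w
  rw [h6c_rho_sub, h6c_rho_sub, h6q_rhoS_rhoS hneg]
  have := h6q_cS_anti hneg hc
  rw [← this]; abel

omit [Fintype X] in
theorem h6q_w_eq_U {v : X → ℤ} (hv : c sT = v - h6c_rho sT v) :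
    h6q_w c v = c sU - (v - h6c_rho sU v) := by
  unfold h6q_w
  rw [h6q_cU_eq hneg hc, hv, h6c_rho_sub, ← h6q_rhoU_eq hneg]
  abel

omit [Fintype X] in
theorem h6q_w_normU {v : X → ℤ} (hv : c sT = v - h6c_rho sT v) :
    h6q_w c v + h6c_rho sU (h6q_w c v) + h6c_rho sU (h6c_rho sU (h6q_w c v)) = 0 := by
  rw [h6q_w_eq_U hneg hc hv]
  simp only [h6c_rho_sub]
  rw [h6q_rhoU_cube hneg]
  have := h6q_cU_norm hneg hc
  rw [pow_two, h6c_rho_mul h6p_U h6p_U] at this
  rw [← this]; abel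

/-- `w ⊥` every `S`-invariant function. -/
theorem h6q_w_dot_invS (v z : X → ℤ) (hz : h6c_rho sS z = z) : h6c_dot (h6q_w c v) z = 0 := by
  have h1 : h6c_dot (h6c_rho sS (h6q_w c v)) (h6c_rho sS z) = h6c_dot (h6q_w c v) z :=
    h6c_dot_rho sS _ _
  have h2 : h6c_rho sS (h6q_w c v) = -h6q_w c v :=
    eq_neg_of_add_eq_zero_right (h6q_w_anti hneg hc v)
  rw [h2, hz, h6c_dot_neg_left] at h1
  omega

/-- `w ⊥` every `U`-invariant function. -/
theorem h6q_w_dot_invU {v : X → ℤ} (hv : c sT = v - h6c_rho sT v) (z : X → ℤ)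
    (hz : h6c_rho sU z = z) : h6c_dot (h6q_w c v) z = 0 := by
  have h1 : h6c_dot (h6c_rho sU (h6q_w c v)) z = h6c_dot (h6q_w c v) z := by
    conv_lhs => rw [← hz]
    exact h6c_dot_rho sU _ _
  have h2 : h6c_dot (h6c_rho sU (h6c_rho sU (h6q_w c v))) z = h6c_dot (h6q_w c v) z := by
    conv_lhs => rw [← hz, h6c_dot_rho]
    exact h1
  have h3 := congrArg (fun f => h6c_dot f z) (h6q_w_normU hneg hc hv)
  simp only [h6c_dot_add_left, h6c_dot_zero_left] at h3
  rw [h1, h2] at h3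
  omega

end Val

theorem h6q_inv_of_eq {G : Type*} [Group G] {X : Type*} [MulAction G X] (g : G) {a a' z : X → ℤ}
    (h1 : z = a - h6c_rho g a) (h2 : z = a' - h6c_rho g a') :
    h6c_rho g (a - a') = a - a' := by
  funext x
  have h := congrFun (h1.symm.trans h2) x
  simp only [Pi.sub_apply, h6c_rho_apply] at h ⊢
  omega

section Indep

variable {X : Type*} [MulAction SL(2, ℤ) X] [Fintype X]
variable (hneg : ∀ x : X, (-1 : SL(2, ℤ)) • x = x)
include hneg

/-- The boundary term: for a `T`-invariant `v0`, `⟨v0 - ρ S v0, a - b⟩ = ⟨v0, c' T⟩`. -/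
theorem h6q_bdry_dot {c' : SL(2, ℤ) → X → ℤ} (hc' : h6c_IsCoc c') {a b : X → ℤ}
    (ha : c' sS = a - h6c_rho sS a) (hb : c' sU = b - h6c_rho sU b) (v0 : X → ℤ)
    (hv0 : h6c_rho sT v0 = v0) :
    h6c_dot (v0 - h6c_rho sS v0) (a - b) = h6c_dot v0 (c' sT) := by
  have hSU : h6c_rho sS v0 = h6c_rho sU v0 := by rw [h6q_rhoU_eq hneg, hv0]
  -- `c' T = ρ S (c' U - c' S)`
  have hT : c' sT = h6c_rho sS (c' sU - c' sS) := by
    have h := h6q_cU_eq hneg hc'
    rw [h, add_sub_cancel_left, h6q_rhoS_rhoS hneg]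
  have e1 : h6c_dot (h6c_rho sS v0) a = h6c_dot v0 (h6c_rho sS a) := by
    rw [h6c_dot_rho_left, h6q_rhoS_inv hneg]
  have e2 : h6c_dot (h6c_rho sS v0) b = h6c_dot v0 (h6c_rho sU (h6c_rho sU b)) := by
    rw [hSU, h6c_dot_rho_left, h6q_rhoU_inv hneg]
  have e3 : h6c_dot v0 (h6c_rho sS b) = h6c_dot v0 (h6c_rho sU (h6c_rho sU b)) := by
    rw [h6c_dot_rho_right, h6q_rhoS_inv hneg, e2]
  have e4 : h6c_dot v0 (h6c_rho sS (h6c_rho sU b)) = h6c_dot v0 b := by
    rw [h6c_dot_rho_right, h6q_rhoS_inv hneg, hSU, h6c_dot_rho]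
  rw [hT, hb, ha]
  simp only [h6c_rho_sub, h6c_dot_sub_left, h6c_dot_sub_right, h6q_rhoS_rhoS hneg]
  rw [e1, e2, e3, e4]
  ring

variable {c c' : SL(2, ℤ) → X → ℤ} (hc : h6c_IsCoc c) (hc' : h6c_IsCoc c')
include hc hc'

/-- **Independence of the witnesses.** -/
theorem h6q_val_indep {v v' a a' b b' v'' : X → ℤ}
    (hv : c sT = v - h6c_rho sT v) (hv' : c sT = v' - h6c_rho sT v')
    (ha : c' sS = a - h6c_rho sS a) (ha' : c' sS = a' - h6c_rho sS a')
    (hb : c' sU = b - h6c_rho sU b) (hb' : c' sU = b' - h6c_rho sU b')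
    (hv'' : c' sT = v'' - h6c_rho sT v'') :
    h6q_val c v a b = h6q_val c v' a' b' := by
  -- step 1: change `a, b`
  have s1 : h6q_val c v a b = h6q_val c v a' b' := by
    unfold h6q_val
    have hza : h6c_rho sS (a - a') = a - a' := h6q_inv_of_eq sS ha ha'
    have hzb : h6c_rho sU (b - b') = b - b' := h6q_inv_of_eq sU hb hb'
    have h1 := h6q_w_dot_invS hneg hc v (a - a') hza
    have h2 := h6q_w_dot_invU hneg hc hv (b - b') hzb
    have h3 : a - b = (a' - b') + ((a - a') - (b - b')) := by abel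
    rw [h3, h6c_dot_add_right, h6c_dot_sub_right _ (a - a') (b - b'), h1, h2]
    ring
  -- step 2: change `v`
  have s2 : h6q_val c v a' b' = h6q_val c v' a' b' := by
    unfold h6q_val
    set v0 : X → ℤ := v - v' with hv0
    have hinv : h6c_rho sT v0 = v0 := h6q_inv_of_eq sT hv hv'
    have hw : h6q_w c v = h6q_w c v' - (v0 - h6c_rho sS v0) := by
      unfold h6q_w
      rw [hv0, h6c_rho_sub]; abel
    have hb0 := h6q_bdry_dot hneg hc' ha' hb' v0 hinv
    have hz : h6c_dot v0 (c' sT) = 0 := by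
      rw [hv'', h6c_dot_sub_right, h6c_dot_rho_right]
      have : h6c_rho sT⁻¹ v0 = v0 := by
        conv_lhs => rw [← hinv]
        exact h6c_rho_inv_cancel _ _
      rw [this, sub_self]
    rw [hw, h6c_dot_sub_left, hb0, hz, sub_zero]
  rw [s1, s2]

end Indep

/-! ### Bilinearity of the value -/

section Bilin

variable {X : Type*} [MulAction SL(2, ℤ) X] [Fintype X]

theorem h6q_val_add_left (c₁ c₂ : SL(2, ℤ) → X → ℤ) (v₁ v₂ a b : X → ℤ) :
    h6q_val (fun g => c₁ g + c₂ g) (v₁ + v₂) a b = h6q_val c₁ v₁ a b + h6q_val c₂ v₂ a b := by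
  unfold h6q_val h6q_w
  rw [← h6c_dot_add_left]
  congr 1
  funext x
  simp only [Pi.add_apply, Pi.sub_apply, h6c_rho_apply]
  ring

theorem h6q_val_add_right (c : SL(2, ℤ) → X → ℤ) (v a₁ a₂ b₁ b₂ : X → ℤ) :
    h6q_val c v (a₁ + a₂) (b₁ + b₂) = h6q_val c v a₁ b₁ + h6q_val c v a₂ b₂ := by
  unfold h6q_val
  rw [← h6c_dot_add_right]
  congr 1
  abel

theorem h6q_val_smul_left (n : ℤ) (c : SL(2, ℤ) → X → ℤ) (v a b : X → ℤ) :
    h6q_val (fun g => n • c g) (n • v) a b = n * h6q_val c v a b := by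
  unfold h6q_val h6q_w
  rw [← h6c_dot_smul_left]
  congr 1
  funext x
  simp only [Pi.smul_apply, Pi.sub_apply, h6c_rho_apply, smul_eq_mul]
  ring

end Bilin

end Fermat.Agent.Lib.S41
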