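import Fermat.Agent.Lib.S41.H6Pair
import Fermat.Prelude.Def_ModularCurve_PeriodMap

/-!
# Project S41, layer [B] (helper6): the pairing on parabolic cocycles / parabolic characters

`h6q_pair c c'` (witnesses chosen by `Classical.epsilon`), `h6q_pair_eq` (any witnesses),
bilinearity, invariance under coboundaries; `h6q_isPar_coc` (the Shapiro cocycle of a parabolic
character is `T`-parabolic) and the pairing `h6q_P F x y` of two characters of the stabiliser of a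
frame.
-/

set_option autoImplicit false

open scoped MatrixGroups
open ModularCurve.Period

namespace Fermat.Agent.Lib.S41

local notation "sS" => (ModularGroup.S : SL(2, ℤ))
local notation "sT" => (ModularGroup.T : SL(2, ℤ))
local notation "sU" => (h6p_U : SL(2, ℤ))

section Pair

variable {X : Type*} [MulAction SL(2, ℤ) X]

/-- `T`-parabolic cocycles. -/
def h6q_IsPar (c : SL(2, ℤ) → X → ℤ) : Prop := ∃ v : X → ℤ, c sT = v - h6c_rho sT v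

noncomputable def h6q_vOf (c : SL(2, ℤ) → X → ℤ) : X → ℤ :=
  Classical.epsilon fun v : X → ℤ => c sT = v - h6c_rho sT v

noncomputable def h6q_aOf (c : SL(2, ℤ) → X → ℤ) : X → ℤ :=
  Classical.epsilon fun a : X → ℤ => c sS = a - h6c_rho sS a

noncomputable def h6q_bOf (c : SL(2, ℤ) → X → ℤ) : X → ℤ :=
  Classical.epsilon fun b : X → ℤ => c sU = b - h6c_rho sU b

theorem h6q_vOf_spec {c : SL(2, ℤ) → X → ℤ} (h : h6q_IsPar c) :
    c sT = h6q_vOf c - h6c_rho sT (h6q_vOf c) := Classical.epsilon_spec h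

variable [Fintype X]

/-- The pairing of two cocycles. -/
noncomputable def h6q_pair (c c' : SL(2, ℤ) → X → ℤ) : ℤ :=
  h6q_val c (h6q_vOf c) (h6q_aOf c') (h6q_bOf c')

variable (hneg : ∀ x : X, (-1 : SL(2, ℤ)) • x = x)
include hneg

theorem h6q_pair_eq {c c' : SL(2, ℤ) → X → ℤ} (hc : h6c_IsCoc c) (hc' : h6c_IsCoc c')
    (hp' : h6q_IsPar c') {v a b : X → ℤ} (hv : c sT = v - h6c_rho sT v)
    (ha : c' sS = a - h6c_rho sS a) (hb : c' sU = b - h6c_rho sU b) :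
    h6q_pair c c' = h6q_val c v a b := by
  obtain ⟨v'', hv''⟩ := hp'
  exact h6q_val_indep hneg hc hc' (h6q_vOf_spec ⟨v, hv⟩) hv
    (Classical.epsilon_spec (h6q_exists_a hneg hc')) ha
    (Classical.epsilon_spec (h6q_exists_b hneg hc')) hb hv''

theorem h6q_pair_add_left {c₁ c₂ c' : SL(2, ℤ) → X → ℤ} (hc₁ : h6c_IsCoc c₁)
    (hc₂ : h6c_IsCoc c₂) (hc' : h6c_IsCoc c') (hp₁ : h6q_IsPar c₁) (hp₂ : h6q_IsPar c₂)
    (hp' : h6q_IsPar c') :
    h6q_pair (fun g => c₁ g + c₂ g) c' = h6q_pair c₁ c' + h6q_pair c₂ c' := by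
  obtain ⟨v₁, hv₁⟩ := hp₁
  obtain ⟨v₂, hv₂⟩ := hp₂
  obtain ⟨a, ha⟩ := h6q_exists_a hneg hc'
  obtain ⟨b, hb⟩ := h6q_exists_b hneg hc'
  have hv : (fun g => c₁ g + c₂ g) sT = (v₁ + v₂) - h6c_rho sT (v₁ + v₂) := by
    show c₁ sT + c₂ sT = _
    rw [hv₁, hv₂, h6c_rho_add]; abel
  rw [h6q_pair_eq hneg (hc₁.add hc₂) hc' hp' hv ha hb, h6q_pair_eq hneg hc₁ hc' hp' hv₁ ha hb,
    h6q_pair_eq hneg hc₂ hc' hp' hv₂ ha hb, h6q_val_add_left]

theorem h6q_pair_add_right {c c₁ c₂ : SL(2, ℤ) → X → ℤ} (hc : h6c_IsCoc c)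
    (hc₁ : h6c_IsCoc c₁) (hc₂ : h6c_IsCoc c₂) (hp : h6q_IsPar c) (hp₁ : h6q_IsPar c₁)
    (hp₂ : h6q_IsPar c₂) :
    h6q_pair c (fun g => c₁ g + c₂ g) = h6q_pair c c₁ + h6q_pair c c₂ := by
  obtain ⟨v, hv⟩ := hp
  obtain ⟨a₁, ha₁⟩ := h6q_exists_a hneg hc₁
  obtain ⟨b₁, hb₁⟩ := h6q_exists_b hneg hc₁
  obtain ⟨a₂, ha₂⟩ := h6q_exists_a hneg hc₂
  obtain ⟨b₂, hb₂⟩ := h6q_exists_b hneg hc₂
  obtain ⟨v₁, hv₁⟩ := hp₁
  obtain ⟨v₂, hv₂⟩ := hp₂
  have hp12 : h6q_IsPar (fun g => c₁ g + c₂ g) := ⟨v₁ + v₂, by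
    show c₁ sT + c₂ sT = _
    rw [hv₁, hv₂, h6c_rho_add]; abel⟩
  have ha : (fun g => c₁ g + c₂ g) sS = (a₁ + a₂) - h6c_rho sS (a₁ + a₂) := by
    show c₁ sS + c₂ sS = _
    rw [ha₁, ha₂, h6c_rho_add]; abel
  have hb : (fun g => c₁ g + c₂ g) sU = (b₁ + b₂) - h6c_rho sU (b₁ + b₂) := by
    show c₁ sU + c₂ sU = _
    rw [hb₁, hb₂, h6c_rho_add]; abel
  rw [h6q_pair_eq hneg hc (hc₁.add hc₂) hp12 hv ha hb,
    h6q_pair_eq hneg hc hc₁ ⟨v₁, hv₁⟩ hv ha₁ hb₁, h6q_pair_eq hneg hc hc₂ ⟨v₂, hv₂⟩ hv ha₂ hb₂,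
    h6q_val_add_right]

/-- Invariance under a coboundary on the left. -/
theorem h6q_pair_cob_left {c c' : SL(2, ℤ) → X → ℤ} (hc : h6c_IsCoc c) (hc' : h6c_IsCoc c')
    (hp : h6q_IsPar c) (hp' : h6q_IsPar c') (f : X → ℤ) :
    h6q_pair (fun g => c g + h6c_cob f g) c' = h6q_pair c c' := by
  obtain ⟨v, hv⟩ := hp
  obtain ⟨a, ha⟩ := h6q_exists_a hneg hc'
  obtain ⟨b, hb⟩ := h6q_exists_b hneg hc'
  have hv2 : (fun g => c g + h6c_cob f g) sT = (v + f) - h6c_rho sT (v + f) := by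
    show c sT + (f - h6c_rho sT f) = _
    rw [hv, h6c_rho_add]; abel
  rw [h6q_pair_eq hneg (hc.add (h6c_cob_isCoc f)) hc' hp' hv2 ha hb,
    h6q_pair_eq hneg hc hc' hp' hv ha hb]
  unfold h6q_val h6q_w
  congr 1
  show c sS + (f - h6c_rho sS f) - (v + f - h6c_rho sS (v + f)) = c sS - (v - h6c_rho sS v)
  rw [h6c_rho_add]; abel

/-- Invariance under a coboundary on the right. -/
theorem h6q_pair_cob_right {c c' : SL(2, ℤ) → X → ℤ} (hc : h6c_IsCoc c) (hc' : h6c_IsCoc c')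
    (hp : h6q_IsPar c) (hp' : h6q_IsPar c') (f : X → ℤ) :
    h6q_pair c (fun g => c' g + h6c_cob f g) = h6q_pair c c' := by
  obtain ⟨v, hv⟩ := hp
  obtain ⟨v', hv'⟩ := hp'
  obtain ⟨a, ha⟩ := h6q_exists_a hneg hc'
  obtain ⟨b, hb⟩ := h6q_exists_b hneg hc'
  have hp2 : h6q_IsPar (fun g => c' g + h6c_cob f g) := ⟨v' + f, by
    show c' sT + (f - h6c_rho sT f) = _
    rw [hv', h6c_rho_add]; abel⟩
  have ha2 : (fun g => c' g + h6c_cob f g) sS = (a + f) - h6c_rho sS (a + f) := by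
    show c' sS + (f - h6c_rho sS f) = _
    rw [ha, h6c_rho_add]; abel
  have hb2 : (fun g => c' g + h6c_cob f g) sU = (b + f) - h6c_rho sU (b + f) := by
    show c' sU + (f - h6c_rho sU f) = _
    rw [hb, h6c_rho_add]; abel
  rw [h6q_pair_eq hneg hc (hc'.add (h6c_cob_isCoc f)) hp2 hv ha2 hb2,
    h6q_pair_eq hneg hc hc' ⟨v', hv'⟩ hv ha hb]
  unfold h6q_val
  congr 1
  abel

end Pair

end Fermat.Agent.Lib.S41
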