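import Fermat.Agent.Lib.S41.H6PairHom
import Fermat.Agent.Lib.S21.ParabolicConj

/-!
# Project S41, layer [B] (helper6): parabolic elements, parabolic characters, parabolic cocycles

* `h6r_parabolic_conj`: every `γ : SL(2,ℤ)` with `trace² = 4` is `± δ T^n δ⁻¹` (matrix level).
* `h6r_isPar_coc`: the Shapiro cocycle of a parabolic character is `T`-parabolic.
* `h6r_par_ev`: a `T`-parabolic cocycle vanishes at `(γ, x)` whenever `γ` is parabolic and fixes `x`;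
  hence its evaluation at the base point of a frame is a parabolic character.
-/

set_option autoImplicit false

open scoped MatrixGroups
open ModularCurve.Period

namespace Fermat.Agent.Lib.S41

local notation "sS" => (ModularGroup.S : SL(2, ℤ))
local notation "sT" => (ModularGroup.T : SL(2, ℤ))
local notation "sU" => (h6p_U : SL(2, ℤ))

/-! ### Matrix facts -/

theorem h6r_upper (g : SL(2, ℤ)) (hg : g 1 0 = 0) :
    ∃ n : ℤ, g = sT ^ n ∨ g = -(sT ^ n) := by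
  have hdet : g 0 0 * g 1 1 - g 0 1 * g 1 0 = 1 := by
    have := g.det_coe
    rwa [Matrix.det_fin_two] at this
  rw [hg, mul_zero, sub_zero] at hdet
  rcases Int.eq_one_or_neg_one_of_mul_eq_one' hdet with ⟨h0, h1⟩ | ⟨h0, h1⟩
  · refine ⟨g 0 1, Or.inl ?_⟩
    ext i j
    rw [ModularGroup.coe_T_zpow]
    fin_cases i <;> fin_cases j <;> simp [h0, h1, hg]
  · refine ⟨-(g 0 1), Or.inr ?_⟩
    ext i j
    rw [Matrix.SpecialLinearGroup.coe_neg, ModularGroup.coe_T_zpow]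
    fin_cases i <;> fin_cases j <;> simp [h0, h1, hg]

/-- Every parabolic element of `SL(2,ℤ)` is `± δ T^n δ⁻¹`. -/
theorem h6r_parabolic_conj (γ : SL(2, ℤ))
    (htr : ((γ : Matrix (Fin 2) (Fin 2) ℤ)).trace ^ 2 = 4) :
    ∃ (δ : SL(2, ℤ)) (n : ℤ), γ = δ * sT ^ n * δ⁻¹ ∨ γ = -(δ * sT ^ n * δ⁻¹) := by
  have hdet : γ 0 0 * γ 1 1 - γ 0 1 * γ 1 0 = 1 := by
    have := γ.det_coe
    rwa [Matrix.det_fin_two] at this
  have htr' : (γ 0 0 + γ 1 1) ^ 2 = 4 := by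
    rw [Matrix.trace_fin_two] at htr
    exact htr
  obtain ⟨p, q, hpq, hkey⟩ :=
    Fermat.Agent.Lib.S21.h7_parabolic_eigenvector (γ 0 0) (γ 0 1) (γ 1 0) (γ 1 1) hdet htr'
  obtain ⟨δ, hδ0, hδ1⟩ := hpq.exists_SL2_col 0
  have hβ : (δ⁻¹ * γ * δ) 1 0 = 0 := by
    have h1 : (δ⁻¹ * γ * δ) 1 0 = -(δ 1 0) * (γ 0 0 * δ 0 0 + γ 0 1 * δ 1 0)
        + δ 0 0 * (γ 1 0 * δ 0 0 + γ 1 1 * δ 1 0) := by
      simp only [Matrix.SpecialLinearGroup.coe_mul, Matrix.SpecialLinearGroup.coe_inv,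
        Matrix.adjugate_fin_two, Matrix.mul_apply, Fin.sum_univ_two]
      simp
      ring
    rw [h1, hδ0, hδ1]
    exact hkey
  obtain ⟨n, hn⟩ := h6r_upper _ hβ
  refine ⟨δ, n, ?_⟩
  rcases hn with hn | hn
  · left
    rw [← hn]; group
  · right
    have h1 : γ = δ * (δ⁻¹ * γ * δ) * δ⁻¹ := by group
    rw [h1, hn, mul_neg, neg_mul]

theorem h6r_trace_conj_T_pow (r : SL(2, ℤ)) (n : ℕ) :
    ((r⁻¹ * sT ^ n * r : SL(2, ℤ)) : Matrix (Fin 2) (Fin 2) ℤ).trace = 2 := by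
  rw [Matrix.SpecialLinearGroup.coe_mul, Matrix.SpecialLinearGroup.coe_mul,
    Matrix.trace_mul_cycle, Matrix.SpecialLinearGroup.coe_inv, Matrix.mul_adjugate,
    Matrix.SpecialLinearGroup.det_coe, one_smul, Matrix.one_mul]
  have : sT ^ n = sT ^ (n : ℤ) := by rw [zpow_natCast]
  rw [this, ModularGroup.coe_T_zpow, Matrix.trace_fin_two_of]
  norm_num

/-! ### Parabolic characters give parabolic cocycles -/

section Par

variable {X : Type*} [MulAction SL(2, ℤ) X]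

/-- A period of `T` on a finite `SL(2,ℤ)`-set. -/
theorem h6r_exists_period [Finite X] (g : SL(2, ℤ)) : ∃ N : ℕ, 0 < N ∧ ∀ x : X, g ^ N • x = x := by
  classical
  haveI := Fintype.ofFinite X
  refine ⟨orderOf (MulAction.toPermHom SL(2, ℤ) X g), orderOf_pos _, fun x => ?_⟩
  have h := pow_orderOf_eq_one (MulAction.toPermHom SL(2, ℤ) X g)
  rw [← map_pow] at h
  have h2 := congrArg (fun e : Equiv.Perm X => e x) h
  simpa using h2

theorem h6r_isPar_coc [Finite X] (F : h6c_Frame SL(2, ℤ) X) (x : Additive F.Γ →+ ℤ)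
    (hx : IsParabolicHom F.Γ x) : h6q_IsPar (F.coc x) := by
  obtain ⟨N, hN, hper⟩ := h6r_exists_period (X := X) sT
  refine h6c_potential sT N hN hper (F.coc x sT) ?_
  rw [← h6c_IsCoc.pow (F.coc_isCoc x)]
  funext y
  show x (Additive.ofMul (F.cocElem (sT ^ N) y)) = 0
  apply hx
  have h1 : (sT ^ N)⁻¹ • y = y := by rw [inv_smul_eq_iff, hper]
  show ((((F.r y)⁻¹ * sT ^ N * F.r ((sT ^ N)⁻¹ • y) : SL(2, ℤ)) :
    Matrix (Fin 2) (Fin 2) ℤ)).trace ^ 2 = 4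
  rw [h1, h6r_trace_conj_T_pow]
  norm_num

variable (hneg : ∀ x : X, (-1 : SL(2, ℤ)) • x = x)
include hneg

/-- On powers of `T` a `T`-parabolic cocycle is the coboundary of its potential. -/
theorem h6r_coc_T_zpow {c : SL(2, ℤ) → X → ℤ} (hc : h6c_IsCoc c) {v : X → ℤ}
    (hv : c sT = v - h6c_rho sT v) (n : ℤ) : c (sT ^ n) = v - h6c_rho (sT ^ n) v := by
  have hnat : ∀ k : ℕ, c (sT ^ k) = v - h6c_rho (sT ^ k) v := by
    intro k
    induction k with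
    | zero => rw [pow_zero, hc.one, h6c_rho_one, sub_self]
    | succ k ih =>
      rw [h6c_IsCoc.pow_succ hc, ih, hv, h6c_rho_sub, ← h6c_rho_mul, ← pow_succ]
      abel
  rcases Int.eq_nat_or_neg n with ⟨k, rfl | rfl⟩
  · rw [zpow_natCast]; exact hnat k
  · rw [zpow_neg, zpow_natCast, hc.inv, hnat k, h6c_rho_sub, h6c_rho_inv_cancel]
    abel

/-- A `T`-parabolic cocycle vanishes at `(γ, x)` for `γ` parabolic fixing `x`. -/
theorem h6r_par_ev {c : SL(2, ℤ) → X → ℤ} (hc : h6c_IsCoc c) (hp : h6q_IsPar c)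
    (γ : SL(2, ℤ)) (htr : ((γ : Matrix (Fin 2) (Fin 2) ℤ)).trace ^ 2 = 4) (x : X)
    (hx : γ • x = x) : c γ x = 0 := by
  obtain ⟨v, hv⟩ := hp
  obtain ⟨δ, n, hγ⟩ := h6r_parabolic_conj γ htr
  -- reduce to `γ' = δ T^n δ⁻¹`
  have hmain : ∀ γ' : SL(2, ℤ), γ' = δ * sT ^ n * δ⁻¹ → γ' • x = x → c γ' x = 0 := by
    intro γ' hγ' hx'
    have hfix : sT ^ n • (δ⁻¹ • x) = δ⁻¹ • x := by
      rw [hγ', mul_smul, mul_smul] at hx'
      exact (smul_eq_iff_eq_inv_smul δ).mp hx'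
    have hfix' : (sT ^ n)⁻¹ • (δ⁻¹ • x) = δ⁻¹ • x := by rw [inv_smul_eq_iff, hfix]
    rw [hγ', hc, hc, h6r_coc_T_zpow hneg hc hv n, hc.inv]
    show c δ x + (v (δ⁻¹ • x) - v ((sT ^ n)⁻¹ • δ⁻¹ • x)) + -(c δ (δ⁻¹⁻¹ • (δ * sT ^ n)⁻¹ • x)) = 0
    rw [hfix', mul_inv_rev, mul_smul, hfix', inv_inv, smul_inv_smul]
    ring
  rcases hγ with hγ | hγ
  · exact hmain γ hγ hx
  · have hx2 : (-γ) • x = x := by
      have : -γ = (-1 : SL(2, ℤ)) * γ := by simp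
      rw [this, mul_smul, hx, hneg]
    have h1 := hmain (-γ) (by rw [hγ, neg_neg]) hx2
    have h2 : c γ = c (-γ) := by
      have : γ = (-1 : SL(2, ℤ)) * (-γ) := by simp
      conv_lhs => rw [this]
      rw [hc, h6q_c_neg_one hneg hc, zero_add, h6c_rho_of_triv _ hneg]
    rw [h2, h1]

/-- The evaluation of a `T`-parabolic cocycle at the base point is a parabolic character. -/
theorem h6r_ev_parabolic (F : h6c_Frame SL(2, ℤ) X) {c : SL(2, ℤ) → X → ℤ} (hc : h6c_IsCoc c)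
    (hp : h6q_IsPar c) : IsParabolicHom F.Γ (F.ev c hc) := by
  intro γ htr
  rw [F.ev_apply]
  exact h6r_par_ev hneg hc hp γ htr F.x0 ((F.stab _).mp γ.2)

end Par

/-! ### The pairing of two characters -/

section P

variable {X : Type*} [MulAction SL(2, ℤ) X] [Fintype X]

/-- The pairing of two additive characters of the stabiliser of a frame. -/
noncomputable def h6q_P (F : h6c_Frame SL(2, ℤ) X) (x y : Additive F.Γ →+ ℤ) : ℤ :=
  h6q_pair (F.coc x) (F.coc y)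

variable (hneg : ∀ x : X, (-1 : SL(2, ℤ)) • x = x) (F : h6c_Frame SL(2, ℤ) X)
include hneg

theorem h6q_P_add_left (x₁ x₂ y : Additive F.Γ →+ ℤ) (h₁ : IsParabolicHom F.Γ x₁)
    (h₂ : IsParabolicHom F.Γ x₂) (hy : IsParabolicHom F.Γ y) :
    h6q_P F (x₁ + x₂) y = h6q_P F x₁ y + h6q_P F x₂ y :=
  h6q_pair_add_left hneg (F.coc_isCoc x₁) (F.coc_isCoc x₂) (F.coc_isCoc y)
    (h6r_isPar_coc F x₁ h₁) (h6r_isPar_coc F x₂ h₂) (h6r_isPar_coc F y hy)

theorem h6q_P_add_right (x y₁ y₂ : Additive F.Γ →+ ℤ) (hx : IsParabolicHom F.Γ x)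
    (h₁ : IsParabolicHom F.Γ y₁) (h₂ : IsParabolicHom F.Γ y₂) :
    h6q_P F x (y₁ + y₂) = h6q_P F x y₁ + h6q_P F x y₂ :=
  h6q_pair_add_right hneg (F.coc_isCoc x) (F.coc_isCoc y₁) (F.coc_isCoc y₂)
    (h6r_isPar_coc F x hx) (h6r_isPar_coc F y₁ h₁) (h6r_isPar_coc F y₂ h₂)

end P

end Fermat.Agent.Lib.S41
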