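import Fermat.Agent.Lib.S41.H6Par

/-!
# Project S41, layer [B] (helper6): perfectness of the integral pairing (B1)

`X` a finite transitive `SL(2,ℤ)`-set on which `-1` acts trivially.
* `h6s_exists_y` (step A): every `h ∈ D^⊥` is realised: a parabolic character `y` with
  `P(x, y) = ⟨w_x, h⟩` for all parabolic `x`.
* `h6s_lattice` (step B): `D = {v0 - ρ S v0 : v0 T-invariant}` is saturated and
  `(∀ h ∈ D^⊥, n ∣ ⟨w, h⟩) → w ∈ n V + D`.
* `h6s_div` (step C): if `w_x = n w'` then `x = n x'`.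
* `h6s_perfect` (B1).
-/

set_option autoImplicit false

open scoped MatrixGroups
open ModularCurve.Period

namespace Fermat.Agent.Lib.S41

local notation "sS" => (ModularGroup.S : SL(2, ℤ))
local notation "sT" => (ModularGroup.T : SL(2, ℤ))
local notation "sU" => (h6p_U : SL(2, ℤ))

/-! ### Norms -/

section Norm

variable {G : Type*} [Group G] {X : Type*} [MulAction G X]

theorem h6s_norm_inv (g : G) (N : ℕ) (hg : ∀ x : X, g ^ N • x = x) (v : X → ℤ) :
    h6c_rho g (∑ k ∈ Finset.range N, h6c_rho (g ^ k) v) = ∑ k ∈ Finset.range N, h6c_rho (g ^ k) v := by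
  rw [h6c_rho_sum]
  have h1 : ∀ k, h6c_rho g (h6c_rho (g ^ k) v) = h6c_rho (g ^ (k + 1)) v := by
    intro k; rw [← h6c_rho_mul, ← pow_succ']
  simp_rw [h1]
  have h2 := Finset.sum_range_succ (fun k => h6c_rho (g ^ k) v) N
  have h3 := Finset.sum_range_succ' (fun k => h6c_rho (g ^ k) v) N
  rw [h2] at h3
  have h4 : h6c_rho (g ^ N) v = h6c_rho (g ^ 0) v := by
    rw [pow_zero, h6c_rho_one, h6c_rho_of_triv _ hg]
  rw [h4] at h3
  exact (add_right_cancel h3).symm

variable [Fintype X]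

theorem h6s_dot_norm (g : G) (N : ℕ) (z w : X → ℤ) :
    h6c_dot (∑ k ∈ Finset.range N, h6c_rho (g ^ k) z) w
      = h6c_dot z (∑ k ∈ Finset.range N, h6c_rho (g⁻¹ ^ k) w) := by
  induction N with
  | zero => simp
  | succ n ih =>
    rw [Finset.sum_range_succ, Finset.sum_range_succ, h6c_dot_add_left, h6c_dot_add_right, ih,
      h6c_dot_rho_left, inv_pow]

end Norm

section StepA

variable {X : Type*} [MulAction SL(2, ℤ) X] [Fintype X]
variable (hneg : ∀ x : X, (-1 : SL(2, ℤ)) • x = x)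
include hneg

/-- **Step A.** Every `h ∈ D^⊥` is realised by a parabolic character. -/
theorem h6s_exists_y (F : h6c_Frame SL(2, ℤ) X) (h : X → ℤ)
    (hD : ∀ v0 : X → ℤ, h6c_rho sT v0 = v0 → h6c_dot (v0 - h6c_rho sS v0) h = 0) :
    ∃ y : Additive F.Γ →+ ℤ, IsParabolicHom F.Γ y ∧
      ∀ (x : Additive F.Γ →+ ℤ) (v : X → ℤ), F.coc x sT = v - h6c_rho sT v →
        h6q_P F x y = h6c_dot (h6q_w (F.coc x) v) h := by
  classical
  obtain ⟨c', hc', hcS, hcU⟩ := h6c_exists_coc hneg (h - h6c_rho sS h) (0 : X → ℤ)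
    (by rw [h6c_rho_sub, h6q_rhoS_rhoS hneg]; abel) (by simp)
  -- `c' T = h - ρ S h`
  have hcT : c' sT = h - h6c_rho sS h := by
    have h1 := h6q_cU_eq hneg hc'
    rw [hcU, hcS] at h1
    have h2 : h6c_rho sS (c' sT) = -(h - h6c_rho sS h) := by
      rw [eq_neg_iff_add_eq_zero, add_comm]; exact h1.symm
    have h3 := congrArg (h6c_rho sS) h2
    rw [h6q_rhoS_rhoS hneg, h6c_rho_neg, h6c_rho_sub, h6q_rhoS_rhoS hneg] at h3
    rw [h3]; abel
  -- `c'` is `T`-parabolic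
  have hp' : h6q_IsPar c' := by
    obtain ⟨N, hN, hper⟩ := h6r_exists_period (X := X) sT
    refine h6c_potential sT N hN hper (c' sT) ?_
    funext y
    have e := h6c_dot_single (∑ k ∈ Finset.range N, h6c_rho (sT ^ k) (c' sT)) y
    rw [← e, h6s_dot_norm, hcT]
    set v0 : X → ℤ := ∑ k ∈ Finset.range N, h6c_rho (sT⁻¹ ^ k) (Pi.single y 1) with hv0
    have hper' : ∀ x : X, sT⁻¹ ^ N • x = x := by
      intro x; rw [inv_pow, inv_smul_eq_iff, hper]
    have hinv' : h6c_rho sT⁻¹ v0 = v0 := h6s_norm_inv sT⁻¹ N hper' _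
    have hinv : h6c_rho sT v0 = v0 := by
      conv_lhs => rw [← hinv']
      exact h6c_rho_cancel_inv _ _
    have := hD v0 hinv
    rw [h6c_dot_comm, h6c_dot_sub_right, h6c_dot_rho_right, h6q_rhoS_inv hneg] at this
    rw [h6c_dot_sub_left]
    show h6c_dot h v0 - h6c_dot (h6c_rho sS h) v0 = (0 : X → ℤ) y
    rw [this]; rfl
  refine ⟨F.ev c' hc', h6r_ev_parabolic hneg F hc' hp', fun x v hv => ?_⟩
  have hcoc : F.coc (F.ev c' hc') = fun g => c' g + h6c_cob (-(F.corr c')) g := by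
    funext g
    rw [F.coc_ev]
    show c' g - (F.corr c' - h6c_rho g (F.corr c')) = c' g + (-(F.corr c') - h6c_rho g (-(F.corr c')))
    rw [h6c_rho_neg]; abel
  unfold h6q_P
  rw [hcoc, h6q_pair_cob_right hneg (F.coc_isCoc x) hc' ⟨v, hv⟩ hp',
    h6q_pair_eq hneg (F.coc_isCoc x) hc' hp' hv hcS (b := 0) (by rw [hcU]; simp)]
  unfold h6q_val
  rw [sub_zero]

end StepA

/-! ### Step B: the lattice `D` -/

section StepB

variable {X : Type*} [MulAction SL(2, ℤ) X] [Fintype X]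

/-- `ρ g` as a linear map. -/
def h6s_rhoLin (g : SL(2, ℤ)) : (X → ℤ) →ₗ[ℤ] (X → ℤ) := LinearMap.funLeft ℤ ℤ (fun x => g⁻¹ • x)

omit [Fintype X] in
theorem h6s_rhoLin_apply (g : SL(2, ℤ)) (v : X → ℤ) : h6s_rhoLin g v = h6c_rho g v := rfl

/-- The lattice `D = {v0 - ρ S v0 : ρ T v0 = v0}`. -/
def h6s_D : Submodule ℤ (X → ℤ) :=
  Submodule.map (LinearMap.id - h6s_rhoLin sS) (LinearMap.ker (LinearMap.id - h6s_rhoLin sT))

omit [Fintype X] in
theorem h6s_mem_D (d : X → ℤ) :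
    d ∈ (h6s_D : Submodule ℤ (X → ℤ)) ↔ ∃ v0 : X → ℤ, h6c_rho sT v0 = v0 ∧ d = v0 - h6c_rho sS v0 := by
  unfold h6s_D
  rw [Submodule.mem_map]
  constructor
  · rintro ⟨v0, hv0, rfl⟩
    rw [LinearMap.mem_ker, LinearMap.sub_apply, LinearMap.id_apply, h6s_rhoLin_apply,
      sub_eq_zero] at hv0
    exact ⟨v0, hv0.symm, rfl⟩
  · rintro ⟨v0, hv0, rfl⟩
    refine ⟨v0, ?_, rfl⟩
    rw [LinearMap.mem_ker, LinearMap.sub_apply, LinearMap.id_apply, h6s_rhoLin_apply, hv0, sub_self]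

variable [MulAction.IsPretransitive SL(2, ℤ) X]

omit [Fintype X] in
/-- `D` is saturated. -/
theorem h6s_D_sat (n : ℤ) (hn : n ≠ 0) (v : X → ℤ)
    (h : n • v ∈ (h6s_D : Submodule ℤ (X → ℤ))) : v ∈ (h6s_D : Submodule ℤ (X → ℤ)) := by
  rcases isEmpty_or_nonempty X with hX | ⟨⟨x1⟩⟩
  · have : v = 0 := by funext x; exact (hX.false x).elim
    rw [this]; exact Submodule.zero_mem _
  obtain ⟨v0, hv0, hd⟩ := (h6s_mem_D _).mp h
  -- `v0` is constant modulo `n`
  have hP : ∀ g : SL(2, ℤ), ∀ x : X, n ∣ v0 (g • x) - v0 x := by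
    intro g
    have hg : g ∈ Subgroup.closure ({sS, sU} : Set SL(2, ℤ)) := by
      rw [h6c_closure_S_U]; exact Subgroup.mem_top g
    have hS : ∀ x : X, n ∣ v0 (sS • x) - v0 x := by
      intro x
      have := congrFun hd (sS • x)
      simp only [Pi.smul_apply, Pi.sub_apply, h6c_rho_apply, inv_smul_smul, smul_eq_mul] at this
      exact ⟨v (sS • x), this.symm⟩
    have hT : ∀ x : X, n ∣ v0 (sT • x) - v0 x := by
      intro x
      have := congrFun hv0 (sT • x)
      simp only [h6c_rho_apply, inv_smul_smul] at this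
      rw [this, sub_self]; exact dvd_zero n
    induction hg using Subgroup.closure_induction with
    | mem y hy =>
      rcases hy with rfl | rfl
      · exact hS
      · intro x
        rw [h6q_U_eq, mul_smul]
        have h1 := hS (sT • x)
        have h2 := hT x
        have : v0 (sS • sT • x) - v0 x = (v0 (sS • sT • x) - v0 (sT • x)) + (v0 (sT • x) - v0 x) := by
          ring
        rw [this]; exact dvd_add h1 h2
    | one => intro x; rw [one_smul, sub_self]; exact dvd_zero n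
    | mul a b _ _ ha hb =>
      intro x
      rw [mul_smul]
      have : v0 (a • b • x) - v0 x = (v0 (a • b • x) - v0 (b • x)) + (v0 (b • x) - v0 x) := by ring
      rw [this]; exact dvd_add (ha _) (hb _)
    | inv a _ ha =>
      intro x
      have h1 := ha (a⁻¹ • x)
      rw [smul_inv_smul] at h1
      have : v0 (a⁻¹ • x) - v0 x = -(v0 x - v0 (a⁻¹ • x)) := by ring
      rw [this]; exact (dvd_neg).mpr h1
  have hconst : ∀ x : X, n ∣ v0 x - v0 x1 := by
    intro x
    obtain ⟨g, hg⟩ := MulAction.exists_smul_eq SL(2, ℤ) x1 x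
    rw [← hg]; exact hP g x1
  set v0' : X → ℤ := fun x => (v0 x - v0 x1) / n with hv0'
  have hv0eq : ∀ x, v0 x = v0 x1 + n * v0' x := by
    intro x
    rw [hv0', Int.mul_ediv_cancel' (hconst x)]; ring
  refine (h6s_mem_D _).mpr ⟨v0', ?_, ?_⟩
  · funext x
    show (v0 (sT⁻¹ • x) - v0 x1) / n = (v0 x - v0 x1) / n
    have := congrFun hv0 x
    simp only [h6c_rho_apply] at this
    rw [this]
  · funext x
    have h1 := congrFun hd x
    simp only [Pi.smul_apply, Pi.sub_apply, h6c_rho_apply, smul_eq_mul] at h1 ⊢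
    rw [hv0eq x, hv0eq (sS⁻¹ • x)] at h1
    have h2 : n * v x = n * (v0' x - v0' (sS⁻¹ • x)) := by rw [h1]; ring
    exact mul_left_cancel₀ hn h2

omit [Fintype X] in
theorem h6s_torsionFree_aux :
    Module.IsTorsionFree ℤ ((X → ℤ) ⧸ (h6s_D : Submodule ℤ (X → ℤ))) := by
  refine ⟨fun r hr => ?_⟩
  have hr0 : r ≠ 0 := hr.ne_zero
  intro m1 m2 h
  have h0 : r • (m1 - m2) = 0 := by rw [smul_sub]; exact sub_eq_zero.mpr h
  obtain ⟨v, hv⟩ := Submodule.Quotient.mk_surjective _ (m1 - m2)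
  rw [← hv, ← Submodule.Quotient.mk_smul, Submodule.Quotient.mk_eq_zero] at h0
  have := h6s_D_sat r hr0 v h0
  rw [← Submodule.Quotient.mk_eq_zero, hv] at this
  exact sub_eq_zero.mp this

/-- **Step B.** -/
theorem h6s_lattice (n : ℤ) (w : X → ℤ)
    (hw : ∀ h : X → ℤ,
      (∀ v0 : X → ℤ, h6c_rho sT v0 = v0 → h6c_dot (v0 - h6c_rho sS v0) h = 0) → n ∣ h6c_dot w h) :
    ∃ w' v0 : X → ℤ, h6c_rho sT v0 = v0 ∧ w = n • w' + (v0 - h6c_rho sS v0) := by
  classical
  have := h6s_torsionFree_aux (X := X)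
  let D : Submodule ℤ (X → ℤ) := h6s_D
  let b := Module.Free.chooseBasis ℤ ((X → ℤ) ⧸ D)
  let φ : Module.Free.ChooseBasisIndex ℤ ((X → ℤ) ⧸ D) → (X → ℤ) →ₗ[ℤ] ℤ :=
    fun i => (b.coord i).comp D.mkQ
  let hh : Module.Free.ChooseBasisIndex ℤ ((X → ℤ) ⧸ D) → X → ℤ :=
    fun i x => φ i (fun j => if x = j then 1 else 0)
  have hφ : ∀ i (v : X → ℤ), φ i v = h6c_dot v (hh i) := by
    intro i v
    rw [LinearMap.pi_apply_eq_sum_univ (φ i) v]
    unfold h6c_dot
    exact Finset.sum_congr rfl fun x _ => by rw [smul_eq_mul]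
  have hdiv : ∀ i, n ∣ b.repr (D.mkQ w) i := by
    intro i
    have h1 : b.repr (D.mkQ w) i = h6c_dot w (hh i) := (hφ i w)
    rw [h1]
    apply hw
    intro v0 hv0
    rw [← hφ i]
    show b.coord i (D.mkQ (v0 - h6c_rho sS v0)) = 0
    have : D.mkQ (v0 - h6c_rho sS v0) = 0 := by
      rw [Submodule.mkQ_apply, Submodule.Quotient.mk_eq_zero]
      exact (h6s_mem_D _).mpr ⟨v0, hv0, rfl⟩
    rw [this, map_zero]
  obtain ⟨w', hw'⟩ := Submodule.Quotient.mk_surjective D
    (∑ i, (b.repr (D.mkQ w) i / n) • b i)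
  have hq : D.mkQ w = n • Submodule.Quotient.mk w' := by
    rw [hw', Finset.smul_sum]
    conv_lhs => rw [← b.sum_repr (D.mkQ w)]
    refine Finset.sum_congr rfl fun i _ => ?_
    rw [smul_smul, Int.mul_ediv_cancel' (hdiv i)]
  have hmem : w - n • w' ∈ D := by
    rw [← Submodule.Quotient.mk_eq_zero, Submodule.Quotient.mk_sub, Submodule.Quotient.mk_smul,
      ← hq, Submodule.mkQ_apply, sub_self]
  obtain ⟨v0, hv0, hd⟩ := (h6s_mem_D _).mp hmem
  exact ⟨w', v0, hv0, by rw [← hd]; abel⟩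

end StepB

end Fermat.Agent.Lib.S41
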