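import Fermat.Agent.Lib.S41.H6Perf

/-!
# Project S41, layer [B] (helper6): perfectness of the integral pairing (B1), final step

* `h6s_div` (step C): if `w_x = n w'` then `x = n x'`.
* `h6s_perfect` (B1): if `n ∣ P(x, y)` for all parabolic `y` then `x = n x'` with `x'` parabolic.
-/

set_option autoImplicit false

open scoped MatrixGroups
open ModularCurve.Period

namespace Fermat.Agent.Lib.S41

local notation "sS" => (ModularGroup.S : SL(2, ℤ))
local notation "sT" => (ModularGroup.T : SL(2, ℤ))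
local notation "sU" => (h6p_U : SL(2, ℤ))

theorem h6s_fun_cancel {X : Type*} (n : ℤ) (hn : n ≠ 0) {f : X → ℤ} (h : n • f = 0) : f = 0 := by
  funext x
  have := congrFun h x
  simp only [Pi.smul_apply, smul_eq_mul, Pi.zero_apply] at this
  rcases mul_eq_zero.mp this with h1 | h1
  · exact absurd h1 hn
  · exact h1

section StepC

variable {X : Type*} [MulAction SL(2, ℤ) X] [Fintype X]
variable (hneg : ∀ x : X, (-1 : SL(2, ℤ)) • x = x)
include hneg

omit [Fintype X] in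
/-- **Step C.** -/
theorem h6s_div (F : h6c_Frame SL(2, ℤ) X) (x : Additive F.Γ →+ ℤ) (n : ℤ) (hn : n ≠ 0)
    (v w' : X → ℤ) (hv : F.coc x sT = v - h6c_rho sT v) (hw : h6q_w (F.coc x) v = n • w') :
    ∃ x' : Additive F.Γ →+ ℤ, x = n • x' := by
  have hc := F.coc_isCoc x
  have hanti : w' + h6c_rho sS w' = 0 := by
    apply h6s_fun_cancel n hn
    rw [smul_add, ← h6c_rho_zsmul, ← hw]
    exact h6q_w_anti hneg hc v
  have hnorm : w' + h6c_rho sU w' + h6c_rho (sU ^ 2) w' = 0 := by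
    apply h6s_fun_cancel n hn
    rw [pow_two, h6c_rho_mul h6p_U h6p_U, smul_add, smul_add, ← h6c_rho_zsmul, ← h6c_rho_zsmul,
      ← h6c_rho_zsmul, ← hw]
    exact h6q_w_normU hneg hc hv
  obtain ⟨c'', hc'', hS, hU⟩ := h6c_exists_coc hneg w' w' hanti hnorm
  have hc2 : h6c_IsCoc (fun g => n • c'' g + h6c_cob v g) := (hc''.zsmul n).add (h6c_cob_isCoc v)
  have heq : ∀ g, F.coc x g = n • c'' g + h6c_cob v g := by
    refine h6c_coc_ext hc hc2 ?_ ?_
    · show F.coc x sS = n • c'' sS + (v - h6c_rho sS v)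
      rw [hS, ← hw]; unfold h6q_w; abel
    · show F.coc x sU = n • c'' sU + (v - h6c_rho sU v)
      rw [hU, ← hw, h6q_w_eq_U hneg hc hv]; abel
  refine ⟨F.ev c'' hc'', AddMonoidHom.ext fun γ' => ?_⟩
  set γ : F.Γ := Additive.toMul γ' with hγ
  have h1 : x γ' = F.coc x (γ : SL(2, ℤ)) F.x0 := by
    have := DFunLike.congr_fun (F.ev_coc x) γ'
    rw [← this]; rfl
  have h2 : (γ : SL(2, ℤ))⁻¹ • F.x0 = F.x0 := by
    rw [inv_smul_eq_iff]; exact ((F.stab _).mp γ.2).symm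
  rw [h1, heq]
  show n • c'' (γ : SL(2, ℤ)) F.x0 + (v F.x0 - v ((γ : SL(2, ℤ))⁻¹ • F.x0)) = n • (c'' (γ : SL(2, ℤ)) F.x0)
  rw [h2, sub_self, add_zero]

variable [MulAction.IsPretransitive SL(2, ℤ) X]

/-- **(B1) Perfectness.** -/
theorem h6s_perfect (F : h6c_Frame SL(2, ℤ) X) (n : ℤ) (hn : n ≠ 0)
    (x : Additive F.Γ →+ ℤ) (hx : IsParabolicHom F.Γ x)
    (hdiv : ∀ y : Additive F.Γ →+ ℤ, IsParabolicHom F.Γ y → n ∣ h6q_P F x y) :
    ∃ x' : Additive F.Γ →+ ℤ, IsParabolicHom F.Γ x' ∧ x = n • x' := by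
  obtain ⟨v, hv⟩ := h6r_isPar_coc F x hx
  obtain ⟨w', v0, hv0, hw⟩ := h6s_lattice n (h6q_w (F.coc x) v) (by
    intro h hD
    obtain ⟨y, hy, hP⟩ := h6s_exists_y hneg F h hD
    rw [← hP x v hv]
    exact hdiv y hy)
  have hv2 : F.coc x sT = (v + v0) - h6c_rho sT (v + v0) := by
    rw [hv, h6c_rho_add, hv0]; abel
  have hw2 : h6q_w (F.coc x) (v + v0) = n • w' := by
    have : h6q_w (F.coc x) (v + v0) = h6q_w (F.coc x) v - (v0 - h6c_rho sS v0) := by
      unfold h6q_w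
      rw [h6c_rho_add]; abel
    rw [this, hw]; abel
  obtain ⟨x', hx'⟩ := h6s_div hneg F x n hn (v + v0) w' hv2 hw2
  refine ⟨x', fun γ htr => ?_, hx'⟩
  have h1 := hx γ htr
  rw [hx'] at h1
  have h2 : n * x' (Additive.ofMul γ) = 0 := by
    simpa using h1
  rcases mul_eq_zero.mp h2 with h3 | h3
  · exact absurd h3 hn
  · exact h3

end StepC

end Fermat.Agent.Lib.S41
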