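/-
S41 project, (T1′) group theory (helper7), part 1: toolkit on lines in a 2-dimensional vector
space and on unipotent endomorphisms.
-/
import Mathlib
import Fermat.Agent.Lib.S41.H7NonEisGrp

set_option autoImplicit false

namespace Fermat.Agent.Lib.S41

section lines

variable {K : Type*} [Field K] {V : Type*} [AddCommGroup V] [Module K V]

/-- A proper nonzero subspace of a 2-dimensional space is a line. -/
theorem h7g2_finrank_line [Module.Finite K V] (hV : Module.finrank K V = 2)
    {N : Submodule K V} (h0 : N ≠ ⊥) (h1 : N ≠ ⊤) : Module.finrank K N = 1 := by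
  have hle : Module.finrank K N ≤ 2 := hV ▸ Submodule.finrank_le N
  have hne0 : Module.finrank K N ≠ 0 := by
    intro h
    exact h0 (Submodule.finrank_eq_zero.mp h)
  have hne2 : Module.finrank K N ≠ 2 := by
    intro h
    exact h1 (Submodule.eq_top_of_finrank_eq (by rw [h, hV]))
  omega

/-- A line is spanned by any of its nonzero vectors. -/
theorem h7g2_exists_smul_of_mem_line [Module.Finite K V] {N : Submodule K V}
    (hN : Module.finrank K N = 1) {w : V} (hw : w ∈ N) (hw0 : w ≠ 0) {v : V} (hv : v ∈ N) :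
    ∃ c : K, v = c • w := by
  have hw' : (⟨w, hw⟩ : N) ≠ 0 := fun h => hw0 (congrArg Subtype.val h)
  obtain ⟨c, hc⟩ := (finrank_eq_one_iff_of_nonzero' (⟨w, hw⟩ : N) hw').mp hN ⟨v, hv⟩
  exact ⟨c, (congrArg Subtype.val hc).symm⟩

/-- Two lines, one contained in the other, are equal. -/
theorem h7g2_line_eq_of_le [Module.Finite K V] {N N' : Submodule K V}
    (hN : Module.finrank K N = 1) (hN' : Module.finrank K N' = 1) (hle : N ≤ N') : N = N' :=
  Submodule.eq_of_le_of_finrank_eq hle (by rw [hN, hN'])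

/-- Two distinct lines in a plane: every vector decomposes. -/
theorem h7g2_decomp [Module.Finite K V] (hV : Module.finrank K V = 2) {N N' : Submodule K V}
    (hN : Module.finrank K N = 1) (hN' : Module.finrank K N' = 1) (hne : N ≠ N') {e e' : V}
    (he : e ∈ N) (he0 : e ≠ 0) (he' : e' ∈ N') (he'0 : e' ≠ 0) (v : V) :
    ∃ x y : K, v = x • e + y • e' := by
  have hinf : N ⊓ N' = ⊥ := by
    by_contra hcon
    obtain ⟨w, hw, hw0⟩ := (Submodule.ne_bot_iff _).mp hcon
    apply hne
    have h1 : ∀ M : Submodule K V, Module.finrank K M = 1 → w ∈ M →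
        M = Submodule.span K {w} := by
      intro M hM hwM
      apply le_antisymm
      · intro v hv
        obtain ⟨c, hc⟩ := h7g2_exists_smul_of_mem_line hM hwM hw0 hv
        rw [hc]
        exact Submodule.smul_mem _ _ (Submodule.mem_span_singleton_self w)
      · rw [Submodule.span_singleton_le_iff_mem]
        exact hwM
    rw [h1 N hN hw.1, h1 N' hN' hw.2]
  have hsup : N ⊔ N' = ⊤ := by
    apply Submodule.eq_top_of_finrank_eq
    have := Submodule.finrank_sup_add_finrank_inf_eq N N'
    rw [hinf, finrank_bot, hN, hN'] at this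
    rw [hV]; omega
  have hv : v ∈ N ⊔ N' := by rw [hsup]; trivial
  obtain ⟨a, ha, b, hb, hab⟩ := Submodule.mem_sup.mp hv
  obtain ⟨x, hx⟩ := h7g2_exists_smul_of_mem_line hN he he0 ha
  obtain ⟨y, hy⟩ := h7g2_exists_smul_of_mem_line hN' he' he'0 hb
  exact ⟨x, y, by rw [← hab, hx, hy]⟩

/-- Two distinct lines in a plane: independence. -/
theorem h7g2_indep [Module.Finite K V] {N N' : Submodule K V}
    (hN : Module.finrank K N = 1) (hN' : Module.finrank K N' = 1) (hne : N ≠ N') {e e' : V}
    (he : e ∈ N) (he0 : e ≠ 0) (he' : e' ∈ N') (he'0 : e' ≠ 0) {x y : K}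
    (h : x • e + y • e' = 0) : x = 0 ∧ y = 0 := by
  by_contra hcon
  apply hne
  have hx : x ≠ 0 := by
    intro hx
    rw [hx, zero_smul, zero_add] at h
    rcases smul_eq_zero.mp h with h | h
    · exact hcon ⟨hx, h⟩
    · exact he'0 h
  -- `e ∈ N'`
  have heN' : e ∈ N' := by
    have : e = (-(x⁻¹ * y)) • e' := by
      have h1 : x • e = -(y • e') := eq_neg_of_add_eq_zero_left h
      calc e = x⁻¹ • (x • e) := by rw [smul_smul, inv_mul_cancel₀ hx, one_smul]
        _ = x⁻¹ • (-(y • e')) := by rw [h1]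
        _ = (-(x⁻¹ * y)) • e' := by rw [smul_neg, smul_smul, neg_smul]
    rw [this]
    exact Submodule.smul_mem _ _ he'
  apply h7g2_line_eq_of_le hN hN'
  intro v hv
  obtain ⟨c, hc⟩ := h7g2_exists_smul_of_mem_line hN he he0 hv
  rw [hc]
  exact Submodule.smul_mem _ _ heN'

end lines

section unip

variable {p : ℕ} [Fact p.Prime] {V : Type*} [AddCommGroup V] [Module (ZMod p) V]
  {G : Type*} [Group G] [DistribMulAction G V]

theorem h7g2_lin_pow_apply (g : G) (k : ℕ) (v : V) : ((h7n_lin p V g) ^ k) v = (g ^ k) • v := by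
  rw [← map_pow]; rfl

/-- An element of `p`-power order fixes a nonzero vector. -/
theorem h7g2_fixed_of_ppow [Module.Finite (ZMod p) V] (hV : Module.finrank (ZMod p) V = 2)
    (g : G) (a : ℕ) (h : ∀ v : V, (g ^ (p ^ a)) • v = v) : ∃ v : V, v ≠ 0 ∧ g • v = v := by
  classical
  have hfinV : Finite V := Module.finite_of_finite (ZMod p)
  have hcard : Nat.card V = p ^ 2 := by
    have h := Module.natCard_eq_pow_finrank (K := ZMod p) (V := V)
    rw [hV, Nat.card_zmod] at h
    exact h
  let t : Equiv.Perm V := MulAction.toPermHom G V g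
  have ht : t ^ (p ^ a) = 1 := by
    show (MulAction.toPermHom G V g) ^ (p ^ a) = 1
    rw [← map_pow]
    ext v
    simpa using h v
  let K : Subgroup (Equiv.Perm V) := Subgroup.zpowers t
  have hK : IsPGroup p K := by
    rintro ⟨k, z, rfl⟩
    refine ⟨a, ?_⟩
    apply Subtype.ext
    simp only [Subgroup.coe_pow, Subgroup.coe_one]
    show (t ^ z) ^ (p ^ a) = 1
    rw [← zpow_natCast, ← zpow_mul, mul_comm, zpow_mul, zpow_natCast, ht, one_zpow]
  have ht0 : t 0 = 0 := by
    show (MulAction.toPermHom G V g) 0 = 0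
    simp
  have hfix0 : (0 : V) ∈ MulAction.fixedPoints K V := by
    rintro ⟨k, z, rfl⟩
    show (t ^ z) 0 = 0
    have : ∀ n : ℕ, (t ^ n) 0 = 0 := by
      intro n
      induction n with
      | zero => simp
      | succ n ih => rw [pow_succ, Equiv.Perm.mul_apply, ht0, ih]
    rcases Int.eq_nat_or_neg z with ⟨n, rfl | rfl⟩
    · simpa using this n
    · rw [zpow_neg, zpow_natCast, Equiv.Perm.inv_eq_iff_eq]
      exact (this n).symm
  obtain ⟨b, hb, hb0⟩ := hK.exists_fixed_point_of_prime_dvd_card_of_fixed_point (α := V)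
    (by rw [hcard]; exact dvd_pow_self p (by norm_num)) hfix0
  refine ⟨b, fun h => hb0 h.symm, ?_⟩
  have := hb ⟨t, Subgroup.mem_zpowers t⟩
  exact this

/-- An element of `p`-power order is unipotent. -/
theorem h7g2_unip_of_ppow [Module.Finite (ZMod p) V] (hV : Module.finrank (ZMod p) V = 2)
    (g : G) (a : ℕ) (h : ∀ v : V, (g ^ (p ^ a)) • v = v) : (h7n_lin p V g - 1) ^ 2 = 0 := by
  have hpow : (h7n_lin p V g) ^ (p ^ a) = 1 := by
    ext v
    rw [h7g2_lin_pow_apply]
    exact h v
  have hdet : LinearMap.det (h7n_lin p V g) = 1 := by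
    have h1 : (LinearMap.det (h7n_lin p V g)) ^ (p ^ a) = 1 := by
      rw [← map_pow, hpow, map_one]
    rwa [ZMod.pow_card_pow] at h1
  exact h7n_sub_one_sq hV _ hdet (h7g2_fixed_of_ppow hV g a h)

/-- Powers of a unipotent endomorphism. -/
theorem h7g2_unip_pow (f : Module.End (ZMod p) V) (h : (f - 1) ^ 2 = 0) (k : ℕ) :
    f ^ k = 1 + k • (f - 1) := by
  induction k with
  | zero => simp
  | succ k ih =>
    have hf : f = 1 + (f - 1) := by abel
    rw [pow_succ, ih]
    nth_rewrite 2 [hf]
    have h2 : (f - 1) * (f - 1) = 0 := by rw [← sq]; exact h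
    rw [mul_add, mul_one, add_mul, one_mul, smul_mul_assoc, h2, smul_zero, add_zero, succ_nsmul]
    abel

end unip

section nilp

variable {K : Type*} [Field K] {V : Type*} [AddCommGroup V] [Module K V]

theorem h7g2_sq_apply (n : Module.End K V) (h : n ^ 2 = 0) (v : V) : n (n v) = 0 := by
  have := congrArg (fun f : Module.End K V => f v) h
  simpa [sq, Module.End.mul_apply] using this

/-- The kernel of a nonzero square-zero endomorphism of a plane is a line. -/
theorem h7g2_ker_line [Module.Finite K V] (hV : Module.finrank K V = 2) (n : Module.End K V)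
    (hn0 : n ≠ 0) (hn2 : n ^ 2 = 0) : Module.finrank K (LinearMap.ker n) = 1 := by
  apply h7g2_finrank_line hV
  · intro hbot
    apply hn0
    ext v
    have h1 : n v ∈ LinearMap.ker n := by
      rw [LinearMap.mem_ker]; exact h7g2_sq_apply n hn2 v
    rw [hbot, Submodule.mem_bot] at h1
    simpa using h1
  · intro htop
    apply hn0
    ext v
    have : v ∈ LinearMap.ker n := by rw [htop]; trivial
    simpa using this

/-- A nontrivial unipotent endomorphism of a plane has a unique stable line. -/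
theorem h7g2_unip_unique_line [Module.Finite K V] (hV : Module.finrank K V = 2)
    (f : Module.End K V) (hf1 : f ≠ 1) (hf : (f - 1) ^ 2 = 0) {N : Submodule K V}
    (hN : Module.finrank K N = 1) (hst : ∀ v ∈ N, f v ∈ N) : N = LinearMap.ker (f - 1) := by
  have hn0 : f - 1 ≠ 0 := sub_ne_zero.mpr hf1
  have hker := h7g2_ker_line hV (f - 1) hn0 hf
  apply h7g2_line_eq_of_le hN hker
  have hpos : 0 < Module.finrank K N := by rw [hN]; norm_num
  obtain ⟨⟨w, hw⟩, hw0'⟩ := Module.finrank_pos_iff_exists_ne_zero.mp hpos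
  have hw0 : w ≠ 0 := fun h => hw0' (Subtype.ext h)
  obtain ⟨μ, hμ⟩ := h7g2_exists_smul_of_mem_line hN hw hw0 (hst w hw)
  have h1 : (f - 1) w = (μ - 1) • w := by
    rw [LinearMap.sub_apply, hμ, Module.End.one_apply, sub_smul, one_smul]
  have h2 : (f - 1) ((f - 1) w) = 0 := h7g2_sq_apply _ hf w
  rw [h1, map_smul, h1, smul_smul] at h2
  have hμ1 : μ = 1 := by
    rcases smul_eq_zero.mp h2 with h | h
    · have : μ - 1 = 0 := by
        rcases mul_eq_zero.mp h with h' | h' <;> exact h'
      exact sub_eq_zero.mp this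
    · exact absurd h hw0
  have hwker : w ∈ LinearMap.ker (f - 1) := by
    rw [LinearMap.mem_ker, h1, hμ1, sub_self, zero_smul]
  intro v hv
  obtain ⟨c, hc⟩ := h7g2_exists_smul_of_mem_line hN hw hw0 hv
  rw [hc]
  exact Submodule.smul_mem _ _ hwker

/-- If `f`, `w` and `f * w` are unipotent (`f ≠ 1`) then `w` preserves the fixed line of `f`. -/
theorem h7g2_unip_pair [Module.Finite K V] (hV : Module.finrank K V = 2)
    (f w : Module.End K V) (hf1 : f ≠ 1) (hf : (f - 1) ^ 2 = 0) (hw : (w - 1) ^ 2 = 0)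
    (hfw : (f * w - 1) ^ 2 = 0) {e : V} (he : e ∈ LinearMap.ker (f - 1)) :
    w e ∈ LinearMap.ker (f - 1) := by
  by_cases he0 : e = 0
  · rw [he0, map_zero]; exact Submodule.zero_mem _
  have hn0 : f - 1 ≠ 0 := sub_ne_zero.mpr hf1
  have hker := h7g2_ker_line hV (f - 1) hn0 hf
  set n := f - 1 with hn
  set m := w - 1 with hm
  have hne : n e = 0 := LinearMap.mem_ker.mp he
  have hnn : ∀ v, n (n v) = 0 := h7g2_sq_apply n hf
  have hmm : ∀ v, m (m v) = 0 := h7g2_sq_apply m hw
  have hfw' : f * w - 1 = n + m + n * m := by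
    rw [hn, hm]; noncomm_ring
  have hs : ∀ v, (n + m + n * m) ((n + m + n * m) v) = 0 := by
    rw [← hfw']; exact h7g2_sq_apply _ hfw
  set x := n (m e) with hx
  have hxker : x ∈ LinearMap.ker n := by rw [LinearMap.mem_ker]; exact hnn _
  obtain ⟨c, hc⟩ := h7g2_exists_smul_of_mem_line hker he he0 hxker
  have hnx : n x = 0 := hnn _
  -- the relation from `(f w - 1)² e = 0`
  have h1 : (n + m + n * m) e = m e + x := by
    simp only [LinearMap.add_apply, Module.End.mul_apply, hne, zero_add, hx]
  have h2 : (n + m + n * m) (m e + x) = x + m x + n (m x) := by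
    simp only [LinearMap.add_apply, Module.End.mul_apply, map_add, hmm, hnx, ← hx, map_zero]
    abel
  have h3 : x + m x + n (m x) = 0 := by rw [← h2, ← h1]; exact hs e
  -- apply `n`
  have h4 : n (m x) = c • x := by rw [hc, map_smul, map_smul, ← hx, hc]
  have h5 : n (x + m x + n (m x)) = c • x := by
    rw [map_add, map_add, hnx, hnn, zero_add, add_zero, h4]
  rw [h3, map_zero] at h5
  have hx0 : x = 0 := by
    rcases smul_eq_zero.mp h5.symm with h | h
    · rw [hc, h, zero_smul]
    · exact h
  rw [LinearMap.mem_ker]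
  have : w e = e + m e := by rw [hm, LinearMap.sub_apply, Module.End.one_apply]; abel
  rw [this, map_add, hne, zero_add]
  exact hx0

end nilp

end Fermat.Agent.Lib.S41
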