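/-
S41 project, (T1′) group theory (helper7), part 2: the main abstract statement.

`𝒢` acts irreducibly on a plane `V` over `ZMod p` (`p` odd); `G₁ ⊴ 𝒢` does not act trivially;
`ω : G₁ →* C` is a nontrivial character with values in a cyclic group of order `p`.  Then there are
`g₀ ∈ G₁` with `ω g₀ ≠ 1` and a prime `r ≠ p` such that no power `g₀ ^ k` with `k` prime to `r`
fixes a nonzero vector.
-/
import Mathlib
import Fermat.Agent.Lib.S41.H7Grp2
import Fermat.Agent.Lib.S41.H1Grp

set_option autoImplicit false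

namespace Fermat.Agent.Lib.S41

section action

variable {p : ℕ} [Fact p.Prime] {V : Type*} [AddCommGroup V] [Module (ZMod p) V]
  {G : Type*} [Group G] [DistribMulAction G V]

omit [Fact p.Prime] [Module (ZMod p) V] in
/-- Elements acting identically have powers acting identically. -/
theorem h7g2_pow_smul_congr {g g' : G} (h : ∀ v : V, g • v = g' • v) (k : ℕ) (v : V) :
    (g ^ k) • v = (g' ^ k) • v := by
  induction k generalizing v with
  | zero => simp
  | succ k ih => rw [pow_succ, pow_succ, mul_smul, mul_smul, h v, ih]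

omit [Fact p.Prime] [Module (ZMod p) V] in
theorem h7g2_pow_smul_of_fix {g : G} {v : V} (h : g • v = v) (k : ℕ) : (g ^ k) • v = v := by
  induction k with
  | zero => simp
  | succ k ih => rw [pow_succ, mul_smul, h, ih]

omit [Fact p.Prime] [Module (ZMod p) V] in
/-- If `g ^ n` acts trivially and `g ^ k` fixes `v` with `k` prime to `n`, then `g` fixes `v`. -/
theorem h7g2_fix_of_pow_fix {g : G} {n : ℕ} (hn : ∀ v : V, (g ^ n) • v = v) {k : ℕ}
    (hk : Nat.Coprime k n) {v : V} (hv : (g ^ k) • v = v) : g • v = v := by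
  rcases Nat.lt_or_ge 1 n with h1 | h1
  · obtain ⟨m, -, hm⟩ := Nat.exists_mul_mod_eq_one_of_coprime hk h1
    have h2 : k * m = n * (k * m / n) + 1 := by
      have := Nat.div_add_mod (k * m) n
      rw [hm] at this
      exact this.symm
    have h3 : (g ^ (k * m)) • v = v := by
      rw [pow_mul]; exact h7g2_pow_smul_of_fix hv m
    rw [h2, pow_succ, mul_smul, pow_mul] at h3
    have h4 : ∀ t : ℕ, ∀ w : V, ((g ^ n) ^ t) • w = w := by
      intro t w
      exact h7g2_pow_smul_of_fix (hn w) t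
    rw [h4] at h3
    exact h3
  · interval_cases n
    · have : k = 1 := by simpa using hk
      rw [this, pow_one] at hv
      exact hv
    · simpa using hn v

/-- `Bad g r`: some power `g ^ k` with `k` prime to `r` fixes a nonzero vector. -/
def h7g2_Bad (V : Type*) [AddCommGroup V] {G : Type*} [Group G] [DistribMulAction G V]
    (g : G) (r : ℕ) : Prop :=
  ∃ k : ℕ, k.Coprime r ∧ ∃ v : V, v ≠ 0 ∧ (g ^ k) • v = v

/-- **(D')** A diagonal element, bad at every prime `r ≠ p`, whose eigenvalues `a, b` satisfy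
`b ^ k = 1 → a ^ k = 1`, has `a = 1`. -/
theorem h7g2_diag_one [Module.Finite (ZMod p) V] {N N' : Submodule (ZMod p) V}
    (hN : Module.finrank (ZMod p) N = 1) (hN' : Module.finrank (ZMod p) N' = 1) (hne : N ≠ N')
    {e e' : V} (he : e ∈ N) (he0 : e ≠ 0) (he' : e' ∈ N') (he'0 : e' ≠ 0)
    (hV : Module.finrank (ZMod p) V = 2) (σ : G) {a b : ZMod p}
    (ha : σ • e = a • e) (hb : σ • e' = b • e') (hab : ∀ k : ℕ, b ^ k = 1 → a ^ k = 1)
    (hbad : ∀ r : ℕ, r.Prime → r ≠ p → h7g2_Bad V σ r) : a = 1 := by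
  have hp : p.Prime := Fact.out
  have ha0 : a ≠ 0 := by
    intro h0
    rw [h0, zero_smul] at ha
    have : e = σ⁻¹ • σ • e := by simp
    rw [ha, smul_zero] at this
    exact he0 this
  by_contra ha1
  have hpow : a ^ (p - 1) = 1 := ZMod.pow_card_sub_one_eq_one ha0
  have hd1 : orderOf a ≠ 1 := by
    rw [Ne, orderOf_eq_one_iff]; exact ha1
  obtain ⟨r, hr, hrd⟩ := Nat.exists_prime_and_dvd hd1
  have hrp : r ≠ p := by
    intro h
    have h1 : r ∣ p - 1 := dvd_trans hrd (orderOf_dvd_of_pow_eq_one hpow)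
    have h2 : r ≤ p - 1 := Nat.le_of_dvd (Nat.sub_pos_of_lt hp.one_lt) h1
    have := hp.one_lt
    omega
  obtain ⟨k, hk, v, hv0, hv⟩ := hbad r hr hrp
  have hlin : ∀ (g : G) (c : ZMod p) (w : V), g • (c • w) = c • (g • w) := by
    intro g c w
    have : g • (c • w) = h7n_lin p V g (c • w) := rfl
    rw [this, map_smul, h7n_lin_apply]
  have hpe : ∀ j : ℕ, (σ ^ j) • e = a ^ j • e := by
    intro j
    induction j with
    | zero => simp
    | succ j ih => rw [pow_succ, mul_smul, ha, hlin, ih, smul_smul, pow_succ, mul_comm]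
  have hpe' : ∀ j : ℕ, (σ ^ j) • e' = b ^ j • e' := by
    intro j
    induction j with
    | zero => simp
    | succ j ih => rw [pow_succ, mul_smul, hb, hlin, ih, smul_smul, pow_succ, mul_comm]
  obtain ⟨x, y, hxy⟩ := h7g2_decomp hV hN hN' hne he he0 he' he'0 v
  have hlink : ∀ (c : ZMod p) (w : V), (σ ^ k) • (c • w) = c • ((σ ^ k) • w) := hlin (σ ^ k)
  have h1 : (x * (a ^ k - 1)) • e + (y * (b ^ k - 1)) • e' = 0 := by
    have h2 : (σ ^ k) • v = (x * a ^ k) • e + (y * b ^ k) • e' := by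
      rw [hxy, smul_add, hlink, hlink, hpe, hpe', smul_smul, smul_smul]
    rw [hv] at h2
    have h3 : (x * (a ^ k - 1)) • e + (y * (b ^ k - 1)) • e' =
        ((x * a ^ k) • e + (y * b ^ k) • e') - (x • e + y • e') := by
      rw [mul_sub, mul_sub, sub_smul, sub_smul, mul_one, mul_one]
      abel
    rw [h3, ← h2, ← hxy, sub_self]
  obtain ⟨h4, h5⟩ := h7g2_indep hN hN' hne he he0 he' he'0 h1
  have hak : a ^ k = 1 := by
    by_cases hx : x = 0
    · have hy : y ≠ 0 := by
        intro hy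
        apply hv0
        rw [hxy, hx, hy, zero_smul, zero_smul, add_zero]
      rcases mul_eq_zero.mp h5 with h | h
      · exact absurd h hy
      · exact hab k (sub_eq_zero.mp h)
    · rcases mul_eq_zero.mp h4 with h | h
      · exact absurd h hx
      · exact sub_eq_zero.mp h
  have h6 : r ∣ k := dvd_trans hrd (orderOf_dvd_of_pow_eq_one hak)
  have h7 : r ∣ Nat.gcd k r := Nat.dvd_gcd h6 dvd_rfl
  rw [hk] at h7
  exact hr.one_lt.ne' (Nat.dvd_one.mp h7)

end action

section main

variable {p : ℕ} [Fact p.Prime] {V : Type*} [AddCommGroup V] [Module (ZMod p) V]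
  {𝒢 : Type*} [Group 𝒢] [DistribMulAction 𝒢 V]

/-- The translate `s N` of a subspace. -/
noncomputable def h7g2_conjLine (s : 𝒢) (N : Submodule (ZMod p) V) : Submodule (ZMod p) V :=
  N.comap (h7n_lin p V s⁻¹)

theorem h7g2_mem_conjLine (s : 𝒢) (N : Submodule (ZMod p) V) (v : V) :
    v ∈ h7g2_conjLine s N ↔ s⁻¹ • v ∈ N := Iff.rfl

theorem h7g2_smul_mem_conjLine (s : 𝒢) {N : Submodule (ZMod p) V} {v : V} (hv : v ∈ N) :
    s • v ∈ h7g2_conjLine s N := by
  rw [h7g2_mem_conjLine, inv_smul_smul]; exact hv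

theorem h7g2_conjLine_stable (G₁ : Subgroup 𝒢) [hn : G₁.Normal] (s : 𝒢)
    {N : Submodule (ZMod p) V} (hst : ∀ g : G₁, ∀ v ∈ N, g • v ∈ N) :
    ∀ g : G₁, ∀ v ∈ h7g2_conjLine s N, g • v ∈ h7g2_conjLine s N := by
  intro g v hv
  rw [h7g2_mem_conjLine] at hv ⊢
  have hmem : s⁻¹ * (g : 𝒢) * s ∈ G₁ := by
    have := hn.conj_mem g.1 g.2 s⁻¹
    simpa using this
  have h1 := hst ⟨_, hmem⟩ _ hv
  have h2 : (⟨s⁻¹ * (g : 𝒢) * s, hmem⟩ : G₁) • (s⁻¹ • v) = s⁻¹ • (g • v) := by
    rw [Subgroup.smul_def, Subgroup.smul_def]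
    simp [mul_smul]
  rw [← h2]
  exact h1

theorem h7g2_line_ne [Module.Finite (ZMod p) V] (hV : Module.finrank (ZMod p) V = 2)
    {N : Submodule (ZMod p) V} (hN : Module.finrank (ZMod p) N = 1) : N ≠ ⊥ ∧ N ≠ ⊤ := by
  constructor
  · intro h
    rw [h, finrank_bot] at hN
    omega
  · intro h
    rw [h, finrank_top, hV] at hN
    omega

theorem h7g2_conjLine_finrank [Module.Finite (ZMod p) V] (hV : Module.finrank (ZMod p) V = 2)
    (s : 𝒢) {N : Submodule (ZMod p) V} (hN : Module.finrank (ZMod p) N = 1) :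
    Module.finrank (ZMod p) (h7g2_conjLine s N) = 1 := by
  obtain ⟨h0, h1⟩ := h7g2_line_ne hV hN
  apply h7g2_finrank_line hV
  · obtain ⟨w, hw, hw0⟩ := (Submodule.ne_bot_iff _).mp h0
    intro hbot
    have := h7g2_smul_mem_conjLine s hw
    rw [hbot, Submodule.mem_bot] at this
    apply hw0
    have h2 : w = s⁻¹ • s • w := by simp
    rw [h2, this, smul_zero]
  · intro htop
    apply h1
    rw [eq_top_iff]
    intro w _
    have : s • w ∈ h7g2_conjLine s N := by rw [htop]; trivial
    rw [h7g2_mem_conjLine, inv_smul_smul] at this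
    exact this

/-- **Case 1**: if every element of the normal subgroup `G₁` is bad at every prime `r ≠ p`, and
`𝒢` acts irreducibly, then `G₁` acts trivially. -/
theorem h7g2_case1 [Module.Finite (ZMod p) V] (hV : Module.finrank (ZMod p) V = 2)
    (G₁ : Subgroup 𝒢) [hn : G₁.Normal]
    (hirr : ∀ N : Submodule (ZMod p) V, (∀ g : 𝒢, ∀ v ∈ N, g • v ∈ N) → N = ⊥ ∨ N = ⊤)
    (hbad : ∀ σ : G₁, ∀ r : ℕ, r.Prime → r ≠ p → h7g2_Bad V σ r) :
    ∀ σ : G₁, ∀ v : V, σ • v = v := by
  classical
  have hp : p.Prime := Fact.out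
  have hfinV : Finite V := Module.finite_of_finite (ZMod p)
  -- Step 1: a `G₁`-stable line
  obtain ⟨N₀, hN₀0, hN₀1, hN₀st⟩ := h1g_exists_stable_line (p := p) (V := V) (G := G₁) hV
    (MulAction.toPermHom G₁ V) (by
      intro g r hr b hgb
      have htriv : ∀ v : V, (g ^ (r ^ b)) • v = v := by
        intro v
        have := congrArg (fun t : Equiv.Perm V => t v) hgb
        rw [← map_pow] at this
        simpa using this
      by_cases hrp : r = p
      · subst hrp
        exact h7g2_fixed_of_ppow hV g b htriv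
      · obtain ⟨k, hk, v, hv0, hv⟩ := hbad g r hr hrp
        exact ⟨v, hv0, h7g2_fix_of_pow_fix htriv (Nat.Coprime.pow_right b hk) hv⟩)
  have hN₀ : Module.finrank (ZMod p) N₀ = 1 := h7g2_finrank_line hV hN₀0 hN₀1
  -- Step 2: uniqueness or a second stable line
  by_cases huniq : ∀ N' : Submodule (ZMod p) V, Module.finrank (ZMod p) N' = 1 →
      (∀ g : G₁, ∀ v ∈ N', g • v ∈ N') → N' = N₀
  · exfalso
    have hst : ∀ g : 𝒢, ∀ v ∈ N₀, g • v ∈ N₀ := by
      intro s v hv
      have h1 := huniq (h7g2_conjLine s N₀) (h7g2_conjLine_finrank hV s hN₀)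
        (h7g2_conjLine_stable G₁ s hN₀st)
      have h2 := h7g2_smul_mem_conjLine s hv
      rwa [h1] at h2
    rcases hirr N₀ hst with h | h
    · exact hN₀0 h
    · exact hN₀1 h
  · push Not at huniq
    obtain ⟨N', hN', hN'st, hne'⟩ := huniq
    have hne : N₀ ≠ N' := fun h => hne' h.symm
    obtain ⟨e, he, he0⟩ := (Submodule.ne_bot_iff _).mp hN₀0
    obtain ⟨e', he', he'0⟩ := (Submodule.ne_bot_iff _).mp (h7g2_line_ne hV hN').1
    -- eigenvalues
    have heig : ∀ σ : G₁, ∃ a b : ZMod p, σ • e = a • e ∧ σ • e' = b • e' := by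
      intro σ
      obtain ⟨a, ha⟩ := h7g2_exists_smul_of_mem_line hN₀ he he0 (hN₀st σ e he)
      obtain ⟨b, hb⟩ := h7g2_exists_smul_of_mem_line hN' he' he'0 (hN'st σ e' he')
      exact ⟨a, b, ha, hb⟩
    have hlin : ∀ (g : G₁) (c : ZMod p) (w : V), g • (c • w) = c • (g • w) := by
      intro g c w
      have : g • (c • w) = h7n_lin p V g (c • w) := rfl
      rw [this, map_smul, h7n_lin_apply]
    have hlin' : ∀ (g : 𝒢) (c : ZMod p) (w : V), g • (c • w) = c • (g • w) := by
      intro g c w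
      have : g • (c • w) = h7n_lin p V g (c • w) := rfl
      rw [this, map_smul, h7n_lin_apply]
    -- trivial action from `a = b = 1`
    have htriv_of : ∀ σ : G₁, σ • e = e → σ • e' = e' → ∀ v : V, σ • v = v := by
      intro σ h1 h2 v
      obtain ⟨x, y, hxy⟩ := h7g2_decomp hV hN₀ hN' hne he he0 he' he'0 v
      rw [hxy, smul_add, hlin, hlin, h1, h2]
    by_cases hsc : ∀ σ : G₁, ∃ a : ZMod p, σ • e = a • e ∧ σ • e' = a • e'
    · -- all scalar
      intro σ
      obtain ⟨a, ha, hb⟩ := hsc σ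
      have ha1 : a = 1 := h7g2_diag_one hN₀ hN' hne he he0 he' he'0 hV σ ha hb
        (fun k hk => hk) (hbad σ)
      rw [ha1, one_smul] at ha hb
      exact htriv_of σ ha hb
    · exfalso
      push Not at hsc
      obtain ⟨σ₁, hσ₁⟩ := hsc
      obtain ⟨a₁, b₁, ha₁, hb₁⟩ := heig σ₁
      have hab₁ : a₁ ≠ b₁ := by
        intro h
        exact hσ₁ a₁ ha₁ (h ▸ hb₁)
      -- the only stable lines are `N₀` and `N'`
      have hlines : ∀ N'' : Submodule (ZMod p) V, Module.finrank (ZMod p) N'' = 1 →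
          (∀ g : G₁, ∀ v ∈ N'', g • v ∈ N'') → N'' = N₀ ∨ N'' = N' := by
        intro N'' hN'' hst''
        obtain ⟨w, hw, hw0⟩ := (Submodule.ne_bot_iff _).mp (h7g2_line_ne hV hN'').1
        obtain ⟨μ, hμ⟩ := h7g2_exists_smul_of_mem_line hN'' hw hw0 (hst'' σ₁ w hw)
        obtain ⟨x, y, hxy⟩ := h7g2_decomp hV hN₀ hN' hne he he0 he' he'0 w
        have h1 : (x * (a₁ - μ)) • e + (y * (b₁ - μ)) • e' = 0 := by
          have h2 : σ₁ • w = (x * a₁) • e + (y * b₁) • e' := by
            rw [hxy, smul_add, hlin, hlin, ha₁, hb₁, smul_smul, smul_smul]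
          rw [hμ] at h2
          have h3 : (x * (a₁ - μ)) • e + (y * (b₁ - μ)) • e' =
              ((x * a₁) • e + (y * b₁) • e') - μ • (x • e + y • e') := by
            rw [mul_sub, mul_sub, sub_smul, sub_smul, smul_add, smul_smul, smul_smul,
              mul_comm μ x, mul_comm μ y]
            abel
          rw [h3, ← h2, ← hxy, sub_self]
        obtain ⟨h4, h5⟩ := h7g2_indep hN₀ hN' hne he he0 he' he'0 h1
        have hshare : ∀ M : Submodule (ZMod p) V, Module.finrank (ZMod p) M = 1 → w ∈ M →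
            N'' = M := by
          intro M hM hwM
          apply h7g2_line_eq_of_le hN'' hM
          intro v hv
          obtain ⟨c, hc⟩ := h7g2_exists_smul_of_mem_line hN'' hw hw0 hv
          rw [hc]
          exact Submodule.smul_mem _ _ hwM
        by_cases hx : x = 0
        · right
          apply hshare N' hN'
          rw [hxy, hx, zero_smul, zero_add]
          exact Submodule.smul_mem _ _ he'
        · left
          apply hshare N₀ hN₀
          have hμa : a₁ - μ = 0 := by
            rcases mul_eq_zero.mp h4 with h | h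
            · exact absurd h hx
            · exact h
          have hy : y = 0 := by
            rcases mul_eq_zero.mp h5 with h | h
            · exact h
            · exfalso
              apply hab₁
              rw [sub_eq_zero.mp hμa, sub_eq_zero.mp h]
          rw [hxy, hy, zero_smul, add_zero]
          exact Submodule.smul_mem _ _ he
      -- an element of `𝒢` moving `N₀`
      have hmove : ∃ s : 𝒢, h7g2_conjLine s N₀ ≠ N₀ := by
        by_contra hcon
        push Not at hcon
        have hst : ∀ g : 𝒢, ∀ v ∈ N₀, g • v ∈ N₀ := by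
          intro s v hv
          have h2 := h7g2_smul_mem_conjLine s hv
          rwa [hcon s] at h2
        rcases hirr N₀ hst with h | h
        · exact hN₀0 h
        · exact hN₀1 h
      obtain ⟨s, hs⟩ := hmove
      have hs0 : h7g2_conjLine s N₀ = N' := by
        rcases hlines _ (h7g2_conjLine_finrank hV s hN₀) (h7g2_conjLine_stable G₁ s hN₀st)
          with h | h
        · exact absurd h hs
        · exact h
      have hs1 : h7g2_conjLine s N' = N₀ := by
        rcases hlines _ (h7g2_conjLine_finrank hV s hN') (h7g2_conjLine_stable G₁ s hN'st)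
          with h | h
        · exact h
        · exfalso
          -- `s e ∈ s N₀ = N'` and `s e ∈ s N'`?  no: use `s⁻¹`
          have h1 : s • e ∈ N' := by
            have := h7g2_smul_mem_conjLine s he
            rwa [hs0] at this
          have h2 : s • e ∈ h7g2_conjLine s N' := by rw [h]; exact h1
          rw [h7g2_mem_conjLine, inv_smul_smul] at h2
          -- `e ∈ N₀ ⊓ N'`
          apply hne
          apply h7g2_line_eq_of_le hN₀ hN'
          intro v hv
          obtain ⟨c, hc⟩ := h7g2_exists_smul_of_mem_line hN₀ he he0 hv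
          rw [hc]
          exact Submodule.smul_mem _ _ h2
      -- `s e = c e'`, `s e' = c' e`
      have hse : s • e ∈ N' := by
        have := h7g2_smul_mem_conjLine s he
        rwa [hs0] at this
      have hse' : s • e' ∈ N₀ := by
        have := h7g2_smul_mem_conjLine s he'
        rwa [hs1] at this
      -- conjugates swap the eigenvalues
      have hswap : ∀ (σ : G₁) (a b : ZMod p), σ • e = a • e → σ • e' = b • e' →
          ∃ σ' : G₁, σ' • e = b • e ∧ σ' • e' = a • e' := by
        intro σ a b ha hb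
        have hmem : s⁻¹ * (σ : 𝒢) * s ∈ G₁ := by
          have := hn.conj_mem σ.1 σ.2 s⁻¹
          simpa using this
        refine ⟨⟨_, hmem⟩, ?_, ?_⟩
        · obtain ⟨c, hc⟩ := h7g2_exists_smul_of_mem_line hN' he' he'0 hse
          rw [Subgroup.smul_def]
          show (s⁻¹ * (σ : 𝒢) * s) • e = b • e
          rw [mul_smul, mul_smul, hc, hlin', ← Subgroup.smul_def, hb, smul_smul, mul_comm,
            ← smul_smul, ← hc, hlin', inv_smul_smul]
        · obtain ⟨c, hc⟩ := h7g2_exists_smul_of_mem_line hN₀ he he0 hse'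
          rw [Subgroup.smul_def]
          show (s⁻¹ * (σ : 𝒢) * s) • e' = a • e'
          rw [mul_smul, mul_smul, hc, hlin', ← Subgroup.smul_def, ha, smul_smul, mul_comm,
            ← smul_smul, ← hc, hlin', inv_smul_smul]
      -- every element has `a * b = 1`, hence `a = b = 1`
      have hone : ∀ (σ : G₁) (a b : ZMod p), σ • e = a • e → σ • e' = b • e' → a = 1 ∧ b = 1 := by
        intro σ a b ha hb
        obtain ⟨σ', ha', hb'⟩ := hswap σ a b ha hb
        have h1 : (σ * σ') • e = (a * b) • e := by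
          rw [mul_smul, ha', hlin, ha, smul_smul, mul_comm]
        have h2 : (σ * σ') • e' = (a * b) • e' := by
          rw [mul_smul, hb', hlin, hb, smul_smul]
        have hab : a * b = 1 := h7g2_diag_one hN₀ hN' hne he he0 he' he'0 hV (σ * σ') h1 h2
          (fun k hk => hk) (hbad (σ * σ'))
        have ha1 : a = 1 := by
          apply h7g2_diag_one hN₀ hN' hne he he0 he' he'0 hV σ ha hb _ (hbad σ)
          intro k hk
          have : (a * b) ^ k = 1 := by rw [hab, one_pow]
          rw [mul_pow, hk, mul_one] at this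
          exact this
        refine ⟨ha1, ?_⟩
        rw [ha1, one_mul] at hab
        exact hab
      obtain ⟨h1, h2⟩ := hone σ₁ a₁ b₁ ha₁ hb₁
      exact hab₁ (h1.trans h2.symm)

/-- **Case 2**: if the kernel of the action of `G₁` is contained in `ker ω` and every element
outside `ker ω` is bad at every prime `r ≠ p`, then `𝒢` does not act irreducibly. -/
theorem h7g2_case2 [Module.Finite (ZMod p) V] (hV : Module.finrank (ZMod p) V = 2) (hp2 : p ≠ 2)
    (G₁ : Subgroup 𝒢) [hn : G₁.Normal] {C : Type*} [CommGroup C] (ω : G₁ →* C)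
    (hCp : ∀ c : C, c ^ p = 1) (hCgen : ∀ c d : C, c ≠ 1 → ∃ j : ℕ, c ^ j = d)
    (hirr : ∀ N : Submodule (ZMod p) V, (∀ g : 𝒢, ∀ v ∈ N, g • v ∈ N) → N = ⊥ ∨ N = ⊤)
    (hbad : ∀ σ : G₁, ω σ ≠ 1 → ∀ r : ℕ, r.Prime → r ≠ p → h7g2_Bad V σ r)
    (hω : ∃ σ₀ : G₁, ω σ₀ ≠ 1)
    (hF1 : ∀ τ : G₁, (∀ v : V, τ • v = v) → ω τ = 1) : False := by
  classical
  have hp : p.Prime := Fact.out
  have hfinV : Finite V := Module.finite_of_finite (ZMod p)
  have hlin : ∀ (g : G₁) (c : ZMod p) (w : V), g • (c • w) = c • (g • w) := by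
    intro g c w
    have : g • (c • w) = h7n_lin p V g (c • w) := rfl
    rw [this, map_smul, h7n_lin_apply]
  -- order of a nontrivial value of `ω`
  have hord : ∀ c : C, c ≠ 1 → ∀ m : ℕ, c ^ m = 1 → p ∣ m := by
    intro c hc m hm
    have h1 : orderOf c ∣ p := orderOf_dvd_of_pow_eq_one (hCp c)
    have h2 : orderOf c ∣ m := orderOf_dvd_of_pow_eq_one hm
    rcases (Nat.dvd_prime hp).mp h1 with h | h
    · exact absurd (orderOf_eq_one_iff.mp h) hc
    · rwa [h] at h2
  -- (2.0) a unipotent power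
  have hunipow : ∀ g : G₁, ω g ≠ 1 → ∃ m : ℕ, ω (g ^ m) ≠ 1 ∧
      (h7n_lin p V (g ^ m) - 1) ^ 2 = 0 ∧ h7n_lin p V (g ^ m) ≠ 1 := by
    intro g hg
    have hn0 : orderOf (MulAction.toPermHom G₁ V g) ≠ 0 := (orderOf_pos _).ne'
    obtain ⟨a, m, hm, hnm⟩ := Nat.exists_eq_pow_mul_and_not_dvd hn0 p hp.ne_one
    have hωm : ω (g ^ m) ≠ 1 := by
      rw [map_pow]
      intro h
      exact hm (hord _ hg m h)
    have htriv : ∀ v : V, ((g ^ m) ^ (p ^ a)) • v = v := by
      intro v
      rw [← pow_mul, mul_comm, ← hnm]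
      have h1 : (MulAction.toPermHom G₁ V g) ^ orderOf (MulAction.toPermHom G₁ V g) = 1 :=
        pow_orderOf_eq_one _
      rw [← map_pow] at h1
      have := congrArg (fun t : Equiv.Perm V => t v) h1
      simpa using this
    refine ⟨m, hωm, h7g2_unip_of_ppow hV (g ^ m) a htriv, ?_⟩
    intro h1
    apply hωm
    apply hF1
    intro v
    have : h7n_lin p V (g ^ m) v = v := by rw [h1]; rfl
    exact this
  -- (2.2) elements outside `ker ω` are unipotent
  have hunip : ∀ g : G₁, ω g ≠ 1 → (h7n_lin p V g - 1) ^ 2 = 0 := by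
    intro g hg
    obtain ⟨m, hωm, hm2, hm1⟩ := hunipow g hg
    set f := h7n_lin p V g with hf
    have hfm : h7n_lin p V (g ^ m) = f ^ m := map_pow _ _ _
    rw [hfm] at hm2 hm1
    set n' := f ^ m - 1 with hn'
    have hn'0 : n' ≠ 0 := sub_ne_zero.mpr hm1
    have hker := h7g2_ker_line hV n' hn'0 hm2
    have hcomm : ∀ v : V, n' (f v) = f (n' v) := by
      intro v
      have h1 : n' * f = f * n' := by
        rw [hn', sub_mul, mul_sub, one_mul, mul_one, ← pow_succ, ← pow_succ']
      have := congrArg (fun φ : Module.End (ZMod p) V => φ v) h1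
      simpa [Module.End.mul_apply] using this
    obtain ⟨e, he, he0⟩ := (Submodule.ne_bot_iff _).mp (h7g2_line_ne hV hker).1
    have hne : n' e = 0 := LinearMap.mem_ker.mp he
    have hfe : f e ∈ LinearMap.ker n' := by
      rw [LinearMap.mem_ker, hcomm, hne, map_zero]
    obtain ⟨lam, hlam⟩ := h7g2_exists_smul_of_mem_line hker he he0 hfe
    -- `(f - lam)` kills the kernel line and maps everything into it
    have hkill : ∀ w ∈ LinearMap.ker n', f w - lam • w = 0 := by
      intro w hw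
      obtain ⟨t, ht⟩ := h7g2_exists_smul_of_mem_line hker he he0 hw
      rw [ht, map_smul, hlam, smul_smul, smul_smul, mul_comm, sub_self]
    have hinto : ∀ v : V, f v - lam • v ∈ LinearMap.ker n' := by
      intro v
      rw [LinearMap.mem_ker, map_sub, map_smul, hcomm]
      have h1 : n' v ∈ LinearMap.ker n' := by
        rw [LinearMap.mem_ker]; exact h7g2_sq_apply n' hm2 v
      have := hkill _ h1
      exact this
    have hνν : ∀ v : V, f (f v - lam • v) - lam • (f v - lam • v) = 0 := fun v =>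
      hkill _ (hinto v)
    by_cases hl1 : lam = 1
    · ext v
      have := hνν v
      rw [hl1, one_smul, one_smul] at this
      simp only [sq, Module.End.mul_apply, LinearMap.sub_apply, Module.End.one_apply,
        LinearMap.zero_apply]
      rw [map_sub]
      rw [map_sub] at this
      exact this
    · exfalso
      have hl0 : lam ≠ 0 := by
        intro h0
        rw [h0, zero_smul] at hlam
        have h1 : g • e = 0 := hlam
        have : e = g⁻¹ • g • e := by simp
        rw [h1, smul_zero] at this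
        exact he0 this
      have hpow : lam ^ (p - 1) = 1 := ZMod.pow_card_sub_one_eq_one hl0
      have hd1 : orderOf lam ≠ 1 := by
        rw [Ne, orderOf_eq_one_iff]; exact hl1
      obtain ⟨r, hr, hrd⟩ := Nat.exists_prime_and_dvd hd1
      have hrp : r ≠ p := by
        intro h
        have h1 : r ∣ p - 1 := dvd_trans hrd (orderOf_dvd_of_pow_eq_one hpow)
        have h2 : r ≤ p - 1 := Nat.le_of_dvd (Nat.sub_pos_of_lt hp.one_lt) h1
        have := hp.one_lt
        omega
      obtain ⟨k, hk, v, hv0, hv⟩ := hbad g hg r hr hrp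
      -- on the `lam`-eigenspace `g ^ j` acts by `lam ^ j`
      have heigpow : ∀ w : V, g • w = lam • w → ∀ j : ℕ, (g ^ j) • w = lam ^ j • w := by
        intro w hw j
        induction j with
        | zero => simp
        | succ j ih =>
          rw [pow_succ, mul_smul, hw, hlin, ih, smul_smul, pow_succ, mul_comm]
      -- `ν v` is fixed by `g ^ k`
      have hfix2 : (g ^ k) • (g • v - lam • v) = g • v - lam • v := by
        rw [smul_sub, hlin, hv, ← mul_smul, ← pow_succ, pow_succ', mul_smul, hv]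
      have hlamk : lam ^ k = 1 := by
        by_cases hνv : g • v - lam • v = 0
        · have h1 : g • v = lam • v := sub_eq_zero.mp hνv
          have h2 := heigpow v h1 k
          rw [hv] at h2
          have h3 : (lam ^ k - 1) • v = 0 := by rw [sub_smul, one_smul, ← h2, sub_self]
          rcases smul_eq_zero.mp h3 with h | h
          · exact sub_eq_zero.mp h
          · exact absurd h hv0
        · have h1 : g • (g • v - lam • v) = lam • (g • v - lam • v) := by
            have := hνν v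
            exact sub_eq_zero.mp this
          have h2 := heigpow _ h1 k
          rw [hfix2] at h2
          have h3 : (lam ^ k - 1) • (g • v - lam • v) = 0 := by
            rw [sub_smul, one_smul, ← h2, sub_self]
          rcases smul_eq_zero.mp h3 with h | h
          · exact sub_eq_zero.mp h
          · exact absurd h hνv
      have h6 : r ∣ k := dvd_trans hrd (orderOf_dvd_of_pow_eq_one hlamk)
      have h7 : r ∣ Nat.gcd k r := Nat.dvd_gcd h6 dvd_rfl
      rw [hk] at h7
      exact hr.one_lt.ne' (Nat.dvd_one.mp h7)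
  -- (2.1) the unipotent `u`
  obtain ⟨σ₀, hσ₀⟩ := hω
  obtain ⟨m₀, hωu, hu2, hu1⟩ := hunipow σ₀ hσ₀
  set u : G₁ := σ₀ ^ m₀ with hu
  set N : Submodule (ZMod p) V := LinearMap.ker (h7n_lin p V u - 1) with hN
  have hNmem : ∀ x : V, x ∈ N ↔ u • x = x := by
    intro x
    rw [hN, LinearMap.mem_ker, LinearMap.sub_apply, h7n_lin_apply, Module.End.one_apply,
      sub_eq_zero]
  have hNline : Module.finrank (ZMod p) N = 1 :=
    h7g2_ker_line hV _ (sub_ne_zero.mpr hu1) hu2
  -- (2.3) `ker ω` preserves `N`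
  have hωu2 : ω (u * u) ≠ 1 := by
    rw [map_mul, ← sq]
    intro h
    have := hord _ hωu 2 h
    have h2 : p ≤ 2 := Nat.le_of_dvd (by norm_num) this
    have := hp.two_le
    omega
  have hker : ∀ h : G₁, ω h = 1 → ∀ x ∈ N, h • x ∈ N := by
    intro h hh x hx
    have hw : ω (u * h) ≠ 1 := by rw [map_mul, hh, mul_one]; exact hωu
    have huw : ω (u * (u * h)) ≠ 1 := by
      rw [← mul_assoc, map_mul, hh, mul_one]; exact hωu2
    have h1 := hunip (u * h) hw
    have h2 := hunip (u * (u * h)) huw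
    rw [map_mul (h7n_lin p V) u (u * h)] at h2
    have h3 := h7g2_unip_pair hV (h7n_lin p V u) (h7n_lin p V (u * h)) hu1 hu2 h1 h2 hx
    rw [← hN, hNmem, h7n_lin_apply] at h3
    -- `u • (u h x) = u h x` hence `h x = u h x`
    rw [hNmem]
    have h4 : (u * h) • x = u • (h • x) := mul_smul u h x
    rw [h4] at h3
    -- h3 : u • u • h • x = u • h • x
    have h5 : u⁻¹ • (u • (u • (h • x))) = u⁻¹ • (u • (h • x)) := by rw [h3]
    rw [inv_smul_smul, inv_smul_smul] at h5
    exact h5
  -- (2.4) `G₁` preserves `N`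
  have hupow : ∀ (j : ℕ) (x : V), x ∈ N → (u ^ j) • x ∈ N := by
    intro j x hx
    have h1 : u • x = x := (hNmem x).mp hx
    rw [h7g2_pow_smul_of_fix h1 j]
    exact hx
  have hst : ∀ g : G₁, ∀ x ∈ N, g • x ∈ N := by
    intro g x hx
    obtain ⟨j, hj⟩ := hCgen (ω u) (ω g) hωu
    have hh : ω ((u ^ j)⁻¹ * g) = 1 := by
      rw [map_mul, map_inv, map_pow, hj, inv_mul_cancel]
    have h1 := hker _ hh x hx
    have h2 := hupow j _ h1
    rw [← mul_smul, mul_inv_cancel_left] at h2
    exact h2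
  -- (2.5)/(2.6) `N` is the unique `G₁`-stable line, hence `𝒢`-stable
  have huniq : ∀ N'' : Submodule (ZMod p) V, Module.finrank (ZMod p) N'' = 1 →
      (∀ g : G₁, ∀ v ∈ N'', g • v ∈ N'') → N'' = N := by
    intro N'' hN'' hst''
    exact h7g2_unip_unique_line hV (h7n_lin p V u) hu1 hu2 hN'' (fun v hv => hst'' u v hv)
  have hst𝒢 : ∀ g : 𝒢, ∀ v ∈ N, g • v ∈ N := by
    intro s v hv
    have h1 := huniq (h7g2_conjLine s N) (h7g2_conjLine_finrank hV s hNline)
      (h7g2_conjLine_stable G₁ s hst)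
    have h2 := h7g2_smul_mem_conjLine s hv
    rwa [h1] at h2
  obtain ⟨h0, h1⟩ := h7g2_line_ne hV hNline
  rcases hirr N hst𝒢 with h | h
  · exact h0 h
  · exact h1 h

/-- **Main group-theoretic statement for (T1′).** -/
theorem h7g2_main [Module.Finite (ZMod p) V] (hV : Module.finrank (ZMod p) V = 2) (hp2 : p ≠ 2)
    (G₁ : Subgroup 𝒢) [hn : G₁.Normal] {C : Type*} [CommGroup C] (ω : G₁ →* C)
    (hCp : ∀ c : C, c ^ p = 1) (hCgen : ∀ c d : C, c ≠ 1 → ∃ j : ℕ, c ^ j = d)
    (hirr : ∀ N : Submodule (ZMod p) V, (∀ g : 𝒢, ∀ v ∈ N, g • v ∈ N) → N = ⊥ ∨ N = ⊤)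
    (hnt : ¬ ∀ σ : G₁, ∀ v : V, σ • v = v)
    (hω : ∃ σ₀ : G₁, ω σ₀ ≠ 1) :
    ∃ g₀ : G₁, ω g₀ ≠ 1 ∧ ∃ r : ℕ, r.Prime ∧ r ≠ p ∧
      ∀ k : ℕ, k.Coprime r → ∀ v : V, (g₀ ^ k) • v = v → v = 0 := by
  by_contra hcon
  push Not at hcon
  have hbad : ∀ σ : G₁, ω σ ≠ 1 → ∀ r : ℕ, r.Prime → r ≠ p → h7g2_Bad V σ r := by
    intro σ hσ r hr hrp
    obtain ⟨k, hk, v, hv, hv0⟩ := hcon σ hσ r hr hrp
    exact ⟨k, hk, v, hv0, hv⟩
  by_cases hcase : ∀ σ : G₁, ∃ σ' : G₁, ω σ' = 1 ∧ ∀ v : V, σ' • v = σ • v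
  · -- Case 1
    apply hnt
    apply h7g2_case1 hV G₁ hirr
    intro σ r hr hrp
    by_cases hσ : ω σ = 1
    · obtain ⟨σ₀, hσ₀⟩ := hω
      obtain ⟨σ₀', hσ₀'1, hσ₀'⟩ := hcase σ₀
      -- `τ = σ₀ σ₀'⁻¹` acts trivially, `ω τ ≠ 1`
      set τ : G₁ := σ₀ * σ₀'⁻¹ with hτ
      have hωτ : ω τ ≠ 1 := by
        rw [hτ, map_mul, map_inv, hσ₀'1, inv_one, mul_one]; exact hσ₀
      have hτtriv : ∀ v : V, τ • v = v := by
        intro v
        rw [hτ, mul_smul, ← hσ₀' (σ₀'⁻¹ • v), smul_inv_smul]
      have hω' : ω (σ * τ) ≠ 1 := by rw [map_mul, hσ, one_mul]; exact hωτ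
      obtain ⟨k, hk, v, hv0, hv⟩ := hbad (σ * τ) hω' r hr hrp
      refine ⟨k, hk, v, hv0, ?_⟩
      have h1 : (σ ^ k) • v = ((σ * τ) ^ k) • v :=
        h7g2_pow_smul_congr (fun w => by rw [mul_smul, hτtriv]) k v
      rw [h1]
      exact hv
    · exact hbad σ hσ r hr hrp
  · -- Case 2
    push Not at hcase
    obtain ⟨σ₁, hσ₁⟩ := hcase
    apply h7g2_case2 hV hp2 G₁ ω hCp hCgen hirr hbad hω
    intro τ hτ
    by_contra hωτ
    obtain ⟨j, hj⟩ := hCgen (ω τ) (ω σ₁)⁻¹ hωτ
    obtain ⟨v, hv⟩ := hσ₁ (σ₁ * τ ^ j) (by rw [map_mul, map_pow, hj, mul_inv_cancel])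
    apply hv
    rw [mul_smul, h7g2_pow_smul_of_fix (hτ v) j]

end main

end Fermat.Agent.Lib.S41
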