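/-
S41 project, layer [C2(a)] (helper7): valuation-theoretic lifting lemmas.

* `h7l_v_intCast_lt_one_iff`: if `v ℓ < 1` (`ℓ` prime) then `v n < 1 ↔ ℓ ∣ n` for integers `n`;
* `h7l_exists_int_of_frob`: an integral `x` with `x ≡ x ^ ℓ` is congruent to an integer;
* `h7l_lift_sqrt`, `h7l_lift_cubic`: simple roots modulo the valuation lift (uniquely, hence
  invariantly under valuation-preserving automorphisms) over an algebraically closed field.
-/
import Mathlib

set_option autoImplicit false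

namespace Fermat.Agent.Lib.S41

variable {L : Type*} [Field L] {Γ₀ : Type*} [LinearOrderedCommGroupWithZero Γ₀]
  (v : Valuation L Γ₀)

theorem h7l_v_natCast_le_one (n : ℕ) : v (n : L) ≤ 1 := by
  induction n with
  | zero => simp
  | succ k ih =>
    rw [Nat.cast_succ]
    exact v.map_add_le ih (le_of_eq v.map_one)

theorem h7l_v_intCast_le_one (n : ℤ) : v (n : L) ≤ 1 := by
  rcases Int.eq_nat_or_neg n with ⟨k, rfl | rfl⟩
  · simpa using h7l_v_natCast_le_one v k
  · simpa using h7l_v_natCast_le_one v k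

/-- If `v ℓ < 1` for a prime `ℓ`, then an integer has `v n < 1` iff `ℓ ∣ n`. -/
theorem h7l_v_intCast_lt_one_iff {ℓ : ℕ} (hℓp : ℓ.Prime) (hℓ : v (ℓ : L) < 1) (n : ℤ) :
    v (n : L) < 1 ↔ (ℓ : ℤ) ∣ n := by
  constructor
  · intro hn
    by_contra hdvd
    have hcop : IsCoprime n (ℓ : ℤ) := by
      rw [isCoprime_comm]
      exact (Prime.coprime_iff_not_dvd (Nat.prime_iff_prime_int.mp hℓp)).mpr hdvd
    obtain ⟨a, b, hab⟩ := hcop
    have h1 : v ((a : L) * (n : L)) < 1 := by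
      rw [map_mul]
      calc v (a : L) * v (n : L) ≤ 1 * v (n : L) :=
            mul_le_mul_left (h7l_v_intCast_le_one v a) _
        _ = v (n : L) := one_mul _
        _ < 1 := hn
    have h2 : v ((b : L) * ((ℓ : ℤ) : L)) < 1 := by
      rw [map_mul]
      have : (((ℓ : ℤ)) : L) = (ℓ : L) := by push_cast; rfl
      rw [this]
      calc v (b : L) * v (ℓ : L) ≤ 1 * v (ℓ : L) :=
            mul_le_mul_left (h7l_v_intCast_le_one v b) _
        _ = v (ℓ : L) := one_mul _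
        _ < 1 := hℓ
    have h3 : (1 : L) = (a : L) * (n : L) + (b : L) * ((ℓ : ℤ) : L) := by
      have := congrArg (fun z : ℤ => (z : L)) hab
      simp only [Int.cast_add, Int.cast_mul, Int.cast_one] at this
      exact this.symm
    have h4 : v (1 : L) < 1 := by
      rw [h3]
      exact lt_of_le_of_lt (v.map_add _ _) (max_lt h1 h2)
    rw [map_one] at h4
    exact lt_irrefl _ h4
  · rintro ⟨k, rfl⟩
    have : (((ℓ : ℤ) * k : ℤ) : L) = (ℓ : L) * (k : L) := by push_cast; rfl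
    rw [this, map_mul]
    calc v (ℓ : L) * v (k : L) ≤ v (ℓ : L) * 1 := by
          gcongr
          exact h7l_v_intCast_le_one v k
      _ = v (ℓ : L) := mul_one _
      _ < 1 := hℓ

/-- If `v ℓ < 1` for a prime `ℓ`, an integer not divisible by `ℓ` is a unit. -/
theorem h7l_v_intCast_eq_one {ℓ : ℕ} (hℓp : ℓ.Prime) (hℓ : v (ℓ : L) < 1) {n : ℤ}
    (hn : ¬ (ℓ : ℤ) ∣ n) : v (n : L) = 1 := by
  refine le_antisymm (h7l_v_intCast_le_one v n) ?_
  by_contra h
  push Not at h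
  exact hn ((h7l_v_intCast_lt_one_iff v hℓp hℓ n).mp h)

/-- An integral element fixed by the `ℓ`-power map modulo the maximal ideal is congruent to an
integer. -/
theorem h7l_exists_int_of_frob {ℓ : ℕ} (hℓp : ℓ.Prime) (hℓ : v (ℓ : L) < 1) {x : L}
    (hx : v x ≤ 1) (hF : v (x - x ^ ℓ) < 1) : ∃ m : ℤ, v (x - (m : L)) < 1 := by
  have : Fact ℓ.Prime := ⟨hℓp⟩
  let A := v.valuationSubring
  let k := IsLocalRing.ResidueField A
  have hchar : CharP k ℓ := by
    rw [CharP.charP_iff_prime_eq_zero hℓp]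
    have h1 : IsLocalRing.residue A (ℓ : A) = 0 := by
      rw [IsLocalRing.residue_eq_zero_iff, Valuation.mem_maximalIdeal_iff]
      simpa using hℓ
    simpa using h1
  let xA : A := ⟨x, hx⟩
  have hxk : (IsLocalRing.residue A xA) ^ ℓ = IsLocalRing.residue A xA := by
    have h1 : IsLocalRing.residue A (xA - xA ^ ℓ) = 0 := by
      rw [IsLocalRing.residue_eq_zero_iff, Valuation.mem_maximalIdeal_iff]
      simpa [xA] using hF
    rw [map_sub, map_pow, sub_eq_zero] at h1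
    exact h1.symm
  have hmem : IsLocalRing.residue A xA ∈ (⊥ : Subfield k) :=
    (Subfield.mem_bot_iff_pow_eq_self k ℓ).mpr hxk
  rw [← ZMod.fieldRange_castHom_eq_bot ℓ] at hmem
  obtain ⟨a, ha⟩ := hmem
  refine ⟨(a.val : ℤ), ?_⟩
  have h2 : IsLocalRing.residue A (xA - ((a.val : ℤ) : A)) = 0 := by
    rw [map_sub, ← ha, sub_eq_zero, map_intCast]
    simp
  rw [IsLocalRing.residue_eq_zero_iff, Valuation.mem_maximalIdeal_iff] at h2
  exact h2

/-- Lifting a simple square root: if `c ≡ n²` with `2n` a unit, then `c` has a unique square root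
`y ≡ n`, which is therefore fixed by every valuation-preserving automorphism fixing `c` and `n`. -/
theorem h7l_lift_sqrt [IsAlgClosed L] (τ : L ≃+* L) (hτv : ∀ x, v (τ x) = v x) {c n : L}
    (hτc : τ c = c) (hτn : τ n = n) (hcn : v (c - n ^ 2) < 1) (h2n : v (2 * n) = 1) :
    ∃ y : L, y ^ 2 = c ∧ v (y - n) < 1 ∧ τ y = y := by
  obtain ⟨y₀, hy₀⟩ := IsAlgClosed.exists_pow_nat_eq c (n := 2) (by norm_num)
  have hprod : v (y₀ - n) * v (y₀ + n) < 1 := by
    rw [← map_mul]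
    have : (y₀ - n) * (y₀ + n) = c - n ^ 2 := by rw [← hy₀]; ring
    rw [this]; exact hcn
  have hex : ∃ y : L, y ^ 2 = c ∧ v (y - n) < 1 := by
    by_cases h1 : v (y₀ - n) < 1
    · exact ⟨y₀, hy₀, h1⟩
    · refine ⟨-y₀, by rw [neg_sq, hy₀], ?_⟩
      push Not at h1
      have h3 : v (y₀ + n) < 1 := by
        by_contra h3
        push Not at h3
        exact absurd hprod (not_lt.mpr (one_le_mul_of_one_le_of_one_le h1 h3))
      have : -y₀ - n = -(y₀ + n) := by ring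
      rw [this, Valuation.map_neg]; exact h3
  obtain ⟨y, hy, hyn⟩ := hex
  refine ⟨y, hy, hyn, ?_⟩
  have hτy : (τ y) ^ 2 = y ^ 2 := by rw [← map_pow, hy, hτc]
  rcases sq_eq_sq_iff_eq_or_eq_neg.mp hτy with h | h
  · exact h
  · exfalso
    have h1 : v (τ y - n) < 1 := by
      have : τ y - n = τ (y - n) := by rw [map_sub, hτn]
      rw [this, hτv]; exact hyn
    rw [h] at h1
    have h2 : v (2 * n) < 1 := by
      have : 2 * n = -((y - n) + (-y - n)) := by ring
      rw [this, Valuation.map_neg]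
      exact lt_of_le_of_lt (v.map_add _ _) (max_lt hyn h1)
    rw [h2n] at h2
    exact lt_irrefl _ h2

/-- Lifting a simple root of a monic cubic with integral coefficients. -/
theorem h7l_lift_cubic [IsAlgClosed L] (τ : L ≃+* L) (hτv : ∀ x, v (τ x) = v x)
    {a₂ a₄ a₆ m : L} (hτ2 : τ a₂ = a₂) (hτ4 : τ a₄ = a₄) (hτ6 : τ a₆ = a₆) (hτm : τ m = m)
    (h2 : v a₂ ≤ 1) (hm : v m ≤ 1)
    (hf : v (m ^ 3 + a₂ * m ^ 2 + a₄ * m + a₆) < 1)
    (hf' : v (3 * m ^ 2 + 2 * a₂ * m + a₄) = 1) :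
    ∃ x : L, x ^ 3 + a₂ * x ^ 2 + a₄ * x + a₆ = 0 ∧ v (x - m) < 1 ∧ τ x = x := by
  open Polynomial in
  -- first root
  obtain ⟨r₁, hr₁⟩ : ∃ r : L, r ^ 3 + a₂ * r ^ 2 + a₄ * r + a₆ = 0 := by
    have hdeg : (X ^ 3 + C a₂ * X ^ 2 + C a₄ * X + C a₆ : L[X]).degree ≠ 0 := by
      have : (X ^ 3 + C a₂ * X ^ 2 + C a₄ * X + C a₆ : L[X]).degree = 3 := by
        compute_degree!
      rw [this]; norm_num
    obtain ⟨r, hr⟩ := IsAlgClosed.exists_root _ hdeg
    refine ⟨r, ?_⟩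
    simpa using hr
  -- second root
  obtain ⟨r₂, hr₂⟩ : ∃ r : L, r ^ 2 + (r₁ + a₂) * r + (r₁ ^ 2 + a₂ * r₁ + a₄) = 0 := by
    have hdeg : (X ^ 2 + C (r₁ + a₂) * X + C (r₁ ^ 2 + a₂ * r₁ + a₄) : L[X]).degree ≠ 0 := by
      have : (X ^ 2 + C (r₁ + a₂) * X + C (r₁ ^ 2 + a₂ * r₁ + a₄) : L[X]).degree = 2 := by
        compute_degree!
      rw [this]; norm_num
    obtain ⟨r, hr⟩ := IsAlgClosed.exists_root _ hdeg
    refine ⟨r, ?_⟩
    simpa using hr
  set r₃ : L := -(r₁ + a₂) - r₂ with hr₃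
  have hfac : ∀ t : L, t ^ 3 + a₂ * t ^ 2 + a₄ * t + a₆ = (t - r₁) * (t - r₂) * (t - r₃) := by
    intro t
    rw [hr₃]
    linear_combination hr₁ + (t - r₁) * hr₂
  -- a root close to `m`
  have hex : ∃ x : L, x ^ 3 + a₂ * x ^ 2 + a₄ * x + a₆ = 0 ∧ v (x - m) < 1 := by
    have hprod : v (m - r₁) * v (m - r₂) * v (m - r₃) < 1 := by
      rw [← map_mul, ← map_mul, ← hfac]; exact hf
    have hroot : ∀ r : L, (r = r₁ ∨ r = r₂ ∨ r = r₃) →
        r ^ 3 + a₂ * r ^ 2 + a₄ * r + a₆ = 0 := by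
      intro r hr
      rw [hfac]
      rcases hr with rfl | rfl | rfl <;> simp
    by_contra hcon
    push Not at hcon
    have g : ∀ r : L, (r = r₁ ∨ r = r₂ ∨ r = r₃) → 1 ≤ v (m - r) := by
      intro r hr
      have := hcon r (hroot r hr)
      rwa [Valuation.map_sub_swap] at this
    have h1 := g r₁ (Or.inl rfl)
    have h2 := g r₂ (Or.inr (Or.inl rfl))
    have h3 := g r₃ (Or.inr (Or.inr rfl))
    exact absurd hprod (not_lt.mpr
      (one_le_mul_of_one_le_of_one_le (one_le_mul_of_one_le_of_one_le h1 h2) h3))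
  obtain ⟨x, hx, hxm⟩ := hex
  refine ⟨x, hx, hxm, ?_⟩
  by_contra hne
  have hx' : (τ x) ^ 3 + a₂ * (τ x) ^ 2 + a₄ * (τ x) + a₆ = 0 := by
    have := congrArg τ hx
    simpa [hτ2, hτ4, hτ6] using this
  have hx'm : v (τ x - m) < 1 := by
    have : τ x - m = τ (x - m) := by rw [map_sub, hτm]
    rw [this, hτv]; exact hxm
  set x' := τ x with hx'def
  have hg : x' ^ 2 + x' * x + x ^ 2 + a₂ * (x' + x) + a₄ = 0 := by
    have h0 : (x' - x) * (x' ^ 2 + x' * x + x ^ 2 + a₂ * (x' + x) + a₄) = 0 := by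
      linear_combination hx' - hx
    rcases mul_eq_zero.mp h0 with h | h
    · exact absurd (sub_eq_zero.mp h) hne
    · exact h
  have hxi : v x ≤ 1 := by
    have : x = (x - m) + m := by ring
    rw [this]; exact v.map_add_le (le_of_lt hxm) hm
  have hx'i : v x' ≤ 1 := by
    have : x' = (x' - m) + m := by ring
    rw [this]; exact v.map_add_le (le_of_lt hx'm) hm
  have hv2 : v (2 : L) ≤ 1 := by simpa using h7l_v_natCast_le_one v 2
  have hsmall : v (3 * m ^ 2 + 2 * a₂ * m + a₄) < 1 := by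
    have e : 3 * m ^ 2 + 2 * a₂ * m + a₄ =
        (3 * m ^ 2 + 2 * a₂ * m + a₄) - (x' ^ 2 + x' * x + x ^ 2 + a₂ * (x' + x) + a₄) := by
      rw [hg, sub_zero]
    have e2 : (3 * m ^ 2 + 2 * a₂ * m + a₄) - (x' ^ 2 + x' * x + x ^ 2 + a₂ * (x' + x) + a₄) =
        -((x' - m) * (x' + m + x + a₂) + (x - m) * (x + 2 * m + a₂)) := by ring
    rw [e, e2, Valuation.map_neg]
    refine lt_of_le_of_lt (v.map_add _ _) (max_lt ?_ ?_)
    · rw [map_mul]
      have : v (x' + m + x + a₂) ≤ 1 :=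
        v.map_add_le (v.map_add_le (v.map_add_le hx'i hm) hxi) h2
      calc v (x' - m) * v (x' + m + x + a₂) ≤ v (x' - m) * 1 := by gcongr
        _ = v (x' - m) := mul_one _
        _ < 1 := hx'm
    · rw [map_mul]
      have h2m : v (2 * m) ≤ 1 := by
        rw [map_mul]; exact mul_le_one₀ hv2 zero_le hm
      have : v (x + 2 * m + a₂) ≤ 1 := v.map_add_le (v.map_add_le hxi h2m) h2
      calc v (x - m) * v (x + 2 * m + a₂) ≤ v (x - m) * 1 := by gcongr
        _ = v (x - m) := mul_one _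
        _ < 1 := hxm
  rw [hf'] at hsmall
  exact lt_irrefl _ hsmall

end Fermat.Agent.Lib.S41
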