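/-
S41 project, layer [C2(a)] (helper7): the reduction relation between points of
`W₀ : Y² = X³ + A₂X² + A₄X + A₆` (`A_i ∈ ℤ`) over a valued field `(L, v)` with `v ℓ < 1`, good
reduction, and points of the reduced curve over `ZMod ℓ`; and its properties for the points fixed
by a Frobenius-like automorphism `τ`.
-/
import Mathlib
import Fermat.Prelude.Def_FLTPrelim_GaloisRep
import Fermat.Agent.Lib.S05.ReductionG
import Fermat.Agent.Lib.S05.KernelTorsion
import Fermat.Agent.Lib.S41.H7LocalRed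
import Fermat.Agent.Lib.S41.H7LocalLift

set_option autoImplicit false

open WeierstrassCurve WeierstrassCurve.Affine
open scoped WeierstrassCurve.Affine

namespace Fermat.Agent.Lib.S41

open Fermat.Agent.Lib.S05

/-- The hypotheses of the local theorem. -/
structure h7l_Hyp {F L : Type*} [Field F] [Field L] [Algebra F L] {Γ₀ : Type*}
    [LinearOrderedCommGroupWithZero Γ₀] (v : Valuation L Γ₀) (W₀ : WeierstrassCurve F)
    (τ : L ≃ₐ[F] L) (ℓ : ℕ) (Wr : WeierstrassCurve (ZMod ℓ)) (A₂ A₄ A₆ : ℤ) : Prop where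
  prime : ℓ.Prime
  vℓ : v (ℓ : L) < 1
  v2 : v (2 : L) = 1
  a1 : W₀.a₁ = 0
  a3 : W₀.a₃ = 0
  a2 : W₀.a₂ = (A₂ : F)
  a4 : W₀.a₄ = (A₄ : F)
  a6 : W₀.a₆ = (A₆ : F)
  r1 : Wr.a₁ = 0
  r3 : Wr.a₃ = 0
  r2 : Wr.a₂ = (A₂ : ZMod ℓ)
  r4 : Wr.a₄ = (A₄ : ZMod ℓ)
  r6 : Wr.a₆ = (A₆ : ZMod ℓ)
  vΔ : v (algebraMap F L W₀.Δ) = 1
  τv : ∀ x, v (τ x) = v x
  τF : ∀ x, v x ≤ 1 → v (τ x - x ^ ℓ) < 1

section

variable {F L : Type*} [Field F] [Field L] [Algebra F L] {Γ₀ : Type*}
  [LinearOrderedCommGroupWithZero Γ₀] {v : Valuation L Γ₀} {W₀ : WeierstrassCurve F}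
  {τ : L ≃ₐ[F] L} {ℓ : ℕ} {Wr : WeierstrassCurve (ZMod ℓ)} {A₂ A₄ A₆ : ℤ}

namespace h7l_Hyp

variable (H : h7l_Hyp v W₀ τ ℓ Wr A₂ A₄ A₆)
include H

theorem W1 : (W₀.baseChange L).a₁ = 0 := by
  show (W₀.map (algebraMap F L)).a₁ = 0
  rw [WeierstrassCurve.map_a₁, H.a1, map_zero]

theorem W3 : (W₀.baseChange L).a₃ = 0 := by
  show (W₀.map (algebraMap F L)).a₃ = 0
  rw [WeierstrassCurve.map_a₃, H.a3, map_zero]

theorem W2 : (W₀.baseChange L).a₂ = (A₂ : L) := by
  show (W₀.map (algebraMap F L)).a₂ = _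
  rw [WeierstrassCurve.map_a₂, H.a2, map_intCast]

theorem W4 : (W₀.baseChange L).a₄ = (A₄ : L) := by
  show (W₀.map (algebraMap F L)).a₄ = _
  rw [WeierstrassCurve.map_a₄, H.a4, map_intCast]

theorem W6 : (W₀.baseChange L).a₆ = (A₆ : L) := by
  show (W₀.map (algebraMap F L)).a₆ = _
  rw [WeierstrassCurve.map_a₆, H.a6, map_intCast]

theorem vW2 : v (W₀.baseChange L).a₂ ≤ 1 := by
  rw [H.W2]; exact h7l_v_intCast_le_one v _

theorem vW4 : v (W₀.baseChange L).a₄ ≤ 1 := by
  rw [H.W4]; exact h7l_v_intCast_le_one v _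

theorem vW6 : v (W₀.baseChange L).a₆ ≤ 1 := by
  rw [H.W6]; exact h7l_v_intCast_le_one v _

theorem vWΔ : v (W₀.baseChange L).Δ = 1 := by
  show v (W₀.map (algebraMap F L)).Δ = 1
  rw [WeierstrassCurve.map_Δ]; exact H.vΔ

theorem WΔ_ne : (W₀.baseChange L).Δ ≠ 0 := by
  intro h
  have := H.vWΔ
  rw [h, map_zero] at this
  exact zero_ne_one this

/-- The curve equation over `L`. -/
theorem eqn {x y : L} (h : (W₀⁄L).Equation x y) :
    y ^ 2 = x ^ 3 + (A₂ : L) * x ^ 2 + (A₄ : L) * x + (A₆ : L) := by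
  have := kt_equation (W₀.baseChange L) H.W1 H.W3 h
  rwa [H.W2, H.W4, H.W6] at this

/-- Every solution of the equation over `L` is a nonsingular point. -/
theorem nonsing {x y : L} (h : y ^ 2 = x ^ 3 + (A₂ : L) * x ^ 2 + (A₄ : L) * x + (A₆ : L)) :
    (W₀⁄L).Nonsingular x y := by
  rw [← Affine.equation_iff_nonsingular_of_Δ_ne_zero H.WΔ_ne, Affine.equation_iff,
    H.W1, H.W3, H.W2, H.W4, H.W6]
  linear_combination h

/-- Integers: `(e : ZMod ℓ) = 0 ↔ v e < 1`. -/
theorem zmod_eq_zero_iff (e : ℤ) : (e : ZMod ℓ) = 0 ↔ v (e : L) < 1 := by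
  rw [ZMod.intCast_zmod_eq_zero_iff_dvd, h7l_v_intCast_lt_one_iff v H.prime H.vℓ]

theorem zmod_eq_iff (m n : ℤ) : (m : ZMod ℓ) = (n : ZMod ℓ) ↔ v ((m : L) - (n : L)) < 1 := by
  rw [← sub_eq_zero, ← Int.cast_sub, H.zmod_eq_zero_iff, Int.cast_sub]

theorem v_eq_one_of_zmod_ne {e : ℤ} (h : (e : ZMod ℓ) ≠ 0) : v (e : L) = 1 := by
  refine le_antisymm (h7l_v_intCast_le_one v e) ?_
  by_contra hlt
  push Not at hlt
  exact h ((H.zmod_eq_zero_iff e).mpr hlt)

theorem v_y_le {x y : L} (h : (W₀⁄L).Equation x y) (hx : v x ≤ 1) : v y ≤ 1 :=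
  v_y_le_one v H.W1 H.W3 H.vW2 H.vW4 H.vW6 h hx

end h7l_Hyp

end

section red

variable {F L : Type*} [Field F] [Field L] [Algebra F L] [DecidableEq L] {Γ₀ : Type*}
  [LinearOrderedCommGroupWithZero Γ₀] (v : Valuation L Γ₀) (W₀ : WeierstrassCurve F)
  {τ : L ≃ₐ[F] L} {ℓ : ℕ} (Wr : WeierstrassCurve (ZMod ℓ)) {A₂ A₄ A₆ : ℤ}

/-- The reduction relation: `P` reduces to `s`. -/
def h7l_Red : (W₀⁄L).Point → Wr.toAffine.Point → Prop
  | .zero, .zero => True
  | .zero, .some _ _ _ => False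
  | .some x _ _, .zero => 1 < v x
  | .some x y _, .some a b _ =>
      ∃ m n : ℤ, (m : ZMod ℓ) = a ∧ (n : ZMod ℓ) = b ∧ v (x - (m : L)) < 1 ∧ v (y - (n : L)) < 1

variable {v W₀ Wr}

omit [DecidableEq L] in
theorem h7l_red_zero_right_iff (P : (W₀⁄L).Point) :
    h7l_Red v W₀ Wr P 0 ↔ KtKer v (W₀.baseChange L) P := by
  rcases P with _ | ⟨x, y, h⟩
  · exact Iff.rfl
  · exact Iff.rfl

omit [DecidableEq L] in
theorem h7l_red_some_right {P : (W₀⁄L).Point} {a b : ZMod ℓ} {hs : Wr.toAffine.Nonsingular a b}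
    (hR : h7l_Red v W₀ Wr P (Point.some a b hs)) :
    ∃ (x y : L) (h : (W₀⁄L).Nonsingular x y) (m n : ℤ), P = Point.some x y h ∧
      (m : ZMod ℓ) = a ∧ (n : ZMod ℓ) = b ∧ v (x - (m : L)) < 1 ∧ v (y - (n : L)) < 1 := by
  rcases P with _ | ⟨x, y, h⟩
  · exact absurd hR id
  · obtain ⟨m, n, h1, h2, h3, h4⟩ := hR
    exact ⟨x, y, h, m, n, rfl, h1, h2, h3, h4⟩

omit [DecidableEq L] in
theorem h7l_v_le_of_close {x : L} {m : ℤ} (h : v (x - (m : L)) < 1) : v x ≤ 1 := by
  have : x = (x - (m : L)) + (m : L) := by ring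
  rw [this]
  exact v.map_add_le (le_of_lt h) (h7l_v_intCast_le_one v m)

variable (H : h7l_Hyp v W₀ τ ℓ Wr A₂ A₄ A₆)
include H

omit [DecidableEq L] in
/-- **(R2)** uniqueness of the reduction. -/
theorem h7l_red_unique {P : (W₀⁄L).Point} {s s' : Wr.toAffine.Point}
    (h : h7l_Red v W₀ Wr P s) (h' : h7l_Red v W₀ Wr P s') : s = s' := by
  rcases s with _ | ⟨a, b, hs⟩ <;> rcases s' with _ | ⟨a', b', hs'⟩
  · rfl
  · exfalso
    obtain ⟨x, y, hxy, m, n, rfl, -, -, hx, -⟩ := h7l_red_some_right h'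
    have h1 : 1 < v x := h
    exact absurd (h7l_v_le_of_close hx) (not_le.mpr h1)
  · exfalso
    obtain ⟨x, y, hxy, m, n, rfl, -, -, hx, -⟩ := h7l_red_some_right h
    have h1 : 1 < v x := h'
    exact absurd (h7l_v_le_of_close hx) (not_le.mpr h1)
  · obtain ⟨x, y, hxy, m, n, rfl, hm, hn, hx, hy⟩ := h7l_red_some_right h
    obtain ⟨m', n', hm', hn', hx', hy'⟩ := h'
    have e1 : a = a' := by
      rw [← hm, ← hm', H.zmod_eq_iff]
      have : (m : L) - (m' : L) = (x - (m' : L)) - (x - (m : L)) := by ring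
      rw [this]
      exact lt_of_le_of_lt (v.map_sub _ _) (max_lt hx' hx)
    have e2 : b = b' := by
      rw [← hn, ← hn', H.zmod_eq_iff]
      have : (n : L) - (n' : L) = (y - (n' : L)) - (y - (n : L)) := by ring
      rw [this]
      exact lt_of_le_of_lt (v.map_sub _ _) (max_lt hy' hy)
    subst e1; subst e2
    rfl

/-- **(R4)** points with the same reduction differ by an element of the kernel of reduction. -/
theorem h7l_red_sub_mem {P Q : (W₀⁄L).Point} {s : Wr.toAffine.Point}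
    (hP : h7l_Red v W₀ Wr P s) (hQ : h7l_Red v W₀ Wr Q s) :
    KtKer v (W₀.baseChange L) (P - Q) := by
  rcases s with _ | ⟨a, b, hs⟩
  · rw [show (Point.zero : Wr.toAffine.Point) = 0 from rfl, h7l_red_zero_right_iff] at hP hQ
    rw [sub_eq_add_neg]
    exact ktKer_add v _ H.W1 H.W3 H.vW2 H.vW4 H.vW6 _ _ hP (ktKer_neg v _ _ hQ)
  · obtain ⟨x, y, hxy, m, n, rfl, hm, hn, hx, hy⟩ := h7l_red_some_right hP
    obtain ⟨x', y', hxy', m', n', rfl, hm', hn', hx', hy'⟩ := h7l_red_some_right hQ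
    have hmm : v ((m : L) - (m' : L)) < 1 := by rw [← H.zmod_eq_iff, hm, hm']
    have hnn : v ((n : L) - (n' : L)) < 1 := by rw [← H.zmod_eq_iff, hn, hn']
    have hxx : v (x - x') < 1 := by
      have : x - x' = (x - (m : L)) + ((m : L) - (m' : L)) - (x' - (m' : L)) := by ring
      rw [this]
      exact lt_of_le_of_lt (v.map_sub _ _)
        (max_lt (lt_of_le_of_lt (v.map_add _ _) (max_lt hx hmm)) hx')
    have hyy : v (y - y') < 1 := by
      have : y - y' = (y - (n : L)) + ((n : L) - (n' : L)) - (y' - (n' : L)) := by ring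
      rw [this]
      exact lt_of_le_of_lt (v.map_sub _ _)
        (max_lt (lt_of_le_of_lt (v.map_add _ _) (max_lt hy hnn)) hy')
    have hxi := h7l_v_le_of_close hx
    have hxi' := h7l_v_le_of_close hx'
    have hns := nonsingular_reduction_of_v_Δ v H.W1 H.W3 H.vW2 H.vW4 H.vW6 H.vWΔ hxy.1 hxi
    rcases sub_mem_kernel_of_reduction_eq v (W₀.baseChange L) H.W1 H.W3 H.vW2 H.vW4 hxy hxy'
      hxi hxi' hxx hyy hns with h | ⟨x₃, y₃, h₃, hsub, hx₃⟩
    · rw [h, sub_self]; exact trivial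
    · rw [hsub]; exact hx₃

/-- **(R5)** the reduction only depends on the class modulo the kernel of reduction. -/
theorem h7l_red_of_sub_mem {P Q : (W₀⁄L).Point} {s : Wr.toAffine.Point}
    (hP : h7l_Red v W₀ Wr P s) (hK : KtKer v (W₀.baseChange L) (Q - P)) :
    h7l_Red v W₀ Wr Q s := by
  have hadd := ktKer_add v (W₀.baseChange L) H.W1 H.W3 H.vW2 H.vW4 H.vW6
  rcases s with _ | ⟨a, b, hs⟩
  · rw [show (Point.zero : Wr.toAffine.Point) = 0 from rfl, h7l_red_zero_right_iff] at hP ⊢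
    have : Q = (Q - P) + P := by abel
    rw [this]
    exact hadd _ _ hK hP
  · obtain ⟨x, y, hxy, m, n, rfl, hm, hn, hx, hy⟩ := h7l_red_some_right hP
    have hxi := h7l_v_le_of_close hx
    have hyi := h7l_v_le_of_close hy
    -- `Q` is not in the kernel
    have hQK : ¬ KtKer v (W₀.baseChange L) Q := by
      intro hQ
      have h1 : KtKer v (W₀.baseChange L) (Q + -(Q - Point.some x y hxy)) :=
        hadd _ _ hQ (ktKer_neg v _ _ hK)
      have h2 : Q + -(Q - Point.some x y hxy) = Point.some x y hxy := by abel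
      rw [h2] at h1
      have h3 : 1 < v x := h1
      exact absurd hxi (not_le.mpr h3)
    rcases Q with _ | ⟨x', y', hxy'⟩
    · exact absurd trivial hQK
    · have hxi' : v x' ≤ 1 := by
        by_contra hlt
        push Not at hlt
        exact hQK hlt
      have hyi' : v y' ≤ 1 := H.v_y_le hxy'.1 hxi'
      obtain ⟨h1, h2⟩ := h7l_congr_of_sub_mem_kernel v (W₀.baseChange L) H.W1 H.W3 H.vW2 H.vW4
        hxy' hxy hxi' hxi hyi' hyi hK
      refine ⟨m, n, hm, hn, ?_, ?_⟩
      · have : x' - (m : L) = (x' - x) + (x - (m : L)) := by ring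
        rw [this]
        exact lt_of_le_of_lt (v.map_add _ _) (max_lt h1 hx)
      · have : y' - (n : L) = (y' - y) + (y - (n : L)) := by ring
        rw [this]
        exact lt_of_le_of_lt (v.map_add _ _) (max_lt h2 hy)

omit H in
theorem h7l_smul_some_eq_self (τ : L ≃ₐ[F] L) {x y : L} (h : (W₀⁄L).Nonsingular x y)
    (hx : τ x = x) (hy : τ y = y) :
    τ • (Point.some x y h : (W₀⁄L).Point) = Point.some x y h := by
  obtain ⟨h', e⟩ := smul_some_eq W₀ τ h
  rw [e]
  simp only [Point.some.injEq]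
  exact ⟨hx, hy⟩

omit H in
theorem h7l_coord_fixed (τ : L ≃ₐ[F] L) {x y : L} (h : (W₀⁄L).Nonsingular x y)
    (hfix : τ • (Point.some x y h : (W₀⁄L).Point) = Point.some x y h) : τ x = x ∧ τ y = y := by
  obtain ⟨h', e⟩ := smul_some_eq W₀ τ h
  rw [e] at hfix
  simpa only [Point.some.injEq] using hfix

/-- `τ` preserves the kernel of reduction. -/
theorem h7l_ktKer_smul (P : (W₀⁄L).Point) (hP : KtKer v (W₀.baseChange L) P) :
    KtKer v (W₀.baseChange L) (τ • P) := by
  rcases P with _ | ⟨x, y, h⟩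
  · exact trivial
  · obtain ⟨h', e⟩ := smul_some_eq W₀ τ h
    rw [e]
    show 1 < v (τ x)
    rw [H.τv]
    exact hP

/-- **(R1)** every `τ`-fixed point has a reduction. -/
theorem h7l_exists_red {P : (W₀⁄L).Point} (hfix : τ • P = P) :
    ∃ s : Wr.toAffine.Point, h7l_Red v W₀ Wr P s := by
  rcases P with _ | ⟨x, y, h⟩
  · exact ⟨0, trivial⟩
  · by_cases hx : v x ≤ 1
    · have hy : v y ≤ 1 := H.v_y_le h.1 hx
      obtain ⟨hτx, hτy⟩ := h7l_coord_fixed τ h hfix
      have hFx : v (x - x ^ ℓ) < 1 := by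
        have := H.τF x hx
        rwa [hτx] at this
      have hFy : v (y - y ^ ℓ) < 1 := by
        have := H.τF y hy
        rwa [hτy] at this
      obtain ⟨m, hm⟩ := h7l_exists_int_of_frob v H.prime H.vℓ hx hFx
      obtain ⟨n, hn⟩ := h7l_exists_int_of_frob v H.prime H.vℓ hy hFy
      have heq := H.eqn h.1
      have hmi : v (m : L) ≤ 1 := h7l_v_intCast_le_one v m
      have hni : v (n : L) ≤ 1 := h7l_v_intCast_le_one v n
      have h2i : v ((A₂ : ℤ) : L) ≤ 1 := h7l_v_intCast_le_one v A₂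
      have h4i : v ((A₄ : ℤ) : L) ≤ 1 := h7l_v_intCast_le_one v A₄
      have hv2 : v (2 : L) ≤ 1 := le_of_eq H.v2
      have hv3 : v (3 : L) ≤ 1 := by simpa using h7l_v_natCast_le_one v 3
      -- the reduced equation
      have hEq : ((n : ZMod ℓ)) ^ 2 = (m : ZMod ℓ) ^ 3 + (A₂ : ZMod ℓ) * (m : ZMod ℓ) ^ 2
          + (A₄ : ZMod ℓ) * (m : ZMod ℓ) + (A₆ : ZMod ℓ) := by
        rw [← sub_eq_zero]
        have : ((n : ZMod ℓ)) ^ 2 - ((m : ZMod ℓ) ^ 3 + (A₂ : ZMod ℓ) * (m : ZMod ℓ) ^ 2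
          + (A₄ : ZMod ℓ) * (m : ZMod ℓ) + (A₆ : ZMod ℓ)) =
            ((n ^ 2 - (m ^ 3 + A₂ * m ^ 2 + A₄ * m + A₆) : ℤ) : ZMod ℓ) := by push_cast; ring
        rw [this, H.zmod_eq_zero_iff]
        have e : ((n ^ 2 - (m ^ 3 + A₂ * m ^ 2 + A₄ * m + A₆) : ℤ) : L) =
            -((y - (n : L)) * (y + (n : L))) +
              (x - (m : L)) * (x ^ 2 + x * (m : L) + (m : L) ^ 2 + (A₂ : L) * (x + (m : L))
                + (A₄ : L)) := by
          push_cast
          linear_combination heq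
        rw [e]
        refine lt_of_le_of_lt (v.map_add _ _) (max_lt ?_ ?_)
        · rw [Valuation.map_neg, map_mul]
          have : v (y + (n : L)) ≤ 1 := v.map_add_le hy hni
          calc v (y - (n : L)) * v (y + (n : L)) ≤ v (y - (n : L)) * 1 := by gcongr
            _ = v (y - (n : L)) := mul_one _
            _ < 1 := hn
        · rw [map_mul]
          have : v (x ^ 2 + x * (m : L) + (m : L) ^ 2 + (A₂ : L) * (x + (m : L)) + (A₄ : L))
              ≤ 1 := by
            change _ ∈ v.integer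
            have hx' : x ∈ v.integer := hx
            have hm' : (m : L) ∈ v.integer := hmi
            have h2' : ((A₂ : ℤ) : L) ∈ v.integer := h2i
            have h4' : ((A₄ : ℤ) : L) ∈ v.integer := h4i
            apply_rules [Subring.add_mem, Subring.sub_mem, Subring.mul_mem, Subring.pow_mem]
          calc v (x - (m : L)) * v (x ^ 2 + x * (m : L) + (m : L) ^ 2 + (A₂ : L) * (x + (m : L))
                + (A₄ : L)) ≤ v (x - (m : L)) * 1 := by gcongr
            _ = v (x - (m : L)) := mul_one _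
            _ < 1 := hm
      -- nonsingularity of the reduction
      have hns := nonsingular_reduction_of_v_Δ v H.W1 H.W3 H.vW2 H.vW4 H.vW6 H.vWΔ h.1 hx
      rw [H.W2, H.W4] at hns
      have hNS : Wr.toAffine.Nonsingular (m : ZMod ℓ) (n : ZMod ℓ) := by
        rw [Affine.nonsingular_iff, Affine.equation_iff, H.r1, H.r3, H.r2, H.r4, H.r6]
        refine ⟨by linear_combination hEq, ?_⟩
        rcases hns with h2y | hf'
        · right
          intro hcon
          have h0 : ((2 * n : ℤ) : ZMod ℓ) = 0 := by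
            push_cast
            linear_combination hcon
          rw [H.zmod_eq_zero_iff] at h0
          have e : (2 * y : L) = ((2 * n : ℤ) : L) + 2 * (y - (n : L)) := by push_cast; ring
          have hlt : v (2 * y) < 1 := by
            rw [e]
            refine lt_of_le_of_lt (v.map_add _ _) (max_lt h0 ?_)
            rw [map_mul, H.v2, one_mul]; exact hn
          rw [h2y] at hlt
          exact lt_irrefl _ hlt
        · left
          intro hcon
          have h0 : ((3 * m ^ 2 + 2 * A₂ * m + A₄ : ℤ) : ZMod ℓ) = 0 := by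
            push_cast
            linear_combination -hcon
          rw [H.zmod_eq_zero_iff] at h0
          have e : (3 * x ^ 2 + 2 * (A₂ : L) * x + (A₄ : L) : L) =
              ((3 * m ^ 2 + 2 * A₂ * m + A₄ : ℤ) : L) +
                (x - (m : L)) * (3 * (x + (m : L)) + 2 * (A₂ : L)) := by push_cast; ring
          have hlt : v (3 * x ^ 2 + 2 * (A₂ : L) * x + (A₄ : L)) < 1 := by
            rw [e]
            refine lt_of_le_of_lt (v.map_add _ _) (max_lt h0 ?_)
            rw [map_mul]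
            have : v (3 * (x + (m : L)) + 2 * (A₂ : L)) ≤ 1 := by
              change _ ∈ v.integer
              have hx' : x ∈ v.integer := hx
              have hm' : (m : L) ∈ v.integer := hmi
              have h2' : ((A₂ : ℤ) : L) ∈ v.integer := h2i
              have h3' : (3 : L) ∈ v.integer := hv3
              have h2'' : (2 : L) ∈ v.integer := hv2
              apply_rules [Subring.add_mem, Subring.sub_mem, Subring.mul_mem, Subring.pow_mem]
            calc v (x - (m : L)) * v (3 * (x + (m : L)) + 2 * (A₂ : L))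
                ≤ v (x - (m : L)) * 1 := by gcongr
              _ = v (x - (m : L)) := mul_one _
              _ < 1 := hm
          rw [hf'] at hlt
          exact lt_irrefl _ hlt
      exact ⟨Point.some _ _ hNS, m, n, rfl, rfl, hm, hn⟩
    · push Not at hx
      exact ⟨0, hx⟩

/-- **(R3)** every point of the reduced curve lifts to a `τ`-fixed point. -/
theorem h7l_exists_lift [IsAlgClosed L] (s : Wr.toAffine.Point) :
    ∃ P : (W₀⁄L).Point, τ • P = P ∧ h7l_Red v W₀ Wr P s := by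
  have : Fact ℓ.Prime := ⟨H.prime⟩
  rcases s with _ | ⟨a, b, hs⟩
  · exact ⟨0, smul_zero τ, trivial⟩
  · obtain ⟨m, hm⟩ := ZMod.intCast_surjective a
    obtain ⟨n, hn⟩ := ZMod.intCast_surjective b
    rw [Affine.nonsingular_iff, Affine.equation_iff, H.r1, H.r3, H.r2, H.r4, H.r6] at hs
    obtain ⟨hEq, hNS⟩ := hs
    rw [← hm, ← hn] at hEq hNS
    have hτv : ∀ x, v (τ.toRingEquiv x) = v x := H.τv
    have hτint : ∀ k : ℤ, τ.toRingEquiv (k : L) = (k : L) := fun k => map_intCast τ k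
    have h2ne : ((2 : ℤ) : ZMod ℓ) ≠ 0 := by
      intro h0
      rw [H.zmod_eq_zero_iff] at h0
      have : v ((2 : ℤ) : L) = 1 := by simpa using H.v2
      rw [this] at h0
      exact lt_irrefl _ h0
    by_cases hb : (n : ZMod ℓ) = 0
    · -- `y = 0`, lift the simple root of the cubic
      have hf' : ((3 * m ^ 2 + 2 * A₂ * m + A₄ : ℤ) : ZMod ℓ) ≠ 0 := by
        rcases hNS with h | h
        · intro h0
          apply h
          push_cast at h0
          linear_combination -h0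
        · exfalso
          apply h
          rw [hb]; ring
      have hf : ((m ^ 3 + A₂ * m ^ 2 + A₄ * m + A₆ : ℤ) : ZMod ℓ) = 0 := by
        push_cast
        rw [hb] at hEq
        linear_combination -hEq
      have hvf' := H.v_eq_one_of_zmod_ne hf'
      rw [H.zmod_eq_zero_iff] at hf
      obtain ⟨x, hx0, hxm, hτx⟩ := h7l_lift_cubic v τ.toRingEquiv hτv (hτint A₂) (hτint A₄)
        (hτint A₆) (hτint m) (h7l_v_intCast_le_one v A₂) (h7l_v_intCast_le_one v m)
        (by push_cast at hf; exact hf) (by push_cast at hvf'; exact hvf')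
      have hns : (W₀⁄L).Nonsingular x 0 := H.nonsing (by rw [hx0]; ring)
      refine ⟨Point.some x 0 hns, h7l_smul_some_eq_self τ hns hτx (map_zero τ), m, n, hm, hn,
        hxm, ?_⟩
      rw [zero_sub, Valuation.map_neg, ← H.zmod_eq_zero_iff]
      exact hb
    · -- `x = m`, lift the square root
      have h2n : ((2 * n : ℤ) : ZMod ℓ) ≠ 0 := by
        push_cast
        exact mul_ne_zero (by simpa using h2ne) hb
      have hv2n := H.v_eq_one_of_zmod_ne h2n
      have hc : (((m ^ 3 + A₂ * m ^ 2 + A₄ * m + A₆) - n ^ 2 : ℤ) : ZMod ℓ) = 0 := by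
        push_cast
        linear_combination -hEq
      rw [H.zmod_eq_zero_iff] at hc
      obtain ⟨y, hy2, hyn, hτy⟩ := h7l_lift_sqrt v τ.toRingEquiv hτv
        (c := ((m ^ 3 + A₂ * m ^ 2 + A₄ * m + A₆ : ℤ) : L)) (n := (n : L)) (hτint _) (hτint n)
        (by push_cast at hc ⊢; exact hc) (by push_cast at hv2n; exact hv2n)
      have hns : (W₀⁄L).Nonsingular (m : L) y := H.nonsing (by rw [hy2]; push_cast; ring)
      refine ⟨Point.some (m : L) y hns, h7l_smul_some_eq_self τ hns (map_intCast τ m) hτy, m, n,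
        hm, hn, ?_, hyn⟩
      rw [sub_self, map_zero]
      exact zero_lt_one

end red

end Fermat.Agent.Lib.S41
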