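/-
S41 project, layer [C2(a)] (helper7): the LOCAL THEOREM.

`W₀ : Y² = X³ + A₂X² + A₄X + A₆` (`A_i ∈ ℤ`) over a base field `F`, `L/F` algebraically closed with
a valuation `v`, `v ℓ < 1`, `v 2 = 1`, `v Δ = 1`, `τ ∈ Aut(L/F)` valuation-preserving and inducing
`x ↦ x ^ ℓ` on the residue field.  If `p ∣ #W̃(𝔽_ℓ)`, `v p = 1`, and the kernel of reduction is
`p`-divisible, then `τ` fixes a nonzero point of order `p`.

Proof: the group `G` of `τ`-fixed points modulo `G ∩ E₁` is in bijection with `W̃(𝔽_ℓ)` (reduction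
relation, lifting, `sub_mem_kernel_of_reduction_eq` and its converse); Cauchy gives `Q ∈ G ∖ E₁`
with `p • Q ∈ E₁`; dividing `p • Q` by `p` inside `E₁` (uniquely, as `E₁` has no `p`-torsion) gives
a `τ`-fixed `R'`, and `Q - R'` is the required point.
-/
import Mathlib
import Fermat.Prelude.Def_FLTPrelim_Modularity
import Fermat.Agent.Lib.S41.H7LocalCount

set_option autoImplicit false

open WeierstrassCurve WeierstrassCurve.Affine
open scoped WeierstrassCurve.Affine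

namespace Fermat.Agent.Lib.S41

open Fermat.Agent.Lib.S05

variable {F L : Type*} [Field F] [Field L] [Algebra F L] [DecidableEq L] {Γ₀ : Type*}
  [LinearOrderedCommGroupWithZero Γ₀] {v : Valuation L Γ₀} {W₀ : WeierstrassCurve F}
  {τ : L ≃ₐ[F] L} {ℓ : ℕ} {Wr : WeierstrassCurve (ZMod ℓ)} {A₂ A₄ A₆ : ℤ}

/-- The subgroup of `τ`-fixed points. -/
def h7l_fixed (W₀ : WeierstrassCurve F) (τ : L ≃ₐ[F] L) : AddSubgroup (W₀⁄L).Point where
  carrier := {P | τ • P = P}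
  add_mem' := fun {P Q} hP hQ => by
    show τ • (P + Q) = P + Q
    rw [smul_add, hP, hQ]
  zero_mem' := smul_zero τ
  neg_mem' := fun {P} hP => by
    show τ • (-P) = -P
    rw [smul_neg, hP]

theorem h7l_mem_fixed {P : (W₀⁄L).Point} : P ∈ h7l_fixed W₀ τ ↔ τ • P = P := Iff.rfl

theorem h7l_smul_nsmul (τ : L ≃ₐ[F] L) (n : ℕ) (P : (W₀⁄L).Point) :
    τ • (n • P) = n • (τ • P) :=
  map_nsmul (Point.map (W' := W₀) τ.toAlgHom) n P

/-- **Lifting and counting**: there is a `τ`-fixed point `Q` outside the kernel of reduction with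
`p • Q` in the kernel of reduction. -/
theorem h7l_exists_Q [IsAlgClosed L] (H : h7l_Hyp v W₀ τ ℓ Wr A₂ A₄ A₆) {p : ℕ} (hp : p.Prime)
    (hcard : p ∣ Nat.card Wr.toAffine.Point) :
    ∃ Q : (W₀⁄L).Point, τ • Q = Q ∧ ¬ KtKer v (W₀.baseChange L) Q ∧
      KtKer v (W₀.baseChange L) (p • Q) := by
  classical
  have : Fact p.Prime := ⟨hp⟩
  have : NeZero ℓ := ⟨H.prime.ne_zero⟩
  let G : AddSubgroup (W₀⁄L).Point := h7l_fixed W₀ τ
  let E₁ : AddSubgroup (W₀⁄L).Point :=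
    ktKernel v (W₀.baseChange L) H.W1 H.W3 H.vW2 H.vW4 H.vW6
  have hE₁ : ∀ P : (W₀⁄L).Point, P ∈ E₁ ↔ KtKer v (W₀.baseChange L) P := fun P => Iff.rfl
  let K : AddSubgroup G := E₁.addSubgroupOf G
  have hK : ∀ Q : G, (QuotientAddGroup.mk Q : G ⧸ K) = 0 ↔
      KtKer v (W₀.baseChange L) (Q : (W₀⁄L).Point) := by
    intro Q
    rw [QuotientAddGroup.eq_zero_iff, AddSubgroup.mem_addSubgroupOf, hE₁]
  -- lifts
  choose lift hlift_fix hlift_red using (h7l_exists_lift (v := v) (W₀ := W₀) (Wr := Wr) H)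
  let f : Wr.toAffine.Point → G ⧸ K := fun s => QuotientAddGroup.mk ⟨lift s, hlift_fix s⟩
  have hinj : Function.Injective f := by
    intro s s' hss
    have h0 : (QuotientAddGroup.mk
        ((⟨lift s', hlift_fix s'⟩ : G) - ⟨lift s, hlift_fix s⟩) : G ⧸ K) = 0 := by
      rw [QuotientAddGroup.mk_sub]
      show f s' - f s = 0
      rw [hss, sub_self]
    rw [hK] at h0
    have h1 : KtKer v (W₀.baseChange L) (lift s' - lift s) := h0
    have h2 := h7l_red_of_sub_mem H (hlift_red s) h1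
    exact h7l_red_unique H h2 (hlift_red s')
  have hsurj : Function.Surjective f := by
    intro h
    obtain ⟨Q, rfl⟩ := QuotientAddGroup.mk_surjective h
    obtain ⟨s, hs⟩ := h7l_exists_red (Wr := Wr) H Q.2
    refine ⟨s, ?_⟩
    have h1 : KtKer v (W₀.baseChange L) (lift s - (Q : (W₀⁄L).Point)) :=
      h7l_red_sub_mem H (hlift_red s) hs
    have h0 : (QuotientAddGroup.mk ((⟨lift s, hlift_fix s⟩ : G) - Q) : G ⧸ K) = 0 := by
      rw [hK]; exact h1
    rw [QuotientAddGroup.mk_sub, sub_eq_zero] at h0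
    exact h0
  have hfin : Finite (G ⧸ K) := Finite.of_surjective f hsurj
  have hcard' : Nat.card (G ⧸ K) = Nat.card Wr.toAffine.Point :=
    (Nat.card_eq_of_bijective f ⟨hinj, hsurj⟩).symm
  obtain ⟨h, hh⟩ := exists_prime_addOrderOf_dvd_card' (G := G ⧸ K) p
    (by rw [hcard']; exact hcard)
  obtain ⟨Q, rfl⟩ := QuotientAddGroup.mk_surjective h
  have hpQ : (QuotientAddGroup.mk (p • Q) : G ⧸ K) = 0 := by
    rw [QuotientAddGroup.mk_nsmul, ← hh]
    exact addOrderOf_nsmul_eq_zero _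
  have hQ0 : (QuotientAddGroup.mk Q : G ⧸ K) ≠ 0 := by
    intro h0
    rw [h0, addOrderOf_zero] at hh
    exact hp.one_lt.ne hh
  rw [hK] at hpQ
  rw [Ne, hK] at hQ0
  exact ⟨Q, Q.2, hQ0, hpQ⟩

/-- **The local theorem.** -/
theorem h7l_main [IsAlgClosed L] (H : h7l_Hyp v W₀ τ ℓ Wr A₂ A₄ A₆) {p : ℕ} (hp : p.Prime)
    (hvp : v (p : L) = 1) (hcard : p ∣ Nat.card Wr.toAffine.Point)
    (hdiv : ∀ R : (W₀⁄L).Point, KtKer v (W₀.baseChange L) R →
      ∃ R' : (W₀⁄L).Point, KtKer v (W₀.baseChange L) R' ∧ p • R' = R) :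
    ∃ P : (W₀⁄L).Point, P ≠ 0 ∧ p • P = 0 ∧ τ • P = P := by
  have hadd := ktKer_add v (W₀.baseChange L) H.W1 H.W3 H.vW2 H.vW4 H.vW6
  obtain ⟨Q, hQfix, hQ0, hpQ'⟩ := h7l_exists_Q H hp hcard
  obtain ⟨R', hR'K, hR'⟩ := hdiv _ hpQ'
  have hτR' : τ • R' = R' := by
    have h1 : KtKer v (W₀.baseChange L) (τ • R' - R') := by
      rw [sub_eq_add_neg]
      exact hadd _ _ (h7l_ktKer_smul H R' hR'K) (ktKer_neg v _ _ hR'K)
    have h2 : p • (τ • R' - R') = 0 := by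
      rw [nsmul_sub, ← h7l_smul_nsmul, hR', h7l_smul_nsmul, hQfix, sub_self]
    have h3 := kt_eq_zero_of_nsmul v (W₀.baseChange L) H.W1 H.W3 H.vW2 H.vW4 H.vW6 _ h1 p hvp h2
    exact sub_eq_zero.mp h3
  refine ⟨Q - R', ?_, ?_, ?_⟩
  · intro h0
    apply hQ0
    rw [sub_eq_zero.mp h0]
    exact hR'K
  · rw [nsmul_sub, hR', sub_self]
  · rw [smul_sub, hQfix, hτR']

end Fermat.Agent.Lib.S41
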