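/-
S41 project, layer [C2(a)] (helper7): helper9's contract `h9c_LiftStatement` (lifting and counting
for short integral models), from the local theorem `h7l_exists_Q`.
-/
import Mathlib
import Fermat.Agent.Lib.S41.H9C2Defs
import Fermat.Agent.Lib.S41.H7LocalMain

set_option autoImplicit false

open WeierstrassCurve WeierstrassCurve.Affine WeierstrassCurve.Affine.Point

namespace Fermat.Agent.Lib.S41

open Fermat.Agent.Lib.S13 Fermat.Agent.Lib.S05

/-- The discriminant of the short model. -/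
theorem h7l_short_Δ (a b : ℤ) :
    (h9c_Ws a b).Δ = ((-16 * (4 * a ^ 3 + 27 * b ^ 2) : ℤ) : ℚ) := by
  simp only [h9c_Ws, WeierstrassCurve.Δ, WeierstrassCurve.b₂, WeierstrassCurve.b₄,
    WeierstrassCurve.b₆, WeierstrassCurve.b₈]
  push_cast
  ring

/-- **(C2a)**: helper9's `h9c_LiftStatement`. -/
theorem h7l_liftStatement : h9c_LiftStatement := by
  intro a b p ℓ hp hℓ hℓ2 _hℓ3 hgood hcard A τ hA hτD hτF
  have halg := h9c_isAlgebraic_Qbar
  have hvℓ : A.valuation ((ℓ : ℕ) : Qbar) < 1 :=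
    (ValuationSubring.mem_nonunits_iff (A := A)).mp hA
  have hv2 : A.valuation (2 : Qbar) = 1 := by
    have := valuation_natCast_eq_one_of_prime_ne A hA hℓ Nat.prime_two (Ne.symm hℓ2)
    simpa using this
  have hΔ : A.valuation (algebraMap ℚ Qbar (h9c_Ws a b).Δ) = 1 := by
    rw [h7l_short_Δ, map_intCast]
    apply h7l_v_intCast_eq_one A.valuation hℓ hvℓ
    intro hdvd
    have hℓ' : Prime (ℓ : ℤ) := Nat.prime_iff_prime_int.mp hℓ
    rcases hℓ'.dvd_mul.mp hdvd with h | h
    · have h16 : (ℓ : ℤ) ∣ 2 ^ 4 := by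
        have : (-16 : ℤ) = -(2 ^ 4) := by norm_num
        rw [this, dvd_neg] at h
        exact h
      have h2 : (ℓ : ℤ) ∣ 2 := hℓ'.dvd_of_dvd_pow h16
      have h2' : ℓ ∣ 2 := by exact_mod_cast h2
      exact hℓ2 ((Nat.prime_dvd_prime_iff_eq hℓ Nat.prime_two).mp h2')
    · exact hgood h
  have hH : h7l_Hyp A.valuation (h9c_Ws a b) τ ℓ
      ((h9c_WsZ a b).map (Int.castRingHom (ZMod ℓ))) 0 a b :=
    { prime := hℓ
      vℓ := hvℓ
      v2 := hv2
      a1 := rfl
      a3 := rfl
      a2 := by simp [h9c_Ws]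
      a4 := rfl
      a6 := rfl
      r1 := by simp [h9c_WsZ]
      r3 := by simp [h9c_WsZ]
      r2 := by simp [h9c_WsZ]
      r4 := by simp [h9c_WsZ]
      r6 := by simp [h9c_WsZ]
      vΔ := hΔ
      τv := fun x => valuation_apply_of_mem_decomposition A hτD x
      τF := fun x hx => hτF x ((A.valuation_le_one_iff x).mp hx) }
  exact h7l_exists_Q hH hp hcard

end Fermat.Agent.Lib.S41
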