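/-
S41 project, layer [C2(a)] (helper7): reduction of points of `Y² = X³ + a₂X² + a₄X + a₆` modulo a
valuation, continued from `Lib/S05`.

* `h7l_congr_of_sub_mem_kernel`: two integral points whose difference lies in the kernel of
  reduction have congruent coordinates (converse of `sub_mem_kernel_of_reduction_eq`).
-/
import Mathlib
import Fermat.Agent.Lib.S05.ReductionK
import Fermat.Agent.Lib.S05.ReductionB
import Fermat.Agent.Lib.S05.KernelTorsion

set_option autoImplicit false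

open WeierstrassCurve WeierstrassCurve.Affine

namespace Fermat.Agent.Lib.S41

open Fermat.Agent.Lib.S05

variable {L : Type*} [Field L] {Γ₀ : Type*} [LinearOrderedCommGroupWithZero Γ₀]
  (v : Valuation L Γ₀) (W : WeierstrassCurve L)

/-- If `ℓ² - a - x₁ - x₂` is not integral while `a, x₁, x₂` are, then `ℓ` is not integral. -/
theorem h7l_one_lt_of_addX {ℓ a x₁ x₂ : L} (h : 1 < v (ℓ ^ 2 - a - x₁ - x₂)) (ha : v a ≤ 1)
    (hx₁ : v x₁ ≤ 1) (hx₂ : v x₂ ≤ 1) : 1 < v ℓ := by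
  by_contra hℓ
  push Not at hℓ
  have h1 : v (ℓ ^ 2) ≤ 1 := by
    rw [map_pow]; exact pow_le_one₀ zero_le hℓ
  have h2 : v (ℓ ^ 2 - a - x₁ - x₂) ≤ 1 :=
    v.map_sub_le (v.map_sub_le (v.map_sub_le h1 ha) hx₁) hx₂
  exact absurd h (not_lt.mpr h2)

variable [DecidableEq L]

/-- **(K')** Two integral points whose difference lies in the kernel of reduction have congruent
coordinates. -/
theorem h7l_congr_of_sub_mem_kernel (h1 : W.a₁ = 0) (h3 : W.a₃ = 0) (h2 : v W.a₂ ≤ 1)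
    (h4 : v W.a₄ ≤ 1) {x₁ y₁ x₂ y₂ : L} (hP : W.toAffine.Nonsingular x₁ y₁)
    (hQ : W.toAffine.Nonsingular x₂ y₂) (hx₁ : v x₁ ≤ 1) (hx₂ : v x₂ ≤ 1)
    (hy₁ : v y₁ ≤ 1) (hy₂ : v y₂ ≤ 1)
    (hK : KtKer v W (Point.some x₁ y₁ hP - Point.some x₂ y₂ hQ)) :
    v (x₁ - x₂) < 1 ∧ v (y₁ - y₂) < 1 := by
  have hnegY : ∀ x y : L, W.toAffine.negY x y = -y := by
    intro x y; simp [Affine.negY, h1, h3]
  have hQ' : W.toAffine.Nonsingular x₂ (-y₂) := by
    have := (Affine.nonsingular_neg (W' := W.toAffine) x₂ y₂).mpr hQ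
    rwa [hnegY] at this
  have hnegQ : -Point.some x₂ y₂ hQ = Point.some x₂ (-y₂) hQ' := by
    rw [Point.neg_some]
    congr 1
    exact hnegY _ _
  have eqP := (Affine.equation_iff _ _).mp hP.1
  have eqQ := (Affine.equation_iff _ _).mp hQ.1
  rw [h1, h3] at eqP eqQ
  have hv2 : v (2 : L) ≤ 1 := by
    have : (2 : L) = 1 + 1 := by norm_num
    rw [this]
    exact v.map_add_le (le_of_eq v.map_one) (le_of_eq v.map_one)
  have hv3 : v (3 : L) ≤ 1 := by
    have : (3 : L) = 2 + 1 := by norm_num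
    rw [this]
    exact v.map_add_le hv2 (le_of_eq v.map_one)
  by_cases hxx : x₁ = x₂
  · by_cases hyy : y₁ = y₂
    · subst hxx; subst hyy
      simp
    · subst hxx
      have hy1 : y₁ = -y₂ := by
        rcases Affine.Y_eq_of_X_eq hP.1 hQ.1 rfl with h | h
        · exact absurd h hyy
        · rwa [hnegY] at h
      have hy2 : y₂ = -y₁ := by rw [hy1, neg_neg]
      subst hy2
      have hne : y₁ ≠ W.toAffine.negY x₁ y₁ := by
        rw [hnegY]
        exact hyy
      have h2y0 : 2 * y₁ ≠ 0 := by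
        intro h
        apply hyy
        linear_combination h
      have hsub : Point.some x₁ y₁ hP - Point.some x₁ (-y₁) hQ =
          Point.some _ _ (Affine.nonsingular_add hP hP fun hxy => hne hxy.right) := by
        rw [sub_eq_add_neg, hnegQ]
        have : Point.some x₁ (- -y₁) hQ' = Point.some x₁ y₁ hP := by
          congr 1; exact neg_neg y₁
        rw [this]
        exact Point.add_self_of_Y_ne hne
      rw [hsub] at hK
      have hK' : 1 < v (W.toAffine.addX x₁ x₁ (W.toAffine.slope x₁ x₁ y₁ y₁)) := hK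
      have hsl : W.toAffine.slope x₁ x₁ y₁ y₁ =
          (3 * x₁ ^ 2 + 2 * W.a₂ * x₁ + W.a₄) / (2 * y₁) := by
        rw [Affine.slope_of_Y_ne rfl hne, hnegY, h1]
        congr 1 <;> ring
      simp only [Affine.addX, h1, zero_mul, add_zero] at hK'
      have hℓ := h7l_one_lt_of_addX v hK' h2 hx₁ hx₁
      rw [hsl, map_div₀] at hℓ
      have hpos : 0 < v (2 * y₁) := v.pos_iff.mpr h2y0
      rw [one_lt_div₀ hpos] at hℓ
      have hf : v (3 * x₁ ^ 2 + 2 * W.a₂ * x₁ + W.a₄) ≤ 1 := by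
        refine v.map_add_le (v.map_add_le ?_ ?_) h4
        · rw [map_mul, map_pow]
          exact mul_le_one₀ hv3 zero_le (pow_le_one₀ zero_le hx₁)
        · rw [map_mul, map_mul]
          exact mul_le_one₀ (mul_le_one₀ hv2 zero_le h2) zero_le hx₁
      refine ⟨by simp, ?_⟩
      have : y₁ - -y₁ = 2 * y₁ := by ring
      rw [this]
      exact lt_of_lt_of_le hℓ hf
  · have hxy : ¬ (x₁ = x₂ ∧ y₁ = W.toAffine.negY x₂ (-y₂)) := fun h => hxx h.1
    have hsub : Point.some x₁ y₁ hP - Point.some x₂ y₂ hQ =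
        Point.some _ _ (Affine.nonsingular_add hP hQ' hxy) := by
      rw [sub_eq_add_neg, hnegQ]
      exact Point.add_of_X_ne hxx
    rw [hsub] at hK
    have hK' : 1 < v (W.toAffine.addX x₁ x₂ (W.toAffine.slope x₁ x₂ y₁ (-y₂))) := hK
    have hsl : W.toAffine.slope x₁ x₂ y₁ (-y₂) = (y₁ + y₂) / (x₁ - x₂) := by
      rw [Affine.slope_of_X_ne hxx, sub_neg_eq_add]
    simp only [Affine.addX, h1, zero_mul, add_zero] at hK'
    have hℓ := h7l_one_lt_of_addX v hK' h2 hx₁ hx₂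
    have hx0 : x₁ - x₂ ≠ 0 := sub_ne_zero.mpr hxx
    have hxpos : 0 < v (x₁ - x₂) := v.pos_iff.mpr hx0
    rw [hsl, map_div₀, one_lt_div₀ hxpos] at hℓ
    have hys : v (y₁ + y₂) ≤ 1 := v.map_add_le hy₁ hy₂
    have hxlt : v (x₁ - x₂) < 1 := lt_of_lt_of_le hℓ hys
    refine ⟨hxlt, ?_⟩
    set g := x₁ ^ 2 + x₁ * x₂ + x₂ ^ 2 + W.a₂ * (x₁ + x₂) + W.a₄ with hg
    have hgv : v g ≤ 1 := by
      refine v.map_add_le (v.map_add_le (v.map_add_le (v.map_add_le ?_ ?_) ?_) ?_) h4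
      · rw [map_pow]; exact pow_le_one₀ zero_le hx₁
      · rw [map_mul]; exact mul_le_one₀ hx₁ zero_le hx₂
      · rw [map_pow]; exact pow_le_one₀ zero_le hx₂
      · rw [map_mul]; exact mul_le_one₀ h2 zero_le (v.map_add_le hx₁ hx₂)
    have hprod : (y₁ - y₂) * (y₁ + y₂) = (x₁ - x₂) * g := by
      rw [hg]; linear_combination eqP - eqQ
    have hvprod : v (y₁ - y₂) * v (y₁ + y₂) ≤ v (x₁ - x₂) := by
      rw [← map_mul, hprod, map_mul]
      calc v (x₁ - x₂) * v g ≤ v (x₁ - x₂) * 1 := by gcongr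
        _ = v (x₁ - x₂) := mul_one _
    have hypos : 0 < v (y₁ + y₂) := lt_trans hxpos hℓ
    by_contra hcon
    push Not at hcon
    have : v (y₁ + y₂) ≤ v (y₁ - y₂) * v (y₁ + y₂) := by
      calc v (y₁ + y₂) = 1 * v (y₁ + y₂) := (one_mul _).symm
        _ ≤ v (y₁ - y₂) * v (y₁ + y₂) := by gcongr
    exact absurd (lt_of_le_of_lt (le_trans this hvprod) hℓ) (lt_irrefl _)

end Fermat.Agent.Lib.S41
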