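/-
S41 project, layer [B] (helper7): the **residue formula** for helper6's pairing.

For `T`-parabolic cocycles `c, c' : SL(2,ℤ) → (X → ℤ)` and any `E : SL(2,ℤ) → ℚ` trivialising the
cup product `(g, h) ↦ ⟨c g, ρ g (c' h)⟩`, one has `E (T ^ N) = N * h6q_pair c c'` as soon as `T ^ N`
acts trivially on `X` (`h7r_eval`).  With `E g = ∑ ξ, η (F.cocElem g ξ)` for a "Heisenberg lift"
`η` of two parabolic characters `x, y` of the stabiliser of a frame `F` this is the residue formula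
`h7r_residue`.
-/
import Fermat.Agent.Lib.S41.H6Par

set_option autoImplicit false

open scoped MatrixGroups
open ModularCurve.Period

namespace Fermat.Agent.Lib.S41

local notation "sS" => (ModularGroup.S : SL(2, ℤ))
local notation "sT" => (ModularGroup.T : SL(2, ℤ))
local notation "sU" => (h6p_U : SL(2, ℤ))

section Eval

variable {X : Type*} [MulAction SL(2, ℤ) X] [Fintype X]

/-- The cup-product 2-cocycle `(g, h) ↦ ⟨c g, ρ g (c' h)⟩`. -/
def h7r_kap (c c' : SL(2, ℤ) → X → ℤ) (g h : SL(2, ℤ)) : ℤ :=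
  h6c_dot (c g) (h6c_rho g (c' h))

/-- `E` trivialises the cup product of `c` and `c'`. -/
def h7r_IsTriv (c c' : SL(2, ℤ) → X → ℤ) (E : SL(2, ℤ) → ℚ) : Prop :=
  ∀ g h, E (g * h) = E g + E h + (h7r_kap c c' g h : ℚ)

/-- Changing `c` by a coboundary. -/
theorem h7r_triv_cob_left {c c' : SL(2, ℤ) → X → ℤ} (hc' : h6c_IsCoc c') {E : SL(2, ℤ) → ℚ}
    (hE : h7r_IsTriv c c' E) (f : X → ℤ) :
    h7r_IsTriv (fun g => c g + h6c_cob f g) c' (fun g => E g + (h6c_dot f (c' g) : ℚ)) := by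
  intro g h
  have h1 : h7r_kap (fun g => c g + h6c_cob f g) c' g h
      = h7r_kap c c' g h + h6c_dot f (h6c_rho g (c' h)) - h6c_dot f (c' h) := by
    unfold h7r_kap
    show h6c_dot (c g + (f - h6c_rho g f)) (h6c_rho g (c' h)) = _
    rw [h6c_dot_add_left, h6c_dot_sub_left, h6c_dot_rho]
    ring
  have h2 : h6c_dot f (c' (g * h)) = h6c_dot f (c' g) + h6c_dot f (h6c_rho g (c' h)) := by
    rw [hc', h6c_dot_add_right]
  show E (g * h) + (h6c_dot f (c' (g * h)) : ℚ) = _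
  rw [hE g h, h1, h2]
  push_cast
  ring

/-- Changing `c'` by a coboundary. -/
theorem h7r_triv_cob_right {c c' : SL(2, ℤ) → X → ℤ} (hc : h6c_IsCoc c) {E : SL(2, ℤ) → ℚ}
    (hE : h7r_IsTriv c c' E) (f : X → ℤ) :
    h7r_IsTriv c (fun g => c' g + h6c_cob f g)
      (fun g => E g - (h6c_dot (c g) (h6c_rho g f) : ℚ)) := by
  intro g h
  have h1 : h7r_kap c (fun g => c' g + h6c_cob f g) g h
      = h7r_kap c c' g h + h6c_dot (c g) (h6c_rho g f) - h6c_dot (c g) (h6c_rho (g * h) f) := by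
    unfold h7r_kap
    show h6c_dot (c g) (h6c_rho g (c' h + (f - h6c_rho h f))) = _
    rw [h6c_rho_add, h6c_rho_sub, h6c_dot_add_right, h6c_dot_sub_right, ← h6c_rho_mul]
    ring
  have h2 : h6c_dot (c (g * h)) (h6c_rho (g * h) f)
      = h6c_dot (c g) (h6c_rho (g * h) f) + h6c_dot (c h) (h6c_rho h f) := by
    rw [hc, h6c_dot_add_left]
    congr 1
    rw [h6c_rho_mul, h6c_dot_rho]
  show E (g * h) - (h6c_dot (c (g * h)) (h6c_rho (g * h) f) : ℚ) = _
  rw [hE g h, h1, h2]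
  push_cast
  ring

variable (hneg : ∀ x : X, (-1 : SL(2, ℤ)) • x = x)
include hneg

/-- The normalised case: `c T = c' T = 0` ⇒ `E T = pair c c'`. -/
theorem h7r_eval_T_norm {c c' : SL(2, ℤ) → X → ℤ} (hc : h6c_IsCoc c) (hc' : h6c_IsCoc c')
    (hT : c sT = 0) (hT' : c' sT = 0) {E : SL(2, ℤ) → ℚ} (hE : h7r_IsTriv c c' E) :
    E sT = (h6q_pair c c' : ℚ) := by
  set w : X → ℤ := c sS with hw
  set w' : X → ℤ := c' sS with hw'
  set D0 : ℤ := h6c_dot w w' with hD0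
  set D1 : ℤ := h6c_dot w (h6c_rho sU w') with hD1
  have hcU : c sU = w := by rw [h6q_cU_eq hneg hc, hT, h6c_rho_zero, add_zero]
  have hcU' : c' sU = w' := by rw [h6q_cU_eq hneg hc', hT', h6c_rho_zero, add_zero]
  have hSw' : h6c_rho sS w' = -w' := eq_neg_of_add_eq_zero_right (h6q_cS_anti hneg hc')
  have hUw' : h6c_rho sU (h6c_rho sU w') = -w' - h6c_rho sU w' := by
    have h := h6q_cU_norm hneg hc'
    rw [pow_two, h6c_rho_mul sU sU, hcU'] at h
    funext ξ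
    have h' := congrFun h ξ
    simp only [Pi.add_apply, Pi.zero_apply, Pi.sub_apply, Pi.neg_apply] at h' ⊢
    linarith
  -- `E 1 = 0`, `E (-1) = 0`
  have hE1 : E 1 = 0 := by
    have h := hE 1 1
    unfold h7r_kap at h
    rw [mul_one, hc.one, h6c_dot_zero_left] at h
    push_cast at h
    linarith
  have hEneg : E (-1) = 0 := by
    have h := hE (-1) (-1)
    unfold h7r_kap at h
    rw [neg_mul_neg, one_mul, h6q_c_neg_one hneg hc, h6c_dot_zero_left, hE1] at h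
    push_cast at h
    linarith
  -- `2 E S = D0`
  have hES : 2 * E sS = (D0 : ℚ) := by
    have h := hE sS sS
    unfold h7r_kap at h
    rw [← pow_two, h6p_S_sq, hEneg] at h
    have h2 : h6c_dot (c sS) (h6c_rho sS (c' sS)) = -D0 := by
      show h6c_dot w (h6c_rho sS w') = -D0
      rw [hSw', h6c_dot_neg_right]
    rw [h2] at h
    push_cast at h
    linarith
  -- `3 E U = D0 - D1`
  have hEU : 3 * E sU = (D0 : ℚ) - (D1 : ℚ) := by
    have h1 := hE sU sU
    have h2 := hE (sU * sU) sU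
    unfold h7r_kap at h1 h2
    have h3 : sU * sU * sU = -1 := by rw [← pow_two, ← pow_succ]; exact h6p_U_cube
    rw [h3, hEneg] at h2
    have h4 : h6c_dot (c sU) (h6c_rho sU (c' sU)) = D1 := by rw [hcU, hcU']
    have h5 : h6c_dot (c (sU * sU)) (h6c_rho (sU * sU) (c' sU)) = -D0 := by
      rw [hc, hcU, hcU', h6c_rho_mul sU sU, h6c_dot_add_left, h6c_dot_rho, hUw',
        h6c_dot_sub_right, h6c_dot_neg_right]
      ring
    rw [h4] at h1
    rw [h5] at h2
    push_cast at h2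
    linarith
  -- `E S⁻¹ = - E S + D0`
  have hcSinv : c sS⁻¹ = -h6c_rho sS⁻¹ w := hc.inv sS
  have hESinv : E sS⁻¹ = -E sS + (D0 : ℚ) := by
    have h := hE sS⁻¹ sS
    unfold h7r_kap at h
    rw [inv_mul_cancel, hE1, hcSinv, h6c_dot_neg_left, h6c_dot_rho] at h
    push_cast at h
    linarith
  -- `E T = E U - E S`
  have hET : E sT = E sU - E sS := by
    have h := hE sS⁻¹ sU
    unfold h7r_kap at h
    rw [← h6q_T_eq, hcSinv, hcU', h6c_dot_neg_left, h6c_dot_rho, hESinv] at h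
    push_cast at h
    linarith
  -- the pairing
  obtain ⟨a, ha⟩ := h6q_exists_a hneg hc'
  obtain ⟨b, hb⟩ := h6q_exists_b hneg hc'
  have hv : c sT = (0 : X → ℤ) - h6c_rho sT 0 := by rw [hT, h6c_rho_zero, sub_zero]
  have hp' : h6q_IsPar c' := ⟨0, by rw [hT', h6c_rho_zero, sub_zero]⟩
  have hpair := h6q_pair_eq hneg hc hc' hp' hv ha hb
  have hw0 : h6q_w c 0 = w := by
    unfold h6q_w
    rw [h6c_rho_zero, sub_zero, sub_zero]
  have ha' : w' = a - h6c_rho sS a := ha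
  have hb' : w' = b - h6c_rho sU b := by rw [← hcU']; exact hb
  -- `2 ⟨w, a⟩ = D0`
  have h2a : 2 * h6c_dot w a = D0 := by
    have hz : h6c_rho sS (a + h6c_rho sS a) = a + h6c_rho sS a := by
      rw [h6c_rho_add, h6q_rhoS_rhoS hneg, add_comm]
    have h0 := h6q_w_dot_invS hneg hc 0 _ hz
    rw [hw0] at h0
    have h1 : a + a = w' + (a + h6c_rho sS a) := by rw [ha']; abel
    have h2 : h6c_dot w (a + a) = D0 + 0 := by rw [h1, h6c_dot_add_right, h0]
    rw [h6c_dot_add_right] at h2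
    linarith
  -- `3 ⟨w, b⟩ = 2 D0 + D1`
  have h3b : 3 * h6c_dot w b = 2 * D0 + D1 := by
    have hz : h6c_rho sU (b + h6c_rho sU b + h6c_rho sU (h6c_rho sU b))
        = b + h6c_rho sU b + h6c_rho sU (h6c_rho sU b) := by
      rw [h6c_rho_add, h6c_rho_add, h6q_rhoU_cube hneg]
      abel
    have h0 := h6q_w_dot_invU hneg hc hv _ hz
    rw [hw0] at h0
    have h1 : b + b + b = w' + w' + h6c_rho sU w'
        + (b + h6c_rho sU b + h6c_rho sU (h6c_rho sU b)) := by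
      rw [hb', h6c_rho_sub]; abel
    have h2 : h6c_dot w (b + b + b) = D0 + D0 + D1 + 0 := by
      rw [h1, h6c_dot_add_right, h6c_dot_add_right, h6c_dot_add_right, h0]
    rw [h6c_dot_add_right, h6c_dot_add_right] at h2
    linarith
  have hpair' : h6q_pair c c' = h6c_dot w a - h6c_dot w b := by
    rw [hpair]
    unfold h6q_val
    rw [hw0, h6c_dot_sub_right]
  have h6 : 6 * (h6q_pair c c' : ℤ) = -D0 - 2 * D1 := by
    rw [hpair']; linarith
  have h6' : 6 * ((h6q_pair c c' : ℤ) : ℚ) = -(D0 : ℚ) - 2 * (D1 : ℚ) := by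
    exact_mod_cast h6
  rw [hET]
  linarith

omit hneg in
/-- Powers of `T` in the normalised case. -/
theorem h7r_eval_pow_norm {c c' : SL(2, ℤ) → X → ℤ} (hc : h6c_IsCoc c)
    (hT' : c' sT = 0) {E : SL(2, ℤ) → ℚ} (hE : h7r_IsTriv c c' E) (n : ℕ) :
    E (sT ^ n) = (n : ℚ) * E sT := by
  have hE1 : E 1 = 0 := by
    have h := hE 1 1
    unfold h7r_kap at h
    rw [mul_one, hc.one, h6c_dot_zero_left] at h
    push_cast at h
    linarith
  induction n with
  | zero => rw [pow_zero, hE1]; simp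
  | succ n ih =>
    have h := hE (sT ^ n) sT
    unfold h7r_kap at h
    rw [hT', h6c_rho_zero, h6c_dot_zero_right] at h
    rw [pow_succ, h, ih]
    push_cast
    ring

omit hneg [Fintype X] in
theorem h7r_rho_pow_triv {N : ℕ} (hN : ∀ x : X, sT ^ N • x = x) (v : X → ℤ) :
    h6c_rho (sT ^ N) v = v := h6c_rho_of_triv _ hN v

/-- **Abstract residue formula**: `E (T ^ N) = N * pair c c'`. -/
theorem h7r_eval {c c' : SL(2, ℤ) → X → ℤ} (hc : h6c_IsCoc c) (hc' : h6c_IsCoc c')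
    (hp : h6q_IsPar c) (hp' : h6q_IsPar c') {E : SL(2, ℤ) → ℚ} (hE : h7r_IsTriv c c' E)
    (N : ℕ) (hN : ∀ x : X, sT ^ N • x = x) :
    E (sT ^ N) = (N : ℚ) * ((h6q_pair c c' : ℤ) : ℚ) := by
  obtain ⟨v, hv⟩ := id hp
  obtain ⟨v', hv'⟩ := id hp'
  -- normalise
  have hc₀ : h6c_IsCoc (fun g => c g + h6c_cob (-v) g) := hc.add (h6c_cob_isCoc _)
  have hc'₀ : h6c_IsCoc (fun g => c' g + h6c_cob (-v') g) := hc'.add (h6c_cob_isCoc _)
  have hT₀ : (fun g => c g + h6c_cob (-v) g) sT = 0 := by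
    show c sT + (-v - h6c_rho sT (-v)) = 0
    rw [hv, h6c_rho_neg]; abel
  have hT'₀ : (fun g => c' g + h6c_cob (-v') g) sT = 0 := by
    show c' sT + (-v' - h6c_rho sT (-v')) = 0
    rw [hv', h6c_rho_neg]; abel
  have hE₁ := h7r_triv_cob_left hc' hE (-v)
  have hE₂ := h7r_triv_cob_right hc₀ hE₁ (-v')
  have key1 := h7r_eval_T_norm hneg hc₀ hc'₀ hT₀ hT'₀ hE₂
  have key2 := h7r_eval_pow_norm hc₀ hT'₀ hE₂ N
  -- the pairing is unchanged
  have hp₀ : h6q_IsPar (fun g => c g + h6c_cob (-v) g) := ⟨0, by rw [hT₀, h6c_rho_zero, sub_zero]⟩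
  have hpair : h6q_pair (fun g => c g + h6c_cob (-v) g) (fun g => c' g + h6c_cob (-v') g)
      = h6q_pair c c' := by
    rw [h6q_pair_cob_right hneg hc₀ hc' hp₀ hp' (-v'), h6q_pair_cob_left hneg hc hc' hp hp' (-v)]
  -- the correction terms vanish at `T ^ N`
  have hz' : c' (sT ^ N) = 0 := by
    have h := h6r_coc_T_zpow hneg hc' hv' (N : ℤ)
    rw [zpow_natCast, h7r_rho_pow_triv hN, sub_self] at h
    exact h
  have hz₀ : (fun g => c g + h6c_cob (-v) g) (sT ^ N) = 0 := by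
    have hv0 : (fun g => c g + h6c_cob (-v) g) sT = (0 : X → ℤ) - h6c_rho sT 0 := by
      rw [hT₀, h6c_rho_zero, sub_zero]
    have h := h6r_coc_T_zpow hneg hc₀ hv0 (N : ℤ)
    rw [zpow_natCast, h6c_rho_zero, sub_zero] at h
    exact h
  have hval : (fun g => (fun g => E g + (h6c_dot (-v) (c' g) : ℚ)) g
      - (h6c_dot ((fun g => c g + h6c_cob (-v) g) g) (h6c_rho g (-v')) : ℚ)) (sT ^ N)
      = E (sT ^ N) := by
    show E (sT ^ N) + (h6c_dot (-v) (c' (sT ^ N)) : ℚ)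
      - (h6c_dot ((fun g => c g + h6c_cob (-v) g) (sT ^ N)) (h6c_rho (sT ^ N) (-v')) : ℚ) = _
    rw [hz', hz₀, h6c_dot_zero_right, h6c_dot_zero_left]
    simp
  rw [← hval]
  refine key2.trans ?_
  rw [key1, hpair]

end Eval

/-! ### The frame-level residue formula -/

section Frame

variable {X : Type*} [MulAction SL(2, ℤ) X] [Fintype X]

/-- **[R1]** a Heisenberg lift `η` of `(x, y)` gives a trivialisation of the cup product of the
Shapiro cocycles. -/
theorem h7r_triv_of_eta (F : h6c_Frame SL(2, ℤ) X) (x y : Additive F.Γ →+ ℤ) (η : F.Γ → ℚ)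
    (hη : ∀ γ γ' : F.Γ, η (γ * γ') = η γ + η γ'
      + (x (Additive.ofMul γ) : ℚ) * (y (Additive.ofMul γ') : ℚ)) :
    h7r_IsTriv (F.coc x) (F.coc y) (fun g => ∑ ξ, η (F.cocElem g ξ)) := by
  intro g h
  show ∑ ξ, η (F.cocElem (g * h) ξ) = ∑ ξ, η (F.cocElem g ξ) + ∑ ξ, η (F.cocElem h ξ) + _
  have h1 : ∑ ξ, η (F.cocElem h ξ) = ∑ ξ, η (F.cocElem h (g⁻¹ • ξ)) :=
    (Equiv.sum_comp (MulAction.toPerm g⁻¹) (fun ξ => η (F.cocElem h ξ))).symm
  have h2 : (h7r_kap (F.coc x) (F.coc y) g h : ℚ)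
      = ∑ ξ, (x (Additive.ofMul (F.cocElem g ξ)) : ℚ)
          * (y (Additive.ofMul (F.cocElem h (g⁻¹ • ξ))) : ℚ) := by
    unfold h7r_kap h6c_dot
    push_cast
    rfl
  rw [h1, h2, ← Finset.sum_add_distrib, ← Finset.sum_add_distrib]
  refine Finset.sum_congr rfl fun ξ _ => ?_
  rw [F.cocElem_mul, hη]

/-- **[R] the residue formula.** -/
theorem h7r_residue (hneg : ∀ x : X, (-1 : SL(2, ℤ)) • x = x) (F : h6c_Frame SL(2, ℤ) X)
    (x y : Additive F.Γ →+ ℤ) (hx : IsParabolicHom F.Γ x) (hy : IsParabolicHom F.Γ y)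
    (η : F.Γ → ℚ)
    (hη : ∀ γ γ' : F.Γ, η (γ * γ') = η γ + η γ'
      + (x (Additive.ofMul γ) : ℚ) * (y (Additive.ofMul γ') : ℚ))
    (N : ℕ) (hN : ∀ ξ : X, sT ^ N • ξ = ξ) :
    (N : ℚ) * ((h6q_P F x y : ℤ) : ℚ) = ∑ ξ, η (F.cocElem (sT ^ N) ξ) :=
  (h7r_eval hneg (F.coc_isCoc x) (F.coc_isCoc y) (h6r_isPar_coc F x hx) (h6r_isPar_coc F y hy)
    (h7r_triv_of_eta F x y η hη) N hN).symm

end Frame

end Fermat.Agent.Lib.S41
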