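/-
S41 project, layer [C2] transfer (helper7): the short model `Y² = X³ - 27c₄X - 54c₆` of an
integral Weierstrass curve, over any field in which `6` is invertible.
-/
import Mathlib
import Fermat.Agent.Lib.S41.H9C2Defs

set_option autoImplicit false

open WeierstrassCurve

namespace Fermat.Agent.Lib.S41

/-- Over a field `K` with `6 ≠ 0`, the image of an integral Weierstrass curve `W` is isomorphic,
by an explicit change of variables, to the image of its short model
`Y² = X³ - 27c₄X - 54c₆`. -/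
theorem h7x_short_eq {K : Type*} [Field K] (h6 : (6 : K) ≠ 0) (W : WeierstrassCurve ℤ)
    (φ : ℤ →+* K) :
    ∃ C : VariableChange K, C • (W.map φ) = (h9c_WsZ (-27 * W.c₄) (-54 * W.c₆)).map φ := by
  have h2 : (2 : K) ≠ 0 := fun h => h6 (by
    have : (6 : K) = 2 * 3 := by norm_num
    rw [this, h, zero_mul])
  have h3 : (3 : K) ≠ 0 := fun h => h6 (by
    have : (6 : K) = 2 * 3 := by norm_num
    rw [this, h, mul_zero])
  have h6' : ((6 : K)⁻¹) ≠ 0 := inv_ne_zero h6
  have h12 : (12 : K) ≠ 0 := by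
    have : (12 : K) = 2 * 2 * 3 := by norm_num
    rw [this]
    exact mul_ne_zero (mul_ne_zero h2 h2) h3
  set a₁ : K := φ W.a₁ with ha₁
  set a₂ : K := φ W.a₂ with ha₂
  set a₃ : K := φ W.a₃ with ha₃
  set a₄ : K := φ W.a₄ with ha₄
  set a₆ : K := φ W.a₆ with ha₆
  set r : K := -(a₁ ^ 2 + 4 * a₂) / 12 with hr
  refine ⟨⟨Units.mk0 ((6 : K)⁻¹) h6', r, -a₁ / 2, -(a₃ + r * a₁) / 2⟩, ?_⟩
  have hu : ((Units.mk0 ((6 : K)⁻¹) h6')⁻¹ : Kˣ) = Units.mk0 (6 : K) h6 := by
    ext; simp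
  ext
  · simp only [variableChange_a₁, hu, Units.val_mk0, map_a₁, h9c_WsZ, map_zero]
    field_simp
    ring
  · simp only [variableChange_a₂, hu, Units.val_mk0, map_a₁, map_a₂, h9c_WsZ, map_zero]
    rw [← ha₁, ← ha₂, hr]
    field_simp
    ring
  · simp only [variableChange_a₃, hu, Units.val_mk0, map_a₁, map_a₃, h9c_WsZ, map_zero]
    rw [← ha₁, ← ha₃]
    field_simp
    ring
  · simp only [variableChange_a₄, hu, Units.val_mk0, map_a₁, map_a₂, map_a₃, map_a₄, h9c_WsZ,
      WeierstrassCurve.c₄, WeierstrassCurve.b₂, WeierstrassCurve.b₄, map_mul, map_neg, map_sub,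
      map_add, map_pow, map_ofNat]
    rw [← ha₁, ← ha₂, ← ha₃, ← ha₄, hr]
    field_simp
    ring
  · simp only [variableChange_a₆, hu, Units.val_mk0, map_a₁, map_a₂, map_a₃, map_a₄, map_a₆,
      h9c_WsZ, WeierstrassCurve.c₆, WeierstrassCurve.b₂, WeierstrassCurve.b₄,
      WeierstrassCurve.b₆, map_mul, map_neg, map_sub, map_add, map_pow, map_ofNat]
    rw [← ha₁, ← ha₂, ← ha₃, ← ha₄, ← ha₆, hr]
    field_simp
    ring

end Fermat.Agent.Lib.S41
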