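/-
S41 project, layer [C2] transfer (helper7): from the short integral model back to `E`.

* `h7x_exists_fixed_of_variableChange`: existence of a nonzero `σ`-fixed `n`-torsion point is
  invariant under variable changes defined over the base field;
* `h7x_frobFix'`: helper9's `h9c_DivStatement` (the kernel of reduction is `p`-divisible) implies
  (C2) in helper1's unfolded shape `h1n_FrobFixStatement'` (with excluded set `{2, 3}`), hence (T1).
-/
import Mathlib
import Fermat.Prelude.Def_FLTPrelim_Modularity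
import Fermat.Agent.Lib.S05.Transfer
import Fermat.Agent.Lib.S41.H7Short
import Fermat.Agent.Lib.S41.H7Lift
import Fermat.Agent.Lib.S41.H1NonEis2

set_option autoImplicit false

open WeierstrassCurve WeierstrassCurve.Affine WeierstrassCurve.Affine.Point

namespace Fermat.Agent.Lib.S41

open Fermat.Agent.Lib.S13 Fermat.Agent.Lib.S05 Fermat.Agent.Lib.S51

/-- Existence of a nonzero `σ`-fixed point killed by `n` transfers from `C • W` to `W`, for a
variable change `C` defined over the base field. -/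
theorem h7x_exists_fixed_of_variableChange {F₀ L : Type*} [Field F₀] [Field L] [Algebra F₀ L]
    [DecidableEq L] (W : WeierstrassCurve F₀) (C : VariableChange F₀) (σ : L ≃ₐ[F₀] L) (n : ℕ)
    (h : ∃ P : ((C • W)⁄L).Point, P ≠ 0 ∧ n • P = 0 ∧ σ • P = P) :
    ∃ P : (W⁄L).Point, P ≠ 0 ∧ n • P = 0 ∧ σ • P = P := by
  have heq : (C.map (algebraMap F₀ L)) • (W.baseChange L) = (C • W).baseChange L :=
    map_variableChange ..
  let Φ : ((C • W)⁄L).Point ≃+ (W⁄L).Point :=
    (h9_pointCongr heq.symm).trans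
      (vcPointEquiv (W.baseChange L) (C.map (algebraMap F₀ L)))
  have hCσ : (C.map (algebraMap F₀ L)).map (σ : L →+* L) = C.map (algebraMap F₀ L) := by
    rw [VariableChange.map_map]
    congr 1
    ext z
    exact σ.commutes z
  have hΦ_some : ∀ {x y : L} (hxy : ((C • W)⁄L).Nonsingular x y),
      ∃ h', Φ (Point.some x y hxy) =
        Point.some (vcX (C.map (algebraMap F₀ L)) x) (vcY (C.map (algebraMap F₀ L)) x y) h' := by
    intro x y hxy
    have hxy' : ((C.map (algebraMap F₀ L)) • (W.baseChange L)).toAffine.Nonsingular x y :=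
      heq.symm ▸ hxy
    refine ⟨(nonsingular_vc _ _ _ _).mp hxy', ?_⟩
    show vcPointEquiv _ _ (h9_pointCongr heq.symm (Point.some x y hxy)) = _
    rw [h9_pointCongr_some, vcPointEquiv_some]
  have hΦσ : ∀ Q : ((C • W)⁄L).Point,
      Φ (Point.map σ.toAlgHom Q) = Point.map σ.toAlgHom (Φ Q) := by
    rintro (_ | ⟨x, y, hxy⟩)
    · rw [show (Point.zero : ((C • W)⁄L).Point) = 0 from rfl, _root_.map_zero, _root_.map_zero,
        _root_.map_zero]
    · obtain ⟨h1, e1⟩ := hΦ_some hxy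
      rw [e1, Point.map_some, Point.map_some]
      obtain ⟨h2, e2⟩ := hΦ_some ((WeierstrassCurve.Affine.baseChange_nonsingular (C • W)
        σ.toAlgHom.injective x y).mpr hxy)
      rw [e2]
      have ex : vcX (C.map (algebraMap F₀ L)) (σ.toAlgHom x) =
          σ.toAlgHom (vcX (C.map (algebraMap F₀ L)) x) := by
        have := vcX_map (σ : L →+* L) (C.map (algebraMap F₀ L)) x
        rw [hCσ] at this
        exact this
      have ey : vcY (C.map (algebraMap F₀ L)) (σ.toAlgHom x) (σ.toAlgHom y) =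
          σ.toAlgHom (vcY (C.map (algebraMap F₀ L)) x y) := by
        have := vcY_map (σ : L →+* L) (C.map (algebraMap F₀ L)) x y
        rw [hCσ] at this
        exact this
      simp only [Point.some.injEq]
      exact ⟨ex, ey⟩
  obtain ⟨P, hP0, hnP, hσP⟩ := h
  refine ⟨Φ P, ?_, ?_, ?_⟩
  · intro h0
    apply hP0
    apply Φ.injective
    rw [h0, _root_.map_zero]
  · rw [← map_nsmul, hnP, _root_.map_zero]
  · show Point.map σ.toAlgHom (Φ P) = Φ P
    rw [← hΦσ]
    congr 1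

/-- `4a³ + 27b²` for the short model in terms of the discriminant. -/
theorem h7x_short_disc (W : WeierstrassCurve ℤ) :
    4 * (-27 * W.c₄) ^ 3 + 27 * (-54 * W.c₆) ^ 2 = -(2 ^ 8 * 3 ^ 12) * W.Δ := by
  linear_combination (78732 : ℤ) * W.c_relation

/-- **(C2)**, unfolded shape, from the divisibility of the kernel of reduction. -/
theorem h7x_frobFix' (hD : h9c_DivStatement) : h1n_FrobFixStatement' := by
  intro E _ W hW p hp _hp2
  refine ⟨{2, 3}, fun ℓ hℓ hℓS hℓp hgood hdvd A hA τ hτD hτF => ?_⟩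
  have hℓ2 : ℓ ≠ 2 := fun h => hℓS (by simp [h])
  have hℓ3 : ℓ ≠ 3 := fun h => hℓS (by simp [h])
  have : Fact ℓ.Prime := ⟨hℓ⟩
  have hℓ' : Prime (ℓ : ℤ) := Nat.prime_iff_prime_int.mp hℓ
  have hnd2 : ¬ (ℓ : ℤ) ∣ 2 := by
    intro h
    have h' : ℓ ∣ 2 := by exact_mod_cast h
    exact hℓ2 ((Nat.prime_dvd_prime_iff_eq hℓ Nat.prime_two).mp h')
  have hnd3 : ¬ (ℓ : ℤ) ∣ 3 := by
    intro h
    have h' : ℓ ∣ 3 := by exact_mod_cast h
    exact hℓ3 ((Nat.prime_dvd_prime_iff_eq hℓ Nat.prime_three).mp h')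
  -- good reduction of the short model
  have hgood' : ¬ (ℓ : ℤ) ∣ 4 * (-27 * W.c₄) ^ 3 + 27 * (-54 * W.c₆) ^ 2 := by
    rw [h7x_short_disc]
    intro h
    rcases hℓ'.dvd_mul.mp h with h | h
    · rw [dvd_neg] at h
      rcases hℓ'.dvd_mul.mp h with h | h
      · exact hnd2 (hℓ'.dvd_of_dvd_pow h)
      · exact hnd3 (hℓ'.dvd_of_dvd_pow h)
    · exact hgood h
  -- point count of the short model modulo `ℓ`
  have h6 : (6 : ZMod ℓ) ≠ 0 := by
    intro h
    have h' : ((6 : ℕ) : ZMod ℓ) = 0 := by exact_mod_cast h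
    rw [ZMod.natCast_eq_zero_iff] at h'
    have h6' : ℓ ∣ 2 * 3 := by simpa using h'
    rcases (Nat.Prime.dvd_mul hℓ).mp h6' with h2 | h3
    · exact hℓ2 ((Nat.prime_dvd_prime_iff_eq hℓ Nat.prime_two).mp h2)
    · exact hℓ3 ((Nat.prime_dvd_prime_iff_eq hℓ Nat.prime_three).mp h3)
  have hcard : p ∣ Nat.card ((h9c_WsZ (-27 * W.c₄) (-54 * W.c₆)).map
      (Int.castRingHom (ZMod ℓ))).toAffine.Point := by
    obtain ⟨C, hC⟩ := h7x_short_eq (K := ZMod ℓ) h6 W (Int.castRingHom (ZMod ℓ))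
    have e : Nat.card ((h9c_WsZ (-27 * W.c₄) (-54 * W.c₆)).map
        (Int.castRingHom (ZMod ℓ))).toAffine.Point =
        Nat.card (W.reductionMod ℓ).toAffine.Point := by
      rw [← hC]
      exact Nat.card_congr (vcPointEquiv (W.map (Int.castRingHom (ZMod ℓ))) C).toEquiv
    rw [e]
    have h1 : W.apOfModel ℓ - (1 + (ℓ : ℤ)) =
        -((Nat.card (W.reductionMod ℓ).toAffine.Point : ℕ) : ℤ) := by
      simp only [WeierstrassCurve.apOfModel, WeierstrassCurve.traceOfFrobenius,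
        WeierstrassCurve.card, Nat.card_zmod]
      ring
    rw [h1, dvd_neg] at hdvd
    exact_mod_cast hdvd
  -- the core for the short model
  obtain ⟨P, hP0, hpP, hτP⟩ := h9c_core h7l_liftStatement hD (-27 * W.c₄) (-54 * W.c₆) hp hℓ hℓp
    hℓ2 hℓ3 hgood' hcard A τ hA hτD hτF
  -- transfer back to `E`
  obtain ⟨C₁, hC₁⟩ := hW
  obtain ⟨C₂, hC₂⟩ := h7x_short_eq (K := ℚ) (by norm_num) W (Int.castRingHom ℚ)
  have hWs : (h9c_WsZ (-27 * W.c₄) (-54 * W.c₆)).map (Int.castRingHom ℚ) =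
      h9c_Ws (-27 * W.c₄) (-54 * W.c₆) := by
    ext <;> simp [h9c_WsZ, h9c_Ws]
  have hcurve : h9c_Ws (-27 * W.c₄) (-54 * W.c₆) = C₂ • (C₁ • E) := by
    rw [hC₁, hC₂, hWs]
  have h1 : ∃ P : ((C₂ • (C₁ • E))⁄Qbar).Point, P ≠ 0 ∧ p • P = 0 ∧ τ • P = P := by
    rw [← hcurve]
    exact ⟨P, hP0, hpP, hτP⟩
  have h2 := h7x_exists_fixed_of_variableChange (C₁ • E) C₂ τ p h1
  obtain ⟨P', hP'0, hpP', hτP'⟩ := h7x_exists_fixed_of_variableChange E C₁ τ p h2
  have hmem : P' ∈ Submodule.torsionBy ℤ (E⁄Qbar).Point p := by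
    rw [Submodule.mem_torsionBy_iff, natCast_zsmul]
    exact hpP'
  refine ⟨⟨P', hmem⟩, ?_, ?_⟩
  · intro h0
    exact hP'0 (congrArg Subtype.val h0)
  · exact Subtype.ext hτP'

/-- **(T1)** from the divisibility of the kernel of reduction alone. -/
theorem h7x_nonEis (hD : h9c_DivStatement) : h6_NonEisStatement :=
  h1n_nonEis' (h7x_frobFix' hD)

end Fermat.Agent.Lib.S41
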