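/-
S41 project (level raising), layer [C2] (helper9): the kernel of reduction of a short integral model
is `n`-divisible for every `n` which is a unit at the place (`h9c_DivStatement`).

Valuation argument on the norm identity over `ℚ̄` (`h9e_identityQ`):
`∏_s (x(Q + T s) - x₀) = A' · x(n • Q) + B'` with `v(A') = 1`, `v(B') ≤ 1`; if `v(x(n • Q)) > 1` some
factor has `v > 1`, i.e. `Q + T s` lies in the kernel of reduction.
-/
import Mathlib
import Fermat.Agent.Lib.S41.H9C2Descent

set_option autoImplicit false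

noncomputable section

open WeierstrassCurve WeierstrassCurve.Affine

namespace Fermat.Agent.Lib.S41

open Fermat.Agent.Lib.S13 Fermat.Agent.Lib.S05

section val

variable {Γ₀ : Type*} [LinearOrderedCommGroupWithZero Γ₀] (v : Valuation Qbar Γ₀)

/-- A finite product of elements `≤ 1` which equals `1` has all factors equal to `1`. -/
theorem h9v_prod_eq_one {ι : Type*} (s : Finset ι) (f : ι → Γ₀) (hf : ∀ i ∈ s, f i ≤ 1)
    (h : ∏ i ∈ s, f i = 1) : ∀ i ∈ s, f i = 1 := by
  classical
  induction s using Finset.induction_on with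
  | empty => intro i hi; simp at hi
  | insert a s ha ih =>
    rw [Finset.prod_insert ha] at h
    have h1 : f a ≤ 1 := hf a (Finset.mem_insert_self _ _)
    have h2 : ∏ i ∈ s, f i ≤ 1 :=
      Finset.prod_le_one' fun i hi => hf i (Finset.mem_insert_of_mem hi)
    have h3 : f a = 1 := by
      by_contra hne
      have hlt : f a < 1 := lt_of_le_of_ne h1 hne
      have : f a * ∏ i ∈ s, f i ≤ f a * 1 := mul_le_mul_right h2 _
      rw [mul_one, h] at this
      exact absurd this (not_le.mpr hlt)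
    rw [h3, one_mul] at h
    intro i hi
    rcases Finset.mem_insert.mp hi with rfl | hi'
    · exact h3
    · exact ih (fun i hi => hf i (Finset.mem_insert_of_mem hi)) h i hi'

/-- Choice of `x₀`: integral, with `x₀ - c` a unit for finitely many integral `c`. -/
theorem h9v_exists_x0 {ι : Type*} (s : Finset ι) (c : ι → Qbar) (hc : ∀ i ∈ s, v (c i) ≤ 1) :
    ∃ x₀ : Qbar, v x₀ ≤ 1 ∧ ∀ i ∈ s, v (c i - x₀) = 1 := by
  classical
  let P : Polynomial Qbar := Polynomial.X * ∏ i ∈ s, (Polynomial.X - Polynomial.C (c i)) + 1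
  have hmonic : (∏ i ∈ s, (Polynomial.X - Polynomial.C (c i)) : Polynomial Qbar).Monic :=
    Polynomial.monic_prod_of_monic _ _ fun i _ => Polynomial.monic_X_sub_C (c i)
  have hm2 : (Polynomial.X * ∏ i ∈ s, (Polynomial.X - Polynomial.C (c i)) :
      Polynomial Qbar).Monic := Polynomial.monic_X.mul hmonic
  have hdeg : P.degree ≠ 0 := by
    have h1 : (1 : Polynomial Qbar).degree <
        (Polynomial.X * ∏ i ∈ s, (Polynomial.X - Polynomial.C (c i)) : Polynomial Qbar).degree := by
      rw [Polynomial.degree_one, Polynomial.degree_mul, Polynomial.degree_X]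
      have : (0 : WithBot ℕ) ≤
          (∏ i ∈ s, (Polynomial.X - Polynomial.C (c i)) : Polynomial Qbar).degree := by
        rw [Polynomial.degree_eq_natDegree hmonic.ne_zero]
        exact_mod_cast Nat.zero_le _
      calc (0 : WithBot ℕ) < 1 + 0 := by norm_num
        _ ≤ 1 + _ := by gcongr
    have : P.degree = (Polynomial.X * ∏ i ∈ s, (Polynomial.X - Polynomial.C (c i)) :
        Polynomial Qbar).degree := Polynomial.degree_add_eq_left_of_degree_lt h1
    rw [this, Polynomial.degree_mul, Polynomial.degree_X]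
    intro h0
    have : (0 : WithBot ℕ) ≤
        (∏ i ∈ s, (Polynomial.X - Polynomial.C (c i)) : Polynomial Qbar).degree := by
      rw [Polynomial.degree_eq_natDegree hmonic.ne_zero]
      exact_mod_cast Nat.zero_le _
    have h2 : (1 : WithBot ℕ) ≤ 1 + (∏ i ∈ s, (Polynomial.X - Polynomial.C (c i)) :
        Polynomial Qbar).degree := by
      calc (1 : WithBot ℕ) = 1 + 0 := by norm_num
        _ ≤ 1 + _ := by gcongr
    rw [h0] at h2
    exact absurd h2 (by norm_num)
  obtain ⟨x₀, hx₀⟩ := IsAlgClosed.exists_root P hdeg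
  have hev : x₀ * ∏ i ∈ s, (x₀ - c i) = -1 := by
    have : Polynomial.eval x₀ P = 0 := hx₀
    simp only [P, Polynomial.eval_add, Polynomial.eval_mul, Polynomial.eval_X,
      Polynomial.eval_prod, Polynomial.eval_sub, Polynomial.eval_C, Polynomial.eval_one] at this
    linear_combination this
  have hv : v x₀ * ∏ i ∈ s, v (x₀ - c i) = 1 := by
    have := congrArg v hev
    rwa [map_mul, map_prod, Valuation.map_neg, map_one] at this
  have hx₀le : v x₀ ≤ 1 := by
    by_contra hgt
    push Not at hgt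
    have h1 : ∀ i ∈ s, 1 ≤ v (x₀ - c i) := by
      intro i hi
      rw [Valuation.map_sub_eq_of_lt_left v (lt_of_le_of_lt (hc i hi) hgt)]
      exact hgt.le
    have h2 : 1 ≤ ∏ i ∈ s, v (x₀ - c i) := Finset.one_le_prod' h1
    have : 1 < v x₀ * ∏ i ∈ s, v (x₀ - c i) := by
      calc (1 : Γ₀) < v x₀ := hgt
        _ = v x₀ * 1 := (mul_one _).symm
        _ ≤ v x₀ * ∏ i ∈ s, v (x₀ - c i) := mul_le_mul_right h2 _
    rw [hv] at this
    exact lt_irrefl _ this
  refine ⟨x₀, hx₀le, fun i hi => ?_⟩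
  have hle : ∀ i ∈ s, v (x₀ - c i) ≤ 1 := fun i hi => v.map_sub_le hx₀le (hc i hi)
  -- all factors of the product `v x₀ * ∏ …` are `≤ 1` and the product is `1`
  have hprod : ∏ i ∈ s, v (x₀ - c i) = 1 := by
    by_contra hne
    have hlt : ∏ i ∈ s, v (x₀ - c i) < 1 :=
      lt_of_le_of_ne (Finset.prod_le_one' hle) hne
    have : v x₀ * ∏ i ∈ s, v (x₀ - c i) ≤ 1 * ∏ i ∈ s, v (x₀ - c i) :=
      mul_le_mul_left hx₀le _
    rw [one_mul, hv] at this
    exact absurd this (not_le.mpr hlt)
  rw [Valuation.map_sub_swap]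
  exact h9v_prod_eq_one s _ hle hprod i hi

end val

/-- The `x`-coordinate of a point outside the kernel of reduction is integral. -/
theorem h9v_cx_le (A : ValuationSubring Qbar) (a b : ℤ) {P : ((h9c_Ws a b)⁄Qbar).Point}
    (hP : ¬ h9c_Ker A a b P) : A.valuation (h9d_cx P) ≤ 1 := by
  rcases P with _ | ⟨x, y, h⟩
  · exact absurd trivial hP
  · exact not_lt.mp hP

/-- A point whose `x`-coordinate has a pole lies in the kernel of reduction. -/
theorem h9v_ker_of_cx (A : ValuationSubring Qbar) (a b : ℤ) {P : ((h9c_Ws a b)⁄Qbar).Point}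
    (hP : 1 < A.valuation (h9d_cx P)) : h9c_Ker A a b P := by
  rcases P with _ | ⟨x, y, h⟩
  · exact trivial
  · exact hP

/-- A point of `E(ℚ̄)` outside the kernel of reduction, different from the origin. -/
theorem h9v_exists_integral_point (A : ValuationSubring Qbar) (a b : ℤ)
    (hab : 4 * a ^ 3 + 27 * b ^ 2 ≠ 0) :
    ∃ P : ((h9c_Ws a b)⁄Qbar).Point, P ≠ 0 ∧ ¬ h9c_Ker A a b P := by
  obtain ⟨y, hy⟩ := IsAlgClosed.exists_pow_nat_eq (b : Qbar) (n := 2) (by norm_num)
  have hΔ : ((h9c_Ws a b).baseChange Qbar).Δ ≠ 0 := by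
    rw [WeierstrassCurve.baseChange, WeierstrassCurve.map_Δ]
    exact (map_ne_zero_iff _ (algebraMap ℚ Qbar).injective).mpr (h9e_Ws_Δ a b hab)
  have heq : ((h9c_Ws a b)⁄Qbar).Equation 0 y := by
    rw [Affine.equation_iff]
    simp only [h9c_a₁, h9c_a₂, h9c_a₃, h9c_a₄, h9c_a₆]
    linear_combination hy
  have hns : ((h9c_Ws a b)⁄Qbar).Nonsingular 0 y :=
    (Affine.equation_iff_nonsingular_of_Δ_ne_zero hΔ).mp heq
  refine ⟨Point.some 0 y hns, Point.some_ne_zero hns, ?_⟩
  show ¬ (1 < A.valuation (0 : Qbar))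
  rw [map_zero]
  exact not_lt.mpr zero_le_one

/-- **(C2b)** the kernel of reduction is `n`-divisible for `v(n) = 1`. -/
theorem h9v_div : h9c_DivStatement := by
  intro a b hab A n hn hvn R hR
  classical
  haveI : NeZero n := ⟨hn.ne'⟩
  set v := A.valuation with hv
  rcases R with _ | ⟨xR, yR, hRns⟩
  · exact ⟨0, trivial, nsmul_zero n⟩
  have hxR : 1 < v xR := hR
  obtain ⟨T, hTz, hT0, hTinj, hT⟩ := h9e_identityQ a b hab n
  -- the nonzero torsion points are outside the kernel
  have hTker : ∀ s ∈ (Finset.univ.erase (0 : Fin n × Fin n)), ¬ h9c_Ker A a b (T s) := by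
    intro s hs hker
    have h0 : T s = 0 := h9c_ker_torsion_free A a b hker n hvn (hT0 s)
    have : s = 0 := hTinj (by rw [h0, hTz])
    exact (Finset.ne_of_mem_erase hs) this
  obtain ⟨x₀, hx₀, hx₀u⟩ := h9v_exists_x0 v (Finset.univ.erase (0 : Fin n × Fin n))
    (fun s => h9d_cx (T s)) (fun s hs => h9v_cx_le A a b (hTker s hs))
  obtain ⟨B', hB'⟩ := hT x₀
  set A' : Qbar := (n : Qbar) ^ 2 * ∏ s ∈ (Finset.univ.erase (0 : Fin n × Fin n)),
    (h9d_cx (T s) - x₀) with hA'
  have hvA' : v A' = 1 := by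
    rw [hA', map_mul, map_pow, hvn, one_pow, one_mul, map_prod]
    exact Finset.prod_eq_one hx₀u
  -- `B'` is integral
  have hvB' : v B' ≤ 1 := by
    obtain ⟨P₀, hP₀0, hP₀⟩ := h9v_exists_integral_point A a b hab
    obtain ⟨Q₀, hQ₀⟩ := h9e_exists_div a b hab n hn P₀
    have hid := hB' Q₀ (by rw [hQ₀]; exact hP₀0)
    have hfac : ∀ s : Fin n × Fin n, v (h9d_cx (Q₀ + T s) - x₀) ≤ 1 := by
      intro s
      refine v.map_sub_le (h9v_cx_le A a b fun hker => hP₀ ?_) hx₀
      have := h9c_ker_nsmul A a b hker n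
      rwa [nsmul_add, hT0 s, add_zero, hQ₀] at this
    have hlhs : v (∏ s : Fin n × Fin n, (h9d_cx (Q₀ + T s) - x₀)) ≤ 1 := by
      rw [map_prod]
      exact Finset.prod_le_one' fun s _ => hfac s
    have hterm : v (A' * h9d_cx (n • Q₀)) ≤ 1 := by
      rw [map_mul, hvA', one_mul, hQ₀]
      exact h9v_cx_le A a b hP₀
    have : B' = ∏ s : Fin n × Fin n, (h9d_cx (Q₀ + T s) - x₀) - A' * h9d_cx (n • Q₀) := by
      rw [hid]; ring
    rw [this]
    exact v.map_sub_le hlhs hterm
  -- the main step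
  obtain ⟨Q₁, hQ₁⟩ := h9e_exists_div a b hab n hn (Point.some xR yR hRns)
  have hid := hB' Q₁ (by rw [hQ₁]; exact Point.some_ne_zero hRns)
  rw [hQ₁] at hid
  have hrhs : 1 < v (A' * xR + B') := by
    have h1 : v (A' * xR) = v xR := by rw [map_mul, hvA', one_mul]
    have h2 : v B' < v (A' * xR) := by rw [h1]; exact lt_of_le_of_lt hvB' hxR
    rw [Valuation.map_add_eq_of_lt_left v h2, h1]
    exact hxR
  have hcx : h9d_cx (Point.some xR yR hRns : ((h9c_Ws a b)⁄Qbar).Point) = xR := rfl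
  rw [hcx] at hid
  rw [← hid, map_prod] at hrhs
  have hex : ∃ s : Fin n × Fin n, 1 < v (h9d_cx (Q₁ + T s) - x₀) := by
    by_contra hno
    push Not at hno
    exact absurd hrhs (not_lt.mpr (Finset.prod_le_one' fun s _ => hno s))
  obtain ⟨s, hs⟩ := hex
  have hpole : 1 < v (h9d_cx (Q₁ + T s)) := by
    by_contra hle
    push Not at hle
    exact absurd hs (not_lt.mpr (v.map_sub_le hle hx₀))
  refine ⟨Q₁ + T s, h9v_ker_of_cx A a b hpole, ?_⟩
  rw [nsmul_add, hT0 s, add_zero, hQ₁]

end Fermat.Agent.Lib.S41
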