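/-
S41 project (level raising): **(T1)**, the non-Eisenstein statement `h6_NonEisStatement`,
unconditionally: helper1's C1'/C3' (`h1n_nonEis'`), helper7's C2(a) + transfer (`h7x_frobFix'`),
helper9's C2(b) (`h9v_div`).
-/
import Mathlib
import Fermat.Agent.Lib.S41.H7Transfer
import Fermat.Agent.Lib.S41.H9C2Div

set_option autoImplicit false

namespace Fermat.Agent.Lib.S41

/-- **(C2)** in helper1's unfolded shape, unconditionally. -/
theorem h7x_C2 : h1n_FrobFixStatement' := h7x_frobFix' h9v_div

/-- **(T1)**: the non-Eisenstein statement. -/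
theorem h7x_T1 : h6_NonEisStatement := h7x_nonEis h9v_div

end Fermat.Agent.Lib.S41
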