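/-
S41 project (level raising), layer [C2] glue (helper9): the short integral model
`Y² = X³ - 27 c₄ X - 54 c₆` of an integral Weierstrass curve `W` has the same number of points
modulo every prime `ℓ ∉ {2, 3}`, and good reduction at `ℓ` if `W` has.
-/
import Mathlib
import Fermat.Agent.Lib.S51.VarChangePoint
import Fermat.Agent.Lib.S41.H9C2Defs

set_option autoImplicit false

noncomputable section

open WeierstrassCurve

namespace Fermat.Agent.Lib.S41

open Fermat.Agent.Lib.S51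

section field

variable {F : Type*} [Field F]

/-- The change of variables to the short model (`6` invertible). -/
def h9n_vc (W : WeierstrassCurve F) (h6 : (6 : F) ≠ 0) : VariableChange F :=
  ⟨Units.mk0 (6 : F)⁻¹ (inv_ne_zero h6), -W.b₂ / 12, -W.a₁ / 2, -W.a₃ / 2 + W.a₁ * W.b₂ / 24⟩

theorem h9n_vc_smul (W : WeierstrassCurve F) (h6 : (6 : F) ≠ 0) :
    h9n_vc W h6 • W = ⟨0, 0, 0, -27 * W.c₄, -54 * W.c₆⟩ := by
  have h2 : (2 : F) ≠ 0 := fun h => h6 (by rw [show (6 : F) = 2 * 3 by norm_num, h, zero_mul])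
  have h3 : (3 : F) ≠ 0 := fun h => h6 (by rw [show (6 : F) = 2 * 3 by norm_num, h, mul_zero])
  have h12 : (12 : F) ≠ 0 := by
    rw [show (12 : F) = 2 * 2 * 3 by norm_num]; exact mul_ne_zero (mul_ne_zero h2 h2) h3
  have h24 : (24 : F) ≠ 0 := by
    rw [show (24 : F) = 2 * 12 by norm_num]; exact mul_ne_zero h2 h12
  have hu : (((h9n_vc W h6).u⁻¹ : Fˣ) : F) = 6 := by
    simp [h9n_vc]
  ext
  · rw [variableChange_a₁, hu]
    simp only [h9n_vc]
    field_simp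
    ring
  · rw [variableChange_a₂, hu]
    simp only [h9n_vc, WeierstrassCurve.b₂]
    field_simp
    ring
  · rw [variableChange_a₃, hu]
    simp only [h9n_vc, WeierstrassCurve.b₂]
    field_simp
    ring
  · rw [variableChange_a₄, hu]
    simp only [h9n_vc, WeierstrassCurve.c₄, WeierstrassCurve.b₂, WeierstrassCurve.b₄]
    field_simp
    ring
  · rw [variableChange_a₆, hu]
    simp only [h9n_vc, WeierstrassCurve.c₆, WeierstrassCurve.b₂, WeierstrassCurve.b₄,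
      WeierstrassCurve.b₆]
    field_simp
    ring

end field

theorem h9n_six_ne_zero {ℓ : ℕ} (hℓ : ℓ.Prime) (hℓ2 : ℓ ≠ 2) (hℓ3 : ℓ ≠ 3) :
    (6 : ZMod ℓ) ≠ 0 := by
  intro h
  have h' : ((6 : ℕ) : ZMod ℓ) = 0 := by exact_mod_cast h
  rw [ZMod.natCast_eq_zero_iff] at h'
  have h6 : (6 : ℕ) = 2 * 3 := by norm_num
  rw [h6] at h'
  rcases (Nat.Prime.dvd_mul hℓ).mp h' with h | h
  · exact hℓ2 ((Nat.prime_dvd_prime_iff_eq hℓ Nat.prime_two).mp h)
  · exact hℓ3 ((Nat.prime_dvd_prime_iff_eq hℓ Nat.prime_three).mp h)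

/-- **Point count**: `W` and its short model have the same number of points modulo `ℓ ∉ {2,3}`. -/
theorem h9n_card_short (W : WeierstrassCurve ℤ) {ℓ : ℕ} (hℓ : ℓ.Prime) (hℓ2 : ℓ ≠ 2)
    (hℓ3 : ℓ ≠ 3) :
    Nat.card (W.map (Int.castRingHom (ZMod ℓ))).toAffine.Point =
      Nat.card ((h9c_WsZ (-27 * W.c₄) (-54 * W.c₆)).map
        (Int.castRingHom (ZMod ℓ))).toAffine.Point := by
  haveI : Fact ℓ.Prime := ⟨hℓ⟩
  have h6 := h9n_six_ne_zero hℓ hℓ2 hℓ3
  set W' : WeierstrassCurve (ZMod ℓ) := W.map (Int.castRingHom (ZMod ℓ)) with hW'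
  have hcurve : (h9c_WsZ (-27 * W.c₄) (-54 * W.c₆)).map (Int.castRingHom (ZMod ℓ))
      = h9n_vc W' h6 • W' := by
    rw [h9n_vc_smul, hW', WeierstrassCurve.map_c₄, WeierstrassCurve.map_c₆]
    ext <;> simp [h9c_WsZ]
  rw [hcurve]
  exact (Nat.card_congr (vcPointEquiv W' (h9n_vc W' h6)).toEquiv).symm

/-- **Good reduction** of the short model at `ℓ ∉ {2, 3}`. -/
theorem h9n_good_short (W : WeierstrassCurve ℤ) {ℓ : ℕ} (hℓ : ℓ.Prime) (hℓ2 : ℓ ≠ 2)
    (hℓ3 : ℓ ≠ 3) (hgood : ¬ (ℓ : ℤ) ∣ W.Δ) :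
    ¬ (ℓ : ℤ) ∣ 4 * (-27 * W.c₄) ^ 3 + 27 * (-54 * W.c₆) ^ 2 := by
  have hid : 4 * (-27 * W.c₄) ^ 3 + 27 * (-54 * W.c₆) ^ 2 = -(2 ^ 8 * 3 ^ 12) * W.Δ := by
    have := W.c_relation
    linear_combination (78732 : ℤ) * this
  rw [hid]
  have hp : Prime (ℓ : ℤ) := Nat.prime_iff_prime_int.mp hℓ
  intro hd
  rcases hp.dvd_or_dvd hd with h | h
  · rw [dvd_neg] at h
    rcases hp.dvd_or_dvd h with h | h
    · have h2 := hp.dvd_of_dvd_pow h
      have : ℓ ∣ 2 := by exact_mod_cast h2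
      exact hℓ2 ((Nat.prime_dvd_prime_iff_eq hℓ Nat.prime_two).mp this)
    · have h3 := hp.dvd_of_dvd_pow h
      have : ℓ ∣ 3 := by exact_mod_cast h3
      exact hℓ3 ((Nat.prime_dvd_prime_iff_eq hℓ Nat.prime_three).mp this)
  · exact hgood h

end Fermat.Agent.Lib.S41
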