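/-
S41 project (level raising), Lemma R, analytic part (helper9).

For a lattice `Λ` with real invariants `g₂, g₃`:
* the conjugate lattice `Λ̄` has invariants `conj g₂, conj g₃` (`h9r_g₂_conj`, `h9r_g₃_conj`);
* a lattice is determined by `(g₂, g₃)` (`h9r_lattice_eq`);
* hence `Λ̄ = Λ` and `℘(z̄) = conj ℘(z)` (`h9r_real`).
-/
import Mathlib
import Fermat.Agent.Lib.S13.WPGroup

set_option autoImplicit false

noncomputable section

namespace Fermat.Agent.Lib.S41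

open PeriodPair Fermat.Agent.Lib.S13 Filter Topology ComplexConjugate

/-- The complex-conjugate period pair. -/
def h9r_conjPair (L : PeriodPair) : PeriodPair where
  ω₁ := conj L.ω₁
  ω₂ := conj L.ω₂
  indep := by
    have h := L.indep.map' (Complex.conjAe.toLinearMap)
      (LinearMap.ker_eq_bot.2 Complex.conjAe.injective)
    have e : ![conj L.ω₁, conj L.ω₂] = ⇑Complex.conjAe.toLinearMap ∘ ![L.ω₁, L.ω₂] := by
      ext i
      fin_cases i <;> simp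
    rw [e]
    exact h

@[simp] theorem h9r_conjPair_ω₁ (L : PeriodPair) : (h9r_conjPair L).ω₁ = conj L.ω₁ := rfl
@[simp] theorem h9r_conjPair_ω₂ (L : PeriodPair) : (h9r_conjPair L).ω₂ = conj L.ω₂ := rfl

theorem h9r_mem_conjPair {L : PeriodPair} {z : ℂ} :
    z ∈ (h9r_conjPair L).lattice ↔ conj z ∈ L.lattice := by
  rw [mem_lattice, mem_lattice]
  constructor
  · rintro ⟨m, n, rfl⟩
    exact ⟨m, n, by simp⟩
  · rintro ⟨m, n, h⟩
    refine ⟨m, n, ?_⟩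
    have := congrArg conj h
    simp at this
    simpa using this

/-- Conjugation as a bijection `Λ̄ ≃ Λ`. -/
def h9r_latticeEquiv (L : PeriodPair) : (h9r_conjPair L).lattice ≃ L.lattice where
  toFun l := ⟨conj (l : ℂ), h9r_mem_conjPair.mp l.2⟩
  invFun l := ⟨conj (l : ℂ), h9r_mem_conjPair.mpr (by simp)⟩
  left_inv l := by ext; simp
  right_inv l := by ext; simp

@[simp] theorem h9r_latticeEquiv_coe (L : PeriodPair) (l : (h9r_conjPair L).lattice) :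
    ((h9r_latticeEquiv L l : L.lattice) : ℂ) = conj (l : ℂ) := rfl

theorem h9r_wp_conj (L : PeriodPair) (z : ℂ) :
    ℘[h9r_conjPair L] z = conj (℘[L] (conj z)) := by
  unfold weierstrassP
  rw [Complex.conj_tsum, ← (h9r_latticeEquiv L).tsum_eq]
  refine tsum_congr fun l => ?_
  simp

theorem h9r_dwp_conj (L : PeriodPair) (z : ℂ) :
    ℘'[h9r_conjPair L] z = conj (℘'[L] (conj z)) := by
  unfold derivWeierstrassP
  rw [map_neg, Complex.conj_tsum, ← (h9r_latticeEquiv L).tsum_eq]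
  congr 1
  refine tsum_congr fun l => ?_
  simp [map_ofNat]

theorem h9r_G_conj (L : PeriodPair) (n : ℕ) : (h9r_conjPair L).G n = conj (L.G n) := by
  unfold PeriodPair.G
  rw [Complex.conj_tsum, ← (h9r_latticeEquiv L).tsum_eq]
  refine tsum_congr fun l => ?_
  simp

theorem h9r_g₂_conj (L : PeriodPair) : (h9r_conjPair L).g₂ = conj L.g₂ := by
  unfold PeriodPair.g₂
  rw [h9r_G_conj]; simp [map_ofNat]

theorem h9r_g₃_conj (L : PeriodPair) : (h9r_conjPair L).g₃ = conj L.g₃ := by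
  unfold PeriodPair.g₃
  rw [h9r_G_conj]; simp [map_ofNat]

/-! ### A lattice is determined by `(g₂, g₃)` -/

/-- Two Weierstrass functions with the same `g₂` and the same value and derivative at a pair of
points: the base points differ by a pole comparison. -/
theorem h9r_sub_mem_of_eq (L₁ L₂ : PeriodPair) (h2 : L₁.g₂ = L₂.g₂) {z₁ z₂ : ℂ}
    (hz₁ : z₁ ∉ L₁.lattice) (hz₂ : z₂ ∉ L₂.lattice)
    (h1 : ℘[L₁] z₁ = ℘[L₂] z₂) (h1' : ℘'[L₁] z₁ = ℘'[L₂] z₂) : z₁ - z₂ ∈ L₁.lattice := by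
  by_contra hzw
  have hU : ∀ (L : PeriodPair) (a : ℂ), a ∉ L.lattice → ∀ᶠ u in 𝓝 (0 : ℂ), u + a ∉ L.lattice := by
    intro L a ha
    have hc : ContinuousAt (fun u : ℂ => u + a) 0 :=
      (continuous_id.add continuous_const).continuousAt
    have : (L.lattice : Set ℂ)ᶜ ∈ 𝓝 ((fun u : ℂ => u + a) 0) := by
      simpa using (h1_isOpen_compl_lattice L).mem_nhds ha
    exact hc this
  have hloc : (fun u => ℘[L₁] (u + z₁)) =ᶠ[𝓝 0] fun u => ℘[L₂] (u + z₂) := by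
    refine h1_ode_unique (f' := fun u => ℘'[L₁] (u + z₁)) (g' := fun u => ℘'[L₂] (u + z₂))
      (c := L₁.g₂ / 2) ?_ ?_ ?_ ?_ (by simpa using h1) (by simpa using h1')
    · filter_upwards [hU L₁ z₁ hz₁] with u hu
      exact (h1_hasDerivAt_wp L₁ hu).comp_add_const u z₁
    · filter_upwards [hU L₁ z₁ hz₁] with u hu
      exact (h1_hasDerivAt_dwp L₁ hu).comp_add_const u z₁
    · filter_upwards [hU L₂ z₂ hz₂] with u hu
      exact (h1_hasDerivAt_wp L₂ hu).comp_add_const u z₂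
    · filter_upwards [hU L₂ z₂ hz₂] with u hu
      rw [h2]
      exact (h1_hasDerivAt_dwp L₂ hu).comp_add_const u z₂
  set V : Set ℂ := {u | u + z₁ ∉ L₁.lattice ∧ u + z₂ ∉ L₂.lattice} with hV
  have hcount : ∀ L : PeriodPair, (L.lattice : Set ℂ).Countable := by
    intro L
    have : Countable L.lattice := Countable.of_equiv _ L.latticeEquivProd.symm.toEquiv
    exact Set.countable_coe_iff.mp this
  have hVc : Vᶜ.Countable := by
    have : Vᶜ ⊆ (fun l => l - z₁) '' (L₁.lattice : Set ℂ)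
        ∪ (fun l => l - z₂) '' (L₂.lattice : Set ℂ) := by
      intro u hu
      simp only [hV, Set.mem_compl_iff, Set.mem_ofPred_eq, not_and_or, not_not] at hu
      rcases hu with hu | hu
      · exact Or.inl ⟨u + z₁, hu, by ring⟩
      · exact Or.inr ⟨u + z₂, hu, by ring⟩
    exact (((hcount L₁).image _).union ((hcount L₂).image _)).mono this
  have hVpre : IsPreconnected V := by
    have hr : 1 < Module.rank ℝ ℂ := by
      rw [Complex.rank_real_complex]; norm_num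
    have := (hVc.isConnected_compl_of_one_lt_rank hr).isPreconnected
    rwa [compl_compl] at this
  have h0V : (0 : ℂ) ∈ V := by simp [hV, hz₁, hz₂]
  have hfan : AnalyticOnNhd ℂ (fun u => ℘[L₁] (u + z₁)) V := by
    intro u hu
    have : AnalyticAt ℂ ℘[L₁] (u + z₁) := L₁.analyticOnNhd_weierstrassP _ hu.1
    exact this.comp (f := fun u : ℂ => u + z₁) (by fun_prop)
  have hgan : AnalyticOnNhd ℂ (fun u => ℘[L₂] (u + z₂)) V := by
    intro u hu
    have : AnalyticAt ℂ ℘[L₂] (u + z₂) := L₂.analyticOnNhd_weierstrassP _ hu.2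
    exact this.comp (f := fun u : ℂ => u + z₂) (by fun_prop)
  have hEq : Set.EqOn (fun u => ℘[L₁] (u + z₁)) (fun u => ℘[L₂] (u + z₂)) V :=
    hfan.eqOn_of_preconnected_of_eventuallyEq hgan hVpre h0V hloc
  have hz' : -z₂ + z₁ ∉ L₁.lattice := by
    have : -z₂ + z₁ = z₁ - z₂ := by ring
    rwa [this]
  have hcont : ContinuousAt (fun u => ℘[L₁] (u + z₁)) (-z₂) := by
    have : ContinuousAt ℘[L₁] (-z₂ + z₁) := (h1_hasDerivAt_wp L₁ hz').continuousAt
    exact this.comp (f := fun u : ℂ => u + z₁) (by fun_prop)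
  have hVnear : ∀ᶠ u in 𝓝[≠] (-z₂), u ∈ V := by
    have hA : ∀ᶠ u in 𝓝 (-z₂), u + z₁ ∉ L₁.lattice := by
      have hc : ContinuousAt (fun u : ℂ => u + z₁) (-z₂) := by fun_prop
      exact hc ((h1_isOpen_compl_lattice L₁).mem_nhds hz')
    have hB : ∀ᶠ u in 𝓝 (-z₂), u + z₂ ∈ ((L₂.lattice : Set ℂ) \ {0})ᶜ := by
      have hc : ContinuousAt (fun u : ℂ => u + z₂) (-z₂) := by fun_prop
      have h0 : ((fun u : ℂ => u + z₂) (-z₂)) = 0 := by simp
      have : ((L₂.lattice : Set ℂ) \ {0})ᶜ ∈ 𝓝 ((fun u : ℂ => u + z₂) (-z₂)) := by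
        rw [h0]
        exact L₂.compl_lattice_sdiff_singleton_mem_nhds 0
      exact hc this
    filter_upwards [mem_nhdsWithin_of_mem_nhds hA, mem_nhdsWithin_of_mem_nhds hB,
      self_mem_nhdsWithin] with u hu1 hu2 hu3
    refine ⟨hu1, fun hmem => hu2 ⟨hmem, ?_⟩⟩
    intro h0
    apply hu3
    have : u + z₂ = 0 := h0
    show u = -z₂
    linear_combination this
  have ht1 : Tendsto (fun u => ‖℘[L₁] (u + z₁)‖) (𝓝[≠] (-z₂)) atTop := by
    refine (h1_tendsto_wp_shift L₂ z₂).congr' ?_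
    filter_upwards [hVnear] with u hu
    have := hEq hu
    simp only at this
    rw [this]
  have ht2 : Tendsto (fun u => ‖℘[L₁] (u + z₁)‖) (𝓝[≠] (-z₂)) (𝓝 ‖℘[L₁] (-z₂ + z₁)‖) :=
    (hcont.norm.tendsto).mono_left nhdsWithin_le_nhds
  exact not_tendsto_atTop_of_tendsto_nhds ht2 ht1

/-- Pole transfer: every pole of `℘[L₂](· + z₂)` is a pole of `℘[L₁](· + z₁)`. -/
theorem h9r_pole_transfer (L₁ L₂ : PeriodPair) (h2 : L₁.g₂ = L₂.g₂) {z₁ z₂ : ℂ}
    (hz₁ : z₁ ∉ L₁.lattice) (hz₂ : z₂ ∉ L₂.lattice)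
    (h1 : ℘[L₁] z₁ = ℘[L₂] z₂) (h1' : ℘'[L₁] z₁ = ℘'[L₂] z₂) {l : ℂ} (hl : l ∈ L₂.lattice) :
    l - z₂ + z₁ ∈ L₁.lattice := by
  have hz₂' : z₂ - l ∉ L₂.lattice := fun h => hz₂ (by simpa using add_mem h hl)
  have e1 : ℘[L₂] (z₂ - l) = ℘[L₂] z₂ := L₂.weierstrassP_sub_coe z₂ ⟨l, hl⟩
  have e2 : ℘'[L₂] (z₂ - l) = ℘'[L₂] z₂ := L₂.derivWeierstrassP_sub_coe z₂ ⟨l, hl⟩
  have := h9r_sub_mem_of_eq L₁ L₂ h2 hz₁ hz₂' (h1.trans e1.symm) (h1'.trans e2.symm)
  have e : l - z₂ + z₁ = z₁ - (z₂ - l) := by ring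
  rw [e]; exact this

theorem h9r_lattice_le (L₁ L₂ : PeriodPair) (h2 : L₁.g₂ = L₂.g₂) (h3 : L₁.g₃ = L₂.g₃) :
    L₂.lattice ≤ L₁.lattice := by
  have hz₁ : L₁.ω₁ / 2 ∉ L₁.lattice := L₁.ω₁_div_two_notMem_lattice
  set z₁ := L₁.ω₁ / 2 with hz₁def
  obtain ⟨z, hz, hx⟩ := h1_wp_surjective L₂ (℘[L₁] z₁)
  have hode₁ := L₁.derivWeierstrassP_sq z₁ hz₁
  have hode₂ := L₂.derivWeierstrassP_sq z hz
  rw [hx, ← h2, ← h3, ← hode₁] at hode₂
  obtain ⟨z₂, hz₂, e, e'⟩ : ∃ z₂, z₂ ∉ L₂.lattice ∧ ℘[L₁] z₁ = ℘[L₂] z₂ ∧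
      ℘'[L₁] z₁ = ℘'[L₂] z₂ := by
    rcases sq_eq_sq_iff_eq_or_eq_neg.mp hode₂ with h | h
    · exact ⟨z, hz, hx.symm, h.symm⟩
    · refine ⟨-z, h1_neg_notMem L₂ hz, ?_, ?_⟩
      · rw [L₂.weierstrassP_neg, hx]
      · rw [L₂.derivWeierstrassP_neg, h, neg_neg]
  intro l hl
  have a1 := h9r_pole_transfer L₁ L₂ h2 hz₁ hz₂ e e' hl
  have a0 := h9r_sub_mem_of_eq L₁ L₂ h2 hz₁ hz₂ e e'
  have : l = (l - z₂ + z₁) - (z₁ - z₂) := by ring
  rw [this]
  exact sub_mem a1 a0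

/-- **A lattice is determined by its invariants `g₂, g₃`.** -/
theorem h9r_lattice_eq (L₁ L₂ : PeriodPair) (h2 : L₁.g₂ = L₂.g₂) (h3 : L₁.g₃ = L₂.g₃) :
    L₁.lattice = L₂.lattice :=
  le_antisymm (h9r_lattice_le L₂ L₁ h2.symm h3.symm) (h9r_lattice_le L₁ L₂ h2 h3)

theorem h9r_wp_eq_of_lattice_eq (L₁ L₂ : PeriodPair) (h : L₁.lattice = L₂.lattice) (z : ℂ) :
    ℘[L₁] z = ℘[L₂] z := by
  unfold weierstrassP
  rw [h]

theorem h9r_dwp_eq_of_lattice_eq (L₁ L₂ : PeriodPair) (h : L₁.lattice = L₂.lattice) (z : ℂ) :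
    ℘'[L₁] z = ℘'[L₂] z := by
  unfold derivWeierstrassP
  rw [h]

/-- **Real structure**: if `g₂, g₃` are real then the lattice is stable under conjugation and
`℘`, `℘'` commute with conjugation. -/
theorem h9r_real (L : PeriodPair) (h2 : conj L.g₂ = L.g₂) (h3 : conj L.g₃ = L.g₃) :
    (∀ z, conj z ∈ L.lattice ↔ z ∈ L.lattice) ∧ (∀ z, ℘[L] (conj z) = conj (℘[L] z)) ∧
      (∀ z, ℘'[L] (conj z) = conj (℘'[L] z)) := by
  have hlat : (h9r_conjPair L).lattice = L.lattice :=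
    h9r_lattice_eq _ _ ((h9r_g₂_conj L).trans h2) ((h9r_g₃_conj L).trans h3)
  refine ⟨fun z => ?_, fun z => ?_, fun z => ?_⟩
  · rw [← h9r_mem_conjPair, hlat]
  · rw [← h9r_wp_eq_of_lattice_eq _ _ hlat, h9r_wp_conj, Complex.conj_conj]
  · rw [← h9r_dwp_eq_of_lattice_eq _ _ hlat, h9r_dwp_conj, Complex.conj_conj]

end Fermat.Agent.Lib.S41
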