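/-
S41 project (level raising), Lemma R, analytic part II (helper9).

For a lattice `Λ` with real invariants and `p ≥ 2` there are periods `ω` with `conj ω = ± ω` and
`ω / p ∉ Λ`; the corresponding `p`-torsion points have coordinates `(x, y)` with
`conj x = x`, `conj y = ± y`.
-/
import Mathlib
import Fermat.Agent.Lib.S13.Lattice
import Fermat.Agent.Lib.S41.H9RConj

set_option autoImplicit false

noncomputable section

namespace Fermat.Agent.Lib.S41

open PeriodPair Fermat.Agent.Lib.S13 Filter Topology ComplexConjugate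
open WeierstrassCurve WeierstrassCurve.Affine

/-- The periods span `ℂ` over `ℝ`. -/
theorem h9r_span (L : PeriodPair) (z : ℂ) :
    ∃ s t : ℝ, (s : ℂ) * L.ω₁ + (t : ℂ) * L.ω₂ = z := by
  refine ⟨L.basis.repr z 0, L.basis.repr z 1, ?_⟩
  have := L.basis.sum_repr z
  rw [Fin.sum_univ_two] at this
  simpa [Complex.real_smul] using this

/-- There is a nonzero period in each eigenspace of complex conjugation. -/
theorem h9r_exists_eigen_period (L : PeriodPair)
    (hconj : ∀ z, z ∈ L.lattice → conj z ∈ L.lattice) (ε : ℂ) (hε : ε = 1 ∨ ε = -1) :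
    ∃ ω ∈ L.lattice, ω ≠ 0 ∧ conj ω = ε * ω := by
  have hε2 : ε * ε = 1 := by rcases hε with rfl | rfl <;> norm_num
  have hεc : conj ε = ε := by rcases hε with rfl | rfl <;> simp
  have hεmem : ∀ z, z ∈ L.lattice → ε * z ∈ L.lattice := by
    intro z hz
    rcases hε with rfl | rfl
    · simpa using hz
    · simpa using neg_mem hz
  have key : ∀ l ∈ L.lattice, l + ε * conj l ≠ 0 →
      ∃ ω ∈ L.lattice, ω ≠ 0 ∧ conj ω = ε * ω := by
    intro l hl hne
    refine ⟨l + ε * conj l, add_mem hl (hεmem _ (hconj l hl)), hne, ?_⟩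
    rw [map_add, map_mul, Complex.conj_conj, hεc]
    linear_combination (-(conj l)) * hε2
  by_contra hno
  have h₁ : L.ω₁ + ε * conj L.ω₁ = 0 := by
    by_contra hne
    exact hno (key _ L.ω₁_mem_lattice hne)
  have h₂ : L.ω₂ + ε * conj L.ω₂ = 0 := by
    by_contra hne
    exact hno (key _ L.ω₂_mem_lattice hne)
  have hall : ∀ z : ℂ, z + ε * conj z = 0 := by
    intro z
    obtain ⟨s, t, rfl⟩ := h9r_span L z
    simp only [map_add, map_mul, Complex.conj_ofReal]
    linear_combination (s : ℂ) * h₁ + (t : ℂ) * h₂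
  rcases hε with rfl | rfl
  · have := hall 1
    norm_num at this
  · have := hall Complex.I
    simp only [Complex.conj_I] at this
    have hI : Complex.I ≠ 0 := Complex.I_ne_zero
    apply hI
    linear_combination (1 / 2 : ℂ) * this

/-- There is a period `ω` in each eigenspace of complex conjugation with `ω / p ∉ Λ`. -/
theorem h9r_exists_period (L : PeriodPair)
    (hconj : ∀ z, z ∈ L.lattice → conj z ∈ L.lattice) (ε : ℂ) (hε : ε = 1 ∨ ε = -1)
    (p : ℕ) (hp : 2 ≤ p) :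
    ∃ ω ∈ L.lattice, conj ω = ε * ω ∧ ω / p ∉ L.lattice := by
  obtain ⟨ω₀, hω₀, hne, hc⟩ := h9r_exists_eigen_period L hconj ε hε
  by_contra hno
  have hstep : ∀ ω ∈ L.lattice, conj ω = ε * ω → ω / p ∈ L.lattice := by
    intro ω hω hcω
    by_contra hn
    exact hno ⟨ω, hω, hcω, hn⟩
  have hp0 : (p : ℂ) ≠ 0 := Nat.cast_ne_zero.mpr (by omega)
  have hall : ∀ k : ℕ, ω₀ * ((p : ℂ)⁻¹) ^ k ∈ L.lattice ∧
      conj (ω₀ * ((p : ℂ)⁻¹) ^ k) = ε * (ω₀ * ((p : ℂ)⁻¹) ^ k) := by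
    intro k
    induction k with
    | zero => simpa using ⟨hω₀, hc⟩
    | succ k ih =>
      have h1 := hstep _ ih.1 ih.2
      have e : ω₀ * ((p : ℂ)⁻¹) ^ (k + 1) = ω₀ * ((p : ℂ)⁻¹) ^ k / p := by
        rw [pow_succ]; field_simp
      rw [e]
      refine ⟨h1, ?_⟩
      rw [map_div₀, ih.2, Complex.conj_natCast]
      ring
  have hnorm : ‖((p : ℂ)⁻¹)‖ < 1 := by
    rw [norm_inv, Complex.norm_natCast]
    have : (2 : ℝ) ≤ p := by exact_mod_cast hp
    rw [inv_lt_one_iff₀]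
    right; linarith
  have ht : Tendsto (fun k : ℕ => ω₀ * ((p : ℂ)⁻¹) ^ k) atTop (𝓝 (ω₀ * 0)) :=
    (tendsto_pow_atTop_nhds_zero_of_norm_lt_one hnorm).const_mul ω₀
  rw [mul_zero] at ht
  have hev := ht.eventually_mem (L.compl_lattice_sdiff_singleton_mem_nhds 0)
  obtain ⟨k, hk⟩ := hev.exists
  apply hk
  refine ⟨(hall k).1, ?_⟩
  simp only [Set.mem_singleton_iff]
  exact mul_ne_zero hne (pow_ne_zero _ (inv_ne_zero hp0))

/-- **Eigen-points on the curve of a lattice with real invariants.** -/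
theorem h9r_eigen_lattice (L : PeriodPair) (h2 : conj L.g₂ = L.g₂) (h3 : conj L.g₃ = L.g₃)
    (p : ℕ) (hp : 2 ≤ p) (ε : ℂ) (hε : ε = 1 ∨ ε = -1) :
    ∃ (x y : ℂ) (h : (h1_curve L).toAffine.Nonsingular x y),
      p • (Point.some x y h : (h1_curve L).toAffine.Point) = 0 ∧ conj x = x ∧ conj y = ε * y := by
  obtain ⟨hlat, hwp, hdwp⟩ := h9r_real L h2 h3
  obtain ⟨ω, hω, hc, hn⟩ := h9r_exists_period L (fun z hz => (hlat z).mpr hz) ε hε p hp
  have hp0 : (p : ℂ) ≠ 0 := Nat.cast_ne_zero.mpr (by omega)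
  set z := ω / p with hz
  have hcz : conj z = ε * z := by
    rw [hz, map_div₀, hc, Complex.conj_natCast]; ring
  refine ⟨℘[L] z, ℘'[L] z / 2, h1_nonsingular L hn, ?_, ?_, ?_⟩
  · rw [← h1_Phi_of_notMem L hn, ← h1_Phi_nsmul, h1_Phi_eq_zero_iff]
    have : (p : ℂ) * z = ω := by rw [hz]; field_simp
    rw [this]; exact hω
  · rw [← hwp, hcz]
    rcases hε with rfl | rfl
    · simp
    · simp
  · rw [map_div₀, ← hdwp, hcz]
    rcases hε with rfl | rfl
    · simp [map_ofNat]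
    · simp [map_ofNat]
      ring

/-- **Eigen-points on a short Weierstrass curve with real coefficients.** -/
theorem h9r_eigen_short (A B : ℂ) (hA : conj A = A) (hB : conj B = B)
    (hAB : 4 * A ^ 3 + 27 * B ^ 2 ≠ 0) (p : ℕ) (hp : 2 ≤ p) (ε : ℂ) (hε : ε = 1 ∨ ε = -1) :
    ∃ (x y : ℂ) (h : (⟨0, 0, 0, A, B⟩ : WeierstrassCurve ℂ).toAffine.Nonsingular x y),
      p • (Point.some x y h : (⟨0, 0, 0, A, B⟩ : WeierstrassCurve ℂ).toAffine.Point) = 0 ∧
        conj x = x ∧ conj y = ε * y := by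
  have hne : (-4 * A) ^ 3 - 27 * (-4 * B) ^ 2 ≠ 0 := by
    intro h0
    apply hAB
    linear_combination (-1 / 16 : ℂ) * h0
  obtain ⟨L, hg₂, hg₃⟩ := h3_exists_periodPair_g (-4 * A) (-4 * B) hne
  have h2 : conj L.g₂ = L.g₂ := by rw [hg₂]; simp [map_ofNat, hA]
  have h3 : conj L.g₃ = L.g₃ := by rw [hg₃]; simp [map_ofNat, hB]
  have h := h9r_eigen_lattice L h2 h3 p hp ε hε
  have hA' : -L.g₂ / 4 = A := by rw [hg₂]; ring
  have hB' : -L.g₃ / 4 = B := by rw [hg₃]; ring
  unfold h1_curve at h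
  rw [hA', hB'] at h
  exact h

end Fermat.Agent.Lib.S41
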