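/-
S41 project (level raising), **Lemma R** (helper9).

For an elliptic curve `E` over `ℚ` and `p ≥ 2`, complex conjugation has nonzero eigenvectors in
`E[p](ℚ̄)` for both eigenvalues `+1` and `-1` (`h9r_conj_eigen`).  Consequently, for `p` odd, if the
image of Galois on `E[p]` is abelian then `E[p]` is reducible (`h9r_reducible_of_abelian`).
-/
import Mathlib
import Fermat.Prelude.Def_FLTPrelim_GaloisRep
import Fermat.Prelude.Def_GaloisRep_ComplexConjugation
import Fermat.Agent.Lib.S05.Transfer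
import Fermat.Agent.Lib.S41.H9C2Count
import Fermat.Agent.Lib.S41.H9C2Descent
import Fermat.Agent.Lib.S41.H9RPoints

set_option autoImplicit false

noncomputable section

open WeierstrassCurve WeierstrassCurve.Affine WeierstrassCurve.Affine.Point

namespace Fermat.Agent.Lib.S41

open Fermat.Agent.Lib.S13 Fermat.Agent.Lib.S05 Fermat.Agent.Lib.S51 ComplexConjugate

/-! ### Equivariant transfer along a variable change over the base field -/

/-- The group isomorphism `(C • W)(K) ≃ W(K)` attached to a variable change over the base field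
commutes with all `F₀`-algebra endomorphisms of `K`. -/
theorem h9r_vc_equiv {F₀ K : Type*} [Field F₀] [Field K] [Algebra F₀ K] [DecidableEq K]
    (W : WeierstrassCurve F₀) (C : VariableChange F₀) :
    ∃ Φ : ((C • W)⁄K).Point ≃+ (W⁄K).Point, ∀ (σ : K →ₐ[F₀] K) (Q : ((C • W)⁄K).Point),
      Φ (Point.map σ Q) = Point.map σ (Φ Q) := by
  have heq : (C.map (algebraMap F₀ K)) • (W.baseChange K) = (C • W).baseChange K :=
    map_variableChange ..
  let Φ : ((C • W)⁄K).Point ≃+ (W⁄K).Point :=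
    (h9_pointCongr heq.symm).trans
      (vcPointEquiv (W.baseChange K) (C.map (algebraMap F₀ K)))
  refine ⟨Φ, fun σ => ?_⟩
  have hCσ : (C.map (algebraMap F₀ K)).map (σ : K →+* K) = C.map (algebraMap F₀ K) := by
    rw [VariableChange.map_map]
    congr 1
    ext z
    exact σ.commutes z
  have hΦ_some : ∀ {x y : K} (hxy : ((C • W)⁄K).Nonsingular x y),
      ∃ h', Φ (Point.some x y hxy) =
        Point.some (vcX (C.map (algebraMap F₀ K)) x) (vcY (C.map (algebraMap F₀ K)) x y) h' := by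
    intro x y hxy
    have hxy' : ((C.map (algebraMap F₀ K)) • (W.baseChange K)).toAffine.Nonsingular x y :=
      heq.symm ▸ hxy
    refine ⟨(nonsingular_vc _ _ _ _).mp hxy', ?_⟩
    show vcPointEquiv _ _ (h9_pointCongr heq.symm (Point.some x y hxy)) = _
    rw [h9_pointCongr_some, vcPointEquiv_some]
  rintro (_ | ⟨x, y, hxy⟩)
  · rw [show (Point.zero : ((C • W)⁄K).Point) = 0 from rfl, _root_.map_zero, _root_.map_zero,
      _root_.map_zero]
  · obtain ⟨h1, e1⟩ := hΦ_some hxy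
    rw [e1, Point.map_some, Point.map_some]
    obtain ⟨h2, e2⟩ := hΦ_some ((WeierstrassCurve.Affine.baseChange_nonsingular (C • W)
      σ.injective x y).mpr hxy)
    rw [e2]
    have ex : vcX (C.map (algebraMap F₀ K)) (σ x) = σ (vcX (C.map (algebraMap F₀ K)) x) := by
      have := vcX_map (σ : K →+* K) (C.map (algebraMap F₀ K)) x
      rw [hCσ] at this
      exact this
    have ey : vcY (C.map (algebraMap F₀ K)) (σ x) (σ y) =
        σ (vcY (C.map (algebraMap F₀ K)) x y) := by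
      have := vcY_map (σ : K →+* K) (C.map (algebraMap F₀ K)) x y
      rw [hCσ] at this
      exact this
    simp only [Point.some.injEq]
    exact ⟨ex, ey⟩

/-! ### Eigen-points over `ℂ` -/

/-- Complex conjugation as a `ℚ`-algebra endomorphism of `ℂ`. -/
def h9r_conjHom : ℂ →ₐ[ℚ] ℂ := complexConjAlgEquiv.toAlgHom

@[simp] theorem h9r_conjHom_apply (z : ℂ) : h9r_conjHom z = conj z := rfl

/-- Eigen-points on a short Weierstrass curve over `ℂ` with real coefficients. -/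
theorem h9r_eigen_short' (W : WeierstrassCurve ℂ) (h1 : W.a₁ = 0) (h2 : W.a₂ = 0) (h3 : W.a₃ = 0)
    (hA : conj W.a₄ = W.a₄) (hB : conj W.a₆ = W.a₆) (hΔ : W.Δ ≠ 0) (p : ℕ) (hp : 2 ≤ p)
    (ε : ℂ) (hε : ε = 1 ∨ ε = -1) :
    ∃ (x y : ℂ) (h : W.toAffine.Nonsingular x y),
      p • (Point.some x y h : W.toAffine.Point) = 0 ∧ conj x = x ∧ conj y = ε * y := by
  obtain ⟨a₁, a₂, a₃, a₄, a₆⟩ := W
  simp only at h1 h2 h3 hA hB
  subst h1 h2 h3
  refine h9r_eigen_short a₄ a₆ hA hB ?_ p hp ε hε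
  intro h0
  apply hΔ
  simp only [WeierstrassCurve.Δ, WeierstrassCurve.b₂, WeierstrassCurve.b₄, WeierstrassCurve.b₆,
    WeierstrassCurve.b₈]
  linear_combination (-16 : ℂ) * h0

/-- Eigen-points of complex conjugation on `W(ℂ)` for a short curve `W` over `ℚ`. -/
theorem h9r_eigen_shortQ (W : WeierstrassCurve ℚ) (h1 : W.a₁ = 0) (h2 : W.a₂ = 0) (h3 : W.a₃ = 0)
    (hΔ : W.Δ ≠ 0) (p : ℕ) (hp : 2 ≤ p) :
    ∃ Pp Pm : (W⁄ℂ).Point, Pp ≠ 0 ∧ Pm ≠ 0 ∧ p • Pp = 0 ∧ p • Pm = 0 ∧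
      Point.map (W' := W.toAffine) h9r_conjHom Pp = Pp ∧
      Point.map (W' := W.toAffine) h9r_conjHom Pm = -Pm := by
  have hΔC : (W.baseChange ℂ).Δ ≠ 0 := by
    rw [WeierstrassCurve.baseChange, WeierstrassCurve.map_Δ]
    exact (map_ne_zero_iff _ (algebraMap ℚ ℂ).injective).mpr hΔ
  have hb1 : (W.baseChange ℂ).a₁ = 0 := by simp [WeierstrassCurve.baseChange, h1]
  have hb2 : (W.baseChange ℂ).a₂ = 0 := by simp [WeierstrassCurve.baseChange, h2]
  have hb3 : (W.baseChange ℂ).a₃ = 0 := by simp [WeierstrassCurve.baseChange, h3]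
  have hb4 : conj (W.baseChange ℂ).a₄ = (W.baseChange ℂ).a₄ := by
    simp [WeierstrassCurve.baseChange]
  have hb6 : conj (W.baseChange ℂ).a₆ = (W.baseChange ℂ).a₆ := by
    simp [WeierstrassCurve.baseChange]
  obtain ⟨xp, yp, hnp, hpp, hxp, hyp⟩ :=
    h9r_eigen_short' (W.baseChange ℂ) hb1 hb2 hb3 hb4 hb6 hΔC p hp 1 (Or.inl rfl)
  obtain ⟨xm, ym, hnm, hpm, hxm, hym⟩ :=
    h9r_eigen_short' (W.baseChange ℂ) hb1 hb2 hb3 hb4 hb6 hΔC p hp (-1) (Or.inr rfl)
  refine ⟨Point.some xp yp hnp, Point.some xm ym hnm, Point.some_ne_zero _, Point.some_ne_zero _,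
    hpp, hpm, ?_, ?_⟩
  · rw [Point.map_some]
    simp only [Point.some.injEq, h9r_conjHom_apply]
    exact ⟨hxp, by rw [hyp, one_mul]⟩
  · rw [Point.map_some, Point.neg_some]
    simp only [Point.some.injEq, h9r_conjHom_apply]
    refine ⟨hxm, ?_⟩
    rw [hym]
    simp only [Affine.negY]
    rw [hb1, hb3]
    ring

/-- **Eigen-points of complex conjugation on `E(ℂ)`**, `E` over `ℚ` with `Δ ≠ 0`. -/
theorem h9r_eigen_C (E : WeierstrassCurve ℚ) (hΔ : E.Δ ≠ 0) (p : ℕ) (hp : 2 ≤ p) :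
    ∃ Pp Pm : (E⁄ℂ).Point, Pp ≠ 0 ∧ Pm ≠ 0 ∧ p • Pp = 0 ∧ p • Pm = 0 ∧
      Point.map (W' := E.toAffine) h9r_conjHom Pp = Pp ∧
      Point.map (W' := E.toAffine) h9r_conjHom Pm = -Pm := by
  have h6 : (6 : ℚ) ≠ 0 := by norm_num
  set C := h9n_vc E h6 with hC
  have hs := h9n_vc_smul E h6
  have hΔ' : (C • E).Δ ≠ 0 := by
    rw [variableChange_Δ]
    exact mul_ne_zero (pow_ne_zero _ (Units.ne_zero _)) hΔ
  obtain ⟨Qp, Qm, hQp, hQm, hpQp, hpQm, hcp, hcm⟩ := h9r_eigen_shortQ (C • E)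
    (by rw [hC, hs]) (by rw [hC, hs]) (by rw [hC, hs]) hΔ' p hp
  obtain ⟨Φ, hΦ⟩ := h9r_vc_equiv (K := ℂ) E C
  refine ⟨Φ Qp, Φ Qm, ?_, ?_, ?_, ?_, ?_, ?_⟩
  · exact fun h => hQp (Φ.map_eq_zero_iff.mp h)
  · exact fun h => hQm (Φ.map_eq_zero_iff.mp h)
  · rw [← map_nsmul, hpQp, _root_.map_zero]
  · rw [← map_nsmul, hpQm, _root_.map_zero]
  · rw [← hΦ, hcp]
  · rw [← hΦ, hcm, map_neg]

/-! ### Descent to `ℚ̄` -/

theorem h9r_conj_comp :
    h9r_conjHom.comp h9d_iota = h9d_iota.comp complexConjugation.toAlgHom := by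
  ext x
  exact (complexEmbedding_complexConjugation x).symm

/-- **Lemma R (eigenvectors of complex conjugation).** -/
theorem h9r_conj_eigen' (E : WeierstrassCurve ℚ) (hΔ : E.Δ ≠ 0) (p : ℕ) (hp : 2 ≤ p) :
    ∃ Pp Pm : (E⁄Qbar).Point, Pp ≠ 0 ∧ Pm ≠ 0 ∧ p • Pp = 0 ∧ p • Pm = 0 ∧
      complexConjugation • Pp = Pp ∧ complexConjugation • Pm = -Pm := by
  obtain ⟨Qp, Qm, hQp, hQm, hpQp, hpQm, hcp, hcm⟩ := h9r_eigen_C E hΔ p hp
  have hp0 : 0 < p := by omega
  obtain ⟨Pp, hPp, hpPp⟩ := h9e_div_descent E hΔ p hp0 0 Qp (by rw [hpQp]; rfl)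
  obtain ⟨Pm, hPm, hpPm⟩ := h9e_div_descent E hΔ p hp0 0 Qm (by rw [hpQm]; rfl)
  have hinj := Point.map_injective (W' := E.toAffine) h9d_iota
  have hcomm : ∀ P : (E⁄Qbar).Point, Point.map (W' := E.toAffine) h9d_iota (complexConjugation • P)
      = Point.map (W' := E.toAffine) h9r_conjHom (Point.map (W' := E.toAffine) h9d_iota P) := by
    intro P
    rw [Point.algEquiv_smul_def, Point.map_map, Point.map_map, h9r_conj_comp]
  refine ⟨Pp, Pm, ?_, ?_, hpPp, hpPm, ?_, ?_⟩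
  · rintro rfl
    exact hQp hPp.symm
  · rintro rfl
    exact hQm hPm.symm
  · apply hinj
    rw [hcomm, hPp, hcp]
  · apply hinj
    rw [hcomm, hPm, hcm, map_neg, hPm]

/-- **Lemma R (eigenvectors of complex conjugation), torsion-module form.** -/
theorem h9r_conj_eigen (E : WeierstrassCurve ℚ) [E.IsElliptic] {p : ℕ} (hp : p.Prime) :
    ∃ xp xm : Submodule.torsionBy ℤ (E⁄Qbar).Point p, xp ≠ 0 ∧ xm ≠ 0 ∧
      complexConjugation • xp = xp ∧ complexConjugation • xm = -xm := by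
  have hΔ : E.Δ ≠ 0 := E.isUnit_Δ.ne_zero
  obtain ⟨Pp, Pm, hPp, hPm, hpPp, hpPm, hcp, hcm⟩ := h9r_conj_eigen' E hΔ p hp.two_le
  have mem : ∀ P : (E⁄Qbar).Point, p • P = 0 → P ∈ Submodule.torsionBy ℤ (E⁄Qbar).Point p := by
    intro P hP
    rw [Submodule.mem_torsionBy_iff, Nat.cast_smul_eq_nsmul]
    exact hP
  refine ⟨⟨Pp, mem Pp hpPp⟩, ⟨Pm, mem Pm hpPm⟩, ?_, ?_, ?_, ?_⟩
  · intro h
    exact hPp (congrArg Subtype.val h)
  · intro h
    exact hPm (congrArg Subtype.val h)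
  · exact Subtype.ext hcp
  · exact Subtype.ext hcm

/-- **Lemma R**: for `p` odd, if the Galois action on `E[p]` is abelian then `E[p]` is reducible
(the `+1`-eigenspace of complex conjugation is a stable line). -/
theorem h9r_reducible_of_abelian (E : WeierstrassCurve ℚ) [E.IsElliptic] {p : ℕ} (hp : p.Prime)
    (hp2 : p ≠ 2)
    (hab : ∀ (σ τ : Qbar ≃ₐ[ℚ] Qbar) (x : Submodule.torsionBy ℤ (E⁄Qbar).Point p),
      σ • τ • x = τ • σ • x) :
    ¬ GaloisRepIsIrreducible (K := Qbar) ℚ E p := by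
  rintro ⟨-, hirr⟩
  obtain ⟨xp, xm, hxp, hxm, hcp, hcm⟩ := h9r_conj_eigen E hp
  let c : Qbar ≃ₐ[ℚ] Qbar := complexConjugation
  let N : Submodule (ZMod p) (Submodule.torsionBy ℤ (E⁄Qbar).Point p) :=
    { carrier := {x | c • x = x}
      add_mem' := by
        intro a b ha hb
        show c • (a + b) = a + b
        rw [smul_add, ha, hb]
      zero_mem' := smul_zero c
      smul_mem' := by
        intro a x hx
        show c • (a • x) = a • x
        have := ZMod.map_smul (DistribSMul.toAddMonoidHom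
          (Submodule.torsionBy ℤ (E⁄Qbar).Point p) c) a x
        simp only [DistribSMul.toAddMonoidHom_apply] at this
        rw [this, hx] }
  have hstab : IsGaloisStable ℚ N := by
    intro σ x hx
    show c • σ • x = σ • x
    rw [hab c σ x, hx]
  rcases hirr N hstab with hN | hN
  · have : xp ∈ N := hcp
    rw [hN, Submodule.mem_bot] at this
    exact hxp this
  · have : xm ∈ N := by rw [hN]; exact Submodule.mem_top
    have h1 : c • xm = xm := this
    have h2 : xm + xm = 0 := by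
      have : -xm = xm := hcm.symm.trans h1
      nth_rewrite 1 [← this]
      exact neg_add_cancel xm
    have hpx : (p : ℤ) • xm = 0 := Submodule.smul_torsionBy _ xm
    obtain ⟨k, hk⟩ := hp.eq_two_or_odd'.resolve_left hp2
    apply hxm
    have hpk : (p : ℤ) = 2 * k + 1 := by exact_mod_cast hk
    have e : ∀ a : ℤ, a = 2 * k + 1 → xm = a • xm - (k : ℤ) • (xm + xm) := by
      rintro a rfl
      module
    rw [e (p : ℤ) hpk, hpx, h2, smul_zero, sub_zero]

end Fermat.Agent.Lib.S41
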