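/-
S41 project (level raising): **(T1′)** `h6b_NonEisStatement`, Galois side (helper7).

Inputs: the Kummer statement `h7y_KummerStatement` (helper9), the abstract group theory
`h7g2_main`, Lemma R `h9r_reducible_of_abelian` (helper9), the general cyclic Chebotarev
statement `h1f_C1_cyc` and the consumer lemmas of helper1, and (C2) `h7x_C2`.
-/
import Mathlib
import Fermat.Agent.Lib.S41.Defs2
import Fermat.Agent.Lib.S41.H7Grp2Main
import Fermat.Agent.Lib.S41.H7T1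
import Fermat.Agent.Lib.S41.H1FrobLift3
import Fermat.Agent.Lib.S41.H1FrobCons
import Fermat.Agent.Lib.S41.H9REigen

set_option autoImplicit false

open WeierstrassCurve WeierstrassCurve.Affine WeierstrassCurve.Affine.Point

namespace Fermat.Agent.Lib.S41

open Fermat.Agent.Lib.S13

/-- **[K]** Kummer: some element of `G_ℚ` fixes a primitive `M`-th root of unity (`p ∣ M`) and
moves a `p`-th root of the prime `q`. -/
def h7y_KummerStatement : Prop :=
  ∀ {p q M : ℕ}, p.Prime → p ≠ 2 → q.Prime → p ∣ M → 0 < M → ∀ (ζ α : Qbar),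
    IsPrimitiveRoot ζ M → α ^ p = (q : Qbar) → ∃ σ : GQ, σ ζ = ζ ∧ σ α ≠ α

section setup

variable {M : ℕ} {ζ : Qbar}

/-- Every Galois conjugate of a primitive root of unity is a power of it. -/
theorem h7y_conj_pow (hM : 0 < M) (hζ : IsPrimitiveRoot ζ M) (σ : GQ) :
    ∃ i : ℕ, σ ζ = ζ ^ i := by
  have : NeZero M := ⟨hM.ne'⟩
  have h1 : (σ ζ) ^ M = 1 := by rw [← map_pow, hζ.pow_eq_one, map_one]
  obtain ⟨i, -, hi⟩ := hζ.eq_pow_of_pow_eq_one h1
  exact ⟨i, hi.symm⟩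

/-- The subgroup of `G_ℚ` fixing `ζ`. -/
def h7y_fix (ζ : Qbar) : Subgroup GQ where
  carrier := {σ | σ ζ = ζ}
  mul_mem' := fun {a b} ha hb => by
    show (a * b) ζ = ζ
    rw [AlgEquiv.mul_apply, hb, ha]
  one_mem' := rfl
  inv_mem' := fun {a} ha => by
    show a⁻¹ ζ = ζ
    have : a⁻¹ (a ζ) = ζ := by
      show a.symm (a ζ) = ζ
      simp
    rwa [ha] at this

theorem h7y_mem_fix {σ : GQ} : σ ∈ h7y_fix ζ ↔ σ ζ = ζ := Iff.rfl

theorem h7y_fix_pow {σ : GQ} (h : σ ζ = ζ) (i : ℕ) : σ (ζ ^ i) = ζ ^ i := by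
  rw [map_pow, h]

theorem h7y_fix_normal (hM : 0 < M) (hζ : IsPrimitiveRoot ζ M) : (h7y_fix ζ).Normal := by
  constructor
  intro σ hσ g
  show (g * σ * g⁻¹) ζ = ζ
  obtain ⟨i, hi⟩ := h7y_conj_pow hM hζ g⁻¹
  rw [AlgEquiv.mul_apply, AlgEquiv.mul_apply, hi, h7y_fix_pow hσ, ← hi]
  show g (g.symm ζ) = ζ
  simp

/-- Commutators fix `ζ`. -/
theorem h7y_comm_fix (hM : 0 < M) (hζ : IsPrimitiveRoot ζ M) (σ τ : GQ) :
    (σ * τ) ζ = (τ * σ) ζ := by
  obtain ⟨i, hi⟩ := h7y_conj_pow hM hζ σ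
  obtain ⟨j, hj⟩ := h7y_conj_pow hM hζ τ
  rw [AlgEquiv.mul_apply, AlgEquiv.mul_apply, hj, hi, map_pow, map_pow, hi, hj, ← pow_mul,
    ← pow_mul, mul_comm]

/-- An element fixing `ζ` fixes all `p`-th roots of unity (`p ∣ M`). -/
theorem h7y_root_fixed (hM : 0 < M) (hζ : IsPrimitiveRoot ζ M) {p : ℕ} (hp : 0 < p)
    (hpM : p ∣ M) {σ : GQ} (hσ : σ ζ = ζ) {μ : Qbar} (hμ : μ ^ p = 1) : σ μ = μ := by
  have : NeZero p := ⟨hp.ne'⟩
  obtain ⟨c, hc⟩ := hpM
  have h0 : IsPrimitiveRoot (ζ ^ c) p := hζ.pow hM (by rw [hc, mul_comm])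
  obtain ⟨i, -, hi⟩ := h0.eq_pow_of_pow_eq_one hμ
  rw [← hi, ← pow_mul, h7y_fix_pow hσ]

end setup

/-- **(T1′)** from the Kummer statement. -/
theorem h7y_nonEis' (hK : h7y_KummerStatement) : h6b_NonEisStatement := by
  intro E _ W hW p hp hp2 hirr q hq hqp M₀ hM₀ S
  classical
  have hp' : Fact p.Prime := ⟨hp⟩
  have hpne : NeZero p := ⟨hp.ne_zero⟩
  set M := p * M₀ with hMdef
  have hM : 0 < M := Nat.mul_pos hp.pos hM₀
  have hpM : p ∣ M := Dvd.intro _ rfl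
  have hMne : NeZero (M : ℚ) := ⟨by exact_mod_cast hM.ne'⟩
  obtain ⟨ζ, hζ⟩ := HasEnoughRootsOfUnity.exists_primitiveRoot Qbar M
  obtain ⟨α, hα⟩ := IsAlgClosed.exists_pow_nat_eq (q : Qbar) hp.pos
  have hq0 : (q : Qbar) ≠ 0 := by exact_mod_cast hq.ne_zero
  have hα0 : α ≠ 0 := by
    intro h
    rw [h, zero_pow hp.ne_zero] at hα
    exact hq0 hα.symm
  -- the representation space
  have hrank : Module.finrank (ZMod p) (Submodule.torsionBy ℤ (E⁄Qbar).Point p) = 2 :=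
    h7n_finrank_torsion E hp
  have hfin : Module.Finite (ZMod p) (Submodule.torsionBy ℤ (E⁄Qbar).Point p) :=
    Module.finite_of_finrank_pos (by rw [hrank]; norm_num)
  have hfinV : Finite (Submodule.torsionBy ℤ (E⁄Qbar).Point p) := Module.finite_of_finite (ZMod p)
  -- the subgroup `G₁`
  have hnorm : (h7y_fix ζ).Normal := h7y_fix_normal hM hζ
  -- the Kummer character
  have hkum : ∀ σ : GQ, (σ α / α) ^ p = 1 := by
    intro σ
    rw [div_pow, ← map_pow, hα, map_natCast, div_self hq0]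
  let ω₀ : (h7y_fix ζ) →* Qbarˣ := MonoidHom.mk'
    (fun σ => Units.mk0 ((σ : GQ) α / α) (div_ne_zero ((map_ne_zero _).mpr hα0) hα0))
    (by
      intro σ τ
      ext
      simp only [Units.val_mk0, Units.val_mul]
      have h1 : ((σ * τ : h7y_fix ζ) : GQ) α = (σ : GQ) ((τ : GQ) α) := rfl
      have h2 : (τ : GQ) α = ((τ : GQ) α / α) * α := by field_simp
      rw [h1]
      nth_rewrite 1 [h2]
      rw [map_mul, h7y_root_fixed hM hζ hp.pos hpM σ.2 (hkum τ)]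
      field_simp)
  have hω₀ : ∀ σ : h7y_fix ζ, ((ω₀ σ : Qbarˣ) : Qbar) = (σ : GQ) α / α := fun σ => rfl
  let ω : (h7y_fix ζ) →* rootsOfUnity p Qbar := ω₀.codRestrict _ (fun σ => by
    rw [mem_rootsOfUnity]
    ext
    rw [Units.val_pow_eq_pow_val, hω₀, hkum, Units.val_one])
  have hω : ∀ σ : h7y_fix ζ, ((ω σ : Qbarˣ) : Qbar) = (σ : GQ) α / α := fun σ => rfl
  have hω1 : ∀ σ : h7y_fix ζ, ω σ = 1 ↔ (σ : GQ) α = α := by
    intro σ
    constructor
    · intro h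
      have h1 : ((ω σ : Qbarˣ) : Qbar) = 1 := by rw [h]; rfl
      rw [hω] at h1
      exact (div_eq_one_iff_eq hα0).mp h1
    · intro h
      apply Subtype.ext
      apply Units.ext
      rw [hω, h, div_self hα0]
      rfl
  have hCp : ∀ c : rootsOfUnity p Qbar, c ^ p = 1 := by
    intro c
    apply Subtype.ext
    have h1 := (mem_rootsOfUnity p (c : Qbarˣ)).mp c.2
    rw [Subgroup.coe_pow, Subgroup.coe_one]
    exact h1
  have hCgen : ∀ c d : rootsOfUnity p Qbar, c ≠ 1 → ∃ j : ℕ, c ^ j = d := by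
    intro c d hc
    have hcx : ((c : Qbarˣ) : Qbar) ^ p = 1 := by
      have := (mem_rootsOfUnity p (c : Qbarˣ)).mp c.2
      rw [← Units.val_pow_eq_pow_val, this, Units.val_one]
    have hdx : ((d : Qbarˣ) : Qbar) ^ p = 1 := by
      have := (mem_rootsOfUnity p (d : Qbarˣ)).mp d.2
      rw [← Units.val_pow_eq_pow_val, this, Units.val_one]
    have hc1 : ((c : Qbarˣ) : Qbar) ≠ 1 := by
      intro h
      apply hc
      apply Subtype.ext
      apply Units.ext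
      rw [h]; rfl
    have hprim : IsPrimitiveRoot ((c : Qbarˣ) : Qbar) p := by
      rw [IsPrimitiveRoot.iff_def]
      refine ⟨hcx, fun l hl => ?_⟩
      have h1 : orderOf ((c : Qbarˣ) : Qbar) ∣ p := orderOf_dvd_of_pow_eq_one hcx
      have h2 : orderOf ((c : Qbarˣ) : Qbar) ∣ l := orderOf_dvd_of_pow_eq_one hl
      rcases (Nat.dvd_prime hp).mp h1 with h | h
      · exact absurd (orderOf_eq_one_iff.mp h) hc1
      · rwa [h] at h2
    obtain ⟨j, -, hj⟩ := hprim.eq_pow_of_pow_eq_one hdx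
    refine ⟨j, ?_⟩
    apply Subtype.ext
    apply Units.ext
    simpa using hj
  -- Kummer
  have hωne : ∃ σ₀ : h7y_fix ζ, ω σ₀ ≠ 1 := by
    obtain ⟨σ, hσζ, hσα⟩ := hK hp hp2 hq hpM hM ζ α hζ hα
    refine ⟨⟨σ, hσζ⟩, ?_⟩
    rw [Ne, hω1]
    exact hσα
  -- `G₁` does not act trivially (Lemma R)
  have hnt : ¬ ∀ σ : h7y_fix ζ, ∀ v : Submodule.torsionBy ℤ (E⁄Qbar).Point p, σ • v = v := by
    intro htriv
    apply h9r_reducible_of_abelian E hp hp2 _ hirr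
    intro σ τ x
    have hc : (τ * σ)⁻¹ * (σ * τ) ∈ h7y_fix ζ := by
      show ((τ * σ)⁻¹ * (σ * τ)) ζ = ζ
      rw [AlgEquiv.mul_apply, h7y_comm_fix hM hζ σ τ]
      show (τ * σ).symm ((τ * σ) ζ) = ζ
      exact AlgEquiv.symm_apply_apply _ _
    have h1 := htriv ⟨_, hc⟩ x
    rw [Subgroup.smul_def] at h1
    have h2 : ((τ * σ)⁻¹ * (σ * τ)) • x = x := h1
    rw [mul_smul, inv_smul_eq_iff, mul_smul, mul_smul] at h2
    exact h2
  -- the group theory
  obtain ⟨g₀, hωg₀, r, hr, hrp, hgood⟩ := h7g2_main hrank hp2 (h7y_fix ζ) ω hCp hCgen hirr.2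
    hnt hωne
  set σ : GQ := (g₀ : GQ) with hσdef
  have hσζ : σ ζ = ζ := g₀.2
  have hσα : σ α ≠ α := by
    intro h
    exact hωg₀ ((hω1 g₀).mpr h)
  have hσfix : ∀ x : Submodule.torsionBy ℤ (E⁄Qbar).Point p, σ • x = x → x = 0 := by
    intro x hx
    apply hgood 1 (Nat.coprime_one_left r) x
    rw [pow_one, Subgroup.smul_def]
    exact hx
  -- the level
  obtain ⟨L₀, hL₀fin, hL₀norm, hL₀⟩ := h1n_exists_level E p hfinV
  have hfinS : Finite ({ζ, α} : Set Qbar) := Set.finite_coe_iff.mpr (Set.toFinite _)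
  have hadjfin : FiniteDimensional ℚ (IntermediateField.adjoin ℚ ({ζ, α} : Set Qbar)) :=
    IntermediateField.finiteDimensional_adjoin fun x _ =>
      (lead_s13_isAlgebraic_Qbar.isAlgebraic x).isIntegral
  have hsupfin : FiniteDimensional ℚ ↥(L₀ ⊔ IntermediateField.adjoin ℚ ({ζ, α} : Set Qbar)) :=
    IntermediateField.finiteDimensional_sup _ _
  set L : IntermediateField ℚ Qbar := IntermediateField.normalClosure ℚ
    ↥(L₀ ⊔ IntermediateField.adjoin ℚ ({ζ, α} : Set Qbar)) Qbar with hLdef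
  have hLfin : FiniteDimensional ℚ L := inferInstance
  have hLnorm : Normal ℚ L := normalClosure.normal ℚ _ Qbar
  have hle : L₀ ⊔ IntermediateField.adjoin ℚ ({ζ, α} : Set Qbar) ≤ L :=
    IntermediateField.le_normalClosure _
  have hζL : ζ ∈ L := hle (le_sup_right (a := L₀)
    (IntermediateField.subset_adjoin ℚ _ (by simp)))
  have hαL : α ∈ L := hle (le_sup_right (a := L₀)
    (IntermediateField.subset_adjoin ℚ _ (by simp)))
  have hLagree : ∀ σ τ' : GQ, (∀ x ∈ L, σ x = τ' x) →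
      ∀ P : Submodule.torsionBy ℤ (E⁄Qbar).Point p, σ • P = τ' • P := by
    intro σ τ' h
    exact hL₀ σ τ' (fun x hx => h x (hle (le_sup_left (b := IntermediateField.adjoin ℚ _) hx)))
  -- (C2) and Chebotarev
  obtain ⟨S₀, hS₀⟩ := h7x_C2 E hW hp hp2
  have hΔ : W.Δ ≠ 0 := h7n_Δ_ne_zero E hW
  obtain ⟨ℓ, A, τ, k, k', hℓ, hℓS', hA, hτ, hστ, hτσ⟩ := h1f_C1_cyc L σ
    (S ∪ S₀ ∪ {p, q} ∪ M.primeFactors ∪ W.Δ.natAbs.primeFactors)
  have hℓS : ℓ ∉ S := fun h => hℓS' (by simp [h])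
  have hℓS₀ : ℓ ∉ S₀ := fun h => hℓS' (by simp [h])
  have hℓp : ℓ ≠ p := fun h => hℓS' (by simp [h])
  have hℓq : ℓ ≠ q := fun h => hℓS' (by simp [h])
  have hℓM : ¬ ℓ ∣ M := by
    intro h
    apply hℓS'
    have : ℓ ∈ M.primeFactors := Nat.mem_primeFactors.mpr ⟨hℓ, h, hM.ne'⟩
    simp [this]
  have hgoodℓ : W.IsGoodPrimeFor ℓ := by
    intro hdvd
    apply hℓS'
    have : ℓ ∈ W.Δ.natAbs.primeFactors := by
      rw [Nat.mem_primeFactors]
      exact ⟨hℓ, Int.natCast_dvd.mp hdvd, by simpa using hΔ⟩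
    simp [this]
  -- `τ` fixes `ζ`
  have hpowfix : ∀ (j : ℕ), (σ ^ j) ζ = ζ := by
    intro j
    induction j with
    | zero => rfl
    | succ j ih => rw [pow_succ, AlgEquiv.mul_apply, hσζ, ih]
  have hτζ : τ ζ = ζ := by rw [hτσ ζ hζL, hpowfix]
  have hcop : Nat.Coprime M ℓ := by
    rw [Nat.coprime_comm]
    exact (Nat.Prime.coprime_iff_not_dvd hℓ).mpr hℓM
  have hMℓ : M ∣ ℓ - 1 := h1c_dvd_of_fix_root hℓ hA hτ ζ M hζ hcop hτζ
  have hpℓ : p ∣ ℓ - 1 := dvd_trans hpM hMℓ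
  have hM₀ℓ : M₀ ∣ ℓ - 1 := dvd_trans (Dvd.intro_left _ rfl) hMℓ
  -- `τ` moves `α`
  have hτα : τ α ≠ α := by
    intro h
    apply hσα
    rw [hστ α hαL]
    have : ∀ j : ℕ, (τ ^ j) α = α := by
      intro j
      induction j with
      | zero => rfl
      | succ j ih => rw [pow_succ, AlgEquiv.mul_apply, h, ih]
    exact this k
  refine ⟨ℓ, hℓ, hℓS, hgoodℓ, ?_, ?_, ?_⟩
  · exact ((Nat.modEq_iff_dvd' hℓ.one_lt.le).mpr hM₀ℓ).symm
  · have hq' : ¬ (ℓ : ℤ) ∣ ((q : ℕ) : ℤ) := by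
      rw [Int.natCast_dvd_natCast]
      intro h
      exact hℓq ((Nat.prime_dvd_prime_iff_eq hℓ hq).mp h)
    have hα' : α ^ p = (((q : ℕ) : ℤ) : Qbar) := by rw [hα]; simp
    have := h1c_not_pow_of_move_zmod hℓ hA hτ p hp hpℓ (q : ℤ) hq' α hα' hτα
    simpa using this
  · intro hdvd
    obtain ⟨x, hx0, hx⟩ := hS₀ ℓ hℓ hℓS₀ hℓp hgoodℓ hdvd A hA τ hτ.1 hτ.2
    apply hx0
    apply hσfix
    rw [hLagree σ (τ ^ k) hστ x]
    clear hστ hτσ
    induction k with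
    | zero => simp
    | succ k ih => rw [pow_succ, mul_smul, hx, ih]

end Fermat.Agent.Lib.S41
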