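/-
S41 project (level raising), layer [K] of (T1′) (helper9): the Kummer lemma.

`h9k_kummer`: for `ζ` a primitive `M`-th root of unity with `p ∣ M` (`p` an odd prime) and
`α ^ p = q` (`q` prime), some `σ ∈ G_ℚ` fixes `ζ` and moves `α`.
-/
import Mathlib
import Fermat.Agent.Lib.S13.OpenKernel
import Fermat.Agent.Lib.S51.EndgameAux

set_option autoImplicit false

open Polynomial IntermediateField

namespace Fermat.Agent.Lib.S41

open Fermat.Agent.Lib.S13

/-- A prime is not a `p`-th power of a rational number (`p ≥ 2`). -/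
theorem h9k_not_pow {p q : ℕ} (hp : 2 ≤ p) (hq : q.Prime) (b : ℚ) : b ^ p ≠ (q : ℚ) := by
  intro hb
  haveI : Fact q.Prime := ⟨hq⟩
  have h := congrArg (padicValRat q) hb
  rw [padicValRat.pow, padicValRat.self hq.one_lt] at h
  have hdvd : (p : ℤ) ∣ 1 := ⟨_, h.symm⟩
  have := Int.le_of_dvd one_pos hdvd
  omega

/-- Galois correspondence: an element outside an intermediate field is moved by some automorphism
fixing the field. -/
theorem h9k_exists_moving (L : IntermediateField ℚ Qbar) (x : Qbar) (hx : x ∉ L) :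
    ∃ σ : GQ, (∀ y ∈ L, σ y = y) ∧ σ x ≠ x := by
  haveI := Fermat.Agent.Lib.S51.isGalois_rat_algebraicClosure
  have h := InfiniteGalois.fixedField_fixingSubgroup L
  by_contra hno
  push Not at hno
  apply hx
  rw [← h, IntermediateField.mem_fixedField_iff]
  intro σ hσ
  apply hno σ
  intro y hy
  exact (IntermediateField.mem_fixingSubgroup_iff L σ).mp hσ y hy

theorem h9k_isIntegral (x : Qbar) : IsIntegral ℚ x := by
  haveI := lead_s13_isAlgebraic_Qbar
  exact (Algebra.IsAlgebraic.isAlgebraic x).isIntegral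

/-- `[ℚ(α) : ℚ] = p` for `α ^ p = q`. -/
theorem h9k_finrank_alpha {p q : ℕ} (hp : p.Prime) (hq : q.Prime) (α : Qbar)
    (hα : α ^ p = (q : Qbar)) : Module.finrank ℚ ℚ⟮α⟯ = p := by
  have hirr : Irreducible (X ^ p - C (q : ℚ) : ℚ[X]) :=
    (X_pow_sub_C_irreducible_iff_of_prime hp).mpr fun b => h9k_not_pow hp.two_le hq b
  have hmonic : (X ^ p - C (q : ℚ) : ℚ[X]).Monic := monic_X_pow_sub_C _ hp.ne_zero
  have hroot : aeval α (X ^ p - C (q : ℚ) : ℚ[X]) = 0 := by simp [hα]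
  have hmin : minpoly ℚ α = X ^ p - C (q : ℚ) :=
    (minpoly.eq_of_irreducible_of_monic hirr hroot hmonic).symm
  rw [IntermediateField.adjoin.finrank (h9k_isIntegral α), hmin, natDegree_X_pow_sub_C]

/-- `[ℚ(ω₀) : ℚ] = p - 1` for a primitive `p`-th root of unity `ω₀`. -/
theorem h9k_finrank_omega {p : ℕ} (hp : p.Prime) (ω₀ : Qbar) (h : IsPrimitiveRoot ω₀ p) :
    Module.finrank ℚ ℚ⟮ω₀⟯ = p - 1 := by
  rw [IntermediateField.adjoin.finrank (h9k_isIntegral ω₀),
    ← cyclotomic_eq_minpoly_rat h hp.pos, natDegree_cyclotomic, Nat.totient_prime hp]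

theorem h9k_alpha_notMem {p q : ℕ} (hp : p.Prime) (hq : q.Prime) (α ω₀ : Qbar)
    (hα : α ^ p = (q : Qbar)) (h : IsPrimitiveRoot ω₀ p) : α ∉ ℚ⟮ω₀⟯ := by
  intro hmem
  have hle : ℚ⟮α⟯ ≤ ℚ⟮ω₀⟯ := adjoin_simple_le_iff.mpr hmem
  have hdvd := IntermediateField.finrank_dvd_of_le_right hle
  rw [h9k_finrank_alpha hp hq α hα, h9k_finrank_omega hp ω₀ h] at hdvd
  have h2 := hp.two_le
  have := Nat.le_of_dvd (by omega) hdvd
  omega

/-- **Kummer lemma.** -/
theorem h9k_kummer {p q M : ℕ} (hp : p.Prime) (hp2 : p ≠ 2) (hq : q.Prime) (hpM : p ∣ M)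
    (hM : 0 < M) (ζ α : Qbar) (hζ : IsPrimitiveRoot ζ M) (hα : α ^ p = (q : Qbar)) :
    ∃ σ : GQ, σ ζ = ζ ∧ σ α ≠ α := by
  obtain ⟨m, rfl⟩ := hpM
  haveI : NeZero (p * m) := ⟨hM.ne'⟩
  haveI : NeZero p := ⟨hp.ne_zero⟩
  set ω₀ := ζ ^ m with hω₀
  have hprim : IsPrimitiveRoot ω₀ p := hζ.pow hM (mul_comm p m)
  have hα0 : α ≠ 0 := by
    rintro rfl
    rw [zero_pow hp.ne_zero] at hα
    exact hq.ne_zero (by exact_mod_cast hα.symm)
  -- an automorphism `c` fixing `ω₀` and moving `α`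
  obtain ⟨c, hcL, hcα⟩ := h9k_exists_moving ℚ⟮ω₀⟯ α (h9k_alpha_notMem hp hq α ω₀ hα hprim)
  have hcω₀ : c ω₀ = ω₀ := hcL ω₀ (mem_adjoin_simple_self ℚ ω₀)
  set ω := c α / α with hω
  have hcα' : c α = ω * α := by rw [hω]; field_simp
  have hωp : ω ^ p = 1 := by
    rw [hω, div_pow, ← map_pow, hα, map_natCast, div_self]
    exact_mod_cast hq.ne_zero
  have hω1 : ω ≠ 1 := by
    intro h
    apply hcα
    rw [hcα', h, one_mul]
  -- `ω` is not rational, so some `d` moves it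
  have hωQ : ω ∉ (⊥ : IntermediateField ℚ Qbar) := by
    intro h
    obtain ⟨r, hr⟩ := IntermediateField.mem_bot.mp h
    have hrp : r ^ p = 1 := by
      apply (algebraMap ℚ Qbar).injective
      rw [map_pow, hr, hωp, map_one]
    have hodd : Odd p := hp.eq_two_or_odd'.resolve_left hp2
    have hr1 : r = 1 := by
      have := hodd.strictMono_pow (R := ℚ)
      apply this.injective
      simp only [hrp, one_pow]
    apply hω1
    rw [← hr, hr1, map_one]
  obtain ⟨d, -, hdω⟩ := h9k_exists_moving ⊥ ω hωQ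
  by_contra hno
  push Not at hno
  -- every automorphism maps `ζ` to a power of `ζ`
  have hpowζ : ∀ σ : GQ, ∃ i : ℕ, σ ζ = ζ ^ i := by
    intro σ
    have h1 : (σ ζ) ^ (p * m) = 1 := by rw [← map_pow, hζ.pow_eq_one, map_one]
    obtain ⟨i, -, hi⟩ := hζ.eq_pow_of_pow_eq_one h1
    exact ⟨i, hi.symm⟩
  -- hence all automorphisms commute on `α`
  have hcomm : ∀ a b : GQ, a (b α) = b (a α) := by
    intro a b
    obtain ⟨i, hi⟩ := hpowζ a
    obtain ⟨j, hj⟩ := hpowζ b
    have h1 : a (b ζ) = b (a ζ) := by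
      rw [hi, hj, map_pow, map_pow, hi, hj, ← pow_mul, ← pow_mul, mul_comm]
    have h2 : ((b * a)⁻¹ * (a * b)) ζ = ζ := by
      rw [AlgEquiv.mul_apply, AlgEquiv.mul_apply, h1, ← AlgEquiv.mul_apply b a]
      exact (b * a).symm_apply_apply ζ
    have h3 := hno _ h2
    rw [AlgEquiv.mul_apply, AlgEquiv.mul_apply] at h3
    have h4 := congrArg (b * a) h3
    rw [show (b * a) ((b * a)⁻¹ (a (b α))) = a (b α) from (b * a).apply_symm_apply _,
      AlgEquiv.mul_apply] at h4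
    exact h4
  -- the contradiction
  set ω' := d α / α with hω'
  have hdα' : d α = ω' * α := by rw [hω']; field_simp
  have hω'p : ω' ^ p = 1 := by
    rw [hω', div_pow, ← map_pow, hα, map_natCast, div_self]
    exact_mod_cast hq.ne_zero
  obtain ⟨t, -, ht⟩ := hprim.eq_pow_of_pow_eq_one hω'p
  have hcω' : c ω' = ω' := by rw [← ht, map_pow, hcω₀]
  have hω'0 : ω' ≠ 0 := by
    intro h
    rw [h, zero_pow hp.ne_zero] at hω'p
    exact zero_ne_one hω'p
  have e1 : c (d α) = ω' * ω * α := by rw [hdα', map_mul, hcω', hcα']; ring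
  have e2 : d (c α) = d ω * ω' * α := by rw [hcα', map_mul, hdα']; ring
  have e := hcomm c d
  rw [e1, e2] at e
  apply hdω
  have h5 : ω' * ω = d ω * ω' := mul_right_cancel₀ hα0 e
  have h6 : ω' * ω = ω' * d ω := by rw [h5, mul_comm]
  exact (mul_left_cancel₀ hω'0 h6).symm

end Fermat.Agent.Lib.S41
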