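/-
S41 project (level raising): **(T1′)** `h6b_NonEisStatement`, unconditional (helper7):
`h7y_nonEis'` (H7T1b) fed with helper9's Kummer lemma `h9k_kummer`.
-/
import Mathlib
import Fermat.Agent.Lib.S41.H7T1b
import Fermat.Agent.Lib.S41.H9Kummer

set_option autoImplicit false

namespace Fermat.Agent.Lib.S41

open Fermat.Agent.Lib.S13

/-- The Kummer statement holds (helper9). -/
theorem h7y_kummer : h7y_KummerStatement :=
  fun hp hp2 hq hpM hM ζ α hζ hα => h9k_kummer hp hp2 hq hpM hM ζ α hζ hα

/-- **(T1′)**, unconditionally. -/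
theorem h7y_T1' : h6b_NonEisStatement := h7y_nonEis' h7y_kummer

end Fermat.Agent.Lib.S41
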