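import Fermat.Agent.Lib.S41.H6Std

/-!
# Project S41, layer [B], piece [Σ] (helper8): systems of coset representatives

* `h8v_IsReps H rep` — `rep : ι → G` is a system of representatives of `G ⧸ H`;
* `h8v_sum_reps` — a sum over `G ⧸ H` of a right-`H`-invariant function is the sum over any
  system of representatives;
* `h8v_reps_mul` — representatives for `G ⧸ K` times representatives of `K ⧸ H`;
* `h8v_reps_Gamma0`, `h8v_reps_Gup` — the explicit representatives `{1, T^j S}` of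
  `SL(2,ℤ) ⧸ Γ₀(q)` and `{S, T^j}` of `SL(2,ℤ) ⧸ Γ⁰(q)`;
* `h8v_sum_Gamma0`, `h8v_sum_Gamma0up` — the corresponding sum formulas.
-/

set_option autoImplicit false

open scoped MatrixGroups
open CongruenceSubgroup

namespace Fermat.Agent.Lib.S41

local notation "sT" => (ModularGroup.T : SL(2, ℤ))
local notation "sS" => (ModularGroup.S : SL(2, ℤ))

section Reps

universe u

variable {G : Type u} [Group G]

/-- `rep : ι → G` is a system of representatives of the left cosets `G ⧸ H`. -/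
def h8v_IsReps (H : Subgroup G) {ι : Type*} (rep : ι → G) : Prop :=
  (∀ i j, (rep i)⁻¹ * rep j ∈ H → i = j) ∧ ∀ g : G, ∃ i, (rep i)⁻¹ * g ∈ H

/-- A sum over `G ⧸ H` of a right-`H`-invariant function is the sum over any system of
representatives. -/
theorem h8v_sum_reps (H : Subgroup G) [Fintype (G ⧸ H)] {ι : Type*} [Fintype ι] {rep : ι → G}
    (hrep : h8v_IsReps H rep) {A : Type*} [AddCommMonoid A] (f : G → A)
    (hf : ∀ g, ∀ γ ∈ H, f (g * γ) = f g) :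
    ∑ x : G ⧸ H, f (Quotient.out x) = ∑ i, f (rep i) := by
  have hbij : Function.Bijective (fun i => (QuotientGroup.mk (rep i) : G ⧸ H)) := by
    constructor
    · intro i j hij
      exact hrep.1 i j (QuotientGroup.eq.mp hij)
    · intro x
      induction x using QuotientGroup.induction_on with
      | H g =>
        obtain ⟨i, hi⟩ := hrep.2 g
        exact ⟨i, QuotientGroup.eq.mpr hi⟩
  rw [← (Equiv.ofBijective _ hbij).sum_comp]
  refine Finset.sum_congr rfl fun i _ => ?_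
  have hmem : (rep i)⁻¹ * Quotient.out (QuotientGroup.mk (rep i) : G ⧸ H) ∈ H :=
    QuotientGroup.eq.mp (QuotientGroup.out_eq' _).symm
  have h2 := hf (rep i) _ hmem
  rw [mul_inv_cancel_left] at h2
  exact h2

/-- Representatives of `G ⧸ K` times representatives of `K ⧸ H` are representatives of
`G ⧸ H`. -/
theorem h8v_reps_mul {H K : Subgroup G} (hle : H ≤ K) {ι κ : Type*} {rep₁ : ι → G}
    {rep₂ : κ → G} (h₁ : h8v_IsReps K rep₁) (hK : ∀ k, rep₂ k ∈ K)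
    (hinj : ∀ k k', (rep₂ k)⁻¹ * rep₂ k' ∈ H → k = k')
    (hsurj : ∀ g ∈ K, ∃ k, (rep₂ k)⁻¹ * g ∈ H) :
    h8v_IsReps H (fun p : ι × κ => rep₁ p.1 * rep₂ p.2) := by
  constructor
  · rintro ⟨i, k⟩ ⟨j, k'⟩ h
    have hK' : (rep₁ i)⁻¹ * rep₁ j ∈ K := by
      have h' := hle h
      have e1 : (rep₁ i)⁻¹ * rep₁ j
          = rep₂ k * ((rep₁ i * rep₂ k)⁻¹ * (rep₁ j * rep₂ k')) * (rep₂ k')⁻¹ := by group
      rw [e1]
      exact K.mul_mem (K.mul_mem (hK k) h') (K.inv_mem (hK k'))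
    have hij : i = j := h₁.1 i j hK'
    subst hij
    have hkk : k = k' := by
      apply hinj
      have e1 : (rep₂ k)⁻¹ * rep₂ k' = (rep₁ i * rep₂ k)⁻¹ * (rep₁ i * rep₂ k') := by group
      rw [e1]; exact h
    rw [hkk]
  · intro g
    obtain ⟨i, hi⟩ := h₁.2 g
    obtain ⟨k, hk⟩ := hsurj _ hi
    refine ⟨(i, k), ?_⟩
    have e1 : (rep₁ i * rep₂ k)⁻¹ * g = (rep₂ k)⁻¹ * ((rep₁ i)⁻¹ * g) := by group
    rw [e1]; exact hk

/-- Existence of a finite system of representatives of `K ⧸ H` (for `H` of finite index). -/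
theorem h8v_exists_reps (H K : Subgroup G) [H.FiniteIndex] :
    ∃ (κ : Type u) (_ : Fintype κ) (rep₂ : κ → G), (∀ k, rep₂ k ∈ K) ∧
      (∀ k k', (rep₂ k)⁻¹ * rep₂ k' ∈ H → k = k') ∧ ∀ g ∈ K, ∃ k, (rep₂ k)⁻¹ * g ∈ H := by
  classical
  have : Finite (K ⧸ H.subgroupOf K) := Subgroup.finite_quotient_of_finiteIndex
  refine ⟨K ⧸ H.subgroupOf K, Fintype.ofFinite _, fun k => ((Quotient.out k : K) : G),
    fun k => (Quotient.out k : K).2, ?_, ?_⟩
  · intro k k' h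
    have h' : (Quotient.out k : K)⁻¹ * (Quotient.out k' : K) ∈ H.subgroupOf K := by
      rw [Subgroup.mem_subgroupOf]
      exact h
    have := QuotientGroup.eq.mpr h'
    rwa [QuotientGroup.out_eq', QuotientGroup.out_eq'] at this
  · intro g hg
    refine ⟨(QuotientGroup.mk (⟨g, hg⟩ : K) : K ⧸ H.subgroupOf K), ?_⟩
    have := QuotientGroup.eq.mp
      (QuotientGroup.out_eq' (QuotientGroup.mk (⟨g, hg⟩ : K) : K ⧸ H.subgroupOf K))
    rw [Subgroup.mem_subgroupOf] at this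
    exact this

end Reps

section SL2

theorem h8v_entry_TS (j : ℤ) (g : SL(2, ℤ)) :
    ((sT ^ j * sS)⁻¹ * g) 1 0 = -(g 0 0) + j * g 1 0 := by
  rw [Matrix.SpecialLinearGroup.coe_mul, Matrix.SpecialLinearGroup.coe_inv,
    Matrix.SpecialLinearGroup.coe_mul, ModularGroup.coe_T_zpow, ModularGroup.coe_S,
    Matrix.adjugate_fin_two]
  simp [Matrix.mul_apply, Fin.sum_univ_two]

theorem h8v_TS_00 (k : ℤ) : (sT ^ k * sS) 0 0 = k := by
  rw [Matrix.SpecialLinearGroup.coe_mul, ModularGroup.coe_T_zpow, ModularGroup.coe_S]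
  simp [Matrix.mul_apply, Fin.sum_univ_two]

theorem h8v_TS_10 (k : ℤ) : (sT ^ k * sS) 1 0 = 1 := by
  rw [Matrix.SpecialLinearGroup.coe_mul, ModularGroup.coe_T_zpow, ModularGroup.coe_S]
  simp [Matrix.mul_apply, Fin.sum_univ_two]

theorem h8v_entry_T (j : ℤ) (g : SL(2, ℤ)) :
    ((sT ^ j)⁻¹ * g) 0 1 = g 0 1 - j * g 1 1 := by
  rw [Matrix.SpecialLinearGroup.coe_mul, Matrix.SpecialLinearGroup.coe_inv,
    ModularGroup.coe_T_zpow, Matrix.adjugate_fin_two]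
  simp [Matrix.mul_apply, Fin.sum_univ_two]
  ring

theorem h8v_entry_S (g : SL(2, ℤ)) : (sS⁻¹ * g) 0 1 = g 1 1 := by
  rw [Matrix.SpecialLinearGroup.coe_mul, Matrix.SpecialLinearGroup.coe_inv,
    ModularGroup.coe_S, Matrix.adjugate_fin_two]
  simp [Matrix.mul_apply, Fin.sum_univ_two]

theorem h8v_T_01 (k : ℤ) : (sT ^ k) 0 1 = k := by
  rw [ModularGroup.coe_T_zpow]; simp

theorem h8v_T_11 (k : ℤ) : (sT ^ k) 1 1 = 1 := by
  rw [ModularGroup.coe_T_zpow]; simp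

theorem h8v_S_01 : sS 0 1 = -1 := by
  rw [ModularGroup.coe_S]; simp

theorem h8v_S_11 : sS 1 1 = 0 := by
  rw [ModularGroup.coe_S]; simp

/-- `Γ⁰(q)`: the matrices with upper right entry divisible by `q`. -/
def h8v_Gup (q : ℕ) : Subgroup SL(2, ℤ) where
  carrier := {g | ((g 0 1 : ℤ) : ZMod q) = 0}
  one_mem' := by simp
  mul_mem' := by
    intro a b ha hb
    simp only [Set.mem_ofPred_eq] at ha hb ⊢
    rw [Matrix.SpecialLinearGroup.coe_mul, Matrix.mul_apply, Fin.sum_univ_two]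
    push_cast
    rw [ha, hb]; ring
  inv_mem' := by
    intro a ha
    simp only [Set.mem_ofPred_eq] at ha ⊢
    rw [Matrix.SpecialLinearGroup.coe_inv, Matrix.adjugate_fin_two]
    simp [ha]

theorem h8v_mem_Gup {q : ℕ} {g : SL(2, ℤ)} : g ∈ h8v_Gup q ↔ ((g 0 1 : ℤ) : ZMod q) = 0 :=
  Iff.rfl

theorem h8v_mem_Gup_iff_dvd {q : ℕ} {g : SL(2, ℤ)} : g ∈ h8v_Gup q ↔ (q : ℤ) ∣ g 0 1 := by
  rw [h8v_mem_Gup, ZMod.intCast_zmod_eq_zero_iff_dvd]

/-- The representatives `S, T^j` (`j : ZMod q`) of `SL(2,ℤ) ⧸ Γ⁰(q)`. -/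
def h8v_rep0up (q : ℕ) : Option (ZMod q) → SL(2, ℤ)
  | none => sS
  | some j => sT ^ (j.val : ℤ)

theorem h8v_reps_Gup {q : ℕ} [Fact q.Prime] (K : Subgroup SL(2, ℤ))
    (hK : ∀ g : SL(2, ℤ), g ∈ K ↔ ((g 0 1 : ℤ) : ZMod q) = 0) :
    h8v_IsReps K (h8v_rep0up q) := by
  constructor
  · intro i j h
    rw [hK] at h
    rcases i with _ | i <;> rcases j with _ | j
    · rfl
    · exfalso
      simp only [h8v_rep0up] at h
      rw [h8v_entry_S, h8v_T_11] at h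
      simp at h
    · exfalso
      simp only [h8v_rep0up] at h
      rw [h8v_entry_T, h8v_S_01, h8v_S_11] at h
      simp at h
    · simp only [h8v_rep0up] at h
      rw [h8v_entry_T, h8v_T_01, h8v_T_11] at h
      push_cast at h
      rw [ZMod.natCast_zmod_val, ZMod.natCast_zmod_val] at h
      congr 1
      linear_combination -h
  · intro g
    by_cases hd : (((g 1 1 : ℤ)) : ZMod q) = 0
    · refine ⟨none, ?_⟩
      simp only [h8v_rep0up]
      rw [hK, h8v_entry_S]; exact hd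
    · refine ⟨some (((g 0 1 : ℤ) : ZMod q) * ((g 1 1 : ℤ) : ZMod q)⁻¹), ?_⟩
      simp only [h8v_rep0up]
      rw [hK, h8v_entry_T]
      push_cast
      rw [ZMod.natCast_zmod_val, mul_assoc, inv_mul_cancel₀ hd]
      ring

/-- The representatives `1, T^j S` (`j : ZMod q`) of `SL(2,ℤ) ⧸ Γ₀(q)`. -/
def h8v_rep0 (q : ℕ) : Option (ZMod q) → SL(2, ℤ)
  | none => 1
  | some j => sT ^ (j.val : ℤ) * sS

theorem h8v_reps_Gamma0 {q : ℕ} [Fact q.Prime] : h8v_IsReps (Gamma0 q) (h8v_rep0 q) := by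
  constructor
  · intro i j h
    rw [Gamma0_mem] at h
    rcases i with _ | i <;> rcases j with _ | j
    · rfl
    · exfalso
      simp only [h8v_rep0, inv_one, one_mul] at h
      rw [h8v_TS_10] at h
      simp at h
    · exfalso
      simp only [h8v_rep0] at h
      rw [h8v_entry_TS] at h
      simp at h
    · simp only [h8v_rep0] at h
      rw [h8v_entry_TS, h8v_TS_00, h8v_TS_10] at h
      push_cast at h
      rw [ZMod.natCast_zmod_val, ZMod.natCast_zmod_val] at h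
      congr 1
      linear_combination h
  · intro g
    by_cases hc : (((g 1 0 : ℤ)) : ZMod q) = 0
    · refine ⟨none, ?_⟩
      simp only [h8v_rep0, inv_one, one_mul]
      rw [Gamma0_mem]; exact hc
    · refine ⟨some (((g 0 0 : ℤ) : ZMod q) * ((g 1 0 : ℤ) : ZMod q)⁻¹), ?_⟩
      simp only [h8v_rep0]
      rw [Gamma0_mem, h8v_entry_TS]
      push_cast
      rw [ZMod.natCast_zmod_val, mul_assoc, inv_mul_cancel₀ hc]
      ring


theorem h8v_T_zpow_inv {A : Type*} (ψ : SL(2, ℤ) → A) (hl : ∀ g, ψ (sT * g) = ψ g) (n : ℕ)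
    (g : SL(2, ℤ)) : ψ (sT ^ (n : ℤ) * g) = ψ g := by
  rw [zpow_natCast]
  induction n with
  | zero => rw [pow_zero, one_mul]
  | succ n ih => rw [pow_succ', mul_assoc, hl, ih]

/-- **(Σa)** the sum over `SL(2,ℤ) ⧸ Γ₀(q)` of a right-`Γ₀(q)`-, left-`T`-invariant function. -/
theorem h8v_sum_Gamma0 {q : ℕ} [Fact q.Prime] [Fintype (SL(2, ℤ) ⧸ Gamma0 q)]
    (ψ : SL(2, ℤ) → ℚ) (hr : ∀ g, ∀ γ ∈ Gamma0 q, ψ (g * γ) = ψ g)
    (hl : ∀ g, ψ (sT * g) = ψ g) :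
    ∑ ξ : SL(2, ℤ) ⧸ Gamma0 q, ψ (Quotient.out ξ) = ψ 1 + q * ψ sS := by
  rw [h8v_sum_reps (Gamma0 q) h8v_reps_Gamma0 ψ hr, Fintype.sum_option]
  simp only [h8v_rep0]
  rw [Finset.sum_congr rfl fun j _ => h8v_T_zpow_inv ψ hl (ZMod.val j) sS, Finset.sum_const,
    Finset.card_univ, ZMod.card, nsmul_eq_mul]

/-- **(Σb)** the sum over `SL(2,ℤ) ⧸ Γ⁰(q)` of a right-`Γ⁰(q)`-, left-`T`-invariant function. -/
theorem h8v_sum_Gamma0up {q : ℕ} [Fact q.Prime] (K : Subgroup SL(2, ℤ))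
    (hK : ∀ g : SL(2, ℤ), g ∈ K ↔ (q : ℤ) ∣ g 0 1) [Fintype (SL(2, ℤ) ⧸ K)]
    (ψ : SL(2, ℤ) → ℚ) (hr : ∀ g, ∀ γ ∈ K, ψ (g * γ) = ψ g)
    (hl : ∀ g, ψ (sT * g) = ψ g) :
    ∑ ξ : SL(2, ℤ) ⧸ K, ψ (Quotient.out ξ) = q * ψ 1 + ψ sS := by
  have hK' : ∀ g : SL(2, ℤ), g ∈ K ↔ ((g 0 1 : ℤ) : ZMod q) = 0 := by
    intro g; rw [hK, ZMod.intCast_zmod_eq_zero_iff_dvd]
  rw [h8v_sum_reps K (h8v_reps_Gup K hK') ψ hr, Fintype.sum_option]
  simp only [h8v_rep0up]
  have h1 : ∀ j : ZMod q, ψ (sT ^ ((ZMod.val j : ℕ) : ℤ)) = ψ 1 := by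
    intro j
    have := h8v_T_zpow_inv ψ hl (ZMod.val j) 1
    rwa [mul_one] at this
  rw [Finset.sum_congr rfl fun j _ => h1 j, Finset.sum_const,
    Finset.card_univ, ZMod.card, nsmul_eq_mul, add_comm]

end SL2

end Fermat.Agent.Lib.S41
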