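import Mathlib
import Fermat.Agent.Lib.S41.Defs
import Fermat.Agent.Lib.S41.H8Amalgam
import Fermat.Agent.Lib.S41.H8Glue
import Fermat.Agent.Lib.S41.H8GlueUnip
import Fermat.Agent.Lib.S41.H8Gen

/-!
# S41, layer A′: the drift identity

For `(x, y)` in the kernel of `x∘incl + y∘conjH` on `Γ₀(N q)`: there is `κ₀ ∈ 𝔽_p` with
`x(γ₂) = x(γ) - κ₀`, `y(γ₂) = y(γ) + κ₀` whenever `γ, γ₂ ∈ Γ₀(N)` have bottom rows `(C, D)`,
`(C, q² D + t C)`, `C ≠ 0`.  Proof: `ι γ₂ = t₀⁻¹ · ι(U(n) γ) · t₀⁻¹ · ι U(t)` in `Γ₀(N)[1/q]`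
and the glued character `Φ` (`κ₀ = 2 Φ(t₀)`).
-/

set_option autoImplicit false

open CongruenceSubgroup ModularCurve.Period
open scoped MatrixGroups

namespace Fermat.Agent.Lib.S41

/-- literal 2×2 matrices are equal if their entries are -/
theorem h8d_lit_ext {a b c d a' b' c' d' : ℚ} (h1 : a = a') (h2 : b = b') (h3 : c = c')
    (h4 : d = d') : (!![a, b; c, d] : Matrix (Fin 2) (Fin 2) ℚ) = !![a', b'; c', d'] := by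
  rw [h1, h2, h3, h4]

/-- the matrix identity behind the drift -/
theorem h8d_mat_identity (r : ℚ) (hr : r ≠ 0) (a2 b2 C D D2 t b n : ℚ)
    (hD2 : D2 = r ^ 2 * D + t * C) (hb2 : b2 = a2 * t + b + n * D) :
    (!![a2, b2; C, D2] : Matrix (Fin 2) (Fin 2) ℚ) =
      !![r⁻¹, 0; 0, r] * !![r ^ 2 * a2, b + n * D; C, D] * !![r⁻¹, 0; 0, r] * !![1, t; 0, 1] := by
  rw [Matrix.mul_fin_two, Matrix.mul_fin_two, Matrix.mul_fin_two]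
  apply h8d_lit_ext
  · field_simp; ring
  · rw [hb2]; field_simp; ring
  · field_simp; ring
  · rw [hD2]; field_simp; ring

section Drift

variable {p N q : ℕ}

/-- a parabolic character of `Γ₀(N)` only depends on the bottom row -/
theorem h8d_same_row (z : Additive (Gamma0 N) →+ ZMod p) (hz : IsParabolicHom (Gamma0 N) z)
    (γ γ' : Gamma0 N)
    (h10 : ((γ' : SL(2, ℤ)) : Matrix (Fin 2) (Fin 2) ℤ) 1 0 =
      ((γ : SL(2, ℤ)) : Matrix (Fin 2) (Fin 2) ℤ) 1 0)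
    (h11 : ((γ' : SL(2, ℤ)) : Matrix (Fin 2) (Fin 2) ℤ) 1 1 =
      ((γ : SL(2, ℤ)) : Matrix (Fin 2) (Fin 2) ℤ) 1 1) :
    z (Additive.ofMul γ') = z (Additive.ofMul γ) := by
  have hu : z (Additive.ofMul (γ' * γ⁻¹)) = 0 := by
    apply hz
    have hd := h8a_det_int (γ : SL(2, ℤ))
    have hd' := h8a_det_int (γ' : SL(2, ℤ))
    have hmat : (((γ' * γ⁻¹ : Gamma0 N) : SL(2, ℤ)) : Matrix (Fin 2) (Fin 2) ℤ) =
        ((γ' : SL(2, ℤ)) : Matrix (Fin 2) (Fin 2) ℤ) *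
          !![((γ : SL(2, ℤ)) : Matrix (Fin 2) (Fin 2) ℤ) 1 1,
              -((γ : SL(2, ℤ)) : Matrix (Fin 2) (Fin 2) ℤ) 0 1;
            -((γ : SL(2, ℤ)) : Matrix (Fin 2) (Fin 2) ℤ) 1 0,
              ((γ : SL(2, ℤ)) : Matrix (Fin 2) (Fin 2) ℤ) 0 0] := by
      rw [Subgroup.coe_mul, Subgroup.coe_inv, Matrix.SpecialLinearGroup.coe_mul,
        Matrix.SpecialLinearGroup.coe_inv, Matrix.adjugate_fin_two]
    have htr : ((((γ' * γ⁻¹ : Gamma0 N) : SL(2, ℤ)) : Matrix (Fin 2) (Fin 2) ℤ)).trace = 2 := by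
      rw [hmat, Matrix.trace_fin_two]
      obtain ⟨e00, -, -, e11⟩ := Matrix.two_mul_expl ((γ' : SL(2, ℤ)) : Matrix (Fin 2) (Fin 2) ℤ)
        !![((γ : SL(2, ℤ)) : Matrix (Fin 2) (Fin 2) ℤ) 1 1,
              -((γ : SL(2, ℤ)) : Matrix (Fin 2) (Fin 2) ℤ) 0 1;
            -((γ : SL(2, ℤ)) : Matrix (Fin 2) (Fin 2) ℤ) 1 0,
              ((γ : SL(2, ℤ)) : Matrix (Fin 2) (Fin 2) ℤ) 0 0]
      rw [e00, e11]
      simp only [Matrix.of_apply, Matrix.cons_val', Matrix.cons_val_zero, Matrix.cons_val_one]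
      rw [h10, h11] at hd'
      rw [h10, h11]
      linear_combination hd + hd'
    rw [htr]; norm_num
  have : γ' = (γ' * γ⁻¹) * γ := by group
  rw [this, ofMul_mul, map_add, hu, zero_add]

theorem h8d_kappa_symm_t0 (r : ℚ) (hr : r ≠ 0) (s : ℚ) (hs : s ≠ 0) :
    (h8a_kappa r hr).symm (h8a_t0 s hs) = h8a_t0 s hs := by
  apply Subtype.ext
  rw [h8a_kappa_symm_apply, h8a_t0_coe, h8a_kappaMat]
  apply h8d_lit_ext <;> simp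

theorem h8d_iota_coe (g : SL(2, ℤ)) :
    (h8a_iota g : Matrix (Fin 2) (Fin 2) ℚ) =
      !![((g : Matrix (Fin 2) (Fin 2) ℤ) 0 0 : ℚ), ((g : Matrix (Fin 2) (Fin 2) ℤ) 0 1 : ℚ);
        ((g : Matrix (Fin 2) (Fin 2) ℤ) 1 0 : ℚ), ((g : Matrix (Fin 2) (Fin 2) ℤ) 1 1 : ℚ)] := by
  rw [Matrix.eta_fin_two (h8a_iota g : Matrix (Fin 2) (Fin 2) ℚ)]
  simp only [h8a_iota_apply]

/-- **The drift identity.** -/
theorem h8d_drift (hq : q.Prime) (hqN : ¬ q ∣ N)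
    (x y : Additive (Gamma0 N) →+ ZMod p)
    (hx : IsParabolicHom (Gamma0 N) x) (hy : IsParabolicHom (Gamma0 N) y)
    (hxy : ∀ g : Gamma0 (N * q), x (Additive.ofMul (h6_incl N q g))
        + y (Additive.ofMul (h6_conjH N q hq.pos g)) = 0) :
    ∃ κ₀ : ZMod p, ∀ γ γ₂ : Gamma0 N,
      ((γ₂ : SL(2, ℤ)) : Matrix (Fin 2) (Fin 2) ℤ) 1 0 =
        ((γ : SL(2, ℤ)) : Matrix (Fin 2) (Fin 2) ℤ) 1 0 →
      ((γ : SL(2, ℤ)) : Matrix (Fin 2) (Fin 2) ℤ) 1 0 ≠ 0 →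
      (∃ t : ℤ, ((γ₂ : SL(2, ℤ)) : Matrix (Fin 2) (Fin 2) ℤ) 1 1 =
        (q : ℤ) ^ 2 * ((γ : SL(2, ℤ)) : Matrix (Fin 2) (Fin 2) ℤ) 1 1 +
          t * ((γ : SL(2, ℤ)) : Matrix (Fin 2) (Fin 2) ℤ) 1 0) →
      x (Additive.ofMul γ₂) = x (Additive.ofMul γ) - κ₀ ∧
      y (Additive.ofMul γ₂) = y (Additive.ofMul γ) + κ₀ := by
  have hq0 : (q : ℚ) ≠ 0 := by exact_mod_cast hq.pos.ne'
  obtain ⟨Φm, hΦA, hΦB⟩ := h8a_glue_mul (p := p) hq hqN x y hxy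
  set Φ : Additive (h8a_H N (q : ℚ) hq0) →+ ZMod p := MonoidHom.toAdditiveLeft Φm with hΦ
  have hΦapp : ∀ g : h8a_H N (q : ℚ) hq0, Φ (Additive.ofMul g) = Multiplicative.toAdd (Φm g) :=
    fun g => rfl
  set κ := h8a_kappa (q : ℚ) hq0 with hκ
  have hmemA : ∀ a : SL(2, ℤ), a ∈ Gamma0 N → h8a_iota a ∈ h8a_H N (q : ℚ) hq0 := fun a ha =>
    (le_sup_left : h8a_SA N ≤ h8a_H N (q : ℚ) hq0) (h8a_mem_SA.mpr ⟨a, ha, rfl⟩)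
  have hmemB : ∀ a : SL(2, ℤ), a ∈ Gamma0 N → κ.symm (h8a_iota a) ∈ h8a_H N (q : ℚ) hq0 := by
    intro a ha
    apply (le_sup_right : h8a_SB N (q : ℚ) hq0 ≤ h8a_H N (q : ℚ) hq0)
    rw [h8a_mem_SB, MulEquiv.apply_symm_apply]
    exact h8a_mem_SA.mpr ⟨a, ha, rfl⟩
  have hΦA' : ∀ (a : SL(2, ℤ)) (ha : a ∈ Gamma0 N),
      Φ (Additive.ofMul ⟨h8a_iota a, hmemA a ha⟩) = x (Additive.ofMul ⟨a, ha⟩) := by
    intro a ha
    rw [hΦapp, hΦA ⟨a, ha⟩ (hmemA a ha), toAdd_ofAdd]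
  have hΦB' : ∀ (a : SL(2, ℤ)) (ha : a ∈ Gamma0 N),
      Φ (Additive.ofMul ⟨κ.symm (h8a_iota a), hmemB a ha⟩) = - y (Additive.ofMul ⟨a, ha⟩) := by
    intro a ha
    rw [hΦapp, hΦB ⟨a, ha⟩ (hmemB a ha), toAdd_ofAdd]
  have ht0 := h8a_t0_mem_H (N := N) hq hqN
  set T0 : h8a_H N (q : ℚ) hq0 := ⟨h8a_t0 (q : ℚ) hq0, ht0⟩ with hT0
  set η : ZMod p := Φ (Additive.ofMul T0) with hη
  refine ⟨η + η, ?_⟩
  intro γ γ₂ hC hC0 ht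
  obtain ⟨t, ht⟩ := ht
  -- the integers
  set a := ((γ : SL(2, ℤ)) : Matrix (Fin 2) (Fin 2) ℤ) 0 0 with ha
  set b := ((γ : SL(2, ℤ)) : Matrix (Fin 2) (Fin 2) ℤ) 0 1 with hb
  set C := ((γ : SL(2, ℤ)) : Matrix (Fin 2) (Fin 2) ℤ) 1 0 with hCdef
  set D := ((γ : SL(2, ℤ)) : Matrix (Fin 2) (Fin 2) ℤ) 1 1 with hD
  set a2 := ((γ₂ : SL(2, ℤ)) : Matrix (Fin 2) (Fin 2) ℤ) 0 0 with ha2
  set b2 := ((γ₂ : SL(2, ℤ)) : Matrix (Fin 2) (Fin 2) ℤ) 0 1 with hb2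
  set D2 := ((γ₂ : SL(2, ℤ)) : Matrix (Fin 2) (Fin 2) ℤ) 1 1 with hD2
  have det1 : a * D - b * C = 1 := h8a_det_int (γ : SL(2, ℤ))
  have det2 : a2 * D2 - b2 * C = 1 := by
    have := h8a_det_int (γ₂ : SL(2, ℤ))
    rw [hC] at this
    exact this
  have hcop : IsCoprime C D := ⟨-b, a, by linear_combination det1⟩
  have hdvd : C ∣ (q : ℤ) ^ 2 * a2 - a := by
    apply hcop.dvd_of_dvd_mul_left
    refine ⟨b2 - a2 * t - b, ?_⟩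
    rw [ht] at det2
    linear_combination det2 - det1
  obtain ⟨n, hn⟩ := hdvd
  have hb2' : b2 = a2 * t + b + n * D := by
    apply mul_left_cancel₀ hC0
    rw [ht] at det2
    linear_combination (-1 : ℤ) * det2 + det1 + D * hn
  have det' : ((q : ℤ) ^ 2 * a2) * D - (b + n * D) * C = 1 := by
    linear_combination det1 + D * hn
  have hNC : (N : ℤ) ∣ C := h8a_gamma0_dvd.mp γ.2
  set γ' : SL(2, ℤ) := h8a_mk ((q : ℤ) ^ 2 * a2) (b + n * D) C D det' with hγ'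
  have hγ'N : γ' ∈ Gamma0 N := h8a_mk_mem N _ _ _ _ det' hNC
  set Ut : SL(2, ℤ) := h8a_mk 1 t 0 1 (by ring) with hUt
  have hUtN : Ut ∈ Gamma0 N := h8a_mk_mem N _ _ _ _ _ (dvd_zero _)
  -- the identity in SL(2, ℚ)
  have hid : h8a_iota (γ₂ : SL(2, ℤ)) =
      (h8a_t0 (q : ℚ) hq0)⁻¹ * h8a_iota γ' * (h8a_t0 (q : ℚ) hq0)⁻¹ * h8a_iota Ut := by
    apply Subtype.ext
    rw [Matrix.SpecialLinearGroup.coe_mul, Matrix.SpecialLinearGroup.coe_mul,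
      Matrix.SpecialLinearGroup.coe_mul, h8a_t0_inv_coe, hγ', hUt, h8a_iota_mk, h8a_iota_mk,
      h8d_iota_coe]
    have h1 : (D2 : ℚ) = (q : ℚ) ^ 2 * D + t * C := by exact_mod_cast ht
    have h2 : (b2 : ℚ) = a2 * t + b + n * D := by exact_mod_cast hb2'
    have := h8d_mat_identity (q : ℚ) hq0 a2 b2 C D D2 t b n h1 h2
    rw [← hC] at this ⊢
    convert this using 2 <;> push_cast <;> rfl
  -- values of x, y on γ' and Ut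
  have hxγ' : x (Additive.ofMul ⟨γ', hγ'N⟩) = x (Additive.ofMul γ) :=
    h8d_same_row x hx γ ⟨γ', hγ'N⟩ rfl rfl
  have hyγ' : y (Additive.ofMul ⟨γ', hγ'N⟩) = y (Additive.ofMul γ) :=
    h8d_same_row y hy γ ⟨γ', hγ'N⟩ rfl rfl
  have hUtr : ((Ut : SL(2, ℤ)) : Matrix (Fin 2) (Fin 2) ℤ).trace ^ 2 = 4 := by
    rw [Matrix.trace_fin_two]
    show ((1 : ℤ) + 1) ^ 2 = 4
    norm_num
  have hxU : x (Additive.ofMul ⟨Ut, hUtN⟩) = 0 := hx ⟨Ut, hUtN⟩ hUtr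
  have hyU : y (Additive.ofMul ⟨Ut, hUtN⟩) = 0 := hy ⟨Ut, hUtN⟩ hUtr
  constructor
  · -- x-part
    have e : (⟨h8a_iota (γ₂ : SL(2, ℤ)), hmemA _ γ₂.2⟩ : h8a_H N (q : ℚ) hq0) =
        T0⁻¹ * ⟨h8a_iota γ', hmemA _ hγ'N⟩ * T0⁻¹ * ⟨h8a_iota Ut, hmemA _ hUtN⟩ :=
      Subtype.ext hid
    have h3 := congrArg (fun g => Φ (Additive.ofMul g)) e
    simp only [ofMul_mul, map_add, ofMul_inv, map_neg] at h3
    rw [hΦA' _ γ₂.2, hΦA' _ hγ'N, hΦA' _ hUtN, hxγ', hxU] at h3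
    rw [show (⟨(γ₂ : SL(2, ℤ)), γ₂.2⟩ : Gamma0 N) = γ₂ from rfl] at h3
    rw [h3]; ring
  · -- y-part
    have hid2 : κ.symm (h8a_iota (γ₂ : SL(2, ℤ))) =
        (h8a_t0 (q : ℚ) hq0)⁻¹ * κ.symm (h8a_iota γ') * (h8a_t0 (q : ℚ) hq0)⁻¹ *
          κ.symm (h8a_iota Ut) := by
      rw [hid, map_mul, map_mul, map_mul, map_inv, h8d_kappa_symm_t0]
    have e : (⟨κ.symm (h8a_iota (γ₂ : SL(2, ℤ))), hmemB _ γ₂.2⟩ : h8a_H N (q : ℚ) hq0) =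
        T0⁻¹ * ⟨κ.symm (h8a_iota γ'), hmemB _ hγ'N⟩ * T0⁻¹ *
          ⟨κ.symm (h8a_iota Ut), hmemB _ hUtN⟩ :=
      Subtype.ext hid2
    have h3 := congrArg (fun g => Φ (Additive.ofMul g)) e
    simp only [ofMul_mul, map_add, ofMul_inv, map_neg] at h3
    rw [hΦB' _ γ₂.2, hΦB' _ hγ'N, hΦB' _ hUtN, hyγ', hyU] at h3
    rw [show (⟨(γ₂ : SL(2, ℤ)), γ₂.2⟩ : Gamma0 N) = γ₂ from rfl] at h3
    linear_combination (-1 : ZMod p) * h3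

end Drift

end Fermat.Agent.Lib.S41
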