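import Mathlib
import Fermat.Agent.Lib.S16.H3PeriodPar
import Fermat.Agent.Lib.S41.H5Bridge
import Fermat.Agent.Lib.S41.H5U

/-!
# Project S41, layer [F3], part 2: Eichler–Shimura in the form `P = pm(S) ⊕ conj ∘ pm(S)`

Owner: helper8.

`h8e_Xi (f₁, f₂) = periodMap f₁ + conj ∘ periodMap f₂` is an injective map `S × S → Hom(Γ₀(N), ℂ)`
whose image contains all parabolic homomorphisms; it intertwines every coset-family operator
coming from a Hecke operator on cusp forms (`T_ℓ`, `U_q`).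
-/

set_option autoImplicit false

open CongruenceSubgroup ModularCurve ModularCurve.Period UpperHalfPlane
open Fermat.Agent.Lib.S21 Fermat.Agent.Lib.S16
open scoped MatrixGroups ComplexConjugate

noncomputable section

namespace Fermat.Agent.Lib.S41

/-- Post-composition with complex conjugation. -/
def h8e_conj {Γ : Type*} [Group Γ] : (Additive Γ →+ ℂ) →+ (Additive Γ →+ ℂ) where
  toFun φ := (starRingEnd ℂ).toAddMonoidHom.comp φ
  map_zero' := by
    refine AddMonoidHom.ext fun g => ?_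
    simp
  map_add' φ ψ := by
    refine AddMonoidHom.ext fun g => ?_
    simp

@[simp] theorem h8e_conj_apply {Γ : Type*} [Group Γ] (φ : Additive Γ →+ ℂ) (g : Additive Γ) :
    h8e_conj φ g = conj (φ g) := rfl

theorem h8e_conj_conj {Γ : Type*} [Group Γ] (φ : Additive Γ →+ ℂ) :
    h8e_conj (h8e_conj φ) = φ := by
  refine AddMonoidHom.ext fun g => ?_
  simp

theorem h8e_conj_smul {Γ : Type*} [Group Γ] (z : ℂ) (φ : Additive Γ →+ ℂ) :
    h8e_conj (z • φ) = conj z • h8e_conj φ := by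
  refine AddMonoidHom.ext fun g => ?_
  simp

/-- Coset-family operators commute with post-composition by conjugation. -/
theorem h8e_op_conj {𝔾 : Type*} [Group 𝔾] {Γ₁ Γ₂ : Type*} [Group Γ₁] [Group Γ₂] {I : Type*}
    [Fintype I] (F : h5f_Fam 𝔾 Γ₁ Γ₂ I) (φ : Additive Γ₁ →+ ℂ) :
    F.op ℂ (h8e_conj φ) = h8e_conj (F.op ℂ φ) := by
  refine AddMonoidHom.ext fun g' => ?_
  set g : Γ₂ := Additive.toMul g'
  change ∑ x, conj (φ (Additive.ofMul (F.δ g x))) = conj (∑ x, φ (Additive.ofMul (F.δ g x)))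
  rw [map_sum]

variable {N : ℕ} [NeZero N]

theorem h8e_J_J (z : ℍ) : J • (J • z) = z := by
  apply UpperHalfPlane.ext
  rw [coe_J_smul, coe_J_smul]
  simp

theorem h8e_conjForm_conjForm (f : CuspForm (Gamma0 N) 2) : h3_conjForm (h3_conjForm f) = f := by
  apply DFunLike.ext
  intro z
  rw [h3_conjForm_apply, h3_conjForm_apply, h8e_J_J, Complex.conj_conj]

/-- `ι (pm f) = - conj ∘ pm (f^c)`. -/
theorem h8e_charInvolution_periodMap (f : CuspForm (Gamma0 N) 2) :
    charInvolution N ℂ ℂ (periodMap N f) = -h8e_conj (periodMap N (h3_conjForm f)) := by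
  refine AddMonoidHom.ext fun g' => ?_
  obtain ⟨γ, rfl⟩ : ∃ γ : Gamma0 N, Additive.ofMul γ = g' := ⟨Additive.toMul g', rfl⟩
  rw [charInvolution_apply, AddMonoidHom.neg_apply, h8e_conj_apply, h3_period_conjForm, toMul_ofMul,
    map_neg, Complex.conj_conj, neg_neg]

/-- The map `(f₁, f₂) ↦ pm f₁ + conj ∘ pm f₂`. -/
def h8e_Xi (N : ℕ) (ff : CuspForm (Gamma0 N) 2 × CuspForm (Gamma0 N) 2) :
    Additive (Gamma0 N) →+ ℂ :=
  periodMap N ff.1 + h8e_conj (periodMap N ff.2)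

theorem h8e_periodHomPair_eq (f g : CuspForm (Gamma0 N) 2) :
    periodHomPair N (f, g) = h8e_Xi N (f + g, h3_conjForm (g - f)) := by
  obtain ⟨pml, hpml, hdef⟩ := periodHomPair_def N (h1_existsPeriodMapLinear N)
  rw [hdef]
  simp only [LinearMap.coprod_apply, LinearMap.comp_apply, LinearMap.add_apply,
    LinearMap.sub_apply, LinearMap.id_apply, hpml, h8e_Xi]
  rw [h8e_charInvolution_periodMap, h8e_charInvolution_periodMap, h1_periodMap_add]
  have h1 : periodMap N (h3_conjForm (g - f))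
      = periodMap N (h3_conjForm g) - periodMap N (h3_conjForm f) := by
    have e : h3_conjForm (g - f) + h3_conjForm f = h3_conjForm g := by
      apply DFunLike.ext
      intro z
      show h3_conjForm (g - f) z + h3_conjForm f z = h3_conjForm g z
      rw [h3_conjForm_apply, h3_conjForm_apply, h3_conjForm_apply, ← map_add]
      congr 1
      show (g - f) (J • z) + f (J • z) = g (J • z)
      show (g (J • z) - f (J • z)) + f (J • z) = g (J • z)
      ring
    rw [← e, h1_periodMap_add]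
    abel
  rw [h1, map_sub]
  abel

/-- Every parabolic homomorphism is in the image of `h8e_Xi`. -/
theorem h8e_Xi_surj (φ : Additive (Gamma0 N) →+ ℂ) (hφ : φ ∈ parabolicHoms ℂ (Gamma0 N) ℂ) :
    ∃ ff, h8e_Xi N ff = φ := by
  rw [← h3_range_periodHomPair N] at hφ
  obtain ⟨⟨f, g⟩, rfl⟩ := hφ
  exact ⟨_, (h8e_periodHomPair_eq f g).symm⟩

theorem h8e_Xi_eq_zero (f₁ f₂ : CuspForm (Gamma0 N) 2) (h : h8e_Xi N (f₁, f₂) = 0) :
    f₁ = 0 ∧ f₂ = 0 := by
  -- choose `(f, g)` with `f + g = f₁`, `(g - f)^c = f₂`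
  set k : CuspForm (Gamma0 N) 2 := h3_conjForm f₂ with hk
  set f : CuspForm (Gamma0 N) 2 := (2⁻¹ : ℂ) • (f₁ - k) with hf
  set g : CuspForm (Gamma0 N) 2 := (2⁻¹ : ℂ) • (f₁ + k) with hg
  have e1 : f + g = f₁ := by
    rw [hf, hg, ← smul_add]
    have : f₁ - k + (f₁ + k) = (2 : ℂ) • f₁ := by rw [two_smul]; abel
    rw [this, smul_smul]
    norm_num
  have e2 : g - f = k := by
    rw [hf, hg, ← smul_sub]
    have : f₁ + k - (f₁ - k) = (2 : ℂ) • k := by rw [two_smul]; abel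
    rw [this, smul_smul]
    norm_num
  have h1 : periodHomPair N (f, g) = 0 := by
    rw [h8e_periodHomPair_eq, e1, e2, hk, h8e_conjForm_conjForm]
    exact h
  have h2 : (f, g) = 0 := h1_periodHomPair_inj N (by rw [h1, map_zero])
  have hf0 : f = 0 := congrArg Prod.fst h2
  have hg0 : g = 0 := congrArg Prod.snd h2
  have hf₁ : f₁ = 0 := by rw [← e1, hf0, hg0, add_zero]
  have hk0 : k = 0 := by rw [← e2, hf0, hg0, sub_zero]
  refine ⟨hf₁, ?_⟩
  have := congrArg h3_conjForm hk0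
  rw [hk, h8e_conjForm_conjForm] at this
  rw [this]
  apply DFunLike.ext
  intro z
  rw [h3_conjForm_apply]
  simp

theorem h8e_Xi_sub (ff gg : CuspForm (Gamma0 N) 2 × CuspForm (Gamma0 N) 2) :
    h8e_Xi N (ff - gg) = h8e_Xi N ff - h8e_Xi N gg := by
  have h1 : ∀ a b : CuspForm (Gamma0 N) 2, periodMap N (a - b) = periodMap N a - periodMap N b := by
    intro a b
    have := h1_periodMap_add (a - b) b
    rw [sub_add_cancel] at this
    rw [this]; abel
  simp only [h8e_Xi, Prod.fst_sub, Prod.snd_sub, h1, map_sub]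
  abel

theorem h8e_Xi_injective : Function.Injective (h8e_Xi N) := by
  intro ff gg h
  have h0 : h8e_Xi N (ff - gg) = 0 := by rw [h8e_Xi_sub, h, sub_self]
  obtain ⟨h1, h2⟩ := h8e_Xi_eq_zero (ff - gg).1 (ff - gg).2 h0
  have : ff - gg = 0 := Prod.ext h1 h2
  exact sub_eq_zero.mp this

theorem h8e_smul_Xi (z : ℂ) (ff : CuspForm (Gamma0 N) 2 × CuspForm (Gamma0 N) 2) :
    z • h8e_Xi N ff = h8e_Xi N (z • ff.1, conj z • ff.2) := by
  simp only [h8e_Xi, smul_add, h1_periodMap_smul, h8e_conj_smul, Complex.conj_conj]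

/-- `T_ℓ^coh` corresponds to `(T_ℓ, T_ℓ)`. -/
theorem h8e_T_Xi {ℓ : ℕ} [Fact ℓ.Prime] (hℓ : ℓ.Prime) (hℓN : ¬ ℓ ∣ N)
    (ff : CuspForm (Gamma0 N) 2 × CuspForm (Gamma0 N) 2) :
    h5h_T N ℓ hℓN ℂ (h8e_Xi N ff)
      = h8e_Xi N (CuspForm.heckeTLin 2 hℓ hℓN ff.1, CuspForm.heckeTLin 2 hℓ hℓN ff.2) := by
  simp only [h8e_Xi, map_add]
  rw [h5b_periodMap_T hℓ hℓN, h5b_periodMap_T hℓ hℓN]
  congr 1
  exact h8e_op_conj (h5h_heckeFam N ℓ hℓN) _

/-- `U_q^coh` corresponds to `(U_q, U_q)`. -/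
theorem h8e_U_Xi {q : ℕ} [NeZero q] (hqN : q ∣ N)
    (ff : CuspForm (Gamma0 N) 2 × CuspForm (Gamma0 N) 2) :
    h5u_U N q hqN ℂ (h8e_Xi N ff)
      = h8e_Xi N (CuspForm.heckeULin 2 hqN ff.1, CuspForm.heckeULin 2 hqN ff.2) := by
  simp only [h8e_Xi, map_add]
  rw [h5u_periodMap_U hqN, h5u_periodMap_U hqN]
  congr 1
  exact h8e_op_conj (h5u_fam N q hqN) _

end Fermat.Agent.Lib.S41
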