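import Fermat.Agent.Lib.S41.H8Cos
import Fermat.Agent.Lib.S41.H6Iso

/-!
# Project S41, layer [B], piece [Σ] (helper8): the coset-sum identity for `δ = diag(q,1)`

`h8w_sum_eq : h6v_SumStatement`.
-/

set_option autoImplicit false

open scoped MatrixGroups
open CongruenceSubgroup

namespace Fermat.Agent.Lib.S41

local notation "sT" => (ModularGroup.T : SL(2, ℤ))
local notation "sS" => (ModularGroup.S : SL(2, ℤ))

/-- The relation `g' = δ g δ⁻¹`, `δ = diag(q,1)`, entrywise and without division. -/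
def h8w_R (q : ℕ) (g g' : SL(2, ℤ)) : Prop :=
  g' 0 0 = g 0 0 ∧ g' 0 1 = q * g 0 1 ∧ q * g' 1 0 = g 1 0 ∧ g' 1 1 = g 1 1

section Rel

variable {q : ℕ}

theorem h8w_R_one : h8w_R q 1 1 := by
  refine ⟨rfl, ?_, ?_, rfl⟩ <;> simp

theorem h8w_R_mul {g g' h h' : SL(2, ℤ)} (hg : h8w_R q g g') (hh : h8w_R q h h') :
    h8w_R q (g * h) (g' * h') := by
  obtain ⟨g00, g01, g10, g11⟩ := hg
  obtain ⟨k00, k01, k10, k11⟩ := hh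
  simp only [h8w_R, Matrix.SpecialLinearGroup.coe_mul, Matrix.mul_apply, Fin.sum_univ_two]
  refine ⟨?_, ?_, ?_, ?_⟩
  · linear_combination (h' 0 0) * g00 + (g 0 0) * k00 + (h' 1 0) * g01 + (g 0 1) * k10
  · linear_combination (h' 0 1) * g00 + (g 0 0) * k01 + (h' 1 1) * g01 + (q * g 0 1) * k11
  · linear_combination (h' 0 0) * g10 + (g 1 0) * k00 + (q * h' 1 0) * g11 + (g 1 1) * k10
  · linear_combination (g' 1 0) * k01 + (h 0 1) * g10 + (h' 1 1) * g11 + (g 1 1) * k11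

theorem h8w_R_inv {g g' : SL(2, ℤ)} (hg : h8w_R q g g') : h8w_R q g⁻¹ g'⁻¹ := by
  obtain ⟨g00, g01, g10, g11⟩ := hg
  simp only [h8w_R, Matrix.SpecialLinearGroup.coe_inv, Matrix.adjugate_fin_two, Matrix.of_apply,
    Matrix.cons_val', Matrix.cons_val_zero, Matrix.cons_val_one, Matrix.empty_val',
    Matrix.cons_val_fin_one]
  refine ⟨g11, ?_, ?_, g00⟩
  · linear_combination -g01
  · linear_combination -g10

theorem h8w_SL_ext {g h : SL(2, ℤ)} (h00 : g 0 0 = h 0 0) (h01 : g 0 1 = h 0 1)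
    (h10 : g 1 0 = h 1 0) (h11 : g 1 1 = h 1 1) : g = h := by
  apply Subtype.ext
  ext i j
  fin_cases i <;> fin_cases j
  · exact h00
  · exact h01
  · exact h10
  · exact h11

theorem h8w_R_fun (hq : q ≠ 0) {g g' g'' : SL(2, ℤ)} (h1 : h8w_R q g g') (h2 : h8w_R q g g'') :
    g' = g'' := by
  obtain ⟨a00, a01, a10, a11⟩ := h1
  obtain ⟨b00, b01, b10, b11⟩ := h2
  have hq' : (q : ℤ) ≠ 0 := by exact_mod_cast hq
  refine h8w_SL_ext (a00.trans b00.symm) (a01.trans b01.symm) ?_ (a11.trans b11.symm)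
  exact mul_left_cancel₀ hq' (a10.trans b10.symm)

theorem h8w_R_inj (hq : q ≠ 0) {g h g' : SL(2, ℤ)} (h1 : h8w_R q g g') (h2 : h8w_R q h g') :
    g = h := by
  obtain ⟨a00, a01, a10, a11⟩ := h1
  obtain ⟨b00, b01, b10, b11⟩ := h2
  have hq' : (q : ℤ) ≠ 0 := by exact_mod_cast hq
  refine h8w_SL_ext (a00.symm.trans b00) ?_ (a10.symm.trans b10) (a11.symm.trans b11)
  exact mul_left_cancel₀ hq' (a01.symm.trans b01)

theorem h8w_R_mem0 {g g' : SL(2, ℤ)} (h : h8w_R q g g') : g ∈ Gamma0 q := by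
  rw [Gamma0_mem, ← h.2.2.1]
  push_cast
  simp

theorem h8w_R_memUp {g g' : SL(2, ℤ)} (h : h8w_R q g g') : g' ∈ h8v_Gup q := by
  rw [h8v_mem_Gup, h.2.1]
  push_cast
  simp

theorem h8w_R_exists {g : SL(2, ℤ)} (hg : g ∈ Gamma0 q) : ∃ g', h8w_R q g g' := by
  rw [Gamma0_mem, ZMod.intCast_zmod_eq_zero_iff_dvd] at hg
  obtain ⟨c, hc⟩ := hg
  have hdet : (!![g 0 0, (q : ℤ) * g 0 1; c, g 1 1] : Matrix (Fin 2) (Fin 2) ℤ).det = 1 := by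
    rw [Matrix.det_fin_two_of]
    have := g.2
    rw [Matrix.det_fin_two, hc] at this
    linear_combination this
  refine ⟨⟨_, hdet⟩, ?_, ?_, ?_, ?_⟩
  · simp
  · simp
  · simp [hc]
  · simp

theorem h8w_R_exists' {g' : SL(2, ℤ)} (hg : g' ∈ h8v_Gup q) :
    ∃ g, h8w_R q g g' := by
  rw [h8v_mem_Gup_iff_dvd] at hg
  obtain ⟨b, hb⟩ := hg
  have hdet : (!![g' 0 0, b; (q : ℤ) * g' 1 0, g' 1 1] : Matrix (Fin 2) (Fin 2) ℤ).det = 1 := by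
    rw [Matrix.det_fin_two_of]
    have := g'.2
    rw [Matrix.det_fin_two, hb] at this
    linear_combination this
  refine ⟨⟨_, hdet⟩, ?_, ?_, ?_, ?_⟩
  · simp
  · simp [hb]
  · simp
  · simp

end Rel

/-! ### Explicit words -/

theorem h8w_coe_T_pow (n : ℕ) : ((sT ^ n : SL(2, ℤ)) : Matrix (Fin 2) (Fin 2) ℤ) = !![1, (n : ℤ); 0, 1] := by
  rw [← zpow_natCast, ModularGroup.coe_T_zpow]

theorem h8w_coe_STS (n : ℕ) :
    ((sS⁻¹ * sT ^ n * sS : SL(2, ℤ)) : Matrix (Fin 2) (Fin 2) ℤ) = !![1, 0; -(n : ℤ), 1] := by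
  rw [Matrix.SpecialLinearGroup.coe_mul, Matrix.SpecialLinearGroup.coe_mul,
    Matrix.SpecialLinearGroup.coe_inv, h8w_coe_T_pow, ModularGroup.coe_S, Matrix.adjugate_fin_two]
  ext i j
  fin_cases i <;> fin_cases j <;> simp [Matrix.mul_apply, Fin.sum_univ_two]

/-- `δ T^m δ⁻¹ = T^{q m}`. -/
theorem h8w_R_T (q m : ℕ) : h8w_R q (sT ^ m) (sT ^ (q * m)) := by
  simp only [h8w_R, h8w_coe_T_pow]
  refine ⟨?_, ?_, ?_, ?_⟩ <;> simp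

/-- `δ (S⁻¹ T^{q m} S) δ⁻¹ = S⁻¹ T^m S`. -/
theorem h8w_R_L (q m : ℕ) : h8w_R q (sS⁻¹ * sT ^ (q * m) * sS) (sS⁻¹ * sT ^ m * sS) := by
  simp only [h8w_R, h8w_coe_STS]
  refine ⟨?_, ?_, ?_, ?_⟩ <;> simp

theorem h8w_trace_T_pow (n : ℕ) :
    ((sT ^ n : SL(2, ℤ)) : Matrix (Fin 2) (Fin 2) ℤ).trace = 2 := by
  rw [h8w_coe_T_pow, Matrix.trace_fin_two]
  simp

theorem h8w_trace_conj (g t : SL(2, ℤ)) :
    ((g⁻¹ * t * g : SL(2, ℤ)) : Matrix (Fin 2) (Fin 2) ℤ).trace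
      = (t : Matrix (Fin 2) (Fin 2) ℤ).trace := by
  rw [Matrix.SpecialLinearGroup.coe_mul, Matrix.trace_mul_comm,
    ← Matrix.SpecialLinearGroup.coe_mul, mul_inv_cancel_left]

theorem h8w_conj_pow {G : Type*} [Group G] (a b : G) (n : ℕ) :
    (a⁻¹ * b * a) ^ n = a⁻¹ * b ^ n * a := by
  have h := @conj_pow G _ n a⁻¹ b
  rwa [inv_inv] at h

/-- If `t` acts trivially on `G ⧸ Γ` then every conjugate of `t` lies in `Γ`. -/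
theorem h8w_mem {G : Type*} [Group G] (Γ : Subgroup G) (t : G)
    (hT : ∀ x' : G ⧸ Γ, t • x' = x') (g : G) : g⁻¹ * t * g ∈ Γ := by
  have h := hT (QuotientGroup.mk g)
  have h' : (QuotientGroup.mk g : G ⧸ Γ) = QuotientGroup.mk (t * g) := h.symm
  rw [mul_assoc]
  exact QuotientGroup.eq.mp h'



section Main

variable {q : ℕ} [Fact q.Prime] (Γ₁ Γ₂ : Subgroup SL(2, ℤ)) (e : Γ₁ ≃* Γ₂)
variable (he : ∀ g : Γ₁, (e g : SL(2, ℤ)) 0 0 = (g : SL(2, ℤ)) 0 0 ∧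
        (e g : SL(2, ℤ)) 0 1 = q * (g : SL(2, ℤ)) 0 1 ∧
        q * (e g : SL(2, ℤ)) 1 0 = (g : SL(2, ℤ)) 1 0 ∧ (e g : SL(2, ℤ)) 1 1 = (g : SL(2, ℤ)) 1 1)

omit [Fact q.Prime] in
include he in
theorem h8w_le_Gup : Γ₂ ≤ h8v_Gup q := by
  intro g' hg'
  obtain ⟨g, hg⟩ := e.surjective ⟨g', hg'⟩
  have h : h8w_R q (g : SL(2, ℤ)) (e g : SL(2, ℤ)) := he g
  have := h8w_R_memUp h
  rw [hg] at this
  exact this

include he in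
/-- Transport of representatives of `Γ₀(q) ⧸ Γ₁` to representatives of `Γ⁰(q) ⧸ Γ₂`. -/
theorem h8w_transport {κ : Type*} (a : κ → SL(2, ℤ)) (ha : ∀ k, a k ∈ Gamma0 q)
    (hinj : ∀ k k', (a k)⁻¹ * a k' ∈ Γ₁ → k = k')
    (hsurj : ∀ g ∈ Gamma0 q, ∃ k, (a k)⁻¹ * g ∈ Γ₁) :
    ∃ b : κ → SL(2, ℤ), (∀ k, h8w_R q (a k) (b k)) ∧ (∀ k, b k ∈ h8v_Gup q) ∧
      (∀ k k', (b k)⁻¹ * b k' ∈ Γ₂ → k = k') ∧ ∀ g ∈ h8v_Gup q, ∃ k, (b k)⁻¹ * g ∈ Γ₂ := by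
  have hq : q ≠ 0 := (Fact.out : q.Prime).ne_zero
  choose b hb using fun k => h8w_R_exists (ha k)
  refine ⟨b, hb, fun k => h8w_R_memUp (hb k), ?_, ?_⟩
  · intro k k' h
    obtain ⟨γ, hγ⟩ := e.surjective ⟨_, h⟩
    have h1 : h8w_R q (γ : SL(2, ℤ)) ((b k)⁻¹ * b k') := by
      have h0 : h8w_R q (γ : SL(2, ℤ)) (e γ : SL(2, ℤ)) := he γ
      rw [hγ] at h0
      exact h0
    have h2 : h8w_R q ((a k)⁻¹ * a k') ((b k)⁻¹ * b k') :=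
      h8w_R_mul (h8w_R_inv (hb k)) (hb k')
    have h3 := h8w_R_inj hq h2 h1
    apply hinj
    rw [h3]; exact γ.2
  · intro g' hg'
    obtain ⟨g, hg⟩ := h8w_R_exists' hg'
    obtain ⟨k, hk⟩ := hsurj g (h8w_R_mem0 hg)
    refine ⟨k, ?_⟩
    have h1 : h8w_R q ((a k)⁻¹ * g) (e ⟨_, hk⟩ : SL(2, ℤ)) := he ⟨_, hk⟩
    have h2 : h8w_R q ((a k)⁻¹ * g) ((b k)⁻¹ * g') := h8w_R_mul (h8w_R_inv (hb k)) hg
    rw [h8w_R_fun hq h2 h1]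
    exact (e ⟨_, hk⟩).2


/-- **[Σ]** the coset-sum identity for `δ = diag(q,1)`. -/
theorem h8w_sum_eq : h6v_SumStatement := by
  intro q _ Γ₁ Γ₂ _ _ _ _ h1 e he η hconj hpow N _ hT1 hT2
  classical
  have hq : q ≠ 0 := (Fact.out : q.Prime).ne_zero
  -- `q ∣ N`
  have hqN : q ∣ N := by
    have hm := h1 (h8w_mem Γ₁ (sT ^ N) hT1 sS)
    rw [Gamma0_mem, h8w_coe_STS] at hm
    simp only [Matrix.of_apply, Matrix.cons_val', Matrix.cons_val_zero, Matrix.cons_val_one,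
      Matrix.empty_val', Matrix.cons_val_fin_one, Int.cast_neg, Int.cast_natCast,
      neg_eq_zero] at hm
    exact (ZMod.natCast_eq_zero_iff _ _).mp hm
  obtain ⟨N', rfl⟩ := hqN
  -- the two functions on `SL(2,ℤ)`
  have hm1 : ∀ g : SL(2, ℤ), g⁻¹ * sT ^ (q * N') * g ∈ Γ₁ := h8w_mem Γ₁ _ hT1
  have hm2 : ∀ g : SL(2, ℤ), g⁻¹ * sT ^ (q * N') * g ∈ Γ₂ := h8w_mem Γ₂ _ hT2
  obtain ⟨φ₁, hφ₁⟩ : ∃ φ₁ : SL(2, ℤ) → ℚ, ∀ g, φ₁ g = η (e ⟨_, hm1 g⟩) := ⟨_, fun _ => rfl⟩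
  obtain ⟨φ₂, hφ₂⟩ : ∃ φ₂ : SL(2, ℤ) → ℚ, ∀ g, φ₂ g = η ⟨_, hm2 g⟩ := ⟨_, fun _ => rfl⟩
  have htr1 : ∀ g : SL(2, ℤ),
      (((e ⟨_, hm1 g⟩ : Γ₂) : SL(2, ℤ)) : Matrix (Fin 2) (Fin 2) ℤ).trace = 2 := by
    intro g
    rw [h6v_trace_e Γ₁ Γ₂ e he]
    show ((g⁻¹ * sT ^ (q * N') * g : SL(2, ℤ)) : Matrix (Fin 2) (Fin 2) ℤ).trace = 2
    rw [h8w_trace_conj, h8w_trace_T_pow]
  have htr2 : ∀ g : SL(2, ℤ),
      (((⟨_, hm2 g⟩ : Γ₂) : SL(2, ℤ)) : Matrix (Fin 2) (Fin 2) ℤ).trace = 2 := by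
    intro g
    show ((g⁻¹ * sT ^ (q * N') * g : SL(2, ℤ)) : Matrix (Fin 2) (Fin 2) ℤ).trace = 2
    rw [h8w_trace_conj, h8w_trace_T_pow]
  -- invariances
  have hr1 : ∀ g, ∀ γ ∈ Γ₁, φ₁ (g * γ) = φ₁ g := by
    intro g γ hγ
    rw [hφ₁, hφ₁]
    have hx : (⟨_, hm1 (g * γ)⟩ : Γ₁) = (⟨γ, hγ⟩ : Γ₁)⁻¹ * ⟨_, hm1 g⟩ * ⟨γ, hγ⟩ := by
      apply Subtype.ext
      show (g * γ)⁻¹ * sT ^ (q * N') * (g * γ) = γ⁻¹ * (g⁻¹ * sT ^ (q * N') * g) * γ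
      group
    rw [hx, map_mul, map_mul, map_inv]
    exact hconj _ _ (htr1 g)
  have hr2 : ∀ g, ∀ γ ∈ Γ₂, φ₂ (g * γ) = φ₂ g := by
    intro g γ hγ
    rw [hφ₂, hφ₂]
    have hx : (⟨_, hm2 (g * γ)⟩ : Γ₂) = (⟨γ, hγ⟩ : Γ₂)⁻¹ * ⟨_, hm2 g⟩ * ⟨γ, hγ⟩ := by
      apply Subtype.ext
      show (g * γ)⁻¹ * sT ^ (q * N') * (g * γ) = γ⁻¹ * (g⁻¹ * sT ^ (q * N') * g) * γ
      group
    rw [hx]
    exact hconj _ _ (htr2 g)
  have hconjT : ∀ g : SL(2, ℤ),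
      (sT * g)⁻¹ * sT ^ (q * N') * (sT * g) = g⁻¹ * sT ^ (q * N') * g := by
    intro g
    have h0 : sT⁻¹ * sT ^ (q * N') * sT = sT ^ (q * N') := by
      rw [mul_assoc, ← pow_succ, pow_succ', inv_mul_cancel_left]
    calc (sT * g)⁻¹ * sT ^ (q * N') * (sT * g)
        = g⁻¹ * (sT⁻¹ * sT ^ (q * N') * sT) * g := by rw [mul_inv_rev]; simp only [mul_assoc]
      _ = g⁻¹ * sT ^ (q * N') * g := by rw [h0]
  have hl1 : ∀ g, φ₁ (sT * g) = φ₁ g := by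
    intro g
    rw [hφ₁, hφ₁]
    have hx : (⟨_, hm1 (sT * g)⟩ : Γ₁) = ⟨_, hm1 g⟩ := Subtype.ext (hconjT g)
    rw [hx]
  have hl2 : ∀ g, φ₂ (sT * g) = φ₂ g := by
    intro g
    rw [hφ₂, hφ₂]
    have hx : (⟨_, hm2 (sT * g)⟩ : Γ₂) = ⟨_, hm2 g⟩ := Subtype.ext (hconjT g)
    rw [hx]
  -- rewrite the two sums
  have hfix1 : ∀ x' : SL(2, ℤ) ⧸ Γ₁, (sT ^ (q * N'))⁻¹ • x' = x' := fun x' => by
    rw [inv_smul_eq_iff, hT1]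
  have hfix2 : ∀ x' : SL(2, ℤ) ⧸ Γ₂, (sT ^ (q * N'))⁻¹ • x' = x' := fun x' => by
    rw [inv_smul_eq_iff, hT2]
  have hs1 : ∀ x' : SL(2, ℤ) ⧸ Γ₁,
      η (e ((h6u_frame Γ₁).cocElem (sT ^ (q * N')) x')) = φ₁ (Quotient.out x') := by
    intro x'
    rw [hφ₁]
    have hx : (h6u_frame Γ₁).cocElem (sT ^ (q * N')) x' = ⟨_, hm1 (Quotient.out x')⟩ := by
      apply Subtype.ext
      show (Quotient.out x')⁻¹ * sT ^ (q * N') * Quotient.out ((sT ^ (q * N'))⁻¹ • x')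
        = (Quotient.out x')⁻¹ * sT ^ (q * N') * Quotient.out x'
      rw [hfix1]
    rw [hx]
  have hs2 : ∀ x' : SL(2, ℤ) ⧸ Γ₂,
      η ((h6u_frame Γ₂).cocElem (sT ^ (q * N')) x') = φ₂ (Quotient.out x') := by
    intro x'
    rw [hφ₂]
    have hx : (h6u_frame Γ₂).cocElem (sT ^ (q * N')) x' = ⟨_, hm2 (Quotient.out x')⟩ := by
      apply Subtype.ext
      show (Quotient.out x')⁻¹ * sT ^ (q * N') * Quotient.out ((sT ^ (q * N'))⁻¹ • x')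
        = (Quotient.out x')⁻¹ * sT ^ (q * N') * Quotient.out x'
      rw [hfix2]
    rw [hx]
  rw [Finset.sum_congr rfl fun x' _ => hs1 x', Finset.sum_congr rfl fun x' _ => hs2 x']
  -- representatives
  obtain ⟨κ, _, a, ha, hainj, hasurj⟩ := h8v_exists_reps Γ₁ (Gamma0 q)
  obtain ⟨b, hab, hb, hbinj, hbsurj⟩ := h8w_transport Γ₁ Γ₂ e he a ha hainj hasurj
  have hle2 : Γ₂ ≤ h8v_Gup q := h8w_le_Gup Γ₁ Γ₂ e he
  rw [h8v_sum_reps Γ₁ (h8v_reps_mul h1 h8v_reps_Gamma0 ha hainj hasurj) φ₁ hr1,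
    h8v_sum_reps Γ₂ (h8v_reps_mul hle2 (h8v_reps_Gup (h8v_Gup q) fun _ => Iff.rfl) hb hbinj
      hbsurj) φ₂ hr2,
    Fintype.sum_prod_type_right, Fintype.sum_prod_type_right]
  refine Finset.sum_congr rfl fun k _ => ?_
  rw [Fintype.sum_option, Fintype.sum_option]
  simp only [h8v_rep0, h8v_rep0up, one_mul]
  have e1 : ∀ j : ZMod q, φ₁ (sT ^ ((ZMod.val j : ℕ) : ℤ) * sS * a k) = φ₁ (sS * a k) := by
    intro j
    rw [mul_assoc]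
    exact h8v_T_zpow_inv φ₁ hl1 _ _
  have e2 : ∀ j : ZMod q, φ₂ (sT ^ ((ZMod.val j : ℕ) : ℤ) * b k) = φ₂ (b k) := fun j =>
    h8v_T_zpow_inv φ₂ hl2 _ _
  rw [Finset.sum_congr rfl fun j _ => e1 j, Finset.sum_congr rfl fun j _ => e2 j,
    Finset.sum_const, Finset.sum_const, Finset.card_univ, ZMod.card, nsmul_eq_mul, nsmul_eq_mul]
  -- the termwise identities
  have hA : φ₁ (a k) = q * φ₂ (b k) := by
    rw [hφ₁, hφ₂, ← hpow _ q (htr2 (b k))]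
    refine congrArg η (Subtype.ext ?_)
    rw [SubmonoidClass.coe_pow]
    show ((e ⟨_, hm1 (a k)⟩ : Γ₂) : SL(2, ℤ)) = ((b k)⁻¹ * sT ^ (q * N') * b k) ^ q
    have hR1 : h8w_R q ((a k)⁻¹ * sT ^ (q * N') * a k) (e ⟨_, hm1 (a k)⟩ : SL(2, ℤ)) :=
      he ⟨_, hm1 (a k)⟩
    have hR2 : h8w_R q ((a k)⁻¹ * sT ^ (q * N') * a k)
        ((b k)⁻¹ * sT ^ (q * (q * N')) * b k) :=
      h8w_R_mul (h8w_R_mul (h8w_R_inv (hab k)) (h8w_R_T q (q * N'))) (hab k)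
    rw [h8w_R_fun hq hR1 hR2, h8w_conj_pow, ← pow_mul, mul_comm q (q * N')]
  have hB : φ₂ (sS * b k) = q * φ₁ (sS * a k) := by
    rw [hφ₁, hφ₂, ← hpow _ q (htr1 (sS * a k))]
    refine congrArg η (Subtype.ext ?_)
    rw [SubmonoidClass.coe_pow]
    show (sS * b k)⁻¹ * sT ^ (q * N') * (sS * b k)
      = ((e ⟨_, hm1 (sS * a k)⟩ : Γ₂) : SL(2, ℤ)) ^ q
    have hR1 : h8w_R q ((sS * a k)⁻¹ * sT ^ (q * N') * (sS * a k))
        (e ⟨_, hm1 (sS * a k)⟩ : SL(2, ℤ)) := he ⟨_, hm1 (sS * a k)⟩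
    have hw : (sS * a k)⁻¹ * sT ^ (q * N') * (sS * a k)
        = (a k)⁻¹ * (sS⁻¹ * sT ^ (q * N') * sS) * a k := by
      rw [mul_inv_rev]; simp only [mul_assoc]
    have hR2 : h8w_R q ((sS * a k)⁻¹ * sT ^ (q * N') * (sS * a k))
        ((b k)⁻¹ * (sS⁻¹ * sT ^ N' * sS) * b k) := by
      rw [hw]
      exact h8w_R_mul (h8w_R_mul (h8w_R_inv (hab k)) (h8w_R_L q N')) (hab k)
    rw [h8w_R_fun hq hR1 hR2, h8w_conj_pow, h8w_conj_pow, ← pow_mul, mul_comm N' q, mul_inv_rev]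
    simp only [mul_assoc]
  rw [hA, hB]
  ring

end Main

end Fermat.Agent.Lib.S41
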