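/-
S41 project (level raising), layer [C] (helper9): contracts (C1) (Chebotarev-type input, helper1)
and (C2) (a prime `ℓ` of good reduction with `p ∣ #W̃(𝔽_ℓ)` has Frobenius elements fixing a nonzero
point of `E[p]`), and the assembly `h9c_nonEis : (C1) → (C2) → h6_NonEisStatement`, using
helper7's (C3) `h7n_exists_stable_line` and `dim E[p] = 2` from `Lib/S13`.
-/
import Mathlib
import Fermat.Prelude.Def_EllipticCurve_FrobeniusTrace
import Fermat.Agent.Lib.S41.Defs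
import Fermat.Agent.Lib.S41.H7NonEisGrp
import Fermat.Agent.Lib.S13.TorsionRank

set_option autoImplicit false

open WeierstrassCurve WeierstrassCurve.Affine WeierstrassCurve.Affine.Point

namespace Fermat.Agent.Lib.S41

open Fermat.Agent.Lib.S13

/-- **(C1)** Chebotarev-type input: the action of any `σ ∈ G_ℚ` on `E[p]` is a power of the action
of a Frobenius element at a prime `ℓ` outside any given finite set. -/
def h9c_C1Statement : Prop :=
  ∀ (E : WeierstrassCurve ℚ) [E.IsElliptic] {p : ℕ}, p.Prime → ∀ (σ : GQ) (S : Finset ℕ),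
    ∃ (ℓ : ℕ) (A : ValuationSubring Qbar) (τ : GQ) (k : ℕ), ℓ.Prime ∧ ℓ ∉ S ∧
      A.LiesOverPrime ℓ ∧ A.IsFrobeniusAt τ ℓ ∧
      ∀ x : Submodule.torsionBy ℤ (E⁄Qbar).Point p, σ • x = (τ ^ k) • x

/-- **(C2)** At a prime `ℓ ∉ {2, 3, p}` of good reduction with `p ∣ #W̃(𝔽_ℓ)`
(i.e. `a_ℓ ≡ 1 + ℓ mod p`), every Frobenius element at `ℓ` fixes a nonzero point of `E[p]`. -/
def h9c_C2Statement : Prop :=
  ∀ (E : WeierstrassCurve ℚ) [E.IsElliptic] {W : WeierstrassCurve ℤ} (_ : W.IsIntegralModelOf E)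
    {p ℓ : ℕ}, p.Prime → ℓ.Prime → ℓ ≠ p → ℓ ≠ 2 → ℓ ≠ 3 → W.IsGoodPrimeFor ℓ →
    (p : ℤ) ∣ W.apOfModel ℓ - (1 + (ℓ : ℤ)) →
    ∀ (A : ValuationSubring Qbar) (τ : GQ), A.LiesOverPrime ℓ → A.IsFrobeniusAt τ ℓ →
      ∃ x : Submodule.torsionBy ℤ (E⁄Qbar).Point p, x ≠ 0 ∧ τ • x = x

/-- The discriminant of an integral model of an elliptic curve is nonzero. -/
theorem h9c_Δ_ne_zero (E : WeierstrassCurve ℚ) [E.IsElliptic] {W : WeierstrassCurve ℤ}
    (hW : W.IsIntegralModelOf E) : W.Δ ≠ 0 := by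
  obtain ⟨C, hC⟩ := hW
  intro h0
  have h1 : (W.map (Int.castRingHom ℚ)).Δ = 0 := by
    rw [WeierstrassCurve.map_Δ, h0, _root_.map_zero]
  rw [← hC, WeierstrassCurve.variableChange_Δ] at h1
  have hE : E.Δ ≠ 0 := (E.isUnit_Δ).ne_zero
  have hu : ((C.u⁻¹ : ℚˣ) : ℚ) ^ 12 ≠ 0 := pow_ne_zero _ (Units.ne_zero _)
  exact (mul_ne_zero hu hE) h1

/-- **(T1) from (C1), (C2), (C3).** -/
theorem h9c_nonEis (h1 : h9c_C1Statement) (h2 : h9c_C2Statement) : h6_NonEisStatement := by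
  intro E _ W hW p hp hp2 hirr S
  by_contra hcon0
  have hcon : ∀ ℓ : ℕ, ℓ.Prime → ℓ ∉ S → W.IsGoodPrimeFor ℓ →
      (p : ℤ) ∣ W.apOfModel ℓ - (1 + (ℓ : ℤ)) := fun ℓ a b c =>
    by_contra fun d => hcon0 ⟨ℓ, a, b, c, d⟩
  have : Fact p.Prime := ⟨hp⟩
  have hΔW : W.Δ ≠ 0 := h9c_Δ_ne_zero E hW
  have hΔE : E.Δ ≠ 0 := (E.isUnit_Δ).ne_zero
  have hrank : Module.finrank (ZMod p) (Submodule.torsionBy ℤ (E⁄Qbar).Point p) = 2 :=
    h9d_finrank_torsion (h9d_complexCount_of_short (h9d_shortCount_of_lattice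
      h3_exists_periodPair_g (fun L n hn => h1_card_torsion L n hn))) E hΔE p hp
  have hfin : Module.Finite (ZMod p) (Submodule.torsionBy ℤ (E⁄Qbar).Point p) :=
    Module.finite_of_finrank_pos (by rw [hrank]; norm_num)
  -- the enlarged excluded set
  set S' : Finset ℕ := S ∪ {2, 3, p} ∪ W.Δ.natAbs.primeFactors with hS'
  have hfix : ∀ σ : GQ, ∃ x : Submodule.torsionBy ℤ (E⁄Qbar).Point p, x ≠ 0 ∧ σ • x = x := by
    intro σ
    obtain ⟨ℓ, A, τ, k, hℓ, hℓS', hA, hτ, hστ⟩ := h1 E hp σ S'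
    have hℓS : ℓ ∉ S := fun h => hℓS' (by simp [hS', h])
    have hℓ2 : ℓ ≠ 2 := fun h => hℓS' (by simp [hS', h])
    have hℓ3 : ℓ ≠ 3 := fun h => hℓS' (by simp [hS', h])
    have hℓp : ℓ ≠ p := fun h => hℓS' (by simp [hS', h])
    have hgood : W.IsGoodPrimeFor ℓ := by
      intro hd
      apply hℓS'
      rw [hS']
      refine Finset.mem_union_right _ (Nat.mem_primeFactors.mpr ⟨hℓ, ?_, ?_⟩)
      · exact Int.natCast_dvd.mp hd
      · simpa using hΔW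
    obtain ⟨x, hx0, hx⟩ := h2 E hW hp hℓ hℓp hℓ2 hℓ3 hgood (hcon ℓ hℓ hℓS hgood) A τ hA hτ
    refine ⟨x, hx0, ?_⟩
    rw [hστ x]
    clear hστ
    induction k with
    | zero => simp
    | succ k ih => rw [pow_succ, mul_smul, hx, ih]
  obtain ⟨N, hN0, hN1, hNst⟩ :=
    h7n_exists_stable_line (p := p) (V := Submodule.torsionBy ℤ (E⁄Qbar).Point p) (G := GQ)
      hrank hfix
  rcases hirr.2 N (fun σ x hx => hNst σ x hx) with h | h
  · exact hN0 h
  · exact hN1 h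

end Fermat.Agent.Lib.S41
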