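import Fermat.Agent.Lib.S41.H6Par

/-!
# Project S41, layer [B], residue formula, step (R3) (helper9)

For cocycles `c, c'` of `SL(2,ℤ)` with values in `X → ℤ` (`X` finite, `-1` acting trivially) which
VANISH at `T`, and ANY function `E : SL(2,ℤ) → ℚ` whose coboundary is the cup product,
`E (g h) = E g + E h + ⟨c g, ρ(g) c' h⟩`, we have `E T = pair(c, c')` and `E (T^N) = N · E T`.
-/

set_option autoImplicit false

open scoped MatrixGroups

namespace Fermat.Agent.Lib.S41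

local notation "sS" => (ModularGroup.S : SL(2, ℤ))
local notation "sT" => (ModularGroup.T : SL(2, ℤ))
local notation "sU" => (h6p_U : SL(2, ℤ))

section R3

variable {X : Type*} [MulAction SL(2, ℤ) X] [Fintype X]
variable (hneg : ∀ x : X, (-1 : SL(2, ℤ)) • x = x)
variable {c c' : SL(2, ℤ) → X → ℤ} (hc : h6c_IsCoc c) (hc' : h6c_IsCoc c')
include hneg hc

omit [Fintype X] in
/-- A cocycle vanishing at `T` takes the same value at `S` and `U`. -/
theorem h9t_cU_eq_cS (hT : c sT = 0) : c sU = c sS := by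
  rw [h6q_cU_eq hneg hc, hT, h6c_rho_zero, add_zero]

omit [Fintype X] in
theorem h9t_rhoS_w : h6c_rho sS (c sS) = -c sS :=
  eq_neg_of_add_eq_zero_right (h6q_cS_anti hneg hc)

omit [Fintype X] in
theorem h9t_rhoUU_w (hT : c sT = 0) :
    h6c_rho sU (h6c_rho sU (c sS)) = -c sS - h6c_rho sU (c sS) := by
  have h := h6q_cU_norm hneg hc
  rw [h9t_cU_eq_cS hneg hc hT, pow_two, h6c_rho_mul h6p_U h6p_U] at h
  have h' := eq_neg_of_add_eq_zero_right h
  rw [h']; abel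

omit [Fintype X] in
theorem h9t_c_Sinv : c sS⁻¹ = c sS := by
  rw [hc.inv, h6q_rhoS_inv hneg, h9t_rhoS_w hneg hc, neg_neg]

include hc'

/-- `6 · pair(c, c') = -⟨w, w'⟩ - 2⟨w, ρ(U) w'⟩` for `w = c S`, `w' = c' S`. -/
theorem h9t_six_pair (hT : c sT = 0) (hT' : c' sT = 0) :
    6 * h6q_pair c c'
      = -h6c_dot (c sS) (c' sS) - 2 * h6c_dot (c sS) (h6c_rho sU (c' sS)) := by
  obtain ⟨a, ha⟩ := h6q_exists_a hneg hc'
  obtain ⟨b, hb⟩ := h6q_exists_b hneg hc'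
  have hv : c sT = (0 : X → ℤ) - h6c_rho sT 0 := by rw [hT, h6c_rho_zero, sub_zero]
  have hp' : h6q_IsPar c' := ⟨0, by rw [hT', h6c_rho_zero, sub_zero]⟩
  rw [h6q_pair_eq hneg hc hc' hp' hv ha hb]
  have hw : h6q_w c 0 = c sS := by
    unfold h6q_w
    rw [h6c_rho_zero, sub_zero, sub_zero]
  unfold h6q_val
  rw [h9t_cU_eq_cS hneg hc' hT'] at hb
  -- the `S`-part
  have hzS : h6c_rho sS (a + h6c_rho sS a) = a + h6c_rho sS a := by
    rw [h6c_rho_add, h6q_rhoS_rhoS hneg, add_comm]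
  have h1 := h6q_w_dot_invS hneg hc 0 (a + h6c_rho sS a) hzS
  -- the `U`-part
  have hzU : h6c_rho sU (b + h6c_rho sU b + h6c_rho sU (h6c_rho sU b))
      = b + h6c_rho sU b + h6c_rho sU (h6c_rho sU b) := by
    rw [h6c_rho_add, h6c_rho_add, h6q_rhoU_cube hneg]; abel
  have h2 := h6q_w_dot_invU hneg hc hv _ hzU
  rw [hw] at h1 h2 ⊢
  obtain ⟨w', hw'⟩ : ∃ w' : X → ℤ, w' = c' sS := ⟨_, rfl⟩
  rw [← hw'] at ha hb ⊢
  have f1 : h6c_dot (c sS) w' = h6c_dot (c sS) a - h6c_dot (c sS) (h6c_rho sS a) := by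
    rw [ha, h6c_dot_sub_right]
  have f3 : h6c_dot (c sS) w' = h6c_dot (c sS) b - h6c_dot (c sS) (h6c_rho sU b) := by
    rw [hb, h6c_dot_sub_right]
  have f4 : h6c_dot (c sS) (h6c_rho sU w')
      = h6c_dot (c sS) (h6c_rho sU b) - h6c_dot (c sS) (h6c_rho sU (h6c_rho sU b)) := by
    rw [hb, h6c_rho_sub, h6c_dot_sub_right]
  rw [h6c_dot_add_right] at h1
  rw [h6c_dot_add_right, h6c_dot_add_right] at h2
  rw [h6c_dot_sub_right]
  linarith

/-- **(R3)** -/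
theorem h9t_E_T (hT : c sT = 0) (hT' : c' sT = 0) (E : SL(2, ℤ) → ℚ)
    (hE : ∀ g h, E (g * h) = E g + E h + ((h6c_dot (c g) (h6c_rho g (c' h)) : ℤ) : ℚ)) :
    E sT = ((h6q_pair c c' : ℤ) : ℚ) ∧ ∀ N : ℕ, E (sT ^ N) = N * E sT := by
  -- abbreviations
  obtain ⟨w, hw⟩ : ∃ w : X → ℤ, w = c sS := ⟨_, rfl⟩
  obtain ⟨w', hw'⟩ : ∃ w' : X → ℤ, w' = c' sS := ⟨_, rfl⟩
  have hcU : c sU = w := by rw [hw]; exact h9t_cU_eq_cS hneg hc hT
  have hcU' : c' sU = w' := by rw [hw']; exact h9t_cU_eq_cS hneg hc' hT'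
  have hSw' : h6c_rho sS w' = -w' := by rw [hw']; exact h9t_rhoS_w hneg hc'
  have hUUw' : h6c_rho sU (h6c_rho sU w') = -w' - h6c_rho sU w' := by
    rw [hw']; exact h9t_rhoUU_w hneg hc' hT'
  have hcSi : c sS⁻¹ = w := by rw [hw]; exact h9t_c_Sinv hneg hc
  have hcSi' : c' sS⁻¹ = w' := by rw [hw']; exact h9t_c_Sinv hneg hc'
  -- `E 1 = 0`
  have hE1 : E 1 = 0 := by
    have h := hE 1 1
    rw [mul_one, hc.one, h6c_dot_zero_left] at h
    simp only [Int.cast_zero, add_zero] at h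
    linarith
  -- `E (-1) = 0`
  have hEneg : E (-1) = 0 := by
    have h := hE (-1) (-1)
    rw [neg_mul_neg, mul_one, hE1, h6q_c_neg_one hneg hc, h6c_dot_zero_left] at h
    simp only [Int.cast_zero, add_zero] at h
    linarith
  -- `E S`
  have hES : E sS = (1 / 2 : ℚ) * ((h6c_dot w w' : ℤ) : ℚ) := by
    have h := hE sS sS
    rw [← pow_two, h6p_S_sq, hEneg, ← hw, ← hw', hSw', h6c_dot_neg_right] at h
    push_cast at h
    linarith
  -- `E S⁻¹`
  have hESi : E sS⁻¹ = (1 / 2 : ℚ) * ((h6c_dot w w' : ℤ) : ℚ) := by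
    have h := hE sS sS⁻¹
    rw [mul_inv_cancel, hE1, hcSi', ← hw, hSw', h6c_dot_neg_right, hES] at h
    push_cast at h
    linarith
  -- `E U`
  have hEU : E sU = (1 / 3 : ℚ) * (((h6c_dot w w' : ℤ) : ℚ)
      - ((h6c_dot w (h6c_rho sU w') : ℤ) : ℚ)) := by
    have h1 := hE sU sU
    have h2 := hE sU (sU * sU)
    have h3 : sU * (sU * sU) = -1 := by
      have h := h6p_U_cube
      rw [pow_succ', pow_two] at h
      exact h
    rw [h3, hEneg, hcU, hc' sU sU, hcU', h6c_rho_add, hUUw', h1, hcU, hcU'] at h2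
    have e : h6c_rho sU w' + (-w' - h6c_rho sU w') = -w' := by abel
    rw [e, h6c_dot_neg_right] at h2
    push_cast at h2
    linarith
  -- `E T`
  have hET : E sT = -(1 / 6 : ℚ) * ((h6c_dot w w' : ℤ) : ℚ)
      - (1 / 3 : ℚ) * ((h6c_dot w (h6c_rho sU w') : ℤ) : ℚ) := by
    have h := hE sS⁻¹ sU
    rw [← h6q_T_eq, hcSi, hcU', h6q_rhoS_inv hneg, hSw', h6c_dot_neg_right, hESi, hEU] at h
    push_cast at h
    linarith
  refine ⟨?_, ?_⟩
  · have h6 := h9t_six_pair hneg hc hc' hT hT'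
    rw [← hw, ← hw'] at h6
    have h6' : (6 : ℚ) * ((h6q_pair c c' : ℤ) : ℚ)
        = -((h6c_dot w w' : ℤ) : ℚ) - 2 * ((h6c_dot w (h6c_rho sU w') : ℤ) : ℚ) := by
      exact_mod_cast h6
    rw [hET]
    linarith
  · intro N
    induction N with
    | zero => simp [hE1]
    | succ N ih =>
      have hcN : c (sT ^ N) = 0 := by
        rw [hc.pow, hT]
        simp
      have h := hE (sT ^ N) sT
      rw [hcN, h6c_dot_zero_left, ih] at h
      rw [pow_succ, h]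
      push_cast
      ring

end R3

section Frame

variable {X : Type*} [MulAction SL(2, ℤ) X] [Fintype X]
variable (F : h6c_Frame SL(2, ℤ) X) (x y : Additive F.Γ →+ ℤ) (η : F.Γ → ℚ)

/-- **(R1)** the coset sum `E g = ∑ ξ, η (cocElem g ξ)` trivialises the cup product. -/
theorem h9t_E_mul
    (hη : ∀ γ γ' : F.Γ, η (γ * γ') = η γ + η γ'
      + (x (Additive.ofMul γ) : ℚ) * (y (Additive.ofMul γ') : ℚ)) (g h : SL(2, ℤ)) :
    ∑ ξ, η (F.cocElem (g * h) ξ) = ∑ ξ, η (F.cocElem g ξ) + ∑ ξ, η (F.cocElem h ξ)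
      + ((h6c_dot (F.coc x g) (h6c_rho g (F.coc y h)) : ℤ) : ℚ) := by
  have h1 : ∑ ξ, η (F.cocElem h (g⁻¹ • ξ)) = ∑ ξ, η (F.cocElem h ξ) :=
    Equiv.sum_comp (MulAction.toPerm g⁻¹) (fun ξ => η (F.cocElem h ξ))
  unfold h6c_dot
  push_cast
  rw [← h1, ← Finset.sum_add_distrib, ← Finset.sum_add_distrib]
  refine Finset.sum_congr rfl fun ξ _ => ?_
  rw [F.cocElem_mul, hη]
  rfl

variable (hneg : ∀ x : X, (-1 : SL(2, ℤ)) • x = x)
include hneg

/-- **Residue formula for a `T`-adapted frame**: if the Shapiro cocycles of `x` and `y` vanish at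
`T` then `∑ ξ, η (cocElem (T^N) ξ) = N · P(x, y)`. -/
theorem h9t_residue_adapted (hx0 : F.coc x sT = 0) (hy0 : F.coc y sT = 0)
    (hη : ∀ γ γ' : F.Γ, η (γ * γ') = η γ + η γ'
      + (x (Additive.ofMul γ) : ℚ) * (y (Additive.ofMul γ') : ℚ)) (N : ℕ) :
    ∑ ξ, η (F.cocElem (sT ^ N) ξ) = N * ((h6q_P F x y : ℤ) : ℚ) := by
  obtain ⟨h1, h2⟩ := h9t_E_T hneg (F.coc_isCoc x) (F.coc_isCoc y) hx0 hy0
    (fun g => ∑ ξ, η (F.cocElem g ξ)) (fun g h => h9t_E_mul F x y η hη g h)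
  have h3 := h2 N
  rw [h1] at h3
  exact h3

end Frame

end Fermat.Agent.Lib.S41
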