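import Fermat.Agent.Lib.S41.H2Skew

/-!
# Project S41, layer [B]: the abstract residue formula

Owner: lead.  `X` a finite `SL(2,ℤ)`-set on which `-1` acts trivially, `c, c'` two `T`-parabolic
cocycles with values in `X → ℤ`, and `E : SL(2,ℤ) → ℚ` a trivialisation of their cup product,
`E (g h) = E g + E h + ⟨c g, ρ(g) c' h⟩`.  If `T ^ N` acts trivially on `X` then
`E (T ^ N) = N · h6q_pair c c'` (`l0r_res_abstract`).
-/

set_option autoImplicit false

open scoped MatrixGroups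
open ModularCurve.Period

namespace Fermat.Agent.Lib.S41

local notation "sS" => (ModularGroup.S : SL(2, ℤ))
local notation "sT" => (ModularGroup.T : SL(2, ℤ))
local notation "sU" => (h6p_U : SL(2, ℤ))

section Res

variable {X : Type*} [MulAction SL(2, ℤ) X] [Fintype X]

/-- The Heisenberg relation: `E` trivialises the cup product of `c` and `c'`. -/
def l0r_IsTriv (c c' : SL(2, ℤ) → X → ℤ) (E : SL(2, ℤ) → ℚ) : Prop :=
  ∀ g h, E (g * h) = E g + E h + ((h6c_dot (c g) (h6c_rho g (c' h)) : ℤ) : ℚ)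

variable (hneg : ∀ x : X, (-1 : SL(2, ℤ)) • x = x)
include hneg

/-- The normalised case `c T = c' T = 0`: `E T = pair`. -/
theorem l0r_norm_T {c c' : SL(2, ℤ) → X → ℤ} (hc : h6c_IsCoc c) (hc' : h6c_IsCoc c')
    (hcT : c sT = 0) (hcT' : c' sT = 0) (E : SL(2, ℤ) → ℚ) (hE : l0r_IsTriv c c' E) :
    E sT = ((h6q_pair c c' : ℤ) : ℚ) := by
  obtain ⟨w, hw⟩ : ∃ w : X → ℤ, w = c sS := ⟨_, rfl⟩
  obtain ⟨w', hw'⟩ : ∃ w' : X → ℤ, w' = c' sS := ⟨_, rfl⟩
  have hcU : c sU = w := by rw [h6q_cU_eq hneg hc, hcT, h6c_rho_zero, add_zero, hw]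
  have hcU' : c' sU = w' := by rw [h6q_cU_eq hneg hc', hcT', h6c_rho_zero, add_zero, hw']
  have hwS : h6c_rho sS w = -w := by
    have := h6q_cS_anti hneg hc
    rw [← hw] at this
    exact eq_neg_of_add_eq_zero_right this
  have hwS' : h6c_rho sS w' = -w' := by
    have := h6q_cS_anti hneg hc'
    rw [← hw'] at this
    exact eq_neg_of_add_eq_zero_right this
  have hnU' : h6c_rho sU (h6c_rho sU w') = -w' - h6c_rho sU w' := by
    have := h6q_cU_norm hneg hc'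
    rw [hcU', pow_two, h6c_rho_mul sU sU] at this
    have h2 : h6c_rho sU (h6c_rho sU w') = -(w' + h6c_rho sU w') :=
      eq_neg_of_add_eq_zero_right this
    rw [h2]; abel
  -- values of `E`
  have E1 : E 1 = 0 := by
    have := hE 1 1
    rw [mul_one, hc.one, h6c_dot_zero_left] at this
    push_cast at this
    linarith
  have Eneg : E (-1) = 0 := by
    have := hE (-1) (-1)
    rw [neg_mul_neg, mul_one, E1, h6q_c_neg_one hneg hc, h6c_dot_zero_left] at this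
    push_cast at this
    linarith
  have ES : 2 * E sS = ((h6c_dot w w' : ℤ) : ℚ) := by
    have := hE sS sS
    rw [← pow_two, h6p_S_sq, Eneg, ← hw, ← hw', hwS', h6c_dot_neg_right] at this
    push_cast at this
    linarith
  have ESinv : E sS⁻¹ = -E sS + ((h6c_dot w w' : ℤ) : ℚ) := by
    have := hE sS⁻¹ sS
    rw [inv_mul_cancel, E1, hc.inv, ← hw, ← hw', h6c_dot_neg_left, h6c_dot_rho] at this
    push_cast at this
    linarith
  have EUU : E (sU * sU) = 2 * E sU + ((h6c_dot w (h6c_rho sU w') : ℤ) : ℚ) := by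
    have := hE sU sU
    rw [hcU, hcU'] at this
    linarith
  have EU : 3 * E sU + 2 * ((h6c_dot w (h6c_rho sU w') : ℤ) : ℚ)
      + ((h6c_dot w (h6c_rho sU (h6c_rho sU w')) : ℤ) : ℚ) = 0 := by
    have h3 := hE (sU * sU) sU
    have hcube : sU * sU * sU = -1 := by
      rw [← pow_two, ← pow_succ]; exact h6p_U_cube
    rw [hcube, Eneg, hc sU sU, hcU, hcU', h6c_rho_mul sU sU, h6c_dot_add_left, h6c_dot_rho, EUU] at h3
    push_cast at h3
    linarith
  have ET : E sT = E sS⁻¹ + E sU - ((h6c_dot w w' : ℤ) : ℚ) := by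
    have h4 := hE sS⁻¹ sU
    rw [← h6q_T_eq, hc.inv, ← hw, hcU', h6c_dot_neg_left, h6c_dot_rho] at h4
    push_cast at h4
    linarith
  -- the pairing
  obtain ⟨a', ha'⟩ := h6q_exists_a hneg hc'
  obtain ⟨b', hb'⟩ := h6q_exists_b hneg hc'
  have hv : c sT = (0 : X → ℤ) - h6c_rho sT 0 := by rw [hcT, h6c_rho_zero, sub_zero]
  have hv' : c' sT = (0 : X → ℤ) - h6c_rho sT 0 := by rw [hcT', h6c_rho_zero, sub_zero]
  have hpair := h6q_pair_eq hneg hc hc' ⟨0, hv'⟩ hv ha' hb'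
  have hsix := h2k_six hneg hc hc' hv hv' ha' hb'
  have hw0 : h6q_w c 0 = w := by
    unfold h6q_w; rw [h6c_rho_zero, sub_zero, sub_zero, hw]
  have hw0' : h6q_w c' 0 = w' := by
    unfold h6q_w; rw [h6c_rho_zero, sub_zero, sub_zero, hw']
  rw [hw0, hw0', hnU', h6c_dot_sub_right, h6c_dot_neg_right] at hsix
  rw [hnU', h6c_dot_sub_right, h6c_dot_neg_right] at EU
  rw [hpair]
  have hsixQ : (6 : ℚ) * ((h6q_val c 0 a' b' : ℤ) : ℚ)
      = ((h6c_dot w w' : ℤ) : ℚ) + 2 * (-((h6c_dot w w' : ℤ) : ℚ)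
        - ((h6c_dot w (h6c_rho sU w') : ℤ) : ℚ)) := by
    have := congrArg (Int.cast : ℤ → ℚ) hsix
    push_cast at this
    linarith
  push_cast at EU
  linarith

omit hneg in
/-- In the normalised case `E (T ^ k) = k · E T`. -/
theorem l0r_norm_pow {c c' : SL(2, ℤ) → X → ℤ} (hc : h6c_IsCoc c)
    (hcT : c sT = 0) (E : SL(2, ℤ) → ℚ) (hE : l0r_IsTriv c c' E) (k : ℕ) :
    E (sT ^ k) = (k : ℚ) * E sT := by
  have hcTk : ∀ k : ℕ, c (sT ^ k) = 0 := by
    intro k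
    rw [h6c_IsCoc.pow hc]
    refine Finset.sum_eq_zero fun j _ => ?_
    rw [hcT, h6c_rho_zero]
  have E1 : E 1 = 0 := by
    have := hE 1 1
    rw [mul_one, hc.one, h6c_dot_zero_left] at this
    push_cast at this
    linarith
  induction k with
  | zero => rw [pow_zero, E1]; simp
  | succ k ih =>
    have := hE (sT ^ k) sT
    rw [← pow_succ, hcTk k, h6c_dot_zero_left, ih] at this
    rw [this]
    push_cast
    ring

omit hneg in
/-- Change of the left cocycle by a coboundary. -/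
theorem l0r_triv_cob_left {c c' : SL(2, ℤ) → X → ℤ} (hc' : h6c_IsCoc c')
    (E : SL(2, ℤ) → ℚ) (hE : l0r_IsTriv c c' E) (f : X → ℤ) :
    l0r_IsTriv (fun g => c g + h6c_cob f g) c'
      (fun g => E g + ((h6c_dot f (c' g) : ℤ) : ℚ)) := by
  intro g h
  show E (g * h) + ((h6c_dot f (c' (g * h)) : ℤ) : ℚ)
    = E g + ((h6c_dot f (c' g) : ℤ) : ℚ) + (E h + ((h6c_dot f (c' h) : ℤ) : ℚ))
      + ((h6c_dot (c g + (f - h6c_rho g f)) (h6c_rho g (c' h)) : ℤ) : ℚ)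
  rw [hE g h, hc' g h, h6c_dot_add_right, h6c_dot_add_left, h6c_dot_sub_left, h6c_dot_rho]
  push_cast
  ring

omit hneg in
/-- Change of the right cocycle by a coboundary. -/
theorem l0r_triv_cob_right {c c' : SL(2, ℤ) → X → ℤ} (hc : h6c_IsCoc c)
    (E : SL(2, ℤ) → ℚ) (hE : l0r_IsTriv c c' E) (f : X → ℤ) :
    l0r_IsTriv c (fun g => c' g + h6c_cob f g)
      (fun g => E g - ((h6c_dot (c g) (h6c_rho g f) : ℤ) : ℚ)) := by
  intro g h
  show E (g * h) - ((h6c_dot (c (g * h)) (h6c_rho (g * h) f) : ℤ) : ℚ)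
    = E g - ((h6c_dot (c g) (h6c_rho g f) : ℤ) : ℚ)
      + (E h - ((h6c_dot (c h) (h6c_rho h f) : ℤ) : ℚ))
      + ((h6c_dot (c g) (h6c_rho g (c' h + (f - h6c_rho h f))) : ℤ) : ℚ)
  rw [hE g h, hc g h, h6c_dot_add_left, h6c_rho_add, h6c_rho_sub, h6c_dot_add_right,
    h6c_dot_sub_right, h6c_rho_mul g h, h6c_dot_rho]
  push_cast
  ring

/-- **Abstract residue formula.** -/
theorem l0r_res_abstract {c c' : SL(2, ℤ) → X → ℤ} (hc : h6c_IsCoc c) (hc' : h6c_IsCoc c')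
    (hp : h6q_IsPar c) (hp' : h6q_IsPar c') (E : SL(2, ℤ) → ℚ) (hE : l0r_IsTriv c c' E)
    (N : ℕ) (hN : ∀ x : X, sT ^ N • x = x) :
    E (sT ^ N) = (N : ℚ) * ((h6q_pair c c' : ℤ) : ℚ) := by
  obtain ⟨v, hv⟩ := hp
  obtain ⟨v', hv'⟩ := hp'
  -- normalise the left cocycle
  set c₁ : SL(2, ℤ) → X → ℤ := fun g => c g + h6c_cob (-v) g with hc₁
  have hc₁coc : h6c_IsCoc c₁ := hc.add (h6c_cob_isCoc (-v))
  set E₁ : SL(2, ℤ) → ℚ := fun g => E g + ((h6c_dot (-v) (c' g) : ℤ) : ℚ) with hE₁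
  have hE₁triv : l0r_IsTriv c₁ c' E₁ := l0r_triv_cob_left hc' E hE (-v)
  -- normalise the right cocycle
  set c₂ : SL(2, ℤ) → X → ℤ := fun g => c' g + h6c_cob (-v') g with hc₂
  have hc₂coc : h6c_IsCoc c₂ := hc'.add (h6c_cob_isCoc (-v'))
  set E₂ : SL(2, ℤ) → ℚ := fun g => E₁ g - ((h6c_dot (c₁ g) (h6c_rho g (-v')) : ℤ) : ℚ) with hE₂
  have hE₂triv : l0r_IsTriv c₁ c₂ E₂ := l0r_triv_cob_right hc₁coc E₁ hE₁triv (-v')
  have hc₁T : c₁ sT = 0 := by
    show c sT + (-v - h6c_rho sT (-v)) = 0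
    rw [hv, h6c_rho_neg]; abel
  have hc₂T : c₂ sT = 0 := by
    show c' sT + (-v' - h6c_rho sT (-v')) = 0
    rw [hv', h6c_rho_neg]; abel
  -- the normalised formula
  have h1 := l0r_norm_pow (c' := c₂) hc₁coc hc₁T E₂ hE₂triv N
  have h2 := l0r_norm_T hneg hc₁coc hc₂coc hc₁T hc₂T E₂ hE₂triv
  -- the pairing is unchanged
  have hp₁ : h6q_IsPar c₁ := ⟨0, by rw [hc₁T, h6c_rho_zero, sub_zero]⟩
  have h3 : h6q_pair c₁ c₂ = h6q_pair c c' := by
    rw [h6q_pair_cob_right hneg hc₁coc hc' hp₁ ⟨v', hv'⟩ (-v'),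
      h6q_pair_cob_left hneg hc hc' ⟨v, hv⟩ ⟨v', hv'⟩ (-v)]
  -- the corrections vanish at `T ^ N`
  have hρN : ∀ u : X → ℤ, h6c_rho (sT ^ N) u = u := fun u => h6c_rho_of_triv _ hN u
  have h4 : c' (sT ^ N) = 0 := by
    have := h6r_coc_T_zpow hneg hc' hv' (N : ℤ)
    rw [zpow_natCast, hρN, sub_self] at this
    exact this
  have h5 : c₁ (sT ^ N) = 0 := by
    have h0 : c₁ sT = (0 : X → ℤ) - h6c_rho sT 0 := by rw [hc₁T, h6c_rho_zero, sub_zero]
    have := h6r_coc_T_zpow hneg hc₁coc h0 (N : ℤ)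
    rw [zpow_natCast, hρN, sub_self] at this
    exact this
  have h6 : E₂ (sT ^ N) = E (sT ^ N) := by
    show E (sT ^ N) + ((h6c_dot (-v) (c' (sT ^ N)) : ℤ) : ℚ)
      - ((h6c_dot (c₁ (sT ^ N)) (h6c_rho (sT ^ N) (-v')) : ℤ) : ℚ) = E (sT ^ N)
    rw [h4, h5, h6c_dot_zero_right, h6c_dot_zero_left]
    simp
  rw [← h6, h1, h2, h3]

end Res

end Fermat.Agent.Lib.S41
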