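import Mathlib
import Fermat.Agent.Lib.S41.T2Assembly
import Fermat.Agent.Lib.S41.H2F0b

/-!
# Project S41: discharging the contracts of `T2Assembly`

Owner: lead.
* `l0_iharaLat : l0_IharaLatStatement` from helper2's `h2f_ihara_lattice`;
* `l0_F2_of_fact` : helper3's F2 shape (with `[Fact ℓ.Prime]` binders) ⇒ `l0_F2Statement`.
-/

set_option autoImplicit false

open CongruenceSubgroup ModularCurve.Period
open scoped MatrixGroups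

namespace Fermat.Agent.Lib.S41

theorem l0_iharaLat : l0_IharaLatStatement := by
  intro p N q _ hp hp2 hN hqN hqp
  obtain ⟨M₀, hM₀, H⟩ := h2f_ihara_lattice (q := q) hp hp2 hN hqN hqp
  refine ⟨M₀, hM₀, ?_⟩
  intro ℓ hℓ hℓN hℓq hℓM hK x y hxy
  exact @H ℓ ⟨hℓ⟩ hℓN hℓq hℓM hK x y hxy

/-- helper3's shape of (F2). -/
def l0_F2FactStatement : Prop :=
  ∀ {p N q : ℕ} [NeZero N] [Fact q.Prime] (_ : p.Prime) (hqN : ¬ q ∣ N)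
    (f : CuspForm (Gamma0 N) 2) (𝔪 : Ideal (integralClosure ℤ ℂ)) (_ : f.IsNormalizedEigenform)
    (_ : 𝔪.IsMaximal) (_ : (p : integralClosure ℤ ℂ) ∈ 𝔪) (a : ℕ → ℤ) (G : Set ℕ)
    (_ : ∀ ℓ ∈ G, ∃ c : integralClosure ℤ ℂ, (c : ℂ) = ModularFormClass.qCoeff f ℓ ∧
        c - ((a ℓ : ℤ) : integralClosure ℤ ℂ) ∈ 𝔪)
    (_ : ∃ c : integralClosure ℤ ℂ, (c : ℂ) = ModularFormClass.qCoeff f q ∧
        c ^ 2 - ((q : integralClosure ℤ ℂ) + 1) ^ 2 ∈ 𝔪),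
    ∃ x : parabolicHoms ℤ (Gamma0 N) ℤ, (¬ ∃ x', x = (p : ℤ) • x') ∧
      (∀ ℓ ∈ G, ∀ [Fact ℓ.Prime] (hℓN : ¬ ℓ ∣ N), ∃ x', h5l_T N ℓ hℓN x - a ℓ • x = (p : ℤ) • x') ∧
      ∃ ε : ℤ, (ε = 1 ∨ ε = -1) ∧
        ∃ x', h5l_T N q hqN x - (ε * ((q : ℤ) + 1)) • x = (p : ℤ) • x'

theorem l0_F2_of_fact (h : l0_F2FactStatement) : l0_F2Statement := by
  intro p N q' _ hp hN hq'N f 𝔪 hf hmax hpm a G hG hcong hLR
  have : NeZero N := ⟨hN.ne'⟩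
  obtain ⟨x, hx, hxeig, ε, hε, hT⟩ := h (q := q') hp hq'N f 𝔪 hf hmax hpm a G hcong hLR
  refine ⟨x, hx, fun ℓ hℓ => ?_, ε, hε, hT⟩
  exact @hxeig ℓ hℓ ⟨(hG ℓ hℓ).1⟩ (hG ℓ hℓ).2

end Fermat.Agent.Lib.S41
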