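import Mathlib
import Fermat.Agent.Lib.S41.T2Bridge
import Fermat.Agent.Lib.S41.H3F2

/-!
# Project S41: the statement from the two remaining contracts

Owner: lead.  `l0_s41_of_B_T1 : l0_BStatement → h6b_NonEisStatement → (S41 verbatim)`.
-/

set_option autoImplicit false

open CongruenceSubgroup ModularCurve.Period
open scoped MatrixGroups

namespace Fermat.Agent.Lib.S41

theorem l0_F2 : l0_F2Statement :=
  l0_F2_of_fact (fun hp hqN f 𝔪 hf hmax hpm a G hcong hLR =>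
    h3f_F2 hp hqN f 𝔪 hf hmax hpm a G hcong hLR)

/-- [T2′] from layer [B] alone. -/
theorem l0_T2_of_B (hB : l0_BStatement) : h6b_ModLevelRaiseStatement :=
  l0_T2_of_contracts hB l0_iharaLat l0_F2

open WeierstrassCurve WeierstrassCurve.Affine WeierstrassCurve.Affine.Point in
/-- S41 from [B] and [T1′]. -/
theorem l0_s41_of_B_T1 (hB : l0_BStatement) (hT1 : h6b_NonEisStatement)
    (E : WeierstrassCurve ℚ) [E.IsElliptic] {W : WeierstrassCurve ℤ} (hW : W.IsIntegralModelOf E)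
    {p N q' : ℕ} (hp : p.Prime) (hp2 : p ≠ 2) (hN : 0 < N) (hq' : q'.Prime) (hq'N : ¬ q' ∣ N)
    (hq'p : q' ≠ p)
    (hirr : GaloisRepIsIrreducible (K := AlgebraicClosure ℚ) ℚ E p)
    (f : CuspForm (CongruenceSubgroup.Gamma0 N) 2) (𝔪 : Ideal (integralClosure ℤ ℂ))
    (hf : f.IsNormalizedEigenform) (hmax : 𝔪.IsMaximal) (hpm : (p : integralClosure ℤ ℂ) ∈ 𝔪)
    (hcong : ∀ ℓ : ℕ, ℓ.Prime → W.IsGoodPrimeFor ℓ → ¬ ℓ ∣ N → ℓ ≠ p →
      ∃ a : integralClosure ℤ ℂ, (a : ℂ) = ModularFormClass.qCoeff f ℓ ∧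
        a - ((W.apOfModel ℓ : ℤ) : integralClosure ℤ ℂ) ∈ 𝔪)
    (hLR : ∃ a : integralClosure ℤ ℂ, (a : ℂ) = ModularFormClass.qCoeff f q' ∧
      a ^ 2 - ((q' : integralClosure ℤ ℂ) + 1) ^ 2 ∈ 𝔪) :
    ∃ (g : CuspForm (CongruenceSubgroup.Gamma0 (N * q')) 2) (𝔪' : Ideal (integralClosure ℤ ℂ)),
      g.IsNormalizedEigenform ∧ 𝔪'.IsMaximal ∧ (p : integralClosure ℤ ℂ) ∈ 𝔪' ∧
      (∀ ℓ : ℕ, ℓ.Prime → W.IsGoodPrimeFor ℓ → ¬ ℓ ∣ N * q' → ℓ ≠ p →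
        ∃ a : integralClosure ℤ ℂ, (a : ℂ) = ModularFormClass.qCoeff g ℓ ∧
          a - ((W.apOfModel ℓ : ℤ) : integralClosure ℤ ℂ) ∈ 𝔪') ∧
      g.IsNewAt q' :=
  h6b_s41_of_contracts hT1 (l0_T2_of_B hB) E hW hp hp2 hN hq' hq'N hq'p hirr f 𝔪 hf hmax hpm
    hcong hLR

end Fermat.Agent.Lib.S41
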