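import Mathlib
import Fermat.Agent.Lib.S41.S41Pre
import Fermat.Agent.Lib.S41.H6Iso
import Fermat.Agent.Lib.S41.H2IBeta

/-!
# Project S41: the statement from the last open node, the coset-sum identity [Σ]

Owner: lead.  `l0_iso_of_sum : h6v_SumStatement → h2j_IsoStatement`,
`l0_betaAdj_of_sum : h6v_SumStatement → h5y_BetaAdjStatement`,
`l0_s41_of_sum : h6v_SumStatement → (S41 verbatim)`.
-/

set_option autoImplicit false

open CongruenceSubgroup ModularCurve.Period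
open scoped MatrixGroups

namespace Fermat.Agent.Lib.S41

theorem l0_iso_of_sum (hsum : h6v_SumStatement) : h2j_IsoStatement := by
  intro q _ Γ₁ Γ₂ _ _ h1 hneg1 hneg2 e he x y hx hy
  exact h6v_conj_isometry_of_sum Γ₁ Γ₂ hneg1 hneg2 h1 e he hsum x y hx hy

theorem l0_betaAdj_of_sum (hsum : h6v_SumStatement) : h5y_BetaAdjStatement := by
  intro M q _ hqM _ _ x z
  exact h2j_beta_adj hqM (h2j_isoAt_of_statement hqM (l0_iso_of_sum hsum)) x z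

open WeierstrassCurve WeierstrassCurve.Affine WeierstrassCurve.Affine.Point in
/-- S41 from [Σ] alone. -/
theorem l0_s41_of_sum (hsum : h6v_SumStatement)
    (E : WeierstrassCurve ℚ) [E.IsElliptic] {W : WeierstrassCurve ℤ} (hW : W.IsIntegralModelOf E)
    {p N q' : ℕ} (hp : p.Prime) (hp2 : p ≠ 2) (hN : 0 < N) (hq' : q'.Prime) (hq'N : ¬ q' ∣ N)
    (hq'p : q' ≠ p)
    (hirr : GaloisRepIsIrreducible (K := AlgebraicClosure ℚ) ℚ E p)
    (f : CuspForm (CongruenceSubgroup.Gamma0 N) 2) (𝔪 : Ideal (integralClosure ℤ ℂ))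
    (hf : f.IsNormalizedEigenform) (hmax : 𝔪.IsMaximal) (hpm : (p : integralClosure ℤ ℂ) ∈ 𝔪)
    (hcong : ∀ ℓ : ℕ, ℓ.Prime → W.IsGoodPrimeFor ℓ → ¬ ℓ ∣ N → ℓ ≠ p →
      ∃ a : integralClosure ℤ ℂ, (a : ℂ) = ModularFormClass.qCoeff f ℓ ∧
        a - ((W.apOfModel ℓ : ℤ) : integralClosure ℤ ℂ) ∈ 𝔪)
    (hLR : ∃ a : integralClosure ℤ ℂ, (a : ℂ) = ModularFormClass.qCoeff f q' ∧
      a ^ 2 - ((q' : integralClosure ℤ ℂ) + 1) ^ 2 ∈ 𝔪) :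
    ∃ (g : CuspForm (CongruenceSubgroup.Gamma0 (N * q')) 2) (𝔪' : Ideal (integralClosure ℤ ℂ)),
      g.IsNormalizedEigenform ∧ 𝔪'.IsMaximal ∧ (p : integralClosure ℤ ℂ) ∈ 𝔪' ∧
      (∀ ℓ : ℕ, ℓ.Prime → W.IsGoodPrimeFor ℓ → ¬ ℓ ∣ N * q' → ℓ ≠ p →
        ∃ a : integralClosure ℤ ℂ, (a : ℂ) = ModularFormClass.qCoeff g ℓ ∧
          a - ((W.apOfModel ℓ : ℤ) : integralClosure ℤ ℂ) ∈ 𝔪') ∧
      g.IsNewAt q' :=
  l0_s41_of_betaAdj (l0_betaAdj_of_sum hsum) E hW hp hp2 hN hq' hq'N hq'p hirr f 𝔪 hf hmax hpm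
    hcong hLR

end Fermat.Agent.Lib.S41
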